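import Fermat.Agent.S19.helper2111_Spec
import Fermat.Prelude.Def_FLTPrelim_Ramification

set_option autoImplicit false

/-!
# S19: the interface between the geometric core and the spine (captain's Spec, part 2)

* `IsCoordSystem ℓ N A g J1 b` : what a geometric core (any realisation) delivers at level `N`:
  a subgroup `J1` of `J₀(N)` ("kernel of reduction"), stable under the inertia group of `A`,
  `A`-valued inertia-equivariant injective coordinates `b` on `J1`, inertia-fixed centres in
  every class modulo `J1`, and an addition law that is polynomial with coefficients in `A`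
  modulo every power of `ℓ`, on every finite subset of `J1`.
* `Stmt_Coords ℓ N` : such a system exists (output of the core).
* `Stmt_Spine ℓ N` : the spine (centres, order, closure, descent): `Stmt_Coords` gives a function
  model of every `ℓ^k`-torsion group at the same level.
* `stmt_Model_of_level` : a function model comes back along an injective equivariant map of levels.
* `result_of_coords` : the frozen statement S19 from FUNCMODEL, FIN, the level map, the spine and
  the core at an auxiliary level.
-/

namespace Fermat.Agent.S19.helper2111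

open ModularCurve

/-- Output of the geometric core at level `N`. -/
structure IsCoordSystem (ℓ N : ℕ) (A : ValuationSubring Qb) (g : ℕ)
    (J1 : AddSubgroup (JZero N)) (b : JZero N → Fin g → Qb) : Prop where
  /-- `J1` is stable under inertia. -/
  stable : ∀ σ ∈ A.inertiaSubgroupIn ℚ, ∀ x ∈ J1, σ • x ∈ J1
  /-- The coordinates are integral on `J1`. -/
  val : ∀ x ∈ J1, ∀ i, b x i ∈ A
  /-- The coordinates are inertia-equivariant on `J1`. -/
  eqv : ∀ σ ∈ A.inertiaSubgroupIn ℚ, ∀ x ∈ J1, ∀ i, b (σ • x) i = σ (b x i)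
  /-- The coordinates are injective on `J1`. -/
  inj : ∀ x ∈ J1, ∀ y ∈ J1, b x = b y → x = y
  /-- Every class modulo `J1` contains an inertia-fixed point. -/
  cen : ∀ x : JZero N, ∃ y : JZero N, (∀ σ ∈ A.inertiaSubgroupIn ℚ, σ • y = y) ∧ x - y ∈ J1
  /-- The addition law: modulo `ℓ^j`, on a finite subset of `J1`, polynomial over `A`. -/
  law : ∀ (j : ℕ) (T : Finset (JZero N)), (∀ x ∈ T, x ∈ J1) →
    ∃ P : Fin g → MvPolynomial (Fin g ⊕ Fin g) Qb, (∀ i d, (P i).coeff d ∈ A) ∧
      ∀ x ∈ T, ∀ y ∈ T, ∀ i, ∃ w ∈ A,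
        b (x + y) i - MvPolynomial.eval (Sum.elim (b x) (b y)) (P i) = (ℓ : Qb) ^ j * w

/-- CORE: integral coordinates on the kernel of reduction exist at level `N`. -/
def Stmt_Coords (ℓ N : ℕ) : Prop :=
  ∃ A : ValuationSubring Qb, A.LiesOverPrime ℓ ∧
    ∃ (g : ℕ) (J1 : AddSubgroup (JZero N)) (b : JZero N → Fin g → Qb),
      IsCoordSystem ℓ N A g J1 b

/-- SPINE (centres, order, closure, descent): coordinates give a function model of every
`ℓ^k`-torsion group at the same level. -/
def Stmt_Spine (ℓ N : ℕ) : Prop :=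
  Stmt_Coords ℓ N → ∀ k : ℕ, Stmt_Model N ℓ k

/-- A function model of the torsion comes back along an injective equivariant map of levels. -/
theorem stmt_Model_of_level {N N' ℓ k : ℕ} (φ : JZero N →+ JZero N')
    (hφ : Function.Injective φ) (hgal : ∀ (σ : GQ) (x : JZero N), φ (σ • x) = σ • φ x)
    (h : Stmt_Model N' ℓ k) : Stmt_Model N ℓ k := by
  have hmem : ∀ m : Tors N ℓ k, φ (m : JZero N) ∈ Submodule.torsionBy ℤ (JZero N') ((ℓ : ℤ) ^ k) := by
    intro m
    have hm := m.2
    rw [Submodule.mem_torsionBy_iff] at hm ⊢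
    rw [← map_zsmul, hm, map_zero]
  let ι : Tors N ℓ k →+ Tors N' ℓ k :=
    { toFun := fun m => ⟨φ (m : JZero N), hmem m⟩
      map_zero' := by
        apply Subtype.ext
        simp
      map_add' := by
        intro m m'
        apply Subtype.ext
        simp }
  refine GalModel.of_injective h ι ?_ ?_
  · intro m m' hmm
    apply Subtype.ext
    apply hφ
    exact congrArg Subtype.val hmm
  · intro σ m
    apply Subtype.ext
    show φ (σ • (m : JZero N)) = σ • φ (m : JZero N)
    exact hgal σ m

/-- **The chain**: frozen S19 from FUNCMODEL, FIN, a level map, the spine and the core at the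
auxiliary level `N'`. -/
theorem result_of_coords (p : ℕ) (ℓ : ℕ) (k : ℕ) (N' : ℕ)
    (hFM : Stmt_FuncModel ℓ) (hfin : Stmt_Fin p ℓ k)
    (φ : JZero p →+ JZero N') (hφ : Function.Injective φ)
    (hgal : ∀ (σ : GQ) (x : JZero p), φ (σ • x) = σ • φ x)
    (hspine : Stmt_Spine ℓ N') (hcore : Stmt_Coords ℓ N') :
    ∃ (H : Type) (_ : CommRing H) (_ : HopfAlgebra (GaloisRep.ratLocalizedAt ℓ) H),
      Module.Finite (GaloisRep.ratLocalizedAt ℓ) H ∧ Module.Flat (GaloisRep.ratLocalizedAt ℓ) H ∧
      Coalgebra.IsCocomm (GaloisRep.ratLocalizedAt ℓ) H ∧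
      ∃ e : WithConv (H →ₐ[GaloisRep.ratLocalizedAt ℓ] AlgebraicClosure ℚ) ≃
          ↥(Submodule.torsionBy ℤ (JZero p) ((ℓ : ℤ) ^ k)),
        (∀ f g, e (f * g) = e f + e g) ∧
        ∀ (σ : AlgebraicClosure ℚ ≃ₐ[ℚ] AlgebraicClosure ℚ)
          (f g : WithConv (H →ₐ[GaloisRep.ratLocalizedAt ℓ] AlgebraicClosure ℚ)),
          (∀ h : H, g h = σ (f h)) → ((e g : JZero p)) = σ • (e f : JZero p) :=
  result_of p ℓ k hFM hfin (stmt_Model_of_level φ hφ hgal (hspine hcore k))

end Fermat.Agent.S19.helper2111
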