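/-
S19-CLOSURE (helper2765): generated order + `ℓ`-adic closure principle.

Route-independent glue between every geometric core of S19 (integral coordinates on the kernel of
reduction, with an addition law known only modulo `ℓ^j` for every `j`) and the lattice descent
(`helper1312.exists_rat_model`).  Mathlib + Prelude definitions only.
-/
import Mathlib
import Fermat.Prelude.Def_FLTPrelim_Ramification

set_option autoImplicit false

namespace Fermat.Agent.S19.helper2765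

open scoped Pointwise

noncomputable section

/-! ### Part 1: abstract linear algebra -/

section LinearAlgebra

variable {K : Type*} [Field K] {X : Type*} {ι : Type*}

/-- Coordinates in a basis of a function space are fixed linear combinations of the values. -/
theorem repr_eq_sum [Fintype X] [DecidableEq X] (b : Module.Basis ι K (X → K)) (ω : X → K) (k : ι) :
    b.repr ω k = ∑ x, ω x * b.repr (Pi.single x 1) k := by
  have h : ω = ∑ x, ω x • (Pi.single x (1 : K) : X → K) := by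
    funext y
    simp [Finset.sum_apply, Pi.single_apply]
  conv_lhs => rw [h]
  simp [map_sum, Finset.sum_apply]

/-- **Bounded denominators.**  If every element of `K` is brought into the valuation ring `A` by
a power of `ℓ`, then one power of `ℓ` brings into `A` all coordinates of all `A`-valued
functions. -/
theorem exists_bound (A : ValuationSubring K) (ℓ : K) (hℓA : ℓ ∈ A)
    (hℓ : ∀ γ : K, ∃ r : ℕ, ℓ ^ r * γ ∈ A) [Finite X] [Finite ι]
    (b : Module.Basis ι K (X → K)) :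
    ∃ r : ℕ, ∀ ω : X → K, (∀ x, ω x ∈ A) → ∀ k, ℓ ^ r * b.repr ω k ∈ A := by
  classical
  cases nonempty_fintype X
  cases nonempty_fintype ι
  choose rr hrr using fun p : ι × X => hℓ (b.repr (Pi.single p.2 1) p.1)
  refine ⟨Finset.univ.sup rr, fun ω hω k => ?_⟩
  rw [repr_eq_sum, Finset.mul_sum]
  refine Subring.sum_mem _ fun x _ => ?_
  have hle : rr (k, x) ≤ Finset.univ.sup rr := Finset.le_sup (Finset.mem_univ _)
  obtain ⟨d, hd⟩ := Nat.exists_eq_add_of_le hle
  have h1 : ℓ ^ (Finset.univ.sup rr) * (ω x * b.repr (Pi.single x 1) k)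
      = ℓ ^ d * ω x * (ℓ ^ rr (k, x) * b.repr (Pi.single x 1) k) := by
    rw [hd, pow_add]; ring
  rw [h1]
  exact A.mul_mem _ _ (A.mul_mem _ _ (pow_mem hℓA d) (hω x)) (hrr (k, x))

/-- Coordinates of a semi-invariant function in a basis of semi-invariant functions are
invariant. -/
theorem repr_fixed [Fintype ι] (b : Module.Basis ι K (X → K)) (σ : K ≃+* K) (τ : X → X)
    (hτ : Function.Surjective τ) (hb : ∀ k x, b k (τ x) = σ (b k x)) (ω : X → K)
    (hω : ∀ x, ω (τ x) = σ (ω x)) (k : ι) : σ (b.repr ω k) = b.repr ω k := by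
  have h : ω = ∑ i, σ (b.repr ω i) • b i := by
    funext y
    obtain ⟨x, rfl⟩ := hτ y
    rw [hω]
    conv_lhs => rw [← b.sum_repr ω]
    simp [Finset.sum_apply, map_sum, hb]
  have h2 := congrArg (fun f => b.repr f k) h
  simp only [b.repr_sum_self] at h2
  exact h2.symm


/-- Finite Stone–Weierstrass: the span of a multiplicatively closed set of functions on a finite
set that separates points is everything. -/
theorem span_eq_top_of_separates [Finite X] (T : Submonoid (X → K))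
    (hsep : ∀ x y, x ≠ y → ∃ f ∈ T, f x ≠ f y) :
    Submodule.span K (T : Set (X → K)) = ⊤ := by
  classical
  cases nonempty_fintype X
  have hspan : Submodule.span K (T : Set (X → K))
      = Subalgebra.toSubmodule (Algebra.adjoin K (T : Set (X → K))) := by
    rw [Algebra.adjoin_eq_span, Submonoid.closure_eq]
  rw [hspan, eq_top_iff]
  intro ω _
  set S := Algebra.adjoin K (T : Set (X → K)) with hS
  -- separating functions normalised to values `1` and `0`
  have hg : ∀ x y, x ≠ y → ∃ g ∈ S, g x = 1 ∧ g y = 0 := by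
    intro x y hxy
    obtain ⟨f, hfT, hf⟩ := hsep x y hxy
    have hfS : f ∈ S := Algebra.subset_adjoin hfT
    refine ⟨(f x - f y)⁻¹ • (f - algebraMap K (X → K) (f y)), ?_, ?_, ?_⟩
    · exact S.smul_mem (S.sub_mem hfS (S.algebraMap_mem _)) _
    · have : f x - f y ≠ 0 := sub_ne_zero.mpr hf
      simp [Pi.smul_apply, Pi.sub_apply, this]
    · simp [Pi.smul_apply, Pi.sub_apply]
  choose g hgS hg1 hg0 using hg
  have hδ : ∀ x, (Pi.single x (1 : K) : X → K) ∈ S := by
    intro x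
    have hprod : (∏ y ∈ Finset.univ.erase x,
        (if h : x ≠ y then g x y h else (1 : X → K))) ∈ S := by
      refine Subalgebra.prod_mem _ fun y _ => ?_
      split_ifs with h
      · exact hgS x y h
      · exact S.one_mem
    have heq : (∏ y ∈ Finset.univ.erase x,
        (if h : x ≠ y then g x y h else (1 : X → K))) = Pi.single x (1 : K) := by
      funext z
      rw [Finset.prod_apply]
      by_cases hz : z = x
      · subst hz
        rw [Pi.single_eq_same]
        refine Finset.prod_eq_one fun y hy => ?_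
        have hne : z ≠ y := (Finset.ne_of_mem_erase hy).symm
        rw [dif_pos hne]
        exact hg1 z y hne
      · rw [Pi.single_eq_of_ne hz]
        have hne : x ≠ z := fun h => hz h.symm
        refine Finset.prod_eq_zero (i := z) (Finset.mem_erase.mpr ⟨hz, Finset.mem_univ _⟩) ?_
        rw [dif_pos hne]
        exact hg0 x z hne
    rw [← heq]
    exact hprod
  have hω : ω = ∑ x, ω x • (Pi.single x (1 : K) : X → K) := by
    funext y
    simp [Finset.sum_apply, Pi.single_apply]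
  rw [hω]
  exact Subalgebra.sum_mem _ fun x _ => S.smul_mem (hδ x) _

/-- A spanning set of a function space on a finite set contains a (finite) basis. -/
theorem exists_basis_subset [Finite X] (T : Set (X → K)) (hT : Submodule.span K T = ⊤) :
    ∃ (B : Set (X → K)) (_ : Fintype B) (b : Module.Basis B K (X → K)),
      B ⊆ T ∧ ∀ i : B, b i = (i : X → K) := by
  classical
  cases nonempty_fintype X
  obtain ⟨B, hBT, hspan, hli⟩ := exists_linearIndependent K T
  have htop : ⊤ ≤ Submodule.span K (Set.range (Subtype.val : B → X → K)) := by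
    rw [Subtype.range_coe, hspan, hT]
  let b : Module.Basis B K (X → K) := Module.Basis.mk hli htop
  have : Finite B := Module.Finite.finite_basis b
  exact ⟨B, Fintype.ofFinite B, b, hBT, fun i => by simp [b]⟩

end LinearAlgebra

/-! ### Part 2: valuation rings of `ℚ̄` above a prime -/

section Valuation

local notation "Qb" => AlgebraicClosure ℚ

/-- An element of `ℚ̄` integral over `ℤ` lies in every valuation subring. -/
theorem mem_of_isIntegral (A : ValuationSubring Qb) {x : Qb} (hx : IsIntegral ℤ x) : x ∈ A := by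
  rw [← A.valuation_le_one_iff]
  by_contra hlt
  rw [not_le] at hlt
  obtain ⟨f, hm, hf⟩ := hx
  have hn : f.natDegree ≠ 0 := by
    intro hn
    have h1 : f = 1 := Polynomial.eq_one_of_monic_natDegree_zero hm hn
    rw [h1, Polynomial.eval₂_one] at hf
    exact one_ne_zero hf
  simp only [Polynomial.eval₂_eq_sum_range, Finset.sum_range_succ, hm.coeff_natDegree, map_one,
    one_mul, add_eq_zero_iff_eq_neg] at hf
  have hf' := congrArg A.valuation hf
  rw [Valuation.map_neg, map_pow] at hf'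
  refine absurd hf' (ne_of_lt (A.valuation.map_sum_lt ?_ ?_))
  · exact pow_ne_zero _ (ne_of_gt (lt_trans zero_lt_one hlt))
  · intro i hi
    rw [Finset.mem_range] at hi
    rw [map_mul, map_pow]
    have hc : A.valuation (algebraMap ℤ Qb (f.coeff i)) ≤ 1 := by
      rw [A.valuation_le_one_iff]
      rw [eq_intCast]
      exact intCast_mem A _
    exact mul_lt_of_le_one_of_lt hc (pow_lt_pow_right₀ hlt hi)

/-- In a valuation subring of `ℚ̄` above `ℓ`, every element is brought into the ring by a power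
of `ℓ`. -/
theorem exists_pow_mul_mem {ℓ : ℕ} (hℓ : ℓ.Prime) (A : ValuationSubring Qb)
    (hA : A.LiesOverPrime ℓ) (γ : Qb) : ∃ r : ℕ, (ℓ : Qb) ^ r * γ ∈ A := by
  have halg : IsAlgebraic ℤ γ :=
    (IsFractionRing.isAlgebraic_iff ℤ ℚ Qb).mpr ((AlgebraicClosure.isAlgebraic ℚ).isAlgebraic γ)
  obtain ⟨y, hy0, hy⟩ := halg.exists_integral_multiple
  have hn0 : y.natAbs ≠ 0 := Int.natAbs_ne_zero.mpr hy0
  obtain ⟨r, u, hu, hyu⟩ := Nat.exists_eq_pow_mul_and_not_dvd hn0 ℓ hℓ.ne_one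
  refine ⟨r, ?_⟩
  -- `u` is a unit of `A`
  have hℓlt : A.valuation (ℓ : Qb) < 1 := by
    rw [← ValuationSubring.mem_nonunits_iff]; exact hA
  have hu1 : A.valuation (u : Qb) = 1 := by
    have hule : A.valuation (u : Qb) ≤ 1 := by
      rw [A.valuation_le_one_iff]; exact natCast_mem A u
    rcases lt_or_eq_of_le hule with hlt | heq
    · exfalso
      have hcop : Nat.Coprime ℓ u := (Nat.Prime.coprime_iff_not_dvd hℓ).mpr hu
      have hbez : (ℓ : ℤ) * Nat.gcdA ℓ u + (u : ℤ) * Nat.gcdB ℓ u = 1 := by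
        have := Nat.gcd_eq_gcd_ab ℓ u
        rw [hcop] at this
        exact_mod_cast this.symm
      have hbez' : (ℓ : Qb) * ((Nat.gcdA ℓ u : ℤ) : Qb) + (u : Qb) * ((Nat.gcdB ℓ u : ℤ) : Qb)
          = 1 := by exact_mod_cast congrArg (Int.cast : ℤ → Qb) hbez
      have h1 : A.valuation ((ℓ : Qb) * ((Nat.gcdA ℓ u : ℤ) : Qb)) < 1 := by
        rw [map_mul]
        have : A.valuation (((Nat.gcdA ℓ u : ℤ) : Qb)) ≤ 1 := by
          rw [A.valuation_le_one_iff]; exact intCast_mem A _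
        exact mul_lt_one_of_lt_of_le hℓlt this
      have h2 : A.valuation ((u : Qb) * ((Nat.gcdB ℓ u : ℤ) : Qb)) < 1 := by
        rw [map_mul]
        have : A.valuation (((Nat.gcdB ℓ u : ℤ) : Qb)) ≤ 1 := by
          rw [A.valuation_le_one_iff]; exact intCast_mem A _
        exact mul_lt_one_of_lt_of_le hlt this
      have := A.valuation.map_add_lt h1 h2
      rw [hbez', map_one] at this
      exact lt_irrefl _ this
    · exact heq
  have hmem : (y : Qb) * γ ∈ A := by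
    have : (y : Qb) * γ = y • γ := by rw [zsmul_eq_mul]
    rw [this]
    exact mem_of_isIntegral A hy
  rw [← A.valuation_le_one_iff] at hmem ⊢
  have habs : A.valuation (y : Qb) = A.valuation ((ℓ : Qb) ^ r * (u : Qb)) := by
    have h1 : ((y.natAbs : ℕ) : Qb) = (ℓ : Qb) ^ r * (u : Qb) := by
      rw [hyu]; push_cast; ring
    rw [← h1]
    rcases Int.natAbs_eq y with h | h
    · conv_lhs => rw [h]
      simp
    · conv_lhs => rw [h]
      simp
  rw [map_mul, habs, map_mul, hu1, mul_one] at hmem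
  rw [map_mul]
  exact hmem

end Valuation

/-! ### Part 3: the generated order -/

section Order

local notation "Qb" => AlgebraicClosure ℚ
local notation "G" => (AlgebraicClosure ℚ ≃ₐ[ℚ] AlgebraicClosure ℚ)

/-- The decomposition group preserves the valuation ring. -/
theorem decomp_apply_mem (A : ValuationSubring Qb) {s : G} (hs : s ∈ A.decompositionSubgroup ℚ)
    {x : Qb} (hx : x ∈ A) : s x ∈ A := by
  have h := ValuationSubring.smul_mem_pointwise_smul s x A hx
  rw [MulAction.mem_stabilizer_iff.mp hs] at h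
  exact h

/-- Inertia is contained in the decomposition group. -/
theorem inertia_mem_decomp (A : ValuationSubring Qb) {σ : G} (hσ : σ ∈ A.inertiaSubgroupIn ℚ) :
    σ ∈ A.decompositionSubgroup ℚ := by
  obtain ⟨τ, -, rfl⟩ := Subgroup.mem_map.mp hσ
  exact τ.2

/-- Inertia is normal in the decomposition group. -/
theorem inertia_conj_mem (A : ValuationSubring Qb) {s σ : G} (hs : s ∈ A.decompositionSubgroup ℚ)
    (hσ : σ ∈ A.inertiaSubgroupIn ℚ) : s⁻¹ * σ * s ∈ A.inertiaSubgroupIn ℚ := by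
  obtain ⟨τ, hτ, rfl⟩ := Subgroup.mem_map.mp hσ
  have hnorm : (A.inertiaSubgroup ℚ).Normal := by
    unfold ValuationSubring.inertiaSubgroup
    exact MonoidHom.normal_ker _
  have h := hnorm.conj_mem τ hτ (⟨s, hs⟩ : A.decompositionSubgroup ℚ)⁻¹
  refine Subgroup.mem_map.mpr ⟨_, h, ?_⟩
  simp

variable {M : Type*}

/-- The conjugate of a function `M → ℚ̄` by a Galois element. -/
def conj [MulAction G M] (s : G) (φ : M → Qb) : M → Qb := fun m => s (φ (s⁻¹ • m))

theorem conj_apply [MulAction G M] (s : G) (φ : M → Qb) (m : M) :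
    conj s φ m = s (φ (s⁻¹ • m)) := rfl

theorem conj_one [MulAction G M] (φ : M → Qb) : conj (1 : G) φ = φ := by
  funext m; simp [conj]

theorem conj_mul [MulAction G M] (s t : G) (φ : M → Qb) :
    conj (s * t) φ = conj s (conj t φ) := by
  funext m; simp [conj, mul_smul]

/-- Conjugation by `s` as a ring homomorphism of the function ring. -/
def conjHom [MulAction G M] (s : G) : (M → Qb) →+* (M → Qb) where
  toFun := conj s
  map_one' := by funext m; simp [conj]
  map_mul' f g := by funext m; simp [conj]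
  map_zero' := by funext m; simp [conj]
  map_add' f g := by funext m; simp [conj]

theorem conjHom_apply [MulAction G M] (s : G) (φ : M → Qb) : conjHom s φ = conj s φ := rfl

/-- Constant functions with value in the inertia-fixed ring `A^I`. -/
def constSet (A : ValuationSubring Qb) (M : Type*) : Set (M → Qb) :=
  {f | ∃ c ∈ A, (∀ s ∈ A.inertiaSubgroupIn ℚ, s c = c) ∧ f = fun _ => c}

/-- Decomposition-group conjugates of the coordinate functions. -/
def conjSet (A : ValuationSubring Qb) [MulAction G M] (Φ : Set (M → Qb)) : Set (M → Qb) :=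
  {f | ∃ s ∈ A.decompositionSubgroup ℚ, ∃ φ ∈ Φ, f = conj s φ}

/-- **The generated order**: the ring generated by the `A^I`-constants and all
decomposition-group conjugates of the coordinate functions `Φ`. -/
def genOrder (A : ValuationSubring Qb) [MulAction G M] (Φ : Set (M → Qb)) : Subring (M → Qb) :=
  Subring.closure (constSet A M ∪ conjSet A Φ)

theorem const_mem_genOrder (A : ValuationSubring Qb) [MulAction G M] (Φ : Set (M → Qb))
    {c : Qb} (hc : c ∈ A) (hcI : ∀ s ∈ A.inertiaSubgroupIn ℚ, s c = c) :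
    (fun _ : M => c) ∈ genOrder A Φ :=
  Subring.subset_closure (Or.inl ⟨c, hc, hcI, rfl⟩)

theorem conj_mem_genOrder (A : ValuationSubring Qb) [MulAction G M] (Φ : Set (M → Qb))
    {s : G} (hs : s ∈ A.decompositionSubgroup ℚ) {φ : M → Qb} (hφ : φ ∈ Φ) :
    conj s φ ∈ genOrder A Φ :=
  Subring.subset_closure (Or.inr ⟨s, hs, φ, hφ, rfl⟩)

theorem subset_genOrder (A : ValuationSubring Qb) [MulAction G M] (Φ : Set (M → Qb))
    {φ : M → Qb} (hφ : φ ∈ Φ) : φ ∈ genOrder A Φ := by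
  have h := conj_mem_genOrder A Φ (Subgroup.one_mem _) hφ
  rwa [conj_one] at h

/-- (hval) -/
theorem genOrder_val (A : ValuationSubring Qb) [MulAction G M] (Φ : Set (M → Qb))
    (gval : ∀ φ ∈ Φ, ∀ m, φ m ∈ A) : ∀ φ ∈ genOrder A Φ, ∀ m, φ m ∈ A := by
  intro φ hφ
  induction hφ using Subring.closure_induction with
  | mem f hf =>
    rcases hf with ⟨c, hc, -, rfl⟩ | ⟨s, hs, ψ, hψ, rfl⟩
    · intro m; exact hc
    · intro m; exact decomp_apply_mem A hs (gval ψ hψ _)
  | zero => intro m; exact A.zero_mem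
  | one => intro m; exact A.one_mem
  | add f g _ _ hf hg => intro m; exact A.add_mem _ _ (hf m) (hg m)
  | neg f _ hf => intro m; exact A.neg_mem _ (hf m)
  | mul f g _ _ hf hg => intro m; exact A.mul_mem _ _ (hf m) (hg m)

/-- (hI) -/
theorem genOrder_inertia (A : ValuationSubring Qb) [MulAction G M] (Φ : Set (M → Qb))
    (gI : ∀ φ ∈ Φ, ∀ s ∈ A.inertiaSubgroupIn ℚ, ∀ m, φ (s • m) = s (φ m)) :
    ∀ φ ∈ genOrder A Φ, ∀ s ∈ A.inertiaSubgroupIn ℚ, ∀ m, φ (s • m) = s (φ m) := by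
  intro φ hφ
  induction hφ using Subring.closure_induction with
  | mem f hf =>
    rcases hf with ⟨c, hc, hcI, rfl⟩ | ⟨t, ht, ψ, hψ, rfl⟩
    · intro s hs m; exact (hcI s hs).symm
    · intro s hs m
      have h := gI ψ hψ _ (inertia_conj_mem A ht hs) (t⁻¹ • m)
      simp only [conj_apply]
      have e : t⁻¹ • s • m = (t⁻¹ * s * t) • t⁻¹ • m := by
        simp [mul_smul]
      rw [e, h]
      simp
  | zero => intro s hs m; simp
  | one => intro s hs m; simp
  | add f g _ _ hf hg => intro s hs m; simp [hf s hs m, hg s hs m]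
  | neg f _ hf => intro s hs m; simp [hf s hs m]
  | mul f g _ _ hf hg => intro s hs m; simp [hf s hs m, hg s hs m]

/-- (hD) -/
theorem genOrder_decomp (A : ValuationSubring Qb) [MulAction G M] (Φ : Set (M → Qb)) :
    ∀ φ ∈ genOrder A Φ, ∀ s ∈ A.decompositionSubgroup ℚ,
      (fun m => s (φ (s⁻¹ • m))) ∈ genOrder A Φ := by
  intro φ hφ s hs
  change conjHom s φ ∈ genOrder A Φ
  have hle : (genOrder A Φ).map (conjHom s) ≤ genOrder A Φ := by
    unfold genOrder
    rw [RingHom.map_closure, Subring.closure_le]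
    rintro _ ⟨f, hf, rfl⟩
    rcases hf with ⟨c, hc, hcI, rfl⟩ | ⟨t, ht, ψ, hψ, rfl⟩
    · refine Subring.subset_closure (Or.inl ⟨s c, decomp_apply_mem A hs hc, ?_, ?_⟩)
      · intro σ hσ
        have h := hcI _ (inertia_conj_mem A hs hσ)
        have h2 : σ (s c) = s ((s⁻¹ * σ * s) c) := by simp
        rw [h2, h]
      · funext m; simp [conjHom_apply, conj]
    · refine Subring.subset_closure (Or.inr ⟨s * t, Subgroup.mul_mem _ hs ht, ψ, hψ, ?_⟩)
      rw [conjHom_apply, conj_mul]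
  exact hle (Subring.mem_map.mpr ⟨φ, hφ, rfl⟩)

/-- (hR0) -/
theorem genOrder_smul (A : ValuationSubring Qb) [MulAction G M] (Φ : Set (M → Qb)) :
    ∀ c ∈ A, (∀ s ∈ A.inertiaSubgroupIn ℚ, s c = c) → ∀ φ ∈ genOrder A Φ,
      (fun m => c * φ m) ∈ genOrder A Φ := by
  intro c hc hcI φ hφ
  exact (genOrder A Φ).mul_mem (const_mem_genOrder A Φ hc hcI) hφ

/-- (hsep) -/
theorem genOrder_sep (A : ValuationSubring Qb) [MulAction G M] (Φ : Set (M → Qb))
    (gsep : ∀ m m', m ≠ m' → ∃ φ ∈ Φ, φ m ≠ φ m') :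
    ∀ m m', m ≠ m' → ∃ φ ∈ genOrder A Φ, φ m ≠ φ m' := by
  intro m m' h
  obtain ⟨φ, hφ, hne⟩ := gsep m m' h
  exact ⟨φ, subset_genOrder A Φ hφ, hne⟩

end Order

/-- Re-indexing of a finite sum of products by `Fin n`. -/
theorem hasLaw_of_fintype' {M : Type*} {H : Subring (M → AlgebraicClosure ℚ)}
    {F : M → M → AlgebraicClosure ℚ} {ι : Type*} [Fintype ι]
    (a b : ι → M → AlgebraicClosure ℚ) (ha : ∀ i, a i ∈ H) (hb : ∀ i, b i ∈ H)
    (h : ∀ m m', F m m' = ∑ i, a i m * b i m') :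
    ∃ (n : ℕ) (a b : Fin n → M → AlgebraicClosure ℚ), (∀ i, a i ∈ H) ∧ (∀ i, b i ∈ H) ∧
      ∀ m m', F m m' = ∑ i, a i m * b i m' := by
  refine ⟨Fintype.card ι, a ∘ (Fintype.equivFin ι).symm, b ∘ (Fintype.equivFin ι).symm,
    fun i => ha _, fun i => hb _, fun m m' => ?_⟩
  rw [h]
  exact Fintype.sum_equiv (Fintype.equivFin ι) _ _ (fun i => by simp)

/-! ### Part 4: the addition law -/

section Law

local notation "Qb" => AlgebraicClosure ℚ
local notation "G" => (AlgebraicClosure ℚ ≃ₐ[ℚ] AlgebraicClosure ℚ)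

variable {M : Type*}

/-- `φ` satisfies the exact addition law with coefficient functions in `H`:
`φ (m + m') = ∑ i, a i m * b i m'`. -/
def HasLaw [Add M] (H : Subring (M → Qb)) (φ : M → Qb) : Prop :=
  ∃ (n : ℕ) (a b : Fin n → M → Qb), (∀ i, a i ∈ H) ∧ (∀ i, b i ∈ H) ∧
    ∀ m m', φ (m + m') = ∑ i, a i m * b i m'

theorem hasLaw_of_fintype [Add M] {H : Subring (M → Qb)} {φ : M → Qb} {ι : Type*} [Fintype ι]
    (a b : ι → M → Qb) (ha : ∀ i, a i ∈ H) (hb : ∀ i, b i ∈ H)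
    (h : ∀ m m', φ (m + m') = ∑ i, a i m * b i m') : HasLaw H φ := by
  refine ⟨Fintype.card ι, a ∘ (Fintype.equivFin ι).symm, b ∘ (Fintype.equivFin ι).symm,
    fun i => ha _, fun i => hb _, fun m m' => ?_⟩
  rw [h]
  exact Fintype.sum_equiv (Fintype.equivFin ι) _ _ (fun i => by simp)

theorem hasLaw_const [Add M] {H : Subring (M → Qb)} {c : Qb} (hc : (fun _ : M => c) ∈ H) :
    HasLaw H (fun _ : M => c) :=
  ⟨1, fun _ => fun _ => c, fun _ => 1, fun _ => hc, fun _ => H.one_mem, fun m m' => by simp⟩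

theorem HasLaw.add [Add M] {H : Subring (M → Qb)} {φ ψ : M → Qb} (hφ : HasLaw H φ)
    (hψ : HasLaw H ψ) : HasLaw H (φ + ψ) := by
  obtain ⟨n, a, b, ha, hb, h⟩ := hφ
  obtain ⟨n', a', b', ha', hb', h'⟩ := hψ
  refine hasLaw_of_fintype (ι := Fin n ⊕ Fin n') (Sum.elim a a') (Sum.elim b b') ?_ ?_ ?_
  · rintro (i | i) <;> simp [ha, ha']
  · rintro (i | i) <;> simp [hb, hb']
  · intro m m'
    simp [Fintype.sum_sum_type, h, h']

theorem HasLaw.neg [Add M] {H : Subring (M → Qb)} {φ : M → Qb} (hφ : HasLaw H φ) :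
    HasLaw H (-φ) := by
  obtain ⟨n, a, b, ha, hb, h⟩ := hφ
  refine ⟨n, fun i => -a i, b, fun i => H.neg_mem (ha i), hb, fun m m' => ?_⟩
  simp [h, Finset.sum_neg_distrib]

theorem HasLaw.mul [Add M] {H : Subring (M → Qb)} {φ ψ : M → Qb} (hφ : HasLaw H φ)
    (hψ : HasLaw H ψ) : HasLaw H (φ * ψ) := by
  obtain ⟨n, a, b, ha, hb, h⟩ := hφ
  obtain ⟨n', a', b', ha', hb', h'⟩ := hψ
  refine hasLaw_of_fintype (ι := Fin n × Fin n') (fun p => a p.1 * a' p.2)
    (fun p => b p.1 * b' p.2) (fun p => H.mul_mem (ha _) (ha' _))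
    (fun p => H.mul_mem (hb _) (hb' _)) ?_
  intro m m'
  rw [Pi.mul_apply, h, h', Finset.sum_mul_sum, Fintype.sum_prod_type]
  refine Finset.sum_congr rfl fun i _ => Finset.sum_congr rfl fun j _ => ?_
  simp only [Pi.mul_apply]
  ring

theorem hasLaw_conj [AddMonoid M] [DistribMulAction G M] {H : Subring (M → Qb)} {φ : M → Qb}
    (hφ : HasLaw H φ) (s : G) (hs : ∀ f ∈ H, conj s f ∈ H) : HasLaw H (conj s φ) := by
  obtain ⟨n, a, b, ha, hb, h⟩ := hφ
  refine ⟨n, fun i => conj s (a i), fun i => conj s (b i), fun i => hs _ (ha i),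
    fun i => hs _ (hb i), fun m m' => ?_⟩
  simp only [conj_apply, smul_add, h, map_sum, map_mul]

/-- **Bounded denominators for the order** `H ⊗ H`: one power of `ℓ` brings every `A`-valued
inertia-equivariant function on `M × M` into the span of the products `a(m) b(m')`,
`a, b ∈ H`. -/
theorem exists_uniform_bound {ℓ : ℕ} (hℓ : ℓ.Prime) (A : ValuationSubring Qb)
    (hA : A.LiesOverPrime ℓ) [Finite M] [MulAction G M] (H : Subring (M → Qb))
    (hI : ∀ φ ∈ H, ∀ s ∈ A.inertiaSubgroupIn ℚ, ∀ m, φ (s • m) = s (φ m))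
    (hR0 : ∀ c ∈ A, (∀ s ∈ A.inertiaSubgroupIn ℚ, s c = c) → ∀ φ ∈ H, (fun m => c * φ m) ∈ H)
    (hsep : ∀ m m', m ≠ m' → ∃ φ ∈ H, φ m ≠ φ m') :
    ∃ r : ℕ, ∀ ω : M × M → Qb, (∀ p, ω p ∈ A) →
      (∀ s ∈ A.inertiaSubgroupIn ℚ, ∀ m m', ω (s • m, s • m') = s (ω (m, m'))) →
      ∃ (n : ℕ) (a b : Fin n → M → Qb), (∀ i, a i ∈ H) ∧ (∀ i, b i ∈ H) ∧
        ∀ m m', (ℓ : Qb) ^ r * ω (m, m') = ∑ i, a i m * b i m' := by
  classical
  -- the multiplicative monoid of pure tensors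
  let T : Submonoid (M × M → Qb) :=
    { carrier := {f | ∃ a ∈ H, ∃ b ∈ H, f = fun p => a p.1 * b p.2}
      one_mem' := ⟨1, H.one_mem, 1, H.one_mem, by funext p; simp⟩
      mul_mem' := by
        rintro _ _ ⟨a, ha, b, hb, rfl⟩ ⟨a', ha', b', hb', rfl⟩
        refine ⟨a * a', H.mul_mem ha ha', b * b', H.mul_mem hb hb', ?_⟩
        funext p; simp only [Pi.mul_apply]; ring }
  have hTsep : ∀ x y : M × M, x ≠ y → ∃ f ∈ T, f x ≠ f y := by
    rintro ⟨x1, x2⟩ ⟨y1, y2⟩ hxy
    by_cases h1 : x1 = y1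
    · have h2 : x2 ≠ y2 := fun h2 => hxy (by rw [h1, h2])
      obtain ⟨φ, hφ, hne⟩ := hsep x2 y2 h2
      exact ⟨fun p => (1 : M → Qb) p.1 * φ p.2, ⟨1, H.one_mem, φ, hφ, rfl⟩, by simpa using hne⟩
    · obtain ⟨φ, hφ, hne⟩ := hsep x1 y1 h1
      exact ⟨fun p => φ p.1 * (1 : M → Qb) p.2, ⟨φ, hφ, 1, H.one_mem, rfl⟩, by simpa using hne⟩
  have hspan := span_eq_top_of_separates T hTsep
  obtain ⟨B, hBfin, b, hBT, hb⟩ := exists_basis_subset (T : Set (M × M → Qb)) hspan
  have hBT' : ∀ i : B, ∃ a ∈ H, ∃ c ∈ H, (i : M × M → Qb) = fun p => a p.1 * c p.2 :=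
    fun i => hBT i.2
  choose fa hfa fc hfc hfeq using hBT'
  have hℓA : (ℓ : Qb) ∈ A := natCast_mem A ℓ
  obtain ⟨r, hr⟩ := exists_bound A (ℓ : Qb) hℓA (exists_pow_mul_mem hℓ A hA) b
  refine ⟨r, fun ω hωA hωI => ?_⟩
  -- the coefficients `ℓ^r c_k` are constants of `A^I`
  have hcA : ∀ k, (ℓ : Qb) ^ r * b.repr ω k ∈ A := hr ω hωA
  have hcI : ∀ k, ∀ s ∈ A.inertiaSubgroupIn ℚ,
      s ((ℓ : Qb) ^ r * b.repr ω k) = (ℓ : Qb) ^ r * b.repr ω k := by
    intro k s hs
    have hfix : (s : Qb ≃+* Qb) (b.repr ω k) = b.repr ω k := by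
      refine repr_fixed b (s : Qb ≃+* Qb) (fun p => (s • p.1, s • p.2)) ?_ ?_ ω ?_ k
      · rintro ⟨y1, y2⟩
        exact ⟨(s⁻¹ • y1, s⁻¹ • y2), by simp⟩
      · rintro i ⟨x1, x2⟩
        rw [hb i, hfeq i]
        simp only [hI _ (hfa i) s hs, hI _ (hfc i) s hs]
        simp
      · rintro ⟨x1, x2⟩
        simpa using hωI s hs x1 x2
    have hfix' : s (b.repr ω k) = b.repr ω k := hfix
    rw [map_mul, map_pow, map_natCast, hfix']
  refine hasLaw_of_fintype' (fun k : B => fun m => ((ℓ : Qb) ^ r * b.repr ω k) * fa k m)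
    (fun k : B => fc k) (fun k => hR0 _ (hcA k) (hcI k) _ (hfa k)) (fun k => hfc k) ?_
  intro m m'
  have hsum := congrFun (b.sum_repr ω) (m, m')
  rw [← hsum, Finset.sum_apply, Finset.mul_sum]
  refine Finset.sum_congr rfl fun k _ => ?_
  rw [Pi.smul_apply, hb k, hfeq k]
  simp only [smul_eq_mul]
  ring

end Law

/-! ### Part 5: the closure principle -/

section Main

local notation "Qb" => AlgebraicClosure ℚ
local notation "G" => (AlgebraicClosure ℚ ≃ₐ[ℚ] AlgebraicClosure ℚ)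

variable {M : Type*}

/-- **`ℓ`-adic closure principle.**  Let `H` be a ring of inertia-equivariant functions on the
finite group `M`, stable under `A^I`-constants and separating points.  There is `r` such that
every `A`-valued inertia-equivariant `φ` whose addition law holds modulo `ℓ^r` with
approximants in `H` satisfies the exact addition law with coefficients in `H`. -/
theorem exists_closure_bound {ℓ : ℕ} (hℓ : ℓ.Prime) (A : ValuationSubring Qb)
    (hA : A.LiesOverPrime ℓ) [AddMonoid M] [Finite M] [DistribMulAction G M]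
    (H : Subring (M → Qb))
    (hI : ∀ φ ∈ H, ∀ s ∈ A.inertiaSubgroupIn ℚ, ∀ m, φ (s • m) = s (φ m))
    (hR0 : ∀ c ∈ A, (∀ s ∈ A.inertiaSubgroupIn ℚ, s c = c) → ∀ φ ∈ H, (fun m => c * φ m) ∈ H)
    (hsep : ∀ m m', m ≠ m' → ∃ φ ∈ H, φ m ≠ φ m') :
    ∃ r : ℕ, ∀ φ : M → Qb,
      (∀ s ∈ A.inertiaSubgroupIn ℚ, ∀ m, φ (s • m) = s (φ m)) →
      (∃ (n : ℕ) (a b : Fin n → M → Qb), (∀ i, a i ∈ H) ∧ (∀ i, b i ∈ H) ∧
        ∀ m m', ∃ w ∈ A, φ (m + m') - ∑ i, a i m * b i m' = (ℓ : Qb) ^ r * w) →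
      HasLaw H φ := by
  obtain ⟨r, hr⟩ := exists_uniform_bound hℓ A hA H hI hR0 hsep
  refine ⟨r, fun φ hφI ⟨n, a, b, ha, hb, hw⟩ => ?_⟩
  have hℓ0 : ((ℓ : Qb) ^ r) ≠ 0 := pow_ne_zero _ (Nat.cast_ne_zero.mpr hℓ.ne_zero)
  let ω : M × M → Qb := fun p => (φ (p.1 + p.2) - ∑ i, a i p.1 * b i p.2) / (ℓ : Qb) ^ r
  have hωA : ∀ p, ω p ∈ A := by
    rintro ⟨m, m'⟩
    obtain ⟨w, hwA, hweq⟩ := hw m m'
    have : ω (m, m') = w := by
      simp only [ω]
      rw [hweq, mul_div_cancel_left₀ _ hℓ0]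
    rw [this]; exact hwA
  have hωI : ∀ s ∈ A.inertiaSubgroupIn ℚ, ∀ m m', ω (s • m, s • m') = s (ω (m, m')) := by
    intro s hs m m'
    simp only [ω]
    rw [← smul_add, hφI s hs, map_div₀, map_sub, map_sum, map_pow, map_natCast]
    congr 2
    refine Finset.sum_congr rfl fun i _ => ?_
    rw [hI _ (ha i) s hs, hI _ (hb i) s hs, map_mul]
  obtain ⟨n', a', b', ha', hb', h'⟩ := hr ω hωA hωI
  refine hasLaw_of_fintype (ι := Fin n ⊕ Fin n') (Sum.elim a a') (Sum.elim b b') ?_ ?_ ?_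
  · rintro (i | i) <;> simp [ha, ha']
  · rintro (i | i) <;> simp [hb, hb']
  · intro m m'
    have h1 := h' m m'
    simp only [ω] at h1
    rw [mul_div_cancel₀ _ hℓ0] at h1
    rw [Fintype.sum_sum_type]
    simp only [Sum.elim_inl, Sum.elim_inr]
    rw [← h1]
    ring

/-- (hadd) for the generated order: the exact addition law follows from the approximate one. -/
theorem genOrder_law {ℓ : ℕ} (hℓ : ℓ.Prime) (A : ValuationSubring Qb) (hA : A.LiesOverPrime ℓ)
    [AddMonoid M] [Finite M] [DistribMulAction G M] (Φ : Set (M → Qb))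
    (gI : ∀ φ ∈ Φ, ∀ s ∈ A.inertiaSubgroupIn ℚ, ∀ m, φ (s • m) = s (φ m))
    (gsep : ∀ m m', m ≠ m' → ∃ φ ∈ Φ, φ m ≠ φ m')
    (gadd : ∀ φ ∈ Φ, ∀ j : ℕ, ∃ (n : ℕ) (a b : Fin n → M → Qb),
      (∀ i, a i ∈ genOrder A Φ) ∧ (∀ i, b i ∈ genOrder A Φ) ∧
        ∀ m m', ∃ w ∈ A, φ (m + m') - ∑ i, a i m * b i m' = (ℓ : Qb) ^ j * w) :
    ∀ φ ∈ genOrder A Φ, HasLaw (genOrder A Φ) φ := by
  have hI := genOrder_inertia A Φ gI
  have hD := genOrder_decomp A Φ
  have hR0 := genOrder_smul A Φ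
  have hsep := genOrder_sep A Φ gsep
  obtain ⟨r, hr⟩ := exists_closure_bound hℓ A hA (genOrder A Φ) hI hR0 hsep
  have hΦ : ∀ φ ∈ Φ, HasLaw (genOrder A Φ) φ := fun φ hφ => hr φ (gI φ hφ) (gadd φ hφ r)
  intro φ hφ
  induction hφ using Subring.closure_induction with
  | mem f hf =>
    rcases hf with ⟨c, hc, hcI, rfl⟩ | ⟨s, hs, ψ, hψ, rfl⟩
    · exact hasLaw_const (const_mem_genOrder A Φ hc hcI)
    · exact hasLaw_conj (hΦ ψ hψ) s (fun f hf => hD f hf s hs)
  | zero => exact hasLaw_const (c := 0) (genOrder A Φ).zero_mem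
  | one => exact hasLaw_const (c := 1) (genOrder A Φ).one_mem
  | add f g _ _ hf hg => exact hf.add hg
  | neg f _ hf => exact hf.neg
  | mul f g _ _ hf hg => exact hf.mul hg

/-- **S19-CLOSURE.**  The order generated by a family `Φ` of `A`-valued, inertia-equivariant,
point-separating coordinate functions whose addition law holds modulo every power of `ℓ`
satisfies the six hypotheses of the lattice descent (`helper1312.exists_rat_model`). -/
theorem genOrder_spec (ℓ : ℕ) [Fact ℓ.Prime] (A : ValuationSubring Qb) (hA : A.LiesOverPrime ℓ)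
    [AddCommGroup M] [Finite M] [DistribMulAction G M] (Φ : Set (M → Qb))
    (gval : ∀ φ ∈ Φ, ∀ m, φ m ∈ A)
    (gI : ∀ φ ∈ Φ, ∀ s ∈ A.inertiaSubgroupIn ℚ, ∀ m, φ (s • m) = s (φ m))
    (gsep : ∀ m m', m ≠ m' → ∃ φ ∈ Φ, φ m ≠ φ m')
    (gadd : ∀ φ ∈ Φ, ∀ j : ℕ, ∃ (n : ℕ) (a b : Fin n → M → Qb),
      (∀ i, a i ∈ genOrder A Φ) ∧ (∀ i, b i ∈ genOrder A Φ) ∧
        ∀ m m', ∃ w ∈ A, φ (m + m') - ∑ i, a i m * b i m' = (ℓ : Qb) ^ j * w) :
    (∀ φ ∈ genOrder A Φ, ∀ m, φ m ∈ A) ∧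
    (∀ φ ∈ genOrder A Φ, ∀ s ∈ A.inertiaSubgroupIn ℚ, ∀ m, φ (s • m) = s (φ m)) ∧
    (∀ φ ∈ genOrder A Φ, ∀ s ∈ A.decompositionSubgroup ℚ,
      (fun m => s (φ (s⁻¹ • m))) ∈ genOrder A Φ) ∧
    (∀ c ∈ A, (∀ s ∈ A.inertiaSubgroupIn ℚ, s c = c) → ∀ φ ∈ genOrder A Φ,
      (fun m => c * φ m) ∈ genOrder A Φ) ∧
    (∀ m m', m ≠ m' → ∃ φ ∈ genOrder A Φ, φ m ≠ φ m') ∧
    (∀ φ ∈ genOrder A Φ, ∃ (n : ℕ) (a b : Fin n → M → Qb),
      (∀ i, a i ∈ genOrder A Φ) ∧ (∀ i, b i ∈ genOrder A Φ) ∧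
        ∀ m m', φ (m + m') = ∑ i, a i m * b i m') :=
  ⟨genOrder_val A Φ gval, genOrder_inertia A Φ gI, genOrder_decomp A Φ, genOrder_smul A Φ,
    genOrder_sep A Φ gsep, genOrder_law (Fact.out : ℓ.Prime) A hA Φ gI gsep gadd⟩

end Main

/-! ### Part 6: the subring of "tensors" (consumer-facing form of the approximate law) -/

section Tens

local notation "Qb" => AlgebraicClosure ℚ
local notation "G" => (AlgebraicClosure ℚ ≃ₐ[ℚ] AlgebraicClosure ℚ)

variable {M : Type*}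

/-- The functions of two variables of the form `(m, m') ↦ ∑ i, a i m * b i m'` with
`a i, b i ∈ H`; they form a subring of `M → M → ℚ̄` (the image of `H ⊗ H`). -/
def tens (H : Subring (M → Qb)) : Subring (M → M → Qb) where
  carrier := {F | ∃ (n : ℕ) (a b : Fin n → M → Qb), (∀ i, a i ∈ H) ∧ (∀ i, b i ∈ H) ∧
    ∀ m m', F m m' = ∑ i, a i m * b i m'}
  zero_mem' := ⟨0, Fin.elim0, Fin.elim0, fun i => i.elim0, fun i => i.elim0, fun m m' => by simp⟩
  one_mem' := ⟨1, fun _ => 1, fun _ => 1, fun _ => H.one_mem, fun _ => H.one_mem,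
    fun m m' => by simp⟩
  add_mem' := by
    rintro F F' ⟨n, a, b, ha, hb, h⟩ ⟨n', a', b', ha', hb', h'⟩
    refine hasLaw_of_fintype' (ι := Fin n ⊕ Fin n') (Sum.elim a a') (Sum.elim b b') ?_ ?_ ?_
    · rintro (i | i) <;> simp [ha, ha']
    · rintro (i | i) <;> simp [hb, hb']
    · intro m m'
      simp [Fintype.sum_sum_type, h, h']
  neg_mem' := by
    rintro F ⟨n, a, b, ha, hb, h⟩
    exact ⟨n, fun i => -a i, b, fun i => H.neg_mem (ha i), hb, fun m m' => by
      simp [h, Finset.sum_neg_distrib]⟩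
  mul_mem' := by
    rintro F F' ⟨n, a, b, ha, hb, h⟩ ⟨n', a', b', ha', hb', h'⟩
    refine hasLaw_of_fintype' (ι := Fin n × Fin n') (fun p => a p.1 * a' p.2)
      (fun p => b p.1 * b' p.2) (fun p => H.mul_mem (ha _) (ha' _))
      (fun p => H.mul_mem (hb _) (hb' _)) ?_
    intro m m'
    rw [Pi.mul_apply, Pi.mul_apply, h, h', Finset.sum_mul_sum, Fintype.sum_prod_type]
    refine Finset.sum_congr rfl fun i _ => Finset.sum_congr rfl fun j _ => ?_
    simp only [Pi.mul_apply]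
    ring

theorem mem_tens {H : Subring (M → Qb)} {F : M → M → Qb} :
    F ∈ tens H ↔ ∃ (n : ℕ) (a b : Fin n → M → Qb), (∀ i, a i ∈ H) ∧ (∀ i, b i ∈ H) ∧
      ∀ m m', F m m' = ∑ i, a i m * b i m' := Iff.rfl

/-- `a ⊗ b ∈ H ⊗ H`. -/
theorem mul_mem_tens {H : Subring (M → Qb)} {a b : M → Qb} (ha : a ∈ H) (hb : b ∈ H) :
    (fun m m' => a m * b m') ∈ tens H :=
  ⟨1, fun _ => a, fun _ => b, fun _ => ha, fun _ => hb, fun m m' => by simp⟩

/-- `a ⊗ 1 ∈ H ⊗ H`. -/
theorem left_mem_tens {H : Subring (M → Qb)} {a : M → Qb} (ha : a ∈ H) :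
    (fun m _ => a m) ∈ tens H :=
  ⟨1, fun _ => a, fun _ => 1, fun _ => ha, fun _ => H.one_mem, fun m m' => by simp⟩

/-- `1 ⊗ b ∈ H ⊗ H`. -/
theorem right_mem_tens {H : Subring (M → Qb)} {b : M → Qb} (hb : b ∈ H) :
    (fun _ m' => b m') ∈ tens H :=
  ⟨1, fun _ => 1, fun _ => b, fun _ => H.one_mem, fun _ => hb, fun m m' => by simp⟩

theorem hasLaw_iff_mem_tens [Add M] {H : Subring (M → Qb)} {φ : M → Qb} :
    HasLaw H φ ↔ (fun m m' => φ (m + m')) ∈ tens H := Iff.rfl

/-- **S19-CLOSURE, consumer form.**  Same as `genOrder_spec`, with the approximate addition law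
stated through the subring `tens`: for every `j` the function `(m, m') ↦ φ (m + m')` is
congruent modulo `ℓ^j A` to an element of `H ⊗ H` (e.g. a polynomial with `A^I`-coefficients in
functions `a(m)`, `b(m')`, `a, b ∈ genOrder A Φ`). -/
theorem genOrder_spec' (ℓ : ℕ) [Fact ℓ.Prime] (A : ValuationSubring Qb) (hA : A.LiesOverPrime ℓ)
    [AddCommGroup M] [Finite M] [DistribMulAction G M] (Φ : Set (M → Qb))
    (gval : ∀ φ ∈ Φ, ∀ m, φ m ∈ A)
    (gI : ∀ φ ∈ Φ, ∀ s ∈ A.inertiaSubgroupIn ℚ, ∀ m, φ (s • m) = s (φ m))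
    (gsep : ∀ m m', m ≠ m' → ∃ φ ∈ Φ, φ m ≠ φ m')
    (gadd : ∀ φ ∈ Φ, ∀ j : ℕ, ∃ F ∈ tens (genOrder A Φ),
        ∀ m m', ∃ w ∈ A, φ (m + m') - F m m' = (ℓ : Qb) ^ j * w) :
    (∀ φ ∈ genOrder A Φ, ∀ m, φ m ∈ A) ∧
    (∀ φ ∈ genOrder A Φ, ∀ s ∈ A.inertiaSubgroupIn ℚ, ∀ m, φ (s • m) = s (φ m)) ∧
    (∀ φ ∈ genOrder A Φ, ∀ s ∈ A.decompositionSubgroup ℚ,
      (fun m => s (φ (s⁻¹ • m))) ∈ genOrder A Φ) ∧
    (∀ c ∈ A, (∀ s ∈ A.inertiaSubgroupIn ℚ, s c = c) → ∀ φ ∈ genOrder A Φ,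
      (fun m => c * φ m) ∈ genOrder A Φ) ∧
    (∀ m m', m ≠ m' → ∃ φ ∈ genOrder A Φ, φ m ≠ φ m') ∧
    (∀ φ ∈ genOrder A Φ, ∃ (n : ℕ) (a b : Fin n → M → Qb),
      (∀ i, a i ∈ genOrder A Φ) ∧ (∀ i, b i ∈ genOrder A Φ) ∧
        ∀ m m', φ (m + m') = ∑ i, a i m * b i m') := by
  refine genOrder_spec ℓ A hA Φ gval gI gsep fun φ hφ j => ?_
  obtain ⟨F, ⟨n, a, b, ha, hb, hF⟩, hw⟩ := gadd φ hφ j
  refine ⟨n, a, b, ha, hb, fun m m' => ?_⟩
  obtain ⟨w, hwA, hweq⟩ := hw m m'
  exact ⟨w, hwA, by rw [← hF, hweq]⟩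

end Tens

end

end Fermat.Agent.S19.helper2765
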