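import Fermat.Agent.S19.helper9075_GateAdapter
import Fermat.Agent.S18.helper789_LineInst

set_option autoImplicit false

/-!
# S19: the gate, closed (captain's glue)

`stmt_GateLat_auxLevel` : the gate of record `helper3573.Stmt_GateLat` at the auxiliary level
`helper2289.auxLevel p ℓ`, unconditionally: S18 track A on the two Hauptmodul lines
(`helper789.stmt_Cart_gauss`, `helper789.lineData_t2`, `helper789.lineData_t3`) fed into the
adapter `helper9075.stmt_GateLat_aux`.
-/

namespace Fermat.Agent.S19.helper2111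

open ModularCurve

/-- **The gate at the auxiliary level** (unconditional). -/
theorem stmt_GateLat_auxLevel (p : ℕ) [NeZero p] (ℓ : ℕ) [Fact ℓ.Prime] (hℓp : ¬ ℓ ∣ p) :
    Fermat.Agent.S19.helper3573.Stmt_GateLat (Fermat.Agent.S19.helper2289.auxLevel p ℓ) ℓ
      (Fermat.Agent.S19.helper2289.not_dvd_auxLevel (Fact.out : ℓ.Prime) hℓp) :=
  Fermat.Agent.S19.helper9075.stmt_GateLat_aux
    (fun N' _ ℓ' _ hℓN h2 _ A hA =>
      ⟨Fermat.Agent.S18.helper789.stmt_Cart_gauss N' ℓ' hℓN A hA, _,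
        Fermat.Agent.S18.helper789.lineData_t2 N' ℓ' hℓN A hA h2⟩)
    (fun N' _ ℓ' _ hℓN h3 _ A hA =>
      ⟨Fermat.Agent.S18.helper789.stmt_Cart_gauss N' ℓ' hℓN A hA, _,
        Fermat.Agent.S18.helper789.lineData_t3 N' ℓ' hℓN A hA h3⟩)
    p ℓ hℓp

end Fermat.Agent.S19.helper2111
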