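import Mathlib
import Fermat.Prelude.Def_AlgebraicCurve_DivisorClassGroup
import Fermat.Prelude.Def_AlgebraicCurve_BaseChangeGalois
import Fermat.Agent.S37.helper126_TorsionCore

/-!
# S19-DISCS : residue discs of a valued function field

Setting: the abstract valued function field of `Fermat.Agent.S37.helper126` (section `Core` of
`helper126_TorsionCore`): a function field `F / K`, a valuation subring `O` of `F` (the Gauss
valuation), a reduction map `red : O →+* Fk` to a function field `Fk / k`, and a map
`sp : Place K F → Place k Fk` satisfying the conservation law `sp (div y) = div (red y)`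
(the shape of the frozen `IsPlaceReductionAlong`).

For a place `s` of `Fk` and a *coordinate* `t` at `s` (`t ∈ O`, regular at every place over `s`,
`ord_s (rd t) = 1`) this file proves, from the conservation law alone:

* (D1) `IsCoord.exists_point`, `IsCoord.point_unique`, `IsCoord.discEquiv` :
  `P ↦ t(P)` is a bijection from the residue disc `sp ⁻¹ {s}` onto the maximal ideal of the
  valuation ring of constants;
* (D2) `value_mem`, `value_rd` : values of Gauss-integral functions which are regular over `s`
  are integral and reduce to the value of the reduction at `s`;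
* (D3) `IsCoord.taylor_step`, `IsCoord.exists_taylor`, `taylor_sum`, `IsCoord.value_taylor`,
  `IsCoord.taylor_unique` : Taylor expansion with remainder, as an identity in `F`,
  `h = ∑_{i<n} η_i t^i + t^n r_n` with integral constants `η_i` and `r_n` again integral and
  regular over `s`; hence `h(P) = ∑_{i<n} η_i t(P)^i + t(P)^n c` with `c` integral, for every
  `P` over `s`, with the same `η_i`;
* (D4) `IsValue.smul`, `IsCoord.isValue_smul`, `IsCoord.smul_eq_self_of_fixed`,
  `IsCoord.taylor_fixed` : semilinear equivariance (a semilinear automorphism preserving `O`,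
  the disc and `t` acts on coordinates through its action on constants; a point with a fixed
  coordinate is fixed; Taylor coefficients of fixed functions are fixed constants).

No model, no completion, no genus.
-/

set_option autoImplicit false

namespace Fermat.Agent.S19.helper2007

open AlgebraicCurve
open Fermat.Agent.S37.helper126
open scoped Pointwise

section Value

variable {K F : Type*} [Field K] [Field F] [Algebra K F]

/-- `IsValue P f a` : the function `f` is regular at the place `P` and `f(P) = a`. -/
def IsValue (P : Place K F) (f : F) (a : K) : Prop :=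
  f - algebraMap K F a ∈ P.toValuationSubring.nonunits

theorem isValue_iff {P : Place K F} {f : F} {a : K} :
    IsValue P f a ↔ f - algebraMap K F a ∈ P.toValuationSubring.nonunits := Iff.rfl

theorem IsValue.mem {P : Place K F} {f : F} {a : K} (h : IsValue P f a) :
    f ∈ P.toValuationSubring := by
  have h1 := mem_of_mem_nonunits P.toValuationSubring h
  have h2 := P.algebraMap_mem' a
  have h3 := add_mem h1 h2
  rwa [sub_add_cancel] at h3

theorem isValue_algebraMap (P : Place K F) (a : K) : IsValue P (algebraMap K F a) a := by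
  rw [isValue_iff, sub_self]
  exact zero_mem_nonunits' _

theorem isValue_zero (P : Place K F) : IsValue P (0 : F) (0 : K) := by
  simpa using isValue_algebraMap P (0 : K)

theorem isValue_one (P : Place K F) : IsValue P (1 : F) (1 : K) := by
  simpa using isValue_algebraMap P (1 : K)

theorem isValue_zero_iff {P : Place K F} {f : F} :
    IsValue P f 0 ↔ f ∈ P.toValuationSubring.nonunits := by
  rw [isValue_iff, map_zero, sub_zero]

theorem IsValue.unique {P : Place K F} {f : F} {a b : K} (ha : IsValue P f a)
    (hb : IsValue P f b) : a = b := by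
  have h := sub_mem_nonunits _ hb ha
  have e : (f - algebraMap K F b) - (f - algebraMap K F a) = algebraMap K F (a - b) := by
    rw [map_sub]; ring
  rw [e] at h
  exact sub_eq_zero.mp (const_eq_zero_of_mem_nonunits P (a - b) h)

theorem IsValue.add {P : Place K F} {f g : F} {a b : K} (hf : IsValue P f a)
    (hg : IsValue P g b) : IsValue P (f + g) (a + b) := by
  have h := add_mem_nonunits _ hf hg
  have e : f + g - algebraMap K F (a + b) = (f - algebraMap K F a) + (g - algebraMap K F b) := by
    rw [map_add]; ring
  rw [isValue_iff, e]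
  exact h

theorem IsValue.sub {P : Place K F} {f g : F} {a b : K} (hf : IsValue P f a)
    (hg : IsValue P g b) : IsValue P (f - g) (a - b) := by
  have h := sub_mem_nonunits _ hf hg
  have e : f - g - algebraMap K F (a - b) = (f - algebraMap K F a) - (g - algebraMap K F b) := by
    rw [map_sub]; ring
  rw [isValue_iff, e]
  exact h

theorem IsValue.neg {P : Place K F} {f : F} {a : K} (hf : IsValue P f a) :
    IsValue P (-f) (-a) := by
  have h := (isValue_zero P).sub hf
  rwa [zero_sub, zero_sub] at h

theorem IsValue.mul {P : Place K F} {f g : F} {a b : K} (hf : IsValue P f a)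
    (hg : IsValue P g b) : IsValue P (f * g) (a * b) := by
  have e : f * g - algebraMap K F (a * b)
      = (f - algebraMap K F a) * g + algebraMap K F a * (g - algebraMap K F b) := by
    rw [map_mul]; ring
  rw [isValue_iff, e]
  exact add_mem_nonunits _ (mul_mem_nonunits_of_mem _ hf hg.mem)
    (mul_mem_nonunits_of_mem' _ (P.algebraMap_mem' a) hg)

theorem IsValue.pow {P : Place K F} {f : F} {a : K} (hf : IsValue P f a) (n : ℕ) :
    IsValue P (f ^ n) (a ^ n) := by
  induction n with
  | zero =>
    rw [pow_zero, pow_zero]
    exact isValue_one P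
  | succ n ih =>
    rw [pow_succ, pow_succ]
    exact ih.mul hf

theorem IsValue.sum {ι : Type*} (T : Finset ι) {P : Place K F} {f : ι → F} {a : ι → K}
    (h : ∀ i ∈ T, IsValue P (f i) (a i)) :
    IsValue P (∑ i ∈ T, f i) (∑ i ∈ T, a i) := by
  classical
  induction T using Finset.induction_on with
  | empty =>
    rw [Finset.sum_empty, Finset.sum_empty]
    exact isValue_zero P
  | insert i T hi ih =>
    rw [Finset.sum_insert hi, Finset.sum_insert hi]
    exact (h i (Finset.mem_insert_self i T)).add
      (ih fun j hj => h j (Finset.mem_insert_of_mem hj))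

theorem exists_isValue (hdeg1 : ResidueTrivial K F) {P : Place K F} {f : F}
    (hf : f ∈ P.toValuationSubring) : ∃ a : K, IsValue P f a :=
  hdeg1 P f hf

/-- Nonunits of a valuation subring: `x = 0` or `x⁻¹ ∉ A`. -/
theorem mem_nonunits_iff_inv_notMem (A : ValuationSubring F) {x : F} :
    x ∈ A.nonunits ↔ x = 0 ∨ x⁻¹ ∉ A := by
  constructor
  · intro hx
    by_cases h0 : x = 0
    · exact Or.inl h0
    · exact Or.inr fun hinv => notMem_nonunits_of_inv_mem A h0 hinv hx
  · rintro (rfl | h)
    · exact zero_mem_nonunits' A
    · have := inv_mem_nonunits_of_notMem A h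
      rwa [inv_inv] at this

/-- A semilinear automorphism maps the maximal ideal of `P` onto that of `g • P`. -/
theorem smul_mem_nonunits (g : SemilinearAut K F) {P : Place K F} {x : F}
    (hx : x ∈ P.toValuationSubring.nonunits) : g • x ∈ (g • P).toValuationSubring.nonunits := by
  rw [mem_nonunits_iff_inv_notMem] at hx ⊢
  rcases hx with rfl | hx
  · exact Or.inl (smul_zero g)
  · refine Or.inr fun hmem => hx ?_
    rw [SemilinearAut.smul_toValuationSubring, ← smul_inv'' g x,
      ValuationSubring.smul_mem_pointwise_smul_iff] at hmem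
    exact hmem

/-- Semilinear equivariance of values. -/
theorem IsValue.smul (g : SemilinearAut K F) {P : Place K F} {f : F} {a : K}
    (h : IsValue P f a) : IsValue (g • P) (g • f) (SemilinearAut.baseAut g a) := by
  have h1 := smul_mem_nonunits g h
  rwa [smul_sub, SemilinearAut.smul_algebraMap] at h1

end Value

section Discs

variable {K F k Fk : Type*} [Field K] [Field F] [Algebra K F] [Field k] [Field Fk] [Algebra k Fk]
variable {O : ValuationSubring F} {red : O →+* Fk} {sp : Place K F → Place k Fk}

/-- `t` is a coordinate on the residue disc of the place `s` of the special fibre: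
Gauss-integral, regular at every place over `s`, and its reduction is a uniformiser at `s`. -/
structure IsCoord (O : ValuationSubring F) (red : O →+* Fk) (sp : Place K F → Place k Fk)
    (s : Place k Fk) (t : F) : Prop where
  mem : t ∈ O
  reg : ∀ P, sp P = s → t ∈ P.toValuationSubring
  ord : s.ord (rd O red t) = 1

/-- The ring of Gauss-integral functions which are regular at every place over `s`. -/
def discRing (O : ValuationSubring F) (sp : Place K F → Place k Fk) (s : Place k Fk) :
    Subring F where
  carrier := {h | h ∈ O ∧ ∀ P, sp P = s → h ∈ P.toValuationSubring}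
  mul_mem' := fun ha hb => ⟨mul_mem ha.1 hb.1, fun P hP => mul_mem (ha.2 P hP) (hb.2 P hP)⟩
  one_mem' := ⟨one_mem O, fun _ _ => one_mem _⟩
  add_mem' := fun ha hb => ⟨add_mem ha.1 hb.1, fun P hP => add_mem (ha.2 P hP) (hb.2 P hP)⟩
  zero_mem' := ⟨zero_mem O, fun _ _ => zero_mem _⟩
  neg_mem' := fun ha => ⟨neg_mem ha.1, fun P hP => neg_mem (ha.2 P hP)⟩

theorem mem_discRing {s : Place k Fk} {h : F} :
    h ∈ discRing O sp s ↔ h ∈ O ∧ ∀ P, sp P = s → h ∈ P.toValuationSubring := Iff.rfl

theorem algebraMap_mem_discRing {s : Place k Fk} {a : K} (ha : algebraMap K F a ∈ O) :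
    algebraMap K F a ∈ discRing O sp s :=
  ⟨ha, fun P _ => P.algebraMap_mem' a⟩

namespace IsCoord

variable {s : Place k Fk} {t : F}

theorem mem_discRing (ht : IsCoord O red sp s t) : t ∈ discRing O sp s := ⟨ht.mem, ht.reg⟩

theorem rd_ne_zero (ht : IsCoord O red sp s t) : rd O red t ≠ 0 := by
  intro h
  have := ht.ord
  rw [h, Place.ord_zero] at this
  exact zero_ne_one this

theorem ne_zero (ht : IsCoord O red sp s t) : t ≠ 0 := by
  rintro rfl
  exact ht.rd_ne_zero (rd_zero O red)

theorem inv_mem (hker : RedKer O red) (ht : IsCoord O red sp s t) : t⁻¹ ∈ O :=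
  inv_mem_of_notMem_nonunits O ht.mem fun h => ht.rd_ne_zero ((rd_eq_zero_iff hker ht.mem).mpr h)

theorem sub_const_ne_zero (hker : RedKer O red) (ht : IsCoord O red sp s t) {a : K}
    (ha : algebraMap K F a ∈ O.nonunits) : t - algebraMap K F a ≠ 0 := by
  intro h
  have haO := mem_of_mem_nonunits O ha
  have hrd : rd O red (t - algebraMap K F a) = rd O red t := by
    rw [rd_sub O red ht.mem haO, (rd_eq_zero_iff hker haO).mpr ha, sub_zero]
  rw [h, rd_zero] at hrd
  exact ht.rd_ne_zero hrd.symm

variable [HasPrincipalDivisors K F]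

/-- (D1, existence) Every element of the maximal ideal of the constants is the value of the
coordinate at a place of the residue disc. -/
theorem exists_point (hker : RedKer O red) (hcons : Conservation O red sp)
    (ht : IsCoord O red sp s t) {a : K} (ha : algebraMap K F a ∈ O.nonunits) :
    ∃ P, sp P = s ∧ IsValue P t a := by
  have haO := mem_of_mem_nonunits O ha
  have hyO : t - algebraMap K F a ∈ O := sub_mem ht.mem haO
  have hrd : rd O red (t - algebraMap K F a) = rd O red t := by
    rw [rd_sub O red ht.mem haO, (rd_eq_zero_iff hker haO).mpr ha, sub_zero]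
  have hrt0 := ht.rd_ne_zero
  have hy0 := ht.sub_const_ne_zero hker ha
  obtain ⟨D, hD, -⟩ := HasPrincipalDivisors.exists_divisor (K := K) _ hy0
  have hred0 : red ⟨t - algebraMap K F a, hyO⟩ ≠ 0 := by
    rw [← rd_of_mem O red hyO, hrd]
    exact hrt0
  have hc := hcons ⟨t - algebraMap K F a, hyO⟩ hred0 D hD s
  rw [← rd_of_mem O red hyO, hrd, ht.ord] at hc
  obtain ⟨P, hP, hpos⟩ := exists_pos_of_mapDomain_apply_pos sp D s (by rw [hc]; exact one_pos)
  refine ⟨P, hP, ?_⟩
  rw [hD P] at hpos
  exact (one_le_ord_iff P hy0).mp (by omega)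

/-- The value of a coordinate at a place of the disc lies in the maximal ideal. -/
theorem value_mem_nonunits (hker : RedKer O red) (hconst : RedConst K k O red)
    (hcons : Conservation O red sp) (ht : IsCoord O red sp s t) {P : Place K F} (hP : sp P = s)
    {a : K} (h : IsValue P t a) : algebraMap K F a ∈ O.nonunits :=
  coord_value_mem_nonunits hker hconst hcons s ht.mem ht.reg ht.ord P hP a h

/-- (D1, uniqueness) A place of the disc is determined by the value of the coordinate. -/
theorem point_unique (hker : RedKer O red) (hconst : RedConst K k O red)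
    (hcons : Conservation O red sp) (ht : IsCoord O red sp s t) {P P' : Place K F}
    (hP : sp P = s) (hP' : sp P' = s) {a : K} (h : IsValue P t a) (h' : IsValue P' t a) :
    P = P' := by
  by_contra hne
  have ha := ht.value_mem_nonunits hker hconst hcons hP h
  have h0 := (coord_ord hker hcons s ht.mem ht.reg ht.ord a ha P hP h).2 P' hP' (Ne.symm hne)
  have h1 := (one_le_ord_iff P' (ht.sub_const_ne_zero hker ha)).mpr h'
  omega

/-- The order of `t - a` at the place of the disc where `t` takes the value `a` is one. -/
theorem ord_sub_const (hker : RedKer O red) (hconst : RedConst K k O red)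
    (hcons : Conservation O red sp) (ht : IsCoord O red sp s t) {P : Place K F}
    (hP : sp P = s) {a : K} (h : IsValue P t a) : P.ord (t - algebraMap K F a) = 1 :=
  (coord_ord hker hcons s ht.mem ht.reg ht.ord a
    (ht.value_mem_nonunits hker hconst hcons hP h) P hP h).1

/-- The order of `t - a` at the other places of the disc is zero. -/
theorem ord_sub_const_of_ne (hker : RedKer O red) (hconst : RedConst K k O red)
    (hcons : Conservation O red sp) (ht : IsCoord O red sp s t) {P P' : Place K F}
    (hP : sp P = s) (hP' : sp P' = s) (hne : P' ≠ P) {a : K} (h : IsValue P t a) :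
    P'.ord (t - algebraMap K F a) = 0 :=
  (coord_ord hker hcons s ht.mem ht.reg ht.ord a
    (ht.value_mem_nonunits hker hconst hcons hP h) P hP h).2 P' hP' hne

/-- (D1) The coordinate is a bijection from the residue disc onto the maximal ideal of the
valuation ring of constants. -/
noncomputable def discEquiv (hker : RedKer O red) (hconst : RedConst K k O red)
    (hcons : Conservation O red sp) (hdeg1 : ResidueTrivial K F) (ht : IsCoord O red sp s t) :
    {P : Place K F // sp P = s} ≃ {a : K // algebraMap K F a ∈ O.nonunits} where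
  toFun P := ⟨Classical.choose (hdeg1 P.1 t (ht.reg P.1 P.2)),
    ht.value_mem_nonunits hker hconst hcons P.2
      (Classical.choose_spec (hdeg1 P.1 t (ht.reg P.1 P.2)))⟩
  invFun a := ⟨Classical.choose (ht.exists_point hker hcons a.2),
    (Classical.choose_spec (ht.exists_point hker hcons a.2)).1⟩
  left_inv P := by
    apply Subtype.ext
    have h1 := Classical.choose_spec (hdeg1 P.1 t (ht.reg P.1 P.2))
    have ha := ht.value_mem_nonunits hker hconst hcons P.2 h1
    have h2 := Classical.choose_spec (ht.exists_point hker hcons ha)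
    exact ht.point_unique hker hconst hcons h2.1 P.2 h2.2 h1
  right_inv a := by
    apply Subtype.ext
    have h2 := Classical.choose_spec (ht.exists_point hker hcons a.2)
    have h1 := Classical.choose_spec (hdeg1 _ t (ht.reg _ h2.1))
    exact IsValue.unique h1 h2.2

theorem isValue_discEquiv (hker : RedKer O red) (hconst : RedConst K k O red)
    (hcons : Conservation O red sp) (hdeg1 : ResidueTrivial K F) (ht : IsCoord O red sp s t)
    (P : {P : Place K F // sp P = s}) :
    IsValue P.1 t (ht.discEquiv hker hconst hcons hdeg1 P).1 :=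
  Classical.choose_spec (hdeg1 P.1 t (ht.reg P.1 P.2))

theorem isValue_discEquiv_symm (hker : RedKer O red) (hconst : RedConst K k O red)
    (hcons : Conservation O red sp) (hdeg1 : ResidueTrivial K F) (ht : IsCoord O red sp s t)
    (a : {a : K // algebraMap K F a ∈ O.nonunits}) :
    IsValue ((ht.discEquiv hker hconst hcons hdeg1).symm a).1 t a.1 :=
  (Classical.choose_spec (ht.exists_point hker hcons a.2)).2

end IsCoord

variable [HasPrincipalDivisors K F]

/-- (D2) Values of Gauss-integral functions regular over `s` are integral. -/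
theorem value_mem (hker : RedKer O red) (hcons : Conservation O red sp) {s : Place k Fk}
    {h : F} (hh : h ∈ discRing O sp s) {P : Place K F} (hP : sp P = s) {b : K}
    (hb : IsValue P h b) : algebraMap K F b ∈ O :=
  (eval_rd hker hcons hh.1 s hh.2 P hP b hb).1

/-- (D2) Evaluation commutes with reduction. -/
theorem value_rd (hker : RedKer O red) (hcons : Conservation O red sp) {s : Place k Fk}
    {h : F} (hh : h ∈ discRing O sp s) {P : Place K F} (hP : sp P = s) {b : K}
    (hb : IsValue P h b) :
    rd O red h - rd O red (algebraMap K F b) ∈ s.toValuationSubring.nonunits :=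
  (eval_rd hker hcons hh.1 s hh.2 P hP b hb).2

namespace IsCoord

variable {s : Place k Fk} {t : F}

/-- (D3) One Taylor step: `h = η + t * h'` with `η` an integral constant and `h'` again
Gauss-integral and regular over `s`. -/
theorem taylor_step (hker : RedKer O red) (hconst : RedConst K k O red)
    (hcons : Conservation O red sp) (hdeg1 : ResidueTrivial K F) (ht : IsCoord O red sp s t)
    {h : F} (hh : h ∈ discRing O sp s) :
    ∃ (η : K) (h' : F), algebraMap K F η ∈ O ∧ h' ∈ discRing O sp s ∧
      h = algebraMap K F η + t * h' := by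
  have h0m : algebraMap K F (0 : K) ∈ O.nonunits := by
    rw [map_zero]; exact zero_mem_nonunits' O
  obtain ⟨P₀, hP₀, hP₀t⟩ := ht.exists_point hker hcons h0m
  obtain ⟨η, hη⟩ := hdeg1 P₀ h (hh.2 P₀ hP₀)
  have hηO : algebraMap K F η ∈ O := value_mem hker hcons hh hP₀ hη
  have ht0 := ht.ne_zero
  refine ⟨η, (h - algebraMap K F η) * t⁻¹, hηO,
    ⟨mul_mem (sub_mem hh.1 hηO) (ht.inv_mem hker), fun P hP => ?_⟩, ?_⟩
  · by_cases hPP : P = P₀
    · by_cases hz : h - algebraMap K F η = 0
      · rw [hz, zero_mul]; exact zero_mem _
      · apply mem_of_ord_nonneg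
        rw [Place.ord_mul _ hz (inv_ne_zero ht0), Place.ord_inv]
        have h1 := (one_le_ord_iff P₀ hz).mpr hη
        have h2 := ht.ord_sub_const hker hconst hcons hP₀ hP₀t
        rw [map_zero, sub_zero] at h2
        rw [hPP, h2]
        omega
    · have h2 := ht.ord_sub_const_of_ne hker hconst hcons hP₀ hP hPP hP₀t
      rw [map_zero, sub_zero] at h2
      have h3 : t⁻¹ ∈ P.toValuationSubring := by
        apply mem_of_ord_nonneg
        rw [Place.ord_inv, h2, neg_zero]
      exact mul_mem (sub_mem (hh.2 P hP) (P.algebraMap_mem' η)) h3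
  · field_simp
    ring

/-- (D3) Taylor data: a sequence of integral constants `η` and of remainders `r` in the ring of
functions regular on the disc with `r 0 = h` and `r n = η n + t * r (n + 1)`. -/
structure IsTaylor (O : ValuationSubring F) (sp : Place K F → Place k Fk) (s : Place k Fk)
    (t h : F) (η : ℕ → K) (r : ℕ → F) : Prop where
  coeff_mem : ∀ n, algebraMap K F (η n) ∈ O
  rem_mem : ∀ n, r n ∈ discRing O sp s
  rem_zero : r 0 = h
  rem_succ : ∀ n, r n = algebraMap K F (η n) + t * r (n + 1)

/-- (D3) Existence of Taylor data for every function regular on the disc. -/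
theorem exists_taylor (hker : RedKer O red) (hconst : RedConst K k O red)
    (hcons : Conservation O red sp) (hdeg1 : ResidueTrivial K F) (ht : IsCoord O red sp s t)
    {h : F} (hh : h ∈ discRing O sp s) :
    ∃ (η : ℕ → K) (r : ℕ → F), IsTaylor O sp s t h η r := by
  classical
  have step : ∀ x : discRing O sp s, ∃ p : K × discRing O sp s,
      algebraMap K F p.1 ∈ O ∧ (x : F) = algebraMap K F p.1 + t * (p.2 : F) := by
    intro x
    obtain ⟨η, h', hη, hh', e⟩ := ht.taylor_step hker hconst hcons hdeg1 x.2
    exact ⟨(η, ⟨h', hh'⟩), hη, e⟩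
  choose f hf using step
  let seq : ℕ → discRing O sp s := fun n => Nat.rec ⟨h, hh⟩ (fun _ x => (f x).2) n
  have hseq0 : seq 0 = ⟨h, hh⟩ := rfl
  have hseqS : ∀ n, seq (n + 1) = (f (seq n)).2 := fun n => rfl
  refine ⟨fun n => (f (seq n)).1, fun n => (seq n).1, ?_⟩
  refine IsTaylor.mk (fun n => (hf (seq n)).1) (fun n => (seq n).2) ?_ (fun n => ?_)
  · show (seq 0).1 = h
    rw [hseq0]
  · show (seq n).1 = algebraMap K F (f (seq n)).1 + t * (seq (n + 1)).1
    rw [hseqS n]
    exact (hf (seq n)).2

end IsCoord

omit [HasPrincipalDivisors K F] in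
/-- (D3) Closed form of the Taylor expansion: `h = ∑_{i<n} η_i t^i + t^n r_n`. -/
theorem IsCoord.IsTaylor.sum_eq {s : Place k Fk} {t h : F} {η : ℕ → K} {r : ℕ → F}
    (hT : IsCoord.IsTaylor O sp s t h η r) (n : ℕ) :
    h = ∑ i ∈ Finset.range n, algebraMap K F (η i) * t ^ i + t ^ n * r n := by
  induction n with
  | zero => simp [hT.rem_zero]
  | succ n ih =>
    rw [Finset.sum_range_succ, pow_succ]
    have e := hT.rem_succ n
    calc h = ∑ i ∈ Finset.range n, algebraMap K F (η i) * t ^ i + t ^ n * r n := ih
      _ = ∑ i ∈ Finset.range n, algebraMap K F (η i) * t ^ i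
            + t ^ n * (algebraMap K F (η n) + t * r (n + 1)) := by rw [← e]
      _ = _ := by ring

namespace IsCoord

variable {s : Place k Fk} {t : F}

/-- (D3) Values: for every place `P` of the disc, `h(P) = ∑_{i<n} η_i t(P)^i + t(P)^n c` with
`c` an integral constant, the `η_i` being independent of `P`. -/
theorem IsTaylor.value (hker : RedKer O red) (hcons : Conservation O red sp)
    (hdeg1 : ResidueTrivial K F) {h : F} {η : ℕ → K} {r : ℕ → F}
    (hT : IsTaylor O sp s t h η r) {P : Place K F} (hP : sp P = s) {a b : K}
    (ha : IsValue P t a) (hb : IsValue P h b) (n : ℕ) :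
    ∃ c : K, algebraMap K F c ∈ O ∧ IsValue P (r n) c ∧
      b = ∑ i ∈ Finset.range n, η i * a ^ i + a ^ n * c := by
  obtain ⟨c, hc⟩ := hdeg1 P (r n) ((hT.rem_mem n).2 P hP)
  refine ⟨c, value_mem hker hcons (hT.rem_mem n) hP hc, hc, ?_⟩
  have h1 : IsValue P (∑ i ∈ Finset.range n, algebraMap K F (η i) * t ^ i + t ^ n * r n)
      (∑ i ∈ Finset.range n, η i * a ^ i + a ^ n * c) :=
    (IsValue.sum _ fun i _ => (isValue_algebraMap P (η i)).mul (ha.pow i)).add ((ha.pow n).mul hc)
  rw [← hT.sum_eq n] at h1
  exact hb.unique h1

/-- (D3) Uniqueness of Taylor data. -/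
theorem IsTaylor.unique (hker : RedKer O red) (hcons : Conservation O red sp)
    (ht : IsCoord O red sp s t) {h : F} {η η' : ℕ → K} {r r' : ℕ → F}
    (hT : IsTaylor O sp s t h η r) (hT' : IsTaylor O sp s t h η' r') :
    η = η' ∧ r = r' := by
  have h0m : algebraMap K F (0 : K) ∈ O.nonunits := by
    rw [map_zero]; exact zero_mem_nonunits' O
  obtain ⟨P₀, hP₀, hP₀t⟩ := ht.exists_point hker hcons h0m
  have hval : ∀ {η : ℕ → K} {r : ℕ → F}, IsTaylor O sp s t h η r → ∀ n,
      IsValue P₀ (r n) (η n) := by
    intro η r hT n
    have e : r n - algebraMap K F (η n) = t * r (n + 1) := by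
      rw [hT.rem_succ n]; ring
    rw [isValue_iff, e]
    exact mul_mem_nonunits_of_mem _ (isValue_zero_iff.mp hP₀t) ((hT.rem_mem (n + 1)).2 P₀ hP₀)
  have key : ∀ n, r n = r' n := by
    intro n
    induction n with
    | zero => rw [hT.rem_zero, hT'.rem_zero]
    | succ n ih =>
      have e1 := hT.rem_succ n
      have e2 := hT'.rem_succ n
      have hη : η n = η' n := (hval hT n).unique (ih ▸ hval hT' n)
      rw [ih, e2, hη] at e1
      exact (mul_left_cancel₀ ht.ne_zero (add_left_cancel e1)).symm
  refine ⟨funext fun n => ?_, funext key⟩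
  exact (hval hT n).unique (key n ▸ hval hT' n)

end IsCoord

end Discs

section Equivariance

variable {K F k Fk : Type*} [Field K] [Field F] [Algebra K F] [Field k] [Field Fk] [Algebra k Fk]
variable {O : ValuationSubring F} {red : O →+* Fk} {sp : Place K F → Place k Fk}
variable [HasPrincipalDivisors K F]

omit [HasPrincipalDivisors K F] in
/-- A semilinear automorphism which preserves `O` and the residue disc of `s` preserves the ring
of functions regular on the disc. -/
theorem smul_mem_discRing (g : SemilinearAut K F) (hgO : ∀ x, x ∈ O → g • x ∈ O)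
    {s : Place k Fk} (hgs : ∀ P, sp (g • P) = s ↔ sp P = s) {h : F}
    (hh : h ∈ discRing O sp s) : g • h ∈ discRing O sp s := by
  refine ⟨hgO h hh.1, fun P hP => ?_⟩
  have hP' : sp (g⁻¹ • P) = s := by
    rw [← hgs (g⁻¹ • P), smul_inv_smul]
    exact hP
  have h1 := hh.2 (g⁻¹ • P) hP'
  have h2 : g • h ∈ (g • (g⁻¹ • P)).toValuationSubring := by
    rw [SemilinearAut.smul_toValuationSubring, ValuationSubring.smul_mem_pointwise_smul_iff]
    exact h1
  rwa [smul_inv_smul] at h2

namespace IsCoord

variable {s : Place k Fk} {t : F}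

omit [HasPrincipalDivisors K F] in
/-- (D4) The coordinate of `g • P` is the image of the coordinate of `P` under the action of
`g` on constants. -/
theorem isValue_smul (g : SemilinearAut K F) (hgt : g • t = t) {P : Place K F} {a : K}
    (h : IsValue P t a) : IsValue (g • P) t (SemilinearAut.baseAut g a) := by
  have := h.smul g
  rwa [hgt] at this

/-- (D4) A place of the disc whose coordinate is fixed by `g` is fixed by `g`. -/
theorem smul_eq_self_of_fixed (hker : RedKer O red) (hconst : RedConst K k O red)
    (hcons : Conservation O red sp) (ht : IsCoord O red sp s t) (g : SemilinearAut K F)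
    (hgs : ∀ P, sp (g • P) = s ↔ sp P = s) (hgt : g • t = t) {P : Place K F} (hP : sp P = s)
    {a : K} (h : IsValue P t a) (ha : SemilinearAut.baseAut g a = a) : g • P = P := by
  have h1 := isValue_smul g hgt h
  rw [ha] at h1
  exact ht.point_unique hker hconst hcons ((hgs P).mpr hP) hP h1 h

/-- (D4) Taylor data of a function fixed by `g` consist of constants fixed by `g` and of
remainders fixed by `g`. -/
theorem IsTaylor.fixed (hker : RedKer O red) (hcons : Conservation O red sp)
    (ht : IsCoord O red sp s t) (g : SemilinearAut K F) (hgO : ∀ x, x ∈ O → g • x ∈ O)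
    (hgs : ∀ P, sp (g • P) = s ↔ sp P = s) (hgt : g • t = t) {h : F} (hgh : g • h = h)
    {η : ℕ → K} {r : ℕ → F} (hT : IsTaylor O sp s t h η r) :
    (∀ n, SemilinearAut.baseAut g (η n) = η n) ∧ ∀ n, g • r n = r n := by
  have hT' : IsTaylor O sp s t h (fun n => SemilinearAut.baseAut g (η n)) (fun n => g • r n) := by
    refine ⟨fun n => ?_, fun n => smul_mem_discRing g hgO hgs (hT.rem_mem n), ?_, fun n => ?_⟩
    · rw [← SemilinearAut.smul_algebraMap]
      exact hgO _ (hT.coeff_mem n)
    · show g • r 0 = h
      rw [hT.rem_zero, hgh]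
    · show g • r n = algebraMap K F (SemilinearAut.baseAut g (η n)) + t * g • r (n + 1)
      conv_lhs => rw [hT.rem_succ n]
      rw [smul_add, smul_mul', SemilinearAut.smul_algebraMap, hgt]
  obtain ⟨e1, e2⟩ := IsTaylor.unique hker hcons ht hT' hT
  exact ⟨fun n => congrFun e1 n, fun n => congrFun e2 n⟩

end IsCoord

end Equivariance

/-! ## CALG-CEN : inertia-fixed centres (place language)

`G` is any set of semilinear automorphisms (the image of the inertia group) acting trivially on
the special fibre (`sp (g • P) = sp P`).  A place `s` of the special fibre which has a disc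
coordinate fixed by `G` has a `G`-fixed lift (the zero of the coordinate); hence every divisor
class is the sum of a `G`-fixed class and a class of a divisor specialising to zero. -/

section Centres

variable {K F k Fk : Type*} [Field K] [Field F] [Algebra K F] [Field k] [Field Fk] [Algebra k Fk]
variable {O : ValuationSubring F} {red : O →+* Fk} {sp : Place K F → Place k Fk}

/-- The place `s` of the special fibre has a lift fixed by every element of `G`. -/
def HasFixedLift (sp : Place K F → Place k Fk) (G : Set (SemilinearAut K F))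
    (s : Place k Fk) : Prop :=
  ∃ P, sp P = s ∧ ∀ g ∈ G, g • P = P

/-- There is a disc coordinate at `s` fixed by every element of `G`. -/
def HasFixedCoord (O : ValuationSubring F) (red : O →+* Fk) (sp : Place K F → Place k Fk)
    (G : Set (SemilinearAut K F)) (s : Place k Fk) : Prop :=
  ∃ t, IsCoord O red sp s t ∧ ∀ g ∈ G, g • t = t

/-- The value of a `g`-fixed coordinate at a `g`-fixed place is a `g`-fixed constant. -/
theorem IsCoord.value_fixed {t : F} (g : SemilinearAut K F) (hgt : g • t = t) {P : Place K F}
    (hgP : g • P = P) {a : K} (h : IsValue P t a) : SemilinearAut.baseAut g a = a := by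
  have h1 := IsCoord.isValue_smul g hgt h
  rw [hgP] at h1
  exact h1.unique h

section

variable [HasPrincipalDivisors K F]

/-- (CEN) The point of the disc where a `G`-fixed coordinate takes a `G`-fixed value is
`G`-fixed. -/
theorem IsCoord.exists_fixed_point (hker : RedKer O red) (hconst : RedConst K k O red)
    (hcons : Conservation O red sp) {s : Place k Fk} {t : F} (ht : IsCoord O red sp s t)
    {G : Set (SemilinearAut K F)} (hG : ∀ g ∈ G, ∀ P, sp (g • P) = sp P)
    (hgt : ∀ g ∈ G, g • t = t) {a : K} (ha : algebraMap K F a ∈ O.nonunits)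
    (haG : ∀ g ∈ G, SemilinearAut.baseAut g a = a) :
    ∃ P, sp P = s ∧ IsValue P t a ∧ ∀ g ∈ G, g • P = P := by
  obtain ⟨P, hP, hPt⟩ := ht.exists_point hker hcons ha
  refine ⟨P, hP, hPt, fun g hg => ?_⟩
  exact ht.smul_eq_self_of_fixed hker hconst hcons g (fun Q => by rw [hG g hg Q]) (hgt g hg) hP
    hPt (haG g hg)

/-- (CEN1) A place of the special fibre with a `G`-fixed disc coordinate has a `G`-fixed lift:
the zero of the coordinate. -/
theorem HasFixedCoord.hasFixedLift (hker : RedKer O red) (hconst : RedConst K k O red)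
    (hcons : Conservation O red sp) {G : Set (SemilinearAut K F)}
    (hG : ∀ g ∈ G, ∀ P, sp (g • P) = sp P) {s : Place k Fk}
    (h : HasFixedCoord O red sp G s) : HasFixedLift sp G s := by
  obtain ⟨t, ht, hgt⟩ := h
  have h0m : algebraMap K F (0 : K) ∈ O.nonunits := by
    rw [map_zero]; exact zero_mem_nonunits' O
  obtain ⟨P, hP, -, hfix⟩ := ht.exists_fixed_point hker hconst hcons hG hgt h0m
    (fun g _ => map_zero _)
  exact ⟨P, hP, hfix⟩

end

/-- If every place has residue field `K`, every place has degree one. -/
theorem deg_eq_one_of_residueTrivial (hdeg1 : ResidueTrivial K F) (P : Place K F) :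
    P.deg = 1 := by
  unfold Place.deg
  rw [finrank_eq_one_iff_of_nonzero' (1 : P.ResidueField) one_ne_zero]
  intro w
  obtain ⟨f, rfl⟩ := IsLocalRing.residue_surjective w
  obtain ⟨a, ha⟩ := hdeg1 P f f.2
  refine ⟨a, ?_⟩
  rw [Algebra.smul_def, mul_one]
  have e : algebraMap K P.ResidueField a
      = IsLocalRing.residue _ (algebraMap K P.toValuationSubring a) := rfl
  rw [e, eq_comm, ← sub_eq_zero, ← map_sub, IsLocalRing.residue_eq_zero_iff,
    ← ValuationSubring.coe_mem_nonunits_iff]
  exact ha

/-- (CEN2) Centre map: a choice, constant on residue discs, of a `G`-fixed place in the residue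
disc of every place. -/
theorem exists_centre_map (G : Set (SemilinearAut K F))
    (h : ∀ P, HasFixedLift sp G (sp P)) :
    ∃ c : Place K F → Place K F, (∀ P, sp (c P) = sp P) ∧ (∀ P, ∀ g ∈ G, g • c P = c P) ∧
      ∀ P P', sp P = sp P' → c P = c P' := by
  classical
  have h' : ∀ s : Place k Fk, (∃ P, sp P = s) → HasFixedLift sp G s := by
    rintro s ⟨P, rfl⟩
    exact h P
  let cen : ∀ s : Place k Fk, (∃ P, sp P = s) → Place K F := fun s hs => Classical.choose (h' s hs)
  have hcen : ∀ s hs, sp (cen s hs) = s ∧ ∀ g ∈ G, g • cen s hs = cen s hs :=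
    fun s hs => Classical.choose_spec (h' s hs)
  have hirr : ∀ s s' (_ : s = s') hs hs', cen s hs = cen s' hs' := by
    intro s s' e hs hs'
    subst e
    rfl
  refine ⟨fun P => cen (sp P) ⟨P, rfl⟩, fun P => (hcen (sp P) ⟨P, rfl⟩).1,
    fun P => (hcen (sp P) ⟨P, rfl⟩).2,
    fun P P' e => hirr (sp P) (sp P') e ⟨P, rfl⟩ ⟨P', rfl⟩⟩

/-- Replacing every place by its centre does not change the specialisation of a divisor. -/
theorem mapDomain_sp_mapDomain (c : Place K F → Place K F) (hc : ∀ P, sp (c P) = sp P)
    (D : Divisor K F) :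
    Finsupp.mapDomain sp (Finsupp.mapDomain c D) = Finsupp.mapDomain sp D := by
  rw [← Finsupp.mapDomain_comp]
  congr 1
  funext P
  exact hc P

/-- A divisor supported on `g`-fixed places is `g`-fixed. -/
theorem smul_mapDomain_of_fixed (g : SemilinearAut K F) (c : Place K F → Place K F)
    (hc : ∀ P, g • c P = c P) (D : Divisor K F) :
    g • Finsupp.mapDomain c D = Finsupp.mapDomain c D := by
  rw [SemilinearAut.divisor_smul_def, ← Finsupp.mapDomain_comp]
  congr 1
  funext P
  exact hc P

/-- A degree-preserving map on places preserves degrees of divisors. -/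
theorem degree_mapDomain_of_deg (c : Place K F → Place K F) (hc : ∀ P, (c P).deg = P.deg)
    (D : Divisor K F) : Divisor.degree (Finsupp.mapDomain c D) = Divisor.degree D := by
  induction D using Finsupp.induction with
  | zero => simp
  | single_add P n D _ _ ih =>
    rw [Finsupp.mapDomain_add, map_add, map_add, ih, Finsupp.mapDomain_single,
      Divisor.degree_single, Divisor.degree_single, hc]

/-- The subgroup of `Pic0` of classes of degree-zero divisors specialising to zero (the classes
of the divisors `∑ (P_i - P_i')` with `P_i`, `P_i'` in the same residue disc). -/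
def specKernel (sp : Place K F → Place k Fk) : AddSubgroup (Pic0 K F) where
  carrier := {x | ∃ E : Divisor.degZero (K := K) (F := F),
    Finsupp.mapDomain sp (E : Divisor K F) = 0 ∧ Pic0.mk E = x}
  zero_mem' := ⟨0, by simp, rfl⟩
  add_mem' := by
    rintro _ _ ⟨E, hE, rfl⟩ ⟨E', hE', rfl⟩
    refine ⟨E + E', ?_, rfl⟩
    rw [AddSubgroup.coe_add, Finsupp.mapDomain_add, hE, hE', add_zero]
  neg_mem' := by
    rintro _ ⟨E, hE, rfl⟩
    refine ⟨-E, ?_, rfl⟩
    have := map_neg (Finsupp.mapDomain.addMonoidHom sp) (E : Divisor K F)
    rw [Finsupp.mapDomain.addMonoidHom_apply, Finsupp.mapDomain.addMonoidHom_apply, hE,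
      neg_zero] at this
    rw [AddSubgroup.coe_neg]
    exact this

theorem mem_specKernel {x : Pic0 K F} :
    x ∈ specKernel sp ↔ ∃ E : Divisor.degZero (K := K) (F := F),
      Finsupp.mapDomain sp (E : Divisor K F) = 0 ∧ Pic0.mk E = x := Iff.rfl

theorem mk_mem_specKernel (E : Divisor.degZero (K := K) (F := F))
    (hE : Finsupp.mapDomain sp (E : Divisor K F) = 0) : Pic0.mk E ∈ specKernel sp :=
  ⟨E, hE, rfl⟩

/-- The specialisation kernel is stable under every semilinear automorphism which descends to
the special fibre. -/
theorem smul_mem_specKernel (g : SemilinearAut K F) (τ : Place k Fk → Place k Fk)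
    (hτ : ∀ P, sp (g • P) = τ (sp P)) {x : Pic0 K F} (hx : x ∈ specKernel sp) :
    g • x ∈ specKernel sp := by
  obtain ⟨E, hE, rfl⟩ := hx
  refine ⟨SemilinearAut.degZeroSMulHom g E, ?_, (SemilinearAut.pic0_smul_mk g E).symm⟩
  rw [SemilinearAut.coe_degZeroSMulHom, SemilinearAut.divisor_smul_def,
    ← Finsupp.mapDomain_comp]
  have e : sp ∘ (fun P => g • P) = τ ∘ sp := funext hτ
  rw [e, Finsupp.mapDomain_comp, hE, Finsupp.mapDomain_zero]

/-- (CEN3) Centres on divisors: every divisor of degree zero differs from a divisor of degree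
zero supported on `G`-fixed places by a divisor specialising to zero. -/
theorem exists_fixed_divisor (G : Set (SemilinearAut K F)) (hdeg : ∀ P : Place K F, P.deg = 1)
    (h : ∀ P, HasFixedLift sp G (sp P)) (D : Divisor.degZero (K := K) (F := F)) :
    ∃ D' : Divisor.degZero (K := K) (F := F),
      (∀ g ∈ G, g • (D' : Divisor K F) = D') ∧ (∀ P, (D' : Divisor K F) P ≠ 0 → ∀ g ∈ G, g • P = P) ∧
      Finsupp.mapDomain sp ((D - D' : Divisor.degZero (K := K) (F := F)) : Divisor K F) = 0 := by
  classical
  obtain ⟨c, hc1, hc2, -⟩ := exists_centre_map G h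
  have hdeg' : Divisor.degree (Finsupp.mapDomain c (D : Divisor K F)) = 0 := by
    rw [degree_mapDomain_of_deg c (fun P => by rw [hdeg, hdeg])]
    exact Divisor.mem_degZero.mp D.2
  refine ⟨⟨Finsupp.mapDomain c (D : Divisor K F), Divisor.mem_degZero.mpr hdeg'⟩,
    fun g hg => smul_mapDomain_of_fixed g c (fun P => hc2 P g hg) _, fun P hP g hg => ?_, ?_⟩
  · have hmem : P ∈ (Finsupp.mapDomain c (D : Divisor K F)).support :=
      Finsupp.mem_support_iff.mpr hP
    have hsub := Finsupp.mapDomain_support hmem
    obtain ⟨Q, -, rfl⟩ := Finset.mem_image.mp hsub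
    exact hc2 Q g hg
  · rw [AddSubgroup.coe_sub]
    have := map_sub (Finsupp.mapDomain.addMonoidHom sp) (D : Divisor K F)
      (Finsupp.mapDomain c (D : Divisor K F))
    rw [Finsupp.mapDomain.addMonoidHom_apply, Finsupp.mapDomain.addMonoidHom_apply,
      Finsupp.mapDomain.addMonoidHom_apply, mapDomain_sp_mapDomain c hc1, sub_self] at this
    exact this

/-- **(CALG-CEN) Inertia-fixed centres.**  If every residue disc contains a `G`-fixed place,
every class of `Pic0` is congruent to a `G`-fixed class modulo the specialisation kernel. -/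
theorem exists_fixed_centre (G : Set (SemilinearAut K F)) (hdeg : ∀ P : Place K F, P.deg = 1)
    (h : ∀ P, HasFixedLift sp G (sp P)) (x : Pic0 K F) :
    ∃ y : Pic0 K F, (∀ g ∈ G, g • y = y) ∧ x - y ∈ specKernel sp := by
  obtain ⟨D, rfl⟩ := Pic0.mk_surjective x
  obtain ⟨D', hfix, -, hsp⟩ := exists_fixed_divisor G hdeg h D
  refine ⟨Pic0.mk D', fun g hg => ?_, ⟨D - D', hsp, rfl⟩⟩
  rw [SemilinearAut.pic0_smul_mk]
  exact congrArg Pic0.mk (Subtype.ext (by rw [SemilinearAut.coe_degZeroSMulHom]; exact hfix g hg))

/-- (CALG-CEN), coordinate form: it suffices that every place of the special fibre in the image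
of `sp` has a `G`-fixed disc coordinate or a `G`-fixed lift. -/
theorem exists_fixed_centre_of_coord [HasPrincipalDivisors K F] (hker : RedKer O red)
    (hconst : RedConst K k O red) (hcons : Conservation O red sp)
    (G : Set (SemilinearAut K F)) (hG : ∀ g ∈ G, ∀ P, sp (g • P) = sp P)
    (hdeg : ∀ P : Place K F, P.deg = 1)
    (h : ∀ P, HasFixedCoord O red sp G (sp P) ∨ HasFixedLift sp G (sp P)) (x : Pic0 K F) :
    ∃ y : Pic0 K F, (∀ g ∈ G, g • y = y) ∧ x - y ∈ specKernel sp :=
  exists_fixed_centre G hdeg (fun P => (h P).elim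
    (fun hc => hc.hasFixedLift hker hconst hcons hG) id) x

end Centres

end Fermat.Agent.S19.helper2007
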