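import Mathlib
import Fermat.Agent.S19.helper2007_Discs
import Fermat.Agent.S37.helper126_TorsionGlue

/-!
# S19-CALG-CEN on the lattice layer

The inertia-fixed centres of `helper2007_Discs` (section `Centres`) on the landed S37 lattice
layer (`helper5413.LatHyp`, place reduction `H.placeRed`), with the single extra input of the
main line: the rationality property (CALG-RAT) that elements of `L_k(n · sp Q)` lift to
`G`-fixed Gauss-integral elements of `L(n · Q)`, for ONE `G`-fixed place `Q`.

* `hasFixedCoord_of_fixedLiftRR` : every place `s ≠ sp Q` of the special fibre has a `G`-fixed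
  disc coordinate;
* `exists_fixed_centre_of_latHyp` : every class of `Pic0` is congruent to a `G`-fixed class
  modulo the specialisation kernel.
-/

set_option autoImplicit false

namespace Fermat.Agent.S19.helper2007

open AlgebraicCurve
open Fermat.Agent.S37.helper126 Fermat.Agent.S37.helper5413

section LatCentres

variable {L F k Fk : Type*} [Field L] [Field F] [Algebra L F] [Field k] [Field Fk] [Algebra k Fk]
variable {O : ValuationSubring F} {red : O →+* Fk} {g c : ℤ}
  {E₀ : Divisor L F} {E₀k : Divisor k Fk}

/-- (CALG-RAT, consumer form) Every element of `L_k(n · sp Q)` is the reduction of a `G`-fixed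
Gauss-integral element of `L(n · Q)`. -/
def FixedLiftRR (H : LatHyp O red g c E₀ E₀k) (G : Set (SemilinearAut L F)) (Q : Place L F)
    (n : ℤ) : Prop :=
  ∀ y ∈ riemannRochSpace (Finsupp.single (H.placeRed Q) n : Divisor k Fk),
    ∃ u : O, (u : F) ∈ riemannRochSpace (Finsupp.single Q n : Divisor L F) ∧ red u = y ∧
      ∀ γ ∈ G, γ • (u : F) = u

variable (H : LatHyp O red g c E₀ E₀k)

/-- Every place `s ≠ sp Q` of the special fibre has a `G`-fixed disc coordinate: the `G`-fixed
lift of a function with poles only at `sp Q` and a simple zero at `s`. -/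
theorem hasFixedCoord_of_fixedLiftRR [HasPrincipalDivisors L F]
    (hsurj : Function.Surjective red) (G : Set (SemilinearAut L F)) (Q : Place L F) (n : ℤ)
    (hn : max c (LatHyp.thr g c) + 2 ≤ n) (hrat : FixedLiftRR H G Q n)
    (s : Place k Fk) (hs : s ≠ H.placeRed Q) : HasFixedCoord O red H.placeRed G s := by
  classical
  obtain ⟨yb, hyb, hord⟩ := LatHypGlue.exists_simple_zero H hsurj s (H.placeRed Q) hs n hn
  obtain ⟨u, huE, hured, hufix⟩ := hrat yb hyb
  have hyb0 : yb ≠ 0 := by
    rintro rfl
    rw [Place.ord_zero] at hord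
    omega
  have hu0 : (u : F) ≠ 0 := LatHyp.coe_ne_zero_of_red_ne_zero (by rw [hured]; exact hyb0)
  refine ⟨(u : F), ⟨u.2, fun P hP => ?_, ?_⟩, hufix⟩
  · have h1 := (mem_rr_iff.mp huE).resolve_left hu0 P
    have hPQ : Q ≠ P := by
      rintro rfl
      exact hs hP.symm
    rw [Finsupp.single_apply, if_neg hPQ] at h1
    exact mem_of_ord_nonneg P (by omega)
  · rw [rd_of_mem O red u.2]
    have e : (⟨(u : F), u.2⟩ : O) = u := Subtype.ext rfl
    rw [e, hured, hord]

/-- **(CALG-CEN on the lattice layer).**  Given ONE `G`-fixed place `Q` and the rationality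
property for the divisors `n · Q`, every class of `Pic0` is congruent to a `G`-fixed class
modulo the specialisation kernel of `H.placeRed`. -/
theorem exists_fixed_centre_of_latHyp [HasPrincipalDivisors L F] [HasPrincipalDivisors k Fk]
    (hsurj : Function.Surjective red) (G : Set (SemilinearAut L F))
    (hG : ∀ γ ∈ G, ∀ P, H.placeRed (γ • P) = H.placeRed P)
    (Q : Place L F) (hQ : ∀ γ ∈ G, γ • Q = Q) (n : ℤ)
    (hn : max c (LatHyp.thr g c) + 2 ≤ n) (hrat : FixedLiftRR H G Q n) (x : Pic0 L F) :
    ∃ y : Pic0 L F, (∀ γ ∈ G, γ • y = y) ∧ x - y ∈ specKernel H.placeRed := by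
  have hker : RedKer O red := redKer_of_nonunit H.red_nonunit
  have hconst : RedConst L k O red := fun a ha => by
    obtain ⟨b, hb⟩ := LatHypGlue.redConst H a ha
    exact ⟨b, hb.symm⟩
  have hcons : Conservation O red H.placeRed := LatHypGlue.cons H
  refine exists_fixed_centre_of_coord hker hconst hcons G hG H.degL (fun P => ?_) x
  by_cases hP : H.placeRed P = H.placeRed Q
  · exact Or.inr ⟨Q, hP.symm, hQ⟩
  · exact Or.inl (hasFixedCoord_of_fixedLiftRR H hsurj G Q n hn hrat _ hP)

end LatCentres

end Fermat.Agent.S19.helper2007
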