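import Mathlib
import Fermat.Prelude.Def_FLTPrelim_Ramification
import Fermat.Prelude.Def_GaloisRep_Flat
import Fermat.Agent.S58.helper6024_Unram
import Fermat.Agent.Lib.helper3858_ResidueQbar

/-!
# The inertia-fixed base ring `R0 = A^I` (helper1821, leaf S19-BASE)

`Qb := AlgebraicClosure ℚ`, `A` a valuation subring of `Qb` lying over a prime `l`,
`I := A.inertiaSubgroupIn ℚ` (prelude).  `R0 A` is the subring of elements of `A` fixed by `I`.
Every realisation of the finite flat model of `J₀(N)[l^k]` computes over this ring.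

* `R0`, `mem_R0`                  : the subring and its membership predicate;
* `natCast_dvd_of_mem_nonunits`   : **(B1)** `x ∈ R0 A`, `x ∈ A.nonunits` ⟹ `x = l * y`, `y ∈ R0 A`
                                    (the inertia field is unramified; from `S58/helper6024.unram`);
* `exists_eq_pow_mul`             : every nonzero `x ∈ R0 A` is `l ^ n * u`, `u` a unit of `R0 A`;
* `exists_sub_mem_nonunits`       : **(B2)** every residue class of `A` meets `R0 A`
                                    (Teichmüller representatives);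
* `existsUnique_root`             : **(B3)** a monic polynomial over `R0 A` with a simple root
                                    modulo the maximal ideal of `A` has a unique root in that
                                    residue class, and the root lies in `R0 A`.
-/

set_option autoImplicit false

namespace Fermat.Agent.S19.helper1821

open Polynomial IsLocalRing

local notation "Qb" => AlgebraicClosure ℚ
local notation "GQ" => (AlgebraicClosure ℚ ≃ₐ[ℚ] AlgebraicClosure ℚ)

/-- The inertia-fixed subring `R0 = A^I` of a valuation subring `A` of `ℚ̄`: the carrier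
`{x | x ∈ A ∧ ∀ σ ∈ A.inertiaSubgroupIn ℚ, σ x = x}` of `S58/helper6024.inertiaFixedRing`. -/
abbrev R0 (A : ValuationSubring Qb) : Subring Qb :=
  Fermat.Agent.S58.helper6024.inertiaFixedRing A

theorem mem_R0 {A : ValuationSubring Qb} {x : Qb} :
    x ∈ R0 A ↔ x ∈ A ∧ ∀ σ ∈ A.inertiaSubgroupIn ℚ, σ x = x := Iff.rfl

theorem R0_le (A : ValuationSubring Qb) {x : Qb} (hx : x ∈ R0 A) : x ∈ A := hx.1

theorem algebraMap_rat_fixed (σ : GQ) (r : ℚ) : σ (algebraMap ℚ Qb r) = algebraMap ℚ Qb r :=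
  σ.commutes r

/-- Rational numbers that lie in `A` lie in `R0 A`. -/
theorem algebraMap_rat_mem_R0 {A : ValuationSubring Qb} {r : ℚ} (hr : algebraMap ℚ Qb r ∈ A) :
    algebraMap ℚ Qb r ∈ R0 A :=
  ⟨hr, fun σ _ => σ.commutes r⟩

theorem natCast_mem_R0 (A : ValuationSubring Qb) (n : ℕ) : (n : Qb) ∈ R0 A :=
  natCast_mem (R0 A) n

theorem intCast_mem_R0 (A : ValuationSubring Qb) (n : ℤ) : (n : Qb) ∈ R0 A :=
  intCast_mem (R0 A) n

/-- **(B1)** The inertia field is unramified: an element of `R0 A` in the maximal ideal of `A`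
is `l` times an element of `R0 A`  (`S58/helper6024.exists_eq_natCast_mul`, restated with `A`
implicit). -/
theorem natCast_dvd_of_mem_nonunits {l : ℕ} (hl : l.Prime) {A : ValuationSubring Qb}
    (hA : A.LiesOverPrime l) {x : Qb} (hx : x ∈ R0 A) (hx' : x ∈ A.nonunits) :
    ∃ y ∈ R0 A, x = (l : Qb) * y :=
  Fermat.Agent.S58.helper6024.exists_eq_natCast_mul A hl hA hx hx'


/-- An element of `R0 A` that is a unit of `A` has its inverse in `R0 A`. -/
theorem inv_mem_R0 {A : ValuationSubring Qb} {x : Qb} (hx : x ∈ R0 A) (hu : x ∉ A.nonunits) :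
    x⁻¹ ∈ R0 A := by
  refine ⟨?_, fun σ hσ => by rw [map_inv₀, hx.2 σ hσ]⟩
  have h1 : A.valuation x = 1 :=
    le_antisymm ((A.valuation_le_one_iff _).mpr hx.1) (not_lt.mp (fun h => hu (A.mem_nonunits_iff.mpr h)))
  exact (A.valuation_le_one_iff _).mp (by rw [map_inv₀, h1, inv_one])

/-- Every nonzero element of `R0 A` is a power of `l` times a unit of `R0 A`
(from `S58/helper6024.exists_eq_pow_mul_unit`). -/
theorem exists_eq_pow_mul {l : ℕ} (hl : l.Prime) {A : ValuationSubring Qb}
    (hA : A.LiesOverPrime l) {x : Qb} (hx : x ∈ R0 A) (hx0 : x ≠ 0) :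
    ∃ (n : ℕ) (u : Qb), u ∈ R0 A ∧ u⁻¹ ∈ R0 A ∧ x = (l : Qb) ^ n * u := by
  obtain ⟨n, u, hu, hu1, rfl⟩ :=
    Fermat.Agent.S58.helper6024.exists_eq_pow_mul_unit A hl hA hx hx0
  refine ⟨n, u, hu, inv_mem_R0 hu ?_, rfl⟩
  rw [A.mem_nonunits_iff, hu1]
  exact lt_irrefl _


/-! ## Roots near an approximate root -/

/-- If a monic polynomial over `ℚ̄` takes a value in the maximal ideal of `A` at `a`, then some
root of it is congruent to `a` modulo the maximal ideal. -/
theorem exists_root_sub_mem_nonunits (A : ValuationSubring Qb) {P : Qb[X]} (hP : P.Monic)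
    {a : Qb} (ha : P.eval a ∈ A.nonunits) : ∃ r, P.IsRoot r ∧ a - r ∈ A.nonunits := by
  have hsplit : P.Splits := IsAlgClosed.splits P
  have hprod := hsplit.eq_prod_roots_of_monic hP
  have heval : P.eval a = (P.roots.map (fun r => a - r)).prod := by
    conv_lhs => rw [hprod]
    rw [eval_multiset_prod, Multiset.map_map]
    congr 1
    apply Multiset.map_congr rfl
    intro r _
    simp
  by_contra hcon
  push Not at hcon
  have hall : ∀ r ∈ P.roots, 1 ≤ A.valuation (a - r) := by
    intro r hr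
    have h := hcon r ((mem_roots hP.ne_zero).mp hr)
    rw [A.mem_nonunits_iff, not_lt] at h
    exact h
  have h1 : 1 ≤ A.valuation (P.eval a) := by
    rw [heval, map_multiset_prod, Multiset.map_map]
    apply Multiset.one_le_prod_of_one_le
    intro x hx
    obtain ⟨r, hr, rfl⟩ := Multiset.mem_map.mp hx
    exact hall r hr
  exact absurd (A.mem_nonunits_iff.mp ha) (not_lt.mpr h1)

/-- Reduction modulo the maximal ideal of `A` is injective on roots of unity of order prime
to `l`. -/
theorem sub_notMem_nonunits_of_pow_eq_one {l : ℕ} (hl : l.Prime) (A : ValuationSubring Qb)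
    (hA : A.LiesOverPrime l) {m : ℕ} (hm : ¬ l ∣ m) {ζ₁ ζ₂ : Qb} (h₁ : ζ₁ ^ m = 1)
    (h₂ : ζ₂ ^ m = 1) (hne : ζ₁ ≠ ζ₂) : ζ₁ - ζ₂ ∉ A.nonunits := by
  intro hmem
  have hm0 : m ≠ 0 := fun h => hm (h ▸ dvd_zero l)
  have hζ₂0 : ζ₂ ≠ 0 := by
    rintro rfl
    rw [zero_pow hm0] at h₂
    exact zero_ne_one h₂
  have hv : ∀ ζ : Qb, ζ ^ m = 1 → A.valuation ζ = 1 := by
    intro ζ hζ
    have h : A.valuation ζ ^ m = 1 := by rw [← map_pow, hζ, map_one]
    exact (pow_eq_one_iff.mp h).resolve_right hm0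
  set η := ζ₁ / ζ₂ with hη
  have hηm : η ^ m = 1 := by rw [hη, div_pow, h₁, h₂, div_one]
  have hη1 : η ≠ 1 := by
    intro h
    apply hne
    rw [hη, div_eq_one_iff_eq hζ₂0] at h
    exact h
  have hvη : A.valuation η = 1 := hv η hηm
  have hηA : η ∈ A := (A.valuation_le_one_iff _).mp hvη.le
  have hsum : ∑ i ∈ Finset.range m, η ^ i = 0 := by
    have h := geom_sum_mul η m
    rw [hηm, sub_self] at h
    rcases mul_eq_zero.mp h with h | h
    · exact h
    · exact absurd (sub_eq_zero.mp h) hη1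
  have hmc : (m : Qb) = (1 - η) * ∑ i ∈ Finset.range m, ∑ j ∈ Finset.range i, η ^ j := by
    rw [Finset.mul_sum]
    have h : ∀ i ∈ Finset.range m, (1 - η) * ∑ j ∈ Finset.range i, η ^ j = 1 - η ^ i := by
      intro i _
      exact mul_neg_geom_sum η i
    rw [Finset.sum_congr rfl h, Finset.sum_sub_distrib, hsum]
    simp
  have hcA : (∑ i ∈ Finset.range m, ∑ j ∈ Finset.range i, η ^ j) ∈ A :=
    sum_mem (fun i _ => sum_mem (fun j _ => pow_mem hηA j))
  have hvm : A.valuation (m : Qb) = 1 :=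
    Fermat.Agent.Lib.helper954.valuation_natCast_eq_one hl A hA hm
  have hlt : A.valuation (1 - η) < 1 := by
    have h3 : 1 - η = -(ζ₁ - ζ₂) / ζ₂ := by
      rw [hη]
      field_simp
      ring
    rw [h3, map_div₀, Valuation.map_neg, hv ζ₂ h₂, div_one]
    exact A.mem_nonunits_iff.mp hmem
  have h4 : A.valuation (m : Qb) < 1 := by
    rw [hmc, map_mul]
    calc A.valuation (1 - η) * A.valuation (∑ i ∈ Finset.range m, ∑ j ∈ Finset.range i, η ^ j)
        ≤ A.valuation (1 - η) * 1 := mul_le_mul' le_rfl ((A.valuation_le_one_iff _).mpr hcA)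
      _ = A.valuation (1 - η) := mul_one _
      _ < 1 := hlt
  rw [hvm] at h4
  exact lt_irrefl _ h4

/-- **(B2)** Every residue class of `A` contains an element of `R0 A` (zero or a root of unity of
order prime to `l`): the residue field of `R0 A` is the residue field of `A`. -/
theorem exists_sub_mem_nonunits {l : ℕ} (hl : l.Prime) {A : ValuationSubring Qb}
    (hA : A.LiesOverPrime l) {a : Qb} (ha : a ∈ A) : ∃ r ∈ R0 A, a - r ∈ A.nonunits := by
  by_cases hu : a ∈ A.nonunits
  · exact ⟨0, (R0 A).zero_mem, by simpa using hu⟩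
  have hQ : Algebra.IsAlgebraic ℚ Qb := AlgebraicClosure.isAlgebraic ℚ
  obtain ⟨n, hn, hx⟩ := Fermat.Agent.Lib.helper3858.exists_pow_eq_self_residueField A hl hA
    (residue A ⟨a, ha⟩)
  have hln : 2 ≤ l ^ n := le_trans hl.two_le (Nat.le_self_pow hn.ne' l)
  set m := l ^ n - 1 with hm
  have hm1 : m + 1 = l ^ n := by omega
  have hm0 : m ≠ 0 := by omega
  have hlm : ¬ l ∣ m := by
    intro h
    have h2 : l ∣ l ^ n := dvd_pow_self l hn.ne'
    have h3 : l ∣ 1 := by
      have h4 : l ∣ m + 1 := hm1 ▸ h2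
      exact (Nat.dvd_add_right h).mp h4
    exact hl.one_lt.ne' (Nat.dvd_one.mp h3)
  have hres : residue A ⟨a, ha⟩ ≠ 0 := by
    rw [Ne, residue_eq_zero_iff]
    intro h
    exact hu ((ValuationSubring.coe_mem_nonunits_iff (A := A)).mpr h)
  have hpow : residue A ⟨a, ha⟩ ^ m = 1 := by
    have h : residue A ⟨a, ha⟩ ^ m * residue A ⟨a, ha⟩ = 1 * residue A ⟨a, ha⟩ := by
      rw [← pow_succ, hm1, one_mul]
      exact hx
    exact mul_right_cancel₀ hres h
  have hmem : a ^ m - 1 ∈ A.nonunits := by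
    have h1 : residue A ((⟨a, ha⟩ : A) ^ m - 1) = 0 := by
      rw [map_sub, map_pow, hpow, map_one, sub_self]
    rw [residue_eq_zero_iff] at h1
    have h2 := (ValuationSubring.coe_mem_nonunits_iff (A := A)).mpr h1
    simpa using h2
  have hP : (X ^ m - C (1 : Qb) : Qb[X]).Monic := monic_X_pow_sub_C (1 : Qb) hm0
  obtain ⟨r, hr, hra⟩ := exists_root_sub_mem_nonunits A hP (a := a) (by simpa using hmem)
  have hrm : r ^ m = 1 := by
    have h := hr
    rw [IsRoot, eval_sub, eval_pow, eval_X, eval_C, sub_eq_zero] at h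
    exact h
  have hrA : r ∈ A := by
    have h : r = a - (a - r) := by ring
    rw [h]
    exact sub_mem ha ((A.valuation_le_one_iff _).mp (A.mem_nonunits_iff.mp hra).le)
  refine ⟨r, ⟨hrA, ?_⟩, hra⟩
  intro σ hσ
  by_contra hne
  have h1 := Fermat.Agent.Lib.helper954.apply_sub_mem_nonunits_of_mem_inertia hσ hrA
  exact sub_notMem_nonunits_of_pow_eq_one hl A hA hlm (by rw [← map_pow, hrm, map_one]) hrm hne h1

/-! ## (B3) Simple roots lift uniquely, and the lift is inertia-fixed -/

section hensel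

variable {A : ValuationSubring Qb}

theorem sub_mem_nonunits {x y : Qb} (hx : x ∈ A.nonunits) (hy : y ∈ A.nonunits) :
    x - y ∈ A.nonunits := by
  rw [A.mem_nonunits_iff] at hx hy ⊢
  exact lt_of_le_of_lt (Valuation.map_sub _ _ _) (max_lt hx hy)

theorem add_mem_nonunits {x y : Qb} (hx : x ∈ A.nonunits) (hy : y ∈ A.nonunits) :
    x + y ∈ A.nonunits := by
  rw [A.mem_nonunits_iff] at hx hy ⊢
  exact lt_of_le_of_lt (Valuation.map_add _ _ _) (max_lt hx hy)

theorem neg_mem_nonunits {x : Qb} (hx : x ∈ A.nonunits) : -x ∈ A.nonunits := by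
  rw [A.mem_nonunits_iff] at hx ⊢
  rwa [Valuation.map_neg]

theorem mul_mem_nonunits {x y : Qb} (hx : x ∈ A.nonunits) (hy : y ∈ A) : x * y ∈ A.nonunits := by
  rw [A.mem_nonunits_iff] at hx ⊢
  rw [map_mul]
  calc A.valuation x * A.valuation y ≤ A.valuation x * 1 :=
        mul_le_mul' le_rfl ((A.valuation_le_one_iff _).mpr hy)
    _ = A.valuation x := mul_one _
    _ < 1 := hx

theorem mem_of_mem_nonunits {x : Qb} (hx : x ∈ A.nonunits) : x ∈ A :=
  (A.valuation_le_one_iff _).mp (A.mem_nonunits_iff.mp hx).le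

/-- A polynomial over `ℚ̄` with coefficients in `A` comes from `A[X]`. -/
theorem exists_lift {P : Qb[X]} (hcoeff : ∀ i, P.coeff i ∈ A) :
    ∃ PA : (A : Type)[X], PA.map A.subtype = P := by
  have h : P ∈ Polynomial.lifts A.subtype :=
    (lifts_iff_coeff_lifts P).mpr (fun n => ⟨⟨P.coeff n, hcoeff n⟩, rfl⟩)
  exact (mem_lifts P).mp h

theorem eval_lift (PA : (A : Type)[X]) (z : A) :
    (PA.map A.subtype).eval (z : Qb) = ((PA.eval z : A) : Qb) := by
  rw [eval_map]
  exact eval₂_at_apply A.subtype z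

/-- Congruent arguments give congruent values. -/
theorem eval_sub_eval_mem_nonunits {P : Qb[X]} (hcoeff : ∀ i, P.coeff i ∈ A) {x y : Qb}
    (hx : x ∈ A) (hy : y ∈ A) (hxy : x - y ∈ A.nonunits) :
    P.eval x - P.eval y ∈ A.nonunits := by
  obtain ⟨PA, rfl⟩ := exists_lift hcoeff
  obtain ⟨c, hc⟩ := sub_dvd_eval_sub (⟨x, hx⟩ : A) ⟨y, hy⟩ PA
  have h1 := eval_lift PA ⟨x, hx⟩
  have h2 := eval_lift PA ⟨y, hy⟩
  have h3 : (PA.map A.subtype).eval x - (PA.map A.subtype).eval y = (x - y) * (c : Qb) := by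
    have h4 := congrArg (fun z : A => (z : Qb)) hc
    push_cast at h4
    rw [← h4]
    exact congrArg₂ (· - ·) h1 h2
  rw [h3]
  exact mul_mem_nonunits hxy c.2

theorem derivative_coeff_mem {P : Qb[X]} (hcoeff : ∀ i, P.coeff i ∈ A) (i : ℕ) :
    P.derivative.coeff i ∈ A := by
  rw [coeff_derivative]
  exact mul_mem (hcoeff _) (add_mem (natCast_mem A i) A.one_mem)

/-- **(B3), existence and uniqueness.** A monic polynomial with coefficients in `A`, a value in
the maximal ideal at `a ∈ A` and a unit derivative there has exactly one root congruent to `a`. -/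
theorem existsUnique_root {P : Qb[X]} (hP : P.Monic) (hcoeff : ∀ i, P.coeff i ∈ A) {a : Qb}
    (ha : a ∈ A) (h0 : P.eval a ∈ A.nonunits) (h1 : P.derivative.eval a ∉ A.nonunits) :
    ∃! b, P.IsRoot b ∧ b - a ∈ A.nonunits := by
  obtain ⟨r, hr, hra⟩ := exists_root_sub_mem_nonunits A hP h0
  have hra' : r - a ∈ A.nonunits := by
    have h := neg_mem_nonunits hra
    rwa [neg_sub] at h
  refine ⟨r, ⟨hr, hra'⟩, ?_⟩
  rintro b ⟨hb, hba⟩
  by_contra hne
  have hrA : r ∈ A := by
    have h : r = (r - a) + a := by ring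
    rw [h]
    exact add_mem (mem_of_mem_nonunits hra') ha
  have hbA : b ∈ A := by
    have h : b = (b - a) + a := by ring
    rw [h]
    exact add_mem (mem_of_mem_nonunits hba) ha
  have hbr : b - r ∈ A.nonunits := by
    have h : b - r = (b - a) - (r - a) := by ring
    rw [h]
    exact sub_mem_nonunits hba hra'
  -- the derivative at `r` is a unit
  have hder : P.derivative.eval r ∉ A.nonunits := by
    intro h
    apply h1
    have h2 := eval_sub_eval_mem_nonunits (derivative_coeff_mem hcoeff) hrA ha hra'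
    have h3 : P.derivative.eval a = P.derivative.eval r - (P.derivative.eval r - P.derivative.eval a) := by
      ring
    rw [h3]
    exact sub_mem_nonunits h h2
  -- Taylor expansion in `A`
  obtain ⟨PA, hPA⟩ := exists_lift hcoeff
  obtain ⟨k, hk⟩ := PA.binomExpansion (⟨r, hrA⟩ : A) (⟨b, hbA⟩ - ⟨r, hrA⟩)
  rw [add_sub_cancel] at hk
  have hk' := congrArg (fun z : A => (z : Qb)) hk
  push_cast at hk'
  rw [← eval_lift PA ⟨b, hbA⟩, ← eval_lift PA ⟨r, hrA⟩, ← eval_lift PA.derivative ⟨r, hrA⟩,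
    ← derivative_map, hPA] at hk'
  have hb0 : P.eval b = 0 := hb
  have hr0 : P.eval r = 0 := hr
  rw [hb0, hr0, zero_add] at hk'
  have hbr0 : b - r ≠ 0 := sub_ne_zero.mpr hne
  have h5 : P.derivative.eval r = -((k : Qb) * (b - r)) := by
    have h6 : (b - r) * (P.derivative.eval r + (k : Qb) * (b - r)) = 0 := by
      rw [hk']
      ring
    rcases mul_eq_zero.mp h6 with h | h
    · exact absurd h hbr0
    · exact eq_neg_of_add_eq_zero_left h
  apply hder
  rw [h5]
  apply neg_mem_nonunits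
  rw [mul_comm]
  exact mul_mem_nonunits hbr k.2

/-- **(B3), inertia-fixedness.** If moreover the coefficients lie in `R0 A`, the root congruent to
`a` lies in `R0 A`. -/
theorem root_mem_R0 {P : Qb[X]} (hP : P.Monic) (hcoeff : ∀ i, P.coeff i ∈ R0 A) {a : Qb}
    (ha : a ∈ A) (h1 : P.derivative.eval a ∉ A.nonunits) {b : Qb} (hb : P.IsRoot b)
    (hba : b - a ∈ A.nonunits) : b ∈ R0 A := by
  have hcoeffA : ∀ i, P.coeff i ∈ A := fun i => (hcoeff i).1
  have hbA : b ∈ A := by
    have h : b = (b - a) + a := by ring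
    rw [h]
    exact add_mem (mem_of_mem_nonunits hba) ha
  have h0 : P.eval a ∈ A.nonunits := by
    have h2 : a - b ∈ A.nonunits := by
      have h := neg_mem_nonunits hba
      rwa [neg_sub] at h
    have h3 := eval_sub_eval_mem_nonunits hcoeffA ha hbA h2
    have hb0 : P.eval b = 0 := hb
    rwa [hb0, sub_zero] at h3
  obtain ⟨r, -, hr⟩ := existsUnique_root hP hcoeffA ha h0 h1
  refine ⟨hbA, fun σ hσ => ?_⟩
  have hPσ : P.map (σ : Qb →+* Qb) = P := by
    ext i
    rw [coeff_map]
    exact (hcoeff i).2 σ hσ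
  have hσb : P.IsRoot (σ b) := by
    have h2 : (P.map (σ : Qb →+* Qb)).eval ((σ : Qb →+* Qb) b) = (σ : Qb →+* Qb) (P.eval b) := by
      rw [eval_map]
      exact eval₂_at_apply (σ : Qb →+* Qb) b
    rw [hPσ] at h2
    have hb0 : P.eval b = 0 := hb
    rw [hb0, map_zero] at h2
    exact h2
  have hσba : σ b - a ∈ A.nonunits := by
    have h2 := Fermat.Agent.Lib.helper954.apply_sub_mem_nonunits_of_mem_inertia hσ hbA
    have h3 : σ b - a = (σ b - b) + (b - a) := by ring
    rw [h3]
    exact add_mem_nonunits h2 hba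
  rw [hr (σ b) ⟨hσb, hσba⟩, hr b ⟨hb, hba⟩]

/-- **(B3), packaged.** -/
theorem exists_root_mem_R0 {P : Qb[X]} (hP : P.Monic) (hcoeff : ∀ i, P.coeff i ∈ R0 A) {a : Qb}
    (ha : a ∈ A) (h0 : P.eval a ∈ A.nonunits) (h1 : P.derivative.eval a ∉ A.nonunits) :
    ∃ b ∈ R0 A, P.IsRoot b ∧ b - a ∈ A.nonunits ∧
      ∀ b', P.IsRoot b' → b' - a ∈ A.nonunits → b' = b := by
  obtain ⟨b, ⟨hb, hba⟩, huniq⟩ := existsUnique_root hP (fun i => (hcoeff i).1) ha h0 h1
  exact ⟨b, root_mem_R0 hP hcoeff ha h1 hb hba, hb, hba, fun b' h h' => huniq b' ⟨h, h'⟩⟩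

end hensel

/-! ## (B4) `R0 A` is a discrete valuation ring with uniformiser `l` -/

section dvr

variable {A : ValuationSubring Qb}

/-- The units of `R0 A` are its elements that are units of `A`. -/
theorem isUnit_iff {x : R0 A} : IsUnit x ↔ (x : Qb) ∉ A.nonunits := by
  constructor
  · rintro hu hmem
    obtain ⟨y, hy⟩ := hu.exists_right_inv
    have h1 : (x : Qb) * (y : Qb) = 1 := by
      have h2 := congrArg (fun z : R0 A => (z : Qb)) hy
      simpa using h2
    have h3 := mul_mem_nonunits hmem y.2.1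
    rw [h1, A.mem_nonunits_iff, map_one] at h3
    exact lt_irrefl _ h3
  · intro hx
    have hinv := inv_mem_R0 x.2 hx
    have hx0 : (x : Qb) ≠ 0 := by
      intro h0
      apply hx
      rw [h0, A.mem_nonunits_iff, map_zero]
      exact zero_lt_one
    refine IsUnit.of_mul_eq_one (⟨(x : Qb)⁻¹, hinv⟩ : R0 A) ?_
    apply Subtype.ext
    change (x : Qb) * (x : Qb)⁻¹ = 1
    exact mul_inv_cancel₀ hx0

/-- The inclusion of `R0 A` in `A`. -/
def toA (A : ValuationSubring Qb) : R0 A →+* A where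
  toFun x := ⟨x, x.2.1⟩
  map_one' := rfl
  map_mul' _ _ := rfl
  map_zero' := rfl
  map_add' _ _ := rfl

@[simp] theorem coe_toA (x : R0 A) : ((toA A x : A) : Qb) = (x : Qb) := rfl

theorem toA_injective : Function.Injective (toA A) := by
  intro x y h
  apply Subtype.ext
  exact congrArg (fun z : A => (z : Qb)) h

variable {l : ℕ}

theorem natCast_not_isUnit (hA : A.LiesOverPrime l) : ¬ IsUnit ((l : ℕ) : R0 A) := by
  rw [isUnit_iff, not_not]
  have h : (((l : ℕ) : R0 A) : Qb) = (l : Qb) := by simp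
  rw [h]
  exact hA

/-- `l` is irreducible in `R0 A`. -/
theorem irreducible_natCast (hl : l.Prime) (hA : A.LiesOverPrime l) :
    Irreducible ((l : ℕ) : R0 A) := by
  refine ⟨natCast_not_isUnit hA, fun a b hab => ?_⟩
  by_contra hcon
  rw [not_or] at hcon
  obtain ⟨ha, hb⟩ := hcon
  rw [isUnit_iff, not_not] at ha hb
  obtain ⟨a', ha', hae⟩ := natCast_dvd_of_mem_nonunits hl hA a.2 ha
  obtain ⟨b', hb', hbe⟩ := natCast_dvd_of_mem_nonunits hl hA b.2 hb
  have hl0 : (l : Qb) ≠ 0 := Nat.cast_ne_zero.mpr hl.ne_zero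
  have h1 : (l : Qb) = (a : Qb) * (b : Qb) := by
    have h2 := congrArg (fun z : R0 A => (z : Qb)) hab
    simpa using h2
  have h3 : (1 : Qb) = (l : Qb) * (a' * b') := by
    have h4 : (l : Qb) * 1 = (l : Qb) * ((l : Qb) * (a' * b')) := by
      rw [mul_one]
      conv_lhs => rw [h1, hae, hbe]
      ring
    exact mul_left_cancel₀ hl0 h4
  have h5 : (1 : Qb) ∈ A.nonunits := by
    rw [h3]
    exact mul_mem_nonunits hA (mul_mem ha'.1 hb'.1)
  rw [A.mem_nonunits_iff, map_one] at h5
  exact lt_irrefl _ h5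

/-- Every nonzero element of `R0 A` is associated to a power of `l`. -/
theorem associated_pow (hl : l.Prime) (hA : A.LiesOverPrime l) {x : R0 A} (hx : x ≠ 0) :
    ∃ n : ℕ, Associated (((l : ℕ) : R0 A) ^ n) x := by
  have hx0 : (x : Qb) ≠ 0 := fun h => hx (Subtype.ext h)
  obtain ⟨n, u, hu, hu', hxu⟩ := exists_eq_pow_mul hl hA x.2 hx0
  have hu0 : u ≠ 0 := by
    rintro rfl
    rw [mul_zero] at hxu
    exact hx0 hxu
  refine ⟨n, ⟨⟨⟨u, hu⟩, ⟨u⁻¹, hu'⟩, ?_, ?_⟩, ?_⟩⟩
  · apply Subtype.ext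
    change u * u⁻¹ = 1
    exact mul_inv_cancel₀ hu0
  · apply Subtype.ext
    change u⁻¹ * u = 1
    exact inv_mul_cancel₀ hu0
  · apply Subtype.ext
    change (((((l : ℕ) : R0 A) ^ n : R0 A) : Qb)) * u = (x : Qb)
    rw [hxu]
    simp

/-- **(B4)** `R0 A` is a discrete valuation ring. -/
theorem isDiscreteValuationRing (hl : l.Prime) (hA : A.LiesOverPrime l) :
    IsDiscreteValuationRing (R0 A) :=
  IsDiscreteValuationRing.ofHasUnitMulPowIrreducibleFactorization
    ⟨((l : ℕ) : R0 A), irreducible_natCast hl hA, fun hx => associated_pow hl hA hx⟩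

/-- The inclusion `R0 A → A` is a local homomorphism. -/
theorem isLocalHom_toA : IsLocalHom (toA A) where
  map_nonunit x hx := by
    rw [isUnit_iff]
    intro hmem
    have h1 : toA A x ∈ IsLocalRing.maximalIdeal A :=
      (ValuationSubring.coe_mem_nonunits_iff (A := A)).mp hmem
    exact (IsLocalRing.mem_maximalIdeal _).mp h1 hx

/-- **(B2), residue-field form**: every element of `A` is congruent modulo the maximal ideal of
`A` to an element of `R0 A`. -/
theorem exists_toA_sub_mem_maximalIdeal (hl : l.Prime) (hA : A.LiesOverPrime l) (a : A) :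
    ∃ r : R0 A, a - toA A r ∈ IsLocalRing.maximalIdeal A := by
  obtain ⟨r, hr, hra⟩ := exists_sub_mem_nonunits hl hA a.2
  refine ⟨⟨r, hr⟩, ?_⟩
  exact (ValuationSubring.coe_mem_nonunits_iff (A := A)).mp hra

/-- **(B1), ideal form**: an element of `R0 A` lies in the maximal ideal of `A` iff it is divisible
by `l` in `R0 A`. -/
theorem toA_mem_maximalIdeal_iff (hl : l.Prime) (hA : A.LiesOverPrime l) (x : R0 A) :
    toA A x ∈ IsLocalRing.maximalIdeal A ↔ ((l : ℕ) : R0 A) ∣ x := by
  rw [← ValuationSubring.coe_mem_nonunits_iff]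
  constructor
  · intro h
    obtain ⟨y, hy, hxy⟩ := natCast_dvd_of_mem_nonunits hl hA x.2 h
    refine ⟨⟨y, hy⟩, ?_⟩
    apply Subtype.ext
    rw [hxy]
    simp
  · rintro ⟨y, rfl⟩
    have h1 : ((toA A (((l : ℕ) : R0 A) * y) : A) : Qb) = (l : Qb) * (y : Qb) := by simp
    rw [h1]
    exact mul_mem_nonunits hA y.2.1

end dvr

end Fermat.Agent.S19.helper1821
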