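import Mathlib
import Fermat.Agent.S18.helper508_GaussMod
import Fermat.Agent.S58.helper6024_Unram

/-!
# The Gauss valuation is unramified on the inertia-fixed functions (helper1821, S19-CALG-UNR)

`Qb := AlgebraicClosure ℚ`, `A` a valuation subring of `Qb` over a prime `ℓ ∤ N`,
`I := A.inertiaSubgroupIn ℚ`, `F̄_N = modularFunctionFieldBar N ⊆ Qb((q))` with the coefficientwise
Galois action (Prelude `arithmeticGalois`), `O` the Gauss valuation subring of `F̄_N` at `A`
(`S18/helper508.gaussValuationSubring`).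

* `exists_inertia_fixed_mul` : every `Q ∈ A[X]` with nonzero reduction has a multiple `Q * Q₁`,
  `Q₁ ∈ A[X]` with nonzero reduction, whose coefficients are fixed by `I`
  (product of the finitely many inertia conjugates of `Q`);
* `exists_zpow_unit_form`    : a nonzero `I`-fixed `g ∈ F̄_N` satisfies `Q(j) * g = ℓ ^ m * u`,
  `m : ℤ`, `Q ∈ A[X]` and `u ∈ A((q))` both with nonzero reduction;
* `gauss_valuation_eq_zpow`  : **(UNR)** `O.valuation f = O.valuation ℓ ^ m` for a nonzero `I`-fixed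
  `f ∈ F̄_N`: the Gauss valuation is unramified on the inertia-fixed functions;
* `div_natCast_mem_gauss`    : the analogue of BASE (B1) for functions: an `I`-fixed `f ∈ O` that
  is not a unit of `O` is `ℓ` times an (`I`-fixed) element of `O`.

The hypothesis (UNR) is what the abstract lattice descent "`V ∩ O` is spanned over `A` by its
inertia-fixed vectors" needs; it does not follow from the stability of `O` under inertia and the
triviality of the action on the residue field alone.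
-/

set_option autoImplicit false

noncomputable section

namespace Fermat.Agent.S19.helper1821

open Polynomial ModularCurve IsLocalRing
open Fermat.Agent.S18.helper508

local notation "Qb" => AlgebraicClosure ℚ
local notation "GQ" => (AlgebraicClosure ℚ ≃ₐ[ℚ] AlgebraicClosure ℚ)

/-! ## Restriction of automorphisms to `A` -/

section restrict

variable (A : ValuationSubring Qb)

/-- The restriction to `A` of an automorphism of `ℚ̄` mapping `A` into itself. -/
def resA (σ : GQ) (hσ : ∀ x ∈ A, σ x ∈ A) : A →+* A :=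
  ((σ : Qb →+* Qb).comp A.subtype).codRestrict A (fun x => hσ x x.2)

@[simp] theorem coe_resA (σ : GQ) (hσ : ∀ x ∈ A, σ x ∈ A) (x : A) :
    ((resA A σ hσ x : A) : Qb) = σ (x : Qb) := rfl

theorem subtype_comp_resA (σ : GQ) (hσ : ∀ x ∈ A, σ x ∈ A) :
    A.subtype.comp (resA A σ hσ) = (σ : Qb →+* Qb).comp A.subtype := rfl

theorem resA_comp (σ τ : GQ) (hσ : ∀ x ∈ A, σ x ∈ A) (hτ : ∀ x ∈ A, τ x ∈ A)
    (hστ : ∀ x ∈ A, (σ * τ) x ∈ A) :
    (resA A σ hσ).comp (resA A τ hτ) = resA A (σ * τ) hστ := rfl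

theorem resA_one (h : ∀ x ∈ A, (1 : GQ) x ∈ A) : resA A 1 h = RingHom.id A := rfl

theorem mem_of_mem_inertia {σ : GQ} (hσ : σ ∈ A.inertiaSubgroupIn ℚ) :
    ∀ x ∈ A, σ x ∈ A := fun x hx =>
  (((Fermat.Agent.Lib.helper872.mem_inertiaSubgroupIn_iff A σ).mp hσ).1 x).mpr hx

theorem residue_comp_resA {σ : GQ} (hσ : σ ∈ A.inertiaSubgroupIn ℚ) :
    (residue A).comp (resA A σ (mem_of_mem_inertia A hσ)) = residue A := by
  ext x
  rw [RingHom.comp_apply, ← sub_eq_zero, ← map_sub, residue_eq_zero_iff]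
  apply (ValuationSubring.coe_mem_nonunits_iff (A := A)).mp
  exact ((Fermat.Agent.Lib.helper872.mem_inertiaSubgroupIn_iff A σ).mp hσ).2 x x.2

end restrict

/-! ## Finiteness of Galois orbits of polynomials -/

/-- The Galois conjugates of a polynomial over `ℚ̄` form a finite set. -/
theorem finite_range_map (P : Qb[X]) :
    (Set.range fun σ : GQ => P.map (σ : Qb →+* Qb)).Finite := by
  classical
  set d := P.natDegree with hd
  let T : Fin (d + 1) → Set Qb := fun i => (minpoly ℚ (P.coeff i)).rootSet Qb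
  have hT : ∀ i, (T i).Finite := fun i => Polynomial.rootSet_finite _ _
  let Φ : (Fin (d + 1) → Qb) → Qb[X] := fun c => ∑ i : Fin (d + 1), C (c i) * X ^ (i : ℕ)
  have hfin : (Φ '' Set.pi Set.univ T).Finite := (Set.Finite.pi hT).image Φ
  refine hfin.subset ?_
  rintro _ ⟨σ, rfl⟩
  refine ⟨fun i => σ (P.coeff i), ?_, ?_⟩
  · intro i _
    have halg : IsIntegral ℚ (P.coeff i) := (AlgebraicClosure.isAlgebraic ℚ).isIntegral.1 _
    rw [Polynomial.mem_rootSet]
    refine ⟨minpoly.ne_zero halg, ?_⟩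
    change aeval (σ.toAlgHom (P.coeff i)) (minpoly ℚ (P.coeff i)) = 0
    rw [Polynomial.aeval_algHom_apply, minpoly.aeval, map_zero]
  · have hdeg : (P.map (σ : Qb →+* Qb)).natDegree < d + 1 :=
      lt_of_le_of_lt (Polynomial.natDegree_map_le) (Nat.lt_succ_self d)
    change Φ (fun i => σ (P.coeff i)) = P.map (σ : Qb →+* Qb)
    conv_rhs => rw [Polynomial.as_sum_range' _ _ hdeg]
    rw [Finset.sum_range]
    refine Finset.sum_congr rfl fun i _ => ?_
    rw [Polynomial.coeff_map, ← Polynomial.C_mul_X_pow_eq_monomial]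
    rfl

/-! ## An inertia-fixed multiple with nonzero reduction -/

/-- Every `Q ∈ A[X]` has a multiple `Q * Q₁` with inertia-fixed coefficients, where `Q₁ ∈ A[X]`
reduces to a power of the reduction of `Q`. -/
theorem exists_inertia_fixed_mul' (A : ValuationSubring Qb) (Q : A[X]) :
    ∃ (Q₁ : A[X]) (n : ℕ), Q₁.map (residue A) = (Q.map (residue A)) ^ n ∧
      ∀ σ ∈ A.inertiaSubgroupIn ℚ,
        ((Q * Q₁).map A.subtype).map (σ : Qb →+* Qb) = (Q * Q₁).map A.subtype := by
  classical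
  -- the orbit of `Q` under inertia
  let S : Set A[X] := {P | ∃ (σ : GQ) (hσ : σ ∈ A.inertiaSubgroupIn ℚ),
    P = Q.map (resA A σ (mem_of_mem_inertia A hσ))}
  have hSfin : S.Finite := by
    have hinj : Function.Injective (Polynomial.map A.subtype : A[X] → Qb[X]) :=
      Polynomial.map_injective _ Subtype.val_injective
    refine Set.Finite.of_finite_image ?_ hinj.injOn
    refine (finite_range_map (Q.map A.subtype)).subset ?_
    rintro _ ⟨P, ⟨σ, hσ, rfl⟩, rfl⟩
    refine ⟨σ, ?_⟩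
    simp only
    rw [Polynomial.map_map, Polynomial.map_map, subtype_comp_resA]
  set s : Finset A[X] := hSfin.toFinset with hs
  have hmem : ∀ P, P ∈ s ↔ ∃ (σ : GQ) (hσ : σ ∈ A.inertiaSubgroupIn ℚ),
      P = Q.map (resA A σ (mem_of_mem_inertia A hσ)) := fun P => by
    rw [hs, Set.Finite.mem_toFinset]
    rfl
  have hQs : Q ∈ s := by
    rw [hmem]
    refine ⟨1, Subgroup.one_mem _, ?_⟩
    rw [resA_one, Polynomial.map_id]
  refine ⟨∏ P ∈ s.erase Q, P, (s.erase Q).card, ?_, ?_⟩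
  · rw [Polynomial.map_prod]
    rw [Finset.prod_eq_pow_card]
    intro P hP
    obtain ⟨σ, hσ, rfl⟩ := (hmem P).mp (Finset.mem_of_mem_erase hP)
    rw [Polynomial.map_map, residue_comp_resA A hσ]
  · intro τ hτ
    rw [Finset.mul_prod_erase s (fun P => P) hQs]
    have hτA := mem_of_mem_inertia A hτ
    have hτ' : τ⁻¹ ∈ A.inertiaSubgroupIn ℚ := Subgroup.inv_mem _ hτ
    have hτA' := mem_of_mem_inertia A hτ'
    rw [Polynomial.map_map, ← subtype_comp_resA A τ hτA, ← Polynomial.map_map]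
    congr 1
    rw [Polynomial.map_prod]
    refine Finset.prod_nbij' (fun P => P.map (resA A τ hτA)) (fun P => P.map (resA A τ⁻¹ hτA'))
      ?_ ?_ ?_ ?_ ?_
    · intro P hP
      obtain ⟨σ, hσ, rfl⟩ := (hmem P).mp hP
      rw [hmem]
      refine ⟨τ * σ, Subgroup.mul_mem _ hτ hσ, ?_⟩
      rw [Polynomial.map_map]
      rfl
    · intro P hP
      obtain ⟨σ, hσ, rfl⟩ := (hmem P).mp hP
      rw [hmem]
      refine ⟨τ⁻¹ * σ, Subgroup.mul_mem _ hτ' hσ, ?_⟩
      rw [Polynomial.map_map]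
      rfl
    · intro P _
      rw [Polynomial.map_map]
      have h1 : (resA A τ⁻¹ hτA').comp (resA A τ hτA) = RingHom.id A := by
        ext x
        change τ⁻¹ (τ (x : Qb)) = (x : Qb)
        exact τ.symm_apply_apply _
      rw [h1, Polynomial.map_id]
    · intro P _
      rw [Polynomial.map_map]
      have h1 : (resA A τ hτA).comp (resA A τ⁻¹ hτA') = RingHom.id A := by
        ext x
        change τ (τ⁻¹ (x : Qb)) = (x : Qb)
        exact τ.apply_symm_apply _
      rw [h1, Polynomial.map_id]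
    · intro P _
      rfl

/-- Every `Q ∈ A[X]` with nonzero reduction has a multiple `Q * Q₁`, `Q₁ ∈ A[X]` with nonzero
reduction, whose coefficients are fixed by inertia. -/
theorem exists_inertia_fixed_mul (A : ValuationSubring Qb) (Q : A[X])
    (hQ : Q.map (residue A) ≠ 0) :
    ∃ Q₁ : A[X], Q₁.map (residue A) ≠ 0 ∧
      ∀ σ ∈ A.inertiaSubgroupIn ℚ,
        ((Q * Q₁).map A.subtype).map (σ : Qb →+* Qb) = (Q * Q₁).map A.subtype := by
  obtain ⟨Q₁, n, h1, h2⟩ := exists_inertia_fixed_mul' A Q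
  exact ⟨Q₁, by rw [h1]; exact pow_ne_zero n hQ, h2⟩

/-! ## The unit form of an inertia-fixed function -/

section main

variable (N : ℕ) [NeZero N] (ℓ : ℕ) [Fact ℓ.Prime] (hℓN : ¬ ℓ ∣ N)
  (A : ValuationSubring Qb) (hA : A.LiesOverPrime ℓ)

theorem coeff_algebraMap_mul (c : Qb) (z : LaurentSeries Qb) (n : ℤ) :
    (algebraMap Qb (LaurentSeries Qb) c * z).coeff n = c * z.coeff n := by
  rw [algebraMap_laurentSeries_eq_single, HahnSeries.coeff_single_zero_mul]

include hℓN hA in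
/-- **Unit form of an inertia-fixed function.**  A nonzero element `g` of `F̄_N` whose
`q`-coefficients are fixed by the inertia group of `A` satisfies `Q(j) * g = ℓ ^ m * u` with
`m : ℤ`, `Q ∈ A[X]` and `u ∈ A((q))` both with nonzero reduction. -/
theorem exists_zpow_unit_form {g : LaurentSeries Qb}
    (hg : g ∈ laurentBaseChange Qb (modularFunctionFieldFull N)) (hg0 : g ≠ 0)
    (hfix : ∀ σ ∈ A.inertiaSubgroupIn ℚ, coeffMap (σ : Qb →+* Qb) g = g) :
    ∃ (m : ℤ) (Q : A[X]) (u : LaurentSeries A), Q.map (residue A) ≠ 0 ∧ cπ A u ≠ 0 ∧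
      aeval (jqModC Qb) (Q.map A.subtype) * g =
        algebraMap Qb (LaurentSeries Qb) ((ℓ : Qb) ^ m) * cA A u := by
  have hℓ : ℓ.Prime := Fact.out
  obtain ⟨c, Q, u, hc, hQ, hu, -, hrel⟩ :=
    exists_unit_form (gaussBasis_isBasisZ N ℓ hℓN) (gaussBasis_indepRes N ℓ hℓN A hA) hg hg0
  obtain ⟨Q₁, hQ₁, hQfix⟩ := exists_inertia_fixed_mul A Q hQ
  obtain ⟨y, hy⟩ : ∃ y : LaurentSeries A, y = aeval (jqModC A) Q₁ * u := ⟨_, rfl⟩
  have hyred : cπ A y ≠ 0 := by
    rw [hy, map_mul, cπ_aeval]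
    exact mul_ne_zero (aeval_jqModC_ne_zero hQ₁) hu
  have hrel' : aeval (jqModC Qb) ((Q * Q₁).map A.subtype) * g =
      algebraMap Qb (LaurentSeries Qb) c * cA A y := by
    rw [Polynomial.map_mul, map_mul, hy, map_mul, cA_aeval]
    calc aeval (jqModC Qb) (Q.map A.subtype) * aeval (jqModC Qb) (Q₁.map A.subtype) * g
        = aeval (jqModC Qb) (Q₁.map A.subtype) * (aeval (jqModC Qb) (Q.map A.subtype) * g) := by
          ring
      _ = algebraMap Qb (LaurentSeries Qb) c *
          (aeval (jqModC Qb) (Q₁.map A.subtype) * cA A u) := by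
          rw [hrel]; ring
  -- the coefficients of `c * y` are inertia-fixed
  have hcoef : ∀ σ ∈ A.inertiaSubgroupIn ℚ, ∀ n : ℤ,
      σ (c * (y.coeff n : Qb)) = c * (y.coeff n : Qb) := by
    intro σ hσ n
    have h1 := congrArg (coeffMap (σ : Qb →+* Qb)) hrel'
    rw [map_mul, Fermat.Agent.S28.helper3292.coeffMap_aeval_jqModC, hQfix σ hσ, hfix σ hσ,
      hrel'] at h1
    have h2 := congrArg (fun z : LaurentSeries Qb => z.coeff n) h1
    simp only [coeffMap_coeff, coeff_algebraMap_mul] at h2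
    exact h2.symm
  -- a unit coefficient of `y`
  obtain ⟨n, hn⟩ : ∃ n : ℤ, residue A (y.coeff n) ≠ 0 := by
    by_contra hcon
    push Not at hcon
    apply hyred
    ext n
    simp [hcon n]
  have hyn : A.valuation (y.coeff n : Qb) = 1 := by
    have h1 : IsUnit (y.coeff n) := by
      by_contra h
      exact hn ((residue_eq_zero_iff _).mpr h)
    exact (A.valuation_eq_one_iff _).mp h1
  have hyn0 : (y.coeff n : Qb) ≠ 0 := by
    intro h
    rw [h, map_zero] at hyn
    exact zero_ne_one hyn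
  obtain ⟨m, hm⟩ := Fermat.Agent.S58.helper6024.exists_zpow_valuation_eq A hℓ hA
    (c * (y.coeff n : Qb)) (fun σ hσ => hcoef σ hσ n) (mul_ne_zero hc hyn0)
  rw [map_mul, hyn, mul_one] at hm
  -- `c = ℓ ^ m * ε` with `ε` a unit of `A`
  have hℓ0 : (ℓ : Qb) ≠ 0 := Nat.cast_ne_zero.mpr hℓ.ne_zero
  have hℓm0 : (ℓ : Qb) ^ m ≠ 0 := zpow_ne_zero m hℓ0
  set ε : Qb := c / (ℓ : Qb) ^ m with hε
  have hεv : A.valuation ε = 1 := by
    rw [hε, map_div₀, map_zpow₀, hm]
    exact div_self (zpow_ne_zero m ((_root_.map_ne_zero _).mpr hℓ0))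
  have hεA : ε ∈ A := (A.valuation_le_one_iff _).mp hεv.le
  have hεu : IsUnit (⟨ε, hεA⟩ : A) := (A.valuation_eq_one_iff _).mpr hεv
  refine ⟨m, Q * Q₁, algebraMap A (LaurentSeries A) ⟨ε, hεA⟩ * y, ?_, ?_, ?_⟩
  · rw [Polynomial.map_mul]
    exact mul_ne_zero hQ hQ₁
  · rw [map_mul, Fermat.Agent.S28.helper3292.coeffMap_algebraMap']
    refine mul_ne_zero ?_ hyred
    rw [Ne, map_eq_zero]
    exact fun h => ((IsLocalRing.mem_maximalIdeal _).mp ((residue_eq_zero_iff _).mp h)) hεu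
  · have h3 : cA A (algebraMap A (LaurentSeries A) ⟨ε, hεA⟩ * y) =
        algebraMap Qb (LaurentSeries Qb) ε * cA A y := by
      rw [map_mul, Fermat.Agent.S28.helper3292.coeffMap_algebraMap']
      rfl
    rw [hrel', h3, ← mul_assoc, ← map_mul]
    congr 2
    rw [hε, mul_div_cancel₀ c hℓm0]

/-! ## The Gauss valuation on the inertia-fixed functions -/

/-- The valuation of `ℓ` in the Gauss valuation ring is `< 1`. -/
theorem gauss_valuation_natCast_lt_one :
    (gaussValuationSubring N ℓ hℓN A hA).valuation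
      (algebraMap Qb ↥(modularFunctionFieldBar N) (ℓ : Qb)) < 1 := by
  have hℓ : ℓ.Prime := Fact.out
  have hℓ0 : (ℓ : Qb) ≠ 0 := Nat.cast_ne_zero.mpr hℓ.ne_zero
  by_contra hcon
  rw [not_lt] at hcon
  have h1 : (gaussValuationSubring N ℓ hℓN A hA).valuation
      (algebraMap Qb ↥(modularFunctionFieldBar N) ((ℓ : Qb)⁻¹)) ≤ 1 := by
    rw [map_inv₀, map_inv₀]
    exact inv_le_one_of_one_le₀ hcon
  have h2 := (algebraMap_mem_gaussValuationSubring_iff N ℓ hℓN A hA _).mp
    (((gaussValuationSubring N ℓ hℓN A hA).valuation_le_one_iff _).mp h1)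
  have h3 : A.valuation ((ℓ : Qb)⁻¹) ≤ 1 := (A.valuation_le_one_iff _).mpr h2
  have h4 : A.valuation (ℓ : Qb) < 1 := A.mem_nonunits_iff.mp hA
  rw [map_inv₀] at h3
  have h5 : A.valuation (ℓ : Qb) ≠ 0 := (_root_.map_ne_zero _).mpr hℓ0
  have h6 : 1 ≤ A.valuation (ℓ : Qb) := (inv_le_one₀ (zero_lt_iff.mpr h5)).mp h3
  exact absurd h4 (not_lt.mpr h6)

/-- **(UNR), unit form.**  A nonzero inertia-fixed function is `ℓ ^ m` times a unit of the Gauss
valuation ring. -/
theorem exists_zpow_mul_unit (f : ↥(modularFunctionFieldBar N)) (hf0 : f ≠ 0)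
    (hfix : ∀ σ ∈ A.inertiaSubgroupIn ℚ,
      arithmeticGalois (modularFunctionFieldFull N) σ • f = f) :
    ∃ (m : ℤ) (w : ↥(modularFunctionFieldBar N)),
      f = algebraMap Qb ↥(modularFunctionFieldBar N) ((ℓ : Qb) ^ m) * w ∧
      w ∈ gaussValuationSubring N ℓ hℓN A hA ∧ w⁻¹ ∈ gaussValuationSubring N ℓ hℓN A hA := by
  have hℓ : ℓ.Prime := Fact.out
  have hℓ0 : (ℓ : Qb) ≠ 0 := Nat.cast_ne_zero.mpr hℓ.ne_zero
  have hg0 : (f : LaurentSeries Qb) ≠ 0 := fun h => hf0 (Subtype.ext h)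
  have hfix' : ∀ σ ∈ A.inertiaSubgroupIn ℚ,
      coeffMap (σ : Qb →+* Qb) (f : LaurentSeries Qb) = (f : LaurentSeries Qb) :=
    fun σ hσ => congrArg Subtype.val (hfix σ hσ)
  obtain ⟨m, Q, u, hQ, hu, hrel⟩ := exists_zpow_unit_form N ℓ hℓN A hA f.2 hg0 hfix'
  have hℓm0 : (ℓ : Qb) ^ m ≠ 0 := zpow_ne_zero m hℓ0
  set c : ↥(modularFunctionFieldBar N) :=
    algebraMap Qb ↥(modularFunctionFieldBar N) ((ℓ : Qb) ^ m) with hc
  have hc0 : c ≠ 0 := by
    rw [hc, Ne, map_eq_zero]
    exact hℓm0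
  have hccoe : (c : LaurentSeries Qb) = algebraMap Qb (LaurentSeries Qb) ((ℓ : Qb) ^ m) := rfl
  have hcLS0 : algebraMap Qb (LaurentSeries Qb) ((ℓ : Qb) ^ m) ≠ 0 := by
    rw [Ne, map_eq_zero]
    exact hℓm0
  set w : ↥(modularFunctionFieldBar N) := c⁻¹ * f with hw
  have hwrel : aeval (jqModC Qb) (Q.map A.subtype) * (w : LaurentSeries Qb) = cA A u := by
    have h1 : (w : LaurentSeries Qb) =
        (algebraMap Qb (LaurentSeries Qb) ((ℓ : Qb) ^ m))⁻¹ * (f : LaurentSeries Qb) := rfl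
    rw [h1, mul_left_comm, hrel, ← mul_assoc, inv_mul_cancel₀ hcLS0, one_mul]
  have hwmem : w ∈ gaussValuationSubring N ℓ hℓN A hA :=
    (mem_gaussValuationSubring_iff N ℓ hℓN A hA w).mpr ⟨Q, u, hQ, hwrel⟩
  have hres : gaussResidue N ℓ hℓN A hA ⟨w, hwmem⟩ ≠ 0 := by
    intro h0
    have h1 := gaussResidue_eq N ℓ hℓN A hA ⟨w, hwmem⟩ Q u hQ hwrel
    rw [h0] at h1
    have h2 : coeffMap (IsLocalRing.residue A) u /
        aeval (jqModC (IsLocalRing.ResidueField A)) (Q.map (IsLocalRing.residue A)) ≠ 0 :=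
      div_ne_zero hu (aeval_jqModC_ne_zero hQ)
    exact h2 h1.symm
  have hunit : IsUnit (⟨w, hwmem⟩ : ↥(gaussValuationSubring N ℓ hℓN A hA)) := by
    by_contra h
    exact hres ((gaussResidue_eq_zero_iff N ℓ hℓN A hA _).mpr h)
  refine ⟨m, w, ?_, hwmem, ?_⟩
  · rw [hw, ← mul_assoc, mul_inv_cancel₀ hc0, one_mul]
  · have h1 : (gaussValuationSubring N ℓ hℓN A hA).valuation w = 1 :=
      ((gaussValuationSubring N ℓ hℓN A hA).valuation_eq_one_iff ⟨w, hwmem⟩).mp hunit
    exact ((gaussValuationSubring N ℓ hℓN A hA).valuation_le_one_iff _).mp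
      (by rw [map_inv₀, h1, inv_one])

/-- **(UNR), valuation form.**  The Gauss valuation of a nonzero inertia-fixed function is an
integral power of the valuation of `ℓ`: the Gauss valuation is unramified on the inertia-fixed
functions. -/
theorem gauss_valuation_eq_zpow (f : ↥(modularFunctionFieldBar N)) (hf0 : f ≠ 0)
    (hfix : ∀ σ ∈ A.inertiaSubgroupIn ℚ,
      arithmeticGalois (modularFunctionFieldFull N) σ • f = f) :
    ∃ m : ℤ, (gaussValuationSubring N ℓ hℓN A hA).valuation f =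
      (gaussValuationSubring N ℓ hℓN A hA).valuation
        (algebraMap Qb ↥(modularFunctionFieldBar N) (ℓ : Qb)) ^ m := by
  obtain ⟨m, w, hfw, hw, hw'⟩ := exists_zpow_mul_unit N ℓ hℓN A hA f hf0 hfix
  refine ⟨m, ?_⟩
  have h1 : (gaussValuationSubring N ℓ hℓN A hA).valuation w = 1 := by
    apply le_antisymm (((gaussValuationSubring N ℓ hℓN A hA).valuation_le_one_iff _).mpr hw)
    have h2 := ((gaussValuationSubring N ℓ hℓN A hA).valuation_le_one_iff _).mpr hw'
    rw [map_inv₀] at h2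
    have hw0 : (gaussValuationSubring N ℓ hℓN A hA).valuation w ≠ 0 := by
      rw [Ne, map_eq_zero]
      rintro rfl
      rw [mul_zero] at hfw
      exact hf0 hfw
    exact (inv_le_one₀ (zero_lt_iff.mpr hw0)).mp h2
  rw [hfw, map_mul, h1, mul_one, map_zpow₀, map_zpow₀]

/-- **(B1) for functions.**  An inertia-fixed element of the Gauss valuation ring that is not a
unit is `ℓ` times an element of the Gauss valuation ring. -/
theorem div_natCast_mem_gauss (f : ↥(modularFunctionFieldBar N))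
    (hfix : ∀ σ ∈ A.inertiaSubgroupIn ℚ,
      arithmeticGalois (modularFunctionFieldFull N) σ • f = f)
    (hf : (gaussValuationSubring N ℓ hℓN A hA).valuation f < 1) :
    (algebraMap Qb ↥(modularFunctionFieldBar N) (ℓ : Qb))⁻¹ * f ∈
      gaussValuationSubring N ℓ hℓN A hA := by
  have hℓ : ℓ.Prime := Fact.out
  have hℓ0 : (ℓ : Qb) ≠ 0 := Nat.cast_ne_zero.mpr hℓ.ne_zero
  by_cases hf0 : f = 0
  · rw [hf0, mul_zero]
    exact zero_mem _
  obtain ⟨m, hm⟩ := gauss_valuation_eq_zpow N ℓ hℓN A hA f hf0 hfix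
  set v := (gaussValuationSubring N ℓ hℓN A hA).valuation with hv
  set π := v (algebraMap Qb ↥(modularFunctionFieldBar N) (ℓ : Qb)) with hπ
  have hπ1 : π < 1 := gauss_valuation_natCast_lt_one N ℓ hℓN A hA
  have hπ0 : π ≠ 0 := by
    rw [hπ, Ne, map_eq_zero, map_eq_zero]
    exact hℓ0
  have hπpos : 0 < π := zero_lt_iff.mpr hπ0
  apply ((gaussValuationSubring N ℓ hℓN A hA).valuation_le_one_iff _).mp
  rw [map_mul, map_inv₀, ← hπ, ← hv, hm]
  rw [hm] at hf
  -- `π ^ m < 1` forces `1 ≤ m`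
  have hm1 : 1 ≤ m := by
    by_contra hcon
    rw [not_le] at hcon
    have hm0 : m ≤ 0 := by omega
    obtain ⟨k, hk⟩ := Int.exists_eq_neg_ofNat hm0
    rw [hk, zpow_neg, zpow_natCast] at hf
    have h1 : π ^ k ≤ 1 := pow_le_one₀ hπpos.le hπ1.le
    have h2 : 1 ≤ (π ^ k)⁻¹ := (one_le_inv₀ (pow_pos hπpos k)).mpr h1
    exact absurd hf (not_lt.mpr h2)
  obtain ⟨k, hk⟩ := Int.eq_ofNat_of_zero_le (show 0 ≤ m - 1 by omega)
  have hmk : m = (k : ℤ) + 1 := by omega
  rw [hmk, zpow_add₀ hπ0, zpow_one, zpow_natCast, ← mul_assoc, mul_comm π⁻¹, mul_assoc,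
    inv_mul_cancel₀ hπ0, mul_one]
  exact pow_le_one₀ hπpos.le hπ1.le

end main

end Fermat.Agent.S19.helper1821
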