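import Mathlib

/-!
# S19 / CALG-RAT (helper3214): fixed functions with prescribed reduction

Abstract setting: a group `Γ` acting on a field `L` (through `τ`) and semilinearly on an
`L`-algebra field `F` (through `ρ`).

* `mem_span_fixed` (Speiser, trace form): a `Γ`-stable `L`-subspace `V ≤ F` is spanned over `L`
  by its `Γ`-fixed elements, as soon as every element is fixed by the pointwise stabiliser of a
  finite `Γ`-stable subset of `L`.
* `exists_fixed_ortho` : the integral form.  If `V` has an orthonormal basis with respect to a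
  `Γ`-stable valuation ring `O` of `F` (lying over `A ≤ L`), the residue field of `A` is generated
  by `Γ`-fixed elements, `Γ`-fixed non-units of `O` are divisible by a `Γ`-fixed element `ℓ`
  and `A` is archimedean with respect to `ℓ`, then `V` has an orthonormal basis made of
  `Γ`-fixed elements.
* `exists_fixed_same_reduction` : every element of `V ∩ O` is congruent modulo the maximal ideal
  of `O` to a `Γ`-fixed element of `V ∩ O`.
-/

set_option autoImplicit false

namespace Fermat.Agent.S19.helper3214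

open scoped BigOperators

section Speiser

variable {Γ L F : Type*} [Group Γ] [Field L] [Field F] [Algebra L F]
variable (τ : Γ →* RingAut L) (ρ : Γ →* RingAut F)

/-- The character `e ↦ ∏ c, r c ^ e c` attached to a function `r : X → L`. -/
noncomputable def monChar {X : Type*} [Fintype X] (r : X → L) :
    Multiplicative (X → ℕ) →* L where
  toFun e := ∏ c, r c ^ (Multiplicative.toAdd e c)
  map_one' := by simp
  map_mul' a b := by
    simp only [toAdd_mul, Pi.add_apply, pow_add, Finset.prod_mul_distrib]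

theorem monChar_apply {X : Type*} [Fintype X] (r : X → L) (e : Multiplicative (X → ℕ)) :
    monChar r e = ∏ c, r c ^ (Multiplicative.toAdd e c) := rfl

theorem monChar_injective {X : Type*} [Fintype X] [DecidableEq X] :
    Function.Injective (monChar (L := L) (X := X)) := by
  intro r r' h
  funext c
  have := DFunLike.congr_fun h (Multiplicative.ofAdd (Pi.single c 1))
  simpa [monChar_apply, Pi.single_apply, Finset.prod_ite_eq'] using this

/-- Semilinearity of `ρ` over `τ` on scalar multiples. -/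
theorem map_smul_of_compat
    (hc : ∀ (g : Γ) (c : L), ρ g (algebraMap L F c) = algebraMap L F (τ g c))
    (g : Γ) (c : L) (f : F) : ρ g (c • f) = τ g c • ρ g f := by
  rw [Algebra.smul_def, Algebra.smul_def, map_mul, hc]

/-- **Speiser's lemma (trace form).**  Let `V ≤ F` be a `Γ`-stable `L`-subspace and `v ∈ V` an
element fixed by the pointwise stabiliser of a finite `Γ`-stable subset `X` of `L`.  Then `v`
is an `L`-linear combination of `Γ`-fixed elements of `V`. -/
theorem mem_span_fixed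
    (hc : ∀ (g : Γ) (c : L), ρ g (algebraMap L F c) = algebraMap L F (τ g c))
    (V : Submodule L F) (hV : ∀ g, ∀ f ∈ V, ρ g f ∈ V)
    {v : F} (hv : v ∈ V)
    (X : Finset L) (hX : ∀ g, ∀ c ∈ X, τ g c ∈ X)
    (hXv : ∀ g, (∀ c ∈ X, τ g c = c) → ρ g v = v) :
    v ∈ Submodule.span L {f | f ∈ V ∧ ∀ g, ρ g f = f} := by
  classical
  rw [← Subspace.forall_mem_dualAnnihilator_apply_eq_zero_iff]
  intro φ hφ
  -- well-definedness of `g ↦ ρ g v` on restrictions to `X`
  have hwd : ∀ g g' : Γ, (∀ c ∈ X, τ g c = τ g' c) → ρ g v = ρ g' v := by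
    intro g g' h
    have h1 : ρ (g⁻¹ * g') v = v := by
      apply hXv
      intro c hcX
      rw [map_mul, map_inv, RingAut.mul_apply, ← h c hcX]
      exact (τ g).symm_apply_apply c
    have h2 : ρ g' v = ρ g (ρ (g⁻¹ * g') v) := by
      rw [← RingAut.mul_apply, ← map_mul, mul_inv_cancel_left]
    rw [h2, h1]
  -- the action on functions `X → X`
  let π : Γ → (↥X → ↥X) → (↥X → ↥X) := fun g r c => ⟨τ g (r c), hX g _ (r c).2⟩
  have hπ_one : ∀ r, π 1 r = r := by
    intro r; funext c; apply Subtype.ext; simp [π]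
  have hπ_mul : ∀ g h r, π (g * h) r = π g (π h r) := by
    intro g h r; funext c; apply Subtype.ext; simp [π, RingAut.mul_apply]
  let πE : Γ → (↥X → ↥X) ≃ (↥X → ↥X) := fun g =>
    { toFun := π g
      invFun := π g⁻¹
      left_inv := fun r => by rw [← hπ_mul, inv_mul_cancel, hπ_one]
      right_inv := fun r => by rw [← hπ_mul, mul_inv_cancel, hπ_one] }
  -- the conjugates of `v`, indexed by restrictions
  let W : (↥X → ↥X) → F := fun r =>
    if h : ∃ g : Γ, ∀ c : ↥X, ((r c : ↥X) : L) = τ g c then ρ h.choose v else 0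
  have hW_of : ∀ (r : ↥X → ↥X) (g : Γ), (∀ c : ↥X, ((r c : ↥X) : L) = τ g c) → W r = ρ g v := by
    intro r g hg
    have h : ∃ g : Γ, ∀ c : ↥X, ((r c : ↥X) : L) = τ g c := ⟨g, hg⟩
    simp only [W, dif_pos h]
    apply hwd
    intro c hcX
    rw [← h.choose_spec ⟨c, hcX⟩, ← hg ⟨c, hcX⟩]
  have hW_mem : ∀ r, W r ∈ V := by
    intro r
    by_cases h : ∃ g : Γ, ∀ c : ↥X, ((r c : ↥X) : L) = τ g c
    · simp only [W, dif_pos h]; exact hV _ _ hv
    · simp only [W, dif_neg h]; exact V.zero_mem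
  have hW_π : ∀ (h : Γ) (r : ↥X → ↥X), W (π h r) = ρ h (W r) := by
    intro h r
    by_cases hr : ∃ g : Γ, ∀ c : ↥X, ((r c : ↥X) : L) = τ g c
    · obtain ⟨g, hg⟩ := hr
      rw [hW_of r g hg, hW_of (π h r) (h * g) ?_, map_mul, RingAut.mul_apply]
      intro c
      simp only [π]
      rw [hg c, map_mul, RingAut.mul_apply]
    · have hr' : ¬ ∃ g : Γ, ∀ c : ↥X, (((π h r) c : ↥X) : L) = τ g c := by
        rintro ⟨g, hg⟩
        apply hr
        refine ⟨h⁻¹ * g, fun c => ?_⟩
        have := hg c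
        simp only [π] at this
        rw [map_mul, map_inv, RingAut.mul_apply, ← this]
        exact ((τ h).symm_apply_apply _).symm
      simp only [W, dif_neg hr, dif_neg hr', map_zero]
  -- the traces
  let χ : (↥X → ↥X) → (Multiplicative (↥X → ℕ) →* L) := fun r => monChar (fun c => ((r c : ↥X) : L))
  have hχ_inj : Function.Injective χ := by
    intro r r' h
    have h' := monChar_injective h
    funext c
    exact Subtype.ext (congrFun h' c)
  let T : Multiplicative (↥X → ℕ) → F := fun e => ∑ r : ↥X → ↥X, χ r e • W r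
  have hT_mem : ∀ e, T e ∈ V := fun e =>
    V.sum_mem fun r _ => V.smul_mem _ (hW_mem r)
  have hχ_π : ∀ (h : Γ) (r : ↥X → ↥X) (e : Multiplicative (↥X → ℕ)),
      τ h (χ r e) = χ (π h r) e := by
    intro h r e
    simp only [χ, monChar_apply, map_prod, map_pow, π]
  have hT_fix : ∀ (h : Γ) e, ρ h (T e) = T e := by
    intro h e
    simp only [T, map_sum]
    rw [← Equiv.sum_comp (πE h) (fun r => χ r e • W r)]
    refine Finset.sum_congr rfl fun r _ => ?_
    rw [map_smul_of_compat τ ρ hc, hχ_π, ← hW_π]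
    rfl
  have hφT : ∀ e, φ (T e) = 0 := by
    intro e
    exact (Submodule.mem_dualAnnihilator φ).mp hφ (T e)
      (Submodule.subset_span ⟨hT_mem e, fun g => hT_fix g e⟩)
  have hli := (linearIndependent_monoidHom (Multiplicative (↥X → ℕ)) L).comp χ hχ_inj
  have hzero : ∀ r, φ (W r) = 0 := by
    refine Fintype.linearIndependent_iff.mp hli (fun r => φ (W r)) ?_
    funext e
    have := hφT e
    simp only [T, map_sum, map_smul, smul_eq_mul] at this
    simp only [Finset.sum_apply, Pi.smul_apply, Function.comp_apply, smul_eq_mul, Pi.zero_apply]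
    rw [← this]
    exact Finset.sum_congr rfl fun r _ => mul_comm _ _
  have hid : W id = v := by
    rw [hW_of id 1 (fun c => by simp), map_one]
    rfl
  rw [← hid]
  exact hzero id


/-- A finite set of scalars with finite orbits is contained in a finite stable set. -/
theorem exists_stable_finset
    (halg : ∀ c : L, (Set.range fun g : Γ => τ g c).Finite) (s : Finset L) :
    ∃ X : Finset L, s ⊆ X ∧ ∀ g, ∀ c ∈ X, τ g c ∈ X := by
  classical
  refine ⟨s.biUnion fun c => (halg c).toFinset, ?_, ?_⟩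
  · intro c hcs
    rw [Finset.mem_biUnion]
    refine ⟨c, hcs, ?_⟩
    rw [Set.Finite.mem_toFinset]
    exact ⟨1, by simp⟩
  · intro g c hcX
    rw [Finset.mem_biUnion] at hcX ⊢
    obtain ⟨c0, hc0, hcc⟩ := hcX
    rw [Set.Finite.mem_toFinset] at hcc
    obtain ⟨h, rfl⟩ := hcc
    refine ⟨c0, hc0, ?_⟩
    rw [Set.Finite.mem_toFinset]
    exact ⟨g * h, by simp [RingAut.mul_apply]⟩

/-- Speiser with "open stabilisers": scalars have finite orbits and `v` is fixed by the
pointwise stabiliser of a finite set of scalars. -/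
theorem mem_span_fixed_of_open
    (hc : ∀ (g : Γ) (c : L), ρ g (algebraMap L F c) = algebraMap L F (τ g c))
    (V : Submodule L F) (hV : ∀ g, ∀ f ∈ V, ρ g f ∈ V)
    (halg : ∀ c : L, (Set.range fun g : Γ => τ g c).Finite)
    {v : F} (hv : v ∈ V)
    (hopen : ∃ s : Finset L, ∀ g, (∀ c ∈ s, τ g c = c) → ρ g v = v) :
    v ∈ Submodule.span L {f | f ∈ V ∧ ∀ g, ρ g f = f} := by
  obtain ⟨s, hs⟩ := hopen
  obtain ⟨X, hsX, hX⟩ := exists_stable_finset τ halg s
  exact mem_span_fixed τ ρ hc V hV hv X hX fun g hg => hs g fun c hcs => hg c (hsX hcs)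

/-- Speiser: a stable subspace is the span of its fixed vectors. -/
theorem span_fixed_eq
    (hc : ∀ (g : Γ) (c : L), ρ g (algebraMap L F c) = algebraMap L F (τ g c))
    (V : Submodule L F) (hV : ∀ g, ∀ f ∈ V, ρ g f ∈ V)
    (halg : ∀ c : L, (Set.range fun g : Γ => τ g c).Finite)
    (hopen : ∀ v ∈ V, ∃ s : Finset L, ∀ g, (∀ c ∈ s, τ g c = c) → ρ g v = v) :
    Submodule.span L {f | f ∈ V ∧ ∀ g, ρ g f = f} = V := by
  apply le_antisymm
  · exact Submodule.span_le.mpr fun f hf => hf.1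
  · intro v hv
    exact mem_span_fixed_of_open τ ρ hc V hV halg hv (hopen v hv)

/-- Speiser: a finite-dimensional stable subspace has a basis of fixed vectors. -/
theorem exists_fixed_basis
    (hc : ∀ (g : Γ) (c : L), ρ g (algebraMap L F c) = algebraMap L F (τ g c))
    (V : Submodule L F) (hV : ∀ g, ∀ f ∈ V, ρ g f ∈ V)
    (halg : ∀ c : L, (Set.range fun g : Γ => τ g c).Finite)
    (hopen : ∀ v ∈ V, ∃ s : Finset L, ∀ g, (∀ c ∈ s, τ g c = c) → ρ g v = v)
    [FiniteDimensional L V] {d : ℕ} (hd : Module.finrank L V = d) :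
    ∃ w : Fin d → F, (∀ i, w i ∈ V) ∧ (∀ i g, ρ g (w i) = w i) ∧
      Submodule.span L (Set.range w) = V ∧ LinearIndependent L w := by
  subst hd
  have hS := span_fixed_eq τ ρ hc V hV halg hopen
  have key : ∃ f : Fin (Module.finrank L V) → F, (∀ i, f i ∈ {f | f ∈ V ∧ ∀ g, ρ g f = f}) ∧
      Submodule.span L (Set.range f) = V ∧ LinearIndependent L f := by
    have hfin : Module.Finite L (Submodule.span L {f | f ∈ V ∧ ∀ g, ρ g f = f}) := by
      rw [hS]; infer_instance
    have := Submodule.exists_fun_fin_finrank_span_eq L {f | f ∈ V ∧ ∀ g, ρ g f = f}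
    rw [hS] at this
    exact this
  obtain ⟨f, hf, hspan, hli⟩ := key
  exact ⟨f, fun i => (hf i).1, fun i g => (hf i).2 g, hspan, hli⟩

end Speiser


section ValTools

variable {F : Type*} [Field F] (O : ValuationSubring F)

theorem nonunits_mem {x : F} (hx : x ∈ O.nonunits) : x ∈ O :=
  (O.valuation_le_one_iff x).mp (le_of_lt (O.mem_nonunits_iff.mp hx))

theorem nonunits_zero : (0 : F) ∈ O.nonunits := by
  rw [O.mem_nonunits_iff, map_zero]
  exact zero_lt_one

theorem one_notMem_nonunits : (1 : F) ∉ O.nonunits := by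
  rw [O.mem_nonunits_iff, map_one]
  exact lt_irrefl _

theorem nonunits_add {x y : F} (hx : x ∈ O.nonunits) (hy : y ∈ O.nonunits) :
    x + y ∈ O.nonunits := by
  rw [O.mem_nonunits_iff] at hx hy ⊢
  exact O.valuation.map_add_lt hx hy

theorem nonunits_neg {x : F} (hx : x ∈ O.nonunits) : -x ∈ O.nonunits := by
  rw [O.mem_nonunits_iff] at hx ⊢
  rwa [Valuation.map_neg]

theorem nonunits_sub {x y : F} (hx : x ∈ O.nonunits) (hy : y ∈ O.nonunits) :
    x - y ∈ O.nonunits := by
  rw [sub_eq_add_neg]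
  exact nonunits_add O hx (nonunits_neg O hy)

theorem nonunits_mul_mem {x y : F} (hx : x ∈ O.nonunits) (hy : y ∈ O) :
    x * y ∈ O.nonunits := by
  rw [O.mem_nonunits_iff] at hx ⊢
  rw [map_mul]
  have hy' := (O.valuation_le_one_iff y).mpr hy
  exact lt_of_le_of_lt (mul_le_of_le_one_right' hy') hx

theorem nonunits_sum {ι : Type*} (s : Finset ι) (f : ι → F)
    (h : ∀ i ∈ s, f i ∈ O.nonunits) : ∑ i ∈ s, f i ∈ O.nonunits := by
  rw [O.mem_nonunits_iff]
  exact O.valuation.map_sum_lt one_ne_zero fun i hi => O.mem_nonunits_iff.mp (h i hi)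

theorem mem_nonunits_iff_inv_notMem' {x : F} (hx : x ≠ 0) : x ∈ O.nonunits ↔ x⁻¹ ∉ O := by
  rw [O.mem_nonunits_iff, ← O.valuation_le_one_iff, map_inv₀, not_le]
  have hv : 0 < O.valuation x := zero_lt_iff.mpr ((Valuation.ne_zero_iff _).mpr hx)
  exact (one_lt_inv₀ hv).symm

theorem det_mem_of_entries_mem {L : Type*} [Field L] {n : Type*} [Fintype n] [DecidableEq n]
    (S : Subring L) (P : Matrix n n L) (hP : ∀ i j, P i j ∈ S) : P.det ∈ S := by
  have h : P = S.subtype.mapMatrix (Matrix.of fun i j => (⟨P i j, hP i j⟩ : S)) := by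
    ext i j
    rfl
  rw [h, ← RingHom.map_det]
  exact Subtype.property _

end ValTools

section Ortho

variable {L F : Type*} [Field L] [Field F] [Algebra L F]
variable {A : ValuationSubring L} {O : ValuationSubring F}

theorem algebraMap_mem_nonunits_iff (hAO : ∀ c : L, algebraMap L F c ∈ O ↔ c ∈ A) (c : L) :
    algebraMap L F c ∈ O.nonunits ↔ c ∈ A.nonunits := by
  rcases eq_or_ne c 0 with rfl | hc0
  · simp
  · have hc0' : algebraMap L F c ≠ 0 := by simpa using hc0
    rw [mem_nonunits_iff_inv_notMem' O hc0', mem_nonunits_iff_inv_notMem' A hc0, ← map_inv₀, hAO]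

theorem smul_mem_of_mem (hAO : ∀ c : L, algebraMap L F c ∈ O ↔ c ∈ A) {c : L} {f : F}
    (hc : c ∈ A) (hf : f ∈ O) : c • f ∈ O := by
  rw [Algebra.smul_def]
  exact O.mul_mem _ _ ((hAO c).mpr hc) hf

theorem smul_mem_nonunits_of_mem (hAO : ∀ c : L, algebraMap L F c ∈ O ↔ c ∈ A) {c : L} {f : F}
    (hc : c ∈ A.nonunits) (hf : f ∈ O) : c • f ∈ O.nonunits := by
  rw [Algebra.smul_def]
  exact nonunits_mul_mem O ((algebraMap_mem_nonunits_iff hAO c).mpr hc) hf

/-- An orthonormal family: integral vectors such that an `A`-combination which is a non-unit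
has all its coefficients non-units.  (Equivalently: the reductions are linearly independent over
the residue field of `A`.) -/
def IsOrtho (A : ValuationSubring L) (O : ValuationSubring F) {ι : Type*} [Fintype ι]
    (u : ι → F) : Prop :=
  (∀ i, u i ∈ O) ∧
    ∀ a : ι → L, (∀ i, a i ∈ A) → (∑ i, a i • u i) ∈ O.nonunits → ∀ i, a i ∈ A.nonunits

theorem IsOrtho.mem {ι : Type*} [Fintype ι] {u : ι → F} (hu : IsOrtho A O u) (i : ι) :
    u i ∈ O := hu.1 i

/-- Normalising by a coefficient of largest valuation. -/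
theorem IsOrtho.normalized_notMem {ι : Type*} [Fintype ι] {u : ι → F} (hu : IsOrtho A O u)
    {a : ι → L} {i0 : ι} (h0 : a i0 ≠ 0)
    (hmax : ∀ j, A.valuation (a j) ≤ A.valuation (a i0)) :
    (a i0)⁻¹ • ∑ j, a j • u j ∉ O.nonunits := by
  intro hsum
  have hv0 : 0 < A.valuation (a i0) := zero_lt_iff.mpr ((Valuation.ne_zero_iff _).mpr h0)
  have hb : ∀ j, (a i0)⁻¹ * a j ∈ A := by
    intro j
    rw [← A.valuation_le_one_iff, map_mul, map_inv₀]
    exact (inv_mul_le_one₀ hv0).mpr (hmax j)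
  have hsum' : ∑ j, ((a i0)⁻¹ * a j) • u j ∈ O.nonunits := by
    have : ∑ j, ((a i0)⁻¹ * a j) • u j = (a i0)⁻¹ • ∑ j, a j • u j := by
      rw [Finset.smul_sum]
      exact Finset.sum_congr rfl fun j _ => by rw [smul_smul]
    rw [this]
    exact hsum
  have := hu.2 _ hb hsum' i0
  rw [inv_mul_cancel₀ h0] at this
  exact one_notMem_nonunits A this

/-- An orthonormal family is linearly independent. -/
theorem IsOrtho.linearIndependent {ι : Type*} [Fintype ι] {u : ι → F} (hu : IsOrtho A O u) :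
    LinearIndependent L u := by
  classical
  rw [Fintype.linearIndependent_iff]
  intro a ha i
  by_contra hi
  obtain ⟨i0, -, hmax⟩ := Finset.exists_max_image Finset.univ (fun i => A.valuation (a i))
    ⟨i, Finset.mem_univ i⟩
  have h0 : a i0 ≠ 0 := by
    intro h
    have := hmax i (Finset.mem_univ i)
    rw [h, map_zero] at this
    exact hi ((Valuation.zero_iff _).mp (le_antisymm this zero_le))
  apply hu.normalized_notMem h0 fun j => hmax j (Finset.mem_univ j)
  rw [ha, smul_zero]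
  exact nonunits_zero O

/-- The coordinates of an integral vector with respect to an orthonormal family are integral. -/
theorem IsOrtho.coeff_mem (hAO : ∀ c : L, algebraMap L F c ∈ O ↔ c ∈ A)
    {ι : Type*} [Fintype ι] {u : ι → F} (hu : IsOrtho A O u)
    (a : ι → L) (ha : ∑ i, a i • u i ∈ O) : ∀ i, a i ∈ A := by
  classical
  intro i
  by_contra hi
  obtain ⟨i0, -, hmax⟩ := Finset.exists_max_image Finset.univ (fun i => A.valuation (a i))
    ⟨i, Finset.mem_univ i⟩
  have h1 : 1 < A.valuation (a i0) :=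
    lt_of_lt_of_le (not_le.mp fun h => hi ((A.valuation_le_one_iff _).mp h))
      (hmax i (Finset.mem_univ i))
  have h0 : a i0 ≠ 0 := by
    intro h
    rw [h, map_zero] at h1
    exact not_lt_zero h1
  apply hu.normalized_notMem h0 fun j => hmax j (Finset.mem_univ j)
  refine smul_mem_nonunits_of_mem hAO ?_ ha
  rw [A.mem_nonunits_iff, map_inv₀]
  exact inv_lt_one_of_one_lt₀ h1

/-- The coordinates of a non-unit with respect to an orthonormal family are non-units. -/
theorem IsOrtho.coeff_mem_nonunits (hAO : ∀ c : L, algebraMap L F c ∈ O ↔ c ∈ A)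
    {ι : Type*} [Fintype ι] {u : ι → F} (hu : IsOrtho A O u)
    (a : ι → L) (ha : ∑ i, a i • u i ∈ O.nonunits) : ∀ i, a i ∈ A.nonunits :=
  hu.2 a (hu.coeff_mem hAO a (nonunits_mem O ha)) ha


/-- Adapter (membership form): a family such that an `L`-combination is integral exactly when
its coefficients are integral is orthonormal, provided the value group of `O` is that of the
constants and `A` has a non-zero non-unit. -/
theorem isOrtho_of_mem_iff (hAO : ∀ c : L, algebraMap L F c ∈ O ↔ c ∈ A)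
    {ℓ : L} (hℓ0 : ℓ ≠ 0) (hℓA : ℓ ∈ A.nonunits)
    (hval : ∀ f : F, f ≠ 0 → ∃ c : L, c ≠ 0 ∧ f * (algebraMap L F c)⁻¹ ∈ O ∧
      (f * (algebraMap L F c)⁻¹)⁻¹ ∈ O)
    {ι : Type*} [Fintype ι] {e : ι → F}
    (hmem : ∀ c : ι → L, (∑ i, c i • e i ∈ O ↔ ∀ i, algebraMap L F (c i) ∈ O)) :
    IsOrtho A O e := by
  classical
  refine ⟨fun i => ?_, fun a _ hx i => ?_⟩
  · have h := (hmem (Pi.single i 1)).mpr (fun j => by
      by_cases hj : j = i
      · rw [hj, Pi.single_eq_same, map_one]; exact O.one_mem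
      · rw [Pi.single_eq_of_ne hj, map_zero]; exact O.zero_mem)
    have h2 : ∑ j, (Pi.single i (1 : L) : ι → L) j • e j = e i := by
      rw [Finset.sum_eq_single i]
      · rw [Pi.single_eq_same, one_smul]
      · intro j _ hj
        rw [Pi.single_eq_of_ne hj, zero_smul]
      · intro hi
        exact absurd (Finset.mem_univ i) hi
    rwa [h2] at h
  · -- a constant `c` with `c⁻¹` a non-unit and `c • x` integral
    obtain ⟨c, hc0, hcA, hcx⟩ : ∃ c : L, c ≠ 0 ∧ c⁻¹ ∈ A.nonunits ∧
        c • ∑ i, a i • e i ∈ O := by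
      by_cases hx0 : ∑ i, a i • e i = 0
      · refine ⟨ℓ⁻¹, inv_ne_zero hℓ0, by rwa [inv_inv], ?_⟩
        rw [hx0, smul_zero]
        exact O.zero_mem
      · obtain ⟨c', hc'0, hw, hw'⟩ := hval _ hx0
        have hc'F : algebraMap L F c' ≠ 0 := by simpa using hc'0
        refine ⟨c'⁻¹, inv_ne_zero hc'0, ?_, ?_⟩
        · rw [inv_inv, ← algebraMap_mem_nonunits_iff hAO]
          have h1 := nonunits_mul_mem O hx hw'
          have h2 : (∑ i, a i • e i) * ((∑ i, a i • e i) * (algebraMap L F c')⁻¹)⁻¹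
              = algebraMap L F c' := by
            field_simp
          rwa [h2] at h1
        · rw [Algebra.smul_def, map_inv₀, mul_comm]
          exact hw
    have h3 : ∑ i, (c * a i) • e i ∈ O := by
      have : ∑ i, (c * a i) • e i = c • ∑ i, a i • e i := by
        rw [Finset.smul_sum]
        exact Finset.sum_congr rfl fun i _ => by rw [smul_smul]
      rw [this]
      exact hcx
    have h4 : c * a i ∈ A := (hAO _).mp ((hmem _).mp h3 i)
    have h5 : a i = c⁻¹ * (c * a i) := by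
      rw [← mul_assoc, inv_mul_cancel₀ hc0, one_mul]
    rw [h5]
    exact nonunits_mul_mem A hcA h4

section Red

variable {k Fk : Type*} [Field k] [Field Fk] [Algebra k Fk] (red : O →+* Fk)

/-- Adapter (reduction form): a family of integral elements whose reductions are linearly
independent over the residue constants is orthonormal. -/
theorem isOrtho_of_linearIndependent_red (hAO : ∀ c : L, algebraMap L F c ∈ O ↔ c ∈ A)
    (hker : ∀ x : O, red x = 0 ↔ (x : F) ∈ O.nonunits)
    (hconst : ∀ (a : L) (ha : algebraMap L F a ∈ O),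
      red ⟨algebraMap L F a, ha⟩ ∈ Set.range (algebraMap k Fk))
    {ι : Type*} [Fintype ι] (u : ι → O) (huli : LinearIndependent k (fun i => red (u i))) :
    IsOrtho A O (fun i => (u i : F)) := by
  refine ⟨fun i => (u i).2, fun a ha hx i => ?_⟩
  have haO : ∀ i, algebraMap L F (a i) ∈ O := fun i => (hAO _).mpr (ha i)
  choose κ hκ using fun i => hconst (a i) (haO i)
  have hy : ((∑ i, (⟨algebraMap L F (a i), haO i⟩ : O) * u i : O) : F)
      = ∑ i, a i • (u i : F) := by
    rw [AddSubmonoidClass.coe_finsetSum]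
    exact Finset.sum_congr rfl fun i _ => by rw [Algebra.smul_def]; rfl
  have hred : red (∑ i, (⟨algebraMap L F (a i), haO i⟩ : O) * u i) = 0 := by
    rw [hker, hy]
    exact hx
  have hsum : ∑ i, κ i • red (u i) = 0 := by
    rw [← hred, map_sum]
    exact Finset.sum_congr rfl fun i _ => by rw [map_mul, ← hκ i, Algebra.smul_def]
  have hκi : κ i = 0 := Fintype.linearIndependent_iff.mp huli κ hsum i
  have h0 : red ⟨algebraMap L F (a i), haO i⟩ = 0 := by rw [← hκ i, hκi, map_zero]
  exact (algebraMap_mem_nonunits_iff hAO (a i)).mp ((hker _).mp h0)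

/-- Conversely, the reductions of an orthonormal family are linearly independent over the
residue constants, if every residue constant lifts. -/
theorem IsOrtho.linearIndependent_red (hAO : ∀ c : L, algebraMap L F c ∈ O ↔ c ∈ A)
    (hker : ∀ x : O, red x = 0 ↔ (x : F) ∈ O.nonunits)
    (hlift : ∀ κ : k, ∃ (a : L) (ha : algebraMap L F a ∈ O),
      red ⟨algebraMap L F a, ha⟩ = algebraMap k Fk κ)
    {ι : Type*} [Fintype ι] {f : ι → F} (hf : IsOrtho A O f) :
    LinearIndependent k (fun i => red ⟨f i, hf.1 i⟩) := by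
  rw [Fintype.linearIndependent_iff]
  intro κ hκ i
  choose a haO ha using hlift
  have hy : ((∑ i, (⟨algebraMap L F (a (κ i)), haO (κ i)⟩ : O) * ⟨f i, hf.1 i⟩ : O) : F)
      = ∑ i, a (κ i) • f i := by
    rw [AddSubmonoidClass.coe_finsetSum]
    exact Finset.sum_congr rfl fun i _ => by rw [Algebra.smul_def]; rfl
  have hred : red (∑ i, (⟨algebraMap L F (a (κ i)), haO (κ i)⟩ : O) * ⟨f i, hf.1 i⟩) = 0 := by
    rw [map_sum, ← hκ]
    exact Finset.sum_congr rfl fun i _ => by rw [map_mul, ha, Algebra.smul_def]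
  rw [hker, hy] at hred
  have h1 := hf.2 (fun i => a (κ i)) (fun i => (hAO _).mp (haO (κ i))) hred i
  have h2 : red ⟨algebraMap L F (a (κ i)), haO (κ i)⟩ = 0 :=
    (hker _).mpr ((algebraMap_mem_nonunits_iff hAO _).mpr h1)
  rw [ha] at h2
  exact (map_eq_zero (algebraMap k Fk)).mp h2

end Red

end Ortho


section Main

variable {Γ L F : Type*} [Group Γ] [Field L] [Field F] [Algebra L F]
variable (τ : Γ →* RingAut L) (ρ : Γ →* RingAut F)
variable {A : ValuationSubring L} {O : ValuationSubring F}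

/-- The exchange step: a fixed integral family which is not orthonormal can be improved,
multiplying the determinant of its coordinate matrix by `ℓ⁻¹ * unit`. -/
theorem exchange_step
    (hc : ∀ (g : Γ) (c : L), ρ g (algebraMap L F c) = algebraMap L F (τ g c))
    (hAO : ∀ c : L, algebraMap L F c ∈ O ↔ c ∈ A)
    {ℓ : L} (hℓfix : ∀ g, τ g ℓ = ℓ)
    (hres : ∀ a ∈ A, ∃ r ∈ A, (∀ g, τ g r = r) ∧ a - r ∈ A.nonunits)
    (hdiv : ∀ f : F, (∀ g, ρ g f = f) → f ∈ O.nonunits → (algebraMap L F ℓ)⁻¹ * f ∈ O)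
    (V : Submodule L F) {d : ℕ} (u : Fin d → F)
    (w : Fin d → F) (P : Matrix (Fin d) (Fin d) L)
    (hwV : ∀ i, w i ∈ V) (hwO : ∀ i, w i ∈ O) (hwfix : ∀ i g, ρ g (w i) = w i)
    (hwP : ∀ i, w i = ∑ j, P i j • u j)
    (hnot : ¬ IsOrtho A O w) :
    ∃ (w' : Fin d → F) (P' : Matrix (Fin d) (Fin d) L) (r : L),
      (∀ i, w' i ∈ V) ∧ (∀ i, w' i ∈ O) ∧ (∀ i g, ρ g (w' i) = w' i) ∧
      (∀ i, w' i = ∑ j, P' i j • u j) ∧ r⁻¹ ∈ A ∧ r ≠ 0 ∧ P'.det = ℓ⁻¹ * r * P.det := by
  classical
  -- a witness of non-orthonormality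
  have h1 : ∃ a : Fin d → L, (∀ i, a i ∈ A) ∧ (∑ i, a i • w i) ∈ O.nonunits ∧
      ∃ i, a i ∉ A.nonunits := by
    by_contra hcon
    apply hnot
    refine ⟨hwO, fun a ha hsum i => ?_⟩
    by_contra hi
    exact hcon ⟨a, ha, hsum, i, hi⟩
  obtain ⟨a, haA, hsum, i0, hi0⟩ := h1
  choose r hrA hrfix hra using fun i => hres (a i) (haA i)
  obtain ⟨h, hh⟩ : ∃ h : F, h = ∑ i, r i • w i := ⟨_, rfl⟩
  have hhV : h ∈ V := by
    rw [hh]
    exact V.sum_mem fun i _ => V.smul_mem _ (hwV i)
  have hhfix : ∀ g, ρ g h = h := by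
    intro g
    rw [hh, map_sum]
    exact Finset.sum_congr rfl fun i _ => by rw [map_smul_of_compat τ ρ hc, hrfix, hwfix]
  have hhnon : h ∈ O.nonunits := by
    have : h = ∑ i, a i • w i - ∑ i, (a i - r i) • w i := by
      rw [hh, ← Finset.sum_sub_distrib]
      exact Finset.sum_congr rfl fun i _ => by rw [sub_smul]; abel
    rw [this]
    exact nonunits_sub O hsum
      (nonunits_sum O _ _ fun i _ => smul_mem_nonunits_of_mem hAO (hra i) (hwO i))
  have hr0non : r i0 ∉ A.nonunits := by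
    intro hr
    apply hi0
    have := nonunits_add A (hra i0) hr
    rwa [sub_add_cancel] at this
  have hr0 : r i0 ≠ 0 := by
    intro h0
    exact hr0non (h0 ▸ nonunits_zero A)
  have hr0inv : (r i0)⁻¹ ∈ A := by
    by_contra hcon
    exact hr0non ((mem_nonunits_iff_inv_notMem' A hr0).mpr hcon)
  have hh'O : ℓ⁻¹ • h ∈ O := by
    have := hdiv h hhfix hhnon
    rwa [← map_inv₀, ← Algebra.smul_def] at this
  have hℓinvfix : ∀ g, τ g ℓ⁻¹ = ℓ⁻¹ := fun g => by rw [map_inv₀, hℓfix]
  refine ⟨Function.update w i0 (ℓ⁻¹ • h), P.updateRow i0 (∑ k, (ℓ⁻¹ * r k) • P k), r i0,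
    ?_, ?_, ?_, ?_, hr0inv, hr0, ?_⟩
  · intro i
    by_cases hi : i = i0
    · rw [hi, Function.update_self]
      exact V.smul_mem _ hhV
    · rw [Function.update_of_ne hi]
      exact hwV i
  · intro i
    by_cases hi : i = i0
    · rw [hi, Function.update_self]
      exact hh'O
    · rw [Function.update_of_ne hi]
      exact hwO i
  · intro i g
    by_cases hi : i = i0
    · rw [hi, Function.update_self, map_smul_of_compat τ ρ hc, hℓinvfix, hhfix]
    · rw [Function.update_of_ne hi]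
      exact hwfix i g
  · intro i
    by_cases hi : i = i0
    · rw [hi, Function.update_self, Matrix.updateRow_self, hh, Finset.smul_sum]
      calc ∑ k, ℓ⁻¹ • r k • w k = ∑ k, ∑ j, ((ℓ⁻¹ * r k) * P k j) • u j := by
            refine Finset.sum_congr rfl fun k _ => ?_
            rw [hwP k, smul_smul, Finset.smul_sum]
            exact Finset.sum_congr rfl fun j _ => by rw [smul_smul]
        _ = ∑ j, ∑ k, ((ℓ⁻¹ * r k) * P k j) • u j := Finset.sum_comm
        _ = ∑ j, (∑ k, (ℓ⁻¹ * r k) • P k) j • u j := by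
            refine Finset.sum_congr rfl fun j _ => ?_
            rw [← Finset.sum_smul]
            congr 1
            simp [Finset.sum_apply]
    · rw [Function.update_of_ne hi, Matrix.updateRow_ne hi]
      exact hwP i
  · rw [Matrix.det_updateRow_sum, smul_eq_mul]

/-- **Fixed orthonormal bases.**  Let `V ≤ F` be a `Γ`-stable `L`-subspace with an orthonormal
basis `u` (with respect to `O` over `A`).  Assume Speiser's hypotheses (finite orbits of scalars,
open stabilisers of vectors), a `Γ`-fixed non-unit `ℓ ≠ 0` of `A` such that `A` is archimedean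
with respect to `ℓ`, that every residue class of `A` contains a `Γ`-fixed element, and that
every `Γ`-fixed non-unit of `O` is divisible by `ℓ` in `O` (the valuation is unramified on
fixed elements).  Then `V` has an orthonormal basis consisting of `Γ`-fixed vectors. -/
theorem exists_fixed_ortho
    (hc : ∀ (g : Γ) (c : L), ρ g (algebraMap L F c) = algebraMap L F (τ g c))
    (hAO : ∀ c : L, algebraMap L F c ∈ O ↔ c ∈ A)
    {ℓ : L} (hℓ0 : ℓ ≠ 0) (hℓA : ℓ ∈ A.nonunits) (hℓfix : ∀ g, τ g ℓ = ℓ)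
    (harch : ∀ x : L, x ≠ 0 → ∃ N : ℕ, ℓ ^ N * x ∈ A)
    (hres : ∀ a ∈ A, ∃ r ∈ A, (∀ g, τ g r = r) ∧ a - r ∈ A.nonunits)
    (hdiv : ∀ f : F, (∀ g, ρ g f = f) → f ∈ O.nonunits → (algebraMap L F ℓ)⁻¹ * f ∈ O)
    (V : Submodule L F) (hV : ∀ g, ∀ f ∈ V, ρ g f ∈ V)
    (halg : ∀ c : L, (Set.range fun g : Γ => τ g c).Finite)
    (hopen : ∀ v ∈ V, ∃ s : Finset L, ∀ g, (∀ c ∈ s, τ g c = c) → ρ g v = v)
    {d : ℕ} (u : Fin d → F) (hu : IsOrtho A O u) (huV : Submodule.span L (Set.range u) = V) :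
    ∃ f : Fin d → F, IsOrtho A O f ∧ (∀ i, f i ∈ V) ∧ (∀ i g, ρ g (f i) = f i) ∧
      Submodule.span L (Set.range f) = V := by
  classical
  have huli : LinearIndependent L u := hu.linearIndependent
  have hfin : FiniteDimensional L V := by
    rw [← huV]
    exact FiniteDimensional.span_of_finite L (Set.finite_range u)
  have hdim : Module.finrank L V = d := by
    rw [← huV, finrank_span_eq_card huli, Fintype.card_fin]
  obtain ⟨w0, hw0V, hw0fix, -, hw0li⟩ := exists_fixed_basis τ ρ hc V hV halg hopen hdim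
  -- coordinates of the fixed basis
  have hcoord : ∀ i, ∃ c : Fin d → L, ∑ j, c j • u j = w0 i := fun i =>
    (Submodule.mem_span_range_iff_exists_fun L).mp (huV ▸ hw0V i)
  choose P0 hP0 using hcoord
  have hdet0 : (Matrix.of P0).det ≠ 0 := by
    intro hdet
    obtain ⟨c, hc0, hcP⟩ := Matrix.exists_vecMul_eq_zero_iff.mpr hdet
    apply hc0
    funext i
    refine Fintype.linearIndependent_iff.mp hw0li c ?_ i
    calc ∑ i, c i • w0 i = ∑ i, ∑ j, (c i * P0 i j) • u j := by
          refine Finset.sum_congr rfl fun i _ => ?_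
          rw [← hP0 i, Finset.smul_sum]
          exact Finset.sum_congr rfl fun j _ => by rw [smul_smul]
      _ = ∑ j, ∑ i, (c i * P0 i j) • u j := Finset.sum_comm
      _ = ∑ j, (Matrix.vecMul c (Matrix.of P0) j) • u j := by
          refine Finset.sum_congr rfl fun j _ => ?_
          rw [← Finset.sum_smul]
          rfl
      _ = 0 := by rw [hcP]; simp
  -- scale into `O`
  have hN : ∀ p : Fin d × Fin d, ∃ N : ℕ, ℓ ^ N * P0 p.1 p.2 ∈ A := by
    intro p
    by_cases h0 : P0 p.1 p.2 = 0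
    · exact ⟨0, by rw [h0, mul_zero]; exact A.zero_mem⟩
    · exact harch _ h0
  choose N hN using hN
  obtain ⟨M, hM⟩ : ∃ M : ℕ, M = ∑ p, N p := ⟨_, rfl⟩
  have hℓA' : ℓ ∈ A := nonunits_mem A hℓA
  have hMA : ∀ i j, ℓ ^ M * P0 i j ∈ A := by
    intro i j
    have hle : N (i, j) ≤ M := by
      rw [hM]
      exact Finset.single_le_sum (fun _ _ => Nat.zero_le _) (Finset.mem_univ (i, j))
    obtain ⟨k, hk⟩ := Nat.exists_eq_add_of_le hle
    rw [hk, pow_add, mul_comm (ℓ ^ N (i, j)), mul_assoc]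
    exact A.mul_mem _ _ (pow_mem hℓA' k) (hN (i, j))
  have hℓMfix : ∀ g, τ g (ℓ ^ M) = ℓ ^ M := fun g => by rw [map_pow, hℓfix]
  have hw1P : ∀ i, ℓ ^ M • w0 i = ∑ j, (ℓ ^ M • Matrix.of P0) i j • u j := by
    intro i
    rw [← hP0 i, Finset.smul_sum]
    exact Finset.sum_congr rfl fun j _ => by
      rw [smul_smul, Matrix.smul_apply, Matrix.of_apply, smul_eq_mul]
  have hw1O : ∀ i, ℓ ^ M • w0 i ∈ O := by
    intro i
    rw [hw1P i]
    refine sum_mem fun j _ => smul_mem_of_mem hAO ?_ (hu.1 j)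
    rw [Matrix.smul_apply, Matrix.of_apply, smul_eq_mul]
    exact hMA i j
  have hdet1 : (ℓ ^ M • Matrix.of P0).det ≠ 0 := by
    rw [Matrix.det_smul]
    exact mul_ne_zero (pow_ne_zero _ (pow_ne_zero _ hℓ0)) hdet0
  -- the induction
  have main : ∀ (n : ℕ) (w : Fin d → F) (P : Matrix (Fin d) (Fin d) L),
      (∀ i, w i ∈ V) → (∀ i, w i ∈ O) → (∀ i g, ρ g (w i) = w i) →
      (∀ i, w i = ∑ j, P i j • u j) → P.det ≠ 0 → ℓ ^ n * (P.det)⁻¹ ∈ A →
      ∃ f : Fin d → F, IsOrtho A O f ∧ (∀ i, f i ∈ V) ∧ (∀ i g, ρ g (f i) = f i) := by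
    intro n
    induction n with
    | zero =>
      intro w P hwV hwO hwfix hwP hdet hbound
      by_cases hortho : IsOrtho A O w
      · exact ⟨w, hortho, hwV, hwfix⟩
      · exfalso
        obtain ⟨w', P', r, -, hw'O, -, hw'P, hrinv, hr0, hdet'⟩ :=
          exchange_step τ ρ hc hAO hℓfix hres hdiv V u w P hwV hwO hwfix hwP hortho
        have hP'A : P'.det ∈ A := det_mem_of_entries_mem A.toSubring P' fun i j =>
          hu.coeff_mem hAO (P' i) (by rw [← hw'P i]; exact hw'O i) j
        have heq : ℓ⁻¹ = P'.det * r⁻¹ * (ℓ ^ 0 * (P.det)⁻¹) := by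
          rw [hdet', pow_zero, one_mul]
          field_simp
        have hℓinv : ℓ⁻¹ ∈ A := by
          rw [heq]
          exact A.mul_mem _ _ (A.mul_mem _ _ hP'A hrinv) hbound
        exact (mem_nonunits_iff_inv_notMem' A hℓ0).mp hℓA hℓinv
    | succ n ih =>
      intro w P hwV hwO hwfix hwP hdet hbound
      by_cases hortho : IsOrtho A O w
      · exact ⟨w, hortho, hwV, hwfix⟩
      · obtain ⟨w', P', r, hw'V, hw'O, hw'fix, hw'P, hrinv, hr0, hdet'⟩ :=
          exchange_step τ ρ hc hAO hℓfix hres hdiv V u w P hwV hwO hwfix hwP hortho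
        refine ih w' P' hw'V hw'O hw'fix hw'P ?_ ?_
        · rw [hdet']
          exact mul_ne_zero (mul_ne_zero (inv_ne_zero hℓ0) hr0) hdet
        · have heq : ℓ ^ n * (P'.det)⁻¹ = (ℓ ^ (n + 1) * (P.det)⁻¹) * r⁻¹ := by
            rw [hdet', pow_succ]
            field_simp
          rw [heq]
          exact A.mul_mem _ _ hbound hrinv
  obtain ⟨N0, hN0⟩ := harch _ (inv_ne_zero hdet1)
  obtain ⟨f, hf, hfV, hffix⟩ := main N0 (fun i => ℓ ^ M • w0 i) (ℓ ^ M • Matrix.of P0)
    (fun i => V.smul_mem _ (hw0V i)) hw1O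
    (fun i g => by rw [map_smul_of_compat τ ρ hc, hℓMfix, hw0fix]) hw1P hdet1 hN0
  refine ⟨f, hf, hfV, hffix, ?_⟩
  have hfli : LinearIndependent L f := hf.linearIndependent
  apply Submodule.eq_of_le_of_finrank_eq
    (Submodule.span_le.mpr (by rintro _ ⟨i, rfl⟩; exact hfV i))
  rw [finrank_span_eq_card hfli, Fintype.card_fin, hdim]


/-- The coordinates of a fixed vector with respect to a linearly independent family of fixed
vectors are fixed scalars. -/
theorem coeff_fixed_of_fixed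
    (hc : ∀ (g : Γ) (c : L), ρ g (algebraMap L F c) = algebraMap L F (τ g c))
    {ι : Type*} [Fintype ι] {f : ι → F} (hfli : LinearIndependent L f)
    (hffix : ∀ i g, ρ g (f i) = f i) (a : ι → L)
    (hfix : ∀ g, ρ g (∑ i, a i • f i) = ∑ i, a i • f i) : ∀ i g, τ g (a i) = a i := by
  intro i g
  have h := hfix g
  rw [map_sum] at h
  have h2 : ∑ i, (τ g (a i) - a i) • f i = 0 := by
    rw [← sub_eq_zero] at h
    rw [← h, ← Finset.sum_sub_distrib]
    exact Finset.sum_congr rfl fun i _ => by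
      rw [map_smul_of_compat τ ρ hc, hffix, sub_smul]
  exact sub_eq_zero.mp (Fintype.linearIndependent_iff.mp hfli _ h2 i)

/-- **(RAT3), abstract form.**  Under the hypotheses of `exists_fixed_ortho`, every element of
`V ∩ O` is congruent modulo the maximal ideal of `O` to a `Γ`-fixed element of `V ∩ O`. -/
theorem exists_fixed_same_reduction
    (hc : ∀ (g : Γ) (c : L), ρ g (algebraMap L F c) = algebraMap L F (τ g c))
    (hAO : ∀ c : L, algebraMap L F c ∈ O ↔ c ∈ A)
    {ℓ : L} (hℓ0 : ℓ ≠ 0) (hℓA : ℓ ∈ A.nonunits) (hℓfix : ∀ g, τ g ℓ = ℓ)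
    (harch : ∀ x : L, x ≠ 0 → ∃ N : ℕ, ℓ ^ N * x ∈ A)
    (hres : ∀ a ∈ A, ∃ r ∈ A, (∀ g, τ g r = r) ∧ a - r ∈ A.nonunits)
    (hdiv : ∀ f : F, (∀ g, ρ g f = f) → f ∈ O.nonunits → (algebraMap L F ℓ)⁻¹ * f ∈ O)
    (V : Submodule L F) (hV : ∀ g, ∀ f ∈ V, ρ g f ∈ V)
    (halg : ∀ c : L, (Set.range fun g : Γ => τ g c).Finite)
    (hopen : ∀ v ∈ V, ∃ s : Finset L, ∀ g, (∀ c ∈ s, τ g c = c) → ρ g v = v)
    {d : ℕ} (u : Fin d → F) (hu : IsOrtho A O u) (huV : Submodule.span L (Set.range u) = V)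
    {h : F} (hhV : h ∈ V) (hhO : h ∈ O) :
    ∃ h0 : F, h0 ∈ V ∧ h0 ∈ O ∧ (∀ g, ρ g h0 = h0) ∧ h - h0 ∈ O.nonunits := by
  obtain ⟨f, hf, hfV, hffix, hfspan⟩ := exists_fixed_ortho τ ρ hc hAO hℓ0 hℓA hℓfix harch hres
    hdiv V hV halg hopen u hu huV
  obtain ⟨a, ha⟩ := (Submodule.mem_span_range_iff_exists_fun L).mp (hfspan ▸ hhV)
  have haA := hf.coeff_mem hAO a (ha ▸ hhO)
  choose r hrA hrfix hra using fun i => hres (a i) (haA i)
  refine ⟨∑ i, r i • f i, V.sum_mem fun i _ => V.smul_mem _ (hfV i),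
    sum_mem fun i _ => smul_mem_of_mem hAO (hrA i) (hf.1 i), ?_, ?_⟩
  · intro g
    rw [map_sum]
    exact Finset.sum_congr rfl fun i _ => by rw [map_smul_of_compat τ ρ hc, hrfix, hffix]
  · rw [← ha, ← Finset.sum_sub_distrib]
    have h1 : ∀ i, a i • f i - r i • f i = (a i - r i) • f i := fun i => (sub_smul _ _ _).symm
    simp only [h1]
    exact nonunits_sum O _ _ fun i _ => smul_mem_nonunits_of_mem hAO (hra i) (hf.1 i)

/-- **(RAT2), abstract form.**  Under the hypotheses of `exists_fixed_ortho` there is a family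
`f` of `Γ`-fixed elements of `V ∩ O` such that every element of `V ∩ O` is an `A`-combination of
the `f i`, every non-unit of `O` in `V` is a combination with non-unit coefficients, and every
`Γ`-fixed element of `V ∩ O` is a combination with `Γ`-fixed coefficients in `A`. -/
theorem exists_fixed_lattice_basis
    (hc : ∀ (g : Γ) (c : L), ρ g (algebraMap L F c) = algebraMap L F (τ g c))
    (hAO : ∀ c : L, algebraMap L F c ∈ O ↔ c ∈ A)
    {ℓ : L} (hℓ0 : ℓ ≠ 0) (hℓA : ℓ ∈ A.nonunits) (hℓfix : ∀ g, τ g ℓ = ℓ)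
    (harch : ∀ x : L, x ≠ 0 → ∃ N : ℕ, ℓ ^ N * x ∈ A)
    (hres : ∀ a ∈ A, ∃ r ∈ A, (∀ g, τ g r = r) ∧ a - r ∈ A.nonunits)
    (hdiv : ∀ f : F, (∀ g, ρ g f = f) → f ∈ O.nonunits → (algebraMap L F ℓ)⁻¹ * f ∈ O)
    (V : Submodule L F) (hV : ∀ g, ∀ f ∈ V, ρ g f ∈ V)
    (halg : ∀ c : L, (Set.range fun g : Γ => τ g c).Finite)
    (hopen : ∀ v ∈ V, ∃ s : Finset L, ∀ g, (∀ c ∈ s, τ g c = c) → ρ g v = v)
    {d : ℕ} (u : Fin d → F) (hu : IsOrtho A O u) (huV : Submodule.span L (Set.range u) = V) :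
    ∃ f : Fin d → F, (∀ i, f i ∈ V) ∧ (∀ i, f i ∈ O) ∧ (∀ i g, ρ g (f i) = f i) ∧
      LinearIndependent L f ∧
      (∀ h ∈ V, h ∈ O → ∃ a : Fin d → L, (∀ i, a i ∈ A) ∧ h = ∑ i, a i • f i) ∧
      (∀ h ∈ V, h ∈ O.nonunits →
        ∃ a : Fin d → L, (∀ i, a i ∈ A.nonunits) ∧ h = ∑ i, a i • f i) ∧
      (∀ h ∈ V, h ∈ O → (∀ g, ρ g h = h) →
        ∃ a : Fin d → L, (∀ i, a i ∈ A) ∧ (∀ i g, τ g (a i) = a i) ∧ h = ∑ i, a i • f i) := by
  obtain ⟨f, hf, hfV, hffix, hfspan⟩ := exists_fixed_ortho τ ρ hc hAO hℓ0 hℓA hℓfix harch hres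
    hdiv V hV halg hopen u hu huV
  have hfli : LinearIndependent L f := hf.linearIndependent
  refine ⟨f, hfV, hf.1, hffix, hfli, ?_, ?_, ?_⟩
  · intro h hhV hhO
    obtain ⟨a, ha⟩ := (Submodule.mem_span_range_iff_exists_fun L).mp (hfspan ▸ hhV)
    exact ⟨a, hf.coeff_mem hAO a (ha ▸ hhO), ha.symm⟩
  · intro h hhV hhO
    obtain ⟨a, ha⟩ := (Submodule.mem_span_range_iff_exists_fun L).mp (hfspan ▸ hhV)
    exact ⟨a, hf.coeff_mem_nonunits hAO a (ha ▸ hhO), ha.symm⟩
  · intro h hhV hhO hhfix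
    obtain ⟨a, ha⟩ := (Submodule.mem_span_range_iff_exists_fun L).mp (hfspan ▸ hhV)
    refine ⟨a, hf.coeff_mem hAO a (ha ▸ hhO), ?_, ha.symm⟩
    exact coeff_fixed_of_fixed τ ρ hc hfli hffix a (fun g => by rw [ha]; exact hhfix g)

end Main

end Fermat.Agent.S19.helper3214
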