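import Mathlib
import Fermat.Prelude.Def_AlgebraicCurve_BaseChangeGalois
import Fermat.Prelude.Def_AlgebraicCurve_Repartitions
import Fermat.Agent.S19.helper3214_Rational

/-!
# S19 / CALG-RAT (helper3214): fixed functions in Riemann–Roch spaces

The results of `helper3214_Rational` in the Prelude vocabulary: `G` a subgroup of
`SemilinearAut K F`, `E` a `G`-fixed divisor, `V = riemannRochSpace E`.

* `smul_mem_riemannRochSpace` : `L(E)` is stable under the stabiliser of `E`.
* `exists_fixed_ortho_rr` : a `G`-fixed orthonormal basis of `L(E)`.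
* `exists_fixed_same_red` : every element of `L(E) ∩ O` has the same reduction as a `G`-fixed
  element of `L(E) ∩ O`.
* `fixedLift_of_lift` : if the reduction map `L(E) ∩ O → L(Ek)` is onto, it is already onto
  from the `G`-fixed elements.
-/

set_option autoImplicit false

namespace Fermat.Agent.S19.helper3214

open AlgebraicCurve

section Place

variable {K F : Type*} [Field K] [Field F] [Algebra K F]

/-- A semilinear automorphism fixing the divisor `E` preserves `L(E)`. -/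
theorem smul_mem_riemannRochSpace (g : SemilinearAut K F) {E : Divisor K F} (hE : g • E = E)
    {f : F} (hf : f ∈ riemannRochSpace E) : g • f ∈ riemannRochSpace E := by
  rw [mem_riemannRochSpace_iff] at hf ⊢
  intro v
  rcases hf (g⁻¹ • v) with h0 | h
  · left
    rw [h0, smul_zero]
  · right
    have h1 : (g • (g⁻¹ • v)).ord (g • f) = (g⁻¹ • v).ord f :=
      SemilinearAut.ord_smul g (g⁻¹ • v) f
    rw [smul_inv_smul] at h1
    have h2 : E v = E (g⁻¹ • v) := by
      conv_lhs => rw [← hE]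
      exact SemilinearAut.divisor_smul_apply g E v
    rw [h1, h2]
    exact h

/-- The action of a subgroup of `SemilinearAut K F` on the constants, as a monoid hom. -/
def baseHom (G : Subgroup (SemilinearAut K F)) : G →* RingAut K :=
  (MonoidHom.snd (RingAut F) (RingAut K)).comp ((SemilinearAut K F).subtype.comp G.subtype)

/-- The action of a subgroup of `SemilinearAut K F` on the functions, as a monoid hom. -/
def funHom (G : Subgroup (SemilinearAut K F)) : G →* RingAut F :=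
  (MonoidHom.fst (RingAut F) (RingAut K)).comp ((SemilinearAut K F).subtype.comp G.subtype)

theorem baseHom_apply (G : Subgroup (SemilinearAut K F)) (g : G) (c : K) :
    baseHom G g c = SemilinearAut.baseAut (g : SemilinearAut K F) c := rfl

theorem funHom_apply (G : Subgroup (SemilinearAut K F)) (g : G) (f : F) :
    funHom G g f = (g : SemilinearAut K F) • f := rfl

theorem funHom_compat (G : Subgroup (SemilinearAut K F)) (g : G) (c : K) :
    funHom G g (algebraMap K F c) = algebraMap K F (baseHom G g c) :=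
  SemilinearAut.commutes (g : SemilinearAut K F) c

/-- A linearly independent family of `d ≥ dim V` vectors of `V` spans `V`. -/
theorem le_span_of_finrank_le {V : Submodule K F} [FiniteDimensional K V] {d : ℕ}
    (u : Fin d → F) (huV : ∀ i, u i ∈ V) (huli : LinearIndependent K u)
    (hd : Module.finrank K V ≤ d) : V ≤ Submodule.span K (Set.range u) := by
  have hle : Submodule.span K (Set.range u) ≤ V :=
    Submodule.span_le.mpr (by rintro _ ⟨i, rfl⟩; exact huV i)
  have h1 : Module.finrank K (Submodule.span K (Set.range u)) = d := by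
    rw [finrank_span_eq_card huli, Fintype.card_fin]
  have h2 : Module.finrank K (Submodule.span K (Set.range u)) ≤ Module.finrank K V :=
    Submodule.finrank_mono hle
  exact (Submodule.eq_of_le_of_finrank_eq hle (by omega)).ge

variable {k Fk : Type*} [Field k] [Field Fk] [Algebra k Fk]
variable {O : ValuationSubring F} (red : O →+* Fk) {A : ValuationSubring K}

/-- **(RAT2) for Riemann–Roch spaces.**  A `G`-fixed orthonormal basis of `L(E)`, for a
`G`-fixed divisor `E`, from any basis of `L(E)` with independent reductions. -/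
theorem exists_fixed_ortho_rr
    (hker : ∀ x : O, red x = 0 ↔ (x : F) ∈ O.nonunits)
    (hconst : ∀ (a : K) (ha : algebraMap K F a ∈ O),
      red ⟨algebraMap K F a, ha⟩ ∈ Set.range (algebraMap k Fk))
    (hAO : ∀ c : K, algebraMap K F c ∈ O ↔ c ∈ A)
    (G : Subgroup (SemilinearAut K F))
    {ℓ : K} (hℓ0 : ℓ ≠ 0) (hℓA : ℓ ∈ A.nonunits)
    (hℓfix : ∀ g ∈ G, SemilinearAut.baseAut g ℓ = ℓ)
    (harch : ∀ x : K, x ≠ 0 → ∃ N : ℕ, ℓ ^ N * x ∈ A)
    (hres : ∀ a ∈ A, ∃ r ∈ A, (∀ g ∈ G, SemilinearAut.baseAut g r = r) ∧ a - r ∈ A.nonunits)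
    (hdiv : ∀ f : F, (∀ g ∈ G, g • f = f) → f ∈ O.nonunits → (algebraMap K F ℓ)⁻¹ * f ∈ O)
    (halg : ∀ c : K, {x : K | ∃ g ∈ G, SemilinearAut.baseAut g c = x}.Finite)
    (E : Divisor K F) (hE : ∀ g ∈ G, g • E = E)
    (hopen : ∀ f ∈ riemannRochSpace E, ∃ s : Finset K, ∀ g ∈ G,
      (∀ c ∈ s, SemilinearAut.baseAut g c = c) → g • f = f)
    {d : ℕ} (u : Fin d → O) (huE : ∀ i, (u i : F) ∈ riemannRochSpace E)
    (huli : LinearIndependent k (fun i => red (u i)))
    (hspan : riemannRochSpace E ≤ Submodule.span K (Set.range fun i => (u i : F))) :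
    ∃ f : Fin d → O, (∀ i, (f i : F) ∈ riemannRochSpace E) ∧
      (∀ i, ∀ g ∈ G, g • (f i : F) = f i) ∧ IsOrtho A O (fun i => (f i : F)) ∧
      Submodule.span K (Set.range fun i => (f i : F)) = riemannRochSpace E := by
  have hu : IsOrtho A O (fun i => (u i : F)) :=
    isOrtho_of_linearIndependent_red red hAO hker hconst u huli
  have huV : Submodule.span K (Set.range fun i => (u i : F)) = riemannRochSpace E :=
    le_antisymm (Submodule.span_le.mpr (by rintro _ ⟨i, rfl⟩; exact huE i)) hspan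
  obtain ⟨f, hf, hfV, hffix, hfspan⟩ := exists_fixed_ortho (baseHom G) (funHom G)
    (funHom_compat G) hAO hℓ0 hℓA (fun g => hℓfix g.1 g.2) harch
    (fun a ha => by
      obtain ⟨r, hr, hfix, hn⟩ := hres a ha
      exact ⟨r, hr, fun g => hfix g.1 g.2, hn⟩)
    (fun f hf hfn => hdiv f (fun g hg => hf ⟨g, hg⟩) hfn)
    (riemannRochSpace E)
    (fun g f hf => smul_mem_riemannRochSpace g.1 (hE g.1 g.2) hf)
    (fun c => (halg c).subset (by rintro _ ⟨g, rfl⟩; exact ⟨g.1, g.2, rfl⟩))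
    (fun v hv => by
      obtain ⟨s, hs⟩ := hopen v hv
      exact ⟨s, fun g hg => hs g.1 g.2 hg⟩)
    (fun i => (u i : F)) hu huV
  exact ⟨fun i => ⟨f i, hf.1 i⟩, hfV, fun i g hg => hffix i ⟨g, hg⟩, hf, hfspan⟩

/-- **(RAT3) for Riemann–Roch spaces.**  Every element of `L(E) ∩ O` has the same reduction as
a `G`-fixed element of `L(E) ∩ O`. -/
theorem exists_fixed_same_red
    (hker : ∀ x : O, red x = 0 ↔ (x : F) ∈ O.nonunits)
    (hconst : ∀ (a : K) (ha : algebraMap K F a ∈ O),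
      red ⟨algebraMap K F a, ha⟩ ∈ Set.range (algebraMap k Fk))
    (hAO : ∀ c : K, algebraMap K F c ∈ O ↔ c ∈ A)
    (G : Subgroup (SemilinearAut K F))
    {ℓ : K} (hℓ0 : ℓ ≠ 0) (hℓA : ℓ ∈ A.nonunits)
    (hℓfix : ∀ g ∈ G, SemilinearAut.baseAut g ℓ = ℓ)
    (harch : ∀ x : K, x ≠ 0 → ∃ N : ℕ, ℓ ^ N * x ∈ A)
    (hres : ∀ a ∈ A, ∃ r ∈ A, (∀ g ∈ G, SemilinearAut.baseAut g r = r) ∧ a - r ∈ A.nonunits)
    (hdiv : ∀ f : F, (∀ g ∈ G, g • f = f) → f ∈ O.nonunits → (algebraMap K F ℓ)⁻¹ * f ∈ O)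
    (halg : ∀ c : K, {x : K | ∃ g ∈ G, SemilinearAut.baseAut g c = x}.Finite)
    (E : Divisor K F) (hE : ∀ g ∈ G, g • E = E)
    (hopen : ∀ f ∈ riemannRochSpace E, ∃ s : Finset K, ∀ g ∈ G,
      (∀ c ∈ s, SemilinearAut.baseAut g c = c) → g • f = f)
    {d : ℕ} (u : Fin d → O) (huE : ∀ i, (u i : F) ∈ riemannRochSpace E)
    (huli : LinearIndependent k (fun i => red (u i)))
    (hspan : riemannRochSpace E ≤ Submodule.span K (Set.range fun i => (u i : F)))
    (h : O) (hh : (h : F) ∈ riemannRochSpace E) :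
    ∃ h0 : O, (h0 : F) ∈ riemannRochSpace E ∧ (∀ g ∈ G, g • (h0 : F) = h0) ∧
      red h0 = red h := by
  have hu : IsOrtho A O (fun i => (u i : F)) :=
    isOrtho_of_linearIndependent_red red hAO hker hconst u huli
  have huV : Submodule.span K (Set.range fun i => (u i : F)) = riemannRochSpace E :=
    le_antisymm (Submodule.span_le.mpr (by rintro _ ⟨i, rfl⟩; exact huE i)) hspan
  obtain ⟨h0, h0V, h0O, h0fix, hdiff⟩ := exists_fixed_same_reduction (baseHom G) (funHom G)
    (funHom_compat G) hAO hℓ0 hℓA (fun g => hℓfix g.1 g.2) harch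
    (fun a ha => by
      obtain ⟨r, hr, hfix, hn⟩ := hres a ha
      exact ⟨r, hr, fun g => hfix g.1 g.2, hn⟩)
    (fun f hf hfn => hdiv f (fun g hg => hf ⟨g, hg⟩) hfn)
    (riemannRochSpace E)
    (fun g f hf => smul_mem_riemannRochSpace g.1 (hE g.1 g.2) hf)
    (fun c => (halg c).subset (by rintro _ ⟨g, rfl⟩; exact ⟨g.1, g.2, rfl⟩))
    (fun v hv => by
      obtain ⟨s, hs⟩ := hopen v hv
      exact ⟨s, fun g hg => hs g.1 g.2 hg⟩)
    (fun i => (u i : F)) hu huV hh h.2
  refine ⟨⟨h0, h0O⟩, h0V, fun g hg => h0fix ⟨g, hg⟩, ?_⟩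
  have h1 : red (h - ⟨h0, h0O⟩) = 0 := (hker _).mpr hdiff
  rw [map_sub, sub_eq_zero] at h1
  exact h1.symm

/-- **(RAT3), lifting form** (the shape of `helper2007.FixedLiftRR`, for any pair of divisors):
if the reduction map `L(E) ∩ O → L(Ek)` is onto, it is already onto from the `G`-fixed
elements of `L(E) ∩ O`. -/
theorem fixedLift_of_lift
    (hker : ∀ x : O, red x = 0 ↔ (x : F) ∈ O.nonunits)
    (hconst : ∀ (a : K) (ha : algebraMap K F a ∈ O),
      red ⟨algebraMap K F a, ha⟩ ∈ Set.range (algebraMap k Fk))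
    (hAO : ∀ c : K, algebraMap K F c ∈ O ↔ c ∈ A)
    (G : Subgroup (SemilinearAut K F))
    {ℓ : K} (hℓ0 : ℓ ≠ 0) (hℓA : ℓ ∈ A.nonunits)
    (hℓfix : ∀ g ∈ G, SemilinearAut.baseAut g ℓ = ℓ)
    (harch : ∀ x : K, x ≠ 0 → ∃ N : ℕ, ℓ ^ N * x ∈ A)
    (hres : ∀ a ∈ A, ∃ r ∈ A, (∀ g ∈ G, SemilinearAut.baseAut g r = r) ∧ a - r ∈ A.nonunits)
    (hdiv : ∀ f : F, (∀ g ∈ G, g • f = f) → f ∈ O.nonunits → (algebraMap K F ℓ)⁻¹ * f ∈ O)
    (halg : ∀ c : K, {x : K | ∃ g ∈ G, SemilinearAut.baseAut g c = x}.Finite)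
    (E : Divisor K F) (hE : ∀ g ∈ G, g • E = E)
    (hopen : ∀ f ∈ riemannRochSpace E, ∃ s : Finset K, ∀ g ∈ G,
      (∀ c ∈ s, SemilinearAut.baseAut g c = c) → g • f = f)
    {d : ℕ} (u : Fin d → O) (huE : ∀ i, (u i : F) ∈ riemannRochSpace E)
    (huli : LinearIndependent k (fun i => red (u i)))
    (hspan : riemannRochSpace E ≤ Submodule.span K (Set.range fun i => (u i : F)))
    (Ek : Divisor k Fk)
    (hlift : ∀ y ∈ riemannRochSpace Ek, ∃ w : O, (w : F) ∈ riemannRochSpace E ∧ red w = y) :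
    ∀ y ∈ riemannRochSpace Ek, ∃ w : O, (w : F) ∈ riemannRochSpace E ∧ red w = y ∧
      ∀ γ ∈ G, γ • (w : F) = w := by
  intro y hy
  obtain ⟨w, hwE, hwy⟩ := hlift y hy
  obtain ⟨w0, hw0E, hw0fix, hw0⟩ := exists_fixed_same_red red hker hconst hAO G hℓ0 hℓA hℓfix
    harch hres hdiv halg E hE hopen u huE huli hspan w hwE
  exact ⟨w0, hw0E, by rw [hw0, hwy], hw0fix⟩

end Place

end Fermat.Agent.S19.helper3214
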