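import Mathlib
import Fermat.Prelude.Def_ModularCurve_ArithmeticGalois
import Fermat.Prelude.Def_FLTPrelim_Ramification
import Fermat.Agent.S18.helper1733_GaussOrtho
import Fermat.Agent.S19.helper1821_GaussUnram
import Fermat.Agent.S19.helper1821_BaseRing
import Fermat.Agent.S19.helper2765_Closure
import Fermat.Agent.S29.helper8527_FiniteLevel
import Fermat.Agent.S19.helper3214_RationalPlace

/-!
# S19 / CALG-RAT (helper3214): the instance at the Gauss pair

`F = modularFunctionFieldBar N`, `O` the Gauss valuation ring over a valuation ring `A` of `ℚ̄`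
above `ℓ ∤ N`, `Γ` the inertia group of `A` acting through the Prelude `arithmeticGalois`.
Every hypothesis of `helper3214_Rational.exists_fixed_ortho` is discharged from landed names:

* every finite-dimensional inertia-stable `ℚ̄`-subspace `V` of `F` has an inertia-fixed
  orthonormal basis (`gauss_exists_fixed_ortho`);
* every element of `V ∩ O` has the same Gauss reduction as an inertia-fixed element of `V ∩ O`
  (`gauss_exists_fixed_same_reduction`, `gauss_exists_fixed_same_red`);
* for an inertia-fixed divisor `E`, a surjective reduction `L(E) ∩ O → L(Ek)` is surjective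
  from the inertia-fixed elements (`gauss_fixedLift_rr`).
-/

set_option autoImplicit false
set_option synthInstance.maxHeartbeats 400000

namespace Fermat.Agent.S19.helper3214

open AlgebraicCurve ModularCurve
open Fermat.Agent.S18

local notation "Qb" => AlgebraicClosure ℚ
local notation "GQ" => (AlgebraicClosure ℚ ≃ₐ[ℚ] AlgebraicClosure ℚ)

/-- "Finite level" in finset form: the property holds for every automorphism fixing a suitable
finite set of algebraic numbers. -/
theorem exists_finset_of_hasFiniteLevel {P : GQ → Prop}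
    (h : Fermat.Agent.S29.helper8527.HasFiniteLevel P) :
    ∃ s : Finset Qb, ∀ σ : GQ, (∀ c ∈ s, σ c = c) → P σ := by
  classical
  obtain ⟨L, hL, hP⟩ := h
  let b := Module.finBasis ℚ L
  refine ⟨Finset.univ.image fun i => ((b i : L) : Qb), fun σ hσ => hP σ fun y hy => ?_⟩
  have hb : ∀ i, σ ((b i : L) : Qb) = ((b i : L) : Qb) := fun i =>
    hσ _ (Finset.mem_image_of_mem _ (Finset.mem_univ i))
  have hy' : (⟨y, hy⟩ : L) = ∑ i, b.repr ⟨y, hy⟩ i • b i := (b.sum_repr _).symm
  have hy2 : y = ∑ i, (b.repr ⟨y, hy⟩ i) • ((b i : L) : Qb) := by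
    have h3 : ((⟨y, hy⟩ : L) : Qb) = ((∑ i, b.repr ⟨y, hy⟩ i • b i : L) : Qb) :=
      congrArg Subtype.val hy'
    rw [AddSubmonoidClass.coe_finsetSum] at h3
    exact h3
  rw [hy2, map_sum]
  exact Finset.sum_congr rfl fun i _ => by
    rw [Algebra.smul_def, map_mul, AlgEquiv.commutes, hb]

/-- Algebraic numbers have finite Galois orbits. -/
theorem finite_range_galois (c : Qb) : (Set.range fun σ : GQ => σ c).Finite := by
  have hc : IsIntegral ℚ c := ((AlgebraicClosure.isAlgebraic ℚ).isAlgebraic c).isIntegral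
  refine ((minpoly ℚ c).rootSet_finite Qb).subset ?_
  rintro _ ⟨σ, rfl⟩
  rw [Polynomial.mem_rootSet]
  refine ⟨minpoly.ne_zero hc, ?_⟩
  have h1 := Polynomial.aeval_algHom_apply (σ : Qb →ₐ[ℚ] Qb) c (minpoly ℚ c)
  rw [minpoly.aeval, map_zero] at h1
  exact h1

/-- Non-units of a valuation subring, subtype form versus ambient form. -/
theorem not_isUnit_iff_coe_mem_nonunits {F : Type*} [Field F] (O : ValuationSubring F) (x : O) :
    ¬ IsUnit x ↔ (x : F) ∈ O.nonunits := by
  rw [ValuationSubring.coe_mem_nonunits_iff, IsLocalRing.mem_maximalIdeal, mem_nonunits_iff]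

section Gauss

variable (N : ℕ) [NeZero N] (ℓ : ℕ) [Fact ℓ.Prime] (hℓN : ¬ ℓ ∣ N)
  (A : ValuationSubring Qb) (hA : A.LiesOverPrime ℓ)

/-- The inertia group of `A` acting on the constants. -/
noncomputable def inertiaBase : ↥(A.inertiaSubgroupIn ℚ) →* RingAut Qb :=
  (MonoidHom.snd (RingAut ↥(modularFunctionFieldBar N)) (RingAut Qb)).comp
    ((SemilinearAut Qb ↥(modularFunctionFieldBar N)).subtype.comp
      ((arithmeticGalois (modularFunctionFieldFull N)).comp (A.inertiaSubgroupIn ℚ).subtype))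

/-- The inertia group of `A` acting on the modular function field. -/
noncomputable def inertiaFun :
    ↥(A.inertiaSubgroupIn ℚ) →* RingAut ↥(modularFunctionFieldBar N) :=
  (MonoidHom.fst (RingAut ↥(modularFunctionFieldBar N)) (RingAut Qb)).comp
    ((SemilinearAut Qb ↥(modularFunctionFieldBar N)).subtype.comp
      ((arithmeticGalois (modularFunctionFieldFull N)).comp (A.inertiaSubgroupIn ℚ).subtype))

omit [NeZero N] in
theorem inertiaBase_apply (σ : ↥(A.inertiaSubgroupIn ℚ)) (c : Qb) :
    inertiaBase N A σ c = (σ : GQ) c := rfl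

omit [NeZero N] in
theorem inertiaFun_apply (σ : ↥(A.inertiaSubgroupIn ℚ)) (f : ↥(modularFunctionFieldBar N)) :
    inertiaFun N A σ f = arithmeticGalois (modularFunctionFieldFull N) (σ : GQ) • f := rfl

omit [NeZero N] in
theorem inertiaFun_compat (σ : ↥(A.inertiaSubgroupIn ℚ)) (c : Qb) :
    inertiaFun N A σ (algebraMap Qb ↥(modularFunctionFieldBar N) c) =
      algebraMap Qb ↥(modularFunctionFieldBar N) (inertiaBase N A σ c) :=
  SemilinearAut.commutes (arithmeticGalois (modularFunctionFieldFull N) (σ : GQ)) c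

/-- The orthonormal families of `S18/helper1733` are orthonormal in the sense of this block. -/
theorem isOrtho_of_gaussOrtho {ι : Type*} [Fintype ι] {e : ι → ↥(modularFunctionFieldBar N)}
    (he : helper1733.IsOrtho (helper508.gaussValuationSubring N ℓ hℓN A hA).valuation Qb e) :
    IsOrtho A (helper508.gaussValuationSubring N ℓ hℓN A hA) e := by
  refine ⟨fun i => (ValuationSubring.valuation_le_one_iff _ _).mp (he.le_one i),
    fun a _ hx i => ?_⟩
  rw [← algebraMap_mem_nonunits_iff
    (helper508.algebraMap_mem_gaussValuationSubring_iff N ℓ hℓN A hA),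
    ValuationSubring.mem_nonunits_iff]
  exact lt_of_le_of_lt (he.coeff_le_univ a i) ((ValuationSubring.mem_nonunits_iff _).mp hx)

/-- **(RAT2) at the Gauss pair.**  Every finite-dimensional inertia-stable subspace of the
modular function field has an inertia-fixed orthonormal basis for the Gauss valuation. -/
theorem gauss_exists_fixed_ortho (V : Submodule Qb ↥(modularFunctionFieldBar N))
    [FiniteDimensional Qb V]
    (hV : ∀ σ ∈ A.inertiaSubgroupIn ℚ, ∀ f ∈ V,
      arithmeticGalois (modularFunctionFieldFull N) σ • f ∈ V) :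
    ∃ f : Fin (Module.finrank Qb V) → ↥(modularFunctionFieldBar N),
      IsOrtho A (helper508.gaussValuationSubring N ℓ hℓN A hA) f ∧ (∀ i, f i ∈ V) ∧
      (∀ i, ∀ σ ∈ A.inertiaSubgroupIn ℚ,
        arithmeticGalois (modularFunctionFieldFull N) σ • f i = f i) ∧
      Submodule.span Qb (Set.range f) = V := by
  have hℓ : ℓ.Prime := Fact.out
  obtain ⟨e, -, heO, hespan⟩ := helper1733.gauss_exists_isOrtho_basis N ℓ hℓN A hA V
  obtain ⟨f, hf, hfV, hffix, hfspan⟩ := exists_fixed_ortho (inertiaBase N A) (inertiaFun N A)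
    (inertiaFun_compat N A)
    (helper508.algebraMap_mem_gaussValuationSubring_iff N ℓ hℓN A hA)
    (ℓ := (ℓ : Qb)) (Nat.cast_ne_zero.mpr hℓ.ne_zero) hA
    (fun σ => map_natCast (σ : GQ) ℓ)
    (fun x _ => Fermat.Agent.S19.helper2765.exists_pow_mul_mem hℓ A hA x)
    (fun a ha => by
      obtain ⟨r, hr, hn⟩ := Fermat.Agent.S19.helper1821.exists_sub_mem_nonunits hℓ hA ha
      exact ⟨r, hr.1, fun σ => hr.2 σ.1 σ.2, hn⟩)
    (fun f hf hfn => Fermat.Agent.S19.helper1821.div_natCast_mem_gauss N ℓ hℓN A hA f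
      (fun σ hσ => hf ⟨σ, hσ⟩) ((ValuationSubring.mem_nonunits_iff _).mp hfn))
    V (fun σ f hf => hV σ.1 σ.2 f hf)
    (fun c => (finite_range_galois c).subset (by rintro _ ⟨σ, rfl⟩; exact ⟨σ.1, rfl⟩))
    (fun v _ => by
      obtain ⟨s, hs⟩ := exists_finset_of_hasFiniteLevel
        (Fermat.Agent.S29.helper8527.hasFiniteLevel_smul_elt (modularFunctionFieldFull N) v)
      exact ⟨s, fun σ hσ => hs σ.1 hσ⟩)
    e (isOrtho_of_gaussOrtho N ℓ hℓN A hA heO) hespan
  exact ⟨f, hf, hfV, fun i σ hσ => hffix i ⟨σ, hσ⟩, hfspan⟩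

/-- **(RAT3) at the Gauss pair, valuation form.**  Every Gauss-integral element of a
finite-dimensional inertia-stable subspace `V` is congruent modulo the maximal ideal of the
Gauss ring to an inertia-fixed Gauss-integral element of `V`. -/
theorem gauss_exists_fixed_same_reduction (V : Submodule Qb ↥(modularFunctionFieldBar N))
    [FiniteDimensional Qb V]
    (hV : ∀ σ ∈ A.inertiaSubgroupIn ℚ, ∀ f ∈ V,
      arithmeticGalois (modularFunctionFieldFull N) σ • f ∈ V)
    {h : ↥(modularFunctionFieldBar N)} (hhV : h ∈ V)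
    (hhO : h ∈ helper508.gaussValuationSubring N ℓ hℓN A hA) :
    ∃ h0 : ↥(modularFunctionFieldBar N), h0 ∈ V ∧
      h0 ∈ helper508.gaussValuationSubring N ℓ hℓN A hA ∧
      (∀ σ ∈ A.inertiaSubgroupIn ℚ,
        arithmeticGalois (modularFunctionFieldFull N) σ • h0 = h0) ∧
      h - h0 ∈ (helper508.gaussValuationSubring N ℓ hℓN A hA).nonunits := by
  have hℓ : ℓ.Prime := Fact.out
  have hAO := helper508.algebraMap_mem_gaussValuationSubring_iff N ℓ hℓN A hA
  obtain ⟨f, hf, hfV, hffix, hfspan⟩ := gauss_exists_fixed_ortho N ℓ hℓN A hA V hV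
  obtain ⟨a, ha⟩ := (Submodule.mem_span_range_iff_exists_fun Qb).mp (hfspan ▸ hhV)
  have haA := hf.coeff_mem hAO a (ha ▸ hhO)
  choose r hr hrn using fun i =>
    Fermat.Agent.S19.helper1821.exists_sub_mem_nonunits hℓ hA (haA i)
  refine ⟨∑ i, r i • f i, V.sum_mem fun i _ => V.smul_mem _ (hfV i),
    sum_mem fun i _ => smul_mem_of_mem hAO (hr i).1 (hf.1 i), ?_, ?_⟩
  · intro σ hσ
    rw [Finset.smul_sum]
    refine Finset.sum_congr rfl fun i _ => ?_
    have h1 := map_smul_of_compat (inertiaBase N A) (inertiaFun N A) (inertiaFun_compat N A)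
      ⟨σ, hσ⟩ (r i) (f i)
    rw [inertiaFun_apply, inertiaFun_apply, inertiaBase_apply] at h1
    rw [h1, (hr i).2 σ hσ, hffix i σ hσ]
  · rw [← ha, ← Finset.sum_sub_distrib]
    have h1 : ∀ i, a i • f i - r i • f i = (a i - r i) • f i := fun i => (sub_smul _ _ _).symm
    simp only [h1]
    exact nonunits_sum _ _ _ fun i _ => smul_mem_nonunits_of_mem hAO (hrn i) (hf.1 i)

/-- `RedKer` for the Gauss pair, unfolded. -/
theorem gaussResidue_eq_zero_iff_mem_nonunits
    (x : ↥(helper508.gaussValuationSubring N ℓ hℓN A hA)) :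
    helper508.gaussResidue N ℓ hℓN A hA x = 0 ↔
      (x : ↥(modularFunctionFieldBar N)) ∈
        (helper508.gaussValuationSubring N ℓ hℓN A hA).nonunits :=
  (helper508.gaussResidue_eq_zero_iff N ℓ hℓN A hA x).trans
    (not_isUnit_iff_coe_mem_nonunits _ x)

/-- **(RAT3) at the Gauss pair, reduction form.** -/
theorem gauss_exists_fixed_same_red (V : Submodule Qb ↥(modularFunctionFieldBar N))
    [FiniteDimensional Qb V]
    (hV : ∀ σ ∈ A.inertiaSubgroupIn ℚ, ∀ f ∈ V,
      arithmeticGalois (modularFunctionFieldFull N) σ • f ∈ V)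
    (h : ↥(helper508.gaussValuationSubring N ℓ hℓN A hA))
    (hhV : (h : ↥(modularFunctionFieldBar N)) ∈ V) :
    ∃ h0 : ↥(helper508.gaussValuationSubring N ℓ hℓN A hA),
      (h0 : ↥(modularFunctionFieldBar N)) ∈ V ∧
      (∀ σ ∈ A.inertiaSubgroupIn ℚ, arithmeticGalois (modularFunctionFieldFull N) σ •
        (h0 : ↥(modularFunctionFieldBar N)) = h0) ∧
      helper508.gaussResidue N ℓ hℓN A hA h0 = helper508.gaussResidue N ℓ hℓN A hA h := by
  obtain ⟨h0, h0V, h0O, h0fix, hdiff⟩ :=
    gauss_exists_fixed_same_reduction N ℓ hℓN A hA V hV hhV h.2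
  refine ⟨⟨h0, h0O⟩, h0V, h0fix, ?_⟩
  have h1 : helper508.gaussResidue N ℓ hℓN A hA (h - ⟨h0, h0O⟩) = 0 :=
    (gaussResidue_eq_zero_iff_mem_nonunits N ℓ hℓN A hA _).mpr hdiff
  rw [map_sub, sub_eq_zero] at h1
  exact h1.symm

/-- **(RAT3) at the Gauss pair, lifting form** (generic `FixedLiftRR`): for an inertia-fixed
divisor `E` with `L(E)` finite-dimensional, if the Gauss reduction maps `L(E) ∩ O` onto `L(Ek)`
then it maps the inertia-fixed elements of `L(E) ∩ O` onto `L(Ek)`. -/
theorem gauss_fixedLift_rr (E : Divisor Qb ↥(modularFunctionFieldBar N))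
    [FiniteDimensional Qb (riemannRochSpace E)]
    (hE : ∀ σ ∈ A.inertiaSubgroupIn ℚ,
      arithmeticGalois (modularFunctionFieldFull N) σ • E = E)
    (Ek : Divisor (IsLocalRing.ResidueField A)
      ↥(modularFunctionFieldFullC (IsLocalRing.ResidueField A) N))
    (hlift : ∀ y ∈ riemannRochSpace Ek,
      ∃ w : ↥(helper508.gaussValuationSubring N ℓ hℓN A hA),
        (w : ↥(modularFunctionFieldBar N)) ∈ riemannRochSpace E ∧
        helper508.gaussResidue N ℓ hℓN A hA w = y) :
    ∀ y ∈ riemannRochSpace Ek,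
      ∃ w : ↥(helper508.gaussValuationSubring N ℓ hℓN A hA),
        (w : ↥(modularFunctionFieldBar N)) ∈ riemannRochSpace E ∧
        helper508.gaussResidue N ℓ hℓN A hA w = y ∧
        ∀ σ ∈ A.inertiaSubgroupIn ℚ, arithmeticGalois (modularFunctionFieldFull N) σ •
          (w : ↥(modularFunctionFieldBar N)) = w := by
  intro y hy
  obtain ⟨w, hwE, hwy⟩ := hlift y hy
  obtain ⟨w0, hw0E, hw0fix, hw0⟩ := gauss_exists_fixed_same_red N ℓ hℓN A hA (riemannRochSpace E)
    (fun σ hσ f hf => smul_mem_riemannRochSpace _ (hE σ hσ) hf) w hwE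
  exact ⟨w0, hw0E, by rw [hw0, hwy], hw0fix⟩

end Gauss

end Fermat.Agent.S19.helper3214
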