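import Mathlib
import Fermat.Agent.S19.helper2007_Centres
import Fermat.Agent.S18.helper981_Riemann
import Fermat.Agent.S37.helper5413_LatticeModular
import Fermat.Agent.S19.helper3214_RationalGauss

/-!
# S19 / CALG-RAT (helper3214): `FixedLiftRR` at the Gauss pair

The consumer form of CALG-RAT used by CALG-CEN (`helper2007.FixedLiftRR`), proved at the Gauss
pair from the gate `LatHyp` alone: for an inertia-fixed place `Q` of the modular function field
and `n ≥ max c (thr g c)`, every element of `L_k(n · sp Q)` is the Gauss reduction of an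
inertia-fixed Gauss-integral element of `L(n · Q)`.  More generally (`gauss_fixedLift_of_latHyp`)
the same for any inertia-fixed divisor `E` of degree `≥ max c (thr g c)`.
-/

set_option autoImplicit false
set_option synthInstance.maxHeartbeats 400000
set_option maxHeartbeats 1600000

namespace Fermat.Agent.S19.helper3214

open AlgebraicCurve ModularCurve
open Fermat.Agent.S18 Fermat.Agent.S37.helper126 Fermat.Agent.S37.helper5413

local notation "Qb" => AlgebraicClosure ℚ
local notation "GQ" => (AlgebraicClosure ℚ ≃ₐ[ℚ] AlgebraicClosure ℚ)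

section Lat

variable (N : ℕ) [NeZero N] (ℓ : ℕ) [Fact ℓ.Prime] (hℓN : ¬ ℓ ∣ N)
  (A : ValuationSubring Qb) (hA : A.LiesOverPrime ℓ)
variable {g c : ℤ} {E₀ : Divisor Qb ↥(modularFunctionFieldBar N)}
  {E₀k : Divisor (IsLocalRing.ResidueField A)
    ↥(modularFunctionFieldFullC (IsLocalRing.ResidueField A) N)}

/-- **(RAT3) from the gate.**  For an inertia-fixed divisor `E` of large degree, every element
of `L_k(sp_* E)` is the Gauss reduction of an inertia-fixed Gauss-integral element of `L(E)`. -/
theorem gauss_fixedLift_of_latHyp [HasPrincipalDivisors Qb ↥(modularFunctionFieldBar N)]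
    (H : LatHyp (helper508.gaussValuationSubring N ℓ hℓN A hA)
      (helper508.gaussResidue N ℓ hℓN A hA) g c E₀ E₀k)
    (P₀ : Place Qb ↥(modularFunctionFieldBar N))
    (E : Divisor Qb ↥(modularFunctionFieldBar N))
    (hE : ∀ σ ∈ A.inertiaSubgroupIn ℚ,
      arithmeticGalois (modularFunctionFieldFull N) σ • E = E)
    (hdeg : max c (LatHyp.thr g c) ≤ Divisor.degree E) :
    ∀ y ∈ riemannRochSpace (Finsupp.mapDomain H.placeRed E),
      ∃ w : ↥(helper508.gaussValuationSubring N ℓ hℓN A hA),
        (w : ↥(modularFunctionFieldBar N)) ∈ riemannRochSpace E ∧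
        helper508.gaussResidue N ℓ hℓN A hA w = y ∧
        ∀ σ ∈ A.inertiaSubgroupIn ℚ, arithmeticGalois (modularFunctionFieldFull N) σ •
          (w : ↥(modularFunctionFieldBar N)) = w := by
  have hfin : FiniteDimensional Qb (riemannRochSpace E) :=
    Fermat.Agent.S18.helper981.finite_riemannRochSpace H.degL P₀ E
  exact gauss_fixedLift_rr N ℓ hℓN A hA E hE (Finsupp.mapDomain H.placeRed E)
    (fun y hy => LatHypGlue.exists_lift_rr H (helper508.gaussResidue_surjective N ℓ hℓN A hA)
      (gaussResidue_const_surj N ℓ hℓN A hA) E hdeg hy)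

/-- **CALG-RAT in the consumer form of CALG-CEN.**  `helper2007.FixedLiftRR` at the Gauss pair,
for an inertia-fixed place `Q` and every `n ≥ max c (thr g c)`; `G` is any set of semilinear
automorphisms coming from the inertia group of `A`. -/
theorem gauss_fixedLiftRR [HasPrincipalDivisors Qb ↥(modularFunctionFieldBar N)]
    (H : LatHyp (helper508.gaussValuationSubring N ℓ hℓN A hA)
      (helper508.gaussResidue N ℓ hℓN A hA) g c E₀ E₀k)
    (G : Set (SemilinearAut Qb ↥(modularFunctionFieldBar N)))
    (hG : ∀ γ ∈ G, ∃ σ ∈ A.inertiaSubgroupIn ℚ,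
      γ = arithmeticGalois (modularFunctionFieldFull N) σ)
    (Q : Place Qb ↥(modularFunctionFieldBar N))
    (hQ : ∀ σ ∈ A.inertiaSubgroupIn ℚ,
      arithmeticGalois (modularFunctionFieldFull N) σ • Q = Q)
    (n : ℤ) (hn : max c (LatHyp.thr g c) ≤ n) :
    Fermat.Agent.S19.helper2007.FixedLiftRR H G Q n := by
  intro y hy
  have hE : ∀ σ ∈ A.inertiaSubgroupIn ℚ,
      arithmeticGalois (modularFunctionFieldFull N) σ •
        (Finsupp.single Q n : Divisor Qb ↥(modularFunctionFieldBar N)) = Finsupp.single Q n := by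
    intro σ hσ
    rw [SemilinearAut.smul_single, hQ σ hσ]
  have hdeg : max c (LatHyp.thr g c) ≤
      Divisor.degree (Finsupp.single Q n : Divisor Qb ↥(modularFunctionFieldBar N)) := by
    rw [Divisor.degree_single, H.degL Q]
    simpa using hn
  have hy' : y ∈ riemannRochSpace (Finsupp.mapDomain H.placeRed
      (Finsupp.single Q n : Divisor Qb ↥(modularFunctionFieldBar N))) := by
    rw [Finsupp.mapDomain_single]
    exact hy
  obtain ⟨w, hwE, hwy, hwfix⟩ :=
    gauss_fixedLift_of_latHyp N ℓ hℓN A hA H Q _ hE hdeg y hy'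
  refine ⟨w, hwE, hwy, fun γ hγ => ?_⟩
  obtain ⟨σ, hσ, rfl⟩ := hG γ hγ
  exact hwfix σ hσ

end Lat

end Fermat.Agent.S19.helper3214
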