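import Fermat.Agent.S19.helper6256_CoverWire
import Fermat.Agent.S19.helper3214_RationalLat

set_option autoImplicit false
set_option synthInstance.maxHeartbeats 400000
set_option maxHeartbeats 1600000

/-!
# S19, main line C-alg: the core `helper3573.Stmt_CoreAt` (helper6256)

* `gaussRatAt` : (RAT) at the Gauss pair in the consumer form `GaussRatAt`, from the landed
  `helper3214.gauss_fixedLift_of_latHyp` (inertia-fixed lifts for every inertia-fixed divisor of
  large degree), applied to `n • Q` and `n • Q + R`;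
* `stmt_CoreAt` : **the geometric core of S19**, `helper3573.Stmt_CoreAt M ℓ hℓM` for every
  level `M ≠ 0` and every prime `ℓ ∤ M`: at every place of `ℚ̄` over `ℓ` where the gate holds,
  level `M` carries a coordinate system on the kernel of reduction.

Chain: gate (`LatHyp` at the Gauss pair) → instance bundle (`helper9075`), Galois side
(`helper3103`), (RAT) (`helper3214`, `helper1821`), adapted system (`helper5236`), cover lemma
(`helper1458`) → `IsAdaptedCover` (`calgCoverAt_of_gate`) → abstract core
(`helper2570.stmt_CAlgAbs`: T1 `helper1726`/`helper64`, discs and centres `helper2007`,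
coordinates `helper5161`/`helper9477`, Cech law `helper8101`, key lemma `helper2570`, rank one
`helper1288`).
-/

namespace Fermat.Agent.S19.helper6256

open AlgebraicCurve ModularCurve
open Fermat.Agent.S18 Fermat.Agent.S37 Fermat.Agent.S37.helper5413
open Fermat.Agent.S19.helper2111

/-- **(RAT) at the Gauss pair**, in the consumer form of the cover wire. -/
theorem gaussRatAt (M : ℕ) [NeZero M] (ℓ : ℕ) [Fact ℓ.Prime] (hℓM : ¬ ℓ ∣ M)
    (A : ValuationSubring Qb) (hA : A.LiesOverPrime ℓ) : GaussRatAt M ℓ hℓM A hA := by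
  intro g c E₀ E₀k H Q hQ n hn
  have hPD := hasPrincipalDivisors_bar M ℓ hℓM A hA
  have hQσ : ∀ σ ∈ A.inertiaSubgroupIn ℚ,
      arithmeticGalois (modularFunctionFieldFull M) σ • Q = Q :=
    fun σ hσ => hQ _ (mem_inertiaImage hσ)
  have key : ∀ E : Divisor Qb (modularFunctionFieldBar M),
      (∀ σ ∈ A.inertiaSubgroupIn ℚ, arithmeticGalois (modularFunctionFieldFull M) σ • E = E) →
      max c (LatHyp.thr (g : ℤ) c) ≤ Divisor.degree E →
      helper5236.FixedLiftDiv H (inertiaImage A M) E := by
    intro E hE hdeg y hy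
    obtain ⟨w, hw, hred, hfix⟩ :=
      helper3214.gauss_fixedLift_of_latHyp M ℓ hℓM A hA H Q E hE hdeg y hy
    refine ⟨w, hw, hred, ?_⟩
    rintro _ ⟨σ, hσ, rfl⟩
    exact hfix σ hσ
  have hdQ : Divisor.degree (Finsupp.single Q n : Divisor Qb (modularFunctionFieldBar M)) = n := by
    rw [Divisor.degree_single, H.degL]
    simp
  refine ⟨key _ (fun σ hσ => by rw [SemilinearAut.smul_single, hQσ σ hσ])
    (by rw [hdQ]; exact hn), fun R hR => key _ (fun σ hσ => ?_) ?_⟩
  · rw [smul_add, SemilinearAut.smul_single, SemilinearAut.smul_single, hQσ σ hσ,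
      hR _ (mem_inertiaImage hσ)]
  · rw [map_add, hdQ, Divisor.degree_single, H.degL]
    simp only [Nat.cast_one, mul_one]
    omega

/-- **THE GEOMETRIC CORE OF S19**: at every place `A` of `ℚ̄` over `ℓ ∤ M` where the gate holds,
`J₀(M)` carries a coordinate system on the kernel of reduction (`helper2111.IsCoordSystem`). -/
theorem stmt_CoreAt (M : ℕ) [NeZero M] (ℓ : ℕ) [Fact ℓ.Prime] (hℓM : ¬ ℓ ∣ M) :
    helper3573.Stmt_CoreAt M ℓ hℓM :=
  stmt_CoreAt_of_rat M ℓ hℓM (fun A hA => gaussRatAt M ℓ hℓM A hA)

end Fermat.Agent.S19.helper6256
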