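import Fermat.Agent.S19.helper2532_CoordOrder
import Fermat.Agent.S19.helper2111_SpecCore
import Fermat.Agent.S58.helper6024_Unram

set_option autoImplicit false

/-!
# S19 spine: from a coordinate system (`IsCoordSystem`) to the inertia-level order

The arrow `Stmt_Coords -> [input of the lattice descent]` of the spine, in one theorem
(centres adapter + order with an approximate law over `A` + closure under the decomposition
group):

* `unr_inertia` : every inertia-fixed non-unit of `A` is divisible by `ℓ` (from the landed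
  `helper6024.exists_eq_natCast_mul`), in the shape of the hypothesis `hunr` of
  `exists_coordinate_order_int`.
* `exists_order_of_finset_law` : the order over `ℚ̄` from a coordinate system on an arbitrary
  Galois module `J` whose law is given on finite subsets of `J1` with coefficients in `A`.
* `exists_order_of_isCoordSystem` : the same from the captain's `IsCoordSystem ℓ N A g J1 b`, for
  every finite Galois module `M` with an injective inertia-equivariant map to `J₀(N)`.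
* `torsDistribMulAction`, `exists_order_tors` : the instance `M = J₀(N)[ℓ^k]` with `torsAct`.

The output is a subring `H0` of `M → ℚ̄` satisfying the six hypotheses (hval), (hI), (hD),
(hR0), (hsep), (hadd) of the lattice descent.
-/

namespace Fermat.Agent.S19.helper2532

open ModularCurve
open Fermat.Agent.S19.helper2111

local notation "Qb'" => AlgebraicClosure ℚ
local notation "G'" => (AlgebraicClosure ℚ ≃ₐ[ℚ] AlgebraicClosure ℚ)

/-- The inertia field is unramified, in the shape of `hunr`. -/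
theorem unr_inertia (ℓ : ℕ) (hℓ : ℓ.Prime) (A : ValuationSubring Qb') (hA : A.LiesOverPrime ℓ)
    (x : Qb') (hxA : x ∈ A) (hx : ∀ s : ↥(A.inertiaSubgroupIn ℚ), s • x = x) (hxinv : x⁻¹ ∉ A) :
    ∃ y ∈ A, x = (ℓ : Qb') * y := by
  have hxn : x ∈ A.nonunits := by
    rw [ValuationSubring.mem_nonunits_iff]
    have h1 : A.valuation x ≤ 1 := (A.valuation_le_one_iff x).mpr hxA
    refine lt_of_le_of_ne h1 fun h2 => hxinv ?_
    rw [← A.valuation_le_one_iff, map_inv₀, h2, inv_one]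
  obtain ⟨y, hy, hxy⟩ := Fermat.Agent.S58.helper6024.exists_eq_natCast_mul A hℓ hA
    (x := x) ⟨hxA, fun σ hσ => hx ⟨σ, hσ⟩⟩ hxn
  exact ⟨y, hy.1, hxy⟩

variable {M : Type*}

/-- THE ORDER over `ℚ̄` from a coordinate system with the law on finite subsets of `J1`,
coefficients in `A`: output = the six hypotheses of the lattice descent. -/
theorem exists_order_of_finset_law (ℓ : ℕ) (hℓ : ℓ.Prime) (A : ValuationSubring Qb')
    (hA : A.LiesOverPrime ℓ)
    [AddCommGroup M] [Finite M] [DistribMulAction G' M]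
    {J : Type*} [AddCommGroup J] [DistribMulAction G' J]
    (ι : M →+ J) (hιinj : Function.Injective ι)
    (hι : ∀ s ∈ A.inertiaSubgroupIn ℚ, ∀ m : M, ι (s • m) = s • ι m)
    (J1 : AddSubgroup J) (hJ1 : ∀ s ∈ A.inertiaSubgroupIn ℚ, ∀ x ∈ J1, s • x ∈ J1)
    {g : ℕ} (X : J → Fin g → Qb')
    (hXval : ∀ x ∈ J1, ∀ i, X x i ∈ A)
    (hXeq : ∀ s ∈ A.inertiaSubgroupIn ℚ, ∀ x ∈ J1, ∀ i, X (s • x) i = s (X x i))
    (hXinj : ∀ x ∈ J1, ∀ x' ∈ J1, X x = X x' → x = x')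
    (hcentre : ∀ m : M, ∃ y : J, (∀ s ∈ A.inertiaSubgroupIn ℚ, s • y = y) ∧ ι m - y ∈ J1)
    (hlaw : ∀ (n : ℕ) (T : Finset J), (∀ x ∈ T, x ∈ J1) →
      ∃ P : Fin g → MvPolynomial (Fin g ⊕ Fin g) Qb', (∀ i d, (P i).coeff d ∈ A) ∧
        ∀ x ∈ T, ∀ y ∈ T, ∀ i, ∃ w ∈ A,
          X (x + y) i - MvPolynomial.eval (Sum.elim (X x) (X y)) (P i) = (ℓ : Qb') ^ n * w) :
    ∃ H0 : Subring (M → Qb'),
      (∀ φ ∈ H0, ∀ m, φ m ∈ A) ∧
      (∀ φ ∈ H0, ∀ s ∈ A.inertiaSubgroupIn ℚ, ∀ m, φ (s • m) = s (φ m)) ∧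
      (∀ φ ∈ H0, ∀ s ∈ A.decompositionSubgroup ℚ, (fun m => s (φ (s⁻¹ • m))) ∈ H0) ∧
      (∀ c ∈ A, (∀ s ∈ A.inertiaSubgroupIn ℚ, s c = c) → ∀ φ ∈ H0, (fun m => c * φ m) ∈ H0) ∧
      (∀ m m', m ≠ m' → ∃ φ ∈ H0, φ m ≠ φ m') ∧
      (∀ φ ∈ H0, ∃ (n : ℕ) (a b : Fin n → M → Qb'), (∀ i, a i ∈ H0) ∧ (∀ i, b i ∈ H0) ∧
        ∀ m m', φ (m + m') = ∑ i, a i m * b i m') := by
  have hℓA : (ℓ : Qb') ∈ A := natCast_mem A ℓ
  obtain ⟨H0, hval, hI, hR0, hsep, hadd⟩ :=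
    exists_coordinate_order_of_finset_law (Γ := ↥(A.inertiaSubgroupIn ℚ)) A (ℓ : Qb')
      (Nat.cast_ne_zero.mpr hℓ.ne_zero) hℓA
      (fun d _ _ => exists_pow_mul_inv_mem_of_isAlgebraic isAlgebraic_int_Qb A ℓ hℓ hA d)
      (fun x hxA hx hxinv => unr_inertia ℓ hℓ A hA x hxA hx hxinv)
      ι hιinj (fun s m => hι s s.2 m) J1 (fun s x hx => hJ1 s s.2 x hx) X hXval
      (fun s x hx i => hXeq s s.2 x hx i) hXinj
      (fun m => by
        obtain ⟨y, hy, hmy⟩ := hcentre m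
        exact ⟨y, fun s => hy s s.2, hmy⟩)
      hlaw
  obtain ⟨H1, -, h⟩ := exists_decomp_closure A H0 hval
    (fun φ hφ s hs m => hI φ hφ ⟨s, hs⟩ m)
    (fun c hc hcs φ hφ => hR0 c hc (fun s => hcs s s.2) φ hφ) hsep hadd
  exact ⟨H1, h⟩

/-- THE ORDER from the captain's `IsCoordSystem` (output of the geometric core at level `N`),
for every finite Galois module `M` with an injective inertia-equivariant additive map to
`J₀(N)`: output = the six hypotheses of the lattice descent. -/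
theorem exists_order_of_isCoordSystem (ℓ N : ℕ) (hℓ : ℓ.Prime) (A : ValuationSubring Qb)
    (hA : A.LiesOverPrime ℓ) {g : ℕ} {J1 : AddSubgroup (JZero N)} {b : JZero N → Fin g → Qb}
    (hc : IsCoordSystem ℓ N A g J1 b)
    [AddCommGroup M] [Finite M] [DistribMulAction GQ M]
    (ι : M →+ JZero N) (hιinj : Function.Injective ι)
    (hι : ∀ s ∈ A.inertiaSubgroupIn ℚ, ∀ m : M, ι (s • m) = s • ι m) :
    ∃ H0 : Subring (M → Qb),
      (∀ φ ∈ H0, ∀ m, φ m ∈ A) ∧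
      (∀ φ ∈ H0, ∀ s ∈ A.inertiaSubgroupIn ℚ, ∀ m, φ (s • m) = s (φ m)) ∧
      (∀ φ ∈ H0, ∀ s ∈ A.decompositionSubgroup ℚ, (fun m => s (φ (s⁻¹ • m))) ∈ H0) ∧
      (∀ c ∈ A, (∀ s ∈ A.inertiaSubgroupIn ℚ, s c = c) → ∀ φ ∈ H0, (fun m => c * φ m) ∈ H0) ∧
      (∀ m m', m ≠ m' → ∃ φ ∈ H0, φ m ≠ φ m') ∧
      (∀ φ ∈ H0, ∃ (n : ℕ) (a b : Fin n → M → Qb), (∀ i, a i ∈ H0) ∧ (∀ i, b i ∈ H0) ∧
        ∀ m m', φ (m + m') = ∑ i, a i m * b i m') :=
  exists_order_of_finset_law ℓ hℓ A hA ι hιinj hι J1 hc.stable b hc.val hc.eqv hc.inj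
    (fun m => hc.cen (ι m)) hc.law

/-- The Galois action on the torsion as a `DistribMulAction` (scalar multiplication `torsAct`). -/
@[reducible] noncomputable def torsDistribMulAction (N ℓ k : ℕ) : DistribMulAction GQ (Tors N ℓ k) where
  smul σ m := torsAct N ℓ k σ m
  one_smul m := Subtype.ext (one_smul GQ (m : JZero N))
  mul_smul σ τ m := Subtype.ext (mul_smul σ τ (m : JZero N))
  smul_zero σ := torsAct_zero N ℓ k σ
  smul_add σ m m' := Subtype.ext (smul_add σ (m : JZero N) (m' : JZero N))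

/-- THE ORDER on `J₀(N)[ℓ^k]` from `IsCoordSystem`, with the action written as `torsAct`. -/
theorem exists_order_tors (ℓ N : ℕ) (hℓ : ℓ.Prime) (A : ValuationSubring Qb)
    (hA : A.LiesOverPrime ℓ) {g : ℕ} {J1 : AddSubgroup (JZero N)} {b : JZero N → Fin g → Qb}
    (hc : IsCoordSystem ℓ N A g J1 b) (k : ℕ) [Finite (Tors N ℓ k)] :
    ∃ H0 : Subring (Tors N ℓ k → Qb),
      (∀ φ ∈ H0, ∀ m, φ m ∈ A) ∧
      (∀ φ ∈ H0, ∀ s ∈ A.inertiaSubgroupIn ℚ, ∀ m, φ (torsAct N ℓ k s m) = s (φ m)) ∧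
      (∀ φ ∈ H0, ∀ s ∈ A.decompositionSubgroup ℚ,
        (fun m => s (φ (torsAct N ℓ k s⁻¹ m))) ∈ H0) ∧
      (∀ c ∈ A, (∀ s ∈ A.inertiaSubgroupIn ℚ, s c = c) → ∀ φ ∈ H0, (fun m => c * φ m) ∈ H0) ∧
      (∀ m m', m ≠ m' → ∃ φ ∈ H0, φ m ≠ φ m') ∧
      (∀ φ ∈ H0, ∃ (n : ℕ) (a b : Fin n → Tors N ℓ k → Qb), (∀ i, a i ∈ H0) ∧ (∀ i, b i ∈ H0) ∧
        ∀ m m', φ (m + m') = ∑ i, a i m * b i m') := by
  let _ := torsDistribMulAction N ℓ k
  exact exists_order_of_isCoordSystem ℓ N hℓ A hA hc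
    (Submodule.torsionBy ℤ (JZero N) ((ℓ : ℤ) ^ k)).subtype.toAddMonoidHom
    Subtype.val_injective (fun s _ m => rfl)

end Fermat.Agent.S19.helper2532
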