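/-
helper1243 — S19 leaf "ORDER" (board #1594): the route-independent closure principle.

* `exists_pow_mul_inv_mem`  : the place `A` of `Qbar` over `ℓ` has rank one
  (`ℓ ^ j / d ∈ A` for `j` large).
* `exists_injective_mem`    : a subring of functions on a finite set that separates points contains
  an injective function.
* `exists_lagrange`, `exists_multiplier` : if `H0` is a subring of `A`-valued, `I`-equivariant
  functions on a finite `I`-set, stable under `A^I`-constants and separating points, there is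
  `N ≠ 0` in `A^I` with `N • Ψ ∈ H0` for EVERY `A`-valued `I`-equivariant `Ψ` (Lagrange
  interpolation with `I`-invariant coefficients; no finiteness of `H0`, no noetherianity of `A^I`).
* `exists_fixed_coeff`, `mem_of_mem_intSpan` : DESCENT OF COEFFICIENTS — an `I`-equivariant
  `A`-linear combination of elements of `H0` lies in `H0` (minimal-relation argument).
* `adic_closure`, `adic_closure_int` : such an `H0` is `ℓ`-adically closed among equivariant
  functions, even when the approximations have coefficients in `A`.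
* `adic_closure_tensor`, `adic_closure_tensor_int` : the same on `M × M` for finite sums
  `∑ a_k(m) b_k(m')`.
* `order`, `order_spec`, `exists_order_of_exactLaw`, `exists_order_of_approxLaw`,
  `exists_order_of_approxLaw_int` : the order generated by `A^I`-constants, indicators of classes
  and integral coordinates satisfies `(hval) (hI) (hR0) (hsep) (hadd)` as soon as the coordinates
  satisfy a polynomial addition law exactly, or modulo `ℓ ^ j` for every `j` (coefficients `I`-fixed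
  in `A`, or merely in `A`).
-/
import Mathlib
import Fermat.Prelude.Def_FLTPrelim_Ramification

set_option autoImplicit false

namespace Fermat.Agent.S19.helper1243

open Polynomial

local notation "Qb" => AlgebraicClosure ℚ
local notation "GQ" => (AlgebraicClosure ℚ ≃ₐ[ℚ] AlgebraicClosure ℚ)

/-- `Qbar` is algebraic over `ℚ` (for the algebra structure used in the frozen statements). -/
theorem isAlgebraic_Qb : Algebra.IsAlgebraic ℚ (AlgebraicClosure ℚ) :=
  AlgebraicClosure.isAlgebraic ℚ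

/-- Elements integral over `ℤ` lie in every valuation subring. -/
theorem mem_of_isIntegral_int {L : Type*} [Field L] (A : ValuationSubring L)
    (z : L) (hz : IsIntegral ℤ z) : z ∈ A := by
  have h1 : IsIntegral A z := hz.tower_top
  obtain ⟨y, hy⟩ := IsIntegrallyClosed.isIntegral_iff.mp h1
  rw [← hy]
  exact y.2

/-- An integer prime to `ℓ` is a unit of a valuation subring in which `ℓ` is a nonunit. -/
theorem inv_natCast_mem (A : ValuationSubring Qb) {ℓ : ℕ} (hℓp : ℓ.Prime)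
    (hℓ : (ℓ : Qb) ∈ A.nonunits) {n : ℕ} (hn : ¬ ℓ ∣ n) : ((n : Qb))⁻¹ ∈ A := by
  by_contra hcon
  have hnA : (n : Qb) ∈ A := natCast_mem A n
  have hn0 : (n : Qb) ≠ 0 := by
    intro h0
    apply hn
    have : n = 0 := by exact_mod_cast h0
    simp [this]
  -- `n` is a nonunit
  have hnon : (n : Qb) ∈ A.nonunits := by
    rw [ValuationSubring.mem_nonunits_iff]
    have h1 : A.valuation (n : Qb) ≤ 1 := (A.valuation_le_one_iff _).mpr hnA
    rcases lt_or_eq_of_le h1 with h | h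
    · exact h
    · exfalso
      apply hcon
      rw [← A.valuation_le_one_iff, map_inv₀, h, inv_one]
  have hcop : Nat.Coprime ℓ n := (Nat.Prime.coprime_iff_not_dvd hℓp).mpr hn
  have hbez : ((ℓ : ℤ) * Nat.gcdA ℓ n + (n : ℤ) * Nat.gcdB ℓ n : ℤ) = 1 := by
    have := Nat.gcd_eq_gcd_ab ℓ n
    rw [hcop] at this
    exact_mod_cast this.symm
  have hone : (1 : Qb) ∈ A.nonunits := by
    have h2 : ((ℓ : Qb) * ((Nat.gcdA ℓ n : ℤ) : Qb) + (n : Qb) * ((Nat.gcdB ℓ n : ℤ) : Qb)) = 1 := by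
      exact_mod_cast congrArg (Int.cast : ℤ → Qb) hbez
    rw [← h2]
    rw [ValuationSubring.mem_nonunits_iff] at hℓ hnon ⊢
    have ha : A.valuation ((Nat.gcdA ℓ n : ℤ) : Qb) ≤ 1 :=
      (A.valuation_le_one_iff _).mpr (intCast_mem A _)
    have hb : A.valuation ((Nat.gcdB ℓ n : ℤ) : Qb) ≤ 1 :=
      (A.valuation_le_one_iff _).mpr (intCast_mem A _)
    refine lt_of_le_of_lt (A.valuation.map_add _ _) (max_lt ?_ ?_)
    · rw [map_mul]
      calc A.valuation (ℓ : Qb) * A.valuation ((Nat.gcdA ℓ n : ℤ) : Qb)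
          ≤ A.valuation (ℓ : Qb) * 1 := mul_le_mul_right ha _
        _ < 1 := by rw [mul_one]; exact hℓ
    · rw [map_mul]
      calc A.valuation (n : Qb) * A.valuation ((Nat.gcdB ℓ n : ℤ) : Qb)
          ≤ A.valuation (n : Qb) * 1 := mul_le_mul_right hb _
        _ < 1 := by rw [mul_one]; exact hnon
  rw [ValuationSubring.mem_nonunits_iff, map_one] at hone
  exact lt_irrefl _ hone

/-- RANK ONE: for a valuation subring `A` of `Qbar` over the prime `ℓ` and `d ≠ 0`, some power of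
`ℓ` is divisible by `d` in `A`. -/
theorem exists_pow_mul_inv_mem (A : ValuationSubring Qb) {ℓ : ℕ} (hℓp : ℓ.Prime)
    (hℓ : (ℓ : Qb) ∈ A.nonunits) {d : Qb} (hd : d ≠ 0) : ∃ j : ℕ, (ℓ : Qb) ^ j * d⁻¹ ∈ A := by
  have := isAlgebraic_Qb
  have halgQ : IsAlgebraic ℚ (d⁻¹) := Algebra.IsAlgebraic.isAlgebraic _
  have halg : IsAlgebraic ℤ (d⁻¹) := (IsFractionRing.isAlgebraic_iff ℤ ℚ Qb).mpr halgQ
  obtain ⟨N, hN0, hint⟩ := halg.exists_integral_multiple
  have hy : N • d⁻¹ ∈ A := mem_of_isIntegral_int A _ hint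
  have hNabs : N.natAbs ≠ 0 := Int.natAbs_ne_zero.mpr hN0
  obtain ⟨a, N', hN', hNeq⟩ := Nat.exists_eq_pow_mul_and_not_dvd hNabs ℓ hℓp.ne_one
  refine ⟨a, ?_⟩
  have hinv : ((N' : Qb))⁻¹ ∈ A := inv_natCast_mem A hℓp hℓ hN'
  have hN'0 : (N' : Qb) ≠ 0 := by
    intro h0
    apply hN'
    have : N' = 0 := by exact_mod_cast h0
    simp [this]
  have hcast : ((N.natAbs : ℕ) : Qb) = (ℓ : Qb) ^ a * (N' : Qb) := by
    rw [hNeq]; push_cast; ring
  have hsmul : N • d⁻¹ = (N : Qb) * d⁻¹ := by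
    rw [zsmul_eq_mul]
  rcases Int.natAbs_eq N with h | h
  · have h1 : (N : Qb) = (ℓ : Qb) ^ a * (N' : Qb) := by
      rw [← hcast, ← Int.cast_natCast (R := Qb), ← h]
    have : (ℓ : Qb) ^ a * d⁻¹ = ((N' : Qb))⁻¹ * (N • d⁻¹) := by
      rw [hsmul, h1]; field_simp
    rw [this]
    exact A.mul_mem _ _ hinv hy
  · have h1 : (N : Qb) = -((ℓ : Qb) ^ a * (N' : Qb)) := by
      rw [← hcast, ← Int.cast_natCast (R := Qb), ← Int.cast_neg, ← h]
    have : (ℓ : Qb) ^ a * d⁻¹ = -(((N' : Qb))⁻¹ * (N • d⁻¹)) := by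
      rw [hsmul, h1]; field_simp
    rw [this]
    exact A.neg_mem _ (A.mul_mem _ _ hinv hy)

/-- PRIMITIVE ELEMENT: a subring of functions on a finite set with values in a field of
characteristic zero which separates points contains an injective function. -/
theorem exists_injective_mem {Ω : Type*} [Finite Ω] {K : Type*} [Field K] [CharZero K]
    (H0 : Subring (Ω → K)) (hsep : ∀ x y, x ≠ y → ∃ φ ∈ H0, φ x ≠ φ y) :
    ∃ φ ∈ H0, Function.Injective φ := by
  classical
  let P := {p : Ω × Ω // p.1 ≠ p.2}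
  have hPfin : Finite P := inferInstance
  have hPft : Fintype P := Fintype.ofFinite P
  choose f hfH hf using fun p : P => hsep p.1.1 p.1.2 p.2
  let N := Nat.card P
  let e : P ≃ Fin N := Finite.equivFin P
  let q : P → K[X] := fun p =>
    ∑ k : Fin N, C (f (e.symm k) p.1.1 - f (e.symm k) p.1.2) * X ^ (k : ℕ)
  have hq : ∀ p, q p ≠ 0 := by
    intro p h0
    have hc : (q p).coeff (e p : ℕ) = f p p.1.1 - f p p.1.2 := by
      simp only [q, finsetSum_coeff, coeff_C_mul, coeff_X_pow]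
      rw [Finset.sum_eq_single (e p)]
      · simp
      · intro k _ hk
        have : ((e p : Fin N) : ℕ) ≠ (k : ℕ) := fun h => hk (Fin.ext h.symm)
        simp [this]
      · simp
    rw [h0, coeff_zero] at hc
    exact hf p (sub_eq_zero.mp hc.symm)
  let Q : K[X] := ∏ p : P, q p
  have hQ : Q ≠ 0 := Finset.prod_ne_zero_iff.mpr fun p _ => hq p
  obtain ⟨T, hT⟩ : ∃ T : ℕ, Q.eval (T : K) ≠ 0 := by
    by_contra hcon
    push Not at hcon
    exact hQ (Polynomial.eq_zero_of_infinite_isRoot Q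
      (Set.infinite_of_injective_forall_mem Nat.cast_injective fun T => hcon T))
  refine ⟨∑ k : Fin N, (T : Ω → K) ^ (k : ℕ) * f (e.symm k), ?_, ?_⟩
  · exact sum_mem fun k _ => mul_mem (pow_mem (natCast_mem H0 T) _) (hfH _)
  · intro x y hxy
    by_contra hne
    apply hT
    have hp : (q ⟨(x, y), hne⟩).eval (T : K) = 0 := by
      simp only [q, eval_finsetSum, eval_mul, eval_C, eval_pow, eval_X]
      have h1 := hxy
      simp only [Finset.sum_apply, Pi.mul_apply, Pi.pow_apply, Pi.natCast_apply] at h1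
      have h2 : ∑ k : Fin N, (f (e.symm k) x - f (e.symm k) y) * (T : K) ^ (k : ℕ)
          = ∑ k : Fin N, (T : K) ^ (k : ℕ) * f (e.symm k) x
            - ∑ k : Fin N, (T : K) ^ (k : ℕ) * f (e.symm k) y := by
        rw [← Finset.sum_sub_distrib]
        exact Finset.sum_congr rfl fun k _ => by ring
      rw [h2, h1, sub_self]
    simp only [Q, eval_prod]
    exact Finset.prod_eq_zero (Finset.mem_univ _) hp

/-- LAGRANGE INTERPOLATION AT ONE INJECTIVE FUNCTION.  Let `H0` be a subring of `A`-valued,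
`I`-equivariant functions on a finite `I`-set `Ω` separating the points of `Ω`.  Then there are
`φ ∈ H0` and a nonzero `I`-fixed `N ∈ A` such that for EVERY `A`-valued function `Ψ` there is a
polynomial `L` with coefficients in `A` with `L (φ x) = N * Ψ x`; if `Ψ` is `I`-equivariant the
coefficients of `L` are `I`-fixed. -/
theorem exists_lagrange {Ω : Type*} [Finite Ω] (A : ValuationSubring Qb) (I : Subgroup GQ)
    (act : GQ → Ω → Ω) (hact : ∀ s ∈ I, Function.Bijective (act s))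
    (H0 : Subring (Ω → Qb))
    (hval : ∀ φ ∈ H0, ∀ x, φ x ∈ A)
    (hI : ∀ φ ∈ H0, ∀ s ∈ I, ∀ x, φ (act s x) = s (φ x))
    (hsep : ∀ x y, x ≠ y → ∃ φ ∈ H0, φ x ≠ φ y) :
    ∃ φ ∈ H0, ∃ N ∈ A, N ≠ 0 ∧ (∀ s ∈ I, s N = N) ∧
      ∀ Ψ : Ω → Qb, (∀ x, Ψ x ∈ A) → ∃ L : Polynomial Qb, (∀ k, L.coeff k ∈ A) ∧
        (∀ x, L.eval (φ x) = N * Ψ x) ∧
        ((∀ s ∈ I, ∀ x, Ψ (act s x) = s (Ψ x)) → ∀ s ∈ I, ∀ k, s (L.coeff k) = L.coeff k) := by
  classical
  have hXft : Fintype Ω := Fintype.ofFinite Ω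
  obtain ⟨φ, hφH, hφinj⟩ := exists_injective_mem H0 hsep
  have hφA := hval φ hφH
  have hφI := hI φ hφH
  -- the discriminant-type quantities
  let Dfun : Ω → Qb := fun x => ∏ y ∈ Finset.univ.erase x, (φ x - φ y)
  let N : Qb := ∏ x, Dfun x
  let cfun : Ω → Qb := fun x => ∏ x' ∈ Finset.univ.erase x, Dfun x'
  have hDA : ∀ x, Dfun x ∈ A := fun x =>
    prod_mem fun y _ => sub_mem (hφA x) (hφA y)
  have hD0 : ∀ x, Dfun x ≠ 0 := fun x =>
    Finset.prod_ne_zero_iff.mpr fun y hy =>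
      sub_ne_zero.mpr fun h => (Finset.ne_of_mem_erase hy) (hφinj h).symm
  have hDI : ∀ s ∈ I, ∀ x, Dfun (act s x) = s (Dfun x) := by
    intro s hs x
    simp only [Dfun, map_prod, map_sub]
    symm
    refine Finset.prod_equiv (Equiv.ofBijective (act s) (hact s hs)) ?_ ?_
    · intro y
      simp only [Finset.mem_erase, Finset.mem_univ, and_true, Equiv.ofBijective_apply]
      exact ((hact s hs).1.ne_iff).symm
    · intro y _
      simp only [Equiv.ofBijective_apply]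
      rw [hφI s hs x, hφI s hs y]
  have hNA : N ∈ A := prod_mem fun x _ => hDA x
  have hN0 : N ≠ 0 := Finset.prod_ne_zero_iff.mpr fun x _ => hD0 x
  have hNI : ∀ s ∈ I, s N = N := by
    intro s hs
    simp only [N, map_prod]
    refine Fintype.prod_equiv (Equiv.ofBijective (act s) (hact s hs)) _ _ ?_
    intro x
    simp only [Equiv.ofBijective_apply]
    exact (hDI s hs x).symm
  have hcA : ∀ x, cfun x ∈ A := fun x => prod_mem fun y _ => hDA y
  have hcI : ∀ s ∈ I, ∀ x, cfun (act s x) = s (cfun x) := by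
    intro s hs x
    simp only [cfun, map_prod]
    symm
    refine Finset.prod_equiv (Equiv.ofBijective (act s) (hact s hs)) ?_ ?_
    · intro y
      simp only [Finset.mem_erase, Finset.mem_univ, and_true, Equiv.ofBijective_apply]
      exact ((hact s hs).1.ne_iff).symm
    · intro y _
      simp only [Equiv.ofBijective_apply]
      exact (hDI s hs y).symm
  have hcD : ∀ x, cfun x * Dfun x = N := fun x =>
    Finset.prod_erase_mul Finset.univ Dfun (Finset.mem_univ x)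
  refine ⟨φ, hφH, N, hNA, hN0, hNI, ?_⟩
  intro Ψ hΨA
  -- the interpolation polynomial, first over `A`
  let LA : Polynomial A := ∑ x, C (⟨Ψ x * cfun x, A.mul_mem _ _ (hΨA x) (hcA x)⟩ : A) *
    ∏ y ∈ Finset.univ.erase x, (X - C (⟨φ y, hφA y⟩ : A))
  let L : Polynomial Qb := ∑ x, C (Ψ x * cfun x) * ∏ y ∈ Finset.univ.erase x, (X - C (φ y))
  have hLmap : L = LA.map A.subtype := by
    simp only [L, LA, Polynomial.map_sum, Polynomial.map_mul, Polynomial.map_prod,
      Polynomial.map_sub, Polynomial.map_X, Polynomial.map_C]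
    rfl
  have hLA : ∀ k, L.coeff k ∈ A := by
    intro k
    rw [hLmap, Polynomial.coeff_map]
    exact (LA.coeff k).2
  have hLI : (∀ s ∈ I, ∀ x, Ψ (act s x) = s (Ψ x)) →
      ∀ s ∈ I, ∀ k, s (L.coeff k) = L.coeff k := by
    intro hΨI s hs k
    have hmap : L.map (s : Qb →+* Qb) = L := by
      simp only [L, Polynomial.map_sum, Polynomial.map_mul, Polynomial.map_prod,
        Polynomial.map_sub, Polynomial.map_X, Polynomial.map_C]
      refine Fintype.sum_equiv (Equiv.ofBijective (act s) (hact s hs)) _ _ ?_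
      intro x
      simp only [Equiv.ofBijective_apply, RingHom.coe_coe, map_mul]
      rw [hΨI s hs x, hcI s hs x]
      congr 1
      refine Finset.prod_equiv (Equiv.ofBijective (act s) (hact s hs)) ?_ ?_
      · intro y
        simp only [Finset.mem_erase, Finset.mem_univ, and_true, Equiv.ofBijective_apply]
        exact ((hact s hs).1.ne_iff).symm
      · intro y _
        simp only [Equiv.ofBijective_apply]
        rw [hφI s hs y]
    have := congrArg (fun p : Polynomial Qb => p.coeff k) hmap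
    simpa [Polynomial.coeff_map] using this
  have hLeval : ∀ x0, L.eval (φ x0) = N * Ψ x0 := by
    intro x0
    simp only [L, eval_finsetSum, eval_mul, eval_C, eval_prod, eval_sub, eval_X]
    rw [Finset.sum_eq_single x0]
    · have : ∏ y ∈ Finset.univ.erase x0, (φ x0 - φ y) = Dfun x0 := rfl
      rw [this, ← hcD x0]; ring
    · intro x _ hx
      have hmem : x0 ∈ Finset.univ.erase x := Finset.mem_erase.mpr ⟨fun h => hx h.symm, Finset.mem_univ _⟩
      rw [Finset.prod_eq_zero hmem (sub_self _), mul_zero]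
    · intro h; exact absurd (Finset.mem_univ _) h
  exact ⟨L, hLA, hLeval, hLI⟩

/-- KEY LEMMA (Lagrange interpolation with invariant coefficients).  Let `H0` be a subring of
`A`-valued, `I`-equivariant functions on a finite `I`-set `Ω`, stable under multiplication by
`I`-fixed constants of `A` and separating the points of `Ω`.  Then there is a nonzero `I`-fixed
`N ∈ A` such that `N • Ψ ∈ H0` for EVERY `A`-valued `I`-equivariant function `Ψ`. -/
theorem exists_multiplier {Ω : Type*} [Finite Ω] (A : ValuationSubring Qb) (I : Subgroup GQ)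
    (act : GQ → Ω → Ω) (hact : ∀ s ∈ I, Function.Bijective (act s))
    (H0 : Subring (Ω → Qb))
    (hval : ∀ φ ∈ H0, ∀ x, φ x ∈ A)
    (hI : ∀ φ ∈ H0, ∀ s ∈ I, ∀ x, φ (act s x) = s (φ x))
    (hR0 : ∀ c ∈ A, (∀ s ∈ I, s c = c) → ∀ φ ∈ H0, (fun x => c * φ x) ∈ H0)
    (hsep : ∀ x y, x ≠ y → ∃ φ ∈ H0, φ x ≠ φ y) :
    ∃ N ∈ A, N ≠ 0 ∧ (∀ s ∈ I, s N = N) ∧
      ∀ Ψ : Ω → Qb, (∀ x, Ψ x ∈ A) → (∀ s ∈ I, ∀ x, Ψ (act s x) = s (Ψ x)) →
        (fun x => N * Ψ x) ∈ H0 := by
  obtain ⟨φ, hφH, N, hNA, hN0, hNI, hL⟩ := exists_lagrange A I act hact H0 hval hI hsep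
  refine ⟨N, hNA, hN0, hNI, ?_⟩
  intro Ψ hΨA hΨI
  obtain ⟨L, hLA, hLeval, hLI⟩ := hL Ψ hΨA
  have hfun : (fun x => N * Ψ x) =
      ∑ k ∈ Finset.range (L.natDegree + 1), (fun x => L.coeff k * (φ ^ k) x) := by
    funext x0
    rw [← hLeval x0, eval_eq_sum_range, Finset.sum_apply]
    rfl
  rw [hfun]
  exact sum_mem fun k _ => hR0 _ (hLA k) (hLI hΨI · · k) _ (pow_mem hφH k)

/-- ADIC CLOSURE.  With `H0` as in `exists_multiplier` and `A` a valuation subring of `Qbar` over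
the prime `ℓ`: an `I`-equivariant function which is congruent modulo `ℓ ^ j • A` to an element of
`H0` for EVERY `j` belongs to `H0`. -/
theorem adic_closure {Ω : Type*} [Finite Ω] (A : ValuationSubring Qb) {ℓ : ℕ} (hℓp : ℓ.Prime)
    (hℓ : A.LiesOverPrime ℓ) (I : Subgroup GQ)
    (act : GQ → Ω → Ω) (hact : ∀ s ∈ I, Function.Bijective (act s))
    (H0 : Subring (Ω → Qb))
    (hval : ∀ φ ∈ H0, ∀ x, φ x ∈ A)
    (hI : ∀ φ ∈ H0, ∀ s ∈ I, ∀ x, φ (act s x) = s (φ x))
    (hR0 : ∀ c ∈ A, (∀ s ∈ I, s c = c) → ∀ φ ∈ H0, (fun x => c * φ x) ∈ H0)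
    (hsep : ∀ x y, x ≠ y → ∃ φ ∈ H0, φ x ≠ φ y)
    (Ψ : Ω → Qb) (hΨI : ∀ s ∈ I, ∀ x, Ψ (act s x) = s (Ψ x))
    (happrox : ∀ j : ℕ, ∃ h ∈ H0, ∀ x, ∃ t ∈ A, Ψ x - h x = (ℓ : Qb) ^ j * t) :
    Ψ ∈ H0 := by
  obtain ⟨N, hNA, hN0, hNI, hmul⟩ := exists_multiplier A I act hact H0 hval hI hR0 hsep
  obtain ⟨j, hj⟩ := exists_pow_mul_inv_mem A hℓp hℓ hN0
  obtain ⟨h, hhH, hh⟩ := happrox j
  have hℓ0 : (ℓ : Qb) ≠ 0 := by exact_mod_cast hℓp.ne_zero
  have hℓj : (ℓ : Qb) ^ j ≠ 0 := pow_ne_zero _ hℓ0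
  let ε : Ω → Qb := fun x => (Ψ x - h x) / (ℓ : Qb) ^ j
  have hεA : ∀ x, ε x ∈ A := by
    intro x
    obtain ⟨t, ht, hx⟩ := hh x
    have : ε x = t := by
      simp only [ε]; rw [hx]; field_simp
    rw [this]; exact ht
  have hεI : ∀ s ∈ I, ∀ x, ε (act s x) = s (ε x) := by
    intro s hs x
    simp only [ε, map_div₀, map_sub, map_pow, map_natCast]
    rw [hΨI s hs x, hI h hhH s hs x]
  have h1 := hmul ε hεA hεI
  have hcI : ∀ s ∈ I, s ((ℓ : Qb) ^ j * N⁻¹) = (ℓ : Qb) ^ j * N⁻¹ := by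
    intro s hs
    rw [map_mul, map_pow, map_natCast, map_inv₀, hNI s hs]
  have h2 := hR0 _ hj hcI _ h1
  have h3 : Ψ = h + fun x => (ℓ : Qb) ^ j * N⁻¹ * (N * ε x) := by
    funext x
    simp only [Pi.add_apply, ε]
    field_simp
    ring
  rw [h3]
  exact add_mem hhH h2

/-- COEFFICIENT DESCENT.  An `A`-linear combination of `I`-equivariant functions which is itself
`I`-equivariant is a combination of the same functions with `I`-fixed coefficients in `A`.
(No finiteness, no discreteness: a minimal-relation argument in the valuation ring `A`.) -/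
theorem exists_fixed_coeff {Ω : Type*} {μ : Type*} (A : ValuationSubring Qb) (I : Subgroup GQ)
    (act : GQ → Ω → Ω) (hact : ∀ s ∈ I, Function.Surjective (act s))
    (h : μ → Ω → Qb) (hh : ∀ k, ∀ s ∈ I, ∀ x, h k (act s x) = s (h k x))
    (S : Finset μ) (a : μ → Qb) (ha : ∀ k ∈ S, a k ∈ A)
    (hΨ : ∀ s ∈ I, ∀ x, ∑ k ∈ S, a k * h k (act s x) = s (∑ k ∈ S, a k * h k x)) :
    ∃ r : μ → Qb, (∀ k ∈ S, r k ∈ A ∧ ∀ s ∈ I, s (r k) = r k) ∧
      ∀ x, ∑ k ∈ S, a k * h k x = ∑ k ∈ S, r k * h k x := by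
  classical
  induction' hn : S.card using Nat.strong_induction_on with n ih generalizing S a
  by_cases hfix : ∀ k ∈ S, ∀ s ∈ I, s (a k) = a k
  · exact ⟨a, fun k hk => ⟨ha k hk, hfix k hk⟩, fun _ => rfl⟩
  · push Not at hfix
    obtain ⟨k1, hk1, s, hs, hne⟩ := hfix
    -- the relation
    let d : μ → Qb := fun k => s (a k) - a k
    have hrel : ∀ y, ∑ k ∈ S, d k * h k y = 0 := by
      intro y
      obtain ⟨x, rfl⟩ := hact s hs y
      have h1 := hΨ s hs x
      rw [map_sum] at h1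
      simp only [d, sub_mul, Finset.sum_sub_distrib]
      rw [h1, sub_eq_zero]
      refine Finset.sum_congr rfl fun k _ => ?_
      rw [map_mul, hh k s hs x]
    -- choose the coefficient of maximal absolute value
    let T := S.filter fun k => d k ≠ 0
    have hT : T.Nonempty := ⟨k1, Finset.mem_filter.mpr ⟨hk1, sub_ne_zero.mpr hne⟩⟩
    obtain ⟨k0, hk0T, hmax⟩ := Finset.exists_max_image T (fun k => A.valuation (d k)) hT
    have hk0S : k0 ∈ S := (Finset.mem_filter.mp hk0T).1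
    have hd0 : d k0 ≠ 0 := (Finset.mem_filter.mp hk0T).2
    let e : μ → Qb := fun k => d k / d k0
    have heA : ∀ k ∈ S, e k ∈ A := by
      intro k hk
      by_cases hdk : d k = 0
      · simp only [e, hdk, zero_div]; exact A.zero_mem
      · have hkT : k ∈ T := Finset.mem_filter.mpr ⟨hk, hdk⟩
        rw [← A.valuation_le_one_iff]
        simp only [e, map_div₀]
        exact div_le_one_of_le₀ (hmax k hkT) zero_le
    -- eliminate `h k0`
    have hk0 : ∀ y, h k0 y = - ∑ k ∈ S.erase k0, e k * h k y := by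
      intro y
      have h1 := hrel y
      rw [← Finset.add_sum_erase S _ hk0S] at h1
      have h2 : h k0 y = - (∑ k ∈ S.erase k0, d k * h k y) / d k0 := by
        field_simp
        linear_combination h1
      rw [h2, neg_div, Finset.sum_div]
      congr 1
      refine Finset.sum_congr rfl fun k _ => ?_
      simp only [e]; ring
    let a' : μ → Qb := fun k => a k - a k0 * e k
    have hsum : ∀ y, ∑ k ∈ S, a k * h k y = ∑ k ∈ S.erase k0, a' k * h k y := by
      intro y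
      rw [← Finset.add_sum_erase S _ hk0S, hk0 y]
      simp only [a', sub_mul, Finset.sum_sub_distrib, mul_neg, Finset.mul_sum]
      rw [add_comm, sub_eq_add_neg]
      congr 2
      refine Finset.sum_congr rfl fun k _ => ?_
      ring
    have hcard : (S.erase k0).card < n := by
      rw [← hn]; exact Finset.card_erase_lt_of_mem hk0S
    obtain ⟨r', hr', hr'sum⟩ := ih _ hcard (S.erase k0) a'
      (fun k hk => sub_mem (ha k (Finset.mem_of_mem_erase hk))
        (A.mul_mem _ _ (ha k0 hk0S) (heA k (Finset.mem_of_mem_erase hk))))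
      (fun s' hs' x => by rw [← hsum, ← hsum]; exact hΨ s' hs' x) rfl
    refine ⟨fun k => if k = k0 then 0 else r' k, fun k hk => ?_, fun y => ?_⟩
    · by_cases hkk : k = k0
      · simp only [hkk, if_true]
        exact ⟨A.zero_mem, fun s _ => map_zero _⟩
      · simp only [hkk, if_false]
        exact hr' k (Finset.mem_erase.mpr ⟨hkk, hk⟩)
    · rw [hsum y, hr'sum y, ← Finset.add_sum_erase S _ hk0S]
      simp only [if_true, zero_mul, zero_add]
      refine Finset.sum_congr rfl fun k hk => ?_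
      rw [if_neg (Finset.ne_of_mem_erase hk)]

/-! ### Combinations with coefficients in `A` -/

/-- The subring of all `A`-linear combinations of elements of the subring `Λ` of functions. -/
def intSpan {Ω : Type*} (A : ValuationSubring Qb) (Λ : Subring (Ω → Qb)) : Subring (Ω → Qb) where
  carrier := {Ψ | ∃ (ι : Type) (_ : Fintype ι) (c : ι → Qb) (h : ι → Ω → Qb),
    (∀ k, c k ∈ A) ∧ (∀ k, h k ∈ Λ) ∧ ∀ x, Ψ x = ∑ k, c k * h k x}
  mul_mem' := by
    rintro Ψ₁ Ψ₂ ⟨ι₁, _, c₁, h₁, hc₁, hh₁, e₁⟩ ⟨ι₂, _, c₂, h₂, hc₂, hh₂, e₂⟩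
    refine ⟨ι₁ × ι₂, inferInstance, fun k => c₁ k.1 * c₂ k.2, fun k => h₁ k.1 * h₂ k.2,
      fun k => A.mul_mem _ _ (hc₁ _) (hc₂ _), fun k => mul_mem (hh₁ _) (hh₂ _), fun x => ?_⟩
    simp only [Pi.mul_apply, e₁ x, e₂ x, Fintype.sum_prod_type, Finset.sum_mul_sum]
    exact Finset.sum_congr rfl fun i _ => Finset.sum_congr rfl fun j _ => by ring
  one_mem' := ⟨Unit, inferInstance, fun _ => 1, fun _ => 1, fun _ => A.one_mem,
    fun _ => one_mem _, fun x => by simp⟩
  add_mem' := by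
    rintro Ψ₁ Ψ₂ ⟨ι₁, _, c₁, h₁, hc₁, hh₁, e₁⟩ ⟨ι₂, _, c₂, h₂, hc₂, hh₂, e₂⟩
    refine ⟨ι₁ ⊕ ι₂, inferInstance, Sum.elim c₁ c₂, Sum.elim h₁ h₂, ?_, ?_, fun x => ?_⟩
    · rintro (k | k)
      · exact hc₁ k
      · exact hc₂ k
    · rintro (k | k)
      · exact hh₁ k
      · exact hh₂ k
    · simp only [Pi.add_apply, e₁ x, e₂ x, Fintype.sum_sum_type, Sum.elim_inl, Sum.elim_inr]
  zero_mem' := ⟨Empty, inferInstance, fun k => k.elim, fun k => k.elim, fun k => k.elim,
    fun k => k.elim, fun x => by simp⟩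
  neg_mem' := by
    rintro Ψ ⟨ι, _, c, h, hc, hh, e⟩
    refine ⟨ι, inferInstance, fun k => -c k, h, fun k => A.neg_mem _ (hc k), hh, fun x => ?_⟩
    simp only [Pi.neg_apply, e x, neg_mul, Finset.sum_neg_distrib]

theorem le_intSpan {Ω : Type*} (A : ValuationSubring Qb) (Λ : Subring (Ω → Qb)) :
    Λ ≤ intSpan A Λ := fun h hh =>
  ⟨Unit, inferInstance, fun _ => 1, fun _ => h, fun _ => A.one_mem, fun _ => hh, fun x => by simp⟩

theorem const_mem_intSpan {Ω : Type*} (A : ValuationSubring Qb) (Λ : Subring (Ω → Qb)) {c : Qb}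
    (hc : c ∈ A) : (fun _ : Ω => c) ∈ intSpan A Λ :=
  ⟨Unit, inferInstance, fun _ => c, fun _ => 1, fun _ => hc, fun _ => one_mem _,
    fun x => by simp⟩

/-- DESCENT OF COEFFICIENTS, subring form: an `I`-equivariant `A`-linear combination of elements
of `H0` lies in `H0`. -/
theorem mem_of_mem_intSpan {Ω : Type*} (A : ValuationSubring Qb) (I : Subgroup GQ)
    (act : GQ → Ω → Ω) (hact : ∀ s ∈ I, Function.Surjective (act s))
    (H0 : Subring (Ω → Qb))
    (hI : ∀ φ ∈ H0, ∀ s ∈ I, ∀ x, φ (act s x) = s (φ x))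
    (hR0 : ∀ c ∈ A, (∀ s ∈ I, s c = c) → ∀ φ ∈ H0, (fun x => c * φ x) ∈ H0)
    {Ψ : Ω → Qb} (hΨ : Ψ ∈ intSpan A H0) (hΨI : ∀ s ∈ I, ∀ x, Ψ (act s x) = s (Ψ x)) :
    Ψ ∈ H0 := by
  obtain ⟨ι, _, c, h, hc, hh, e⟩ := hΨ
  obtain ⟨r, hr, hsum⟩ := exists_fixed_coeff A I act hact h (fun k => hI _ (hh k))
    Finset.univ c (fun k _ => hc k)
    (fun s hs x => by rw [← e, ← e]; exact hΨI s hs x)
  have : Ψ = ∑ k, fun x => r k * h k x := by
    funext x
    rw [e x, hsum x, Finset.sum_apply]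
  rw [this]
  exact sum_mem fun k _ => hR0 _ (hr k (Finset.mem_univ k)).1 (hr k (Finset.mem_univ k)).2 _ (hh k)

/-- ADIC CLOSURE WITH COEFFICIENTS IN `A` (ruling R4).  With `H0` as in `exists_multiplier`: an
`I`-equivariant function which, for every `j`, is congruent modulo `ℓ ^ j • A` to an `A`-linear
combination of elements of `H0` belongs to `H0`. -/
theorem adic_closure_int {Ω : Type*} [Finite Ω] (A : ValuationSubring Qb) {ℓ : ℕ} (hℓp : ℓ.Prime)
    (hℓ : A.LiesOverPrime ℓ) (I : Subgroup GQ)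
    (act : GQ → Ω → Ω) (hact : ∀ s ∈ I, Function.Bijective (act s))
    (H0 : Subring (Ω → Qb))
    (hval : ∀ φ ∈ H0, ∀ x, φ x ∈ A)
    (hI : ∀ φ ∈ H0, ∀ s ∈ I, ∀ x, φ (act s x) = s (φ x))
    (hR0 : ∀ c ∈ A, (∀ s ∈ I, s c = c) → ∀ φ ∈ H0, (fun x => c * φ x) ∈ H0)
    (hsep : ∀ x y, x ≠ y → ∃ φ ∈ H0, φ x ≠ φ y)
    (Ψ : Ω → Qb) (hΨI : ∀ s ∈ I, ∀ x, Ψ (act s x) = s (Ψ x))
    (happrox : ∀ j : ℕ, ∃ T ∈ intSpan A H0, ∀ x, ∃ t ∈ A, Ψ x - T x = (ℓ : Qb) ^ j * t) :
    Ψ ∈ H0 := by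
  obtain ⟨φ, hφH, N, hNA, hN0, hNI, hL⟩ := exists_lagrange A I act hact H0 hval hI hsep
  obtain ⟨j, hj⟩ := exists_pow_mul_inv_mem A hℓp hℓ hN0
  obtain ⟨T, hT, hTapprox⟩ := happrox j
  have hℓ0 : (ℓ : Qb) ≠ 0 := by exact_mod_cast hℓp.ne_zero
  have hℓj : (ℓ : Qb) ^ j ≠ 0 := pow_ne_zero _ hℓ0
  let ε : Ω → Qb := fun x => (Ψ x - T x) / (ℓ : Qb) ^ j
  have hεA : ∀ x, ε x ∈ A := by
    intro x
    obtain ⟨t, ht, hx⟩ := hTapprox x
    have : ε x = t := by
      simp only [ε]; rw [hx]; field_simp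
    rw [this]; exact ht
  obtain ⟨L, hLA, hLeval, -⟩ := hL ε hεA
  have h1 : (fun x => N * ε x) ∈ intSpan A H0 := by
    have : (fun x => N * ε x) =
        ∑ k ∈ Finset.range (L.natDegree + 1), (fun _ : Ω => L.coeff k) * φ ^ k := by
      funext x0
      rw [← hLeval x0, eval_eq_sum_range, Finset.sum_apply]
      rfl
    rw [this]
    exact sum_mem fun k _ => mul_mem (const_mem_intSpan A H0 (hLA k))
      (le_intSpan A H0 (pow_mem hφH k))
  have h2 : Ψ = T + (fun _ : Ω => (ℓ : Qb) ^ j * N⁻¹) * fun x => N * ε x := by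
    funext x
    simp only [Pi.add_apply, Pi.mul_apply, ε]
    field_simp
    ring
  refine mem_of_mem_intSpan A I act (fun s hs => (hact s hs).2) H0 hI hR0 ?_ hΨI
  rw [h2]
  exact add_mem hT (mul_mem (const_mem_intSpan A H0 hj) h1)

/-! ### Tensors: finite sums `∑ a_k(m) b_k(m')` -/

/-- `Φ` is a finite sum of products `a(m) * b(m')` with `a, b ∈ H0`. -/
def IsTensor {M : Type*} (H0 : Subring (M → Qb)) (Φ : M × M → Qb) : Prop :=
  ∃ (ι : Type) (_ : Fintype ι) (a b : ι → M → Qb), (∀ k, a k ∈ H0) ∧ (∀ k, b k ∈ H0) ∧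
    ∀ p : M × M, Φ p = ∑ k, a k p.1 * b k p.2

theorem IsTensor.exists_fin {M : Type*} {H0 : Subring (M → Qb)} {Φ : M × M → Qb}
    (h : IsTensor H0 Φ) :
    ∃ (n : ℕ) (a b : Fin n → M → Qb), (∀ k, a k ∈ H0) ∧ (∀ k, b k ∈ H0) ∧
      ∀ m m', Φ (m, m') = ∑ k, a k m * b k m' := by
  obtain ⟨ι, hι, a, b, ha, hb, hab⟩ := h
  let e : ι ≃ Fin (Fintype.card ι) := Fintype.equivFin ι
  refine ⟨Fintype.card ι, fun k => a (e.symm k), fun k => b (e.symm k),
    fun k => ha _, fun k => hb _, fun m m' => ?_⟩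
  rw [hab (m, m')]
  exact Fintype.sum_equiv e _ _ fun k => by simp

theorem isTensor_of_fin {M : Type*} {H0 : Subring (M → Qb)} {Φ : M × M → Qb}
    {n : ℕ} (a b : Fin n → M → Qb) (ha : ∀ k, a k ∈ H0) (hb : ∀ k, b k ∈ H0)
    (hab : ∀ m m', Φ (m, m') = ∑ k, a k m * b k m') : IsTensor H0 Φ :=
  ⟨Fin n, inferInstance, a, b, ha, hb, fun p => hab p.1 p.2⟩

/-- The subring of `M × M → Qbar` of all tensors over `H0`. -/
def tensorSubring {M : Type*} (H0 : Subring (M → Qb)) : Subring (M × M → Qb) where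
  carrier := {Φ | IsTensor H0 Φ}
  mul_mem' := by
    rintro Φ₁ Φ₂ ⟨ι₁, _, a₁, b₁, ha₁, hb₁, h₁⟩ ⟨ι₂, _, a₂, b₂, ha₂, hb₂, h₂⟩
    refine ⟨ι₁ × ι₂, inferInstance, fun k => a₁ k.1 * a₂ k.2, fun k => b₁ k.1 * b₂ k.2,
      fun k => mul_mem (ha₁ _) (ha₂ _), fun k => mul_mem (hb₁ _) (hb₂ _), fun p => ?_⟩
    simp only [Pi.mul_apply, h₁ p, h₂ p, Fintype.sum_prod_type, Finset.sum_mul_sum]
    exact Finset.sum_congr rfl fun i _ => Finset.sum_congr rfl fun j _ => by ring
  one_mem' := ⟨Unit, inferInstance, fun _ => 1, fun _ => 1, fun _ => one_mem _,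
    fun _ => one_mem _, fun p => by simp⟩
  add_mem' := by
    rintro Φ₁ Φ₂ ⟨ι₁, _, a₁, b₁, ha₁, hb₁, h₁⟩ ⟨ι₂, _, a₂, b₂, ha₂, hb₂, h₂⟩
    refine ⟨ι₁ ⊕ ι₂, inferInstance, Sum.elim a₁ a₂, Sum.elim b₁ b₂, ?_, ?_, fun p => ?_⟩
    · rintro (k | k)
      · exact ha₁ k
      · exact ha₂ k
    · rintro (k | k)
      · exact hb₁ k
      · exact hb₂ k
    · simp only [Pi.add_apply, h₁ p, h₂ p, Fintype.sum_sum_type, Sum.elim_inl, Sum.elim_inr]
  zero_mem' := ⟨Empty, inferInstance, fun k => k.elim, fun k => k.elim, fun k => k.elim,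
    fun k => k.elim, fun p => by simp⟩
  neg_mem' := by
    rintro Φ ⟨ι, _, a, b, ha, hb, h⟩
    refine ⟨ι, inferInstance, fun k => -a k, b, fun k => neg_mem (ha k), hb, fun p => ?_⟩
    simp only [Pi.neg_apply, h p, neg_mul, Finset.sum_neg_distrib]

theorem mem_tensorSubring {M : Type*} {H0 : Subring (M → Qb)} {Φ : M × M → Qb} :
    Φ ∈ tensorSubring H0 ↔ IsTensor H0 Φ := Iff.rfl

theorem fst_mem_tensorSubring {M : Type*} {H0 : Subring (M → Qb)} {a : M → Qb} (ha : a ∈ H0) :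
    (fun p : M × M => a p.1) ∈ tensorSubring H0 :=
  ⟨Unit, inferInstance, fun _ => a, fun _ => 1, fun _ => ha, fun _ => one_mem _, fun p => by simp⟩

theorem snd_mem_tensorSubring {M : Type*} {H0 : Subring (M → Qb)} {b : M → Qb} (hb : b ∈ H0) :
    (fun p : M × M => b p.2) ∈ tensorSubring H0 :=
  ⟨Unit, inferInstance, fun _ => 1, fun _ => b, fun _ => one_mem _, fun _ => hb, fun p => by simp⟩

/-- ADIC CLOSURE ON `M × M`: an `I`-equivariant function `Φ(m, m')` which is congruent modulo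
`ℓ ^ j • A` to a tensor over `H0` for every `j` IS a tensor over `H0`. -/
theorem adic_closure_tensor {M : Type*} [Finite M] (A : ValuationSubring Qb) {ℓ : ℕ}
    (hℓp : ℓ.Prime) (hℓ : A.LiesOverPrime ℓ) (I : Subgroup GQ)
    (act : GQ → M → M) (hact : ∀ s ∈ I, Function.Bijective (act s))
    (H0 : Subring (M → Qb))
    (hval : ∀ φ ∈ H0, ∀ x, φ x ∈ A)
    (hI : ∀ φ ∈ H0, ∀ s ∈ I, ∀ x, φ (act s x) = s (φ x))
    (hR0 : ∀ c ∈ A, (∀ s ∈ I, s c = c) → ∀ φ ∈ H0, (fun x => c * φ x) ∈ H0)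
    (hsep : ∀ x y, x ≠ y → ∃ φ ∈ H0, φ x ≠ φ y)
    (Φ : M → M → Qb) (hΦI : ∀ s ∈ I, ∀ m m', Φ (act s m) (act s m') = s (Φ m m'))
    (happrox : ∀ j : ℕ, ∃ (n : ℕ) (a b : Fin n → M → Qb), (∀ k, a k ∈ H0) ∧ (∀ k, b k ∈ H0) ∧
      ∀ m m', ∃ t ∈ A, Φ m m' - ∑ k, a k m * b k m' = (ℓ : Qb) ^ j * t) :
    ∃ (n : ℕ) (a b : Fin n → M → Qb), (∀ k, a k ∈ H0) ∧ (∀ k, b k ∈ H0) ∧
      ∀ m m', Φ m m' = ∑ k, a k m * b k m' := by
  have key : (fun p : M × M => Φ p.1 p.2) ∈ tensorSubring H0 := by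
    refine adic_closure (Ω := M × M) A hℓp hℓ I (fun s p => (act s p.1, act s p.2)) ?_
      (tensorSubring H0) ?_ ?_ ?_ ?_ _ ?_ ?_
    · intro s hs
      exact Function.Bijective.prodMap (hact s hs) (hact s hs)
    · rintro Ψ ⟨ι, _, a, b, ha, hb, h⟩ p
      rw [h p]
      exact sum_mem fun k _ => A.mul_mem _ _ (hval _ (ha k) _) (hval _ (hb k) _)
    · rintro Ψ ⟨ι, _, a, b, ha, hb, h⟩ s hs p
      rw [h p, h (act s p.1, act s p.2), map_sum]
      refine Finset.sum_congr rfl fun k _ => ?_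
      rw [map_mul, hI _ (ha k) s hs, hI _ (hb k) s hs]
    · rintro c hc hcI Ψ ⟨ι, _, a, b, ha, hb, h⟩
      refine ⟨ι, inferInstance, fun k x => c * a k x, b, fun k => hR0 c hc hcI _ (ha k), hb,
        fun p => ?_⟩
      simp only [h p, Finset.mul_sum, mul_assoc]
    · rintro ⟨m₁, m₁'⟩ ⟨m₂, m₂'⟩ hne
      by_cases h1 : m₁ = m₂
      · have h2 : m₁' ≠ m₂' := fun h => hne (by rw [h1, h])
        obtain ⟨φ, hφ, hφne⟩ := hsep _ _ h2
        exact ⟨_, snd_mem_tensorSubring hφ, hφne⟩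
      · obtain ⟨φ, hφ, hφne⟩ := hsep _ _ h1
        exact ⟨_, fst_mem_tensorSubring hφ, hφne⟩
    · intro s hs p
      exact hΦI s hs p.1 p.2
    · intro j
      obtain ⟨n, a, b, ha, hb, hab⟩ := happrox j
      exact ⟨fun p => ∑ k, a k p.1 * b k p.2,
        isTensor_of_fin a b ha hb (fun _ _ => rfl), fun p => hab p.1 p.2⟩
  exact (mem_tensorSubring.mp key).exists_fin

/-- ADIC CLOSURE ON `M × M` WITH COEFFICIENTS IN `A` (ruling R4): an `I`-equivariant function
`Φ(m, m')` which, for every `j`, is congruent modulo `ℓ ^ j • A` to an `A`-linear combination of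
tensors over `H0` IS a tensor over `H0`. -/
theorem adic_closure_tensor_int {M : Type*} [Finite M] (A : ValuationSubring Qb) {ℓ : ℕ}
    (hℓp : ℓ.Prime) (hℓ : A.LiesOverPrime ℓ) (I : Subgroup GQ)
    (act : GQ → M → M) (hact : ∀ s ∈ I, Function.Bijective (act s))
    (H0 : Subring (M → Qb))
    (hval : ∀ φ ∈ H0, ∀ x, φ x ∈ A)
    (hI : ∀ φ ∈ H0, ∀ s ∈ I, ∀ x, φ (act s x) = s (φ x))
    (hR0 : ∀ c ∈ A, (∀ s ∈ I, s c = c) → ∀ φ ∈ H0, (fun x => c * φ x) ∈ H0)
    (hsep : ∀ x y, x ≠ y → ∃ φ ∈ H0, φ x ≠ φ y)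
    (Φ : M → M → Qb) (hΦI : ∀ s ∈ I, ∀ m m', Φ (act s m) (act s m') = s (Φ m m'))
    (happrox : ∀ j : ℕ, ∃ T ∈ intSpan A (tensorSubring H0),
      ∀ m m', ∃ t ∈ A, Φ m m' - T (m, m') = (ℓ : Qb) ^ j * t) :
    (fun p : M × M => Φ p.1 p.2) ∈ tensorSubring H0 := by
  refine adic_closure_int (Ω := M × M) A hℓp hℓ I (fun s p => (act s p.1, act s p.2)) ?_
    (tensorSubring H0) ?_ ?_ ?_ ?_ _ ?_ ?_
  · intro s hs
    exact Function.Bijective.prodMap (hact s hs) (hact s hs)
  · rintro Ψ ⟨ι, _, a, b, ha, hb, h⟩ p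
    rw [h p]
    exact sum_mem fun k _ => A.mul_mem _ _ (hval _ (ha k) _) (hval _ (hb k) _)
  · rintro Ψ ⟨ι, _, a, b, ha, hb, h⟩ s hs p
    rw [h p, h (act s p.1, act s p.2), map_sum]
    refine Finset.sum_congr rfl fun k _ => ?_
    rw [map_mul, hI _ (ha k) s hs, hI _ (hb k) s hs]
  · rintro c hc hcI Ψ ⟨ι, _, a, b, ha, hb, h⟩
    refine ⟨ι, inferInstance, fun k x => c * a k x, b, fun k => hR0 c hc hcI _ (ha k), hb,
      fun p => ?_⟩
    simp only [h p, Finset.mul_sum, mul_assoc]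
  · rintro ⟨m₁, m₁'⟩ ⟨m₂, m₂'⟩ hne
    by_cases h1 : m₁ = m₂
    · have h2 : m₁' ≠ m₂' := fun h => hne (by rw [h1, h])
      obtain ⟨φ, hφ, hφne⟩ := hsep _ _ h2
      exact ⟨_, snd_mem_tensorSubring hφ, hφne⟩
    · obtain ⟨φ, hφ, hφne⟩ := hsep _ _ h1
      exact ⟨_, fst_mem_tensorSubring hφ, hφne⟩
  · intro s hs p
    exact hΦI s hs p.1 p.2
  · intro j
    obtain ⟨T, hT, hTapprox⟩ := happrox j
    exact ⟨T, hT, fun p => hTapprox p.1 p.2⟩

/-! ### The order generated by constants, class indicators and coordinates -/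

section Order

variable {M : Type*} {C : Type*}

/-- The generators of the order: `I`-fixed constants of `A`, indicators of the classes
`cls ⁻¹' {c}`, and the coordinate functions `Ξ i`. -/
noncomputable def orderGens (A : ValuationSubring Qb) (I : Subgroup GQ) (cls : M → C) {g : ℕ}
    (Ξ : Fin g → M → Qb) : Set (M → Qb) :=
  {φ | (∃ c ∈ A, (∀ s ∈ I, s c = c) ∧ φ = fun _ => c) ∨
    (∃ c : C, φ = Set.indicator (cls ⁻¹' {c}) 1) ∨ ∃ i, φ = Ξ i}

/-- The order `R0[1_c, Ξ_i]` inside `M → Qbar` (`R0 = A^I`). -/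
noncomputable def order (A : ValuationSubring Qb) (I : Subgroup GQ) (cls : M → C) {g : ℕ}
    (Ξ : Fin g → M → Qb) : Subring (M → Qb) :=
  Subring.closure (orderGens A I cls Ξ)

variable (A : ValuationSubring Qb) (I : Subgroup GQ) (cls : M → C) {g : ℕ} (Ξ : Fin g → M → Qb)

theorem const_mem_order {c : Qb} (hc : c ∈ A) (hcI : ∀ s ∈ I, s c = c) :
    (fun _ : M => c) ∈ order A I cls Ξ :=
  Subring.subset_closure (Or.inl ⟨c, hc, hcI, rfl⟩)

theorem indicator_mem_order (c : C) :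
    (Set.indicator (cls ⁻¹' {c}) 1 : M → Qb) ∈ order A I cls Ξ :=
  Subring.subset_closure (Or.inr (Or.inl ⟨c, rfl⟩))

theorem coord_mem_order (i : Fin g) : Ξ i ∈ order A I cls Ξ :=
  Subring.subset_closure (Or.inr (Or.inr ⟨i, rfl⟩))

/-- (hval) the order consists of `A`-valued functions. -/
theorem order_val (hΞA : ∀ i m, Ξ i m ∈ A) :
    ∀ φ ∈ order A I cls Ξ, ∀ m, φ m ∈ A := by
  intro φ hφ
  induction hφ using Subring.closure_induction with
  | mem φ hφ =>
    rcases hφ with ⟨c, hc, -, rfl⟩ | ⟨c, rfl⟩ | ⟨i, rfl⟩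
    · exact fun _ => hc
    · intro m
      by_cases h : m ∈ cls ⁻¹' {c}
      · rw [Set.indicator_of_mem h]; exact A.one_mem
      · rw [Set.indicator_of_notMem h]; exact A.zero_mem
    · exact hΞA i
  | zero => exact fun _ => A.zero_mem
  | one => exact fun _ => A.one_mem
  | add φ ψ _ _ h1 h2 => exact fun m => A.add_mem _ _ (h1 m) (h2 m)
  | neg φ _ h1 => exact fun m => A.neg_mem _ (h1 m)
  | mul φ ψ _ _ h1 h2 => exact fun m => A.mul_mem _ _ (h1 m) (h2 m)

/-- (hI) the order consists of `I`-equivariant functions. -/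
theorem order_equivariant (act : GQ → M → M) (hcls : ∀ s ∈ I, ∀ m, cls (act s m) = cls m)
    (hΞI : ∀ s ∈ I, ∀ i m, Ξ i (act s m) = s (Ξ i m)) :
    ∀ φ ∈ order A I cls Ξ, ∀ s ∈ I, ∀ m, φ (act s m) = s (φ m) := by
  intro φ hφ
  induction hφ using Subring.closure_induction with
  | mem φ hφ =>
    rcases hφ with ⟨c, hc, hcI, rfl⟩ | ⟨c, rfl⟩ | ⟨i, rfl⟩
    · exact fun s hs _ => (hcI s hs).symm
    · intro s hs m
      by_cases h : m ∈ cls ⁻¹' {c}
      · have h' : act s m ∈ cls ⁻¹' {c} := by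
          simp only [Set.mem_preimage, Set.mem_singleton_iff] at h ⊢
          rw [hcls s hs m]; exact h
        rw [Set.indicator_of_mem h, Set.indicator_of_mem h']
        simp
      · have h' : act s m ∉ cls ⁻¹' {c} := by
          simp only [Set.mem_preimage, Set.mem_singleton_iff] at h ⊢
          rw [hcls s hs m]; exact h
        rw [Set.indicator_of_notMem h, Set.indicator_of_notMem h']
        simp
    · exact fun s hs m => hΞI s hs i m
  | zero => intro s hs m; simp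
  | one => intro s hs m; simp
  | add φ ψ _ _ h1 h2 => intro s hs m; simp [h1 s hs m, h2 s hs m]
  | neg φ _ h1 => intro s hs m; simp [h1 s hs m]
  | mul φ ψ _ _ h1 h2 => intro s hs m; simp [h1 s hs m, h2 s hs m]

/-- (hR0) the order is stable under multiplication by `I`-fixed constants of `A`. -/
theorem order_smul {c : Qb} (hc : c ∈ A) (hcI : ∀ s ∈ I, s c = c) :
    ∀ φ ∈ order A I cls Ξ, (fun x => c * φ x) ∈ order A I cls Ξ :=
  fun _ hφ => mul_mem (const_mem_order A I cls Ξ hc hcI) hφ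

/-- (hsep) the order separates the points of `M` as soon as the coordinates separate the points
of every class. -/
theorem order_sep (hΞsep : ∀ m m', cls m = cls m' → (∀ i, Ξ i m = Ξ i m') → m = m') :
    ∀ m m', m ≠ m' → ∃ φ ∈ order A I cls Ξ, φ m ≠ φ m' := by
  intro m m' hne
  by_cases hc : cls m = cls m'
  · have : ¬ ∀ i, Ξ i m = Ξ i m' := fun h => hne (hΞsep m m' hc h)
    push Not at this
    obtain ⟨i, hi⟩ := this
    exact ⟨Ξ i, coord_mem_order A I cls Ξ i, hi⟩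
  · refine ⟨_, indicator_mem_order A I cls Ξ (cls m), ?_⟩
    have h1 : m ∈ cls ⁻¹' {cls m} := rfl
    have h2 : m' ∉ cls ⁻¹' {cls m} := fun h => hc (Eq.symm h)
    rw [Set.indicator_of_mem h1, Set.indicator_of_notMem h2]
    simp

end Order

/-! ### Closure of the order under the addition law -/

/-- Pull-back of functions along the addition `M × M → M`. -/
noncomputable def addPull (M : Type*) [Add M] : (M → Qb) →+* (M × M → Qb) :=
  RingHom.pi fun p : M × M => Pi.evalRingHom (fun _ : M => Qb) (p.1 + p.2)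

theorem addPull_apply {M : Type*} [Add M] (φ : M → Qb) (p : M × M) :
    addPull M φ p = φ (p.1 + p.2) := rfl

section OrderAdd

variable {M : Type*} [AddCommGroup M] {C : Type*} [AddCommGroup C]
variable (A : ValuationSubring Qb) (I : Subgroup GQ) (cls : M →+ C) {g : ℕ}
  (Ξ : Fin g → M → Qb)

/-- The indicator of a class satisfies the addition law:
`1_c(m + m') = ∑_{c₁} 1_{c₁}(m) * 1_{c - c₁}(m')`. -/
theorem addPull_indicator_mem [Finite M] (c : C) :
    addPull M (Set.indicator (cls ⁻¹' {c}) 1) ∈ tensorSubring (order A I cls Ξ) := by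
  classical
  have := Fintype.ofFinite M
  have h1 : addPull M (Set.indicator (cls ⁻¹' {c}) 1) =
      ∑ c1 ∈ Finset.univ.image cls,
        (fun p : M × M => Set.indicator (cls ⁻¹' {c1}) (1 : M → Qb) p.1) *
        (fun p : M × M => Set.indicator (cls ⁻¹' {c - c1}) (1 : M → Qb) p.2) := by
    funext p
    rw [Finset.sum_apply, Finset.sum_eq_single (cls p.1)]
    · simp only [addPull_apply, Pi.mul_apply, Set.indicator_apply, Set.mem_preimage,
        Set.mem_singleton_iff, Pi.one_apply, map_add, if_true, one_mul, eq_sub_iff_add_eq']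
    · intro c1 _ hc1
      simp only [Pi.mul_apply, Set.indicator_apply, Set.mem_preimage, Set.mem_singleton_iff,
        Pi.one_apply, if_neg (Ne.symm hc1), zero_mul]
    · intro h
      exact absurd (Finset.mem_image_of_mem cls (Finset.mem_univ p.1)) h
  rw [h1]
  exact sum_mem fun c1 _ => mul_mem
    (fst_mem_tensorSubring (indicator_mem_order A I cls Ξ c1))
    (snd_mem_tensorSubring (indicator_mem_order A I cls Ξ (c - c1)))

/-- A function on `M × M` which, on every product of classes, agrees with an element of a subring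
`Λ₂ ⊇ tensorSubring (order ..)` belongs to `Λ₂`. -/
theorem classwise_mem [Finite M] (Λ₂ : Subring (M × M → Qb))
    (hΛ₂ : tensorSubring (order A I cls Ξ) ≤ Λ₂) (Φ : C → C → M × M → Qb)
    (hΦ : ∀ c c', Φ c c' ∈ Λ₂) :
    (fun p : M × M => Φ (cls p.1) (cls p.2) p) ∈ Λ₂ := by
  classical
  have := Fintype.ofFinite M
  have h1 : (fun p : M × M => Φ (cls p.1) (cls p.2) p) =
      ∑ c ∈ Finset.univ.image cls, ∑ c' ∈ Finset.univ.image cls,
        (fun p : M × M => Set.indicator (cls ⁻¹' {c}) (1 : M → Qb) p.1) *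
        (fun p : M × M => Set.indicator (cls ⁻¹' {c'}) (1 : M → Qb) p.2) * Φ c c' := by
    funext p
    rw [Finset.sum_apply, Finset.sum_eq_single (cls p.1)]
    · rw [Finset.sum_apply, Finset.sum_eq_single (cls p.2)]
      · simp only [Pi.mul_apply, Set.indicator_apply, Set.mem_preimage,
          Set.mem_singleton_iff, Pi.one_apply, if_true, one_mul]
      · intro c' _ hc'
        simp only [Pi.mul_apply, Set.indicator_apply, Set.mem_preimage, Set.mem_singleton_iff,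
          Pi.one_apply, if_neg (Ne.symm hc'), mul_zero, zero_mul]
      · intro h
        exact absurd (Finset.mem_image_of_mem cls (Finset.mem_univ p.2)) h
    · intro c _ hc
      rw [Finset.sum_apply]
      refine Finset.sum_eq_zero fun c' _ => ?_
      simp only [Pi.mul_apply, Set.indicator_apply, Set.mem_preimage, Set.mem_singleton_iff,
        Pi.one_apply, if_neg (Ne.symm hc), zero_mul]
    · intro h
      exact absurd (Finset.mem_image_of_mem cls (Finset.mem_univ p.1)) h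
  rw [h1]
  exact sum_mem fun c _ => sum_mem fun c' _ => mul_mem (hΛ₂ (mul_mem
    (fst_mem_tensorSubring (indicator_mem_order A I cls Ξ c))
    (snd_mem_tensorSubring (indicator_mem_order A I cls Ξ c')))) (hΦ c c')

/-- A function on `M × M` which is a tensor on every product of classes is a tensor. -/
theorem classwise_mem_tensor [Finite M] (Φ : C → C → M × M → Qb)
    (hΦ : ∀ c c', Φ c c' ∈ tensorSubring (order A I cls Ξ)) :
    (fun p : M × M => Φ (cls p.1) (cls p.2) p) ∈ tensorSubring (order A I cls Ξ) :=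
  classwise_mem A I cls Ξ _ le_rfl Φ hΦ

/-- A polynomial with coefficients in `A`, evaluated at the coordinates of `m` and of `m'`, is an
`A`-linear combination of tensors over the order. -/
theorem eval_mem_intSpan (P : MvPolynomial (Fin g ⊕ Fin g) Qb) (hP : ∀ d, P.coeff d ∈ A) :
    (fun p : M × M => MvPolynomial.eval (Sum.elim (fun k => Ξ k p.1) (fun k => Ξ k p.2)) P)
      ∈ intSpan A (tensorSubring (order A I cls Ξ)) := by
  classical
  let coordfun : Fin g ⊕ Fin g → M × M → Qb :=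
    Sum.elim (fun k p => Ξ k p.1) (fun k p => Ξ k p.2)
  have hcoord : ∀ i, coordfun i ∈ tensorSubring (order A I cls Ξ) := by
    rintro (k | k)
    · exact fst_mem_tensorSubring (coord_mem_order A I cls Ξ k)
    · exact snd_mem_tensorSubring (coord_mem_order A I cls Ξ k)
  have h1 : (fun p : M × M =>
      MvPolynomial.eval (Sum.elim (fun k => Ξ k p.1) (fun k => Ξ k p.2)) P) =
      ∑ d ∈ P.support, (fun _ : M × M => P.coeff d) * ∏ i, coordfun i ^ (d i) := by
    funext p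
    rw [MvPolynomial.eval_eq', Finset.sum_apply]
    refine Finset.sum_congr rfl fun d _ => ?_
    simp only [Pi.mul_apply, Finset.prod_apply, Pi.pow_apply]
    congr 1
    refine Finset.prod_congr rfl fun i _ => ?_
    rcases i with k | k <;> rfl
  rw [h1]
  exact sum_mem fun d _ => mul_mem (const_mem_intSpan A _ (hP d))
    (le_intSpan A _ (prod_mem fun i _ => pow_mem (hcoord i) _))

/-- A polynomial with `I`-fixed coefficients in `A`, evaluated at the coordinates of `m` and of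
`m'`, is a tensor over the order. -/
theorem eval_mem_tensor (P : MvPolynomial (Fin g ⊕ Fin g) Qb)
    (hP : ∀ d, P.coeff d ∈ A ∧ ∀ s ∈ I, s (P.coeff d) = P.coeff d) :
    (fun p : M × M => MvPolynomial.eval (Sum.elim (fun k => Ξ k p.1) (fun k => Ξ k p.2)) P)
      ∈ tensorSubring (order A I cls Ξ) := by
  classical
  let coordfun : Fin g ⊕ Fin g → M × M → Qb :=
    Sum.elim (fun k p => Ξ k p.1) (fun k p => Ξ k p.2)
  have hcoord : ∀ i, coordfun i ∈ tensorSubring (order A I cls Ξ) := by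
    rintro (k | k)
    · exact fst_mem_tensorSubring (coord_mem_order A I cls Ξ k)
    · exact snd_mem_tensorSubring (coord_mem_order A I cls Ξ k)
  have h1 : (fun p : M × M =>
      MvPolynomial.eval (Sum.elim (fun k => Ξ k p.1) (fun k => Ξ k p.2)) P) =
      ∑ d ∈ P.support, (fun _ : M × M => P.coeff d) * ∏ i, coordfun i ^ (d i) := by
    funext p
    rw [MvPolynomial.eval_eq', Finset.sum_apply]
    refine Finset.sum_congr rfl fun d _ => ?_
    simp only [Pi.mul_apply, Finset.prod_apply, Pi.pow_apply]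
    congr 1
    refine Finset.prod_congr rfl fun i _ => ?_
    rcases i with k | k <;> rfl
  rw [h1]
  exact sum_mem fun d _ => mul_mem
    (fst_mem_tensorSubring (const_mem_order A I cls Ξ (hP d).1 (hP d).2))
    (prod_mem fun i _ => pow_mem (hcoord i) _)

/-- (hadd) If the coordinates satisfy the addition law over the order, so does every element of
the order. -/
theorem order_add [Finite M]
    (hcoord : ∀ i, addPull M (Ξ i) ∈ tensorSubring (order A I cls Ξ)) :
    ∀ φ ∈ order A I cls Ξ, ∃ (n : ℕ) (a b : Fin n → M → Qb),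
      (∀ k, a k ∈ order A I cls Ξ) ∧ (∀ k, b k ∈ order A I cls Ξ) ∧
      ∀ m m', φ (m + m') = ∑ k, a k m * b k m' := by
  have hle : order A I cls Ξ ≤ (tensorSubring (order A I cls Ξ)).comap (addPull M) := by
    rw [order, Subring.closure_le]
    rintro φ (⟨c, hc, hcI, rfl⟩ | ⟨c, rfl⟩ | ⟨i, rfl⟩)
    · exact fst_mem_tensorSubring (const_mem_order A I cls Ξ hc hcI)
    · exact addPull_indicator_mem A I cls Ξ c
    · exact hcoord i
  intro φ hφ
  exact (mem_tensorSubring.mp (hle hφ)).exists_fin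

end OrderAdd

/-! ### The main theorems: ORDER in exact-coordinate form and in approximate form -/

section Main

variable {M : Type*} [AddCommGroup M] [Finite M] {C : Type*} [AddCommGroup C]

/-- ORDER, general form: `(hval) (hI) (hR0) (hsep) (hadd)` for the order `R0[1_c, Ξ_i]`, as soon
as each coordinate satisfies the addition law over the order. -/
theorem order_spec (A : ValuationSubring Qb) (I : Subgroup GQ)
    (act : GQ → M → M) (cls : M →+ C)
    (hcls : ∀ s ∈ I, ∀ m, cls (act s m) = cls m)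
    {g : ℕ} (Ξ : Fin g → M → Qb)
    (hΞA : ∀ i m, Ξ i m ∈ A)
    (hΞI : ∀ s ∈ I, ∀ i m, Ξ i (act s m) = s (Ξ i m))
    (hΞsep : ∀ m m', cls m = cls m' → (∀ i, Ξ i m = Ξ i m') → m = m')
    (hcoord : ∀ i, addPull M (Ξ i) ∈ tensorSubring (order A I cls Ξ)) :
    (∀ φ ∈ order A I cls Ξ, ∀ m, φ m ∈ A) ∧
    (∀ φ ∈ order A I cls Ξ, ∀ s ∈ I, ∀ m, φ (act s m) = s (φ m)) ∧
    (∀ c ∈ A, (∀ s ∈ I, s c = c) → ∀ φ ∈ order A I cls Ξ,
      (fun m => c * φ m) ∈ order A I cls Ξ) ∧
    (∀ m m', m ≠ m' → ∃ φ ∈ order A I cls Ξ, φ m ≠ φ m') ∧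
    (∀ φ ∈ order A I cls Ξ, ∃ (n : ℕ) (a b : Fin n → M → Qb),
      (∀ k, a k ∈ order A I cls Ξ) ∧ (∀ k, b k ∈ order A I cls Ξ) ∧
      ∀ m m', φ (m + m') = ∑ k, a k m * b k m') :=
  ⟨order_val A I cls Ξ hΞA, order_equivariant A I cls Ξ act hcls hΞI,
    fun _ hc hcI => order_smul A I cls Ξ hc hcI, order_sep A I cls Ξ hΞsep,
    order_add A I cls Ξ hcoord⟩

/-- The addition law of the coordinates over the order, from an EXACT polynomial law on every
product of classes. -/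
theorem addPull_coord_mem_of_exactLaw (A : ValuationSubring Qb) (I : Subgroup GQ)
    (cls : M →+ C) {g : ℕ} (Ξ : Fin g → M → Qb)
    (hlaw : ∀ (c c' : C) (i : Fin g), ∃ P : MvPolynomial (Fin g ⊕ Fin g) Qb,
      (∀ d, P.coeff d ∈ A ∧ ∀ s ∈ I, s (P.coeff d) = P.coeff d) ∧
      ∀ m m', cls m = c → cls m' = c' →
        Ξ i (m + m') = MvPolynomial.eval (Sum.elim (fun k => Ξ k m) (fun k => Ξ k m')) P)
    (i : Fin g) : addPull M (Ξ i) ∈ tensorSubring (order A I cls Ξ) := by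
  choose P hP hPlaw using fun c c' => hlaw c c' i
  have h1 := classwise_mem_tensor A I cls Ξ
    (fun c c' p => MvPolynomial.eval (Sum.elim (fun k => Ξ k p.1) (fun k => Ξ k p.2)) (P c c'))
    (fun c c' => eval_mem_tensor A I cls Ξ (P c c') (hP c c'))
  have h2 : addPull M (Ξ i) = fun p : M × M =>
      MvPolynomial.eval (Sum.elim (fun k => Ξ k p.1) (fun k => Ξ k p.2))
        (P (cls p.1) (cls p.2)) := by
    funext p
    rw [addPull_apply]
    exact hPlaw _ _ p.1 p.2 rfl rfl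
  rw [h2]
  exact h1

/-- ORDER, EXACT-COORDINATE FORM.  `M` a finite abelian group with an action `act` of `G_ℚ`,
`cls : M →+ C` an `I`-invariant class map, `Ξ : Fin g → M → A` coordinates which are
`I`-equivariant and separate the points of every class, with an exact polynomial addition law
(coefficients in `A^I`) on every product of two classes.  Then `H0 = A^I[1_c, Ξ_i]` is a subring
of `M → Qbar` with `(hval) (hI) (hR0) (hsep) (hadd)`. -/
theorem exists_order_of_exactLaw (A : ValuationSubring Qb) (I : Subgroup GQ)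
    (act : GQ → M → M) (cls : M →+ C)
    (hcls : ∀ s ∈ I, ∀ m, cls (act s m) = cls m)
    {g : ℕ} (Ξ : Fin g → M → Qb)
    (hΞA : ∀ i m, Ξ i m ∈ A)
    (hΞI : ∀ s ∈ I, ∀ i m, Ξ i (act s m) = s (Ξ i m))
    (hΞsep : ∀ m m', cls m = cls m' → (∀ i, Ξ i m = Ξ i m') → m = m')
    (hlaw : ∀ (c c' : C) (i : Fin g), ∃ P : MvPolynomial (Fin g ⊕ Fin g) Qb,
      (∀ d, P.coeff d ∈ A ∧ ∀ s ∈ I, s (P.coeff d) = P.coeff d) ∧
      ∀ m m', cls m = c → cls m' = c' →
        Ξ i (m + m') = MvPolynomial.eval (Sum.elim (fun k => Ξ k m) (fun k => Ξ k m')) P) :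
    ∃ H0 : Subring (M → Qb),
      (∀ φ ∈ H0, ∀ m, φ m ∈ A) ∧
      (∀ φ ∈ H0, ∀ s ∈ I, ∀ m, φ (act s m) = s (φ m)) ∧
      (∀ c ∈ A, (∀ s ∈ I, s c = c) → ∀ φ ∈ H0, (fun m => c * φ m) ∈ H0) ∧
      (∀ m m', m ≠ m' → ∃ φ ∈ H0, φ m ≠ φ m') ∧
      (∀ φ ∈ H0, ∃ (n : ℕ) (a b : Fin n → M → Qb), (∀ k, a k ∈ H0) ∧ (∀ k, b k ∈ H0) ∧
        ∀ m m', φ (m + m') = ∑ k, a k m * b k m') :=
  ⟨order A I cls Ξ, order_spec A I act cls hcls Ξ hΞA hΞI hΞsep
    (addPull_coord_mem_of_exactLaw A I cls Ξ hlaw)⟩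

/-- The addition law of the coordinates over the order, from an APPROXIMATE law: for every `j`
the function `Ξ i (m + m')` is congruent modulo `ℓ ^ j • A` to a tensor over the order. -/
theorem addPull_coord_mem_of_approx (A : ValuationSubring Qb) {ℓ : ℕ} (hℓp : ℓ.Prime)
    (hℓ : A.LiesOverPrime ℓ) (I : Subgroup GQ)
    (act : GQ → M → M) (hact : ∀ s ∈ I, Function.Bijective (act s))
    (hactadd : ∀ s ∈ I, ∀ m m', act s (m + m') = act s m + act s m')
    (cls : M →+ C) (hcls : ∀ s ∈ I, ∀ m, cls (act s m) = cls m)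
    {g : ℕ} (Ξ : Fin g → M → Qb)
    (hΞA : ∀ i m, Ξ i m ∈ A)
    (hΞI : ∀ s ∈ I, ∀ i m, Ξ i (act s m) = s (Ξ i m))
    (hΞsep : ∀ m m', cls m = cls m' → (∀ i, Ξ i m = Ξ i m') → m = m')
    (i : Fin g)
    (happrox : ∀ j : ℕ, ∃ T ∈ tensorSubring (order A I cls Ξ),
      ∀ m m', ∃ t ∈ A, Ξ i (m + m') - T (m, m') = (ℓ : Qb) ^ j * t) :
    addPull M (Ξ i) ∈ tensorSubring (order A I cls Ξ) := by
  obtain ⟨n, a, b, ha, hb, hab⟩ := adic_closure_tensor A hℓp hℓ I act hact (order A I cls Ξ)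
    (order_val A I cls Ξ hΞA) (order_equivariant A I cls Ξ act hcls hΞI)
    (fun _ hc hcI => order_smul A I cls Ξ hc hcI) (order_sep A I cls Ξ hΞsep)
    (fun m m' => Ξ i (m + m'))
    (fun s hs m m' => by rw [← hactadd s hs, hΞI s hs])
    (fun j => by
      obtain ⟨T, hT, hTapprox⟩ := happrox j
      obtain ⟨n, a, b, ha, hb, hab⟩ := (mem_tensorSubring.mp hT).exists_fin
      exact ⟨n, a, b, ha, hb, fun m m' => by rw [← hab]; exact hTapprox m m'⟩)
  exact isTensor_of_fin a b ha hb hab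

/-- ORDER, APPROXIMATE FORM.  As `exists_order_of_exactLaw`, but the polynomial addition law is
only required modulo `ℓ ^ j • A`, for every `j` (the polynomial may depend on `j`); here the
action of `I` on `M` must be additive and `A` must lie over the prime `ℓ`. -/
theorem exists_order_of_approxLaw (A : ValuationSubring Qb) {ℓ : ℕ} (hℓp : ℓ.Prime)
    (hℓ : A.LiesOverPrime ℓ) (I : Subgroup GQ)
    (act : GQ → M → M) (hact : ∀ s ∈ I, Function.Bijective (act s))
    (hactadd : ∀ s ∈ I, ∀ m m', act s (m + m') = act s m + act s m')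
    (cls : M →+ C) (hcls : ∀ s ∈ I, ∀ m, cls (act s m) = cls m)
    {g : ℕ} (Ξ : Fin g → M → Qb)
    (hΞA : ∀ i m, Ξ i m ∈ A)
    (hΞI : ∀ s ∈ I, ∀ i m, Ξ i (act s m) = s (Ξ i m))
    (hΞsep : ∀ m m', cls m = cls m' → (∀ i, Ξ i m = Ξ i m') → m = m')
    (hlaw : ∀ (j : ℕ) (c c' : C) (i : Fin g), ∃ P : MvPolynomial (Fin g ⊕ Fin g) Qb,
      (∀ d, P.coeff d ∈ A ∧ ∀ s ∈ I, s (P.coeff d) = P.coeff d) ∧
      ∀ m m', cls m = c → cls m' = c' → ∃ t ∈ A,
        Ξ i (m + m') - MvPolynomial.eval (Sum.elim (fun k => Ξ k m) (fun k => Ξ k m')) P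
          = (ℓ : Qb) ^ j * t) :
    ∃ H0 : Subring (M → Qb),
      (∀ φ ∈ H0, ∀ m, φ m ∈ A) ∧
      (∀ φ ∈ H0, ∀ s ∈ I, ∀ m, φ (act s m) = s (φ m)) ∧
      (∀ c ∈ A, (∀ s ∈ I, s c = c) → ∀ φ ∈ H0, (fun m => c * φ m) ∈ H0) ∧
      (∀ m m', m ≠ m' → ∃ φ ∈ H0, φ m ≠ φ m') ∧
      (∀ φ ∈ H0, ∃ (n : ℕ) (a b : Fin n → M → Qb), (∀ k, a k ∈ H0) ∧ (∀ k, b k ∈ H0) ∧
        ∀ m m', φ (m + m') = ∑ k, a k m * b k m') := by
  refine ⟨order A I cls Ξ, order_spec A I act cls hcls Ξ hΞA hΞI hΞsep fun i => ?_⟩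
  refine addPull_coord_mem_of_approx A hℓp hℓ I act hact hactadd cls hcls Ξ hΞA hΞI hΞsep i
    fun j => ?_
  choose P hP hPlaw using fun c c' => hlaw j c c' i
  refine ⟨_, classwise_mem_tensor A I cls Ξ
    (fun c c' p => MvPolynomial.eval (Sum.elim (fun k => Ξ k p.1) (fun k => Ξ k p.2)) (P c c'))
    (fun c c' => eval_mem_tensor A I cls Ξ (P c c') (hP c c')), fun m m' => ?_⟩
  exact hPlaw _ _ m m' rfl rfl

/-- The addition law of the coordinates over the order, from an APPROXIMATE law WITH COEFFICIENTS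
IN `A`: for every `j` the function `Ξ i (m + m')` is congruent modulo `ℓ ^ j • A` to an `A`-linear
combination of tensors over the order. -/
theorem addPull_coord_mem_of_approx_int (A : ValuationSubring Qb) {ℓ : ℕ} (hℓp : ℓ.Prime)
    (hℓ : A.LiesOverPrime ℓ) (I : Subgroup GQ)
    (act : GQ → M → M) (hact : ∀ s ∈ I, Function.Bijective (act s))
    (hactadd : ∀ s ∈ I, ∀ m m', act s (m + m') = act s m + act s m')
    (cls : M →+ C) (hcls : ∀ s ∈ I, ∀ m, cls (act s m) = cls m)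
    {g : ℕ} (Ξ : Fin g → M → Qb)
    (hΞA : ∀ i m, Ξ i m ∈ A)
    (hΞI : ∀ s ∈ I, ∀ i m, Ξ i (act s m) = s (Ξ i m))
    (hΞsep : ∀ m m', cls m = cls m' → (∀ i, Ξ i m = Ξ i m') → m = m')
    (i : Fin g)
    (happrox : ∀ j : ℕ, ∃ T ∈ intSpan A (tensorSubring (order A I cls Ξ)),
      ∀ m m', ∃ t ∈ A, Ξ i (m + m') - T (m, m') = (ℓ : Qb) ^ j * t) :
    addPull M (Ξ i) ∈ tensorSubring (order A I cls Ξ) :=
  adic_closure_tensor_int A hℓp hℓ I act hact (order A I cls Ξ)
    (order_val A I cls Ξ hΞA) (order_equivariant A I cls Ξ act hcls hΞI)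
    (fun _ hc hcI => order_smul A I cls Ξ hc hcI) (order_sep A I cls Ξ hΞsep)
    (fun m m' => Ξ i (m + m'))
    (fun s hs m m' => by rw [← hactadd s hs, hΞI s hs]) happrox

/-- ORDER, APPROXIMATE FORM WITH COEFFICIENTS IN `A` (ruling R4 of the S19 spine).  As
`exists_order_of_approxLaw`, but the polynomials of the approximate addition law are only required
to have coefficients in `A` (NOT necessarily `I`-fixed): no rationality requirement on the law. -/
theorem exists_order_of_approxLaw_int (A : ValuationSubring Qb) {ℓ : ℕ} (hℓp : ℓ.Prime)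
    (hℓ : A.LiesOverPrime ℓ) (I : Subgroup GQ)
    (act : GQ → M → M) (hact : ∀ s ∈ I, Function.Bijective (act s))
    (hactadd : ∀ s ∈ I, ∀ m m', act s (m + m') = act s m + act s m')
    (cls : M →+ C) (hcls : ∀ s ∈ I, ∀ m, cls (act s m) = cls m)
    {g : ℕ} (Ξ : Fin g → M → Qb)
    (hΞA : ∀ i m, Ξ i m ∈ A)
    (hΞI : ∀ s ∈ I, ∀ i m, Ξ i (act s m) = s (Ξ i m))
    (hΞsep : ∀ m m', cls m = cls m' → (∀ i, Ξ i m = Ξ i m') → m = m')
    (hlaw : ∀ (j : ℕ) (c c' : C) (i : Fin g), ∃ P : MvPolynomial (Fin g ⊕ Fin g) Qb,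
      (∀ d, P.coeff d ∈ A) ∧
      ∀ m m', cls m = c → cls m' = c' → ∃ t ∈ A,
        Ξ i (m + m') - MvPolynomial.eval (Sum.elim (fun k => Ξ k m) (fun k => Ξ k m')) P
          = (ℓ : Qb) ^ j * t) :
    ∃ H0 : Subring (M → Qb),
      (∀ φ ∈ H0, ∀ m, φ m ∈ A) ∧
      (∀ φ ∈ H0, ∀ s ∈ I, ∀ m, φ (act s m) = s (φ m)) ∧
      (∀ c ∈ A, (∀ s ∈ I, s c = c) → ∀ φ ∈ H0, (fun m => c * φ m) ∈ H0) ∧
      (∀ m m', m ≠ m' → ∃ φ ∈ H0, φ m ≠ φ m') ∧
      (∀ φ ∈ H0, ∃ (n : ℕ) (a b : Fin n → M → Qb), (∀ k, a k ∈ H0) ∧ (∀ k, b k ∈ H0) ∧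
        ∀ m m', φ (m + m') = ∑ k, a k m * b k m') := by
  refine ⟨order A I cls Ξ, order_spec A I act cls hcls Ξ hΞA hΞI hΞsep fun i => ?_⟩
  refine addPull_coord_mem_of_approx_int A hℓp hℓ I act hact hactadd cls hcls Ξ hΞA hΞI hΞsep i
    fun j => ?_
  choose P hP hPlaw using fun c c' => hlaw j c c' i
  refine ⟨_, classwise_mem A I cls Ξ (intSpan A (tensorSubring (order A I cls Ξ)))
    (le_intSpan A _)
    (fun c c' p => MvPolynomial.eval (Sum.elim (fun k => Ξ k p.1) (fun k => Ξ k p.2)) (P c c'))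
    (fun c c' => eval_mem_intSpan A I cls Ξ (P c c') (hP c c')), fun m m' => ?_⟩
  exact hPlaw _ _ m m' rfl rfl

end Main

end Fermat.Agent.S19.helper1243
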