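import Mathlib

set_option autoImplicit false

/-!
# Finite duality for a nondegenerate bimultiplicative pairing (helper2790, Mathlib only)

`G` a finite abelian group (additive), `K` a field with enough roots of unity, and
`e : G → G → K` a pairing with nonzero values, multiplicative in each variable, nondegenerate in
the second variable (`y ≠ 0 → ∃ x, e x y ≠ 1`).  Then

* `Pairing.exists_unique_of_char`   : every character of `G` is `e · y` for a unique `y`;
* `Pairing.nondeg_left`             : `e` is nondegenerate in the first variable as well;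
* `Pairing.card_mul_card_orth`      : `|W| * |W^⊥| = |G|` for every subgroup `W`;
* `Pairing.card_sq_le_of_isotropic` : an isotropic subgroup has `|W| ^ 2 ≤ |G|`;
* `Pairing.orth_orth`               : `W^⊥⊥ = W` (for the two orthogonals).

The intended instance is the Weil pairing on `J[n]` (`helper2790_WeilJ`).
-/

namespace Fermat.Agent.S19.helper2790.Pairing

open Function

variable {G : Type*} [AddCommGroup G] {K : Type*} [Field K]

/-- Standing hypotheses on the pairing. -/
structure IsBimul (e : G → G → K) : Prop where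
  ne_zero : ∀ x y, e x y ≠ 0
  add_right : ∀ x y y', e x (y + y') = e x y * e x y'
  add_left : ∀ x x' y, e (x + x') y = e x y * e x' y

namespace IsBimul

variable {e : G → G → K} (he : IsBimul e)

include he

theorem zero_right (x : G) : e x 0 = 1 := by
  have h := he.add_right x 0 0
  rw [add_zero] at h
  exact (mul_eq_left₀ (he.ne_zero x 0)).mp h.symm

theorem zero_left (y : G) : e 0 y = 1 := by
  have h := he.add_left 0 0 y
  rw [add_zero] at h
  exact (mul_eq_left₀ (he.ne_zero 0 y)).mp h.symm

theorem neg_right (x y : G) : e x (-y) = (e x y)⁻¹ := by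
  have h := he.add_right x y (-y)
  rw [add_neg_cancel, he.zero_right] at h
  exact eq_inv_of_mul_eq_one_right h.symm

theorem neg_left (x y : G) : e (-x) y = (e x y)⁻¹ := by
  have h := he.add_left x (-x) y
  rw [add_neg_cancel, he.zero_left] at h
  exact eq_inv_of_mul_eq_one_right h.symm

theorem sub_right (x y y' : G) : e x (y - y') = e x y / e x y' := by
  rw [sub_eq_add_neg, he.add_right, he.neg_right, div_eq_mul_inv]

theorem sub_left (x x' y : G) : e (x - x') y = e x y / e x' y := by
  rw [sub_eq_add_neg, he.add_left, he.neg_left, div_eq_mul_inv]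

/-- The character `x ↦ e x y` of `G`. -/
noncomputable def chi (y : G) : Multiplicative G →* Kˣ where
  toFun x := Units.mk0 (e x.toAdd y) (he.ne_zero _ _)
  map_one' := Units.ext (he.zero_left y)
  map_mul' a b := Units.ext (he.add_left a.toAdd b.toAdd y)

@[simp]
theorem chi_apply (y : G) (x : Multiplicative G) : (he.chi y x : K) = e x.toAdd y := rfl

/-- The character `y ↦ e x y` of `G`. -/
noncomputable def psi (x : G) : Multiplicative G →* Kˣ where
  toFun y := Units.mk0 (e x y.toAdd) (he.ne_zero _ _)
  map_one' := Units.ext (he.zero_right x)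
  map_mul' a b := Units.ext (he.add_right x a.toAdd b.toAdd)

@[simp]
theorem psi_apply (x : G) (y : Multiplicative G) : (he.psi x y : K) = e x y.toAdd := rfl

theorem chi_add (y y' : G) : he.chi (y + y') = he.chi y * he.chi y' := by
  ext x
  simp [he.add_right]

theorem chi_injective (hnd : ∀ y, y ≠ 0 → ∃ x, e x y ≠ 1) : Injective he.chi := by
  intro y y' h
  by_contra hne
  obtain ⟨x, hx⟩ := hnd (y - y') (sub_ne_zero.mpr hne)
  apply hx
  have h1 : (he.chi y (Multiplicative.ofAdd x) : K) = he.chi y' (Multiplicative.ofAdd x) := by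
    rw [h]
  simp only [chi_apply, toAdd_ofAdd] at h1
  rw [he.sub_right, h1, div_self (he.ne_zero _ _)]

end IsBimul

/-- The orthogonal of a subgroup in the first variable: `{x | ∀ w ∈ W, e x w = 1}`. -/
def orthL (e : G → G → K) (he : IsBimul e) (W : AddSubgroup G) : AddSubgroup G where
  carrier := {x | ∀ w ∈ W, e x w = 1}
  zero_mem' := fun w _ => he.zero_left w
  add_mem' := by
    intro a b ha hb w hw
    rw [he.add_left, ha w hw, hb w hw, one_mul]
  neg_mem' := by
    intro a ha w hw
    rw [he.neg_left, ha w hw, inv_one]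

/-- The orthogonal of a subgroup in the second variable: `{y | ∀ w ∈ W, e w y = 1}`. -/
def orthR (e : G → G → K) (he : IsBimul e) (W : AddSubgroup G) : AddSubgroup G where
  carrier := {y | ∀ w ∈ W, e w y = 1}
  zero_mem' := fun w _ => he.zero_right w
  add_mem' := by
    intro a b ha hb w hw
    rw [he.add_right, ha w hw, hb w hw, one_mul]
  neg_mem' := by
    intro a ha w hw
    rw [he.neg_right, ha w hw, inv_one]

theorem mem_orthL {e : G → G → K} {he : IsBimul e} {W : AddSubgroup G} {x : G} :
    x ∈ orthL e he W ↔ ∀ w ∈ W, e x w = 1 := Iff.rfl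

theorem mem_orthR {e : G → G → K} {he : IsBimul e} {W : AddSubgroup G} {y : G} :
    y ∈ orthR e he W ↔ ∀ w ∈ W, e w y = 1 := Iff.rfl

section Finite

variable [Finite G] {e : G → G → K} (he : IsBimul e)
  (hK : ∀ n : ℕ, n ≠ 0 → HasEnoughRootsOfUnity K n)

include hK

omit [Finite G] in
theorem card_hom (H : Type*) [CommGroup H] [Finite H] : Nat.card (H →* Kˣ) = Nat.card H := by
  have : HasEnoughRootsOfUnity K (Monoid.exponent H) :=
    hK _ (Monoid.exponent_ne_zero_of_finite)
  exact CommGroup.card_monoidHom_of_hasEnoughRootsOfUnity H K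

include he

/-- Every character of `G` is `e · y`. -/
theorem chi_bijective (hnd : ∀ y, y ≠ 0 → ∃ x, e x y ≠ 1) : Bijective he.chi := by
  have : Finite (Multiplicative G →* Kˣ) :=
    Nat.finite_of_card_ne_zero (by
      rw [card_hom hK (Multiplicative G)]
      exact Nat.card_pos.ne')
  refine (Nat.bijective_iff_injective_and_card _).mpr ⟨he.chi_injective hnd, ?_⟩
  rw [card_hom hK (Multiplicative G)]
  exact (Nat.card_congr Multiplicative.ofAdd).symm ▸ rfl

/-- Every character of `G` is `e · y` for a unique `y`. -/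
theorem exists_unique_of_char (hnd : ∀ y, y ≠ 0 → ∃ x, e x y ≠ 1)
    (φ : Multiplicative G →* Kˣ) : ∃! y : G, ∀ x : G, e x y = φ (Multiplicative.ofAdd x) := by
  obtain ⟨y, hy⟩ := (chi_bijective he hK hnd).2 φ
  refine ⟨y, fun x => ?_, fun y' hy' => ?_⟩
  · rw [← hy]
    rfl
  · apply (chi_bijective he hK hnd).1
    rw [hy]
    ext x
    exact hy' (Multiplicative.toAdd x)

/-- Nondegeneracy in the first variable. -/
theorem nondeg_left (hnd : ∀ y, y ≠ 0 → ∃ x, e x y ≠ 1) (x : G) (hx : x ≠ 0) :
    ∃ y, e x y ≠ 1 := by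
  have : HasEnoughRootsOfUnity K (Monoid.exponent (Multiplicative G)) :=
    hK _ (Monoid.exponent_ne_zero_of_finite)
  have hx' : Multiplicative.ofAdd x ≠ 1 := fun h => hx (by simpa using h)
  obtain ⟨φ, hφ⟩ := CommGroup.exists_apply_ne_one_of_hasEnoughRootsOfUnity
    (Multiplicative G) K hx'
  obtain ⟨y, hy, -⟩ := exists_unique_of_char he hK hnd φ
  refine ⟨y, fun h => hφ ?_⟩
  apply Units.ext
  rw [← hy x, h]
  rfl

/-- `|W| * |W^⊥| ≤ |G|` (orthogonal in the first variable). -/
theorem card_mul_card_orthL_le (hnd : ∀ y, y ≠ 0 → ∃ x, e x y ≠ 1) (W : AddSubgroup G) :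
    Nat.card W * Nat.card (orthL e he W) ≤ Nat.card G := by
  classical
  -- `H = W^⊥` as a subgroup of `Multiplicative G`
  let H : Subgroup (Multiplicative G) := (orthL e he W).toSubgroup
  have hexp : HasEnoughRootsOfUnity K (Monoid.exponent (Multiplicative G)) :=
    hK _ (Monoid.exponent_ne_zero_of_finite)
  -- characters of `G` trivial on `H`
  have hker : Nat.card (MonoidHom.domRestrictHom H Kˣ).ker = Nat.card (Multiplicative G ⧸ H) :=
    CommGroup.card_domRestrictHom_ker (M := K) H
  have : Finite (Multiplicative G →* Kˣ) :=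
    Nat.finite_of_card_ne_zero (by
      rw [card_hom hK (Multiplicative G)]
      exact Nat.card_pos.ne')
  -- the injection `W → {characters trivial on H}`
  let ι : W → (MonoidHom.domRestrictHom H Kˣ).ker := fun w =>
    ⟨he.chi w, by
      rw [MonoidHom.mem_ker]
      ext ⟨x, hx⟩
      exact hx (w : G) w.2⟩
  have hι : Injective ι := by
    intro w w' h
    apply Subtype.ext
    apply he.chi_injective hnd
    exact congrArg Subtype.val h
  have h1 : Nat.card W ≤ Nat.card (Multiplicative G ⧸ H) := by
    rw [← hker]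
    exact Nat.card_le_card_of_injective ι hι
  have h2 : Nat.card (Multiplicative G) = Nat.card (Multiplicative G ⧸ H) * Nat.card H :=
    H.card_eq_card_quotient_mul_card_subgroup
  have h3 : Nat.card H = Nat.card (orthL e he W) := rfl
  have h4 : Nat.card (Multiplicative G) = Nat.card G := rfl
  rw [← h4, h2, h3]
  exact Nat.mul_le_mul_right _ h1

/-- `|G| ≤ |W| * |W^⊥|` (orthogonal in the first variable). -/
theorem card_le_card_mul_card_orthL (W : AddSubgroup G) :
    Nat.card G ≤ Nat.card W * Nat.card (orthL e he W) := by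
  classical
  let W' : Subgroup (Multiplicative G) := W.toSubgroup
  -- restriction `G → Hom(W, Kˣ)`, `x ↦ e x ·`
  let ρ : Multiplicative G →* (W' →* Kˣ) :=
    { toFun := fun x => (he.psi x.toAdd).comp W'.subtype
      map_one' := by
        ext w
        simp [he.zero_left]
      map_mul' := by
        intro a b
        ext w
        simp [he.add_left] }
  have hρ : ∀ (x : Multiplicative G) (w : W'), ((ρ x w : Kˣ) : K) = e x.toAdd (w : Multiplicative G).toAdd :=
    fun _ _ => rfl
  have hkerρ : ρ.ker = (orthL e he W).toSubgroup := by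
    ext x
    rw [MonoidHom.mem_ker]
    constructor
    · intro h w hw
      have h1 := hρ x ⟨Multiplicative.ofAdd w, hw⟩
      rw [h] at h1
      exact h1.symm
    · intro h
      ext w
      rw [hρ x w]
      exact h _ w.2
  have h1 : Nat.card (Multiplicative G) = Nat.card (Multiplicative G ⧸ ρ.ker) * Nat.card ρ.ker :=
    ρ.ker.card_eq_card_quotient_mul_card_subgroup
  have h2 : Nat.card (Multiplicative G ⧸ ρ.ker) = Nat.card ρ.range :=
    Nat.card_congr (QuotientGroup.quotientKerEquivRange ρ).toEquiv
  have : Finite (W' →* Kˣ) :=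
    Nat.finite_of_card_ne_zero (by
      rw [card_hom hK W']
      exact Nat.card_pos.ne')
  have h3 : Nat.card ρ.range ≤ Nat.card W := by
    have h := Nat.card_le_card_of_injective (Subtype.val : ρ.range → (W' →* Kˣ))
      Subtype.val_injective
    rw [card_hom hK W'] at h
    exact h
  have h4 : Nat.card ρ.ker = Nat.card (orthL e he W) := by
    rw [hkerρ]
    rfl
  have h5 : Nat.card (Multiplicative G) = Nat.card G := rfl
  rw [← h5, h1, h2, h4]
  exact Nat.mul_le_mul_right _ h3

/-- **`|W| * |W^⊥| = |G|`** (orthogonal in the first variable). -/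
theorem card_mul_card_orthL (hnd : ∀ y, y ≠ 0 → ∃ x, e x y ≠ 1) (W : AddSubgroup G) :
    Nat.card W * Nat.card (orthL e he W) = Nat.card G :=
  le_antisymm (card_mul_card_orthL_le he hK hnd W) (card_le_card_mul_card_orthL he hK W)

/-- **An isotropic subgroup has at most `√|G|` elements.** -/
theorem card_sq_le_of_isotropic (hnd : ∀ y, y ≠ 0 → ∃ x, e x y ≠ 1) (W : AddSubgroup G)
    (hW : ∀ w ∈ W, ∀ w' ∈ W, e w w' = 1) : Nat.card W ^ 2 ≤ Nat.card G := by
  have hle : W ≤ orthL e he W := fun w hw w' hw' => hW w hw w' hw'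
  have h1 : Nat.card W ≤ Nat.card (orthL e he W) :=
    Nat.card_le_card_of_injective (AddSubgroup.inclusion hle) (AddSubgroup.inclusion_injective hle)
  calc Nat.card W ^ 2 = Nat.card W * Nat.card W := pow_two _
    _ ≤ Nat.card W * Nat.card (orthL e he W) := Nat.mul_le_mul_left _ h1
    _ ≤ Nat.card G := card_mul_card_orthL_le he hK hnd W

end Finite

end Fermat.Agent.S19.helper2790.Pairing
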