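import Fermat.Agent.S19.helper2790_WeilJ
import Fermat.Agent.S19.helper2790_PairingDual
import Fermat.Agent.S29.helper288_FinTorsion

set_option autoImplicit false

/-!
# The Weil pairing on `J₀(N)[n]` is a perfect pairing (helper2790)

`TorsJ N n = Submodule.torsionBy ℤ (JZero N) n` is finite (S29 helper288) and the Weil pairing
`weilT N n : TorsJ N n → TorsJ N n → ℚ̄` (`= weilJ` on the subtype) is bimultiplicative,
alternating and nondegenerate; hence (finite duality, `helper2790_PairingDual`):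

* `weilT_char`          : every character of `J₀(N)[n]` is `e_n(·, y)` for a unique `y`;
* `weilT_card_orth`     : `|W| * |W^⊥| = |J₀(N)[n]|` for every subgroup `W`;
* `weilT_isotropic`     : an isotropic subgroup `W` has `|W| ^ 2 ≤ |J₀(N)[n]|`.
-/

noncomputable section

namespace Fermat.Agent.S19.helper2790

open ModularCurve AlgebraicCurve
open Fermat.Agent.S19.helper2111

/-- The `n`-torsion of `J₀(N)`. -/
abbrev TorsJ (N n : ℕ) : Type := ↥(Submodule.torsionBy ℤ (JZero N) (n : ℤ))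

theorem torsJ_nsmul {N n : ℕ} (x : TorsJ N n) : n • (x : JZero N) = 0 := by
  have h := x.2
  rw [Submodule.mem_torsionBy_iff] at h
  rw [← natCast_zsmul]
  exact h

theorem finite_torsJ (N : ℕ) [NeZero N] {n : ℕ} (hn : 0 < n) : Finite (TorsJ N n) :=
  Fermat.Agent.S29.helper288.finite_torsionBy N hn.ne'

/-- `ℚ̄` has all roots of unity. -/
theorem hasEnoughRootsOfUnity_Qb (n : ℕ) (hn : n ≠ 0) : HasEnoughRootsOfUnity Qb n := by
  have : NeZero (n : ℚ) := ⟨Nat.cast_ne_zero.mpr hn⟩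
  exact AlgebraicClosure.hasEnoughRootsOfUnity ℚ n

section

variable (N : ℕ) [NeZero N] (n : ℕ)

/-- The Weil pairing on the `n`-torsion of `J₀(N)`. -/
def weilT (x y : TorsJ N n) : Qb := weilJ N n (x : JZero N) (y : JZero N)

theorem weilT_isBimul : Pairing.IsBimul (weilT N n) where
  ne_zero x y := weilJ_ne_zero _ _
  add_right x y y' := weilJ_add_right (torsJ_nsmul x) (torsJ_nsmul y) (torsJ_nsmul y')
  add_left x x' y := weilJ_add_left (torsJ_nsmul x) (torsJ_nsmul x') (torsJ_nsmul y)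

variable {N n}

theorem weilT_pow (x y : TorsJ N n) : weilT N n x y ^ n = 1 :=
  weilJ_pow (torsJ_nsmul x) (torsJ_nsmul y)

theorem weilT_symm (x y : TorsJ N n) : weilT N n y x = (weilT N n x y)⁻¹ :=
  weilJ_symm (torsJ_nsmul x) (torsJ_nsmul y)

theorem weilT_self (x : TorsJ N n) : weilT N n x x = 1 :=
  weilJ_self (torsJ_nsmul x)

theorem weilT_nondeg (hn : 0 < n) (y : TorsJ N n) (hy : y ≠ 0) :
    ∃ x : TorsJ N n, weilT N n x y ≠ 1 := by
  have hy0 : (y : JZero N) ≠ 0 := fun h => hy (Subtype.ext h)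
  obtain ⟨x, hx, h⟩ := weilJ_nondeg hn (torsJ_nsmul y) hy0
  have hxmem : x ∈ Submodule.torsionBy ℤ (JZero N) (n : ℤ) := by
    rw [Submodule.mem_torsionBy_iff, natCast_zsmul]
    exact hx
  exact ⟨⟨x, hxmem⟩, h⟩

/-- Every character of `J₀(N)[n]` is `e_n(·, y)` for a unique `y`. -/
theorem weilT_char (hn : 0 < n) (φ : Multiplicative (TorsJ N n) →* Qbˣ) :
    ∃! y : TorsJ N n, ∀ x : TorsJ N n, weilT N n x y = φ (Multiplicative.ofAdd x) :=
  haveI := finite_torsJ N hn
  Pairing.exists_unique_of_char (weilT_isBimul N n) hasEnoughRootsOfUnity_Qb (weilT_nondeg hn) φ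

/-- `|W| * |W^⊥| = |J₀(N)[n]|`. -/
theorem weilT_card_orth (hn : 0 < n) (W : AddSubgroup (TorsJ N n)) :
    Nat.card W * Nat.card (Pairing.orthL (weilT N n) (weilT_isBimul N n) W)
      = Nat.card (TorsJ N n) :=
  haveI := finite_torsJ N hn
  Pairing.card_mul_card_orthL (weilT_isBimul N n) hasEnoughRootsOfUnity_Qb (weilT_nondeg hn) W

/-- An isotropic subgroup of `J₀(N)[n]` has at most `√|J₀(N)[n]|` elements. -/
theorem weilT_isotropic (hn : 0 < n) (W : AddSubgroup (TorsJ N n))
    (hW : ∀ w ∈ W, ∀ w' ∈ W, weilT N n w w' = 1) :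
    Nat.card W ^ 2 ≤ Nat.card (TorsJ N n) :=
  haveI := finite_torsJ N hn
  Pairing.card_sq_le_of_isotropic (weilT_isBimul N n) hasEnoughRootsOfUnity_Qb
    (weilT_nondeg hn) W hW

end

end Fermat.Agent.S19.helper2790

end
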