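/-
S19, route W (findings #3057), leaf W1c, part 1 (helper1527): the VALUE OF A FUNCTION ON A DIVISOR.

Vocabulary shared by W1b (Weil reciprocity), W1c (the pairing), W2a, W2c, W3:

* `divEval f D : K` is `f(D) = ∏_P f(P)^(D P)`, with `f(P) = helper6247.ev P f` (the landed S27
  evaluation: the `c : K` with `f - c` in the maximal ideal of `P`, junk value `0` at a pole).
* the algebra of `divEval` in both variables, `deg P = 1`, equivariance under semilinear
  automorphisms (`ev_smul_smul`, `divEval_smul_smul`).

Everything is for an arbitrary field `K` and an arbitrary field `F` over `K`; the only hypothesis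
ever used is `∀ P, HasValues P` (every residue field is `K`; automatic for `K` algebraically
closed, see `helper4586.hasValues_of_finite`).
-/
import Fermat.Agent.S27.helper4586_Ev
import Fermat.Agent.S27.helper1070_Approx
import Fermat.Prelude.Def_AlgebraicCurve_BaseChangeGalois

set_option autoImplicit false

open AlgebraicCurve

namespace Fermat.Agent.S19.helper1527

open Fermat.Agent.S27.helper6247 (ev)
open Fermat.Agent.S27.helper4586

noncomputable section

variable {K F : Type*} [Field K] [Field F] [Algebra K F]

/-! ### Definition and the algebra in the divisor variable -/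

/-- `f(D) = ∏_P f(P)^(D P)`. -/
def divEval (f : F) (D : Divisor K F) : K := D.prod fun P m => ev P f ^ m

theorem divEval_eq_prod (f : F) (D : Divisor K F) (S : Finset (Place K F))
    (hS : D.support ⊆ S) : divEval f D = ∏ P ∈ S, ev P f ^ D P :=
  Finsupp.prod_of_support_subset D hS _ (fun _ _ => zpow_zero _)

@[simp]
theorem divEval_zero_right (f : F) : divEval f (0 : Divisor K F) = 1 := by
  simp [divEval]

theorem divEval_single (f : F) (P : Place K F) (m : ℤ) :
    divEval f (Finsupp.single P m) = ev P f ^ m := by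
  rw [divEval, Finsupp.prod_single_index (zpow_zero _)]

theorem divEval_add (f : F) (D E : Divisor K F)
    (h : ∀ P, D P ≠ 0 ∨ E P ≠ 0 → ev P f ≠ 0) :
    divEval f (D + E) = divEval f D * divEval f E := by
  classical
  rw [divEval_eq_prod f (D + E) (D.support ∪ E.support) Finsupp.support_add,
    divEval_eq_prod f D (D.support ∪ E.support) Finset.subset_union_left,
    divEval_eq_prod f E (D.support ∪ E.support) Finset.subset_union_right,
    ← Finset.prod_mul_distrib]
  refine Finset.prod_congr rfl fun P hP => ?_
  rw [Finsupp.add_apply]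
  refine zpow_add₀ (h P ?_) _ _
  rcases Finset.mem_union.mp hP with h1 | h1
  · exact Or.inl (Finsupp.mem_support_iff.mp h1)
  · exact Or.inr (Finsupp.mem_support_iff.mp h1)

theorem divEval_neg (f : F) (D : Divisor K F) : divEval f (-D) = (divEval f D)⁻¹ := by
  rw [divEval_eq_prod f (-D) D.support (by rw [Finsupp.support_neg]),
    divEval_eq_prod f D D.support subset_rfl, ← Finset.prod_inv_distrib]
  refine Finset.prod_congr rfl fun P _ => ?_
  rw [Finsupp.neg_apply, zpow_neg]

theorem divEval_sub (f : F) (D E : Divisor K F)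
    (h : ∀ P, D P ≠ 0 ∨ E P ≠ 0 → ev P f ≠ 0) :
    divEval f (D - E) = divEval f D / divEval f E := by
  rw [sub_eq_add_neg, divEval_add, divEval_neg, div_eq_mul_inv]
  intro P hP
  refine h P ?_
  rcases hP with h1 | h1
  · exact Or.inl h1
  · exact Or.inr (by simpa using h1)

theorem divEval_zsmul (f : F) (m : ℤ) (D : Divisor K F) :
    divEval f (m • D) = divEval f D ^ m := by
  rw [divEval_eq_prod f (m • D) D.support Finsupp.support_smul,
    divEval_eq_prod f D D.support subset_rfl, ← Finset.prod_zpow]
  refine Finset.prod_congr rfl fun P _ => ?_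
  rw [Finsupp.smul_apply, smul_eq_mul, mul_comm, zpow_mul]

theorem divEval_nsmul (f : F) (m : ℕ) (D : Divisor K F) :
    divEval f (m • D) = divEval f D ^ m := by
  rw [← natCast_zsmul, divEval_zsmul, zpow_natCast]

theorem divEval_ne_zero (f : F) (D : Divisor K F) (h : ∀ P, D P ≠ 0 → ev P f ≠ 0) :
    divEval f D ≠ 0 := by
  unfold divEval Finsupp.prod
  exact Finset.prod_ne_zero_iff.mpr fun P hP =>
    zpow_ne_zero _ (h P (Finsupp.mem_support_iff.mp hP))

/-! ### The algebra in the function variable -/

theorem divEval_one (D : Divisor K F) : divEval (1 : F) D = 1 := by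
  unfold divEval Finsupp.prod
  refine Finset.prod_eq_one fun P _ => ?_
  beta_reduce
  rw [ev_one, one_zpow]

theorem divEval_mul (hV : ∀ P : Place K F, HasValues P) (f g : F) (D : Divisor K F)
    (hf : ∀ P, D P ≠ 0 → 0 ≤ P.ord f) (hg : ∀ P, D P ≠ 0 → 0 ≤ P.ord g) :
    divEval (f * g) D = divEval f D * divEval g D := by
  unfold divEval Finsupp.prod
  rw [← Finset.prod_mul_distrib]
  refine Finset.prod_congr rfl fun P hP => ?_
  have hP' := Finsupp.mem_support_iff.mp hP
  beta_reduce
  rw [ev_mul (hV P) (hf P hP') (hg P hP'), mul_zpow]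

theorem divEval_pow (hV : ∀ P : Place K F, HasValues P) (f : F) (m : ℕ) (D : Divisor K F)
    (hf : ∀ P, D P ≠ 0 → 0 ≤ P.ord f) :
    divEval (f ^ m) D = divEval f D ^ m := by
  unfold divEval Finsupp.prod
  rw [← Finset.prod_pow]
  refine Finset.prod_congr rfl fun P hP => ?_
  have hP' := Finsupp.mem_support_iff.mp hP
  beta_reduce
  rw [ev_pow (hV P) (hf P hP'), ← zpow_natCast, ← zpow_natCast, ← zpow_mul, ← zpow_mul, mul_comm]

theorem prod_const_zpow {ι : Type*} (c : K) (hc : c ≠ 0) (s : Finset ι) (e : ι → ℤ) :
    ∏ i ∈ s, c ^ e i = c ^ ∑ i ∈ s, e i := by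
  classical
  induction s using Finset.induction_on with
  | empty => simp
  | insert a s ha ih => rw [Finset.prod_insert ha, Finset.sum_insert ha, ih, zpow_add₀ hc]

/-- A place all of whose regular functions have values has degree one. -/
theorem deg_eq_one_of_hasValues {P : Place K F} (hP : HasValues P) : P.deg = 1 := by
  rw [Place.deg, finrank_eq_one_iff_of_nonzero' (1 : P.ResidueField) one_ne_zero]
  intro y
  obtain ⟨a, rfl⟩ := IsLocalRing.residue_surjective y
  refine ⟨evHom hP a, ?_⟩
  have hmem : a - algebraMap K P.toValuationSubring (evHom hP a)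
      ∈ IsLocalRing.maximalIdeal P.toValuationSubring := by
    rw [← evHom_eq_zero_iff hP, map_sub, AlgHom.commutes, Algebra.algebraMap_self_apply, sub_self]
  have h3 := (IsLocalRing.residue_eq_zero_iff _).2 hmem
  rw [map_sub, sub_eq_zero] at h3
  rw [h3, Algebra.smul_def, mul_one]
  rfl

theorem degree_eq_sum (hV : ∀ P : Place K F, HasValues P) (D : Divisor K F) :
    Divisor.degree D = ∑ P ∈ D.support, D P := by
  unfold Divisor.degree
  rw [Finsupp.liftAddHom_apply, Finsupp.sum]
  refine Finset.sum_congr rfl fun P _ => ?_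
  rw [AddMonoidHom.coe_mulRight, deg_eq_one_of_hasValues (hV P), Nat.cast_one]
  exact mul_one _

theorem divEval_const_mul (hV : ∀ P : Place K F, HasValues P) (c : K) (hc : c ≠ 0) (f : F)
    (D : Divisor K F) (hD : Divisor.degree D = 0) (hf : ∀ P, D P ≠ 0 → 0 ≤ P.ord f) :
    divEval (algebraMap K F c * f) D = divEval f D := by
  have h1 : divEval (algebraMap K F c * f) D
      = (∏ P ∈ D.support, c ^ D P) * divEval f D := by
    unfold divEval Finsupp.prod
    rw [← Finset.prod_mul_distrib]
    refine Finset.prod_congr rfl fun P hP => ?_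
    beta_reduce
    rw [ev_const_mul (hV P) c (hf P (Finsupp.mem_support_iff.mp hP)), mul_zpow]
  rw [h1, prod_const_zpow c hc, ← degree_eq_sum hV, hD, zpow_zero, one_mul]

/-- The value of a unit at a place is nonzero. -/
theorem ev_ne_zero_of_ord (hV : ∀ P : Place K F, HasValues P) {f : F} (hf : f ≠ 0)
    {P : Place K F} (h : P.ord f = 0) : ev P f ≠ 0 :=
  (ev_ne_zero_iff (hV P) h.ge).mpr ⟨hf, h⟩

/-! ### Semilinear automorphisms -/

theorem isVal_smul (g : SemilinearAut K F) {P : Place K F} {f : F} {c : K} (h : IsVal P f c) :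
    IsVal (g • P) (g • f) (SemilinearAut.baseAut g c) := by
  rw [isVal_iff] at h ⊢
  rcases h with h | h
  · left
    rw [h, SemilinearAut.smul_algebraMap]
  · right
    have h2 := SemilinearAut.ord_smul g P (f - algebraMap K F c)
    rw [smul_sub, SemilinearAut.smul_algebraMap] at h2
    rw [h2]
    exact h

theorem ev_smul_smul (g : SemilinearAut K F) (P : Place K F) (f : F) :
    ev (g • P) (g • f) = SemilinearAut.baseAut g (ev P f) := by
  by_cases h : ∃ c : K, IsVal P f c
  · obtain ⟨c, hc⟩ := h
    rw [(isVal_smul g hc).ev_eq, hc.ev_eq]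
  · have h' : ¬ ∃ c : K, IsVal (g • P) (g • f) c := by
      rintro ⟨c, hc⟩
      refine h ⟨SemilinearAut.baseAut g⁻¹ c, ?_⟩
      have := isVal_smul g⁻¹ hc
      rwa [inv_smul_smul, inv_smul_smul] at this
    rw [ev_eq_zero_of_not_exists h, ev_eq_zero_of_not_exists h', map_zero]

theorem divEval_smul_smul (g : SemilinearAut K F) (f : F) (D : Divisor K F) :
    divEval (g • f) (g • D) = SemilinearAut.baseAut g (divEval f D) := by
  unfold divEval
  rw [SemilinearAut.divisor_smul_def,
    Finsupp.prod_mapDomain_index_inj (MulAction.injective g), map_finsuppProd]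
  refine Finsupp.prod_congr fun P _ => ?_
  rw [ev_smul_smul, map_zpow₀]

end

end Fermat.Agent.S19.helper1527
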