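import Mathlib
import Fermat.Prelude.Def_ModularCurve_ArithmeticGalois
import Fermat.Prelude.Def_GaloisRep_Flat

set_option autoImplicit false

/-!
# S19: top of the chain (captain's Spec)

`frozen S19  <=  Stmt_FuncModel (pure algebra)  +  Stmt_Fin  +  Stmt_Model`.

* `IsFunctionModel ℓ M act H` : `H` is an order of Galois-equivariant `Qbar`-valued functions
  on the finite group `M`, module-finite over `ℤ_(ℓ)`, separating points and closed under the
  addition law.  This is the only thing the geometry has to deliver.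
* `HopfModel ℓ M act` : the conclusion of the frozen statement S19 (and of `IsFlatAt`) for `M`.
* `Stmt_FuncModel ℓ` : function model implies Hopf model (route independent; pure algebra).
* `result_of` : the frozen statement S19 from the three Props.
* `IsFunctionModel.comap`, `GalModel.of_injective` : a function model restricts along an
  injective equivariant additive map (used for the auxiliary level when `ℓ = 2, 3`).
-/

namespace Fermat.Agent.S19.helper2111

open ModularCurve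

/-- `ℤ_(ℓ)` as in the frozen statement. -/
abbrev Rl (ℓ : ℕ) : Type := ↥(GaloisRep.ratLocalizedAt ℓ)

/-- `Qbar`. -/
abbrev Qb : Type := AlgebraicClosure ℚ

/-- The absolute Galois group of `ℚ`. -/
abbrev GQ : Type := AlgebraicClosure ℚ ≃ₐ[ℚ] AlgebraicClosure ℚ

/-- The conclusion of the frozen statement S19 (and of `GaloisRepAdic.IsFlatAt`) for an abstract
additive group `M` with a "Galois action" `act`. -/
def HopfModel (ℓ : ℕ) (M : Type) [AddCommGroup M] (act : GQ → M → M) : Prop :=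
  ∃ (H : Type) (_ : CommRing H) (_ : HopfAlgebra (GaloisRep.ratLocalizedAt ℓ) H),
    Module.Finite (GaloisRep.ratLocalizedAt ℓ) H ∧ Module.Flat (GaloisRep.ratLocalizedAt ℓ) H ∧
    Coalgebra.IsCocomm (GaloisRep.ratLocalizedAt ℓ) H ∧
    ∃ e : WithConv (H →ₐ[GaloisRep.ratLocalizedAt ℓ] AlgebraicClosure ℚ) ≃ M,
      (∀ f g, e (f * g) = e f + e g) ∧
      ∀ (σ : AlgebraicClosure ℚ ≃ₐ[ℚ] AlgebraicClosure ℚ)
        (f g : WithConv (H →ₐ[GaloisRep.ratLocalizedAt ℓ] AlgebraicClosure ℚ)),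
        (∀ h : H, g h = σ (f h)) → e g = act σ (e f)

/-- A *function model* of `(M, act)` over `ℤ_(ℓ)`: an order of equivariant functions, separating
points, closed under the addition law. -/
structure IsFunctionModel (ℓ : ℕ) (M : Type) [AddCommGroup M] (act : GQ → M → M)
    (H : Subalgebra (Rl ℓ) (M → Qb)) : Prop where
  finite : Module.Finite (Rl ℓ) H
  eqv : ∀ φ ∈ H, ∀ (σ : GQ) (m : M), φ (act σ m) = σ (φ m)
  sep : ∀ m m' : M, m ≠ m' → ∃ φ ∈ H, φ m ≠ φ m'
  comul : ∀ φ ∈ H, ∃ (n : ℕ) (a b : Fin n → M → Qb), (∀ i, a i ∈ H) ∧ (∀ i, b i ∈ H) ∧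
    ∀ m m' : M, φ (m + m') = ∑ i, a i m * b i m'

/-- `(M, act)` has a function model over `ℤ_(ℓ)`. -/
def GalModel (ℓ : ℕ) (M : Type) [AddCommGroup M] (act : GQ → M → M) : Prop :=
  ∃ H : Subalgebra (Rl ℓ) (M → Qb), IsFunctionModel ℓ M act H

/-- FUNCMODEL (route independent, pure algebra; owners helper1476 / helper1852):
a function model on a finite group gives the frozen Hopf-algebra existential. -/
def Stmt_FuncModel (ℓ : ℕ) : Prop :=
  ∀ (M : Type) [AddCommGroup M] [Finite M] (act : GQ → M → M),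
    (∀ σ, Function.Surjective (act σ)) → (∀ σ, act σ 0 = 0) →
    GalModel ℓ M act → HopfModel ℓ M act

/-- The `ℓ^k`-torsion of `J₀(N)`, as in the frozen statement. -/
abbrev Tors (N ℓ k : ℕ) : Type := ↥(Submodule.torsionBy ℤ (JZero N) ((ℓ : ℤ) ^ k))

/-- The Galois action on the torsion. -/
noncomputable def torsAct (N ℓ k : ℕ) (σ : GQ) (m : Tors N ℓ k) : Tors N ℓ k :=
  ⟨σ • (m : JZero N), by
    have h := m.2
    rw [Submodule.mem_torsionBy_iff] at h ⊢
    have h2 := map_zsmul (DistribSMul.toAddMonoidHom (JZero N) σ) ((ℓ : ℤ) ^ k) (m : JZero N)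
    simp only [DistribSMul.toAddMonoidHom_apply] at h2
    rw [← h2, h, smul_zero]⟩

@[simp]
theorem coe_torsAct (N ℓ k : ℕ) (σ : GQ) (m : Tors N ℓ k) :
    ((torsAct N ℓ k σ m : Tors N ℓ k) : JZero N) = σ • (m : JZero N) := rfl

theorem torsAct_zero (N ℓ k : ℕ) (σ : GQ) : torsAct N ℓ k σ 0 = 0 := by
  apply Subtype.ext
  simp

theorem torsAct_surjective (N ℓ k : ℕ) (σ : GQ) : Function.Surjective (torsAct N ℓ k σ) := by
  intro m
  refine ⟨torsAct N ℓ k σ⁻¹ m, ?_⟩
  apply Subtype.ext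
  simp

/-- FIN: the torsion is finite (from the frozen S27 statement + S24; in flight). -/
def Stmt_Fin (N ℓ k : ℕ) : Prop := Finite (Tors N ℓ k)

/-- MODEL: the `ℓ^k`-torsion of `J₀(N)` has a function model over `ℤ_(ℓ)`.
This is what the geometric chain CORE -> TRUNC -> ORDER -> DESCENT delivers. -/
def Stmt_Model (N ℓ k : ℕ) : Prop := GalModel ℓ (Tors N ℓ k) (torsAct N ℓ k)

/-- **Top of the chain**: the frozen statement S19 from FUNCMODEL, FIN and MODEL. -/
theorem result_of (p : ℕ) (ℓ : ℕ) (k : ℕ)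
    (hFM : Stmt_FuncModel ℓ) (hfin : Stmt_Fin p ℓ k) (hmod : Stmt_Model p ℓ k) :
    ∃ (H : Type) (_ : CommRing H) (_ : HopfAlgebra (GaloisRep.ratLocalizedAt ℓ) H),
      Module.Finite (GaloisRep.ratLocalizedAt ℓ) H ∧ Module.Flat (GaloisRep.ratLocalizedAt ℓ) H ∧
      Coalgebra.IsCocomm (GaloisRep.ratLocalizedAt ℓ) H ∧
      ∃ e : WithConv (H →ₐ[GaloisRep.ratLocalizedAt ℓ] AlgebraicClosure ℚ) ≃
          ↥(Submodule.torsionBy ℤ (JZero p) ((ℓ : ℤ) ^ k)),
        (∀ f g, e (f * g) = e f + e g) ∧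
        ∀ (σ : AlgebraicClosure ℚ ≃ₐ[ℚ] AlgebraicClosure ℚ)
          (f g : WithConv (H →ₐ[GaloisRep.ratLocalizedAt ℓ] AlgebraicClosure ℚ)),
          (∀ h : H, g h = σ (f h)) → ((e g : JZero p)) = σ • (e f : JZero p) := by
  have : Finite (Tors p ℓ k) := hfin
  obtain ⟨H, i1, i2, h1, h2, h3, e, he1, he2⟩ :=
    hFM (Tors p ℓ k) (torsAct p ℓ k) (torsAct_surjective p ℓ k) (torsAct_zero p ℓ k) hmod
  refine ⟨H, i1, i2, h1, h2, h3, e, he1, ?_⟩
  intro σ f g hfg
  have := he2 σ f g hfg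
  rw [this]
  rfl

/-! ### Restriction of a function model along an injective equivariant map -/

section Comap

variable {ℓ : ℕ} {M M' : Type} [AddCommGroup M] [AddCommGroup M']
  {act : GQ → M → M} {act' : GQ → M' → M'}

/-- Pull-back of functions along `ι : M → M'`, as an algebra map. -/
noncomputable def pullAlg (ℓ : ℕ) (ι : M → M') : (M' → Qb) →ₐ[Rl ℓ] (M → Qb) where
  toFun φ := fun m => φ (ι m)
  map_one' := rfl
  map_mul' _ _ := rfl
  map_zero' := rfl
  map_add' _ _ := rfl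
  commutes' _ := rfl

omit [AddCommGroup M] [AddCommGroup M'] in
@[simp]
theorem pullAlg_apply (ι : M → M') (φ : M' → Qb) (m : M) : pullAlg ℓ ι φ m = φ (ι m) := rfl

/-- A function model restricts along an injective, equivariant, additive map. -/
theorem IsFunctionModel.comap {H' : Subalgebra (Rl ℓ) (M' → Qb)}
    (hH' : IsFunctionModel ℓ M' act' H') (ι : M →+ M') (hι : Function.Injective ι)
    (heq : ∀ σ m, ι (act σ m) = act' σ (ι m)) :
    IsFunctionModel ℓ M act (H'.map (pullAlg ℓ ι)) := by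
  refine ⟨?_, ?_, ?_, ?_⟩
  · have hfg : (Subalgebra.toSubmodule H').FG := Module.Finite.iff_fg.mp hH'.finite
    have : (Subalgebra.toSubmodule (H'.map (pullAlg ℓ ι))).FG := by
      rw [Subalgebra.map_toSubmodule]
      exact hfg.map _
    exact Module.Finite.iff_fg.mpr this
  · rintro φ ⟨ψ, hψ, rfl⟩ σ m
    simp only [AlgHom.coe_toRingHom, pullAlg_apply]
    rw [heq, hH'.eqv ψ hψ]
  · intro m m' hne
    obtain ⟨ψ, hψ, hne'⟩ := hH'.sep (ι m) (ι m') (fun h => hne (hι h))
    exact ⟨pullAlg ℓ ι ψ, ⟨ψ, hψ, rfl⟩, hne'⟩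
  · rintro φ ⟨ψ, hψ, rfl⟩
    obtain ⟨n, a, b, ha, hb, hab⟩ := hH'.comul ψ hψ
    refine ⟨n, fun i => pullAlg ℓ ι (a i), fun i => pullAlg ℓ ι (b i),
      fun i => ⟨a i, ha i, rfl⟩, fun i => ⟨b i, hb i, rfl⟩, ?_⟩
    intro m m'
    simp only [AlgHom.coe_toRingHom, pullAlg_apply, map_add]
    exact hab _ _

theorem GalModel.of_injective (h : GalModel ℓ M' act') (ι : M →+ M')
    (hι : Function.Injective ι) (heq : ∀ σ m, ι (act σ m) = act' σ (ι m)) :
    GalModel ℓ M act := by
  obtain ⟨H', hH'⟩ := h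
  exact ⟨_, hH'.comap ι hι heq⟩

end Comap

end Fermat.Agent.S19.helper2111
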