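import Mathlib
import Fermat.Agent.S19.helper2111_Spec
import Fermat.Agent.S28.helper508_RatLoc

set_option autoImplicit false

/-!
# S19, route W: the Cartier-dual criterion (helper2790)

Let `M` be a finite abelian group with an action `act` of `GQ`, let `X` be a finite `GQ`-set with
open stabilisers and let `e : X → M → Qbar` be a pairing which is multiplicative in the second
variable, equivariant and separating in the second variable.  Suppose that for ONE valuation
subring `A` of `Qbar` with `A ∩ ℚ = ℤ_(ℓ)` every function `e(·, y)` is an `A`-linear combination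
of equivariant `ℤ_(ℓ)`-integral functions on `X`.  Then `(M, act)` has a function model over
`ℤ_(ℓ)` (`GalModel ℓ M act` of the captain's Spec), hence (by FUNCMODEL) a finite flat Hopf
model.

For `M = J₀(N)[ℓ^k]` the pairing is the Weil pairing `e_n(x, y) = f_x(D'_y) / f'_y(D_x)`.

Proof: the algebra `E` of equivariant integral functions on `X` is a finite free `ℤ_(ℓ)`-module;
a basis `a_1 … a_r` of it is `Qbar`-linearly independent.  Write `e(·, y) = ∑ φ_i(y) a_i` with
`φ_i(y) ∈ A`.  By uniqueness of the coefficients the `φ_i` are equivariant, hence all conjugates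
of `φ_i(y)` lie in `A`, hence `φ_i(y)` is integral over `ℤ_(ℓ)`; multiplicativity of `e` gives
`φ_k(y + y') = ∑ c^k_{ij} φ_i(y) φ_j(y')` with the structure constants of `E`; and the `φ_i`
separate the points of `M`.  So `ℤ_(ℓ)[φ_1, …, φ_r]` is a function model.
-/

namespace Fermat.Agent.S19.helper2790

open Fermat.Agent.S19.helper2111 Polynomial

noncomputable section

/-! ### Integrality from conjugates -/

/-- An element of `Qbar` all of whose conjugates lie in a valuation ring `A` with
`A ∩ ℚ ⊆ ℤ_(ℓ)` is integral over `ℤ_(ℓ)`. -/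
theorem isIntegral_of_forall_conj_mem (ℓ : ℕ) (A : ValuationSubring Qb)
    (hA : ∀ q : ℚ, algebraMap ℚ Qb q ∈ A → q ∈ GaloisRep.ratLocalizedAt ℓ)
    (α : Qb) (hα : ∀ σ : GQ, σ α ∈ A) : IsIntegral (Rl ℓ) α := by
  have : IsAlgClosure ℚ (AlgebraicClosure ℚ) := ⟨inferInstance, AlgebraicClosure.isAlgebraic ℚ⟩
  have halg : IsAlgebraic ℚ α := (AlgebraicClosure.isAlgebraic ℚ).isAlgebraic α
  have hint : IsIntegral ℚ α := halg.isIntegral
  have hmonic : (minpoly ℚ α).Monic := minpoly.monic hint
  have hsplit : ((minpoly ℚ α).map (algebraMap ℚ Qb)).Splits := IsAlgClosed.splits _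
  have hroots : ∀ a ∈ ((minpoly ℚ α).map (algebraMap ℚ Qb)).roots,
      a ∈ (A.toSubring.subtype).range := by
    intro a ha
    have ha' : aeval a (minpoly ℚ α) = 0 := by
      rw [mem_roots (hmonic.map _).ne_zero, IsRoot, eval_map] at ha
      exact ha
    obtain ⟨σ, hσ⟩ := minpoly.exists_algEquiv_of_root halg ha'
    have h1 : a = σ.symm α := by rw [← hσ]; simp
    refine ⟨⟨a, ?_⟩, rfl⟩
    rw [h1]
    exact hα σ.symm
  have hlift := hsplit.mem_lift_of_roots_mem_range (hmonic.map _) A.toSubring.subtype hroots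
  rw [lifts_iff_coeff_lifts] at hlift
  have hcoeff : ∀ n, (minpoly ℚ α).coeff n ∈ GaloisRep.ratLocalizedAt ℓ := by
    intro n
    apply hA
    obtain ⟨b, hb⟩ := hlift n
    rw [coeff_map] at hb
    rw [← hb]
    exact b.2
  have hsub : (↑(minpoly ℚ α).coeffs : Set ℚ) ⊆ ↑(GaloisRep.ratLocalizedAt ℓ) := by
    intro c hc
    rw [Finset.mem_coe, mem_coeffs_iff] at hc
    obtain ⟨n, -, rfl⟩ := hc
    exact hcoeff n
  refine ⟨(minpoly ℚ α).toSubring (GaloisRep.ratLocalizedAt ℓ) hsub,
    (monic_toSubring _ _ _).mpr hmonic, ?_⟩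
  have h2 : eval₂ (algebraMap (Rl ℓ) Qb) α
      ((minpoly ℚ α).toSubring (GaloisRep.ratLocalizedAt ℓ) hsub)
      = eval₂ (algebraMap ℚ Qb) α
        (((minpoly ℚ α).toSubring (GaloisRep.ratLocalizedAt ℓ) hsub).map
          (GaloisRep.ratLocalizedAt ℓ).subtype) := by
    rw [eval₂_map]
    rfl
  rw [h2, map_toSubring]
  exact minpoly.aeval ℚ α

/-! ### Equivariant integral functions -/

/-- `a : X → Qbar` is equivariant and takes values integral over `ℤ_(ℓ)`. -/
def IsEqvInt (ℓ : ℕ) {X : Type} (actX : GQ → X → X) (a : X → Qb) : Prop :=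
  (∀ (σ : GQ) (x : X), a (actX σ x) = σ (a x)) ∧ ∀ x, IsIntegral (Rl ℓ) (a x)

theorem galois_algebraMap_Rl (ℓ : ℕ) (σ : GQ) (r : Rl ℓ) :
    σ (algebraMap (Rl ℓ) Qb r) = algebraMap (Rl ℓ) Qb r :=
  σ.commutes (r : ℚ)

/-- The `ℤ_(ℓ)`-algebra of equivariant integral functions on `X`. -/
def eqvIntAlg (ℓ : ℕ) {X : Type} (actX : GQ → X → X) : Subalgebra (Rl ℓ) (X → Qb) where
  carrier := {a | IsEqvInt ℓ actX a}
  mul_mem' := by
    intro a b ha hb
    refine ⟨fun σ x => ?_, fun x => ?_⟩
    · simp only [Pi.mul_apply, map_mul, ha.1 σ x, hb.1 σ x]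
    · exact (ha.2 x).mul (hb.2 x)
  add_mem' := by
    intro a b ha hb
    refine ⟨fun σ x => ?_, fun x => ?_⟩
    · simp only [Pi.add_apply, map_add, ha.1 σ x, hb.1 σ x]
    · exact (ha.2 x).add (hb.2 x)
  algebraMap_mem' := by
    intro r
    refine ⟨fun σ x => ?_, fun x => ?_⟩
    · simp only [Pi.algebraMap_apply]
      exact (galois_algebraMap_Rl ℓ σ r).symm
    · simp only [Pi.algebraMap_apply]
      exact isIntegral_algebraMap

theorem mem_eqvIntAlg (ℓ : ℕ) {X : Type} (actX : GQ → X → X) (a : X → Qb) :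
    a ∈ eqvIntAlg ℓ actX ↔ IsEqvInt ℓ actX a := Iff.rfl

theorem isFractionRing_Rl (ℓ : ℕ) [Fact ℓ.Prime] : IsFractionRing (Rl ℓ) ℚ :=
  IsFractionRing.isFractionRing_of_isDomain_of_isLocalization
    (Ideal.span {(ℓ : ℤ)}).primeCompl (Rl ℓ) ℚ

/-- The equivariant integral functions on a finite `GQ`-set with open stabilisers form a finitely
generated `ℤ_(ℓ)`-module. -/
theorem eqvIntAlg_fg (ℓ : ℕ) [Fact ℓ.Prime] {X : Type} [Finite X] (actX : GQ → X → X)
    (hopen : ∃ L : IntermediateField ℚ Qb, FiniteDimensional ℚ L ∧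
      ∀ σ : GQ, (∀ y ∈ L, σ y = y) → ∀ x, actX σ x = x) :
    (Subalgebra.toSubmodule (eqvIntAlg ℓ actX)).FG := by
  obtain ⟨L, hLfin, hL⟩ := hopen
  have : IsAlgClosure ℚ (AlgebraicClosure ℚ) := ⟨inferInstance, AlgebraicClosure.isAlgebraic ℚ⟩
  have : IsScalarTower (Rl ℓ) L Qb := IsScalarTower.of_algebraMap_eq (fun _ => rfl)
  have : IsFractionRing (Rl ℓ) ℚ := isFractionRing_Rl ℓ
  have : Module.Finite (Rl ℓ) (integralClosure (Rl ℓ) L) :=
    IsIntegralClosure.finite (Rl ℓ) ℚ L (integralClosure (Rl ℓ) L)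
  let Φ : (X → integralClosure (Rl ℓ) L) →ₗ[Rl ℓ] (X → Qb) :=
    { toFun := fun f x => algebraMap L Qb (f x : L)
      map_add' := by
        intro f g
        funext x
        simp
      map_smul' := by
        intro r f
        funext x
        simp only [Pi.smul_apply, RingHom.id_apply]
        rw [Subalgebra.coe_smul, Algebra.smul_def, map_mul, Algebra.smul_def,
          ← IsScalarTower.algebraMap_apply] }
  have hle : Subalgebra.toSubmodule (eqvIntAlg ℓ actX) ≤ LinearMap.range Φ := by
    intro a ha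
    have ha' : IsEqvInt ℓ actX a := ha
    have hmem : ∀ x, a x ∈ L := by
      intro x
      rw [← InfiniteGalois.fixedField_fixingSubgroup L, IntermediateField.mem_fixedField_iff]
      intro σ hσ
      rw [← ha'.1 σ x, hL σ (fun y hy => hσ ⟨y, hy⟩)]
    have hint : ∀ x, IsIntegral (Rl ℓ) (⟨a x, hmem x⟩ : L) := by
      intro x
      rw [← isIntegral_algebraMap_iff (B := Qb) (algebraMap L Qb).injective]
      exact ha'.2 x
    exact ⟨fun x => ⟨⟨a x, hmem x⟩, hint x⟩, rfl⟩
  have hfg : (LinearMap.range Φ).FG := by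
    rw [LinearMap.range_eq_map]
    exact Submodule.FG.map Φ (Module.Finite.fg_top)
  exact Submodule.FG.of_le hfg hle

instance isTorsionFree_eqvIntAlg (ℓ : ℕ) [Fact ℓ.Prime] {X : Type} (actX : GQ → X → X) :
    Module.IsTorsionFree (Rl ℓ) (eqvIntAlg ℓ actX) := by
  refine ⟨fun r hr a b hab => ?_⟩
  have hr0 : algebraMap (Rl ℓ) Qb r ≠ 0 := by
    intro h
    have h1 : ((r : ℚ) : Qb) = 0 := h
    have h2 : (r : ℚ) = 0 := by exact_mod_cast h1
    have h3 : r = 0 := Subtype.ext h2
    exact hr.ne_zero h3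
  apply Subtype.ext
  funext x
  have h4 := congrFun (congrArg Subtype.val hab) x
  simp only [Algebra.smul_def] at h4
  exact mul_left_cancel₀ hr0 h4

/-- A `ℤ_(ℓ)`-basis of the equivariant integral functions. -/
theorem exists_basis_eqvIntAlg (ℓ : ℕ) [Fact ℓ.Prime] {X : Type} [Finite X] (actX : GQ → X → X)
    (hopen : ∃ L : IntermediateField ℚ Qb, FiniteDimensional ℚ L ∧
      ∀ σ : GQ, (∀ y ∈ L, σ y = y) → ∀ x, actX σ x = x) :
    ∃ (r : ℕ) (a : Fin r → X → Qb), (∀ i, IsEqvInt ℓ actX (a i)) ∧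
      (∀ b, IsEqvInt ℓ actX b → ∃ c : Fin r → Rl ℓ, b = ∑ i, c i • a i) ∧
      (∀ c : Fin r → Rl ℓ, ∑ i, c i • a i = 0 → ∀ i, c i = 0) := by
  have : Module.Finite (Rl ℓ) (eqvIntAlg ℓ actX) :=
    Module.Finite.iff_fg.mpr (eqvIntAlg_fg ℓ actX hopen)
  have : Module.Free (Rl ℓ) (eqvIntAlg ℓ actX) := Module.free_of_finite_type_torsion_free'
  let B := Module.finBasis (Rl ℓ) (eqvIntAlg ℓ actX)
  refine ⟨_, fun i => (B i : X → Qb), fun i => (B i).2, ?_, ?_⟩
  · intro b hb
    refine ⟨fun i => B.repr ⟨b, hb⟩ i, ?_⟩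
    have h := congrArg (Subalgebra.val (eqvIntAlg ℓ actX)) (B.sum_repr ⟨b, hb⟩)
    simp only [map_sum, map_smul, Subalgebra.coe_val] at h
    exact h.symm
  · intro c hc
    have h : ∑ i, c i • B i = 0 := by
      apply Subtype.ext
      have h' : (Subalgebra.val (eqvIntAlg ℓ actX)) (∑ i, c i • B i) = ∑ i, c i • (B i : X → Qb) := by
        simp only [map_sum, map_smul, Subalgebra.coe_val]
      exact h'.trans hc
    exact Fintype.linearIndependent_iff.mp B.linearIndependent c h

/-! ### Galois descent of linear independence -/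

/-- Equivariant functions which are linearly independent over `ℚ` are linearly independent over
`Qbar`. -/
theorem linearIndependent_of_eqv {X : Type} (actX : GQ → X → X)
    (hX : ∀ σ, Function.Surjective (actX σ)) {r : ℕ} (a : Fin r → X → Qb)
    (heqv : ∀ i (σ : GQ) x, a i (actX σ x) = σ (a i x))
    (hQ : ∀ q : Fin r → ℚ, (∑ i, algebraMap ℚ Qb (q i) • a i = 0) → ∀ i, q i = 0) :
    LinearIndependent Qb a := by
  classical
  have : IsAlgClosure ℚ (AlgebraicClosure ℚ) := ⟨inferInstance, AlgebraicClosure.isAlgebraic ℚ⟩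
  by_contra hli
  rw [Fintype.linearIndependent_iff] at hli
  push Not at hli
  -- relations
  let supp : (Fin r → Qb) → Finset (Fin r) := fun g => Finset.univ.filter (fun i => g i ≠ 0)
  have hex : ∃ n, ∃ g : Fin r → Qb, ∑ i, g i • a i = 0 ∧ (∃ i, g i ≠ 0) ∧ (supp g).card = n := by
    obtain ⟨g, hg, hne⟩ := hli
    exact ⟨_, g, hg, hne, rfl⟩
  obtain ⟨g, hg, ⟨i0, hi0⟩, hcard⟩ := Nat.find_spec hex
  have hmin : ∀ g' : Fin r → Qb, ∑ i, g' i • a i = 0 → (supp g').card < Nat.find hex →
      ∀ i, g' i = 0 := by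
    intro g' hg' hlt
    by_contra hne
    push Not at hne
    exact Nat.find_min hex hlt ⟨g', hg', hne, rfl⟩
  -- the conjugate relation
  have hconj : ∀ (σ : GQ) (g' : Fin r → Qb), ∑ i, g' i • a i = 0 →
      ∑ i, σ (g' i) • a i = 0 := by
    intro σ g' hg'
    funext x
    obtain ⟨x', rfl⟩ := hX σ x
    have h := congrFun hg' x'
    simp only [Finset.sum_apply, Pi.smul_apply, smul_eq_mul, Pi.zero_apply] at h ⊢
    have h2 := congrArg σ h
    rw [map_sum, map_zero] at h2
    rw [← h2]
    refine Finset.sum_congr rfl fun i _ => ?_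
    rw [map_mul, heqv]
  -- normalise
  let g1 : Fin r → Qb := fun i => (g i0)⁻¹ * g i
  have hg1 : ∑ i, g1 i • a i = 0 := by
    have : ∑ i, g1 i • a i = (g i0)⁻¹ • ∑ i, g i • a i := by
      rw [Finset.smul_sum]
      refine Finset.sum_congr rfl fun i _ => ?_
      rw [smul_smul]
    rw [this, hg, smul_zero]
  have hg1i0 : g1 i0 = 1 := inv_mul_cancel₀ hi0
  have hsupp1 : supp g1 = supp g := by
    ext i
    simp only [supp, g1, Finset.mem_filter, Finset.mem_univ, true_and, ne_eq, mul_eq_zero,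
      inv_eq_zero, not_or]
    exact ⟨fun h => h.2, fun h => ⟨hi0, h⟩⟩
  have hfix : ∀ (σ : GQ) i, σ (g1 i) = g1 i := by
    intro σ i
    let g2 : Fin r → Qb := fun i => g1 i - σ (g1 i)
    have hg2 : ∑ i, g2 i • a i = 0 := by
      simp only [g2, sub_smul, Finset.sum_sub_distrib, hg1, hconj σ g1 hg1, sub_zero]
    have hlt : (supp g2).card < Nat.find hex := by
      rw [← hcard, ← hsupp1]
      apply Finset.card_lt_card
      rw [Finset.ssubset_iff_of_subset]
      · refine ⟨i0, ?_, ?_⟩
        · simp [supp, hg1i0]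
        · simp [supp, g2, hg1i0]
      · intro i hi
        simp only [supp, g2, Finset.mem_filter, Finset.mem_univ, true_and, ne_eq] at hi ⊢
        intro h0
        apply hi
        rw [h0, map_zero, sub_zero]
    have := hmin g2 hg2 hlt i
    exact (sub_eq_zero.mp this).symm
  have hrat : ∀ i, ∃ q : ℚ, algebraMap ℚ Qb q = g1 i := by
    intro i
    exact (InfiniteGalois.mem_range_algebraMap_iff_fixed (g1 i)).mpr (fun σ => hfix σ i)
  choose q hq using hrat
  have hq0 := hQ q (by simp only [hq]; exact hg1)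
  have : g1 i0 = 0 := by rw [← hq i0, hq0 i0, map_zero]
  rw [hg1i0] at this
  exact one_ne_zero this

/-! ### Auxiliary lemmas on function models -/

/-- Re-indexing of a comultiplication formula by an arbitrary finite type. -/
theorem comul_of_fintype {ℓ : ℕ} {M : Type} [AddCommGroup M] (H : Subalgebra (Rl ℓ) (M → Qb))
    (φ : M → Qb) {J : Type} [Fintype J] (a b : J → M → Qb) (ha : ∀ j, a j ∈ H)
    (hb : ∀ j, b j ∈ H) (h : ∀ m m', φ (m + m') = ∑ j, a j m * b j m') :
    ∃ (n : ℕ) (a b : Fin n → M → Qb), (∀ i, a i ∈ H) ∧ (∀ i, b i ∈ H) ∧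
      ∀ m m' : M, φ (m + m') = ∑ i, a i m * b i m' := by
  classical
  refine ⟨Fintype.card J, fun i => a ((Fintype.equivFin J).symm i),
    fun i => b ((Fintype.equivFin J).symm i), fun i => ha _, fun i => hb _, ?_⟩
  intro m m'
  rw [h]
  exact (Equiv.sum_comp (Fintype.equivFin J).symm (fun j => a j m * b j m')).symm

/-- A function on a finite type with integral values is integral. -/
theorem isIntegral_pi (ℓ : ℕ) {M : Type} [Finite M] (f : M → Qb)
    (hf : ∀ m, IsIntegral (Rl ℓ) (f m)) : IsIntegral (Rl ℓ) f := by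
  classical
  have := Fintype.ofFinite M
  choose p hp hpf using hf
  refine ⟨∏ m, p m, monic_prod_of_monic _ _ (fun m _ => hp m), ?_⟩
  funext m
  have h1 : (eval₂ (algebraMap (Rl ℓ) (M → Qb)) f (∏ m, p m)) m
      = eval₂ (algebraMap (Rl ℓ) Qb) (f m) (∏ m, p m) := by
    have := aeval_algHom_apply (Pi.evalAlgHom (Rl ℓ) (fun _ : M => Qb) m) f (∏ m, p m)
    simp only [Pi.evalAlgHom_apply] at this
    exact this.symm
  rw [h1, Pi.zero_apply, eval₂_finsetProd]
  exact Finset.prod_eq_zero (Finset.mem_univ m) (hpf m)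

/-! ### The criterion -/

/-- **Cartier-dual criterion.**  A finite `GQ`-module `M` has a function model over `ℤ_(ℓ)` as
soon as there is an equivariant pairing `e : X → M → Qbar`, multiplicative and separating in the
second variable, all of whose characters `e(·, y)` are `A`-linear combinations of equivariant
integral functions on `X`, for ONE valuation ring `A` of `Qbar` with `A ∩ ℚ = ℤ_(ℓ)`. -/
theorem galModel_of_pairing (ℓ : ℕ) [Fact ℓ.Prime]
    (M : Type) [AddCommGroup M] [Finite M] (act : GQ → M → M)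
    (X : Type) [Finite X] (actX : GQ → X → X)
    (hX : ∀ σ, Function.Surjective (actX σ))
    (hopen : ∃ L : IntermediateField ℚ Qb, FiniteDimensional ℚ L ∧
      ∀ σ : GQ, (∀ y ∈ L, σ y = y) → ∀ x, actX σ x = x)
    (A : ValuationSubring Qb)
    (hA : ∀ q : ℚ, algebraMap ℚ Qb q ∈ A ↔ q ∈ GaloisRep.ratLocalizedAt ℓ)
    (e : X → M → Qb)
    (hmul : ∀ x y y', e x (y + y') = e x y * e x y')
    (heqv : ∀ (σ : GQ) x y, e (actX σ x) (act σ y) = σ (e x y))
    (hnd : ∀ y y', y ≠ y' → ∃ x, e x y ≠ e x y')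
    (hint : ∀ y, ∃ (n : ℕ) (c : Fin n → Qb) (a : Fin n → X → Qb),
      (∀ i, c i ∈ A) ∧ (∀ i, IsEqvInt ℓ actX (a i)) ∧ ∀ x, e x y = ∑ i, c i * a i x) :
    GalModel ℓ M act := by
  classical
  obtain ⟨r, a, haE, hspan, hindR⟩ := exists_basis_eqvIntAlg ℓ actX hopen
  have hRA : ∀ s : Rl ℓ, algebraMap (Rl ℓ) Qb s ∈ A := fun s => (hA (s : ℚ)).mpr s.2
  -- `Qbar`-linear independence of the basis
  have hind : LinearIndependent Qb a := by
    refine linearIndependent_of_eqv actX hX a (fun i => (haE i).1) ?_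
    intro q hq
    -- clear denominators
    let d : ℕ := ∏ i, (q i).den
    have hd0 : (d : ℚ) ≠ 0 := by
      have : d ≠ 0 := Finset.prod_ne_zero_iff.mpr (fun i _ => (q i).den_nz)
      exact_mod_cast this
    have hmemR : ∀ i, (d : ℚ) * q i ∈ GaloisRep.ratLocalizedAt ℓ := by
      intro i
      have hdvd : (q i).den ∣ d := Finset.dvd_prod_of_mem _ (Finset.mem_univ i)
      obtain ⟨k, hk⟩ := hdvd
      have : (d : ℚ) * q i = ((k * (q i).num : ℤ) : ℚ) := by
        rw [hk]
        push_cast
        have h1 : ((q i).den : ℚ) * q i = (q i).num := Rat.den_mul_eq_num (q i)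
        calc ((q i).den : ℚ) * (k : ℚ) * q i = (k : ℚ) * (((q i).den : ℚ) * q i) := by ring
          _ = (k : ℚ) * (q i).num := by rw [h1]
      rw [this]
      exact Fermat.Agent.S28.helper508.intCast_mem ℓ _
    have h0 := hindR (fun i => ⟨(d : ℚ) * q i, hmemR i⟩) (by
      have : ∑ i, (⟨(d : ℚ) * q i, hmemR i⟩ : Rl ℓ) • a i
          = algebraMap ℚ Qb (d : ℚ) • ∑ i, algebraMap ℚ Qb (q i) • a i := by
        rw [Finset.smul_sum]
        refine Finset.sum_congr rfl fun i _ => ?_
        rw [smul_smul, ← map_mul]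
        funext x
        simp only [Pi.smul_apply, Algebra.smul_def]
        rfl
      rw [this, hq, smul_zero])
    intro i
    have h1 : (d : ℚ) * q i = 0 := congrArg Subtype.val (h0 i)
    exact (mul_eq_zero.mp h1).resolve_left hd0
  -- coefficients of the characters
  have hcoef : ∀ y, ∃ φ : Fin r → Qb, (∀ i, φ i ∈ A) ∧ ∀ x, e x y = ∑ i, φ i * a i x := by
    intro y
    obtain ⟨n, c, b, hc, hb, hexp⟩ := hint y
    choose d hd using fun k => hspan (b k) (hb k)
    refine ⟨fun i => ∑ k, c k * algebraMap (Rl ℓ) Qb (d k i), fun i => ?_, fun x => ?_⟩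
    · exact Subring.sum_mem A.toSubring (fun k _ => A.mul_mem _ _ (hc k) (hRA _))
    · rw [hexp x]
      have hbx : ∀ k, b k x = ∑ i, algebraMap (Rl ℓ) Qb (d k i) * a i x := by
        intro k
        have := congrFun (hd k) x
        simp only [Finset.sum_apply, Algebra.smul_def] at this
        exact this
      simp only [hbx, Finset.mul_sum, Finset.sum_mul]
      rw [Finset.sum_comm]
      refine Finset.sum_congr rfl fun i _ => Finset.sum_congr rfl fun k _ => ?_
      ring
  choose φ hφA hφ using hcoef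
  have huniq : ∀ y (ψ : Fin r → Qb), (∀ x, e x y = ∑ i, ψ i * a i x) → ψ = φ y := by
    intro y ψ hψ
    have h := Fintype.linearIndependent_iff.mp hind (fun i => ψ i - φ y i) (by
      funext x
      simp only [Finset.sum_apply, Pi.smul_apply, smul_eq_mul, sub_mul, Finset.sum_sub_distrib,
        Pi.zero_apply]
      rw [← hψ x, ← hφ y x, sub_self])
    funext i
    exact sub_eq_zero.mp (h i)
  -- equivariance of the coefficients
  have hφeqv : ∀ (σ : GQ) y i, φ (act σ y) i = σ (φ y i) := by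
    intro σ y i
    have h := huniq (act σ y) (fun i => σ (φ y i)) (by
      intro x
      obtain ⟨x', rfl⟩ := hX σ x
      rw [heqv, hφ y x', map_sum]
      refine Finset.sum_congr rfl fun i _ => ?_
      rw [map_mul, (haE i).1])
    exact (congrFun h i).symm
  -- integrality of the coefficients
  have hφint : ∀ y i, IsIntegral (Rl ℓ) (φ y i) := by
    intro y i
    refine isIntegral_of_forall_conj_mem ℓ A (fun q hq => (hA q).mp hq) _ (fun σ => ?_)
    rw [← hφeqv]
    exact hφA _ _
  -- structure constants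
  have hstruct : ∀ i j, ∃ c : Fin r → Rl ℓ, a i * a j = ∑ k, c k • a k := fun i j =>
    hspan (a i * a j) ((eqvIntAlg ℓ actX).mul_mem (haE i) (haE j))
  choose c hc using hstruct
  have hφadd : ∀ y y' k, φ (y + y') k
      = ∑ p : Fin r × Fin r, (algebraMap (Rl ℓ) Qb (c p.1 p.2 k) * φ y p.1) * φ y' p.2 := by
    intro y y' k
    have h := huniq (y + y')
      (fun k => ∑ p : Fin r × Fin r, (algebraMap (Rl ℓ) Qb (c p.1 p.2 k) * φ y p.1) * φ y' p.2)
      (by
        intro x
        rw [hmul, hφ y x, hφ y' x, Finset.sum_mul_sum]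
        have hprod : ∀ i j, a i x * a j x = ∑ k, algebraMap (Rl ℓ) Qb (c i j k) * a k x := by
          intro i j
          have := congrFun (hc i j) x
          simp only [Pi.mul_apply, Finset.sum_apply, Algebra.smul_def] at this
          exact this
        have h1 : ∀ i j, φ y i * a i x * (φ y' j * a j x)
            = ∑ k, (algebraMap (Rl ℓ) Qb (c i j k) * φ y i * φ y' j) * a k x := by
          intro i j
          calc φ y i * a i x * (φ y' j * a j x) = φ y i * φ y' j * (a i x * a j x) := by ring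
            _ = φ y i * φ y' j * ∑ k, algebraMap (Rl ℓ) Qb (c i j k) * a k x := by rw [hprod]
            _ = ∑ k, (algebraMap (Rl ℓ) Qb (c i j k) * φ y i * φ y' j) * a k x := by
                rw [Finset.mul_sum]
                refine Finset.sum_congr rfl fun k _ => ?_
                ring
        simp only [h1, Finset.sum_mul]
        conv_rhs => rw [Finset.sum_comm]
        rw [Fintype.sum_prod_type])
    exact (congrFun h k).symm
  -- the function model
  let Φ : Fin r → M → Qb := fun i y => φ y i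
  let H : Subalgebra (Rl ℓ) (M → Qb) := Algebra.adjoin (Rl ℓ) (Set.range Φ)
  have hΦH : ∀ i, Φ i ∈ H := fun i => Algebra.subset_adjoin ⟨i, rfl⟩
  refine ⟨H, ?_, ?_, ?_, ?_⟩
  · -- finite
    refine Module.Finite.iff_fg.mpr (fg_adjoin_of_finite (Set.finite_range Φ) ?_)
    rintro _ ⟨i, rfl⟩
    exact isIntegral_pi ℓ (Φ i) (fun y => hφint y i)
  · -- equivariant
    intro ψ hψ σ m
    induction hψ using Algebra.adjoin_induction with
    | mem ψ hψ =>
      obtain ⟨i, rfl⟩ := hψ
      exact hφeqv σ m i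
    | algebraMap s =>
      simp only [Pi.algebraMap_apply]
      exact (galois_algebraMap_Rl ℓ σ s).symm
    | add ψ ψ' _ _ h h' => simp only [Pi.add_apply, map_add, h, h']
    | mul ψ ψ' _ _ h h' => simp only [Pi.mul_apply, map_mul, h, h']
  · -- separating
    intro m m' hne
    obtain ⟨x, hx⟩ := hnd m m' hne
    by_contra hcon
    push Not at hcon
    apply hx
    rw [hφ m x, hφ m' x]
    refine Finset.sum_congr rfl fun i _ => ?_
    have := hcon (Φ i) (hΦH i)
    change φ m i = φ m' i at this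
    rw [this]
  · -- comultiplication
    intro ψ hψ
    induction hψ using Algebra.adjoin_induction with
    | mem ψ hψ =>
      obtain ⟨k, rfl⟩ := hψ
      refine comul_of_fintype H (Φ k)
        (fun p : Fin r × Fin r => algebraMap (Rl ℓ) (M → Qb) (c p.1 p.2 k) * Φ p.1)
        (fun p : Fin r × Fin r => Φ p.2)
        (fun p => H.mul_mem (H.algebraMap_mem _) (hΦH _)) (fun p => hΦH _) ?_
      intro m m'
      exact hφadd m m' k
    | algebraMap s =>
      refine ⟨1, fun _ => algebraMap (Rl ℓ) (M → Qb) s, fun _ => 1,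
        fun _ => H.algebraMap_mem _, fun _ => H.one_mem, ?_⟩
      intro m m'
      simp
    | add ψ ψ' _ _ h h' =>
      obtain ⟨n, a1, b1, ha1, hb1, h1⟩ := h
      obtain ⟨n', a2, b2, ha2, hb2, h2⟩ := h'
      refine comul_of_fintype H (ψ + ψ') (Sum.elim a1 a2) (Sum.elim b1 b2) ?_ ?_ ?_
      · rintro (i | i)
        · exact ha1 i
        · exact ha2 i
      · rintro (i | i)
        · exact hb1 i
        · exact hb2 i
      · intro m m'
        rw [Fintype.sum_sum_type]
        simp only [Pi.add_apply, Sum.elim_inl, Sum.elim_inr, h1, h2]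
    | mul ψ ψ' _ _ h h' =>
      obtain ⟨n, a1, b1, ha1, hb1, h1⟩ := h
      obtain ⟨n', a2, b2, ha2, hb2, h2⟩ := h'
      refine comul_of_fintype H (ψ * ψ')
        (fun p : Fin n × Fin n' => a1 p.1 * a2 p.2) (fun p : Fin n × Fin n' => b1 p.1 * b2 p.2)
        (fun p => H.mul_mem (ha1 _) (ha2 _)) (fun p => H.mul_mem (hb1 _) (hb2 _)) ?_
      intro m m'
      simp only [Pi.mul_apply, h1, h2]
      rw [Finset.sum_mul_sum, Fintype.sum_prod_type]
      refine Finset.sum_congr rfl fun i _ => Finset.sum_congr rfl fun j _ => ?_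
      ring

end

end Fermat.Agent.S19.helper2790
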