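import Mathlib
import Fermat.Prelude.Def_ModularCurve_ArithmeticGalois
import Fermat.Agent.S19.helper2111_Spec
import Fermat.Agent.S19.helper2790_WeilCriterion

set_option autoImplicit false

/-!
# S19, route W (Weil pairing + Cartier-dual criterion): Spec file (architect helper2790)

`Stmt_Model N ℓ k  <=  WeilExists + WeilUnique + WeilMul + WeilSemilinear + WeilND + Stmt_WeilInt`
(+ finiteness and open stabilisers, both landed).  See findings #3057.

Vocabulary (Prelude `Place` / `Divisor` / `Pic0`, any function field `F` over `K`):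

* `HasValue P f c`      : `f - c` lies in the maximal ideal of `P` (the shape of the landed
                          value-norm formula `S37.helper4612.norm_sub_prod_mem_nonunits`).
* `IsDivOf f D`         : `f ≠ 0` and `D = div f`.
* `IsDivValue f D c`    : `c = f(D) = ∏_P f(P)^(D P)`, all values on `supp D` finite and nonzero.
* `IsWeilValue n x y c` : `c = f_x(D_y) / f_y(D_x)` for some representatives `D_x`, `D_y` with
                          disjoint supports and `div f_x = n D_x`, `div f_y = n D_y`.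

Leaves:

* W1b `Reciprocity K F`                (Weil reciprocity, disjoint supports)
* W1c `WeilExists`, `WeilUnique`, `WeilMul`, `WeilSemilinear`
* W2  `WeilND`                         (Kummer extension + divisibility of `Pic0`)
* W3  `Stmt_WeilInt N ℓ k`             (integrality of the characters `x ↦ e(x, y)`; uses W4)
-/

namespace Fermat.Agent.S19.helper2790

open AlgebraicCurve ModularCurve Fermat.Agent.S19.helper2111

noncomputable section

/-! ## Vocabulary -/

section Vocab

variable {K F : Type*} [Field K] [Field F] [Algebra K F]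

/-- `f` takes the value `c` at the place `P` (in particular `f` is regular at `P`). -/
def HasValue (P : Place K F) (f : F) (c : K) : Prop :=
  f - algebraMap K F c ∈ P.toValuationSubring.nonunits

/-- `D` is the divisor of the nonzero function `f`. -/
def IsDivOf (f : F) (D : Divisor K F) : Prop :=
  f ≠ 0 ∧ ∀ v : Place K F, D v = v.ord f

/-- `c = f(D) = ∏_P f(P)^(D P)`, where every value `f(P)`, `P ∈ supp D`, is finite and nonzero. -/
def IsDivValue (f : F) (D : Divisor K F) (c : K) : Prop :=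
  ∃ val : Place K F → K, (∀ P ∈ D.support, HasValue P f (val P) ∧ val P ≠ 0) ∧
    c = D.prod (fun P m => val P ^ m)

/-- `c` is a value of the Weil pairing: `c = f_x(D_y) / f_y(D_x)`. -/
def IsWeilValue (n : ℕ) (x y : Pic0 K F) (c : K) : Prop :=
  ∃ (Dx Dy : Divisor.degZero (K := K) (F := F)) (fx fy : F) (a b : K),
    Pic0.mk Dx = x ∧ Pic0.mk Dy = y ∧
    IsDivOf fx (n • (Dx : Divisor K F)) ∧ IsDivOf fy (n • (Dy : Divisor K F)) ∧
    Disjoint (Dx : Divisor K F).support (Dy : Divisor K F).support ∧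
    IsDivValue fx (Dy : Divisor K F) a ∧ IsDivValue fy (Dx : Divisor K F) b ∧ c = a / b

theorem IsDivValue.ne_zero {f : F} {D : Divisor K F} {c : K} (h : IsDivValue f D c) : c ≠ 0 := by
  obtain ⟨val, hval, rfl⟩ := h
  rw [Finsupp.prod, Finset.prod_ne_zero_iff]
  intro P hP
  exact zpow_ne_zero _ (hval P hP).2

theorem IsWeilValue.ne_zero {n : ℕ} {x y : Pic0 K F} {c : K} (h : IsWeilValue n x y c) :
    c ≠ 0 := by
  obtain ⟨Dx, Dy, fx, fy, a, b, -, -, -, -, -, ha, hb, rfl⟩ := h
  exact div_ne_zero ha.ne_zero hb.ne_zero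

variable (K F)

/-- W1b. Weil reciprocity `f(div g) = g(div f)` for functions with disjoint divisors. -/
def Reciprocity : Prop :=
  ∀ (f g : F) (D E : Divisor K F) (a b : K), IsDivOf f D → IsDivOf g E →
    Disjoint D.support E.support → IsDivValue f E a → IsDivValue g D b → a = b

/-- W1c (i). The Weil pairing is defined on the `n`-torsion. -/
def WeilExists (n : ℕ) : Prop :=
  ∀ x y : Pic0 K F, (n : ℤ) • x = 0 → (n : ℤ) • y = 0 → ∃ c : K, IsWeilValue n x y c

/-- W1c (ii). The value of the Weil pairing does not depend on the choices. -/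
def WeilUnique (n : ℕ) : Prop :=
  ∀ (x y : Pic0 K F) (c c' : K), IsWeilValue n x y c → IsWeilValue n x y c' → c = c'

/-- W1c (iii). Multiplicativity in the second variable. -/
def WeilMul (n : ℕ) : Prop :=
  ∀ (x y y' : Pic0 K F) (c c' : K), IsWeilValue n x y c → IsWeilValue n x y' c' →
    IsWeilValue n x (y + y') (c * c')

/-- W1c (iv). Equivariance under semilinear automorphisms. -/
def WeilSemilinear (n : ℕ) : Prop :=
  ∀ (g : SemilinearAut K F) (x y : Pic0 K F) (c : K), IsWeilValue n x y c →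
    IsWeilValue n (g • x) (g • y) (SemilinearAut.baseAut g c)

/-- W2. Nondegeneracy in the second variable. -/
def WeilND (n : ℕ) : Prop :=
  ∀ y : Pic0 K F, (n : ℤ) • y = 0 → y ≠ 0 →
    ∃ (x : Pic0 K F) (c : K), (n : ℤ) • x = 0 ∧ IsWeilValue n x y c ∧ c ≠ 1

end Vocab

/-! ## The modular instance -/

/-- W3. Integrality of the characters of `J₀(N)[ℓ^k]` given by the Weil pairing, at ONE valuation
ring `A` of `Qbar` above `ℓ`: every `x ↦ e(x, y)` is an `A`-linear combination of equivariant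
`ℤ_(ℓ)`-integral functions. -/
def Stmt_WeilInt (N ℓ k : ℕ) : Prop :=
  ∃ A : ValuationSubring Qb,
    (∀ q : ℚ, algebraMap ℚ Qb q ∈ A ↔ q ∈ GaloisRep.ratLocalizedAt ℓ) ∧
    ∀ y : Tors N ℓ k, ∃ (m : ℕ) (c : Fin m → Qb) (a : Fin m → Tors N ℓ k → Qb),
      (∀ i, c i ∈ A) ∧ (∀ i, IsEqvInt ℓ (torsAct N ℓ k) (a i)) ∧
      ∀ (x : Tors N ℓ k) (v : Qb),
        IsWeilValue (ℓ ^ k) (x : JZero N) (y : JZero N) v → v = ∑ i, c i * a i x

theorem tors_natCast_smul (N ℓ k : ℕ) (x : Tors N ℓ k) :
    ((ℓ ^ k : ℕ) : ℤ) • (x : JZero N) = 0 := by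
  have h := x.2
  rw [Submodule.mem_torsionBy_iff] at h
  rw [Nat.cast_pow]
  exact h

/-- **Route W assembly**: the `ℓ^k`-torsion of `J₀(N)` has a function model as soon as the Weil
pairing exists, is well defined, multiplicative, Galois equivariant, nondegenerate and integral
at one place above `ℓ`. -/
theorem stmt_Model_of_weil (N ℓ k : ℕ) [Fact ℓ.Prime]
    (hfin : Stmt_Fin N ℓ k)
    (hopen : ∃ L : IntermediateField ℚ Qb, FiniteDimensional ℚ L ∧
      ∀ σ : GQ, (∀ y ∈ L, σ y = y) → ∀ x : Tors N ℓ k, torsAct N ℓ k σ x = x)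
    (hE : WeilExists Qb (modularFunctionFieldBar N) (ℓ ^ k))
    (hU : WeilUnique Qb (modularFunctionFieldBar N) (ℓ ^ k))
    (hM : WeilMul Qb (modularFunctionFieldBar N) (ℓ ^ k))
    (hG : WeilSemilinear Qb (modularFunctionFieldBar N) (ℓ ^ k))
    (hND : WeilND Qb (modularFunctionFieldBar N) (ℓ ^ k))
    (hI : Stmt_WeilInt N ℓ k) :
    Stmt_Model N ℓ k := by
  classical
  have : Finite (Tors N ℓ k) := hfin
  obtain ⟨A, hA, hint⟩ := hI
  -- the pairing
  have hex : ∀ x y : Tors N ℓ k, ∃ c : Qb, IsWeilValue (ℓ ^ k) (x : JZero N) (y : JZero N) c :=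
    fun x y => hE _ _ (tors_natCast_smul N ℓ k x) (tors_natCast_smul N ℓ k y)
  choose e he using hex
  refine galModel_of_pairing ℓ (Tors N ℓ k) (torsAct N ℓ k) (Tors N ℓ k) (torsAct N ℓ k)
    (torsAct_surjective N ℓ k) hopen A hA e ?_ ?_ ?_ ?_
  · -- multiplicativity
    intro x y y'
    exact hU _ _ _ _ (he x (y + y')) (hM _ _ _ _ _ (he x y) (he x y'))
  · -- equivariance
    intro σ x y
    have h := hG (arithmeticGalois (modularFunctionFieldFull N) σ) _ _ _ (he x y)
    exact hU _ _ _ _ (he (torsAct N ℓ k σ x) (torsAct N ℓ k σ y)) h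
  · -- nondegeneracy
    intro y y' hne
    have hsub : ((y - y' : Tors N ℓ k) : JZero N) ≠ 0 := by
      intro h
      apply hne
      have h2 : y - y' = 0 := Subtype.ext h
      exact sub_eq_zero.mp h2
    obtain ⟨x, c, hx, hc, hc1⟩ := hND _ (tors_natCast_smul N ℓ k (y - y')) hsub
    have hxmem : x ∈ Submodule.torsionBy ℤ (JZero N) ((ℓ : ℤ) ^ k) := by
      rw [Submodule.mem_torsionBy_iff, ← Nat.cast_pow]
      exact hx
    refine ⟨⟨x, hxmem⟩, ?_⟩
    have h1 : e ⟨x, hxmem⟩ (y - y') = c := hU _ _ _ _ (he ⟨x, hxmem⟩ (y - y')) hc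
    have h2 : e ⟨x, hxmem⟩ y = e ⟨x, hxmem⟩ (y - y') * e ⟨x, hxmem⟩ y' := by
      have h3 := hU _ _ _ _ (he ⟨x, hxmem⟩ (y - y' + y'))
        (hM _ _ _ _ _ (he ⟨x, hxmem⟩ (y - y')) (he ⟨x, hxmem⟩ y'))
      rwa [sub_add_cancel] at h3
    intro h4
    rw [h2, h1] at h4
    have h5 : e ⟨x, hxmem⟩ y' ≠ 0 := (he ⟨x, hxmem⟩ y').ne_zero
    apply hc1
    have h6 : c * e ⟨x, hxmem⟩ y' = 1 * e ⟨x, hxmem⟩ y' := by rw [one_mul]; exact h4
    exact mul_right_cancel₀ h5 h6
  · -- integrality
    intro y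
    obtain ⟨m, c, a, hc, ha, hv⟩ := hint y
    exact ⟨m, c, a, hc, ha, fun x => hv x _ (he x y)⟩

end

end Fermat.Agent.S19.helper2790
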