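/-
S19, route W (findings #3057, Spec `helper2790_SpecW`), leaf W1c (helper1527): THE WEIL PAIRING
as a relation is defined on the torsion, well defined, multiplicative and Galois equivariant.

Setting: `K`, `F` arbitrary fields, `F` a `K`-algebra, with
* `[HasPrincipalDivisors K F]`        (principal divisors exist and have degree `0`),
* `hV : ∀ P : Place K F, HasValues P`  (all residue fields are `K`; automatic for `K` alg. closed),
* `hR : helper2790.Reciprocity K F`    (Weil reciprocity, leaf W1b) where stated.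

Main results (the four W1c Props of `helper2790_SpecW`):
* `weilExists hV n : WeilExists K F n`
* `weilUnique hV hR n : WeilUnique K F n`
* `weilMul hV hR n : WeilMul K F n`
* `weilSemilinear n : WeilSemilinear K F n`        (no hypothesis at all)

Working form of the relation (`isWeilValue_iff`): `IsWeilValue n x y c` iff there are admissible
data `IsRep n x Dx fx`, `IsRep n y Dy fy` with disjoint supports and
`c = divEval fx Dy / divEval fy Dx`, where `divEval f D = ∏_P (ev P f)^(D P)` (`helper1527_DivEval`).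

Exports for W2 / W3:
* `exists_rep`, `IsRep.exists_off` : admissible data exist on the torsion, and can be moved off any
  finite set of places (moving lemma over the field `K`; see also `S27.helper1070`).
* `isWeilValue_of_rep` : the ∃-intro from ANY admissible `(Dx, Dy, fx, fy)`.
* `isWeilValue_eq_of_rep` : the value computed from ANY admissible data (needs `hR`).
* `isWeilValue_symm`, `weilMulLeft`, `isWeilValue_nsmul_right`, `isWeilValue_pow_eq_one`,
  `isWeilValue_of_mul_exponent` (change of exponent `e_{mn}(x,y) = e_n(m x, y)`).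
-/
import Fermat.Agent.S19.helper2790_SpecW
import Fermat.Agent.S19.helper1527_DivEval

set_option autoImplicit false

open AlgebraicCurve

namespace Fermat.Agent.S19.helper1527

open Fermat.Agent.S19.helper2790
open Fermat.Agent.S27.helper6247 (ev)
open Fermat.Agent.S27.helper4586
open Fermat.Agent.S27 (helper1070.exists_ord_eq helper1070.ord_pow
  helper1070.mem_toValuationSubring_iff)

noncomputable section

variable {K F : Type*} [Field K] [Field F] [Algebra K F]

/-! ### Bridges between the Spec vocabulary and the evaluation kit -/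

theorem mem_nonunits_iff_adicValuation_lt (P : Place K F) (x : F) :
    x ∈ P.toValuationSubring.nonunits ↔ P.adicValuation x < 1 := by
  constructor
  · intro h
    obtain ⟨hx, hm⟩ := ValuationSubring.mem_nonunits_iff_exists_mem_maximalIdeal.mp h
    have h1 := P.adicValuation_coe ⟨x, hx⟩
    rw [show ((⟨x, hx⟩ : P.toValuationSubring) : F) = x from rfl] at h1
    rw [h1, IsDedekindDomain.HeightOneSpectrum.intValuation_lt_one_iff_mem,
      Place.heightOneSpectrum_asIdeal]
    exact hm
  · intro h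
    have hx : x ∈ P.toValuationSubring :=
      (helper1070.mem_toValuationSubring_iff P x).mpr h.le
    refine ValuationSubring.mem_nonunits_iff_exists_mem_maximalIdeal.mpr ⟨hx, ?_⟩
    have h1 := P.adicValuation_coe ⟨x, hx⟩
    rw [show ((⟨x, hx⟩ : P.toValuationSubring) : F) = x from rfl] at h1
    rw [h1, IsDedekindDomain.HeightOneSpectrum.intValuation_lt_one_iff_mem,
      Place.heightOneSpectrum_asIdeal] at h
    exact h

/-- The Spec relation `HasValue` is the relation `IsVal` of the landed S27 evaluation kit. -/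
theorem hasValue_iff_isVal {P : Place K F} {f : F} {c : K} : HasValue P f c ↔ IsVal P f c :=
  mem_nonunits_iff_adicValuation_lt P _

theorem disjoint_support_iff (D E : Divisor K F) :
    Disjoint D.support E.support ↔ ∀ P, D P = 0 ∨ E P = 0 := by
  rw [Finset.disjoint_left]
  constructor
  · intro h P
    by_cases hP : D P = 0
    · exact Or.inl hP
    · exact Or.inr (Finsupp.notMem_support_iff.mp (h (Finsupp.mem_support_iff.mpr hP)))
  · intro h P hP hP'
    rcases h P with h1 | h1
    · exact Finsupp.mem_support_iff.mp hP h1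
    · exact Finsupp.mem_support_iff.mp hP' h1

/-- `IsDivValue f D c` says: `f` is a unit at every point of `D`, and `c = divEval f D`. -/
theorem isDivValue_iff (hV : ∀ P : Place K F, HasValues P) {f : F} (hf : f ≠ 0)
    (D : Divisor K F) (c : K) :
    IsDivValue f D c ↔ (∀ P ∈ D.support, P.ord f = 0) ∧ c = divEval f D := by
  constructor
  · rintro ⟨val, hval, rfl⟩
    refine ⟨fun P hP => (hasValue_iff_isVal.mp (hval P hP).1).ord_eq_zero (hval P hP).2, ?_⟩
    unfold divEval
    exact Finsupp.prod_congr fun P hP => by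
      rw [(hasValue_iff_isVal.mp (hval P hP).1).ev_eq]
  · rintro ⟨h, rfl⟩
    exact ⟨fun P => ev P f, fun P hP =>
      ⟨hasValue_iff_isVal.mpr (isVal_ev (hV P) (h P hP).ge), ev_ne_zero_of_ord hV hf (h P hP)⟩,
      rfl⟩

/-- Reciprocity in `divEval` form. -/
theorem recip_divEval (hV : ∀ P : Place K F, HasValues P) (hR : Reciprocity K F) {f g : F}
    {D E : Divisor K F} (hf : IsDivOf f D) (hg : IsDivOf g E) (hd : ∀ P, D P = 0 ∨ E P = 0) :
    divEval f E = divEval g D := by
  refine hR f g D E _ _ hf hg ((disjoint_support_iff D E).mpr hd)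
    ((isDivValue_iff hV hf.1 E _).mpr ⟨fun P hP => ?_, rfl⟩)
    ((isDivValue_iff hV hg.1 D _).mpr ⟨fun P hP => ?_, rfl⟩)
  · rw [← hf.2 P]
    exact (hd P).resolve_right (Finsupp.mem_support_iff.mp hP)
  · rw [← hg.2 P]
    exact (hd P).resolve_left (Finsupp.mem_support_iff.mp hP)

/-! ### Functions without zeros and poles are constant -/

theorem exists_const_of_ord_eq_zero [HasPrincipalDivisors K F]
    (hV : ∀ P : Place K F, HasValues P) [Nonempty (Place K F)] {q : F} (hq : q ≠ 0)
    (hord : ∀ P : Place K F, P.ord q = 0) : ∃ c : K, c ≠ 0 ∧ q = algebraMap K F c := by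
  obtain ⟨P0⟩ := ‹Nonempty (Place K F)›
  have hval := isVal_ev (hV P0) (hord P0).ge
  have hc : ev P0 q ≠ 0 := ev_ne_zero_of_ord hV hq (hord P0)
  refine ⟨ev P0 q, hc, ?_⟩
  by_contra hne
  have hg : q - algebraMap K F (ev P0 q) ≠ 0 := sub_ne_zero.mpr hne
  obtain ⟨D, hD, hdeg⟩ := HasPrincipalDivisors.exists_divisor (K := K) _ hg
  have hnonneg : ∀ P : Place K F, 0 ≤ D P := by
    intro P
    rw [hD]
    have h1 : P.adicValuation (q - algebraMap K F (ev P0 q)) ≤ 1 :=
      P.adicValuation.map_sub_le ((adicValuation_le_one_iff P q).mpr (hord P).ge)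
        (adicValuation_algebraMap_le P _)
    exact (adicValuation_le_one_iff P _).mp h1
  have hpos : 0 < D P0 := by
    rw [hD]
    rcases (isVal_iff P0 q _).mp hval with h | h
    · exact absurd h hne
    · exact h
  rw [degree_eq_sum hV] at hdeg
  have hsum : 0 < ∑ P ∈ D.support, D P :=
    Finset.sum_pos' (fun P _ => hnonneg P) ⟨P0, Finsupp.mem_support_iff.mpr hpos.ne', hpos⟩
  omega

/-! ### Admissible data -/

/-- `(D, f)` is admissible for the class `x` at exponent `n`: `D` represents `x` and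
`div f = n D`. -/
structure IsRep (n : ℕ) (x : Pic0 K F) (D : Divisor.degZero (K := K) (F := F)) (f : F) :
    Prop where
  mk_eq : Pic0.mk D = x
  div : IsDivOf f (n • (D : Divisor K F))

namespace IsRep

variable {n : ℕ} {x x' : Pic0 K F} {D D' : Divisor.degZero (K := K) (F := F)} {f f' : F}

theorem ne_zero (h : IsRep n x D f) : f ≠ 0 := h.div.1

theorem ord_eq (h : IsRep n x D f) (P : Place K F) :
    P.ord f = (n : ℤ) * (D : Divisor K F) P := by
  rw [← h.div.2 P, Finsupp.smul_apply, nsmul_eq_mul]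

theorem ord_eq_zero (h : IsRep n x D f) {P : Place K F} (hP : (D : Divisor K F) P = 0) :
    P.ord f = 0 := by
  rw [h.ord_eq, hP, mul_zero]

theorem add (h : IsRep n x D f) (h' : IsRep n x' D' f') : IsRep n (x + x') (D + D') (f * f') := by
  refine ⟨by rw [Pic0.mk_add, h.mk_eq, h'.mk_eq], mul_ne_zero h.ne_zero h'.ne_zero, fun v => ?_⟩
  rw [v.ord_mul h.ne_zero h'.ne_zero, h.ord_eq, h'.ord_eq, Finsupp.smul_apply, nsmul_eq_mul,
    AddSubgroup.coe_add, Finsupp.add_apply, mul_add]

theorem nsmul (h : IsRep n x D f) (k : ℕ) : IsRep n (k • x) (k • D) (f ^ k) := by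
  refine ⟨?_, pow_ne_zero k h.ne_zero, fun v => ?_⟩
  · rw [← h.mk_eq]
    exact map_nsmul (QuotientAddGroup.mk' _) k D
  · rw [helper1070.ord_pow, h.ord_eq, Finsupp.smul_apply, nsmul_eq_mul, AddSubgroup.coe_nsmul,
      Finsupp.smul_apply, nsmul_eq_mul]
    ring

/-- Moving lemma: admissible data can be moved off any finite set of places. -/
theorem exists_off [HasPrincipalDivisors K F] (h : IsRep n x D f) (S : Finset (Place K F)) :
    ∃ (D' : Divisor.degZero (K := K) (F := F)) (f' : F), IsRep n x D' f' ∧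
      ∀ P ∈ S, (D' : Divisor K F) P = 0 := by
  obtain ⟨g, hg0, hg⟩ := helper1070.exists_ord_eq S (fun v => -(D : Divisor K F) v)
  obtain ⟨E, hE, hEdeg⟩ := HasPrincipalDivisors.exists_divisor (K := K) g hg0
  have hE0 : E ∈ Divisor.degZero (K := K) (F := F) := Divisor.mem_degZero.mpr hEdeg
  have hmk : Pic0.mk (⟨E, hE0⟩ : Divisor.degZero (K := K) (F := F)) = 0 := by
    rw [Pic0.mk, QuotientAddGroup.eq_zero_iff]
    exact AddSubgroup.mem_addSubgroupOf.mpr ⟨g, hg0, hE⟩
  refine ⟨D + ⟨E, hE0⟩, f * g ^ n, ⟨?_, mul_ne_zero h.ne_zero (pow_ne_zero n hg0), fun v => ?_⟩,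
    fun P hP => ?_⟩
  · rw [Pic0.mk_add, hmk, add_zero, h.mk_eq]
  · rw [v.ord_mul h.ne_zero (pow_ne_zero n hg0), helper1070.ord_pow, h.ord_eq,
      Finsupp.smul_apply, nsmul_eq_mul, AddSubgroup.coe_add, Finsupp.add_apply, mul_add, hE v]
  · rw [AddSubgroup.coe_add, Finsupp.add_apply, hE P, hg P hP]
    ring

end IsRep

/-- Admissible data exist for every `n`-torsion class. -/
theorem exists_rep (n : ℕ) (x : Pic0 K F) (hx : (n : ℤ) • x = 0) :
    ∃ (D : Divisor.degZero (K := K) (F := F)) (f : F), IsRep n x D f := by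
  obtain ⟨D, rfl⟩ := Pic0.mk_surjective x
  have h1 : Pic0.mk ((n : ℤ) • D) = (n : ℤ) • Pic0.mk D :=
    map_zsmul (QuotientAddGroup.mk' _) (n : ℤ) D
  rw [hx] at h1
  have h2 := AddSubgroup.mem_addSubgroupOf.mp ((QuotientAddGroup.eq_zero_iff _).mp h1)
  obtain ⟨f, hf0, hf⟩ := h2
  refine ⟨D, f, rfl, hf0, fun v => ?_⟩
  rw [← hf v, AddSubgroup.coe_zsmul, natCast_zsmul]

/-- Working form of the Spec relation `IsWeilValue`. -/
theorem isWeilValue_iff (hV : ∀ P : Place K F, HasValues P) {n : ℕ} {x y : Pic0 K F} {c : K} :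
    IsWeilValue n x y c ↔ ∃ (Dx Dy : Divisor.degZero (K := K) (F := F)) (fx fy : F),
      IsRep n x Dx fx ∧ IsRep n y Dy fy ∧
      (∀ P, (Dx : Divisor K F) P = 0 ∨ (Dy : Divisor K F) P = 0) ∧
      c = divEval fx (Dy : Divisor K F) / divEval fy (Dx : Divisor K F) := by
  constructor
  · rintro ⟨Dx, Dy, fx, fy, a, b, hx, hy, hfx, hfy, hd, ha, hb, rfl⟩
    refine ⟨Dx, Dy, fx, fy, ⟨hx, hfx⟩, ⟨hy, hfy⟩, (disjoint_support_iff _ _).mp hd, ?_⟩
    rw [((isDivValue_iff hV hfx.1 _ _).mp ha).2, ((isDivValue_iff hV hfy.1 _ _).mp hb).2]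
  · rintro ⟨Dx, Dy, fx, fy, hx, hy, hd, rfl⟩
    exact ⟨Dx, Dy, fx, fy, _, _, hx.mk_eq, hy.mk_eq, hx.div, hy.div,
      (disjoint_support_iff _ _).mpr hd,
      (isDivValue_iff hV hx.ne_zero _ _).mpr ⟨fun P hP =>
        hx.ord_eq_zero ((hd P).resolve_right (Finsupp.mem_support_iff.mp hP)), rfl⟩,
      (isDivValue_iff hV hy.ne_zero _ _).mpr ⟨fun P hP =>
        hy.ord_eq_zero ((hd P).resolve_left (Finsupp.mem_support_iff.mp hP)), rfl⟩, rfl⟩

/-- ∃-intro: the Weil value computed from ANY admissible data with disjoint supports. -/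
theorem isWeilValue_of_rep (hV : ∀ P : Place K F, HasValues P) {n : ℕ} {x y : Pic0 K F}
    {Dx Dy : Divisor.degZero (K := K) (F := F)} {fx fy : F}
    (hx : IsRep n x Dx fx) (hy : IsRep n y Dy fy)
    (hd : Disjoint (Dx : Divisor K F).support (Dy : Divisor K F).support) :
    IsWeilValue n x y (divEval fx (Dy : Divisor K F) / divEval fy (Dx : Divisor K F)) :=
  (isWeilValue_iff hV).mpr ⟨Dx, Dy, fx, fy, hx, hy, (disjoint_support_iff _ _).mp hd, rfl⟩

/-! ### Independence of the choices -/

/-- Change of the data of `x`. -/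
theorem pairVal_eq_left [HasPrincipalDivisors K F] (hV : ∀ P : Place K F, HasValues P)
    (hR : Reciprocity K F) {n : ℕ} {x y : Pic0 K F}
    {Dx Dx' Dy : Divisor.degZero (K := K) (F := F)} {fx fx' fy : F}
    (hx : IsRep n x Dx fx) (hx' : IsRep n x Dx' fx') (hy : IsRep n y Dy fy)
    (hd : ∀ P, (Dx : Divisor K F) P = 0 ∨ (Dy : Divisor K F) P = 0)
    (hd' : ∀ P, (Dx' : Divisor K F) P = 0 ∨ (Dy : Divisor K F) P = 0) :
    divEval fx (Dy : Divisor K F) / divEval fy (Dx : Divisor K F)
      = divEval fx' (Dy : Divisor K F) / divEval fy (Dx' : Divisor K F) := by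
  classical
  rcases isEmpty_or_nonempty (Place K F) with hemp | hne
  · have h0 : ∀ D : Divisor K F, D = 0 := fun D => Finsupp.ext fun P => (hemp.false P).elim
    rw [h0 (Dy : Divisor K F), h0 (Dx : Divisor K F), h0 (Dx' : Divisor K F)]
    simp
  -- the function `h` with `Dx' - Dx = div h`
  have hmk : Pic0.mk Dx = Pic0.mk Dx' := hx.mk_eq.trans hx'.mk_eq.symm
  have hmem : ((-Dx + Dx' : Divisor.degZero (K := K) (F := F)) : Divisor K F)
      ∈ Divisor.principal (K := K) (F := F) :=
    AddSubgroup.mem_addSubgroupOf.mp (QuotientAddGroup.eq.mp hmk)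
  obtain ⟨h, hh0, hh⟩ := hmem
  have hh' : ∀ P : Place K F, P.ord h = (Dx' : Divisor K F) P - (Dx : Divisor K F) P := by
    intro P
    rw [← hh P, AddSubgroup.coe_add, AddSubgroup.coe_neg, Finsupp.add_apply, Finsupp.neg_apply]
    ring
  have hDy0 : ∀ P : Place K F, (Dy : Divisor K F) P ≠ 0 → (Dx : Divisor K F) P = 0 :=
    fun P hP => (hd P).resolve_right hP
  have hDy0' : ∀ P : Place K F, (Dy : Divisor K F) P ≠ 0 → (Dx' : Divisor K F) P = 0 :=
    fun P hP => (hd' P).resolve_right hP
  have hfx0 := hx.ne_zero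
  have hfx'0 := hx'.ne_zero
  have hfy0 := hy.ne_zero
  have hhn0 : h ^ n ≠ 0 := pow_ne_zero n hh0
  have hden : fx * h ^ n ≠ 0 := mul_ne_zero hfx0 hhn0
  -- `fx' = c * fx * h ^ n`
  have hqord : ∀ P : Place K F, P.ord (fx' * (fx * h ^ n)⁻¹) = 0 := by
    intro P
    rw [P.ord_mul hfx'0 (inv_ne_zero hden), P.ord_inv, P.ord_mul hfx0 hhn0,
      helper1070.ord_pow, hx.ord_eq, hx'.ord_eq, hh' P]
    ring
  obtain ⟨c, hc0, hc⟩ := exists_const_of_ord_eq_zero hV
    (mul_ne_zero hfx'0 (inv_ne_zero hden)) hqord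
  have hfx'eq : fx' = algebraMap K F c * (fx * h ^ n) := by
    rw [← hc]
    field_simp
  -- orders on the support of `Dy`
  have hordfx : ∀ P : Place K F, (Dy : Divisor K F) P ≠ 0 → P.ord fx = 0 :=
    fun P hP => hx.ord_eq_zero (hDy0 P hP)
  have hordh : ∀ P : Place K F, (Dy : Divisor K F) P ≠ 0 → P.ord h = 0 := fun P hP => by
    rw [hh' P, hDy0 P hP, hDy0' P hP, sub_zero]
  have hordhn : ∀ P : Place K F, (Dy : Divisor K F) P ≠ 0 → P.ord (h ^ n) = 0 := fun P hP => by
    rw [helper1070.ord_pow, hordh P hP, mul_zero]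
  have e1 := divEval_const_mul hV c hc0 (fx * h ^ n) (Dy : Divisor K F)
    (Divisor.mem_degZero.mp Dy.2) (fun P hP => by
      rw [P.ord_mul hfx0 hhn0]
      have := hordfx P hP
      have := hordhn P hP
      omega)
  have e2 := divEval_mul hV fx (h ^ n) (Dy : Divisor K F) (fun P hP => (hordfx P hP).ge)
    (fun P hP => (hordhn P hP).ge)
  have e3 := divEval_pow hV h n (Dy : Divisor K F) (fun P hP => (hordh P hP).ge)
  have h1 : divEval fx' (Dy : Divisor K F)
      = divEval fx (Dy : Divisor K F) * divEval h (Dy : Divisor K F) ^ n := by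
    rw [hfx'eq, e1, e2, e3]
  -- reciprocity for `h` and `fy`
  have hdivh : IsDivOf h ((Dx' : Divisor K F) - (Dx : Divisor K F)) :=
    ⟨hh0, fun P => by rw [Finsupp.sub_apply, hh' P]⟩
  have h2 : divEval h (n • (Dy : Divisor K F))
      = divEval fy ((Dx' : Divisor K F) - (Dx : Divisor K F)) :=
    recip_divEval hV hR hdivh hy.div (fun P => by
      by_cases hP : (Dy : Divisor K F) P = 0
      · right
        rw [Finsupp.smul_apply, hP, smul_zero]
      · left
        rw [Finsupp.sub_apply, hDy0 P hP, hDy0' P hP, sub_zero])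
  have hevfy : ∀ P : Place K F, (Dx' : Divisor K F) P ≠ 0 ∨ (Dx : Divisor K F) P ≠ 0 →
      ev P fy ≠ 0 := by
    intro P hP
    refine ev_ne_zero_of_ord hV hfy0 (hy.ord_eq_zero ?_)
    rcases hP with hP | hP
    · exact (hd' P).resolve_left hP
    · exact (hd P).resolve_left hP
  have h3 := divEval_sub fy (Dx' : Divisor K F) (Dx : Divisor K F) hevfy
  have h4 := divEval_nsmul h n (Dy : Divisor K F)
  have hB : divEval fy (Dx : Divisor K F) ≠ 0 :=
    divEval_ne_zero _ _ fun P hP => hevfy P (Or.inr hP)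
  have hB' : divEval fy (Dx' : Divisor K F) ≠ 0 :=
    divEval_ne_zero _ _ fun P hP => hevfy P (Or.inl hP)
  rw [h1, ← h4, h2, h3]
  field_simp

/-- Change of the data of `y`. -/
theorem pairVal_eq_right [HasPrincipalDivisors K F] (hV : ∀ P : Place K F, HasValues P)
    (hR : Reciprocity K F) {n : ℕ} {x y : Pic0 K F}
    {Dx Dy Dy' : Divisor.degZero (K := K) (F := F)} {fx fy fy' : F}
    (hx : IsRep n x Dx fx) (hy : IsRep n y Dy fy) (hy' : IsRep n y Dy' fy')
    (hd : ∀ P, (Dx : Divisor K F) P = 0 ∨ (Dy : Divisor K F) P = 0)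
    (hd' : ∀ P, (Dx : Divisor K F) P = 0 ∨ (Dy' : Divisor K F) P = 0) :
    divEval fx (Dy : Divisor K F) / divEval fy (Dx : Divisor K F)
      = divEval fx (Dy' : Divisor K F) / divEval fy' (Dx : Divisor K F) := by
  have h := pairVal_eq_left hV hR hy hy' hx (fun P => (hd P).symm) (fun P => (hd' P).symm)
  rw [← inv_div, h, inv_div]

/-- The value of the pairing computed from ANY admissible data. -/
theorem isWeilValue_eq_of_rep [HasPrincipalDivisors K F] (hV : ∀ P : Place K F, HasValues P)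
    (hR : Reciprocity K F) {n : ℕ} {x y : Pic0 K F} {c : K} (h : IsWeilValue n x y c)
    {Dx Dy : Divisor.degZero (K := K) (F := F)} {fx fy : F}
    (hx : IsRep n x Dx fx) (hy : IsRep n y Dy fy)
    (hd : ∀ P, (Dx : Divisor K F) P = 0 ∨ (Dy : Divisor K F) P = 0) :
    c = divEval fx (Dy : Divisor K F) / divEval fy (Dx : Divisor K F) := by
  classical
  obtain ⟨Dx', Dy', fx', fy', hx', hy', hd', rfl⟩ := (isWeilValue_iff hV).mp h
  obtain ⟨Dx'', fx'', hx'', hoff⟩ :=
    hx.exists_off ((Dy : Divisor K F).support ∪ (Dy' : Divisor K F).support)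
  have hd1 : ∀ P, (Dx'' : Divisor K F) P = 0 ∨ (Dy : Divisor K F) P = 0 := fun P => by
    by_cases hP : (Dy : Divisor K F) P = 0
    · exact Or.inr hP
    · exact Or.inl (hoff P (Finset.mem_union_left _ (Finsupp.mem_support_iff.mpr hP)))
  have hd2 : ∀ P, (Dx'' : Divisor K F) P = 0 ∨ (Dy' : Divisor K F) P = 0 := fun P => by
    by_cases hP : (Dy' : Divisor K F) P = 0
    · exact Or.inr hP
    · exact Or.inl (hoff P (Finset.mem_union_right _ (Finsupp.mem_support_iff.mpr hP)))
  rw [pairVal_eq_left hV hR hx' hx'' hy' hd' hd2, pairVal_eq_right hV hR hx'' hy' hy hd2 hd1,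
    pairVal_eq_left hV hR hx'' hx hy hd1 hd]

/-! ### The four W1c statements of the Spec -/

/-- **W1c (i)**: the Weil pairing is defined on the `n`-torsion. -/
theorem weilExists [HasPrincipalDivisors K F] (hV : ∀ P : Place K F, HasValues P) (n : ℕ) :
    WeilExists K F n := by
  intro x y hx hy
  obtain ⟨Dy, fy, hy'⟩ := exists_rep n y hy
  obtain ⟨Dx0, fx0, hx0⟩ := exists_rep n x hx
  obtain ⟨Dx, fx, hx', hoff⟩ := hx0.exists_off (Dy : Divisor K F).support
  refine ⟨_, (isWeilValue_iff hV).mpr ⟨Dx, Dy, fx, fy, hx', hy', fun P => ?_, rfl⟩⟩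
  by_cases hP : (Dy : Divisor K F) P = 0
  · exact Or.inr hP
  · exact Or.inl (hoff P (Finsupp.mem_support_iff.mpr hP))

/-- **W1c (ii)**: the value of the Weil pairing does not depend on the choices. -/
theorem weilUnique [HasPrincipalDivisors K F] (hV : ∀ P : Place K F, HasValues P)
    (hR : Reciprocity K F) (n : ℕ) : WeilUnique K F n := by
  intro x y c c' h h'
  obtain ⟨Dx, Dy, fx, fy, hx, hy, hd, rfl⟩ := (isWeilValue_iff hV).mp h
  exact (isWeilValue_eq_of_rep hV hR h' hx hy hd).symm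

/-- **W1c (iii)**: multiplicativity in the second variable. -/
theorem weilMul [HasPrincipalDivisors K F] (hV : ∀ P : Place K F, HasValues P)
    (hR : Reciprocity K F) (n : ℕ) : WeilMul K F n := by
  classical
  intro x y y' c c' h h'
  obtain ⟨Dx, Dy, fx, fy, hx, hy, hd, rfl⟩ := (isWeilValue_iff hV).mp h
  obtain ⟨Dx', Dy', fx', fy', hx', hy', hd', rfl⟩ := (isWeilValue_iff hV).mp h'
  obtain ⟨Dx'', fx'', hx'', hoff⟩ :=
    hx.exists_off ((Dy : Divisor K F).support ∪ (Dy' : Divisor K F).support)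
  have hd1 : ∀ P, (Dx'' : Divisor K F) P = 0 ∨ (Dy : Divisor K F) P = 0 := fun P => by
    by_cases hP : (Dy : Divisor K F) P = 0
    · exact Or.inr hP
    · exact Or.inl (hoff P (Finset.mem_union_left _ (Finsupp.mem_support_iff.mpr hP)))
  have hd2 : ∀ P, (Dx'' : Divisor K F) P = 0 ∨ (Dy' : Divisor K F) P = 0 := fun P => by
    by_cases hP : (Dy' : Divisor K F) P = 0
    · exact Or.inr hP
    · exact Or.inl (hoff P (Finset.mem_union_right _ (Finsupp.mem_support_iff.mpr hP)))
  rw [pairVal_eq_left hV hR hx hx'' hy hd hd1, pairVal_eq_left hV hR hx' hx'' hy' hd' hd2]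
  refine (isWeilValue_iff hV).mpr ⟨Dx'', Dy + Dy', fx'', fy * fy', hx'', hy.add hy', ?_, ?_⟩
  · intro P
    rcases hd1 P with h1 | h1
    · exact Or.inl h1
    · rcases hd2 P with h2 | h2
      · exact Or.inl h2
      · right
        rw [AddSubgroup.coe_add, Finsupp.add_apply, h1, h2, add_zero]
  · have e1 := divEval_add fx'' (Dy : Divisor K F) (Dy' : Divisor K F) (fun P hP => by
      refine ev_ne_zero_of_ord hV hx''.ne_zero (hx''.ord_eq_zero ?_)
      rcases hP with hP | hP
      · exact (hd1 P).resolve_right hP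
      · exact (hd2 P).resolve_right hP)
    have e2 := divEval_mul hV fy fy' (Dx'' : Divisor K F)
      (fun P hP => (hy.ord_eq_zero ((hd1 P).resolve_left hP)).ge)
      (fun P hP => (hy'.ord_eq_zero ((hd2 P).resolve_left hP)).ge)
    rw [AddSubgroup.coe_add, e1, e2, mul_div_mul_comm]

/-! ### Semilinear automorphisms (no hypothesis) -/

theorem isDivOf_smul (g : SemilinearAut K F) {f : F} {D : Divisor K F} (h : IsDivOf f D) :
    IsDivOf (g • f) (g • D) := by
  refine ⟨by simpa using h.1, fun w => ?_⟩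
  rw [SemilinearAut.divisor_smul_apply, h.2 (g⁻¹ • w)]
  have h2 := SemilinearAut.ord_smul g (g⁻¹ • w) f
  rw [smul_inv_smul] at h2
  exact h2.symm

theorem isDivValue_smul (g : SemilinearAut K F) {f : F} {D : Divisor K F} {a : K}
    (h : IsDivValue f D a) : IsDivValue (g • f) (g • D) (SemilinearAut.baseAut g a) := by
  obtain ⟨val, hval, rfl⟩ := h
  refine ⟨fun Q => SemilinearAut.baseAut g (val (g⁻¹ • Q)), fun Q hQ => ?_, ?_⟩
  · have hQ' : g⁻¹ • Q ∈ D.support := by
      rw [Finsupp.mem_support_iff] at hQ ⊢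
      rwa [SemilinearAut.divisor_smul_apply] at hQ
    obtain ⟨h1, h2⟩ := hval _ hQ'
    refine ⟨?_, by simpa using h2⟩
    have h3 := isVal_smul g (hasValue_iff_isVal.mp h1)
    rw [smul_inv_smul] at h3
    exact hasValue_iff_isVal.mpr h3
  · rw [SemilinearAut.divisor_smul_def,
      Finsupp.prod_mapDomain_index_inj (MulAction.injective g), map_finsuppProd]
    refine Finsupp.prod_congr fun P _ => ?_
    beta_reduce
    rw [inv_smul_smul, map_zpow₀]

/-- **W1c (iv)**: equivariance under semilinear automorphisms. -/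
theorem weilSemilinear (n : ℕ) : WeilSemilinear K F n := by
  rintro g x y c ⟨Dx, Dy, fx, fy, a, b, hx, hy, hfx, hfy, hd, ha, hb, rfl⟩
  refine ⟨SemilinearAut.degZeroSMulHom g Dx, SemilinearAut.degZeroSMulHom g Dy, g • fx, g • fy,
    SemilinearAut.baseAut g a, SemilinearAut.baseAut g b, ?_, ?_, ?_, ?_, ?_,
    isDivValue_smul g ha, isDivValue_smul g hb, map_div₀ _ _ _⟩
  · rw [← hx, SemilinearAut.pic0_smul_mk]
  · rw [← hy, SemilinearAut.pic0_smul_mk]
  · have h := isDivOf_smul g hfx
    rwa [smul_comm g n (Dx : Divisor K F)] at h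
  · have h := isDivOf_smul g hfy
    rwa [smul_comm g n (Dy : Divisor K F)] at h
  · rw [SemilinearAut.coe_degZeroSMulHom, SemilinearAut.coe_degZeroSMulHom, Finset.disjoint_left]
    intro P hP hP'
    rw [Finsupp.mem_support_iff, SemilinearAut.divisor_smul_apply] at hP hP'
    exact Finset.disjoint_left.mp hd (Finsupp.mem_support_iff.mpr hP)
      (Finsupp.mem_support_iff.mpr hP')

/-! ### Further properties -/

/-- Antisymmetry of the relation. -/
theorem isWeilValue_symm {n : ℕ} {x y : Pic0 K F} {c : K} (h : IsWeilValue n x y c) :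
    IsWeilValue n y x c⁻¹ := by
  obtain ⟨Dx, Dy, fx, fy, a, b, hx, hy, hfx, hfy, hd, ha, hb, rfl⟩ := h
  exact ⟨Dy, Dx, fy, fx, b, a, hy, hx, hfy, hfx, hd.symm, hb, ha, by rw [inv_div]⟩

/-- Multiplicativity in the first variable. -/
theorem weilMulLeft [HasPrincipalDivisors K F] (hV : ∀ P : Place K F, HasValues P)
    (hR : Reciprocity K F) (n : ℕ) (x x' y : Pic0 K F) (c c' : K)
    (h : IsWeilValue n x y c) (h' : IsWeilValue n x' y c') :
    IsWeilValue n (x + x') y (c * c') := by
  have h1 := isWeilValue_symm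
    (weilMul hV hR n y x x' c⁻¹ c'⁻¹ (isWeilValue_symm h) (isWeilValue_symm h'))
  rwa [← mul_inv, inv_inv] at h1

/-- Powers in the second variable (no reciprocity needed). -/
theorem isWeilValue_nsmul_right (hV : ∀ P : Place K F, HasValues P) {n : ℕ} {x y : Pic0 K F}
    {c : K} (h : IsWeilValue n x y c) (k : ℕ) : IsWeilValue n x (k • y) (c ^ k) := by
  obtain ⟨Dx, Dy, fx, fy, hx, hy, hd, rfl⟩ := (isWeilValue_iff hV).mp h
  refine (isWeilValue_iff hV).mpr ⟨Dx, k • Dy, fx, fy ^ k, hx, hy.nsmul k, fun P => ?_, ?_⟩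
  · rcases hd P with h1 | h1
    · exact Or.inl h1
    · right
      rw [AddSubgroup.coe_nsmul, Finsupp.smul_apply, h1, smul_zero]
  · have e1 := divEval_pow hV fy k (Dx : Divisor K F)
      (fun P hP => (hy.ord_eq_zero ((hd P).resolve_left hP)).ge)
    rw [AddSubgroup.coe_nsmul, divEval_nsmul, e1, div_pow]

/-- The values of the pairing are `n`-th roots of unity. -/
theorem isWeilValue_pow_eq_one (hV : ∀ P : Place K F, HasValues P) (hR : Reciprocity K F)
    {n : ℕ} {x y : Pic0 K F} {c : K} (h : IsWeilValue n x y c) : c ^ n = 1 := by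
  obtain ⟨Dx, Dy, fx, fy, hx, hy, hd, rfl⟩ := (isWeilValue_iff hV).mp h
  have h1 : divEval fx (n • (Dy : Divisor K F)) = divEval fy (n • (Dx : Divisor K F)) :=
    recip_divEval hV hR hx.div hy.div (fun P => by
      rcases hd P with h1 | h1
      · left
        rw [Finsupp.smul_apply, h1, smul_zero]
      · right
        rw [Finsupp.smul_apply, h1, smul_zero])
  rw [divEval_nsmul, divEval_nsmul] at h1
  have hB : divEval fy (Dx : Divisor K F) ≠ 0 := divEval_ne_zero _ _ fun P hP =>
    ev_ne_zero_of_ord hV hy.ne_zero (hy.ord_eq_zero ((hd P).resolve_left hP))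
  rw [div_pow, h1, div_self (pow_ne_zero n hB)]

/-- Change of exponent: `e_{mn}(x, y) = e_n(m x, y)` for `y` killed by `n`. -/
theorem isWeilValue_of_mul_exponent [HasPrincipalDivisors K F]
    (hV : ∀ P : Place K F, HasValues P) (hR : Reciprocity K F) {m n : ℕ} {x y : Pic0 K F}
    {c : K} (h : IsWeilValue (m * n) x y c) (hy : (n : ℤ) • y = 0) :
    IsWeilValue n (m • x) y c := by
  obtain ⟨Dx, Dy, fx, fy, hx, hy', hd, rfl⟩ := (isWeilValue_iff hV).mp h
  obtain ⟨Dy0, fy0, hy0⟩ := exists_rep n y hy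
  obtain ⟨Dy1, fy1, hy1, hoff⟩ := hy0.exists_off (Dx : Divisor K F).support
  have hd1 : ∀ P, (Dx : Divisor K F) P = 0 ∨ (Dy1 : Divisor K F) P = 0 := fun P => by
    by_cases hP : (Dx : Divisor K F) P = 0
    · exact Or.inl hP
    · exact Or.inr (hoff P (Finsupp.mem_support_iff.mpr hP))
  -- `fy1 ^ m` is admissible for `y` at exponent `m * n`
  have hy1m : IsRep (m * n) y Dy1 (fy1 ^ m) := by
    refine ⟨hy1.mk_eq, pow_ne_zero m hy1.ne_zero, fun v => ?_⟩
    rw [helper1070.ord_pow, hy1.ord_eq, Finsupp.smul_apply, nsmul_eq_mul]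
    push_cast
    ring
  -- `fx` is admissible for `m • x` at exponent `n`
  have hxm : IsRep n (m • x) (m • Dx) fx := by
    refine ⟨?_, hx.ne_zero, fun v => ?_⟩
    · rw [← hx.mk_eq]
      exact map_nsmul (QuotientAddGroup.mk' _) m Dx
    · rw [hx.ord_eq, Finsupp.smul_apply, nsmul_eq_mul, AddSubgroup.coe_nsmul, Finsupp.smul_apply,
        nsmul_eq_mul]
      push_cast
      ring
  rw [pairVal_eq_right hV hR hx hy' hy1m hd hd1]
  refine (isWeilValue_iff hV).mpr ⟨m • Dx, Dy1, fx, fy1, hxm, hy1, fun P => ?_, ?_⟩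
  · rcases hd1 P with h1 | h1
    · left
      rw [AddSubgroup.coe_nsmul, Finsupp.smul_apply, h1, smul_zero]
    · exact Or.inr h1
  · have e1 := divEval_pow hV fy1 m (Dx : Divisor K F)
      (fun P hP => (hy1.ord_eq_zero ((hd1 P).resolve_left hP)).ge)
    rw [e1, AddSubgroup.coe_nsmul, divEval_nsmul]

end

end Fermat.Agent.S19.helper1527
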