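/-
S19, route W, leaf W1c, part 3 (helper1527): the W1c statements AT THE MODULAR FUNCTION FIELDS
`F_N = modularFunctionFieldBar N` over `Qbar`, i.e. the hypotheses `hE hU hM hG` of the assembly
`helper2790.stmt_Model_of_weil`, from the single input `Reciprocity Qb (modularFunctionFieldBar N)`
(leaf W1b).  `HasPrincipalDivisors` and "all residue fields are `Qbar`" at level `N` are landed
(S37 `helper5162_HeckeInputsModular`, from the S24 closure).
-/
import Fermat.Agent.S19.helper1527_WeilPairing
import Fermat.Agent.S37.helper5162_HeckeInputsModular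

set_option autoImplicit false

open AlgebraicCurve ModularCurve

namespace Fermat.Agent.S19.helper1527

open Fermat.Agent.S19.helper2790 Fermat.Agent.S19.helper2111
open Fermat.Agent.S27.helper4586

/-- Every function regular at a place of a modular function field has a value in `Qbar`. -/
theorem hasValues_FN (N : ℕ) [NeZero N] (P : Place Qb (modularFunctionFieldBar N)) :
    HasValues P :=
  hasValues_of_residue_surjective P
    (Fermat.Agent.S37.helper5162.residueField_surjective N P)

theorem hasPrincipalDivisors_FN (N : ℕ) [NeZero N] :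
    HasPrincipalDivisors Qb (modularFunctionFieldBar N) :=
  Fermat.Agent.S37.helper5162.hasPrincipalDivisors_FN N

theorem weilExists_FN (N : ℕ) [NeZero N] (n : ℕ) :
    WeilExists Qb (modularFunctionFieldBar N) n :=
  haveI := hasPrincipalDivisors_FN N
  weilExists (hasValues_FN N) n

theorem weilUnique_FN (N : ℕ) [NeZero N] (hR : Reciprocity Qb (modularFunctionFieldBar N))
    (n : ℕ) : WeilUnique Qb (modularFunctionFieldBar N) n :=
  haveI := hasPrincipalDivisors_FN N
  weilUnique (hasValues_FN N) hR n

theorem weilMul_FN (N : ℕ) [NeZero N] (hR : Reciprocity Qb (modularFunctionFieldBar N))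
    (n : ℕ) : WeilMul Qb (modularFunctionFieldBar N) n :=
  haveI := hasPrincipalDivisors_FN N
  weilMul (hasValues_FN N) hR n

theorem weilSemilinear_FN (N : ℕ) (n : ℕ) :
    WeilSemilinear Qb (modularFunctionFieldBar N) n :=
  weilSemilinear n

/-- Route W assembly with the W1c leaf discharged: `Stmt_Model N ℓ k` from Weil reciprocity (W1b),
nondegeneracy (W2) and integrality (W3) at level `N`. -/
theorem stmt_Model_of_weil_recip (N ℓ k : ℕ) [NeZero N] [Fact ℓ.Prime]
    (hfin : Stmt_Fin N ℓ k)
    (hopen : ∃ L : IntermediateField ℚ Qb, FiniteDimensional ℚ L ∧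
      ∀ σ : GQ, (∀ y ∈ L, σ y = y) → ∀ x : Tors N ℓ k, torsAct N ℓ k σ x = x)
    (hR : Reciprocity Qb (modularFunctionFieldBar N))
    (hND : WeilND Qb (modularFunctionFieldBar N) (ℓ ^ k))
    (hI : Stmt_WeilInt N ℓ k) :
    Stmt_Model N ℓ k :=
  stmt_Model_of_weil N ℓ k hfin hopen (weilExists_FN N _) (weilUnique_FN N hR _)
    (weilMul_FN N hR _) (weilSemilinear_FN N _) hND hI

end Fermat.Agent.S19.helper1527
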