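import Mathlib
import Fermat.Prelude.Def_AlgebraicCurve_DivisorClassGroup
import Fermat.Prelude.Def_AlgebraicCurve_BaseChangeGalois
import Fermat.Agent.S37.helper126_TorsionCore
import Fermat.Agent.S19.helper2007_Discs

/-!
# S19-CALG-COORD (backup copy): exact algebraic coordinates on the kernel of reduction

Setting: the abstract valued function field of `Fermat.Agent.S37.helper126` (a function field
`F / K`, a valuation subring `O` of `F`, a reduction map `red : O →+* Fk`, a specialisation map
`sp : Place K F → Place k Fk` with the conservation law) together with an *adapted system*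
`IsAdapted O red sp R t`: places `R i` with distinct reductions forming a non-special reduced
divisor on the special fibre, and disc coordinates `t i` vanishing at `R i`.

Output, at the level of `Pic0 K F` (the shape of the captain's `IsCoordSystem`):

* the kernel of reduction is the landed `Fermat.Agent.S19.helper2007.specKernel sp`
  (classes with a representative of degree zero specialising to zero), the same subgroup in
  which the landed centres `helper2007.exists_fixed_centre` live;
* `IsRep R x Q` : `x` is the class of `∑ Q i - ∑ R i`;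
* `exists_rep`, `IsRep.unique` : Jacobi inversion on the kernel of reduction, one point per disc;
* `coord sp R t : Pic0 K F → ι → K`, `coord_spec`, `coord_eq`, `coord_mem_nonunits`,
  `coord_injOn`, `exists_coord_eq` (the coordinates are a bijection from the kernel of reduction
  onto the product of the maximal ideals), `coord_zero`;
* `coord_smul` : semilinear equivariance;
* `unitOf`, `unitOf_sub_one_mem`, `ord_unitOf` : the function `∏ (1 - a i / t i)` with divisor
  `∑ Q i - ∑ R i` on the discs; `exists_relation_unitOf` : the class relation `[x + y] = [x] + [y]`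
  as a function with divisor `div u_x + div u_y - div u_{x+y}` on the discs;
* `coordSystem_core` : the four fields `stable`, `val`, `eqv`, `inj` of a coordinate system.
-/

set_option autoImplicit false

namespace Fermat.Agent.S19.helper5161

open AlgebraicCurve
open Fermat.Agent.S37.helper126
open Fermat.Agent.S19.helper2007
open scoped Pointwise

section Deg

variable {K F : Type*} [Field K] [Field F] [Algebra K F]

theorem exists_eq_of_sum_single_apply_ne_zero {ι β : Type*} [Fintype ι] (S : ι → β) (b : β)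
    (h : (∑ j, Finsupp.single (S j) (1 : ℤ)) b ≠ 0) : ∃ j, S j = b := by
  by_contra hcon
  push Not at hcon
  exact h (sum_single_apply_of_ne S b hcon)

/-- Equality of classes in `Pic0`. -/
theorem mk_eq_mk_iff {D E : Divisor.degZero (K := K) (F := F)} :
    Pic0.mk D = Pic0.mk E ↔ Divisor.IsPrincipal ((D : Divisor K F) - (E : Divisor K F)) := by
  unfold Pic0.mk
  rw [QuotientAddGroup.eq, AddSubgroup.mem_addSubgroupOf, ← Divisor.mem_principal]
  have e : ((-D + E : Divisor.degZero (K := K) (F := F)) : Divisor K F)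
      = -((D : Divisor K F) - (E : Divisor K F)) := by
    rw [AddSubgroup.coe_add, AddSubgroup.coe_neg]
    abel
  rw [e, neg_mem_iff]

end Deg


section Kernel

variable {K F k Fk : Type*} [Field K] [Field F] [Algebra K F] [Field k] [Field Fk] [Algebra k Fk]

variable {ι : Type*} [Fintype ι]

/-- `IsRep R x Q` : the class `x` is the class of the divisor `∑ Q i - ∑ R i`. -/
def IsRep (R : ι → Place K F) (x : Pic0 K F) (Q : ι → Place K F) : Prop :=
  ∃ D : Divisor.degZero (K := K) (F := F), Pic0.mk D = x ∧ ∃ h : F, h ≠ 0 ∧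
    ∀ P : Place K F, P.ord h + (D : Divisor K F) P + (∑ i, Finsupp.single (R i) (1 : ℤ)) P
      = (∑ i, Finsupp.single (Q i) (1 : ℤ)) P

theorem isRep_zero (R : ι → Place K F) : IsRep R (0 : Pic0 K F) R :=
  ⟨0, rfl, 1, one_ne_zero, fun P => by simp⟩

/-- Two classes with the same representative are equal. -/
theorem IsRep.eq {R : ι → Place K F} {x y : Pic0 K F} {Q : ι → Place K F}
    (hx : IsRep R x Q) (hy : IsRep R y Q) : x = y := by
  obtain ⟨D, rfl, u, hu0, hu⟩ := hx
  obtain ⟨D', rfl, u', hu'0, hu'⟩ := hy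
  rw [mk_eq_mk_iff]
  refine ⟨u' * u⁻¹, mul_ne_zero hu'0 (inv_ne_zero hu0), fun P => ?_⟩
  have h1 := hu P
  have h2 := hu' P
  rw [Finsupp.sub_apply, P.ord_mul hu'0 (inv_ne_zero hu0), P.ord_inv]
  omega

/-- The class relation `[z] = [x] + [y]` on representatives: the divisor
`(∑ Q - ∑ R) + (∑ Q' - ∑ R) - (∑ Q'' - ∑ R)` is principal. -/
theorem IsRep.exists_add_relation {R : ι → Place K F} {x y : Pic0 K F}
    {Q Q' Q'' : ι → Place K F} (hx : IsRep R x Q) (hy : IsRep R y Q')
    (hz : IsRep R (x + y) Q'') :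
    ∃ φ : F, φ ≠ 0 ∧ ∀ P : Place K F, P.ord φ =
      ((∑ i, Finsupp.single (Q i) (1 : ℤ)) P - (∑ i, Finsupp.single (R i) (1 : ℤ)) P)
      + ((∑ i, Finsupp.single (Q' i) (1 : ℤ)) P - (∑ i, Finsupp.single (R i) (1 : ℤ)) P)
      - ((∑ i, Finsupp.single (Q'' i) (1 : ℤ)) P - (∑ i, Finsupp.single (R i) (1 : ℤ)) P) := by
  obtain ⟨D, rfl, u, hu0, hu⟩ := hx
  obtain ⟨D', rfl, u', hu'0, hu'⟩ := hy
  obtain ⟨D'', hD'', u'', hu''0, hu''⟩ := hz
  have hmk : Pic0.mk (D + D') = Pic0.mk D'' := by
    rw [Pic0.mk_add]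
    exact hD''.symm
  obtain ⟨w, hw0, hw⟩ := mk_eq_mk_iff.mp hmk
  have h12 : u * u' ≠ 0 := mul_ne_zero hu0 hu'0
  have h123 : u * u' * u''⁻¹ ≠ 0 := mul_ne_zero h12 (inv_ne_zero hu''0)
  refine ⟨u * u' * u''⁻¹ * w, mul_ne_zero h123 hw0, fun P => ?_⟩
  have h1 := hu P
  have h2 := hu' P
  have h3 := hu'' P
  have h4 := hw P
  rw [Finsupp.sub_apply, AddSubgroup.coe_add, Finsupp.add_apply] at h4
  rw [P.ord_mul h123 hw0, P.ord_mul h12 (inv_ne_zero hu''0), P.ord_mul hu0 hu'0, P.ord_inv]
  omega

/-- Semilinear automorphisms fixing the base points act on representatives. -/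
theorem IsRep.smul {R : ι → Place K F} {x : Pic0 K F} {Q : ι → Place K F}
    (g : SemilinearAut K F) (hgR : ∀ i, g • R i = R i) (h : IsRep R x Q) :
    IsRep R (g • x) (fun i => g • Q i) := by
  obtain ⟨D, rfl, u, hu0, hu⟩ := h
  refine ⟨SemilinearAut.degZeroSMulHom g D, (SemilinearAut.pic0_smul_mk g D).symm, g • u,
    by simpa using hu0, fun P => ?_⟩
  have h1 := hu (g⁻¹ • P)
  have e1 : P.ord (g • u) = (g⁻¹ • P).ord u := by
    have := SemilinearAut.ord_smul g (g⁻¹ • P) u
    rwa [smul_inv_smul] at this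
  have e2 : ((SemilinearAut.degZeroSMulHom g D : Divisor.degZero (K := K) (F := F)) :
      Divisor K F) P = (D : Divisor K F) (g⁻¹ • P) := by
    rw [SemilinearAut.coe_degZeroSMulHom, SemilinearAut.divisor_smul_apply]
  have e3 : (∑ i, Finsupp.single (R i) (1 : ℤ)) P
      = (∑ i, Finsupp.single (R i) (1 : ℤ)) (g⁻¹ • P) := by
    have e : g • (∑ i, Finsupp.single (R i) (1 : ℤ)) = ∑ i, Finsupp.single (R i) (1 : ℤ) := by
      rw [Finset.smul_sum]
      exact Finset.sum_congr rfl fun i _ => by rw [SemilinearAut.smul_single, hgR i]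
    conv_lhs => rw [← e]
    rw [SemilinearAut.divisor_smul_apply]
  have e4 : (∑ i, Finsupp.single (g • Q i) (1 : ℤ)) P
      = (∑ i, Finsupp.single (Q i) (1 : ℤ)) (g⁻¹ • P) := by
    have e : g • (∑ i, Finsupp.single (Q i) (1 : ℤ)) = ∑ i, Finsupp.single (g • Q i) (1 : ℤ) := by
      rw [Finset.smul_sum]
      exact Finset.sum_congr rfl fun i _ => by rw [SemilinearAut.smul_single]
    rw [← e, SemilinearAut.divisor_smul_apply]
  rw [e1, e2, e3, e4]
  exact h1

variable [HasPrincipalDivisors K F]

/-- A class represented by one point in each disc lies in the kernel of reduction. -/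
theorem IsRep.mem_specKernel {sp : Place K F → Place k Fk} {R : ι → Place K F} {x : Pic0 K F}
    {Q : ι → Place K F} (hQ : ∀ i, sp (Q i) = sp (R i)) (h : IsRep R x Q) :
    x ∈ specKernel sp := by
  obtain ⟨D, rfl, u, hu0, hu⟩ := h
  obtain ⟨H, hH, hHdeg⟩ := HasPrincipalDivisors.exists_divisor (K := K) u hu0
  have hdeg : Divisor.degree ((D : Divisor K F) + H) = 0 := by
    rw [map_add, hHdeg, add_zero]
    exact D.2
  have hE : (D : Divisor K F) + H
      = (∑ i, Finsupp.single (Q i) (1 : ℤ)) - ∑ i, Finsupp.single (R i) (1 : ℤ) := by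
    ext P
    have h1 := hu P
    rw [Finsupp.add_apply, Finsupp.sub_apply, hH P]
    omega
  refine ⟨⟨(D : Divisor K F) + H, hdeg⟩, ?_, ?_⟩
  · show Finsupp.mapDomain sp ((D : Divisor K F) + H) = 0
    rw [hE, Finsupp.mapDomain_sub, Finsupp.mapDomain_finsetSum, Finsupp.mapDomain_finsetSum]
    simp only [Finsupp.mapDomain_single, hQ, sub_self]
  · rw [mk_eq_mk_iff]
    refine ⟨u, hu0, fun P => ?_⟩
    rw [Finsupp.sub_apply, Finsupp.add_apply, hH P]
    ring

end Kernel


section Adapted

variable {K F k Fk : Type*} [Field K] [Field F] [Algebra K F] [Field k] [Field Fk] [Algebra k Fk]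
variable {ι : Type*} [Fintype ι]

/-- An adapted system on a valued function field: the Core hypotheses of
`Fermat.Agent.S37.helper126` (kernel of `red`, constants, value group, conservation law,
degree-one places), base places `R i` with distinct reductions forming a non-special divisor on
the special fibre, disc coordinates `t i` vanishing at `R i`, Riemann's inequality
`l(D + ∑ R i) ≥ 1` for divisors of degree zero, and a place off the discs. -/
structure IsAdapted (O : ValuationSubring F) (red : O →+* Fk) (sp : Place K F → Place k Fk)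
    (R : ι → Place K F) (t : ι → F) : Prop where
  ker : RedKer O red
  const : RedConst K k O red
  vg : ValueGroupConst K O
  cons : Conservation O red sp
  deg1 : ResidueTrivial K F
  inj : Function.Injective fun i => sp (R i)
  coord : ∀ i, IsCoord O red sp (sp (R i)) (t i)
  zero : ∀ i, t i ∈ (R i).toValuationSubring.nonunits
  ns : ∀ w : Fk, w ≠ 0 → (∀ s, (∀ i, s ≠ sp (R i)) → 0 ≤ s.ord w) →
    (∀ i, -1 ≤ (sp (R i)).ord w) → w ∈ Set.range (algebraMap k Fk)
  rr : ∀ D : Divisor K F, Divisor.degree D = 0 → ∃ h : F, h ≠ 0 ∧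
    ∀ P, 0 ≤ P.ord h + D P + (∑ i, Finsupp.single (R i) (1 : ℤ)) P
  base : ∃ Q₀ : Place K F, ∀ i, sp Q₀ ≠ sp (R i)

variable {O : ValuationSubring F} {red : O →+* Fk} {sp : Place K F → Place k Fk}
variable {R : ι → Place K F} {t : ι → F}
variable [HasPrincipalDivisors K F]

/-- (CO1) Jacobi inversion on the kernel of reduction: every class of the kernel of reduction
is the class of `∑ Q i - ∑ R i` with `Q i` in the residue disc of `R i`. -/
theorem exists_rep (hS : IsAdapted O red sp R t) {x : Pic0 K F} (hx : x ∈ specKernel sp) :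
    ∃ Q : ι → Place K F, (∀ i, sp (Q i) = sp (R i)) ∧ IsRep R x Q := by
  obtain ⟨D, hD, rfl⟩ := hx
  obtain ⟨h, Q, hh0, hQ, hE⟩ := exists_canonical hS.ker hS.vg hS.cons R hS.inj hS.ns hS.rr
    (D : Divisor K F) D.2 hD
  exact ⟨Q, hQ, D, rfl, h, hh0, hE⟩

/-- (CO2), divisor form: two reduced divisors with one point in each disc which are linearly
equivalent are equal. -/
theorem eq_of_linEquiv (hS : IsAdapted O red sp R t) {Q Q' : ι → Place K F}
    (hQ : ∀ i, sp (Q i) = sp (R i)) (hQ' : ∀ i, sp (Q' i) = sp (R i)) {f : F} (hf0 : f ≠ 0)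
    (hf : ∀ P : Place K F, P.ord f = (∑ i, Finsupp.single (Q i) (1 : ℤ)) P
      - (∑ i, Finsupp.single (Q' i) (1 : ℤ)) P) : Q = Q' := by
  obtain ⟨Q₀, hQ₀⟩ := hS.base
  have hval : ∀ i, ∃ a : K, IsValue (Q' i) (t i) a := fun i =>
    hS.deg1 (Q' i) (t i) ((hS.coord i).reg (Q' i) (hQ' i))
  choose a ha using hval
  have hanu : ∀ i, algebraMap K F (a i) ∈ O.nonunits := fun i =>
    (hS.coord i).value_mem_nonunits hS.ker hS.const hS.cons (hQ' i) (ha i)
  have haO : ∀ i, algebraMap K F (a i) ∈ O := fun i => mem_of_mem_nonunits O (hanu i)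
  have hEq := eq_of_torsion hS.ker hS.const hS.vg hS.cons hS.deg1 Q'
    (fun i j hij => hS.inj (by
      show sp (R i) = sp (R j)
      rw [← hQ' i, ← hQ' j]
      exact hij))
    (fun i => t i - algebraMap K F (a i)) Q₀ (fun i => by rw [hQ' i]; exact hQ₀ i)
    (fun i => sub_mem (hS.coord i).mem (haO i))
    (fun i P hP => sub_mem ((hS.coord i).reg P (hP.trans (hQ' i))) (P.algebraMap_mem' _))
    (fun i => ha i)
    (fun i => by
      rw [hQ' i, rd_sub O red (hS.coord i).mem (haO i),
        (rd_eq_zero_iff hS.ker (haO i)).mpr (hanu i), sub_zero]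
      exact (hS.coord i).ord)
    (fun w hw h1 h2 => hS.ns w hw (fun s hs => h1 s fun i => by rw [hQ' i]; exact hs i)
      (fun i => by have := h2 i; rwa [hQ' i] at this))
    1 (by simp) Q (fun i => (hQ i).trans (hQ' i).symm) f hf0
    (fun P => by rw [hf P, Nat.cast_one, one_mul])
  have hQinj : Function.Injective Q := fun i j hij => hS.inj (by
    show sp (R i) = sp (R j)
    rw [← hQ i, ← hQ j, hij])
  funext i
  have h1 : (∑ j, Finsupp.single (Q' j) (1 : ℤ)) (Q i) = 1 := by
    rw [← hEq, sum_single_apply_self Q hQinj i]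
  obtain ⟨j, hj⟩ := exists_eq_of_sum_single_apply_ne_zero Q' (Q i) (by rw [h1]; exact one_ne_zero)
  have hji : j = i := hS.inj (by
    show sp (R j) = sp (R i)
    rw [← hQ' j, hj, hQ i])
  rw [← hj, hji]

/-- (CO2) Uniqueness of the representative with one point in each disc. -/
theorem IsRep.unique (hS : IsAdapted O red sp R t) {x : Pic0 K F} {Q Q' : ι → Place K F}
    (hQ : ∀ i, sp (Q i) = sp (R i)) (hQ' : ∀ i, sp (Q' i) = sp (R i))
    (h : IsRep R x Q) (h' : IsRep R x Q') : Q = Q' := by
  obtain ⟨D, hD, u, hu0, hu⟩ := h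
  obtain ⟨D', hD', u', hu'0, hu'⟩ := h'
  obtain ⟨w, hw0, hw⟩ := mk_eq_mk_iff.mp (hD.trans hD'.symm)
  refine eq_of_linEquiv hS hQ hQ' (f := u * u'⁻¹ * w)
    (mul_ne_zero (mul_ne_zero hu0 (inv_ne_zero hu'0)) hw0) fun P => ?_
  have h1 := hu P
  have h2 := hu' P
  have h3 := hw P
  rw [Finsupp.sub_apply] at h3
  rw [P.ord_mul (mul_ne_zero hu0 (inv_ne_zero hu'0)) hw0, P.ord_mul hu0 (inv_ne_zero hu'0),
    P.ord_inv]
  omega

open Classical in
/-- The coordinates of a class of the kernel of reduction: the values of the disc coordinates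
`t i` at the points `Q i` of its canonical representative `∑ Q i - ∑ R i` (zero outside the
kernel of reduction). -/
noncomputable def coord (sp : Place K F → Place k Fk) (R : ι → Place K F) (t : ι → F)
    (x : Pic0 K F) : ι → K :=
  if h : ∃ a : ι → K, ∃ Q : ι → Place K F, (∀ i, sp (Q i) = sp (R i)) ∧ IsRep R x Q ∧
      ∀ i, IsValue (Q i) (t i) (a i) then Classical.choose h else 0

/-- (CO3) The defining property of the coordinates. -/
theorem coord_spec (hS : IsAdapted O red sp R t) {x : Pic0 K F} (hx : x ∈ specKernel sp) :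
    ∃ Q : ι → Place K F, (∀ i, sp (Q i) = sp (R i)) ∧ IsRep R x Q ∧
      ∀ i, IsValue (Q i) (t i) (coord sp R t x i) := by
  have hex : ∃ a : ι → K, ∃ Q : ι → Place K F, (∀ i, sp (Q i) = sp (R i)) ∧ IsRep R x Q ∧
      ∀ i, IsValue (Q i) (t i) (a i) := by
    obtain ⟨Q, hQ, hrep⟩ := exists_rep hS hx
    have hval : ∀ i, ∃ a : K, IsValue (Q i) (t i) a := fun i =>
      hS.deg1 (Q i) (t i) ((hS.coord i).reg (Q i) (hQ i))
    choose a ha using hval
    exact ⟨a, Q, hQ, hrep, ha⟩
  rw [coord, dif_pos hex]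
  exact Classical.choose_spec hex

/-- The coordinates are determined by any representative with one point in each disc. -/
theorem coord_eq (hS : IsAdapted O red sp R t) {x : Pic0 K F} {Q : ι → Place K F}
    (hQ : ∀ i, sp (Q i) = sp (R i)) (hrep : IsRep R x Q) {a : ι → K}
    (ha : ∀ i, IsValue (Q i) (t i) (a i)) : coord sp R t x = a := by
  obtain ⟨Q', hQ', hrep', ha'⟩ := coord_spec hS (hrep.mem_specKernel hQ)
  have e := IsRep.unique hS hQ' hQ hrep' hrep
  subst e
  funext i
  exact (ha' i).unique (ha i)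

/-- (val) The coordinates lie in the maximal ideal of the constants. -/
theorem coord_mem_nonunits (hS : IsAdapted O red sp R t) {x : Pic0 K F} (hx : x ∈ specKernel sp)
    (i : ι) : algebraMap K F (coord sp R t x i) ∈ O.nonunits := by
  obtain ⟨Q, hQ, -, ha⟩ := coord_spec hS hx
  exact (hS.coord i).value_mem_nonunits hS.ker hS.const hS.cons (hQ i) (ha i)

/-- (inj) The coordinates are injective on the kernel of reduction. -/
theorem coord_injOn (hS : IsAdapted O red sp R t) {x y : Pic0 K F} (hx : x ∈ specKernel sp)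
    (hy : y ∈ specKernel sp) (h : coord sp R t x = coord sp R t y) : x = y := by
  obtain ⟨Q, hQ, hrep, ha⟩ := coord_spec hS hx
  obtain ⟨Q', hQ', hrep', ha'⟩ := coord_spec hS hy
  have e : Q = Q' := funext fun i =>
    (hS.coord i).point_unique hS.ker hS.const hS.cons (hQ i) (hQ' i) (ha i) (h ▸ ha' i)
  subst e
  exact hrep.eq hrep'

/-- The base class has coordinates zero. -/
theorem coord_zero (hS : IsAdapted O red sp R t) : coord sp R t (0 : Pic0 K F) = 0 :=
  coord_eq hS (fun _ => rfl) (isRep_zero R) fun i => isValue_zero_iff.mpr (hS.zero i)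

/-- (onto) Every family of elements of the maximal ideal of the constants is the family of
coordinates of a class of the kernel of reduction. -/
theorem exists_coord_eq (hS : IsAdapted O red sp R t) (a : ι → K)
    (ha : ∀ i, algebraMap K F (a i) ∈ O.nonunits) :
    ∃ x ∈ specKernel sp, coord sp R t x = a := by
  have hex : ∀ i, ∃ P, sp P = sp (R i) ∧ IsValue P (t i) (a i) := fun i =>
    (hS.coord i).exists_point hS.ker hS.cons (ha i)
  choose Q hQ hQa using hex
  have hdeg : Divisor.degree ((∑ i, Finsupp.single (Q i) (1 : ℤ))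
      - ∑ i, Finsupp.single (R i) (1 : ℤ) : Divisor K F) = 0 := by
    rw [map_sub, map_sum, map_sum]
    simp only [Divisor.degree_single, deg_eq_one_of_residueTrivial hS.deg1, Nat.cast_one, mul_one,
      sub_self]
  have hrep : IsRep R (Pic0.mk ⟨_, hdeg⟩) Q :=
    ⟨⟨_, hdeg⟩, rfl, 1, one_ne_zero, fun P => by
      rw [Place.ord_one, zero_add, Finsupp.sub_apply, sub_add_cancel]⟩
  exact ⟨_, hrep.mem_specKernel hQ, coord_eq hS hQ hrep hQa⟩

/-- A semilinear automorphism acting trivially on the special fibre and fixing the disc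
coordinates fixes the base points. -/
theorem smul_base_eq (hS : IsAdapted O red sp R t) (g : SemilinearAut K F)
    (hgsp : ∀ P, sp (g • P) = sp P) (hgt : ∀ i, g • t i = t i) (i : ι) : g • R i = R i :=
  (hS.coord i).smul_eq_self_of_fixed hS.ker hS.const hS.cons g (fun P => by rw [hgsp P])
    (hgt i) rfl (isValue_zero_iff.mpr (hS.zero i)) (map_zero _)

/-- (CO5) The canonical representative of `g • x` is the image of that of `x`. -/
theorem IsRep.smul_of_adapted (hS : IsAdapted O red sp R t) (g : SemilinearAut K F)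
    (hgsp : ∀ P, sp (g • P) = sp P) (hgt : ∀ i, g • t i = t i) {x : Pic0 K F}
    {Q : ι → Place K F} (h : IsRep R x Q) : IsRep R (g • x) (fun i => g • Q i) :=
  h.smul g (smul_base_eq hS g hgsp hgt)

/-- (eqv) Semilinear equivariance of the coordinates. -/
theorem coord_smul (hS : IsAdapted O red sp R t) (g : SemilinearAut K F)
    (hgsp : ∀ P, sp (g • P) = sp P) (hgt : ∀ i, g • t i = t i) {x : Pic0 K F}
    (hx : x ∈ specKernel sp) (i : ι) :
    coord sp R t (g • x) i = SemilinearAut.baseAut g (coord sp R t x i) := by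
  obtain ⟨Q, hQ, hrep, ha⟩ := coord_spec hS hx
  have hrep' := hrep.smul_of_adapted hS g hgsp hgt
  have hQ' : ∀ i, sp (g • Q i) = sp (R i) := fun i => (hgsp _).trans (hQ i)
  have ha' : ∀ i, IsValue (g • Q i) (t i) (SemilinearAut.baseAut g (coord sp R t x i)) :=
    fun i => IsCoord.isValue_smul g (hgt i) (ha i)
  exact congrFun (coord_eq hS hQ' hrep' ha') i


/-- The four fields `stable`, `val`, `eqv`, `inj` of a coordinate system on the kernel of
reduction, for a set `G` of semilinear automorphisms acting trivially on the special fibre and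
fixing the disc coordinates. -/
theorem coordSystem_core (hS : IsAdapted O red sp R t) (G : Set (SemilinearAut K F))
    (hG : ∀ g ∈ G, ∀ P, sp (g • P) = sp P) (hGt : ∀ g ∈ G, ∀ i, g • t i = t i) :
    (∀ g ∈ G, ∀ x ∈ specKernel sp, g • x ∈ specKernel sp) ∧
    (∀ x ∈ specKernel sp, ∀ i, algebraMap K F (coord sp R t x i) ∈ O.nonunits) ∧
    (∀ g ∈ G, ∀ x ∈ specKernel sp, ∀ i,
      coord sp R t (g • x) i = SemilinearAut.baseAut g (coord sp R t x i)) ∧
    (∀ x ∈ specKernel sp, ∀ y ∈ specKernel sp, coord sp R t x = coord sp R t y → x = y) :=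
  ⟨fun g hg _ hx => smul_mem_specKernel g id (hG g hg) hx,
    fun _ hx i => coord_mem_nonunits hS hx i,
    fun g hg _ hx i => coord_smul hS g (hG g hg) (hGt g hg) hx i,
    fun _ hx _ hy h => coord_injOn hS hx hy h⟩

end Adapted

section UnitOf

variable {K F k Fk : Type*} [Field K] [Field F] [Algebra K F] [Field k] [Field Fk] [Algebra k Fk]
variable {ι : Type*} [Fintype ι]
variable {O : ValuationSubring F} {red : O →+* Fk} {sp : Place K F → Place k Fk}
variable {R : ι → Place K F} {t : ι → F}

omit [Algebra K F] [Fintype ι] in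
theorem prod_sub_one_mem_nonunits {α : Type*} (A : ValuationSubring F) (T : Finset α)
    (f : α → F) (hf : ∀ i ∈ T, f i - 1 ∈ A.nonunits) : (∏ i ∈ T, f i) - 1 ∈ A.nonunits := by
  classical
  induction T using Finset.induction_on with
  | empty =>
    rw [Finset.prod_empty, sub_self]
    exact zero_mem_nonunits' A
  | insert i T hi ih =>
    rw [Finset.prod_insert hi]
    have h1 := hf i (Finset.mem_insert_self i T)
    have h2 := ih fun j hj => hf j (Finset.mem_insert_of_mem hj)
    have hprod : ∏ j ∈ T, f j ∈ A := by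
      have := add_mem (mem_of_mem_nonunits A h2) (one_mem A)
      rwa [sub_add_cancel] at this
    have e : f i * ∏ j ∈ T, f j - 1 = (f i - 1) * ∏ j ∈ T, f j + (∏ j ∈ T, f j - 1) := by ring
    rw [e]
    exact add_mem_nonunits A (mul_mem_nonunits_of_mem A h1 hprod) h2

omit [Fintype ι] in
theorem ord_prod (P : Place K F) {α : Type*} (T : Finset α) (f : α → F)
    (hf : ∀ i ∈ T, f i ≠ 0) : P.ord (∏ i ∈ T, f i) = ∑ i ∈ T, P.ord (f i) := by
  classical
  induction T using Finset.induction_on with
  | empty => simp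
  | insert i T hi ih =>
    rw [Finset.prod_insert hi, Finset.sum_insert hi,
      P.ord_mul (hf i (Finset.mem_insert_self i T))
        (Finset.prod_ne_zero_iff.mpr fun j hj => hf j (Finset.mem_insert_of_mem hj)),
      ih fun j hj => hf j (Finset.mem_insert_of_mem hj)]

/-- The function `∏ i, (1 - a i / t i)`; with `e i = -1 / t i` it is `∏ i, (1 + a i * e i)`. -/
noncomputable def unitOf (t : ι → F) (a : ι → K) : F :=
  ∏ i, (1 - algebraMap K F (a i) * (t i)⁻¹)

omit [Fintype ι] in
theorem factor_sub_one_mem (hker : RedKer O red) {s : Place k Fk} {τ : F}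
    (hτ : IsCoord O red sp s τ) {c : K} (hc : algebraMap K F c ∈ O.nonunits) :
    (1 - algebraMap K F c * τ⁻¹) - 1 ∈ O.nonunits := by
  have e : (1 - algebraMap K F c * τ⁻¹) - 1 = -(algebraMap K F c * τ⁻¹) := by ring
  rw [e]
  exact neg_mem_nonunits O (mul_mem_nonunits_of_mem O hc (hτ.inv_mem hker))

/-- (CO4) `unitOf t a` is a Gauss one-unit. -/
theorem unitOf_sub_one_mem [HasPrincipalDivisors K F] (hS : IsAdapted O red sp R t) {a : ι → K}
    (ha : ∀ i, algebraMap K F (a i) ∈ O.nonunits) : unitOf t a - 1 ∈ O.nonunits :=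
  prod_sub_one_mem_nonunits O Finset.univ _ fun i _ =>
    factor_sub_one_mem hS.ker (hS.coord i) (ha i)

omit [Algebra K F] [Fintype ι] in
theorem ne_zero_of_sub_one_mem_nonunits (A : ValuationSubring F) {f : F}
    (hf : f - 1 ∈ A.nonunits) : f ≠ 0 := by
  rintro rfl
  have := neg_mem_nonunits A hf
  rw [zero_sub, neg_neg] at this
  exact one_notMem_nonunits A this

/-- (CO4) On the discs of the base points the divisor of `unitOf t a` is `∑ Q i - ∑ R i`, where
`Q i` is the point of the `i`-th disc with `t i (Q i) = a i`.  The hypothesis `hreg` says that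
`1 / t j` is regular on the other discs. -/
theorem ord_unitOf [HasPrincipalDivisors K F] (hS : IsAdapted O red sp R t)
    (hreg : ∀ i j, i ≠ j → (t j)⁻¹ ∈ discRing O sp (sp (R i)))
    {a : ι → K} {Q : ι → Place K F} (hQ : ∀ i, sp (Q i) = sp (R i))
    (ha : ∀ i, IsValue (Q i) (t i) (a i)) (i : ι) {P : Place K F} (hP : sp P = sp (R i)) :
    P.ord (unitOf t a) = (∑ j, Finsupp.single (Q j) (1 : ℤ)) P
      - (∑ j, Finsupp.single (R j) (1 : ℤ)) P := by
  classical
  have hanu : ∀ j, algebraMap K F (a j) ∈ O.nonunits := fun j =>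
    (hS.coord j).value_mem_nonunits hS.ker hS.const hS.cons (hQ j) (ha j)
  have hfac : ∀ j, (1 - algebraMap K F (a j) * (t j)⁻¹) - 1 ∈ O.nonunits := fun j =>
    factor_sub_one_mem hS.ker (hS.coord j) (hanu j)
  have hfac0 : ∀ j, 1 - algebraMap K F (a j) * (t j)⁻¹ ≠ 0 := fun j =>
    ne_zero_of_sub_one_mem_nonunits O (hfac j)
  have hQinj : Function.Injective Q := fun i j hij => hS.inj (by
    show sp (R i) = sp (R j)
    rw [← hQ i, ← hQ j, hij])
  have hRinj : Function.Injective R := fun i j hij => hS.inj (by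
    show sp (R i) = sp (R j)
    rw [hij])
  -- the factors `j ≠ i` are units at `P`
  have hother : ∀ j, j ≠ i → P.ord (1 - algebraMap K F (a j) * (t j)⁻¹) = 0 := by
    intro j hji
    have hmemO : 1 - algebraMap K F (a j) * (t j)⁻¹ ∈ O := by
      have := add_mem (mem_of_mem_nonunits O (hfac j)) (one_mem O)
      rwa [sub_add_cancel] at this
    have hdisc : 1 - algebraMap K F (a j) * (t j)⁻¹ ∈ discRing O sp (sp (R i)) :=
      sub_mem (one_mem _) (mul_mem
        (algebraMap_mem_discRing (mem_of_mem_nonunits O (hanu j))) (hreg i j (Ne.symm hji)))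
    have h0 : 0 ≤ P.ord (1 - algebraMap K F (a j) * (t j)⁻¹) :=
      ord_nonneg_of_mem P (hdisc.2 P hP)
    by_contra hne
    have h1 : 1 ≤ P.ord (1 - algebraMap K F (a j) * (t j)⁻¹) := by omega
    have h2 := (one_le_ord_iff P (hfac0 j)).mp h1
    have h3 := rd_mem_nonunits_of_regular hS.cons hmemO (sp (R i)) hdisc.2 P hP h2
    have h4 : rd O red (1 - algebraMap K F (a j) * (t j)⁻¹) = 1 := by
      have hx : algebraMap K F (a j) * (t j)⁻¹ ∈ O.nonunits :=
        mul_mem_nonunits_of_mem O (hanu j) ((hS.coord j).inv_mem hS.ker)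
      rw [rd_sub O red (one_mem O) (mem_of_mem_nonunits O hx), rd_one,
        (rd_eq_zero_iff hS.ker (mem_of_mem_nonunits O hx)).mpr hx, sub_zero]
    rw [h4] at h3
    exact one_notMem_nonunits _ h3
  -- the factor `i`
  have ht0 : t i ≠ 0 := (hS.coord i).ne_zero
  have hta0 : t i - algebraMap K F (a i) ≠ 0 := (hS.coord i).sub_const_ne_zero hS.ker (hanu i)
  have hR0 : IsValue (R i) (t i) 0 := isValue_zero_iff.mpr (hS.zero i)
  have e1 : P.ord (t i - algebraMap K F (a i)) = (∑ j, Finsupp.single (Q j) (1 : ℤ)) P := by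
    by_cases hPi : P = Q i
    · rw [hPi, (hS.coord i).ord_sub_const hS.ker hS.const hS.cons (hQ i) (ha i),
        sum_single_apply_self Q hQinj i]
    · rw [(hS.coord i).ord_sub_const_of_ne hS.ker hS.const hS.cons (hQ i) hP hPi (ha i),
        sum_single_apply_of_ne Q P]
      intro j hj
      by_cases hji : j = i
      · exact hPi (hji ▸ hj.symm)
      · exact hji (hS.inj (by
          show sp (R j) = sp (R i)
          rw [← hQ j, hj, hP]))
  have e2 : P.ord (t i) = (∑ j, Finsupp.single (R j) (1 : ℤ)) P := by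
    have e0 : t i = t i - algebraMap K F (0 : K) := by rw [map_zero, sub_zero]
    by_cases hPi : P = R i
    · rw [hPi, sum_single_apply_self R hRinj i]
      conv_lhs => rw [e0]
      exact (hS.coord i).ord_sub_const hS.ker hS.const hS.cons rfl hR0
    · rw [sum_single_apply_of_ne R P]
      · conv_lhs => rw [e0]
        exact (hS.coord i).ord_sub_const_of_ne hS.ker hS.const hS.cons rfl hP hPi hR0
      · intro j hj
        by_cases hji : j = i
        · exact hPi (hji ▸ hj.symm)
        · exact hji (hS.inj (by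
            show sp (R j) = sp (R i)
            rw [hj, hP]))
  have e3 : P.ord (1 - algebraMap K F (a i) * (t i)⁻¹)
      = P.ord (t i - algebraMap K F (a i)) - P.ord (t i) := by
    have e : 1 - algebraMap K F (a i) * (t i)⁻¹ = (t i - algebraMap K F (a i)) * (t i)⁻¹ := by
      rw [sub_mul, mul_inv_cancel₀ ht0]
    rw [e, P.ord_mul hta0 (inv_ne_zero ht0), P.ord_inv]
    ring
  rw [unitOf, ord_prod P Finset.univ _ fun j _ => hfac0 j,
    Finset.sum_eq_single i (fun j _ hji => hother j hji)
      (fun h => absurd (Finset.mem_univ i) h), e3, e1, e2]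

omit [Fintype ι] in
/-- `unitOf t a` in terms of `e i = -1 / t i`: the product `∏ (1 + a i * e i)`. -/
theorem unitOf_eq [Fintype ι] (t e : ι → F) (he : ∀ i, e i = -(t i)⁻¹) (a : ι → K) :
    unitOf t a = ∏ i, (1 + algebraMap K F (a i) * e i) := by
  unfold unitOf
  refine Finset.prod_congr rfl fun i _ => ?_
  rw [he i]
  ring

/-- The class relation for the addition law, in terms of the functions `unitOf`: for `x`, `y`
in the kernel of reduction there is a function whose divisor is
`div (u_x) + div (u_y) - div (u_{x+y})` on the discs of the base points and zero elsewhere. -/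
theorem exists_relation_unitOf [HasPrincipalDivisors K F] (hS : IsAdapted O red sp R t)
    (hreg : ∀ i j, i ≠ j → (t j)⁻¹ ∈ discRing O sp (sp (R i)))
    {x y : Pic0 K F} (hx : x ∈ specKernel sp) (hy : y ∈ specKernel sp) :
    ∃ φ : F, φ ≠ 0 ∧
      (∀ (P : Place K F) (i : ι), sp P = sp (R i) →
        P.ord φ = P.ord (unitOf t (coord sp R t x)) + P.ord (unitOf t (coord sp R t y))
          - P.ord (unitOf t (coord sp R t (x + y)))) ∧
      ∀ P : Place K F, (∀ i, sp P ≠ sp (R i)) → P.ord φ = 0 := by
  obtain ⟨Q, hQ, hrep, ha⟩ := coord_spec hS hx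
  obtain ⟨Q', hQ', hrep', ha'⟩ := coord_spec hS hy
  obtain ⟨Q'', hQ'', hrep'', ha''⟩ := coord_spec hS (add_mem hx hy)
  obtain ⟨φ, hφ0, hφ⟩ := hrep.exists_add_relation hrep' hrep''
  refine ⟨φ, hφ0, fun P i hP => ?_, fun P hP => ?_⟩
  · rw [hφ P, ord_unitOf hS hreg hQ ha i hP, ord_unitOf hS hreg hQ' ha' i hP,
      ord_unitOf hS hreg hQ'' ha'' i hP]
  · have h0 : ∀ S : ι → Place K F, (∀ i, sp (S i) = sp (R i)) →
        (∑ i, Finsupp.single (S i) (1 : ℤ)) P = 0 := fun S hS' =>
      sum_single_apply_of_ne S P fun j hj => hP j (by rw [← hj, hS' j])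
    rw [hφ P, h0 Q hQ, h0 Q' hQ', h0 Q'' hQ'', h0 R fun _ => rfl]
    simp

end UnitOf

end Fermat.Agent.S19.helper5161
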