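import Fermat.Agent.S19.helper2111_SpecCore
import Fermat.Agent.S19.helper5161_CAlgCoord

/-!
# S19-CALG-COORD : the wrapper onto `J₀(N)`

The abstract coordinates of `helper5161_CAlgCoord` at `K = Qbar`, `F = modularFunctionFieldBar N`
give the fields `stable`, `val`, `eqv`, `inj` of the captain's `IsCoordSystem`
(`Fermat.Agent.S19.helper2111`); the fields `cen` and `law` are passed through
(`cen` in the shape of the landed `helper2007.exists_fixed_centre`, `law` for the coordinates
`coord sp R t`).
-/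

set_option autoImplicit false

namespace Fermat.Agent.S19.helper5161

open AlgebraicCurve ModularCurve
open Fermat.Agent.S37.helper126
open Fermat.Agent.S19.helper2007
open Fermat.Agent.S19.helper2111

section Small

variable {K F k Fk : Type*} [Field K] [Field F] [Algebra K F] [Field k] [Field Fk] [Algebra k Fk]
variable {ι : Type*} [Fintype ι]
variable {O : ValuationSubring F} {red : O →+* Fk} {sp : Place K F → Place k Fk}
variable {R : ι → Place K F} {t : ι → F}

omit [Fintype ι] in
/-- A constant in the maximal ideal of `O` lies in the maximal ideal of the valuation ring of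
constants. -/
theorem mem_nonunits_of_algebraMap_mem_nonunits (A : ValuationSubring K)
    (hO : ∀ a : K, algebraMap K F a ∈ O ↔ a ∈ A) {a : K}
    (ha : algebraMap K F a ∈ O.nonunits) : a ∈ A.nonunits := by
  rw [mem_nonunits_iff_inv_notMem] at ha ⊢
  rcases ha with h0 | h
  · exact Or.inl ((map_eq_zero (algebraMap K F)).mp h0)
  · refine Or.inr fun hA => h ?_
    rw [← map_inv₀]
    exact (hO _).mpr hA

/-- (val), in the valuation ring of constants: the `hsmall` input of
`helper1288.law_of_key_gauss`. -/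
theorem coord_mem_nonunits_const [HasPrincipalDivisors K F] (hS : IsAdapted O red sp R t)
    (A : ValuationSubring K) (hO : ∀ a : K, algebraMap K F a ∈ O ↔ a ∈ A) {x : Pic0 K F}
    (hx : x ∈ specKernel sp) (i : ι) : coord sp R t x i ∈ A.nonunits :=
  mem_nonunits_of_algebraMap_mem_nonunits A hO (coord_mem_nonunits hS hx i)

end Small

section JZero

variable {k Fk : Type*} [Field k] [Field Fk] [Algebra k Fk]
variable (ℓ N : ℕ) (A : ValuationSubring Qb) {g : ℕ}
variable {O : ValuationSubring (modularFunctionFieldBar N)} {red : O →+* Fk}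
variable {sp : Place Qb (modularFunctionFieldBar N) → Place k Fk}
variable {R : Fin g → Place Qb (modularFunctionFieldBar N)}
variable {t : Fin g → modularFunctionFieldBar N}

/-- The image of the inertia group of `A` in the semilinear automorphisms of the function field
of level `N`. -/
def inertiaSet : Set (SemilinearAut Qb (modularFunctionFieldBar N)) :=
  (arithmeticGalois (modularFunctionFieldFull N)) ''
    (A.inertiaSubgroupIn ℚ : Set (Qb ≃ₐ[ℚ] Qb))

theorem mem_inertiaSet {σ : Qb ≃ₐ[ℚ] Qb} (hσ : σ ∈ A.inertiaSubgroupIn ℚ) :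
    arithmeticGalois (modularFunctionFieldFull N) σ ∈ inertiaSet N A :=
  ⟨σ, hσ, rfl⟩

/-- The field `cen` from inertia-fixed lifts of every point of the special fibre
(the landed `helper2007.exists_fixed_centre`). -/
theorem cen_of_hasFixedLift (hdeg1 : ResidueTrivial Qb (modularFunctionFieldBar N))
    (hfix : ∀ P : Place Qb (modularFunctionFieldBar N),
      HasFixedLift sp (inertiaSet N A) (sp P))
    (x : JZero N) : ∃ y : JZero N,
      (∀ σ ∈ A.inertiaSubgroupIn ℚ, σ • y = y) ∧ x - y ∈ specKernel sp := by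
  obtain ⟨y, hy, hxy⟩ := exists_fixed_centre (inertiaSet N A)
    (deg_eq_one_of_residueTrivial hdeg1) hfix x
  exact ⟨y, fun σ hσ => hy _ (mem_inertiaSet N A hσ), hxy⟩

variable [HasPrincipalDivisors Qb (modularFunctionFieldBar N)]

/-- The captain's `IsCoordSystem` at level `N` from an adapted system on the valued function
field `(modularFunctionFieldBar N, O)` whose valuation ring of constants lies in `A`, on which
the inertia group of `A` acts trivially on the special fibre and fixes the disc coordinates,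
with centres and the addition law passed through. -/
theorem isCoordSystem_of_adapted (hS : IsAdapted O red sp R t)
    (hOA : ∀ a : Qb, algebraMap Qb (modularFunctionFieldBar N) a ∈ O → a ∈ A)
    (hI : ∀ σ ∈ A.inertiaSubgroupIn ℚ, ∀ P : Place Qb (modularFunctionFieldBar N),
      sp (arithmeticGalois (modularFunctionFieldFull N) σ • P) = sp P)
    (hIt : ∀ σ ∈ A.inertiaSubgroupIn ℚ, ∀ i,
      arithmeticGalois (modularFunctionFieldFull N) σ • t i = t i)
    (hcen : ∀ x : JZero N, ∃ y : JZero N,
      (∀ σ ∈ A.inertiaSubgroupIn ℚ, σ • y = y) ∧ x - y ∈ specKernel sp)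
    (hlaw : ∀ (j : ℕ) (T : Finset (JZero N)), (∀ x ∈ T, x ∈ specKernel sp) →
      ∃ P : Fin g → MvPolynomial (Fin g ⊕ Fin g) Qb, (∀ i d, (P i).coeff d ∈ A) ∧
        ∀ x ∈ T, ∀ y ∈ T, ∀ i, ∃ w ∈ A,
          coord sp R t (x + y) i
            - MvPolynomial.eval (Sum.elim (coord sp R t x) (coord sp R t y)) (P i)
            = (ℓ : Qb) ^ j * w) :
    IsCoordSystem ℓ N A g (specKernel sp) (coord sp R t) where
  stable := fun σ hσ _ hx =>
    smul_mem_specKernel (arithmeticGalois (modularFunctionFieldFull N) σ) id (hI σ hσ) hx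
  val := fun _ hx i => hOA _ (mem_of_mem_nonunits O (coord_mem_nonunits hS hx i))
  eqv := fun σ hσ _ hx i =>
    coord_smul hS (arithmeticGalois (modularFunctionFieldFull N) σ) (hI σ hσ) (hIt σ hσ) hx i
  inj := fun _ hx _ hy h => coord_injOn hS hx hy h
  cen := hcen
  law := hlaw

/-- `Stmt_Coords` at level `N` from an adapted system. -/
theorem stmt_Coords_of_adapted (hℓ : A.LiesOverPrime ℓ) (hS : IsAdapted O red sp R t)
    (hOA : ∀ a : Qb, algebraMap Qb (modularFunctionFieldBar N) a ∈ O → a ∈ A)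
    (hI : ∀ σ ∈ A.inertiaSubgroupIn ℚ, ∀ P : Place Qb (modularFunctionFieldBar N),
      sp (arithmeticGalois (modularFunctionFieldFull N) σ • P) = sp P)
    (hIt : ∀ σ ∈ A.inertiaSubgroupIn ℚ, ∀ i,
      arithmeticGalois (modularFunctionFieldFull N) σ • t i = t i)
    (hcen : ∀ x : JZero N, ∃ y : JZero N,
      (∀ σ ∈ A.inertiaSubgroupIn ℚ, σ • y = y) ∧ x - y ∈ specKernel sp)
    (hlaw : ∀ (j : ℕ) (T : Finset (JZero N)), (∀ x ∈ T, x ∈ specKernel sp) →
      ∃ P : Fin g → MvPolynomial (Fin g ⊕ Fin g) Qb, (∀ i d, (P i).coeff d ∈ A) ∧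
        ∀ x ∈ T, ∀ y ∈ T, ∀ i, ∃ w ∈ A,
          coord sp R t (x + y) i
            - MvPolynomial.eval (Sum.elim (coord sp R t x) (coord sp R t y)) (P i)
            = (ℓ : Qb) ^ j * w) :
    Stmt_Coords ℓ N :=
  ⟨A, hℓ, g, specKernel sp, coord sp R t,
    isCoordSystem_of_adapted ℓ N A hS hOA hI hIt hcen hlaw⟩

omit [HasPrincipalDivisors Qb (modularFunctionFieldBar N)] in
/-- The field `cen` from centres fixed by the set `inertiaSet N A` (the shape of the landed
`helper2007.exists_fixed_centre`). -/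
theorem cen_of_fixed_centre
    (h : ∀ x : Pic0 Qb (modularFunctionFieldBar N), ∃ y : Pic0 Qb (modularFunctionFieldBar N),
      (∀ γ ∈ inertiaSet N A, γ • y = y) ∧ x - y ∈ specKernel sp)
    (x : JZero N) : ∃ y : JZero N,
      (∀ σ ∈ A.inertiaSubgroupIn ℚ, σ • y = y) ∧ x - y ∈ specKernel sp := by
  obtain ⟨y, hy, hxy⟩ := h x
  exact ⟨y, fun σ hσ => hy _ (mem_inertiaSet N A hσ), hxy⟩

/-- `isCoordSystem_of_adapted` with the Galois hypotheses stated for the set `inertiaSet N A`
of semilinear automorphisms. -/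
theorem isCoordSystem_of_adapted_set (hS : IsAdapted O red sp R t)
    (hOA : ∀ a : Qb, algebraMap Qb (modularFunctionFieldBar N) a ∈ O → a ∈ A)
    (hG : ∀ γ ∈ inertiaSet N A, ∀ P : Place Qb (modularFunctionFieldBar N), sp (γ • P) = sp P)
    (hGt : ∀ γ ∈ inertiaSet N A, ∀ i, γ • t i = t i)
    (hcen : ∀ x : Pic0 Qb (modularFunctionFieldBar N),
      ∃ y : Pic0 Qb (modularFunctionFieldBar N),
        (∀ γ ∈ inertiaSet N A, γ • y = y) ∧ x - y ∈ specKernel sp)
    (hlaw : ∀ (j : ℕ) (T : Finset (JZero N)), (∀ x ∈ T, x ∈ specKernel sp) →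
      ∃ P : Fin g → MvPolynomial (Fin g ⊕ Fin g) Qb, (∀ i d, (P i).coeff d ∈ A) ∧
        ∀ x ∈ T, ∀ y ∈ T, ∀ i, ∃ w ∈ A,
          coord sp R t (x + y) i
            - MvPolynomial.eval (Sum.elim (coord sp R t x) (coord sp R t y)) (P i)
            = (ℓ : Qb) ^ j * w) :
    IsCoordSystem ℓ N A g (specKernel sp) (coord sp R t) :=
  isCoordSystem_of_adapted ℓ N A hS hOA
    (fun _ hσ P => hG _ (mem_inertiaSet N A hσ) P)
    (fun _ hσ i => hGt _ (mem_inertiaSet N A hσ) i)
    (cen_of_fixed_centre N A hcen) hlaw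

end JZero

end Fermat.Agent.S19.helper5161
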