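import Fermat.Agent.S19.helper2570_CAlgAbs
import Fermat.Agent.S19.helper5161_CAlgCoordJ

/-!
# S19 core, export with (Loc), (Zero), (Onto)

The coordinate system produced by the main line C-alg of the S19 core is the explicit system
`helper5161.coord sp R t` on the kernel of reduction `helper2007.specKernel sp`.  Besides the six
fields of the captain's `helper2111.IsCoordSystem` it satisfies

* (Loc)  the coordinates of a class of the kernel of reduction lie in the maximal ideal of `A`;
* (Zero) the coordinates of `0` are `0`;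
* (Onto) every family of elements of the maximal ideal of `A` is the family of coordinates of a
  class of the kernel of reduction (so `b : J1 → (𝔪_A)^g` is a bijection).

These are the extra fields asked of the core by its satellites (S15 block [R], S33).

* `isAbsCoordSystem_loc_of_cover` : abstract form, from `helper6256.IsAdaptedCover`;
* `exists_isCoordSystem_loc_of_cover` : on `J₀(M)`, from `helper6256.CAlgCoverAt ℓ M A`.
-/

set_option autoImplicit false

namespace Fermat.Agent.S19.helper5161

open AlgebraicCurve ModularCurve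
open Fermat.Agent.S37.helper126 Fermat.Agent.S19.helper2007 Fermat.Agent.S19.helper2111

section Abs

variable {K F k Fk : Type} [Field K] [Field F] [Algebra K F] [Field k] [Field Fk] [Algebra k Fk]
variable {A : ValuationSubring K} {π : K} {Gam : Set (SemilinearAut K F)}
variable {O : ValuationSubring F} {red : O →+* Fk} {sp : Place K F → Place k Fk}
variable {g : ℕ} {R : Fin g → Place K F} {e : Fin g → F} {Poo : Place K F}

/-- An adapted cover gives a coordinate system on the kernel of reduction with (Loc), (Zero)
and (Onto). -/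
theorem isAbsCoordSystem_loc_of_cover
    (h : helper6256.IsAdaptedCover A π Gam O red sp g R e Poo) :
    helper6256.IsAbsCoordSystem A π Gam g (specKernel sp) (coord sp R (fun i => -(e i)⁻¹)) ∧
    (∀ x ∈ specKernel sp, ∀ i, coord sp R (fun i => -(e i)⁻¹) x i ∈ A.nonunits) ∧
    (∀ i, coord sp R (fun i => -(e i)⁻¹) (0 : Pic0 K F) i = 0) ∧
    (∀ a : Fin g → K, (∀ i, a i ∈ A.nonunits) →
      ∃ x ∈ specKernel sp, coord sp R (fun i => -(e i)⁻¹) x = a) := by
  have := h.hPD
  have hS := helper2570.isAdapted_of_cover h
  refine ⟨helper2570.isAbsCoordSystem_of_cover h,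
    fun x hx i => coord_mem_nonunits_const hS A h.hA hx i,
    fun i => by rw [coord_zero hS]; rfl, fun a ha => ?_⟩
  refine exists_coord_eq hS a fun i => ?_
  have hai := ha i
  rw [mem_nonunits_iff_inv_notMem] at hai ⊢
  rcases hai with h0 | hn
  · exact Or.inl (by rw [h0, map_zero])
  · refine Or.inr fun hmem => hn ?_
    rw [← map_inv₀] at hmem
    exact (h.hA _).mp hmem

end Abs

/-- **S19 core with (Loc), (Zero), (Onto)** at `(M, A)`: an adapted cover at `(M, A)` gives the
captain's coordinate system, with coordinates in the maximal ideal of `A`, vanishing at `0`, and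
onto the `g`-th power of the maximal ideal of `A`. -/
theorem exists_isCoordSystem_loc_of_cover {ℓ M : ℕ} {A : ValuationSubring Qb}
    (hcov : helper6256.CAlgCoverAt ℓ M A) :
    ∃ (g : ℕ) (J1 : AddSubgroup (JZero M)) (b : JZero M → Fin g → Qb),
      IsCoordSystem ℓ M A g J1 b ∧
      (∀ x ∈ J1, ∀ i, b x i ∈ A.nonunits) ∧
      (∀ i, b 0 i = 0) ∧
      (∀ a : Fin g → Qb, (∀ i, a i ∈ A.nonunits) → ∃ x ∈ J1, b x = a) := by
  obtain ⟨k, Fk, _, _, _, O, red, sp, g, R, e, Poo, h⟩ := hcov
  obtain ⟨hb, hloc, hzero, honto⟩ := isAbsCoordSystem_loc_of_cover h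
  refine ⟨g, specKernel sp, coord sp R (fun i => -(e i)⁻¹), ⟨?_, hb.val, ?_, hb.inj, ?_, hb.law⟩,
    hloc, hzero, honto⟩
  · intro σ hσ x hx
    exact hb.stable _ (helper6256.mem_inertiaImage hσ) x hx
  · intro σ hσ x hx i
    exact hb.eqv _ (helper6256.mem_inertiaImage hσ) x hx i
  · intro x
    obtain ⟨y, hy, hxy⟩ := hb.cen x
    exact ⟨y, fun σ hσ => hy _ (helper6256.mem_inertiaImage hσ), hxy⟩

end Fermat.Agent.S19.helper5161
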