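import Fermat.Agent.S19.helper9075_CoordsAux
import Fermat.Agent.S19.helper5161_CoreLoc

set_option autoImplicit false

/-!
# S19 core with (Loc), (Zero), (Onto): unconditional consumer forms (helper9075)

`helper5161.exists_isCoordSystem_loc_of_cover` (the core export for the satellites S15 / S33)
consumes an adapted cover `helper6256.CAlgCoverAt ℓ M A`; `helper9075.calgCoverAt_aux` supplies
it at the auxiliary level `helper2289.auxLevel N ℓ` for EVERY `N ≠ 0`, every prime `ℓ ∤ N`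
(`ℓ = 2, 3` included) and every place `A` of `ℚ̄` over `ℓ`.

* `exists_coordSystem_loc_aux` : full coordinate system + (Loc) + (Zero) + (Onto) at the
  auxiliary level, no hypothesis;
* `exists_coordSystem_loc_aux_map` : the same together with the injective Galois-equivariant
  level map `J₀(N) → J₀(auxLevel N ℓ)`;
* `exists_weakCoordSystem_loc` : weak coordinate system + (Loc) + (Zero) at level `N` itself.
-/

namespace Fermat.Agent.S19.helper9075

open ModularCurve
open Fermat.Agent.S19.helper2111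

/-- **The core with (Loc), (Zero), (Onto) at the auxiliary level, unconditionally.** -/
theorem exists_coordSystem_loc_aux (N : ℕ) [NeZero N] (ℓ : ℕ) [Fact ℓ.Prime] (hℓN : ¬ ℓ ∣ N)
    (A : ValuationSubring Qb) (hA : A.LiesOverPrime ℓ) :
    ∃ (g : ℕ) (J1 : AddSubgroup (JZero (Fermat.Agent.S19.helper2289.auxLevel N ℓ)))
      (b : JZero (Fermat.Agent.S19.helper2289.auxLevel N ℓ) → Fin g → Qb),
      IsCoordSystem ℓ (Fermat.Agent.S19.helper2289.auxLevel N ℓ) A g J1 b ∧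
      (∀ x ∈ J1, ∀ i, b x i ∈ A.nonunits) ∧
      (∀ i, b 0 i = 0) ∧
      (∀ a : Fin g → Qb, (∀ i, a i ∈ A.nonunits) → ∃ x ∈ J1, b x = a) :=
  Fermat.Agent.S19.helper5161.exists_isCoordSystem_loc_of_cover (calgCoverAt_aux N ℓ hℓN A hA)

/-- The level map and the core with (Loc), (Zero), (Onto) at the auxiliary level. -/
theorem exists_coordSystem_loc_aux_map (N : ℕ) [NeZero N] (ℓ : ℕ) [Fact ℓ.Prime]
    (hℓN : ¬ ℓ ∣ N) (A : ValuationSubring Qb) (hA : A.LiesOverPrime ℓ) :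
    ∃ (φ : JZero N →+ JZero (Fermat.Agent.S19.helper2289.auxLevel N ℓ)) (g : ℕ)
      (J1 : AddSubgroup (JZero (Fermat.Agent.S19.helper2289.auxLevel N ℓ)))
      (b : JZero (Fermat.Agent.S19.helper2289.auxLevel N ℓ) → Fin g → Qb),
      Function.Injective φ ∧ (∀ (σ : GQ) (x : JZero N), φ (σ • x) = σ • φ x) ∧
      IsCoordSystem ℓ (Fermat.Agent.S19.helper2289.auxLevel N ℓ) A g J1 b ∧
      (∀ x ∈ J1, ∀ i, b x i ∈ A.nonunits) ∧
      (∀ i, b 0 i = 0) ∧
      (∀ a : Fin g → Qb, (∀ i, a i ∈ A.nonunits) → ∃ x ∈ J1, b x = a) := by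
  obtain ⟨φ, hφ, hgal⟩ := exists_auxMap N ℓ
  obtain ⟨g, J1, b, h, hloc, hzero, honto⟩ := exists_coordSystem_loc_aux N ℓ hℓN A hA
  exact ⟨φ, g, J1, b, hφ, hgal, h, hloc, hzero, honto⟩

/-- **Weak coordinate system with (Loc) and (Zero) at EVERY level** `N ≠ 0`, every prime
`ℓ ∤ N`, every place `A` over `ℓ`; no hypothesis. -/
theorem exists_weakCoordSystem_loc (N : ℕ) [NeZero N] (ℓ : ℕ) [Fact ℓ.Prime] (hℓN : ¬ ℓ ∣ N)
    (A : ValuationSubring Qb) (hA : A.LiesOverPrime ℓ) :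
    ∃ (g : ℕ) (J1 : AddSubgroup (JZero N)) (b : JZero N → Fin g → Qb),
      IsWeakCoordSystem ℓ N A g J1 b ∧
      (∀ x ∈ J1, ∀ i, b x i ∈ A.nonunits) ∧
      (∀ i, b 0 i = 0) := by
  obtain ⟨φ, g, J1, b, hφ, hgal, h, hloc, hzero, -⟩ :=
    exists_coordSystem_loc_aux_map N ℓ hℓN A hA
  refine ⟨g, J1.comap φ, fun x => b (φ x),
    (weak_of_coordSystem h).comap φ hφ (fun σ _ x => hgal σ x),
    fun x hx i => hloc _ (AddSubgroup.mem_comap.1 hx) i, fun i => ?_⟩
  change b (φ 0) i = 0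
  rw [map_zero]
  exact hzero i

end Fermat.Agent.S19.helper9075
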