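import Fermat.Agent.S19.helper5842_CoverWeil
import Fermat.Agent.S37.helper1187_IntClosureInsep
import Fermat.Agent.S17.helper2219_Divisible

/-!
# S19, route W (findings #3057), leaf W2a, part 4 (helper5842): NONDEGENERACY of the Weil pairing

`weilND` : for `K` algebraically closed of characteristic `0` and `F` a function field over `K`,
the Spec statement `helper2790.WeilND K F n` holds as soon as Weil reciprocity
(`helper2790.Reciprocity K F'`) holds on the function fields `F'` over `K` (it is used on ONE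
Kummer cover `F' = F[X]/(X^p - h)` of `F`).

Proof: `y ≠ 0` of order `m ∣ n`, `p` the least prime factor of `m`, `m = p r`, `n = m k`,
`m D_y = div h`; `h` is not a `p`-th power (else `r y = 0`), so `F' = F[X]/(X^p - h)` is a field
(Mathlib `X_pow_sub_C_irreducible_of_prime`) with the automorphism `τ u = ζ u`
(`autAdjoinRootXPowSubC`); `Pic0 F'` is divisible (landed `S17.helper2219.pic0_divisible`), so
`n z = [P' - τ P']` has a solution, and `exists_weil_ne_one_of_cover` (the cyclic-cover
computation `cover_computation`) gives `x = N(z)` with `e_n(x, y)^r = ζ^{-1} ≠ 1`.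
-/

set_option autoImplicit false

open AlgebraicCurve Polynomial IntermediateField

namespace Fermat.Agent.S19.helper5842

universe u v

section Kummer

variable {K : Type u} {F : Type v} [Field K] [Field F] [Algebra K F] [IsAlgClosed K] [CharZero K]

/-- The Kummer cover `F' = F[X]/(X^p - h)` with its automorphism `u ↦ ζ u`. -/
theorem exists_kummer_cover (x : F) (hx : Transcendental K x) [FiniteDimensional K⟮x⟯ F]
    {p : ℕ} (hp : p.Prime) (h : F) (hnp : ∀ b : F, b ^ p ≠ h) :
    ∃ (F' : Type v) (_ : Field F') (_ : Algebra K F') (_ : Algebra F F')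
      (_ : IsScalarTower K F F') (_ : Module.Finite F F') (x' : F')
      (_ : Transcendental K x') (_ : FiniteDimensional K⟮x'⟯ F') (u : F') (ζ : K)
      (τ : F' ≃ₐ[K] F'), u ^ p = algebraMap F F' h ∧ ζ ≠ 0 ∧ ζ ≠ 1 ∧
        (∀ f : F, τ (algebraMap F F' f) = algebraMap F F' f) ∧
        τ u = algebraMap K F' ζ * u := by
  classical
  have hirr : Irreducible (X ^ p - C h : F[X]) := X_pow_sub_C_irreducible_of_prime hp hnp
  have : Fact (Irreducible (X ^ p - C h : F[X])) := ⟨hirr⟩
  have hmonic : (X ^ p - C h : F[X]).Monic := monic_X_pow_sub_C h hp.ne_zero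
  have : Module.Finite F (AdjoinRoot (X ^ p - C h : F[X])) := hmonic.finite_adjoinRoot
  have : NeZero (p : K) := ⟨Nat.cast_ne_zero.mpr hp.ne_zero⟩
  have : NeZero p := ⟨hp.ne_zero⟩
  obtain ⟨ζ, hζ⟩ := HasEnoughRootsOfUnity.exists_primitiveRoot K p
  have hζ0 : ζ ≠ 0 := hζ.ne_zero hp.ne_zero
  have hζ1 : ζ ≠ 1 := hζ.ne_one hp.one_lt
  have hηp : (algebraMap K F ζ) ^ p = 1 := by rw [← map_pow, hζ.pow_eq_one, map_one]
  refine ⟨AdjoinRoot (X ^ p - C h : F[X]), inferInstance, inferInstance, inferInstance,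
    inferInstance, inferInstance, algebraMap F _ x, ?_, ?_, AdjoinRoot.root _, ζ,
    (autAdjoinRootXPowSubC p h (rootsOfUnity.mkOfPowEq (algebraMap K F ζ) hηp)).restrictScalars K,
    ?_, hζ0, hζ1, ?_, ?_⟩
  · exact (transcendental_algebraMap_iff (algebraMap F _).injective).mpr hx
  · exact Fermat.Agent.S37.helper1187.finiteDimensional_adjoin_algebraMap x
  · rw [AdjoinRoot.algebraMap_eq]
    exact root_X_pow_sub_C_pow p h
  · intro f
    exact (autAdjoinRootXPowSubC p h (rootsOfUnity.mkOfPowEq (algebraMap K F ζ) hηp)).commutes f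
  · rw [AlgEquiv.restrictScalars_apply, autAdjoinRootXPowSubC_root, Algebra.smul_def,
      rootsOfUnity.coe_mkOfPowEq, ← IsScalarTower.algebraMap_apply]

open Fermat.Agent.S27.helper4586 Fermat.Agent.S19.helper2790

/-- **W2 (nondegeneracy of the Weil pairing)**, from Weil reciprocity on the function fields of
the Kummer covers. -/
theorem weilND_of_reciprocity (x : F) (hx : Transcendental K x) [FiniteDimensional K⟮x⟯ F]
    (n : ℕ) (hn : 0 < n)
    (hR : ∀ (F' : Type v) [Field F'] [Algebra K F'] (x' : F'), Transcendental K x' →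
      FiniteDimensional K⟮x'⟯ F' → helper2790.Reciprocity K F') :
    WeilND K F n := by
  classical
  intro y hy hy0
  have hPD : HasPrincipalDivisors K F := Fermat.Agent.S24.helper483.hasPrincipalDivisors x hx
  have hV : ∀ P : Place K F, HasValues P := fun P => hasValues_of_finite x P
  -- the order of `y` and its smallest prime factor
  have hy' : n • y = 0 := by rw [← natCast_zsmul]; exact hy
  have hmn : addOrderOf y ∣ n := addOrderOf_dvd_of_nsmul_eq_zero hy'
  have hm0 : 0 < addOrderOf y := Nat.pos_of_dvd_of_pos hmn hn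
  have hm1 : addOrderOf y ≠ 1 := fun h1 => hy0 (AddMonoid.addOrderOf_eq_one_iff.mp h1)
  have hp : (addOrderOf y).minFac.Prime := Nat.minFac_prime hm1
  obtain ⟨r, hr⟩ : (addOrderOf y).minFac ∣ addOrderOf y := Nat.minFac_dvd _
  obtain ⟨k, hk⟩ := hmn
  generalize (addOrderOf y).minFac = p at hp hr
  have hr0 : 0 < r := by
    rcases Nat.eq_zero_or_pos r with h0 | h0
    · rw [h0, mul_zero] at hr
      omega
    · exact h0
  -- a representative
  obtain ⟨Dy, rfl⟩ := Pic0.mk_surjective y
  have hmy : addOrderOf (Pic0.mk Dy) • Pic0.mk Dy = 0 := addOrderOf_nsmul_eq_zero _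
  have h1 : Pic0.mk (addOrderOf (Pic0.mk Dy) • Dy) = addOrderOf (Pic0.mk Dy) • Pic0.mk Dy :=
    map_nsmul (QuotientAddGroup.mk' _) _ Dy
  obtain ⟨h, hh, hdivh⟩ := AddSubgroup.mem_addSubgroupOf.mp
    ((QuotientAddGroup.eq_zero_iff _).mp (h1.trans hmy))
  have hDy : ∀ v : Place K F, ((p * r : ℕ) : ℤ) * (Dy : Divisor K F) v = v.ord h := by
    intro v
    rw [← hdivh v, AddSubgroup.coe_nsmul, Finsupp.smul_apply, nsmul_eq_mul, hr]
  -- `h` is not a `p`-th power
  have hnp : ∀ b : F, b ^ p ≠ h := by
    intro b hb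
    have hb0 : b ≠ 0 := by
      rintro rfl
      rw [zero_pow hp.ne_zero] at hb
      exact hh hb.symm
    have hrz : r • Pic0.mk Dy = 0 := by
      have h2 : Pic0.mk (r • Dy) = r • Pic0.mk Dy := map_nsmul (QuotientAddGroup.mk' _) r Dy
      rw [← h2, Pic0.mk, QuotientAddGroup.eq_zero_iff]
      refine AddSubgroup.mem_addSubgroupOf.mpr ⟨b, hb0, fun v => ?_⟩
      have h3 := hDy v
      rw [← hb, ← zpow_natCast, v.ord_zpow] at h3
      have hp' : (p : ℤ) ≠ 0 := by exact_mod_cast hp.ne_zero
      rw [AddSubgroup.coe_nsmul, Finsupp.smul_apply, nsmul_eq_mul]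
      apply mul_left_cancel₀ hp'
      rw [← h3]
      push_cast
      ring
    have hmr : addOrderOf (Pic0.mk Dy) ∣ r := addOrderOf_dvd_of_nsmul_eq_zero hrz
    have hle : addOrderOf (Pic0.mk Dy) ≤ r := Nat.le_of_dvd hr0 hmr
    have hp2 := hp.two_le
    rw [hr] at hle
    nlinarith
  -- the Kummer cover
  obtain ⟨F', _, _, _, _, _, x', hx', hfin', u, ζ, τ, hu, hζ0, hζ1, hτF, hτu⟩ :=
    exists_kummer_cover x hx hp h hnp
  have hPD' : HasPrincipalDivisors K F' :=
    Fermat.Agent.S24.helper483.hasPrincipalDivisors x' hx'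
  have hres : ∀ w : Place K F', Function.Surjective (algebraMap K w.ResidueField) :=
    fun w => Fermat.Agent.S24.helper483.algebraMap_residueField_surjective x' w
  have hcurve : IsCurveOver K F' := Fermat.Agent.S27.helper1949.isCurveOver_of_finite x' hx'
  have hess : Algebra.EssFiniteType K F' := Fermat.Agent.S27.helper1949.essFiniteType_of_finite x'
  have hdiv : ∀ c : Pic0 K F', ∃ z : Pic0 K F', n • z = c :=
    fun c => Fermat.Agent.S17.helper2219.pic0_divisible K F' n hn c
  have hinf : ∀ S : Set (Place K F'), S.Finite → ∃ P : Place K F', P ∉ S :=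
    fun S hS => exists_place_notMem x' hx' hS
  have hnk : p * r * k = n := by rw [hk, hr]
  exact exists_weil_ne_one_of_cover hV hres (hR F' x' hx' hfin') hinf n hdiv hp.pos hnk h hh u hu
    ζ hζ0 hζ1 τ hτF hτu Dy hDy

/-- The same with the standing hypotheses of the Spec (`IsCurveOver`, `EssFiniteType`). -/
theorem weilND (K : Type u) (F : Type v) [Field K] [Field F] [Algebra K F] [IsAlgClosed K]
    [CharZero K] [IsCurveOver K F] [Algebra.EssFiniteType K F] (n : ℕ) (hn : 0 < n)
    (hR : ∀ (F' : Type v) [Field F'] [Algebra K F'] [IsCurveOver K F']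
      [Algebra.EssFiniteType K F'], helper2790.Reciprocity K F') :
    WeilND K F n := by
  obtain ⟨x, hx, hfin⟩ := Fermat.Agent.S27.helper5411.exists_transcendental_finite (K := K) (F := F)
  have : FiniteDimensional K⟮x⟯ F := hfin
  refine weilND_of_reciprocity x hx n hn fun F' _ _ x' hx' hfin' => ?_
  have : FiniteDimensional K⟮x'⟯ F' := hfin'
  have hcurve : IsCurveOver K F' := Fermat.Agent.S27.helper1949.isCurveOver_of_finite x' hx'
  have hess : Algebra.EssFiniteType K F' := Fermat.Agent.S27.helper1949.essFiniteType_of_finite x'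
  exact hR F'

end Kummer

end Fermat.Agent.S19.helper5842
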