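import Fermat.Agent.S19.helper1527_WeilModular
import Fermat.Agent.S19.helper5842_KummerNondeg
import Fermat.Agent.S17.helper2813_WeilReciprocity
import Fermat.Agent.S27.helper5411_Reduce
import Fermat.Agent.S17.helper2219_DivJZero

set_option autoImplicit false

/-!
# The Weil pairing on `J₀(N)`, bundled and hypothesis-free (helper2790)

`weilJ N n x y : ℚ̄` is the value `e_n(x, y)` of the Weil pairing on `J₀(N) = JZero N` (it is `1`
unless both `x` and `y` are killed by `n`).  Everything below is unconditional; it packages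

* the relation-form pairing `helper2790.IsWeilValue` (SpecW) with helper1527's existence,
  uniqueness, bilinearity, semilinearity, change of exponent,
* Weil reciprocity (S17 helper2813; the 25-line adapter of helper5827 is repeated here),
* nondegeneracy (helper5842, Kummer covers) and divisibility of `JZero N` (S17 helper2219).

Main statements (`x y : JZero N`, `hx : n • x = 0`, `hy : n • y = 0`):

* `weilJ_spec`          : `IsWeilValue n x y (weilJ N n x y)`
* `weilJ_eq`            : `IsWeilValue n x y c → weilJ N n x y = c`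
* `weilJ_pow`           : `weilJ N n x y ^ n = 1`
* `weilJ_add_right/left`, `weilJ_zero_right/left`, `weilJ_neg_right/left`,
  `weilJ_nsmul_right/left`, `weilJ_sum_right`
* `weilJ_symm`          : `weilJ N n y x = (weilJ N n x y)⁻¹`
* `weilJ_self`          : `weilJ N n x x = 1`  (alternating, also for even `n`)
* `weilJ_galois`        : `weilJ N n (σ • x) (σ • y) = σ (weilJ N n x y)`
* `weilJ_mul_exponent`  : `weilJ N (m * n) x y = weilJ N n (m • x) y` for `(m * n) • x = 0`
* `weilJ_nondeg`        : `y ≠ 0 → ∃ x, n • x = 0 ∧ weilJ N n x y ≠ 1`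
-/

noncomputable section

namespace Fermat.Agent.S19.helper2790

open ModularCurve AlgebraicCurve
open Fermat.Agent.S19.helper2111

/-! ## The leaves at the modular function field, with no hypothesis -/

section Recip

variable {K F : Type*} [Field K] [Field F] [Algebra K F]

/-- `IsDivValue` computes the `ev`-product (adapter of helper5827, repeated here so that this
file only imports landed modules). -/
theorem isDivValue_eq_prod_ev' {f : F} {E : Divisor K F} {a : K} (h : IsDivValue f E a) :
    a = E.prod fun P m => Fermat.Agent.S27.helper6247.ev P f ^ m := by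
  obtain ⟨val, hval, rfl⟩ := h
  refine Finsupp.prod_congr fun P hP => ?_
  have h1 : Fermat.Agent.S27.helper4586.IsVal P f (val P) :=
    (Fermat.Agent.S17.helper2813.isVal_iff_mem_nonunits P f (val P)).mpr (hval P hP).1
  rw [h1.ev_eq]

/-- **Weil reciprocity** in the SpecW shape, for a function field finite over `K⟮x⟯`
(S17 helper2813 `weil_reciprocity`; adapter as in helper5827). -/
theorem reciprocity_of_finite' [IsAlgClosed K] [CharZero K] (x : F)
    (hx : Transcendental K x) [FiniteDimensional (IntermediateField.adjoin K {x}) F] :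
    Reciprocity K F := by
  intro f g D E a b hf hg hdisj ha hb
  have hd : ∀ P : Place K F, P.ord f = 0 ∨ P.ord g = 0 := by
    intro P
    by_contra hcon
    rw [not_or] at hcon
    have hPD : P ∈ D.support := by
      rw [Finsupp.mem_support_iff, hf.2 P]
      exact hcon.1
    have hPE : P ∈ E.support := by
      rw [Finsupp.mem_support_iff, hg.2 P]
      exact hcon.2
    exact Finset.disjoint_left.mp hdisj hPD hPE
  rw [isDivValue_eq_prod_ev' ha, isDivValue_eq_prod_ev' hb]
  exact Fermat.Agent.S17.helper2813.weil_reciprocity x hx hf.1 hg.1 hd D E hf.2 hg.2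

/-- **Weil reciprocity** for every curve over an algebraically closed field of characteristic
zero. -/
theorem reciprocity_curve (K F : Type*) [Field K] [Field F] [Algebra K F] [IsAlgClosed K]
    [CharZero K] [IsCurveOver K F] [Algebra.EssFiniteType K F] : Reciprocity K F := by
  obtain ⟨x, hx, hfin⟩ :=
    Fermat.Agent.S27.helper5411.exists_transcendental_finite (K := K) (F := F)
  have : FiniteDimensional (IntermediateField.adjoin K {x}) F := hfin
  exact reciprocity_of_finite' x hx

end Recip

/-- Weil reciprocity on `F̄_N`. -/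
theorem reciprocity_FN (N : ℕ) [NeZero N] : Reciprocity Qb (modularFunctionFieldBar N) := by
  have : IsCurveOver Qb (modularFunctionFieldBar N) :=
    (Fermat.Agent.S17.helper2219.isCurveOver_FN N).1
  have : Algebra.EssFiniteType Qb (modularFunctionFieldBar N) :=
    (Fermat.Agent.S17.helper2219.isCurveOver_FN N).2
  exact reciprocity_curve Qb (modularFunctionFieldBar N)

/-- Nondegeneracy of the Weil pairing on `F̄_N`. -/
theorem weilND_FN (N : ℕ) [NeZero N] (n : ℕ) (hn : 0 < n) :
    WeilND Qb (modularFunctionFieldBar N) n := by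
  have : IsCurveOver Qb (modularFunctionFieldBar N) :=
    (Fermat.Agent.S17.helper2219.isCurveOver_FN N).1
  have : Algebra.EssFiniteType Qb (modularFunctionFieldBar N) :=
    (Fermat.Agent.S17.helper2219.isCurveOver_FN N).2
  exact Fermat.Agent.S19.helper5842.weilND Qb (modularFunctionFieldBar N) n hn
    (fun F' _ _ _ _ => reciprocity_curve Qb F')

theorem weilUnique_FN' (N : ℕ) [NeZero N] (n : ℕ) :
    WeilUnique Qb (modularFunctionFieldBar N) n :=
  Fermat.Agent.S19.helper1527.weilUnique_FN N (reciprocity_FN N) n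

theorem weilMul_FN' (N : ℕ) [NeZero N] (n : ℕ) :
    WeilMul Qb (modularFunctionFieldBar N) n :=
  Fermat.Agent.S19.helper1527.weilMul_FN N (reciprocity_FN N) n

/-! ## The bundled pairing -/

section Pairing

variable (N : ℕ) [NeZero N] (n : ℕ)

open Classical in
/-- The Weil pairing `e_n(x, y)` on `J₀(N)` (`1` if no value exists, e.g. off the `n`-torsion). -/
def weilJ (x y : JZero N) : Qb :=
  if h : ∃ c : Qb, IsWeilValue n x y c then h.choose else 1

variable {N n}
variable {x x' y y' : JZero N}

theorem weilJ_eq {c : Qb} (h : IsWeilValue n x y c) : weilJ N n x y = c := by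
  have hex : ∃ c : Qb, IsWeilValue n x y c := ⟨c, h⟩
  unfold weilJ
  rw [dif_pos hex]
  exact weilUnique_FN' N n _ _ _ _ hex.choose_spec h

theorem isWeilValue_exists (hx : n • x = 0) (hy : n • y = 0) :
    ∃ c : Qb, IsWeilValue n x y c :=
  Fermat.Agent.S19.helper1527.weilExists_FN N n x y
    (by rw [natCast_zsmul]; exact hx) (by rw [natCast_zsmul]; exact hy)

/-- The defining property. -/
theorem weilJ_spec (hx : n • x = 0) (hy : n • y = 0) : IsWeilValue n x y (weilJ N n x y) := by
  obtain ⟨c, hc⟩ := isWeilValue_exists hx hy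
  rw [weilJ_eq hc]
  exact hc

theorem weilJ_ne_zero (x y : JZero N) : weilJ N n x y ≠ 0 := by
  unfold weilJ
  split_ifs with h
  · exact h.choose_spec.ne_zero
  · exact one_ne_zero

/-- The values are `n`-th roots of unity. -/
theorem weilJ_pow (hx : n • x = 0) (hy : n • y = 0) : weilJ N n x y ^ n = 1 :=
  have := Fermat.Agent.S19.helper1527.hasPrincipalDivisors_FN N
  Fermat.Agent.S19.helper1527.isWeilValue_pow_eq_one
    (Fermat.Agent.S19.helper1527.hasValues_FN N) (reciprocity_FN N) (weilJ_spec hx hy)

theorem weilJ_add_right (hx : n • x = 0) (hy : n • y = 0) (hy' : n • y' = 0) :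
    weilJ N n x (y + y') = weilJ N n x y * weilJ N n x y' :=
  weilJ_eq (weilMul_FN' N n _ _ _ _ _ (weilJ_spec hx hy) (weilJ_spec hx hy'))

theorem weilJ_add_left (hx : n • x = 0) (hx' : n • x' = 0) (hy : n • y = 0) :
    weilJ N n (x + x') y = weilJ N n x y * weilJ N n x' y :=
  have := Fermat.Agent.S19.helper1527.hasPrincipalDivisors_FN N
  weilJ_eq (Fermat.Agent.S19.helper1527.weilMulLeft
    (Fermat.Agent.S19.helper1527.hasValues_FN N) (reciprocity_FN N) n _ _ _ _ _
    (weilJ_spec hx hy) (weilJ_spec hx' hy))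

/-- Antisymmetry. -/
theorem weilJ_symm (hx : n • x = 0) (hy : n • y = 0) :
    weilJ N n y x = (weilJ N n x y)⁻¹ :=
  weilJ_eq (Fermat.Agent.S19.helper1527.isWeilValue_symm (weilJ_spec hx hy))

theorem weilJ_zero_right (hx : n • x = 0) : weilJ N n x 0 = 1 := by
  have h := weilJ_add_right (y := 0) (y' := 0) hx (nsmul_zero n) (nsmul_zero n)
  rw [add_zero] at h
  have h0 := weilJ_ne_zero (N := N) (n := n) x 0
  exact (mul_eq_left₀ h0).mp h.symm

theorem weilJ_zero_left (hy : n • y = 0) : weilJ N n 0 y = 1 := by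
  rw [weilJ_symm (x := y) (y := 0) hy (nsmul_zero n), weilJ_zero_right hy, inv_one]

theorem weilJ_neg_right (hx : n • x = 0) (hy : n • y = 0) :
    weilJ N n x (-y) = (weilJ N n x y)⁻¹ := by
  have hy' : n • (-y) = 0 := by rw [neg_nsmul, hy, neg_zero]
  have h := weilJ_add_right hx hy hy'
  rw [add_neg_cancel, weilJ_zero_right hx] at h
  exact eq_inv_of_mul_eq_one_right h.symm

theorem weilJ_neg_left (hx : n • x = 0) (hy : n • y = 0) :
    weilJ N n (-x) y = (weilJ N n x y)⁻¹ := by
  have hx' : n • (-x) = 0 := by rw [neg_nsmul, hx, neg_zero]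
  rw [weilJ_symm hy hx', weilJ_neg_right hy hx, inv_inv, weilJ_symm hx hy]

theorem weilJ_sub_right (hx : n • x = 0) (hy : n • y = 0) (hy' : n • y' = 0) :
    weilJ N n x (y - y') = weilJ N n x y / weilJ N n x y' := by
  have hy'' : n • (-y') = 0 := by rw [neg_nsmul, hy', neg_zero]
  rw [sub_eq_add_neg, weilJ_add_right hx hy hy'', weilJ_neg_right hx hy', div_eq_mul_inv]

theorem weilJ_nsmul_right (hx : n • x = 0) (hy : n • y = 0) (k : ℕ) :
    weilJ N n x (k • y) = weilJ N n x y ^ k := by
  induction k with
  | zero => rw [zero_nsmul, pow_zero, weilJ_zero_right hx]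
  | succ k ih =>
    have hk : n • (k • y) = 0 := by rw [nsmul_left_comm, hy, nsmul_zero]
    rw [succ_nsmul, weilJ_add_right hx hk hy, ih, pow_succ]

theorem weilJ_nsmul_left (hx : n • x = 0) (hy : n • y = 0) (k : ℕ) :
    weilJ N n (k • x) y = weilJ N n x y ^ k := by
  have hk : n • (k • x) = 0 := by rw [nsmul_left_comm, hx, nsmul_zero]
  rw [weilJ_symm hy hk, weilJ_nsmul_right hy hx, weilJ_symm hx hy, inv_pow, inv_inv]

theorem weilJ_sum_right {ι : Type*} (s : Finset ι) (hx : n • x = 0) (f : ι → JZero N)
    (hf : ∀ i ∈ s, n • f i = 0) :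
    weilJ N n x (∑ i ∈ s, f i) = ∏ i ∈ s, weilJ N n x (f i) := by
  classical
  induction s using Finset.induction_on with
  | empty => rw [Finset.sum_empty, Finset.prod_empty, weilJ_zero_right hx]
  | insert a s ha ih =>
    have hs : n • ∑ i ∈ s, f i = 0 := by
      rw [Finset.smul_sum]
      exact Finset.sum_eq_zero fun i hi => hf i (Finset.mem_insert_of_mem hi)
    rw [Finset.sum_insert ha, Finset.prod_insert ha,
      weilJ_add_right hx (hf a (Finset.mem_insert_self a s)) hs,
      ih fun i hi => hf i (Finset.mem_insert_of_mem hi)]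

/-- Galois equivariance: `e_n(σx, σy) = σ(e_n(x, y))`. -/
theorem weilJ_galois (σ : GQ) (hx : n • x = 0) (hy : n • y = 0) :
    weilJ N n (σ • x) (σ • y) = σ (weilJ N n x y) :=
  weilJ_eq (Fermat.Agent.S19.helper1527.weilSemilinear_FN N n
    (arithmeticGalois (modularFunctionFieldFull N) σ) _ _ _ (weilJ_spec hx hy))

/-- Change of exponent: `e_{mn}(x, y) = e_n(m x, y)` for `x` killed by `m n` and `y` by `n`. -/
theorem weilJ_mul_exponent {m : ℕ} (hx : (m * n) • x = 0) (hy : n • y = 0) :
    weilJ N (m * n) x y = weilJ N n (m • x) y := by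
  have hy' : (m * n) • y = 0 := by rw [mul_nsmul', hy, nsmul_zero]
  have := Fermat.Agent.S19.helper1527.hasPrincipalDivisors_FN N
  exact (weilJ_eq (Fermat.Agent.S19.helper1527.isWeilValue_of_mul_exponent
    (Fermat.Agent.S19.helper1527.hasValues_FN N) (reciprocity_FN N) (weilJ_spec hx hy')
    (by rw [natCast_zsmul]; exact hy))).symm

/-- The pairing is alternating (also for even `n`). -/
theorem weilJ_self (hx : n • x = 0) : weilJ N n x x = 1 := by
  obtain ⟨z, hz⟩ := Fermat.Agent.S17.helper2219.jzero_nsmul_surjective N 2 (by norm_num) x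
  have hz2 : (2 * n) • z = 0 := by rw [mul_comm, mul_nsmul', hz, hx]
  -- `e_n(x, x) = e_n(2 z, x) = e_{2n}(z, x) = e_{2n}(z, 2 z) = e_{2n}(z, z) ^ 2 = 1`
  have h1 : weilJ N n x x = weilJ N (2 * n) z x := by
    rw [weilJ_mul_exponent hz2 hx, hz]
  have h2 : weilJ N (2 * n) z x = weilJ N (2 * n) z z ^ 2 := by
    rw [← hz, weilJ_nsmul_right hz2 hz2]
  have h3 : weilJ N (2 * n) z z ^ 2 = 1 := by
    have h := weilJ_symm (x := z) (y := z) hz2 hz2
    have h0 := weilJ_ne_zero (N := N) (n := 2 * n) z z
    rw [pow_two]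
    nth_rewrite 1 [h]
    exact inv_mul_cancel₀ h0
  rw [h1, h2, h3]

/-- Nondegeneracy: a nonzero `n`-torsion class pairs nontrivially with some `n`-torsion class. -/
theorem weilJ_nondeg (hn : 0 < n) (hy : n • y = 0) (hy0 : y ≠ 0) :
    ∃ x : JZero N, n • x = 0 ∧ weilJ N n x y ≠ 1 := by
  obtain ⟨x, c, hx, hc, hc1⟩ := weilND_FN N n hn y (by rw [natCast_zsmul]; exact hy) hy0
  refine ⟨x, by rw [← natCast_zsmul]; exact hx, ?_⟩
  rw [weilJ_eq hc]
  exact hc1

/-- Nondegeneracy in the first variable. -/
theorem weilJ_nondeg_left (hn : 0 < n) (hx : n • x = 0) (hx0 : x ≠ 0) :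
    ∃ y : JZero N, n • y = 0 ∧ weilJ N n x y ≠ 1 := by
  obtain ⟨y, hy, h⟩ := weilJ_nondeg hn hx hx0
  refine ⟨y, hy, fun h1 => h ?_⟩
  rw [weilJ_symm hx hy, h1, inv_one]

end Pairing

end Fermat.Agent.S19.helper2790

end
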