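import Mathlib
import Fermat.Prelude.Def_FLTPrelim_Ramification
import Fermat.Prelude.Def_GaloisRep_Flat
import Fermat.Agent.Lib.helper954_QbarPlaces
import Fermat.Agent.Lib.helper3858_ResidueRoots
import Fermat.Agent.S28.helper508_RatLoc

/-!
# S19-DESCENT: lattice descent from the inertia-fixed ring down to `ℤ_(ℓ)` (helper1312)

`Qb := AlgebraicClosure ℚ`, `GQ := Gal(Qb/ℚ)`, `A` a valuation subring of `Qb` over `ℓ`,
`D`, `I` its decomposition and inertia groups.  For a finite `GQ`-set `M` the group `GQ` acts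
semilinearly on functions `M → Qb` by `tw σ φ = σ ∘ φ ∘ σ⁻¹`.
-/

set_option autoImplicit false

namespace Fermat.Agent.S19.helper1312

noncomputable section

open scoped Pointwise
open Fermat.Agent.Lib.helper54 Fermat.Agent.Lib.helper954 Fermat.Agent.Lib.helper3858

attribute [local instance] isAlgebraic_Qbar isAlgClosure_Qbar isGalois_Qbar isIntegral_Qbar

local notation "Qb" => AlgebraicClosure ℚ
local notation "GQ" => (AlgebraicClosure ℚ ≃ₐ[ℚ] AlgebraicClosure ℚ)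
local notation "Zb" => integralClosure ℤ (AlgebraicClosure ℚ)

/-! ### The twisted action on functions -/

section Tw

variable {M : Type*} [MulAction GQ M]

/-- The semilinear action of the Galois group on functions: `tw σ φ = σ ∘ φ ∘ σ⁻¹`. -/
def tw (σ : GQ) (φ : M → Qb) : M → Qb := fun m => σ (φ (σ⁻¹ • m))

theorem tw_apply (σ : GQ) (φ : M → Qb) (m : M) : tw σ φ m = σ (φ (σ⁻¹ • m)) := rfl

theorem tw_one (φ : M → Qb) : tw (1 : GQ) φ = φ := by
  funext m
  simp [tw]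

theorem tw_mul (σ τ : GQ) (φ : M → Qb) : tw (σ * τ) φ = tw σ (tw τ φ) := by
  funext m
  simp only [tw_apply, mul_inv_rev, mul_smul]
  rfl

theorem tw_add (σ : GQ) (φ ψ : M → Qb) : tw σ (φ + ψ) = tw σ φ + tw σ ψ := by
  funext m
  simp [tw]

theorem tw_sub (σ : GQ) (φ ψ : M → Qb) : tw σ (φ - ψ) = tw σ φ - tw σ ψ := by
  funext m
  simp [tw]

theorem tw_zero (σ : GQ) : tw σ (0 : M → Qb) = 0 := by
  funext m
  simp [tw]

theorem tw_neg (σ : GQ) (φ : M → Qb) : tw σ (-φ) = -tw σ φ := by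
  funext m
  simp [tw]

theorem tw_mul_fun (σ : GQ) (φ ψ : M → Qb) : tw σ (φ * ψ) = tw σ φ * tw σ ψ := by
  funext m
  simp [tw]

theorem tw_one_fun (σ : GQ) : tw σ (1 : M → Qb) = 1 := by
  funext m
  simp [tw]

theorem tw_smul (σ : GQ) (c : Qb) (φ : M → Qb) : tw σ (c • φ) = σ c • tw σ φ := by
  funext m
  simp [tw]

theorem tw_sum {ι : Type*} (σ : GQ) (s : Finset ι) (f : ι → M → Qb) :
    tw σ (∑ i ∈ s, f i) = ∑ i ∈ s, tw σ (f i) := by
  funext m
  simp [tw, Finset.sum_apply]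

theorem tw_eq_iff (σ : GQ) (φ : M → Qb) : tw σ φ = φ ↔ ∀ m, φ (σ • m) = σ (φ m) := by
  constructor
  · intro h m
    have h1 := congrFun h (σ • m)
    rw [tw_apply, inv_smul_smul] at h1
    exact h1.symm
  · intro h
    funext m
    rw [tw_apply, ← h, smul_inv_smul]

/-- The stabiliser of a function for the twisted action. -/
def twFix (φ : M → Qb) : Subgroup GQ where
  carrier := {σ | tw σ φ = φ}
  mul_mem' := by
    intro a b ha hb
    show tw (a * b) φ = φ
    rw [tw_mul, show tw b φ = φ from hb, show tw a φ = φ from ha]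
  one_mem' := tw_one φ
  inv_mem' := by
    intro a ha
    show tw a⁻¹ φ = φ
    have h1 : tw a⁻¹ (tw a φ) = φ := by rw [← tw_mul, inv_mul_cancel, tw_one]
    rwa [show tw a φ = φ from ha] at h1

theorem mem_twFix (φ : M → Qb) (σ : GQ) : σ ∈ twFix φ ↔ tw σ φ = φ := Iff.rfl

theorem isOpen_twFix [Finite M]
    (hopen : ∀ m : M, IsOpen (MulAction.stabilizer GQ m : Set GQ)) (φ : M → Qb) :
    IsOpen (twFix φ : Set GQ) := by
  apply Subgroup.isOpen_of_mem_nhds (g := 1)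
  have h1 : (⋂ m : M, ((MulAction.stabilizer GQ m : Set GQ) ∩
      (MulAction.stabilizer GQ (φ m) : Set GQ))) ∈ nhds (1 : GQ) := by
    rw [Filter.iInter_mem]
    intro m
    exact Filter.inter_mem ((hopen m).mem_nhds (one_mem _))
      ((stabilizer_isOpen_of_isIntegral (φ m)).mem_nhds (one_mem _))
  refine Filter.mem_of_superset h1 ?_
  intro σ hσ
  rw [Set.mem_iInter] at hσ
  show tw σ φ = φ
  rw [tw_eq_iff]
  intro m
  have h2 : σ • m = m := (hσ m).1
  have h3 : σ • (φ m) = φ m := (hσ m).2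
  rw [h2]
  exact h3.symm

/-- A twisted translate only depends on the coset modulo a subgroup fixing the function. -/
theorem tw_out_mk (U : Subgroup GQ) (ψ : M → Qb) (hψ : ∀ u ∈ U, tw u ψ = ψ) (g : GQ) :
    tw ((QuotientGroup.mk g : GQ ⧸ U).out) ψ = tw g ψ := by
  obtain ⟨h, hh⟩ := QuotientGroup.mk_out_eq_mul U g
  rw [hh, tw_mul, hψ h h.2]

/-- The orbit trace of a function fixed by a subgroup of finite index. -/
def orbTr (U : Subgroup GQ) [Fintype (GQ ⧸ U)] (ψ : M → Qb) : M → Qb :=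
  ∑ q : GQ ⧸ U, tw (Quotient.out q) ψ

theorem tw_orbTr (U : Subgroup GQ) [Fintype (GQ ⧸ U)] (ψ : M → Qb)
    (hψ : ∀ u ∈ U, tw u ψ = ψ) (τ : GQ) : tw τ (orbTr U ψ) = orbTr U ψ := by
  unfold orbTr
  rw [tw_sum]
  have h1 : ∀ q : GQ ⧸ U, tw τ (tw (Quotient.out q) ψ) = tw (Quotient.out (τ • q)) ψ := by
    intro q
    have h2 : τ • q = (QuotientGroup.mk (τ * Quotient.out q) : GQ ⧸ U) := by
      conv_lhs => rw [← QuotientGroup.out_eq' q]
      rfl
    rw [h2, tw_out_mk U ψ hψ, tw_mul]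
  rw [Finset.sum_congr rfl (fun q _ => h1 q)]
  exact Fintype.sum_equiv (MulAction.toPerm τ) _ _ (fun q => rfl)

theorem orbTr_eq (U : Subgroup GQ) [Fintype (GQ ⧸ U)] [DecidableEq (GQ ⧸ U)] (ψ : M → Qb)
    (hψ : ∀ u ∈ U, tw u ψ = ψ) :
    orbTr U ψ = ψ + ∑ q ∈ Finset.univ.erase (QuotientGroup.mk 1 : GQ ⧸ U),
      tw (Quotient.out q) ψ := by
  unfold orbTr
  rw [← Finset.add_sum_erase Finset.univ _ (Finset.mem_univ (QuotientGroup.mk 1 : GQ ⧸ U))]
  congr 1
  rw [tw_out_mk U ψ hψ, tw_one]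

theorem out_not_mem (U : Subgroup GQ) (q : GQ ⧸ U) (hq : q ≠ (QuotientGroup.mk 1 : GQ ⧸ U)) :
    Quotient.out q ∉ U := by
  intro h
  apply hq
  rw [← QuotientGroup.out_eq' q, QuotientGroup.eq]
  simpa using U.inv_mem h

end Tw

/-! ### Topology of the decomposition group; the level of an inertia-invariant object -/

section Places

/-- Sets cut out by a condition on the image of one element are open for the Krull topology. -/
theorem isOpen_setOf_apply (x : Qb) (P : Qb → Prop) : IsOpen {σ : GQ | P (σ x)} := by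
  rw [isOpen_iff_mem_nhds]
  intro σ hσ
  have h1 : IsOpen (σ • (MulAction.stabilizer GQ x : Set GQ)) :=
    (stabilizer_isOpen_of_isIntegral x).leftCoset σ
  refine Filter.mem_of_superset (h1.mem_nhds ⟨1, one_mem _, by simp⟩) ?_
  rintro _ ⟨τ, hτ, rfl⟩
  have h2 : τ x = x := hτ
  show P ((σ * τ) x)
  rw [AlgEquiv.mul_apply, h2]
  exact hσ

theorem isClosed_setOf_apply (x : Qb) (P : Qb → Prop) : IsClosed {σ : GQ | P (σ x)} := by
  rw [← isOpen_compl_iff]
  exact isOpen_setOf_apply x (fun y => ¬ P y)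

variable {ℓ : ℕ} (hℓ : ℓ.Prime) (A : ValuationSubring Qb) (hA : A.LiesOverPrime ℓ)

theorem mem_decomposition_iff (σ : GQ) :
    σ ∈ A.decompositionSubgroup ℚ ↔ ∀ x : Qb, σ x ∈ A ↔ x ∈ A := by
  rw [ValuationSubring.decompositionSubgroup, MulAction.mem_stabilizer_iff]
  constructor
  · intro hσ x
    conv_lhs => rw [← hσ]
    exact ValuationSubring.smul_mem_pointwise_smul_iff
  · intro h
    ext y
    rw [ValuationSubring.mem_pointwise_smul_iff_inv_smul_mem, ← h (σ⁻¹ • y)]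
    have : σ (σ⁻¹ • y) = y := AlgEquiv.apply_symm_apply σ y
    rw [this]

/-- The decomposition group is closed. -/
theorem isClosed_decomposition : IsClosed (A.decompositionSubgroup ℚ : Set GQ) := by
  have h : (A.decompositionSubgroup ℚ : Set GQ) = ⋂ x : Qb, {σ : GQ | σ x ∈ A ↔ x ∈ A} := by
    ext σ
    simp only [Set.mem_iInter, Set.mem_ofPred_eq, SetLike.mem_coe]
    exact mem_decomposition_iff A σ
  rw [h]
  exact isClosed_iInter fun x => isClosed_setOf_apply x (fun y => y ∈ A ↔ x ∈ A)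

include hℓ hA in
/-- **Level**: an open subgroup containing the inertia group contains every element of the
decomposition group fixing the `n`-th roots of unity, for a suitable `n` prime to `ℓ`. -/
theorem exists_level (V : Subgroup GQ) (hV : IsOpen (V : Set GQ))
    (hIV : A.inertiaSubgroupIn ℚ ≤ V) :
    ∃ n : ℕ, 0 < n ∧ ¬ ℓ ∣ n ∧ ∀ d ∈ A.decompositionSubgroup ℚ,
      (∀ ζ : Qb, ζ ^ n = 1 → d ζ = ζ) → d ∈ V := by
  by_contra hcon
  push Not at hcon
  let ι := {n : ℕ // 0 < n ∧ ¬ ℓ ∣ n}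
  let K : ι → Set GQ := fun n => {d | d ∈ A.decompositionSubgroup ℚ ∧
    (∀ ζ : Qb, ζ ^ n.1 = 1 → d ζ = ζ) ∧ d ∉ V}
  have h1 : ¬ ℓ ∣ 1 := fun h => hℓ.one_lt.ne' (Nat.dvd_one.mp h)
  have hne : Nonempty ι := ⟨⟨1, one_pos, h1⟩⟩
  have hdir : Directed (· ⊇ ·) K := by
    intro n m
    refine ⟨⟨n.1 * m.1, Nat.mul_pos n.2.1 m.2.1, fun h => ?_⟩, ?_, ?_⟩
    · rcases (Nat.Prime.dvd_mul hℓ).mp h with h | h
      · exact n.2.2 h
      · exact m.2.2 h
    · rintro d ⟨hd, hζ, hdV⟩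
      exact ⟨hd, fun ζ h => hζ ζ (by
        show ζ ^ (n.1 * m.1) = 1
        rw [pow_mul, h, one_pow]), hdV⟩
    · rintro d ⟨hd, hζ, hdV⟩
      exact ⟨hd, fun ζ h => hζ ζ (by
        show ζ ^ (n.1 * m.1) = 1
        rw [mul_comm, pow_mul, h, one_pow]), hdV⟩
  have hnon : ∀ n, (K n).Nonempty := by
    intro n
    obtain ⟨d, hd, h2, h3⟩ := hcon n.1 n.2.1 n.2.2
    exact ⟨d, hd, h2, h3⟩
  have hcl : ∀ n, IsClosed (K n) := by
    intro n
    have h2 : K n = ((A.decompositionSubgroup ℚ : Set GQ) ∩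
        (⋂ ζ : Qb, {σ : GQ | ζ ^ n.1 = 1 → σ ζ = ζ})) ∩ (V : Set GQ)ᶜ := by
      ext d
      simp only [K, Set.mem_ofPred_eq, Set.mem_inter_iff, SetLike.mem_coe, Set.mem_iInter,
        Set.mem_compl_iff]
      tauto
    rw [h2]
    exact ((isClosed_decomposition A).inter
      (isClosed_iInter fun ζ => isClosed_setOf_apply ζ (fun y => ζ ^ n.1 = 1 → y = ζ))).inter
      hV.isClosed_compl
  obtain ⟨d, hd⟩ := IsCompact.nonempty_iInter_of_directed_nonempty_isCompact_isClosed K hdir hnon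
    (fun n => (hcl n).isCompact) hcl
  rw [Set.mem_iInter] at hd
  have hdD : d ∈ A.decompositionSubgroup ℚ := (hd ⟨1, one_pos, h1⟩).1
  have hdV : d ∉ V := (hd ⟨1, one_pos, h1⟩).2.2
  apply hdV
  apply hIV
  apply mem_inertiaSubgroupIn_of_residue hdD
  intro a ha
  by_cases hres : IsLocalRing.residue A ⟨a, ha⟩ = 0
  · rw [← smul_residue_eq hdD ha, hres, smul_zero]
  · obtain ⟨m, ζ, hm, hζ, hres'⟩ := exists_root_of_unity_residue_eq A hℓ hA hres
    have hm0 : 0 < m := Nat.pos_of_ne_zero (by rintro rfl; exact hm (dvd_zero _))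
    have hζ' : (ζ : Qb) ^ m = 1 := by
      have := congrArg Subtype.val hζ
      simpa using this
    have hfix : d (ζ : Qb) = ζ := (hd ⟨m, hm0, hm⟩).2.1 ζ hζ'
    rw [← smul_residue_eq hdD ha, ← hres', smul_residue_eq hdD ζ.2]
    congr 1
    exact Subtype.ext hfix

include hℓ hA in
/-- Roots of unity of order prime to `ℓ` are fixed by inertia. -/
theorem inertia_fix_root {n : ℕ} (hn : ¬ ℓ ∣ n) {ζ : Qb} (hζ : ζ ^ n = 1) {s : GQ}
    (hs : s ∈ A.inertiaSubgroupIn ℚ) : s ζ = ζ := by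
  have hn0 : n ≠ 0 := by rintro rfl; exact hn (dvd_zero _)
  have hζA : ζ ∈ A := mem_of_pow_eq_one A hn0 hζ
  have hsζA : s ζ ∈ A := apply_mem_of_mem_inertiaSubgroupIn hs hζA
  have h1 := residue_apply_of_mem_inertiaSubgroupIn hs hζA hsζA
  have h2 := eq_of_residue_eq A hℓ hA hn ⟨s ζ, hsζA⟩ ⟨ζ, hζA⟩
    (Subtype.ext (by simp [← map_pow, hζ])) (Subtype.ext (by simpa using hζ)) h1
  exact congrArg Subtype.val h2

include hℓ hA in
/-- The difference of two distinct roots of unity of order prime to `ℓ` is a unit of `A`. -/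
theorem inv_sub_mem {n : ℕ} (hn : ¬ ℓ ∣ n) {ζ ζ' : Qb} (hζ : ζ ^ n = 1) (hζ' : ζ' ^ n = 1)
    (hne : ζ ≠ ζ') : (ζ - ζ')⁻¹ ∈ A := by
  have hn0 : n ≠ 0 := by rintro rfl; exact hn (dvd_zero _)
  have hζA : ζ ∈ A := mem_of_pow_eq_one A hn0 hζ
  have hζ'A : ζ' ∈ A := mem_of_pow_eq_one A hn0 hζ'
  by_contra hinv
  apply hne
  have h1 : ζ - ζ' ∈ A.nonunits := by
    rw [ValuationSubring.mem_nonunits_iff_or]
    exact Or.inr hinv
  have h2 : IsLocalRing.residue A ⟨ζ, hζA⟩ = IsLocalRing.residue A ⟨ζ', hζ'A⟩ := by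
    rw [← sub_eq_zero, ← map_sub, IsLocalRing.residue_eq_zero_iff,
      ← ValuationSubring.coe_mem_nonunits_iff]
    exact h1
  exact congrArg Subtype.val (eq_of_residue_eq A hℓ hA hn ⟨ζ, hζA⟩ ⟨ζ', hζ'A⟩
    (Subtype.ext (by simpa using hζ)) (Subtype.ext (by simpa using hζ')) h2)

/-- The ring of inertia-fixed elements of `A`. -/
def R0 : Subring Qb where
  carrier := {c | c ∈ A ∧ ∀ s ∈ A.inertiaSubgroupIn ℚ, s c = c}
  mul_mem' := by
    rintro a b ⟨ha, ha'⟩ ⟨hb, hb'⟩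
    exact ⟨A.mul_mem _ _ ha hb, fun s hs => by rw [map_mul, ha' s hs, hb' s hs]⟩
  one_mem' := ⟨A.one_mem, fun s _ => map_one s⟩
  add_mem' := by
    rintro a b ⟨ha, ha'⟩ ⟨hb, hb'⟩
    exact ⟨A.add_mem _ _ ha hb, fun s hs => by rw [map_add, ha' s hs, hb' s hs]⟩
  zero_mem' := ⟨A.zero_mem, fun s _ => map_zero s⟩
  neg_mem' := by
    rintro a ⟨ha, ha'⟩
    exact ⟨A.neg_mem _ ha, fun s hs => by rw [map_neg, ha' s hs]⟩

theorem mem_R0 (c : Qb) : c ∈ R0 A ↔ c ∈ A ∧ ∀ s ∈ A.inertiaSubgroupIn ℚ, s c = c := Iff.rfl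

end Places

/-! ### Step A: from the inertia-fixed ring to functions invariant under the decomposition
group (Lagrange interpolation at the conjugates of a root of unity) -/

section StepA

variable {M : Type*} [MulAction GQ M]
variable {ℓ : ℕ} (hℓ : ℓ.Prime) (A : ValuationSubring Qb) (hA : A.LiesOverPrime ℓ)

include hℓ hA in
theorem mem_span_dInv [Finite M]
    (hopen : ∀ m : M, IsOpen (MulAction.stabilizer GQ m : Set GQ))
    (H0 : Subring (M → Qb))
    (hI : ∀ φ ∈ H0, ∀ s ∈ A.inertiaSubgroupIn ℚ, tw s φ = φ)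
    (hD : ∀ φ ∈ H0, ∀ s ∈ A.decompositionSubgroup ℚ, tw s φ ∈ H0)
    (hR0 : ∀ c ∈ R0 A, ∀ φ ∈ H0, c • φ ∈ H0)
    (φ : M → Qb) (hφ : φ ∈ H0) :
    φ ∈ Submodule.span (R0 A)
      {ψ : M → Qb | ψ ∈ H0 ∧ ∀ d ∈ A.decompositionSubgroup ℚ, tw d ψ = ψ} := by
  classical
  obtain ⟨n, hn0, hn, hlev⟩ := exists_level hℓ A hA (twFix φ) (isOpen_twFix hopen φ)
    (fun s hs => hI φ hφ s hs)
  have : NeZero n := ⟨hn0.ne'⟩
  obtain ⟨ζ, hζ⟩ := HasEnoughRootsOfUnity.exists_primitiveRoot Qb n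
  have hζ1 : ζ ^ n = 1 := hζ.pow_eq_one
  -- elements of the decomposition group fixing `ζ` fix `φ`
  have hfix : ∀ g ∈ A.decompositionSubgroup ℚ, g ζ = ζ → tw g φ = φ := by
    intro g hg hgζ
    apply hlev g hg
    intro ξ hξ
    obtain ⟨i, -, rfl⟩ := hζ.eq_pow_of_pow_eq_one hξ
    rw [map_pow, hgζ]
  -- the orbit of `ζ`
  let X : Finset Qb := (Polynomial.nthRoots n (1 : Qb)).toFinset.filter
    (fun x => ∃ d ∈ A.decompositionSubgroup ℚ, d ζ = x)
  have hX : ∀ x, x ∈ X ↔ x ^ n = 1 ∧ ∃ d ∈ A.decompositionSubgroup ℚ, d ζ = x := by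
    intro x
    simp only [X, Finset.mem_filter, Multiset.mem_toFinset, Polynomial.mem_nthRoots hn0]
  have hX' : ∀ x, x ∈ X ↔ ∃ d ∈ A.decompositionSubgroup ℚ, d ζ = x := by
    intro x
    rw [hX]
    constructor
    · exact fun h => h.2
    · rintro ⟨d, hd, rfl⟩
      exact ⟨by rw [← map_pow, hζ1, map_one], d, hd, rfl⟩
  let dch : Qb → GQ := fun x =>
    if h : ∃ d ∈ A.decompositionSubgroup ℚ, d ζ = x then h.choose else 1
  have hdch : ∀ x ∈ X, dch x ∈ A.decompositionSubgroup ℚ ∧ dch x ζ = x := by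
    intro x hx
    have h := (hX' x).mp hx
    simp only [dch, dif_pos h]
    exact h.choose_spec
  have hζX : ζ ∈ X := (hX' ζ).mpr ⟨1, one_mem _, rfl⟩
  have hmapX : ∀ d ∈ A.decompositionSubgroup ℚ, ∀ x ∈ X, d x ∈ X := by
    intro d hd x hx
    obtain ⟨d', hd', rfl⟩ := (hX' x).mp hx
    exact (hX' _).mpr ⟨d * d', mul_mem hd hd', rfl⟩
  have hXR0 : ∀ x ∈ X, x ∈ R0 A := by
    intro x hx
    have hx1 := ((hX x).mp hx).1
    exact ⟨mem_of_pow_eq_one A hn0.ne' hx1, fun s hs => inertia_fix_root hℓ A hA hn hx1 hs⟩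
  -- the interpolation sums
  let T : ℕ → (M → Qb) := fun j => ∑ x ∈ X, (x ^ j) • tw (dch x) φ
  have hT0 : ∀ j, T j ∈ H0 := by
    intro j
    apply Subring.sum_mem
    intro x hx
    exact hR0 _ (Subring.pow_mem _ (hXR0 x hx) j) _ (hD φ hφ _ (hdch x hx).1)
  have hTD : ∀ j, ∀ d ∈ A.decompositionSubgroup ℚ, tw d (T j) = T j := by
    intro j d hd
    have hdinv : d⁻¹ ∈ A.decompositionSubgroup ℚ := inv_mem hd
    show tw d (∑ x ∈ X, (x ^ j) • tw (dch x) φ) = ∑ x ∈ X, (x ^ j) • tw (dch x) φ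
    rw [tw_sum]
    refine Finset.sum_nbij' (fun x => d x) (fun y => d⁻¹ y) (hmapX d hd) (hmapX d⁻¹ hdinv)
      ?_ ?_ ?_
    · intro x _
      exact AlgEquiv.symm_apply_apply d x
    · intro y _
      exact AlgEquiv.apply_symm_apply d y
    · intro x hx
      rw [tw_smul, map_pow d x j, ← tw_mul]
      congr 1
      have hdx := hmapX d hd x hx
      have h1 := hdch x hx
      have h2 := hdch (d x) hdx
      have h3 : tw ((dch (d x))⁻¹ * (d * dch x)) φ = φ := by
        apply hfix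
        · exact mul_mem (inv_mem h2.1) (mul_mem hd h1.1)
        · show (dch (d x))⁻¹ (d (dch x ζ)) = ζ
          rw [h1.2]
          show (dch (d x)).symm (d x) = ζ
          rw [AlgEquiv.symm_apply_eq]
          exact h2.2.symm
      calc tw (d * dch x) φ = tw (dch (d x) * ((dch (d x))⁻¹ * (d * dch x))) φ := by
            rw [mul_inv_cancel_left]
        _ = tw (dch (d x)) φ := by rw [tw_mul, h3]
  -- the Lagrange polynomial at `ζ`
  let L : Polynomial Qb := Lagrange.basis X id ζ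
  have hLlift : L ∈ Polynomial.lifts (R0 A).subtype := by
    show ∏ y ∈ X.erase ζ, Lagrange.basisDivisor (id ζ) (id y) ∈ Polynomial.lifts (R0 A).subtype
    apply Subsemiring.prod_mem
    intro y hy
    have hyX := Finset.mem_of_mem_erase hy
    have hyne : y ≠ ζ := Finset.ne_of_mem_erase hy
    have hy1 := ((hX y).mp hyX).1
    have hinv : (ζ - y)⁻¹ ∈ R0 A := by
      refine ⟨inv_sub_mem hℓ A hA hn hζ1 hy1 (Ne.symm hyne), fun s hs => ?_⟩
      rw [map_inv₀, map_sub, inertia_fix_root hℓ A hA hn hζ1 hs,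
        inertia_fix_root hℓ A hA hn hy1 hs]
    have hyR0 : y ∈ R0 A := hXR0 y hyX
    show Polynomial.C (ζ - y)⁻¹ * (Polynomial.X - Polynomial.C y) ∈ _
    apply Subsemiring.mul_mem
    · exact Polynomial.C_mem_lifts (R0 A).subtype ⟨_, hinv⟩
    · rw [sub_eq_add_neg, ← Polynomial.C_neg]
      exact Subsemiring.add_mem _ (Polynomial.X_mem_lifts _)
        (Polynomial.C_mem_lifts (R0 A).subtype ⟨-y, neg_mem hyR0⟩)
  have hLcoeff : ∀ j, L.coeff j ∈ R0 A := by
    intro j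
    obtain ⟨c, hc⟩ := (Polynomial.lifts_iff_coeff_lifts L).mp hLlift j
    rw [← hc]
    exact c.2
  have hLζ : L.eval ζ = 1 := Lagrange.eval_basis_self (v := id) (Set.injOn_id _) hζX
  have hLx : ∀ x ∈ X, x ≠ ζ → L.eval x = 0 := fun x hx hne =>
    Lagrange.eval_basis_of_ne (v := id) (Ne.symm hne) hx
  have h1 : φ = ∑ x ∈ X, (L.eval x) • tw (dch x) φ := by
    rw [Finset.sum_eq_single_of_mem ζ hζX]
    · rw [hLζ, one_smul, hfix _ (hdch ζ hζX).1 (hdch ζ hζX).2]
    · intro x hx hne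
      rw [hLx x hx hne, zero_smul]
  have h2 : φ = ∑ j ∈ Finset.range (L.natDegree + 1), (L.coeff j) • T j := by
    conv_lhs => rw [h1]
    simp only [T, Finset.smul_sum, Polynomial.eval_eq_sum_range, Finset.sum_smul]
    rw [Finset.sum_comm]
    refine Finset.sum_congr rfl fun j _ => Finset.sum_congr rfl fun x _ => ?_
    rw [mul_smul]
  rw [h2]
  apply Submodule.sum_mem
  intro j _
  exact Submodule.smul_mem _ (⟨L.coeff j, hLcoeff j⟩ : R0 A)
    (Submodule.subset_span ⟨hT0 j, hTD j⟩)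

end StepA

/-! ### Valuation estimates at a place of `Qb` -/

section Val

variable {ℓ : ℕ} (hℓ : ℓ.Prime) (A : ValuationSubring Qb) (hA : A.LiesOverPrime ℓ)

theorem isAlgebraic_int (z : Qb) : IsAlgebraic ℤ z := by
  have h1 : IsAlgebraic ℚ z := Algebra.IsAlgebraic.isAlgebraic z
  exact (IsFractionRing.isAlgebraic_iff ℤ ℚ Qb).mpr h1

theorem valuation_intCast_natAbs (m : ℤ) :
    A.valuation ((m.natAbs : ℕ) : Qb) = A.valuation ((m : ℤ) : Qb) := by
  rcases Int.natAbs_eq m with h | h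
  · conv_rhs => rw [h]
    simp
  · conv_rhs => rw [h]
    simp

include hℓ hA in
theorem valuation_intCast_eq_one' (m : ℤ) (hm : ¬ (ℓ : ℤ) ∣ m) :
    A.valuation ((m : ℤ) : Qb) = 1 := by
  rw [← valuation_intCast_natAbs]
  apply valuation_natCast_eq_one hℓ A hA
  intro h
  exact hm (Int.natCast_dvd.mpr h)

include hℓ hA in
/-- A nonunit of `A` has a power divisible by `ℓ` in `A`. -/
theorem exists_pow_valuation_le (z : Qb) (hz : z ∈ A.nonunits) :
    ∃ k : ℕ, A.valuation z ^ k ≤ A.valuation (ℓ : Qb) := by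
  classical
  by_contra hcon
  push Not at hcon
  have hz1 : A.valuation z < 1 := A.mem_nonunits_iff.mp hz
  have hz0 : A.valuation z ≠ 0 := by
    intro h
    have h2 := hcon 1
    rw [h, pow_one] at h2
    exact not_lt_zero h2
  have hzpos : 0 < A.valuation z := zero_lt_iff.mpr hz0
  obtain ⟨p, hp0, hpz⟩ := isAlgebraic_int z
  have hprim : p.primPart.IsPrimitive := p.isPrimitive_primPart
  have hpz' : Polynomial.aeval z p.primPart = 0 := by
    have h1 := p.eq_C_content_mul_primPart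
    rw [h1, map_mul, Polynomial.aeval_C] at hpz
    rcases mul_eq_zero.mp hpz with h | h
    · exfalso
      have hc : p.content ≠ 0 := by rwa [Ne, Polynomial.content_eq_zero_iff]
      apply hc
      have hinj : Function.Injective (algebraMap ℤ Qb) := (algebraMap ℤ Qb).injective_int
      exact hinj (by rw [h, map_zero])
    · exact h
  have hcoeff : ∃ i, ¬ (ℓ : ℤ) ∣ p.primPart.coeff i := by
    by_contra hall
    push Not at hall
    have h1 : Polynomial.C (ℓ : ℤ) ∣ p.primPart := (Polynomial.C_dvd_iff_dvd_coeff _ _).mpr hall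
    have h2 := hprim _ h1
    exact (Nat.prime_iff_prime_int.mp hℓ).not_isUnit h2
  set q := p.primPart with hq
  let i0 := Nat.find hcoeff
  have hi0 : ¬ (ℓ : ℤ) ∣ q.coeff i0 := Nat.find_spec hcoeff
  have hlt : ∀ j < i0, (ℓ : ℤ) ∣ q.coeff j := fun j hj =>
    by_contra fun h => Nat.find_min hcoeff hj h
  have hsum : ∑ j ∈ Finset.range (q.natDegree + 1), ((q.coeff j : ℤ) : Qb) * z ^ j = 0 := by
    rw [← hpz', Polynomial.aeval_eq_sum_range]
    refine Finset.sum_congr rfl fun j _ => ?_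
    rw [zsmul_eq_mul]
  have hi0mem : i0 ∈ Finset.range (q.natDegree + 1) := by
    rw [Finset.mem_range, Nat.lt_succ_iff]
    apply Polynomial.le_natDegree_of_ne_zero
    intro h
    apply hi0
    rw [h]
    exact dvd_zero _
  have hval0 : A.valuation (((q.coeff i0 : ℤ) : Qb) * z ^ i0) = A.valuation z ^ i0 := by
    rw [map_mul, valuation_intCast_eq_one' hℓ A hA _ hi0, one_mul, map_pow]
  have hint : ∀ c : ℤ, A.valuation ((c : ℤ) : Qb) ≤ 1 := fun c =>
    (A.valuation_le_one_iff _).mpr (intCast_mem A c)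
  have key := Valuation.map_sum_eq_of_lt A.valuation hi0mem
    (f := fun j => ((q.coeff j : ℤ) : Qb) * z ^ j) (by
      intro j hj
      rw [Finset.mem_sdiff, Finset.mem_singleton] at hj
      show A.valuation (((q.coeff j : ℤ) : Qb) * z ^ j) <
        A.valuation (((q.coeff i0 : ℤ) : Qb) * z ^ i0)
      rw [hval0, map_mul, map_pow]
      rcases lt_or_gt_of_ne hj.2 with h | h
      · obtain ⟨c, hc⟩ := hlt j h
        have h1 : A.valuation ((q.coeff j : ℤ) : Qb) ≤ A.valuation (ℓ : Qb) := by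
          rw [hc]
          push_cast
          rw [map_mul]
          calc A.valuation (ℓ : Qb) * A.valuation ((c : ℤ) : Qb)
              ≤ A.valuation (ℓ : Qb) * 1 := mul_le_mul_right (hint c) _
            _ = A.valuation (ℓ : Qb) := mul_one _
        calc A.valuation ((q.coeff j : ℤ) : Qb) * A.valuation z ^ j
            ≤ A.valuation (ℓ : Qb) * 1 :=
              mul_le_mul' h1 (pow_le_one₀ zero_le hz1.le)
          _ = A.valuation (ℓ : Qb) := mul_one _
          _ < A.valuation z ^ i0 := hcon i0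
      · calc A.valuation ((q.coeff j : ℤ) : Qb) * A.valuation z ^ j
            ≤ 1 * A.valuation z ^ j := mul_le_mul_left (hint _) _
          _ = A.valuation z ^ j := one_mul _
          _ < A.valuation z ^ i0 := pow_lt_pow_right_of_lt_one₀ hzpos hz1 h)
  rw [hsum, map_zero] at key
  rw [hval0] at key
  exact pow_ne_zero _ hz0 key.symm

include hℓ hA in
/-- Every element of `Qb` is multiplied into `A` by a power of `ℓ`. -/
theorem exists_pow_mul_mem (y : Qb) : ∃ n : ℕ, ∀ n' : ℕ, n ≤ n' → (ℓ : Qb) ^ n' * y ∈ A := by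
  obtain ⟨m, hm0, hint⟩ := (isAlgebraic_int y).exists_integral_multiple
  obtain ⟨k, hk⟩ := exists_pow_valuation_natCast hℓ A hA (n := m.natAbs)
    (Int.natAbs_ne_zero.mpr hm0)
  refine ⟨k, fun n' hn' => ?_⟩
  have h1 : ((m : ℤ) : Qb) * y ∈ A := by
    have := mem_valuationSubring_of_isIntegral A _ hint
    rwa [zsmul_eq_mul] at this
  have h2 : A.valuation ((ℓ : Qb) ^ k * y) ≤ 1 := by
    rw [map_mul, map_pow, ← hk, valuation_intCast_natAbs, ← map_mul]
    exact (A.valuation_le_one_iff _).mpr h1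
  have h3 : (ℓ : Qb) ^ n' * y = (ℓ : Qb) ^ (n' - k) * ((ℓ : Qb) ^ k * y) := by
    rw [← mul_assoc, ← pow_add, Nat.sub_add_cancel hn']
  rw [h3]
  exact A.mul_mem _ _ (pow_mem (natCast_mem A ℓ) _) ((A.valuation_le_one_iff _).mp h2)

include hℓ hA in
/-- Large powers of a nonunit absorb any denominator and any power of `ℓ`. -/
theorem exists_pow_mul_eq (x : Qb) (hx : x ∈ A.nonunits) (y : Qb) (N : ℕ) :
    ∃ k0 : ℕ, ∀ k : ℕ, k0 ≤ k → ∃ a ∈ A, x ^ k * y = (ℓ : Qb) ^ N * a := by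
  obtain ⟨k1, hk1⟩ := exists_pow_valuation_le hℓ A hA x hx
  obtain ⟨n, hn⟩ := exists_pow_mul_mem hℓ A hA y
  have hℓ0 : (ℓ : Qb) ≠ 0 := Nat.cast_ne_zero.mpr hℓ.ne_zero
  have hx1 : A.valuation x ≤ 1 := (A.mem_nonunits_iff.mp hx).le
  refine ⟨k1 * (N + n), fun k hk => ?_⟩
  refine ⟨x ^ k * ((ℓ : Qb) ^ (N + n))⁻¹ * ((ℓ : Qb) ^ n * y), ?_, ?_⟩
  · refine A.mul_mem _ _ ?_ (hn n le_rfl)
    rw [← A.valuation_le_one_iff, map_mul, map_inv₀, map_pow, map_pow]
    have h1 : A.valuation x ^ k ≤ A.valuation (ℓ : Qb) ^ (N + n) := by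
      calc A.valuation x ^ k ≤ A.valuation x ^ (k1 * (N + n)) :=
            pow_le_pow_of_le_one zero_le hx1 hk
        _ = (A.valuation x ^ k1) ^ (N + n) := pow_mul _ _ _
        _ ≤ A.valuation (ℓ : Qb) ^ (N + n) := pow_le_pow_left₀ zero_le hk1 _
    have h2 : A.valuation (ℓ : Qb) ^ (N + n) ≠ 0 :=
      pow_ne_zero _ ((Valuation.ne_zero_iff _).mpr hℓ0)
    rw [← div_eq_mul_inv]
    exact (div_le_one₀ (zero_lt_iff.mpr h2)).mpr h1
  · field_simp
    ring

end Val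

/-! ### The approximation element of an open subgroup containing the decomposition group -/

section CRT

variable {ℓ : ℕ} (hℓ : ℓ.Prime) (A : ValuationSubring Qb) (hA : A.LiesOverPrime ℓ)

/-- The action of the Galois group on the discrete ring of algebraic integers is continuous. -/
theorem continuousSMul_Zbar :
    @ContinuousSMul GQ Zb _ _ (⊥ : TopologicalSpace Zb) := by
  let _ : TopologicalSpace Zb := ⊥
  have : DiscreteTopology Zb := ⟨rfl⟩
  rw [continuousSMul_iff_stabilizer_isOpen]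
  intro z
  have : (MulAction.stabilizer GQ z : Set GQ) = MulAction.stabilizer GQ (z : Qb) := by
    ext g
    simp [Subtype.ext_iff]
  rw [this]
  exact stabilizer_isOpen_of_isIntegral _

include hℓ hA in
/-- **Approximation element**: for an open subgroup `U` containing the decomposition group of
`A` there is an algebraic integer `t`, fixed by `U`, with `t ≡ 1` modulo the maximal ideal of
`A` and `σ t ≡ 0` for every `σ ∉ U`. -/
theorem exists_crt (U : Subgroup GQ) (hU : IsOpen (U : Set GQ))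
    (hDU : A.decompositionSubgroup ℚ ≤ U) :
    ∃ t : Qb, IsIntegral ℤ t ∧ (∀ u ∈ U, u t = t) ∧ t - 1 ∈ A.nonunits ∧
      ∀ σ : GQ, σ ∉ U → σ t ∈ A.nonunits := by
  classical
  let _ : TopologicalSpace Zb := ⊥
  have : DiscreteTopology Zb := ⟨rfl⟩
  have hcont : ContinuousSMul GQ Zb := continuousSMul_Zbar
  have : ContinuousSMul U Zb := by
    refine ⟨?_⟩
    have h1 : Continuous fun p : U × Zb => ((p.1 : GQ), p.2) :=
      (continuous_subtype_val.comp continuous_fst).prodMk continuous_snd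
    exact hcont.continuous_smul.comp h1
  have hUclosed : IsClosed (U : Set GQ) := Subgroup.isClosed_of_isOpen U hU
  have : CompactSpace U := isCompact_iff_compactSpace.mp hUclosed.isCompact
  let B := FixedPoints.subalgebra ℤ Zb U
  have : SMulCommClass U B Zb := instSMulCommClassSubtypeMemSubalgebraSubalgebra ℤ Zb U
  have : Algebra.IsInvariant B Zb U := ⟨fun x h => ⟨⟨x, h⟩, rfl⟩⟩
  have hint : Algebra.IsIntegral B Zb :=
    Algebra.IsInvariant.isIntegral_of_profinite (A := B) (B := Zb) (G := U)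
  let 𝔮 : Ideal Zb := primeOfValuationSubring A
  -- the primes `σ • 𝔮` are maximal
  have hℓmax : (Ideal.span {(ℓ : ℤ)}).IsMaximal :=
    PrincipalIdealRing.isMaximal_of_irreducible (Nat.prime_iff_prime_int.mp hℓ).irreducible
  have hsmulmax : ∀ σ : GQ, (σ • 𝔮).IsMaximal := by
    intro σ
    apply Ideal.isMaximal_of_isIntegral_of_isMaximal_comap (R := ℤ)
    have h1 : (σ • 𝔮).comap (algebraMap ℤ Zb) = Ideal.span {(ℓ : ℤ)} := by
      rw [← under_primeOfValuationSubring hℓ A hA]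
      ext m
      rw [Ideal.under_def, Ideal.mem_comap, Ideal.mem_comap,
        Ideal.mem_pointwise_smul_iff_inv_smul_mem, smul_algebraMap]
    rw [h1]
    exact hℓmax
  let J : GQ → Ideal B := fun σ => (σ • 𝔮).under B
  have hJmax : ∀ σ, (J σ).IsMaximal := by
    intro σ
    have := hsmulmax σ
    exact Ideal.IsMaximal.under B (σ • 𝔮)
  have hmemJ : ∀ (σ : GQ) (b : B), b ∈ J σ ↔ σ⁻¹ • (b : Zb) ∈ 𝔮 := by
    intro σ b
    show (b : Zb) ∈ σ • 𝔮 ↔ _
    rw [Ideal.mem_pointwise_smul_iff_inv_smul_mem]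
  have hBfix : ∀ (u : GQ), u ∈ U → ∀ b : B, u • (b : Zb) = b := fun u hu b => b.2 ⟨u, hu⟩
  have hJU : ∀ (u : GQ), u ∈ U → ∀ σ, J (u * σ) = J σ := by
    intro u hu σ
    ext b
    rw [hmemJ, hmemJ, mul_inv_rev, mul_smul, hBfix u⁻¹ (U.inv_mem hu) b]
  -- `J σ = J 1` forces `σ ∈ U`
  have hJ1 : ∀ σ, J σ = J 1 → σ ∈ U := by
    intro σ h
    have hunder : 𝔮.under B = (σ • 𝔮).under B := by
      have h2 : J 1 = 𝔮.under B := by
        show ((1 : GQ) • 𝔮).under B = 𝔮.under B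
        rw [one_smul]
      rw [← h2]
      exact h.symm
    obtain ⟨u, hu⟩ := Algebra.IsInvariant.exists_smul_of_under_eq_of_profinite
      (A := B) (B := Zb) (G := U) 𝔮 (σ • 𝔮) hunder
    have h2 : ((u : GQ)⁻¹ * σ) • 𝔮 = 𝔮 := by
      rw [mul_smul, hu]
      exact inv_smul_smul (u : GQ) 𝔮
    have h3 := mem_decompositionSubgroup_of_smul_prime_eq hℓ A hA _ h2
    have h4 : σ = (u : GQ) * ((u : GQ)⁻¹ * σ) := by group
    rw [h4]
    exact U.mul_mem u.2 (hDU h3)
  -- finitely many primes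
  have : Finite (GQ ⧸ U) := Subgroup.quotient_finite_of_isOpen U hU
  have hfin : (Set.range J).Finite := by
    have h : Set.range J ⊆ Set.range (fun q : GQ ⧸ U => J (Quotient.out q)⁻¹) := by
      rintro _ ⟨σ, rfl⟩
      refine ⟨QuotientGroup.mk σ⁻¹, ?_⟩
      obtain ⟨u, hu⟩ := QuotientGroup.mk_out_eq_mul U σ⁻¹
      show J (Quotient.out (QuotientGroup.mk σ⁻¹ : GQ ⧸ U))⁻¹ = J σ
      rw [hu, mul_inv_rev, inv_inv]
      exact hJU _ (U.inv_mem u.2) σ
    exact (Set.finite_range _).subset h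
  let S : Finset (Ideal B) := hfin.toFinset.filter (fun I => ∃ σ, σ ∉ U ∧ J σ = I)
  have hnot : ¬ (S.inf id ≤ J 1) := by
    intro h
    obtain ⟨I, hIS, hI1⟩ := (Ideal.IsPrime.inf_le' (hJmax 1).isPrime).mp h
    obtain ⟨-, σ, hσ, rfl⟩ := Finset.mem_filter.mp hIS
    have h2 : J σ = J 1 := (hJmax σ).eq_of_le (hJmax 1).ne_top hI1
    exact hσ (hJ1 σ h2)
  obtain ⟨y, hyS, hy1⟩ := SetLike.not_le_iff_exists.mp hnot
  obtain ⟨z, i, hi, hzi⟩ := (hJmax 1).exists_inv hy1
  let s : B := z * y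
  have hs1 : s - 1 ∈ J 1 := by
    have h2 : s - 1 = -i := by
      rw [← hzi]
      ring
    rw [h2]
    exact (J 1).neg_mem hi
  have hsσ : ∀ σ, σ ∉ U → s ∈ J σ := by
    intro σ hσ
    have hmem : J σ ∈ S := Finset.mem_filter.mpr ⟨hfin.mem_toFinset.mpr ⟨σ, rfl⟩, σ, hσ, rfl⟩
    have h2 : y ∈ J σ := (Finset.inf_le hmem : S.inf id ≤ id (J σ)) hyS
    exact (J σ).mul_mem_left z h2
  refine ⟨((s : Zb) : Qb), (s : Zb).2, ?_, ?_, ?_⟩
  · intro u hu
    have h2 := congrArg Subtype.val (hBfix u hu s)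
    rwa [integralClosure.coe_smul] at h2
  · have h2 := (hmemJ 1 (s - 1)).mp hs1
    rw [inv_one, one_smul, mem_primeOfValuationSubring] at h2
    simpa using h2
  · intro σ hσ
    have hσ' : σ⁻¹ ∉ U := fun h => hσ (by simpa using U.inv_mem h)
    have h2 := (hmemJ σ⁻¹ s).mp (hsσ σ⁻¹ hσ')
    rw [inv_inv, mem_primeOfValuationSubring, integralClosure.coe_smul] at h2
    exact h2

end CRT

/-! ### Linear algebra of a separating ring of functions -/

section LinAlg

universe u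

variable {M : Type u} [MulAction GQ M] [Finite M]

omit [MulAction GQ M] in
/-- A ring of functions separating the points of a finite set spans all functions. -/
theorem span_eq_top_of_sep (H0 : Subring (M → Qb))
    (hsep : ∀ m m' : M, m ≠ m' → ∃ φ ∈ H0, φ m ≠ φ m') :
    Submodule.span Qb (H0 : Set (M → Qb)) = ⊤ := by
  classical
  have : Fintype M := Fintype.ofFinite M
  let W : Subalgebra Qb (M → Qb) := Algebra.adjoin Qb (H0 : Set (M → Qb))
  have hW : Subalgebra.toSubmodule W = Submodule.span Qb (H0 : Set (M → Qb)) := by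
    rw [Algebra.adjoin_eq_span]
    have h1 : ((Submonoid.closure (H0 : Set (M → Qb)) : Submonoid (M → Qb)) : Set (M → Qb)) =
        (H0 : Set (M → Qb)) := by
      have h2 := Submonoid.closure_eq H0.toSubmonoid
      exact congrArg (fun S : Submonoid (M → Qb) => (S : Set (M → Qb))) h2
    rw [h1]
  have hsingle : ∀ m : M, Pi.single m (1 : Qb) ∈ W := by
    intro m
    choose! φ hφ0 hφ using hsep m
    let e : M → Qb := ∏ m' ∈ Finset.univ.erase m, (φ m' - algebraMap Qb (M → Qb) (φ m' m'))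
    have heW : e ∈ W := by
      apply Subalgebra.prod_mem
      intro m' hm'
      have hne : m ≠ m' := (Finset.ne_of_mem_erase hm').symm
      exact W.sub_mem (Algebra.subset_adjoin (hφ0 m' hne)) (W.algebraMap_mem _)
    have hem : e m ≠ 0 := by
      simp only [e, Finset.prod_apply, Pi.sub_apply]
      rw [Finset.prod_ne_zero_iff]
      intro m' hm'
      have hne : m ≠ m' := (Finset.ne_of_mem_erase hm').symm
      simp only [Pi.algebraMap_apply, Algebra.algebraMap_self, RingHom.id_apply]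
      exact sub_ne_zero.mpr (hφ m' hne)
    have he0 : ∀ m'', m'' ≠ m → e m'' = 0 := by
      intro m'' hne
      simp only [e, Finset.prod_apply, Pi.sub_apply]
      apply Finset.prod_eq_zero (Finset.mem_erase.mpr ⟨hne, Finset.mem_univ _⟩)
      simp
    have h3 : Pi.single m (1 : Qb) = (e m)⁻¹ • e := by
      funext m''
      by_cases h : m'' = m
      · subst h
        simp [hem]
      · simp [Pi.single_eq_of_ne h, he0 m'' h]
    rw [h3]
    exact W.smul_mem heW _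
  rw [← hW, eq_top_iff]
  intro f _
  have h4 : f = ∑ m, f m • Pi.single m (1 : Qb) := by
    funext m'
    simp [Finset.sum_apply, Pi.single_apply]
  rw [h4]
  exact Submodule.sum_mem _ fun m _ => Submodule.smul_mem _ _ (hsingle m)

omit [MulAction GQ M] in
/-- A basis of the space of functions inside a separating ring of functions. -/
theorem exists_basis_mem (H0 : Subring (M → Qb))
    (hsep : ∀ m m' : M, m ≠ m' → ∃ φ ∈ H0, φ m ≠ φ m') :
    ∃ (ι : Type u) (_ : Fintype ι) (b : Module.Basis ι Qb (M → Qb)), ∀ i, b i ∈ H0 := by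
  obtain ⟨s, hsH, hspan, hli⟩ := exists_linearIndependent Qb (H0 : Set (M → Qb))
  have hs_top : ⊤ ≤ Submodule.span Qb (Set.range (Subtype.val : s → M → Qb)) := by
    rw [Subtype.range_coe, hspan, span_eq_top_of_sep H0 hsep]
  let b := Module.Basis.mk hli hs_top
  have : Finite s := Module.Finite.finite_basis b
  refine ⟨s, Fintype.ofFinite s, b, fun i => ?_⟩
  rw [Module.Basis.mk_apply]
  exact hsH i.2

omit [Finite M] in
/-- Coordinates of a function fixed by `s` in a basis fixed by `s` are fixed by `s`. -/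
theorem repr_tw {ι : Type*} [Fintype ι] (b : Module.Basis ι Qb (M → Qb)) (s : GQ)
    (hb : ∀ i, tw s (b i) = b i) (f : M → Qb) (hf : tw s f = f) (i : ι) :
    s (b.repr f i) = b.repr f i := by
  have h1 : f = ∑ j, b.repr f j • b j := (b.sum_repr f).symm
  have h2 : f = ∑ j, s (b.repr f j) • b j := by
    conv_lhs => rw [← hf, h1, tw_sum]
    exact Finset.sum_congr rfl fun j _ => by rw [tw_smul, hb j]
  have h3 : b.repr f i = b.repr (∑ j, s (b.repr f j) • b j) i := by rw [← h2]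
  rw [Module.Basis.repr_sum_self] at h3
  exact h3.symm

variable {ℓ : ℕ} (hℓ : ℓ.Prime) (A : ValuationSubring Qb) (hA : A.LiesOverPrime ℓ)

omit [MulAction GQ M] in
include hℓ hA in
/-- Coordinates of `A`-valued functions have bounded denominators. -/
theorem exists_repr_bound {ι : Type*} [Fintype ι] (b : Module.Basis ι Qb (M → Qb)) :
    ∃ N : ℕ, ∀ g : M → Qb, (∀ m, g m ∈ A) → ∀ i, (ℓ : Qb) ^ N * b.repr g i ∈ A := by
  classical
  have : Fintype M := Fintype.ofFinite M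
  choose n hn using fun (p : M × ι) =>
    exists_pow_mul_mem hℓ A hA (b.repr (Pi.single p.1 (1 : Qb)) p.2)
  refine ⟨∑ p, n p, fun g hg i => ?_⟩
  have hg' : g = ∑ m, g m • Pi.single m (1 : Qb) := by
    funext m'
    simp [Finset.sum_apply, Pi.single_apply]
  have h1 : b.repr g i = ∑ m, g m * b.repr (Pi.single m (1 : Qb)) i := by
    conv_lhs => rw [hg']
    simp [map_sum, Finsupp.finsetSum_apply]
  rw [h1, Finset.mul_sum]
  apply sum_mem
  intro m _
  have h2 := hn (m, i) (∑ p, n p)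
    (Finset.single_le_sum (fun _ _ => Nat.zero_le _) (Finset.mem_univ (m, i)))
  rw [mul_left_comm]
  exact A.mul_mem _ _ (hg m) h2

theorem natCast_mem_R0 (n : ℕ) : (n : Qb) ∈ R0 A := natCast_mem (R0 A) n

theorem inv_mem_R0 {c : Qb} (hc : c ∈ R0 A) (hv : A.valuation c = 1) : c⁻¹ ∈ R0 A :=
  ⟨by rw [← A.valuation_le_one_iff, map_inv₀, hv, inv_one],
    fun s hs => by rw [map_inv₀, hc.2 s hs]⟩

omit [Finite M] in
include hℓ in
/-- Highly divisible inertia-invariant functions lie in `ℓ` times the lattice spanned by a basis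
of inertia-invariant functions. -/
theorem mem_smul_span_of_small {ι : Type*} [Fintype ι] (b : Module.Basis ι Qb (M → Qb))
    (hbI : ∀ i, ∀ s ∈ A.inertiaSubgroupIn ℚ, tw s (b i) = b i)
    (N : ℕ) (hN : ∀ g : M → Qb, (∀ m, g m ∈ A) → ∀ i, (ℓ : Qb) ^ N * b.repr g i ∈ A)
    (f : M → Qb) (hf : ∀ m, ∃ a ∈ A, f m = (ℓ : Qb) ^ (N + 1) * a)
    (hfI : ∀ s ∈ A.inertiaSubgroupIn ℚ, tw s f = f) :
    f ∈ (Ideal.span {((ℓ : ℕ) : R0 A)} : Ideal (R0 A)) •
      Submodule.span (R0 A) (Set.range b) := by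
  choose g hgA hfg using hf
  have hℓ0 : (ℓ : Qb) ≠ 0 := Nat.cast_ne_zero.mpr hℓ.ne_zero
  have hfg' : f = (ℓ : Qb) ^ (N + 1) • g := by
    funext m
    rw [hfg m]
    rfl
  have hrepr : ∀ i, b.repr f i = (ℓ : Qb) * ((ℓ : Qb) ^ N * b.repr g i) := by
    intro i
    rw [hfg', map_smul, Finsupp.smul_apply, smul_eq_mul, pow_succ]
    ring
  have hc : ∀ i, (ℓ : Qb) ^ N * b.repr g i ∈ R0 A := by
    intro i
    refine ⟨hN g hgA i, fun s hs => ?_⟩
    have h1 := repr_tw b s (fun j => hbI j s hs) f (hfI s hs) i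
    rw [hrepr i, map_mul, map_natCast] at h1
    exact mul_left_cancel₀ hℓ0 h1
  have hsum : f = ∑ i, (((ℓ : ℕ) : R0 A) * ⟨_, hc i⟩) • b i := by
    conv_lhs => rw [← b.sum_repr f]
    refine Finset.sum_congr rfl fun i _ => ?_
    rw [hrepr i]
    rfl
  rw [hsum]
  apply Submodule.sum_mem
  intro i _
  exact Submodule.smul_mem_smul (Ideal.mul_mem_right _ _ (Ideal.mem_span_singleton_self _))
    (Submodule.subset_span ⟨i, rfl⟩)

end LinAlg

/-! ### Step B and the descent theorem -/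

section Descent

universe u

variable {M : Type u} [MulAction GQ M] [Finite M]
variable {ℓ : ℕ} (hℓ : ℓ.Prime) (A : ValuationSubring Qb) (hA : A.LiesOverPrime ℓ)

include hℓ hA in
/-- **Step B**: a function of the ring fixed by the decomposition group is, up to a unit of the
inertia-fixed ring, a Galois-invariant function of the ring plus an element of `ℓ` times the
lattice spanned by a basis. -/
theorem mem_sup_of_dInv
    (hopen : ∀ m : M, IsOpen (MulAction.stabilizer GQ m : Set GQ))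
    (H0 : Subring (M → Qb))
    (hI : ∀ φ ∈ H0, ∀ s ∈ A.inertiaSubgroupIn ℚ, tw s φ = φ)
    (hR0 : ∀ c ∈ R0 A, ∀ φ ∈ H0, c • φ ∈ H0)
    {ι : Type*} [Fintype ι] (b : Module.Basis ι Qb (M → Qb)) (hb0 : ∀ i, b i ∈ H0)
    (N : ℕ) (hN : ∀ g : M → Qb, (∀ m, g m ∈ A) → ∀ i, (ℓ : Qb) ^ N * b.repr g i ∈ A)
    (ψ : M → Qb) (hψ : ψ ∈ H0) (hψD : ∀ d ∈ A.decompositionSubgroup ℚ, tw d ψ = ψ) :
    ψ ∈ Submodule.span (R0 A) {χ : M → Qb | χ ∈ H0 ∧ ∀ σ : GQ, tw σ χ = χ} ⊔
      (Ideal.span {((ℓ : ℕ) : R0 A)} : Ideal (R0 A)) •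
        Submodule.span (R0 A) (Set.range b) := by
  classical
  have : Fintype M := Fintype.ofFinite M
  set U := twFix ψ with hUdef
  have hUopen : IsOpen (U : Set GQ) := isOpen_twFix hopen ψ
  have hDU : A.decompositionSubgroup ℚ ≤ U := fun d hd => hψD d hd
  have hIU : A.inertiaSubgroupIn ℚ ≤ U := fun s hs =>
    hDU (mem_decomposition_of_mem_inertia hs)
  obtain ⟨t, htint, htU, ht1, htσ⟩ := exists_crt hℓ A hA U hUopen hDU
  have : Finite (GQ ⧸ U) := Subgroup.quotient_finite_of_isOpen U hUopen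
  have : Fintype (GQ ⧸ U) := Fintype.ofFinite _
  have htA : t ∈ A := mem_valuationSubring_of_isIntegral A t htint
  have htR0 : t ∈ R0 A := ⟨htA, fun s hs => htU s (hIU hs)⟩
  have htv : A.valuation t = 1 := by
    have h1 : A.valuation (t - 1) < A.valuation 1 := by
      rw [map_one]
      exact A.mem_nonunits_iff.mp ht1
    have h2 := Valuation.map_eq_of_sub_lt A.valuation h1
    rw [h2, map_one]
  have ht0 : t ≠ 0 := by
    intro h
    rw [h, map_zero] at htv
    exact zero_ne_one htv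
  have htinvR0 : t⁻¹ ∈ R0 A := inv_mem_R0 A htR0 htv
  -- a uniform exponent
  have hk : ∃ k : ℕ, ∀ q : GQ ⧸ U, q ≠ QuotientGroup.mk 1 → ∀ m : M,
      ∃ a ∈ A, (Quotient.out q t) ^ k * (Quotient.out q) (ψ ((Quotient.out q)⁻¹ • m)) =
        (ℓ : Qb) ^ (N + 1) * a := by
    choose! k0 hk0 using fun (p : (GQ ⧸ U) × M) (hp : p.1 ≠ QuotientGroup.mk 1) =>
      exists_pow_mul_eq hℓ A hA (Quotient.out p.1 t) (htσ _ (out_not_mem U p.1 hp))
        ((Quotient.out p.1) (ψ ((Quotient.out p.1)⁻¹ • p.2))) (N + 1)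
    exact ⟨∑ p, k0 p, fun q hq m => hk0 (q, m) hq _
      (Finset.single_le_sum (fun _ _ => Nat.zero_le _) (Finset.mem_univ (q, m)))⟩
  obtain ⟨k, hk⟩ := hk
  -- the orbit trace
  have hfixU : ∀ u ∈ U, tw u (t ^ k • ψ) = t ^ k • ψ := by
    intro u hu
    rw [tw_smul, map_pow, htU u hu, show tw u ψ = ψ from hu]
  let ψ' := orbTr U (t ^ k • ψ)
  have hψ'G : ∀ τ : GQ, tw τ ψ' = ψ' := tw_orbTr U _ hfixU
  let ε : M → Qb := ∑ q ∈ Finset.univ.erase (QuotientGroup.mk 1 : GQ ⧸ U),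
    tw (Quotient.out q) (t ^ k • ψ)
  have hψ'eq : ψ' = t ^ k • ψ + ε := orbTr_eq U _ hfixU
  have hεsmall : ∀ m, ∃ a ∈ A, ε m = (ℓ : Qb) ^ (N + 1) * a := by
    intro m
    choose! a haA ha using fun (q : GQ ⧸ U) (hq : q ≠ QuotientGroup.mk 1) => hk q hq m
    refine ⟨∑ q ∈ Finset.univ.erase (QuotientGroup.mk 1 : GQ ⧸ U), a q,
      sum_mem (fun q hq => haA q (Finset.ne_of_mem_erase hq)), ?_⟩
    simp only [ε, Finset.sum_apply, Finset.mul_sum]
    refine Finset.sum_congr rfl fun q hq => ?_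
    rw [← ha q (Finset.ne_of_mem_erase hq), tw_apply, Pi.smul_apply, smul_eq_mul, map_mul,
      map_pow]
  have hεI : ∀ s ∈ A.inertiaSubgroupIn ℚ, tw s ε = ε := by
    intro s hs
    have h1 : ε = ψ' - t ^ k • ψ := by
      rw [hψ'eq, add_sub_cancel_left]
    rw [h1, tw_sub, hψ'G s, hfixU s (hIU hs)]
  have hεmem := mem_smul_span_of_small hℓ A b (fun i s hs => hI _ (hb0 i) s hs) N hN ε
    hεsmall hεI
  let H0m : Submodule (R0 A) (M → Qb) :=
    { carrier := H0
      add_mem' := H0.add_mem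
      zero_mem' := H0.zero_mem
      smul_mem' := fun c x hx => hR0 c c.2 x hx }
  have hS : Submodule.span (R0 A) (Set.range b) ≤ H0m :=
    Submodule.span_le.mpr (by rintro _ ⟨i, rfl⟩; exact hb0 i)
  have hεH0 : ε ∈ H0 := hS (Submodule.smul_le_right hεmem)
  have hψ'H0 : ψ' ∈ H0 := by
    rw [hψ'eq]
    exact H0.add_mem (hR0 _ (Subring.pow_mem _ htR0 k) _ hψ) hεH0
  have hψeq : ψ = (⟨(t⁻¹) ^ k, Subring.pow_mem _ htinvR0 k⟩ : R0 A) • ψ' -
      (⟨(t⁻¹) ^ k, Subring.pow_mem _ htinvR0 k⟩ : R0 A) • ε := by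
    rw [hψ'eq, smul_add, add_sub_cancel_right]
    show ψ = (t⁻¹) ^ k • (t ^ k • ψ)
    rw [smul_smul, ← mul_pow, inv_mul_cancel₀ ht0, one_pow, one_smul]
  rw [hψeq]
  exact Submodule.sub_mem _
    (Submodule.mem_sup_left (Submodule.smul_mem _ _ (Submodule.subset_span ⟨hψ'H0, hψ'G⟩)))
    (Submodule.mem_sup_right (Submodule.smul_mem _ _ hεmem))

include hℓ hA in
/-- **Descent**: a ring of `A`-valued inertia-invariant functions, stable under the
decomposition group and under inertia-fixed constants and separating points, is spanned over the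
inertia-fixed ring by its Galois-invariant elements. -/
theorem mem_span_invariants
    (hopen : ∀ m : M, IsOpen (MulAction.stabilizer GQ m : Set GQ))
    (H0 : Subring (M → Qb))
    (hI : ∀ φ ∈ H0, ∀ s ∈ A.inertiaSubgroupIn ℚ, tw s φ = φ)
    (hD : ∀ φ ∈ H0, ∀ s ∈ A.decompositionSubgroup ℚ, tw s φ ∈ H0)
    (hR0 : ∀ c ∈ R0 A, ∀ φ ∈ H0, c • φ ∈ H0)
    (hsep : ∀ m m' : M, m ≠ m' → ∃ φ ∈ H0, φ m ≠ φ m')
    (φ : M → Qb) (hφ : φ ∈ H0) :
    φ ∈ Submodule.span (R0 A) {χ : M → Qb | χ ∈ H0 ∧ ∀ σ : GQ, tw σ χ = χ} := by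
  obtain ⟨ι, _, b, hb0⟩ := exists_basis_mem H0 hsep
  obtain ⟨N, hN⟩ := exists_repr_bound hℓ A hA b
  have hA' : Submodule.span (R0 A)
      {ψ : M → Qb | ψ ∈ H0 ∧ ∀ d ∈ A.decompositionSubgroup ℚ, tw d ψ = ψ} ≤
      Submodule.span (R0 A) {χ : M → Qb | χ ∈ H0 ∧ ∀ σ : GQ, tw σ χ = χ} ⊔
      (Ideal.span {((ℓ : ℕ) : R0 A)} : Ideal (R0 A)) •
        Submodule.span (R0 A) (Set.range b) :=
    Submodule.span_le.mpr (fun ψ hψ =>
      mem_sup_of_dInv hℓ A hA hopen H0 hI hR0 b hb0 N hN ψ hψ.1 hψ.2)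
  have hH0 : ∀ φ ∈ H0, φ ∈
      Submodule.span (R0 A) {χ : M → Qb | χ ∈ H0 ∧ ∀ σ : GQ, tw σ χ = χ} ⊔
      (Ideal.span {((ℓ : ℕ) : R0 A)} : Ideal (R0 A)) •
        Submodule.span (R0 A) (Set.range b) :=
    fun φ hφ => hA' (mem_span_dInv hℓ A hA hopen H0 hI hD hR0 φ hφ)
  have hSle : Submodule.span (R0 A) (Set.range b) ≤
      Submodule.span (R0 A) {χ : M → Qb | χ ∈ H0 ∧ ∀ σ : GQ, tw σ χ = χ} ⊔
      (Ideal.span {((ℓ : ℕ) : R0 A)} : Ideal (R0 A)) •
        Submodule.span (R0 A) (Set.range b) :=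
    Submodule.span_le.mpr (by rintro _ ⟨i, rfl⟩; exact hH0 _ (hb0 i))
  have hjac : (Ideal.span {((ℓ : ℕ) : R0 A)} : Ideal (R0 A)) ≤ Ideal.jacobson ⊥ := by
    rw [Ideal.span_le, Set.singleton_subset_iff, SetLike.mem_coe, Ideal.mem_jacobson_bot]
    intro y
    have hu : (ℓ : Qb) * (y : Qb) + 1 ∈ R0 A :=
      (R0 A).add_mem ((R0 A).mul_mem (natCast_mem_R0 A ℓ) y.2) (R0 A).one_mem
    have hv : A.valuation ((ℓ : Qb) * (y : Qb) + 1) = 1 := by
      have h1 : A.valuation ((ℓ : Qb) * (y : Qb)) < A.valuation 1 := by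
        rw [map_one, map_mul]
        calc A.valuation (ℓ : Qb) * A.valuation (y : Qb)
            ≤ A.valuation (ℓ : Qb) * 1 :=
              mul_le_mul_right ((A.valuation_le_one_iff _).mpr y.2.1) _
          _ = A.valuation (ℓ : Qb) := mul_one _
          _ < 1 := A.mem_nonunits_iff.mp hA
      rw [Valuation.map_add_eq_of_lt_right _ h1, map_one]
    have hne : (ℓ : Qb) * (y : Qb) + 1 ≠ 0 := by
      intro h
      rw [h, map_zero] at hv
      exact zero_ne_one hv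
    rw [isUnit_iff_exists_inv]
    refine ⟨⟨_, inv_mem_R0 A hu hv⟩, Subtype.ext ?_⟩
    show ((ℓ : Qb) * (y : Qb) + 1) * ((ℓ : Qb) * (y : Qb) + 1)⁻¹ = 1
    exact mul_inv_cancel₀ hne
  have hST := Submodule.le_of_le_smul_of_le_jacobson_bot
    (Submodule.fg_span (Set.finite_range b)) hjac hSle
  exact (sup_le le_rfl ((Submodule.smul_le_right).trans hST)) (hH0 φ hφ)

end Descent

/-! ### The Galois-invariant functions as an order over `ℤ_(ℓ)` -/

section Rat

variable {ℓ : ℕ} (hℓ : ℓ.Prime) (A : ValuationSubring Qb) (hA : A.LiesOverPrime ℓ)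

theorem algebraMap_rat_eq (q : ℚ) :
    algebraMap ℚ Qb q = ((q.num : ℤ) : Qb) / ((q.den : ℕ) : Qb) := by
  conv_lhs => rw [← Rat.num_div_den q]
  simp

include hℓ hA in
/-- Rational numbers with denominator prime to `ℓ` lie in the inertia-fixed ring. -/
theorem algebraMap_rat_mem_R0 (q : ℚ) (hq : q ∈ GaloisRep.ratLocalizedAt ℓ) :
    algebraMap ℚ Qb q ∈ R0 A := by
  refine ⟨?_, fun s _ => s.commutes q⟩
  have hq' : q.den.Coprime ℓ := hq
  have hden : ¬ ℓ ∣ q.den := (Nat.Prime.coprime_iff_not_dvd hℓ).mp hq'.symm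
  rw [← A.valuation_le_one_iff, algebraMap_rat_eq, map_div₀,
    valuation_natCast_eq_one hℓ A hA hden, div_one]
  exact (A.valuation_le_one_iff _).mpr (intCast_mem A _)

include hℓ hA in
/-- A rational number lying in `A` has denominator prime to `ℓ`. -/
theorem mem_ratLocalizedAt_of_mem (q : ℚ) (h : algebraMap ℚ Qb q ∈ A) :
    q ∈ GaloisRep.ratLocalizedAt ℓ := by
  show q.den.Coprime ℓ
  by_contra hcop
  have hdvd : ℓ ∣ q.den := by
    rw [Nat.Prime.dvd_iff_not_coprime hℓ]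
    exact fun h => hcop h.symm
  have hnum : ¬ (ℓ : ℤ) ∣ q.num := by
    intro h
    have h1 : ℓ ∣ q.num.natAbs := Int.natCast_dvd.mp h
    have h2 := Nat.dvd_gcd h1 hdvd
    rw [q.reduced.gcd_eq_one] at h2
    exact hℓ.one_lt.ne' (Nat.dvd_one.mp h2)
  have hvnum : A.valuation ((q.num : ℤ) : Qb) = 1 := valuation_intCast_eq_one' hℓ A hA _ hnum
  have hvden : A.valuation ((q.den : ℕ) : Qb) < 1 := by
    obtain ⟨c, hc⟩ := hdvd
    rw [hc]
    push_cast
    rw [map_mul]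
    calc A.valuation (ℓ : Qb) * A.valuation (c : Qb)
        ≤ A.valuation (ℓ : Qb) * 1 :=
          mul_le_mul_right ((A.valuation_le_one_iff _).mpr (natCast_mem A c)) _
      _ = A.valuation (ℓ : Qb) := mul_one _
      _ < 1 := A.mem_nonunits_iff.mp hA
  have hden0 : ((q.den : ℕ) : Qb) ≠ 0 := Nat.cast_ne_zero.mpr q.den_ne_zero
  have hmul : algebraMap ℚ Qb q * ((q.den : ℕ) : Qb) = ((q.num : ℤ) : Qb) := by
    rw [algebraMap_rat_eq, div_mul_cancel₀ _ hden0]
  have h3 : A.valuation ((q.num : ℤ) : Qb) < 1 := by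
    rw [← hmul, map_mul]
    calc A.valuation (algebraMap ℚ Qb q) * A.valuation ((q.den : ℕ) : Qb)
        ≤ 1 * A.valuation ((q.den : ℕ) : Qb) :=
          mul_le_mul_left ((A.valuation_le_one_iff _).mpr h) _
      _ = A.valuation ((q.den : ℕ) : Qb) := one_mul _
      _ < 1 := hvden
  rw [hvnum] at h3
  exact lt_irrefl _ h3

end Rat

section Order

universe u

variable {M : Type u} [MulAction GQ M]

/-- The Galois-invariant elements of a ring of functions. -/
def invSubring (H0 : Subring (M → Qb)) : Subring (M → Qb) where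
  carrier := {ψ | ψ ∈ H0 ∧ ∀ σ : GQ, tw σ ψ = ψ}
  mul_mem' := by
    rintro a b ⟨ha, ha'⟩ ⟨hb, hb'⟩
    exact ⟨H0.mul_mem ha hb, fun σ => by rw [tw_mul_fun, ha' σ, hb' σ]⟩
  one_mem' := ⟨H0.one_mem, fun σ => tw_one_fun σ⟩
  add_mem' := by
    rintro a b ⟨ha, ha'⟩ ⟨hb, hb'⟩
    exact ⟨H0.add_mem ha hb, fun σ => by rw [tw_add, ha' σ, hb' σ]⟩
  zero_mem' := ⟨H0.zero_mem, fun σ => tw_zero σ⟩
  neg_mem' := by
    rintro a ⟨ha, ha'⟩
    exact ⟨H0.neg_mem ha, fun σ => by rw [tw_neg, ha' σ]⟩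

theorem mem_invSubring (H0 : Subring (M → Qb)) (ψ : M → Qb) :
    ψ ∈ invSubring H0 ↔ ψ ∈ H0 ∧ ∀ σ : GQ, tw σ ψ = ψ := Iff.rfl

omit [MulAction GQ M] in
theorem rat_smul_eq {ℓ : ℕ} (r : GaloisRep.ratLocalizedAt ℓ) (f : M → Qb) :
    r • f = (algebraMap ℚ Qb (r : ℚ)) • f := by
  funext m
  rw [Pi.smul_apply, Pi.smul_apply, Algebra.smul_def]
  rfl

variable {ℓ : ℕ} (hℓ : ℓ.Prime) (A : ValuationSubring Qb) (hA : A.LiesOverPrime ℓ)

/-- The Galois-invariant elements of `H0`, as a subalgebra over `ℤ_(ℓ)`. -/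
def invSubalgebra (H0 : Subring (M → Qb)) (hR0 : ∀ c ∈ R0 A, ∀ φ ∈ H0, c • φ ∈ H0) :
    Subalgebra (GaloisRep.ratLocalizedAt ℓ) (M → Qb) :=
  { (invSubring H0).toSubsemiring with
    algebraMap_mem' := by
      intro r
      have h1 : algebraMap (GaloisRep.ratLocalizedAt ℓ) (M → Qb) r =
          (algebraMap ℚ Qb (r : ℚ)) • (1 : M → Qb) := by
        rw [← rat_smul_eq, Algebra.algebraMap_eq_smul_one]
      show algebraMap (GaloisRep.ratLocalizedAt ℓ) (M → Qb) r ∈ invSubring H0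
      rw [h1]
      refine ⟨hR0 _ (algebraMap_rat_mem_R0 hℓ A hA _ r.2) _ H0.one_mem, fun σ => ?_⟩
      rw [tw_smul, tw_one_fun, σ.commutes] }

theorem mem_invSubalgebra (H0 : Subring (M → Qb)) (hR0 : ∀ c ∈ R0 A, ∀ φ ∈ H0, c • φ ∈ H0)
    (ψ : M → Qb) :
    ψ ∈ invSubalgebra hℓ A hA H0 hR0 ↔ ψ ∈ H0 ∧ ∀ σ : GQ, tw σ ψ = ψ := Iff.rfl

variable [Finite M]

include hℓ hA in
/-- The Galois-invariant elements separate points. -/
theorem sep_invSubring
    (hopen : ∀ m : M, IsOpen (MulAction.stabilizer GQ m : Set GQ))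
    (H0 : Subring (M → Qb))
    (hI : ∀ φ ∈ H0, ∀ s ∈ A.inertiaSubgroupIn ℚ, tw s φ = φ)
    (hD : ∀ φ ∈ H0, ∀ s ∈ A.decompositionSubgroup ℚ, tw s φ ∈ H0)
    (hR0 : ∀ c ∈ R0 A, ∀ φ ∈ H0, c • φ ∈ H0)
    (hsep : ∀ m m' : M, m ≠ m' → ∃ φ ∈ H0, φ m ≠ φ m') :
    ∀ m m' : M, m ≠ m' → ∃ ψ ∈ invSubring H0, ψ m ≠ ψ m' := by
  intro m m' hne
  by_contra hcon
  push Not at hcon
  obtain ⟨φ, hφ, hφne⟩ := hsep m m' hne
  let K : Submodule (R0 A) (M → Qb) :=
    { carrier := {f | f m = f m'}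
      add_mem' := by
        intro a b ha hb
        show (a + b) m = (a + b) m'
        rw [Pi.add_apply, Pi.add_apply, show a m = a m' from ha, show b m = b m' from hb]
      zero_mem' := rfl
      smul_mem' := by
        intro c f hf
        show (c • f) m = (c • f) m'
        rw [Pi.smul_apply, Pi.smul_apply, show f m = f m' from hf] }
  have h1 : Submodule.span (R0 A) {χ : M → Qb | χ ∈ H0 ∧ ∀ σ : GQ, tw σ χ = χ} ≤ K :=
    Submodule.span_le.mpr (fun χ hχ => hcon χ hχ)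
  exact hφne (h1 (mem_span_invariants hℓ A hA hopen H0 hI hD hR0 hsep φ hφ))

include hℓ hA in
/-- A basis of the space of functions made of Galois-invariant elements of `H0`, in which the
Galois-invariant elements of `H0` have coordinates in `ℓ ^ (-N) ℤ_(ℓ)`. -/
theorem exists_rat_coords
    (hopen : ∀ m : M, IsOpen (MulAction.stabilizer GQ m : Set GQ))
    (H0 : Subring (M → Qb))
    (hval : ∀ φ ∈ H0, ∀ m, φ m ∈ A)
    (hI : ∀ φ ∈ H0, ∀ s ∈ A.inertiaSubgroupIn ℚ, tw s φ = φ)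
    (hD : ∀ φ ∈ H0, ∀ s ∈ A.decompositionSubgroup ℚ, tw s φ ∈ H0)
    (hR0 : ∀ c ∈ R0 A, ∀ φ ∈ H0, c • φ ∈ H0)
    (hsep : ∀ m m' : M, m ≠ m' → ∃ φ ∈ H0, φ m ≠ φ m') :
    ∃ (ι : Type u) (_ : Fintype ι) (e : Module.Basis ι Qb (M → Qb)) (N : ℕ),
      (∀ i, e i ∈ invSubring H0) ∧
      ∀ ψ ∈ invSubring H0, ∀ i, ∃ r : GaloisRep.ratLocalizedAt ℓ,
        algebraMap ℚ Qb (r : ℚ) = (ℓ : Qb) ^ N * e.repr ψ i := by
  obtain ⟨ι, _, e, he⟩ := exists_basis_mem (invSubring H0)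
    (sep_invSubring hℓ A hA hopen H0 hI hD hR0 hsep)
  obtain ⟨N, hN⟩ := exists_repr_bound hℓ A hA e
  refine ⟨ι, inferInstance, e, N, he, fun ψ hψ i => ?_⟩
  have hfix : ∀ σ : GQ, σ (e.repr ψ i) = e.repr ψ i := fun σ =>
    repr_tw e σ (fun j => (he j).2 σ) ψ (hψ.2 σ) i
  obtain ⟨q, hq⟩ := exists_rat_of_fixed (e.repr ψ i) hfix
  have hmem : algebraMap ℚ Qb ((ℓ : ℚ) ^ N * q) ∈ A := by
    rw [map_mul, map_pow, map_natCast, hq]
    exact hN ψ (fun m => hval ψ hψ.1 m) i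
  exact ⟨⟨(ℓ : ℚ) ^ N * q, mem_ratLocalizedAt_of_mem hℓ A hA _ hmem⟩, by
    rw [map_mul, map_pow, map_natCast, hq]⟩

include hℓ hA in
/-- **Structure of the invariant order**: there is a basis of the space of all functions,
made of Galois-invariant elements of `H0`, in which every Galois-invariant element of `H0` has
coordinates in `ℤ_(ℓ)`. -/
theorem exists_invariant_basis
    (hopen : ∀ m : M, IsOpen (MulAction.stabilizer GQ m : Set GQ))
    (H0 : Subring (M → Qb))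
    (hval : ∀ φ ∈ H0, ∀ m, φ m ∈ A)
    (hI : ∀ φ ∈ H0, ∀ s ∈ A.inertiaSubgroupIn ℚ, tw s φ = φ)
    (hD : ∀ φ ∈ H0, ∀ s ∈ A.decompositionSubgroup ℚ, tw s φ ∈ H0)
    (hR0 : ∀ c ∈ R0 A, ∀ φ ∈ H0, c • φ ∈ H0)
    (hsep : ∀ m m' : M, m ≠ m' → ∃ φ ∈ H0, φ m ≠ φ m') :
    ∃ (κ : Type u) (_ : Fintype κ) (b : Module.Basis κ Qb (M → Qb)),
      (∀ k, b k ∈ invSubring H0) ∧
      ∀ ψ ∈ invSubring H0, ∀ k, ∃ r : GaloisRep.ratLocalizedAt ℓ,
        algebraMap ℚ Qb (r : ℚ) = b.repr ψ k := by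
  classical
  have : Fact ℓ.Prime := ⟨hℓ⟩
  obtain ⟨ι, _, e, N, he, hcoord⟩ := exists_rat_coords hℓ A hA hopen H0 hval hI hD hR0 hsep
  have hℓ0 : (ℓ : Qb) ≠ 0 := Nat.cast_ne_zero.mpr hℓ.ne_zero
  set H := invSubalgebra hℓ A hA H0 hR0 with hH
  let w : ι → (M → Qb) := fun i => ((ℓ : Qb) ^ N)⁻¹ • e i
  let W : Submodule (GaloisRep.ratLocalizedAt ℓ) (M → Qb) := Submodule.span _ (Set.range w)
  have hle : Subalgebra.toSubmodule H ≤ W := by
    intro ψ hψ
    have hψ' : ψ ∈ invSubring H0 := hψ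
    choose r hr using hcoord ψ hψ'
    have h1 : ψ = ∑ i, r i • w i := by
      conv_lhs => rw [← e.sum_repr ψ]
      refine Finset.sum_congr rfl fun i _ => ?_
      rw [rat_smul_eq, hr i, smul_smul]
      congr 1
      field_simp
    rw [h1]
    exact Submodule.sum_mem _ fun i _ => Submodule.smul_mem _ _ (Submodule.subset_span ⟨i, rfl⟩)
  have hWfg : W.FG := Submodule.fg_span (Set.finite_range w)
  have hWfin : Module.Finite (GaloisRep.ratLocalizedAt ℓ) W := Module.Finite.of_fg hWfg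
  have hnoeth : IsNoetherian (GaloisRep.ratLocalizedAt ℓ) W :=
    isNoetherian_of_fg_of_noetherian W hWfg
  have hfg : (Subalgebra.toSubmodule H).FG := isNoetherian_submodule.mp hnoeth _ hle
  have hfin : Module.Finite (GaloisRep.ratLocalizedAt ℓ) H := Module.Finite.of_fg hfg
  have htf : Module.IsTorsionFree (GaloisRep.ratLocalizedAt ℓ) H :=
    Module.IsTorsionFree.of_smul_eq_zero (by
      intro r x hrx
      have h2 : algebraMap ℚ Qb (r : ℚ) • (x : M → Qb) = 0 := by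
        rw [← rat_smul_eq]
        exact congrArg Subtype.val hrx
      rcases smul_eq_zero.mp h2 with h | h
      · left
        exact Subtype.ext ((map_eq_zero _).mp h)
      · right
        exact Subtype.ext h)
  let β := Module.Free.chooseBasis (GaloisRep.ratLocalizedAt ℓ) H
  let β' : Module.Free.ChooseBasisIndex (GaloisRep.ratLocalizedAt ℓ) H → (M → Qb) :=
    fun k => ((β k : H) : M → Qb)
  have hexp : ∀ ψ : H, (ψ : M → Qb) =
      ∑ k, (algebraMap ℚ Qb ((β.repr ψ k : GaloisRep.ratLocalizedAt ℓ) : ℚ)) • β' k := by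
    intro ψ
    have h1 : ψ = ∑ k, β.repr ψ k • β k := (β.sum_repr ψ).symm
    have h2 := congrArg (fun x : H => H.val x) h1
    simp only [map_sum, map_smul] at h2
    rw [show (ψ : M → Qb) = H.val ψ from rfl, h2]
    refine Finset.sum_congr rfl fun k _ => ?_
    rw [rat_smul_eq]
    rfl
  have hsepH := sep_invSubring hℓ A hA hopen H0 hI hD hR0 hsep
  have hspan : ⊤ ≤ Submodule.span Qb (Set.range β') := by
    rw [← span_eq_top_of_sep (invSubring H0) hsepH]
    apply Submodule.span_le.mpr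
    intro ψ hψ
    have h1 := hexp ⟨ψ, hψ⟩
    rw [show ((⟨ψ, hψ⟩ : H) : M → Qb) = ψ from rfl] at h1
    rw [SetLike.mem_coe, h1]
    exact Submodule.sum_mem _ fun k _ => Submodule.smul_mem _ _ (Submodule.subset_span ⟨k, rfl⟩)
  have hc1 : Fintype.card (Module.Free.ChooseBasisIndex (GaloisRep.ratLocalizedAt ℓ) H) =
      Module.finrank (GaloisRep.ratLocalizedAt ℓ) H := (Module.finrank_eq_card_basis β).symm
  have hc2 : Module.finrank Qb (M → Qb) = Fintype.card ι := Module.finrank_eq_card_basis e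
  have hc3 : Module.finrank (GaloisRep.ratLocalizedAt ℓ) H ≤ Fintype.card ι := by
    have h1 : Module.finrank (GaloisRep.ratLocalizedAt ℓ) (Subalgebra.toSubmodule H) ≤
        Module.finrank (GaloisRep.ratLocalizedAt ℓ) W := Submodule.finrank_mono hle
    have h2 : Module.finrank (GaloisRep.ratLocalizedAt ℓ) W ≤ Fintype.card ι :=
      finrank_range_le_card w
    exact h1.trans h2
  have hc4 : Module.finrank Qb (M → Qb) ≤
      Fintype.card (Module.Free.ChooseBasisIndex (GaloisRep.ratLocalizedAt ℓ) H) := by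
    have h1 := finrank_range_le_card (R := Qb) β'
    have h2 : Submodule.span Qb (Set.range β') = ⊤ := top_le_iff.mp hspan
    unfold Set.finrank at h1
    rw [h2, finrank_top] at h1
    exact h1
  have hcard : Fintype.card (Module.Free.ChooseBasisIndex (GaloisRep.ratLocalizedAt ℓ) H) =
      Module.finrank Qb (M → Qb) := by
    apply le_antisymm _ hc4
    rw [hc1, hc2]
    exact hc3
  have hli : LinearIndependent Qb β' :=
    linearIndependent_of_top_le_span_of_card_eq_finrank hspan hcard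
  let b := Module.Basis.mk hli hspan
  have hb : ∀ k, b k = β' k := fun k => Module.Basis.mk_apply hli hspan k
  refine ⟨_, inferInstance, b, fun k => ?_, fun ψ hψ k => ?_⟩
  · rw [hb k]
    exact (β k).2
  · refine ⟨β.repr ⟨ψ, hψ⟩ k, ?_⟩
    have h1 := hexp ⟨ψ, hψ⟩
    rw [show ((⟨ψ, hψ⟩ : H) : M → Qb) = ψ from rfl] at h1
    have h2 : b.repr ψ k = b.repr (∑ k', (algebraMap ℚ Qb
        ((β.repr ⟨ψ, hψ⟩ k' : GaloisRep.ratLocalizedAt ℓ) : ℚ)) • b k') k := by
      congr 2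
      exact h1.trans (Finset.sum_congr rfl fun k' _ => by rw [hb k'])
    rw [h2, Module.Basis.repr_sum_self]

end Order

/-! ### The addition law descends -/

section Comul

universe u

variable {M : Type u} [Add M] [MulAction GQ M] [Finite M]
variable {ℓ : ℕ} (hℓ : ℓ.Prime) (A : ValuationSubring Qb) (hA : A.LiesOverPrime ℓ)

include hℓ hA in
theorem comul_invSubring
    (hact : ∀ (s : GQ) (m m' : M), s • (m + m') = s • m + s • m')
    (hopen : ∀ m : M, IsOpen (MulAction.stabilizer GQ m : Set GQ))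
    (H0 : Subring (M → Qb))
    (hval : ∀ φ ∈ H0, ∀ m, φ m ∈ A)
    (hI : ∀ φ ∈ H0, ∀ s ∈ A.inertiaSubgroupIn ℚ, tw s φ = φ)
    (hD : ∀ φ ∈ H0, ∀ s ∈ A.decompositionSubgroup ℚ, tw s φ ∈ H0)
    (hR0 : ∀ c ∈ R0 A, ∀ φ ∈ H0, c • φ ∈ H0)
    (hsep : ∀ m m' : M, m ≠ m' → ∃ φ ∈ H0, φ m ≠ φ m')
    (hadd : ∀ φ ∈ H0, ∃ (n : ℕ) (a b : Fin n → M → Qb), (∀ i, a i ∈ H0) ∧ (∀ i, b i ∈ H0) ∧
      ∀ m m', φ (m + m') = ∑ i, a i m * b i m')
    (ψ : M → Qb) (hψ : ψ ∈ invSubring H0) :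
    ∃ (n : ℕ) (a b : Fin n → M → Qb), (∀ i, a i ∈ invSubalgebra hℓ A hA H0 hR0) ∧
      (∀ i, b i ∈ invSubalgebra hℓ A hA H0 hR0) ∧
      ∀ m m', ψ (m + m') = ∑ i, a i m * b i m' := by
  classical
  obtain ⟨κ, _, b, hbH, hcoordH⟩ :=
    exists_invariant_basis hℓ A hA hopen H0 hval hI hD hR0 hsep
  -- coordinates of elements of `H0` lie in the inertia-fixed ring
  have hcoord0 : ∀ f ∈ H0, ∀ k, b.repr f k ∈ R0 A := by
    intro f hf
    let K : Submodule (R0 A) (M → Qb) :=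
      { carrier := {f | ∀ k, b.repr f k ∈ R0 A}
        add_mem' := by
          intro x y hx hy k
          rw [map_add, Finsupp.add_apply]
          exact (R0 A).add_mem (hx k) (hy k)
        zero_mem' := by
          intro k
          rw [map_zero, Finsupp.zero_apply]
          exact (R0 A).zero_mem
        smul_mem' := by
          intro c x hx k
          have h1 : (c • x : M → Qb) = (c : Qb) • x := rfl
          rw [h1, map_smul, Finsupp.smul_apply, smul_eq_mul]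
          exact (R0 A).mul_mem c.2 (hx k) }
    have h1 : Submodule.span (R0 A) {χ : M → Qb | χ ∈ H0 ∧ ∀ σ : GQ, tw σ χ = χ} ≤ K :=
      Submodule.span_le.mpr (fun χ hχ k => by
        obtain ⟨r, hr⟩ := hcoordH χ hχ k
        rw [← hr]
        exact algebraMap_rat_mem_R0 hℓ A hA _ r.2)
    exact h1 (mem_span_invariants hℓ A hA hopen H0 hI hD hR0 hsep f hf)
  obtain ⟨n, a, b', ha, hb', hab⟩ := hadd ψ hψ.1
  have hexp : ∀ (f : M → Qb) (m : M), f m = ∑ k, b.repr f k * b k m := by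
    intro f m
    have h := congrFun (b.sum_repr f) m
    rw [Finset.sum_apply] at h
    rw [← h]
    rfl
  let c : κ → κ → Qb := fun k k' => ∑ i, b.repr (a i) k * b.repr (b' i) k'
  have hcR0 : ∀ k k', c k k' ∈ R0 A := fun k k' =>
    Subring.sum_mem _ fun i _ => (R0 A).mul_mem (hcoord0 _ (ha i) k) (hcoord0 _ (hb' i) k')
  have hψc : ∀ m m', ψ (m + m') = ∑ k, ∑ k', c k k' * (b k m * b k' m') := by
    intro m m'
    rw [hab m m']
    have h1 : ∀ i, a i m * b' i m' =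
        ∑ k, ∑ k', (b.repr (a i) k * b.repr (b' i) k') * (b k m * b k' m') := by
      intro i
      rw [hexp (a i) m, hexp (b' i) m', Finset.sum_mul_sum]
      refine Finset.sum_congr rfl fun k _ => Finset.sum_congr rfl fun k' _ => by ring
    rw [Finset.sum_congr rfl fun i _ => h1 i, Finset.sum_comm]
    refine Finset.sum_congr rfl fun k _ => ?_
    rw [Finset.sum_comm]
    refine Finset.sum_congr rfl fun k' _ => ?_
    rw [Finset.sum_mul]
  -- the coefficients are Galois-invariant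
  have hcfix : ∀ (σ : GQ) k k', σ (c k k') = c k k' := by
    intro σ
    have hb_inv : ∀ k (m : M), b k (σ • m) = σ (b k m) := fun k =>
      (tw_eq_iff σ (b k)).mp ((hbH k).2 σ)
    have hψ_inv : ∀ m : M, ψ (σ • m) = σ (ψ m) := (tw_eq_iff σ ψ).mp (hψ.2 σ)
    have hrel : ∀ x x' : M, ∑ k, ∑ k', (c k k' - σ (c k k')) * (b k x * b k' x') = 0 := by
      intro x x'
      have h1 := hψ_inv (σ⁻¹ • x + σ⁻¹ • x')
      rw [hact, smul_inv_smul, smul_inv_smul, hψc x x', hψc (σ⁻¹ • x) (σ⁻¹ • x'), map_sum] at h1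
      have h2 : ∀ k, σ (∑ k', c k k' * (b k (σ⁻¹ • x) * b k' (σ⁻¹ • x'))) =
          ∑ k', σ (c k k') * (b k x * b k' x') := by
        intro k
        rw [map_sum]
        refine Finset.sum_congr rfl fun k' _ => ?_
        rw [map_mul, map_mul, ← hb_inv, ← hb_inv, smul_inv_smul, smul_inv_smul]
      rw [Finset.sum_congr rfl fun k _ => h2 k] at h1
      simp only [sub_mul, Finset.sum_sub_distrib]
      rw [h1, sub_self]
    have hli := b.linearIndependent
    rw [Fintype.linearIndependent_iff] at hli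
    have h3 : ∀ (x' : M) k, ∑ k', (c k k' - σ (c k k')) * b k' x' = 0 := by
      intro x'
      apply hli
      funext x
      rw [Finset.sum_apply]
      simp only [Pi.smul_apply, smul_eq_mul, Pi.zero_apply]
      rw [← hrel x x']
      refine Finset.sum_congr rfl fun k _ => ?_
      rw [Finset.sum_mul]
      refine Finset.sum_congr rfl fun k' _ => by ring
    intro k k'
    have h4 : ∑ k', (c k k' - σ (c k k')) • b k' = 0 := by
      funext x'
      rw [Finset.sum_apply]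
      simpa using h3 x' k
    have h5 := hli _ h4 k'
    exact (sub_eq_zero.mp h5).symm
  have hcrat : ∀ k k', ∃ r : GaloisRep.ratLocalizedAt ℓ, algebraMap ℚ Qb (r : ℚ) = c k k' := by
    intro k k'
    obtain ⟨q, hq⟩ := exists_rat_of_fixed (c k k') (fun σ => hcfix σ k k')
    exact ⟨⟨q, mem_ratLocalizedAt_of_mem hℓ A hA q (by rw [hq]; exact (hcR0 k k').1)⟩, hq⟩
  choose r hr using hcrat
  let eqv := Fintype.equivFin (κ × κ)
  refine ⟨Fintype.card (κ × κ),
    fun j => r (eqv.symm j).1 (eqv.symm j).2 • b (eqv.symm j).1,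
    fun j => b (eqv.symm j).2, ?_, ?_, ?_⟩
  · intro j
    exact Subalgebra.smul_mem _ (hbH _) _
  · intro j
    exact hbH _
  · intro m m'
    rw [hψc m m', Equiv.sum_comp eqv.symm (fun p : κ × κ => (r p.1 p.2 • b p.1) m * b p.2 m'),
      Fintype.sum_prod_type]
    refine Finset.sum_congr rfl fun k _ => Finset.sum_congr rfl fun k' _ => ?_
    rw [rat_smul_eq, Pi.smul_apply, smul_eq_mul, hr k k', mul_assoc]

end Comul

/-! ### Main statements -/

section Main

universe u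

variable {M : Type u} [AddCommGroup M] [Finite M] [MulAction GQ M]

omit [AddCommGroup M] in
/-- The invariant order is a finite module over `ℤ_(ℓ)`. -/
theorem finite_invSubalgebra {ℓ : ℕ} (hℓ : ℓ.Prime) (A : ValuationSubring Qb)
    (hA : A.LiesOverPrime ℓ)
    (hopen : ∀ m : M, IsOpen (MulAction.stabilizer GQ m : Set GQ))
    (H0 : Subring (M → Qb))
    (hval : ∀ φ ∈ H0, ∀ m, φ m ∈ A)
    (hI : ∀ φ ∈ H0, ∀ s ∈ A.inertiaSubgroupIn ℚ, tw s φ = φ)
    (hD : ∀ φ ∈ H0, ∀ s ∈ A.decompositionSubgroup ℚ, tw s φ ∈ H0)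
    (hR0 : ∀ c ∈ R0 A, ∀ φ ∈ H0, c • φ ∈ H0)
    (hsep : ∀ m m' : M, m ≠ m' → ∃ φ ∈ H0, φ m ≠ φ m') :
    Module.Finite (GaloisRep.ratLocalizedAt ℓ) (invSubalgebra hℓ A hA H0 hR0) := by
  obtain ⟨κ, _, b, hbH, hcoordH⟩ :=
    exists_invariant_basis hℓ A hA hopen H0 hval hI hD hR0 hsep
  have hle : Subalgebra.toSubmodule (invSubalgebra hℓ A hA H0 hR0) ≤
      Submodule.span (GaloisRep.ratLocalizedAt ℓ) (Set.range b) := by
    intro ψ hψ
    have hψ' : ψ ∈ invSubring H0 := hψ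
    choose r hr using hcoordH ψ hψ'
    have h1 : ψ = ∑ k, r k • b k := by
      conv_lhs => rw [← b.sum_repr ψ]
      exact Finset.sum_congr rfl fun k _ => by rw [rat_smul_eq, hr k]
    rw [h1]
    exact Submodule.sum_mem _ fun k _ => Submodule.smul_mem _ _ (Submodule.subset_span ⟨k, rfl⟩)
  have hge : Submodule.span (GaloisRep.ratLocalizedAt ℓ) (Set.range b) ≤
      Subalgebra.toSubmodule (invSubalgebra hℓ A hA H0 hR0) :=
    Submodule.span_le.mpr (by rintro _ ⟨k, rfl⟩; exact hbH k)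
  have hfg : (Subalgebra.toSubmodule (invSubalgebra hℓ A hA H0 hR0)).FG := by
    rw [le_antisymm hle hge]
    exact Submodule.fg_span (Set.finite_range b)
  exact Module.Finite.of_fg hfg

/-- **Lattice descent, core form.**  `A` a valuation subring of `Qb` over `ℓ`, `M` a finite
additive group with an additive action of the Galois group with open stabilisers, `H0` a ring of
functions on `M` which are `A`-valued and inertia-invariant, stable under the decomposition group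
and under inertia-fixed constants of `A`, separating points and closed under the addition law.
Then the Galois-invariant elements of `H0` form a finite `ℤ_(ℓ)`-order which spans `H0` over the
inertia-fixed ring, separates points and is closed under the addition law. -/
theorem exists_rat_model_core {ℓ : ℕ} (hℓ : ℓ.Prime) (A : ValuationSubring Qb)
    (hA : A.LiesOverPrime ℓ)
    (hact : ∀ (s : GQ) (m m' : M), s • (m + m') = s • m + s • m')
    (hopen : ∀ m : M, IsOpen (MulAction.stabilizer GQ m : Set GQ))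
    (H0 : Subring (M → Qb))
    (hval : ∀ φ ∈ H0, ∀ m, φ m ∈ A)
    (hI : ∀ φ ∈ H0, ∀ s ∈ A.inertiaSubgroupIn ℚ, tw s φ = φ)
    (hD : ∀ φ ∈ H0, ∀ s ∈ A.decompositionSubgroup ℚ, tw s φ ∈ H0)
    (hR0 : ∀ c ∈ R0 A, ∀ φ ∈ H0, c • φ ∈ H0)
    (hsep : ∀ m m' : M, m ≠ m' → ∃ φ ∈ H0, φ m ≠ φ m')
    (hadd : ∀ φ ∈ H0, ∃ (n : ℕ) (a b : Fin n → M → Qb), (∀ i, a i ∈ H0) ∧ (∀ i, b i ∈ H0) ∧
      ∀ m m', φ (m + m') = ∑ i, a i m * b i m') :
    ∃ H : Subalgebra (GaloisRep.ratLocalizedAt ℓ) (M → Qb),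
      (∀ φ, φ ∈ H ↔ φ ∈ H0 ∧ ∀ σ : GQ, tw σ φ = φ) ∧
      Module.Finite (GaloisRep.ratLocalizedAt ℓ) H ∧
      (∀ φ ∈ H0, φ ∈ Submodule.span (R0 A) (H : Set (M → Qb))) ∧
      (∀ m m' : M, m ≠ m' → ∃ φ ∈ H, φ m ≠ φ m') ∧
      (∀ φ ∈ H, ∃ (n : ℕ) (a b : Fin n → M → Qb), (∀ i, a i ∈ H) ∧ (∀ i, b i ∈ H) ∧
        ∀ m m', φ (m + m') = ∑ i, a i m * b i m') :=
  ⟨invSubalgebra hℓ A hA H0 hR0, fun _ => Iff.rfl,
    finite_invSubalgebra hℓ A hA hopen H0 hval hI hD hR0 hsep,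
    fun φ hφ => mem_span_invariants hℓ A hA hopen H0 hI hD hR0 hsep φ hφ,
    sep_invSubring hℓ A hA hopen H0 hI hD hR0 hsep,
    fun φ hφ => comul_invSubring hℓ A hA hact hopen H0 hval hI hD hR0 hsep hadd φ hφ⟩

/-- **Lattice descent** in the input shape of the function-model lemma: the Galois-equivariant
elements of `H0` form a subalgebra over `GaloisRep.ratLocalizedAt ℓ` which is a finite module,
separates the points of `M` and is closed under the addition law. -/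
theorem exists_rat_model (ℓ : ℕ) [Fact ℓ.Prime] (A : ValuationSubring Qb)
    (hA : A.LiesOverPrime ℓ)
    (hact : ∀ (s : GQ) (m m' : M), s • (m + m') = s • m + s • m')
    (hopen : ∃ E : IntermediateField ℚ Qb, FiniteDimensional ℚ E ∧
      ∀ s ∈ E.fixingSubgroup, ∀ m : M, s • m = m)
    (H0 : Subring (M → Qb))
    (hval : ∀ φ ∈ H0, ∀ m, φ m ∈ A)
    (hI : ∀ φ ∈ H0, ∀ s ∈ A.inertiaSubgroupIn ℚ, ∀ m, φ (s • m) = s (φ m))
    (hD : ∀ φ ∈ H0, ∀ s ∈ A.decompositionSubgroup ℚ, (fun m => s (φ (s⁻¹ • m))) ∈ H0)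
    (hR0 : ∀ c ∈ A, (∀ s ∈ A.inertiaSubgroupIn ℚ, s c = c) →
      ∀ φ ∈ H0, (fun m => c * φ m) ∈ H0)
    (hsep : ∀ m m' : M, m ≠ m' → ∃ φ ∈ H0, φ m ≠ φ m')
    (hadd : ∀ φ ∈ H0, ∃ (n : ℕ) (a b : Fin n → M → Qb), (∀ i, a i ∈ H0) ∧ (∀ i, b i ∈ H0) ∧
      ∀ m m', φ (m + m') = ∑ i, a i m * b i m') :
    ∃ H : Subalgebra (GaloisRep.ratLocalizedAt ℓ) (M → Qb),
      Module.Finite (GaloisRep.ratLocalizedAt ℓ) H ∧ (∀ φ ∈ H, φ ∈ H0) ∧
      (∀ φ ∈ H, ∀ (s : GQ) (m : M), φ (s • m) = s (φ m)) ∧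
      (∀ m m' : M, m ≠ m' → ∃ φ ∈ H, φ m ≠ φ m') ∧
      (∀ φ ∈ H, ∃ (n : ℕ) (a b : Fin n → M → Qb), (∀ i, a i ∈ H) ∧ (∀ i, b i ∈ H) ∧
        ∀ m m', φ (m + m') = ∑ i, a i m * b i m') := by
  have hℓ : ℓ.Prime := Fact.out
  obtain ⟨E, hE, hEfix⟩ := hopen
  have hopen' : ∀ m : M, IsOpen (MulAction.stabilizer GQ m : Set GQ) := fun m =>
    Subgroup.isOpen_mono (H₁ := E.fixingSubgroup) (fun s hs => hEfix s hs m)
      (IntermediateField.fixingSubgroup_isOpen E)
  have hI' : ∀ φ ∈ H0, ∀ s ∈ A.inertiaSubgroupIn ℚ, tw s φ = φ := fun φ hφ s hs =>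
    (tw_eq_iff s φ).mpr (hI φ hφ s hs)
  have hD' : ∀ φ ∈ H0, ∀ s ∈ A.decompositionSubgroup ℚ, tw s φ ∈ H0 := fun φ hφ s hs =>
    hD φ hφ s hs
  have hR0' : ∀ c ∈ R0 A, ∀ φ ∈ H0, c • φ ∈ H0 := fun c hc φ hφ => hR0 c hc.1 hc.2 φ hφ
  obtain ⟨H, hH, hfin, -, hsepH, hcomul⟩ :=
    exists_rat_model_core hℓ A hA hact hopen' H0 hval hI' hD' hR0' hsep hadd
  exact ⟨H, hfin, fun φ hφ => ((hH φ).mp hφ).1,
    fun φ hφ s m => (tw_eq_iff s φ).mp (((hH φ).mp hφ).2 s) m, hsepH, hcomul⟩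

end Main

end

end Fermat.Agent.S19.helper1312
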