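import Fermat.Agent.S19.helper2111_Spine
import Fermat.Agent.S19.helper1312_Descent

set_option autoImplicit false

/-!
# S19: DESCENT discharged

`stmt_Descent` : the captain's Prop `helper2111.Stmt_Descent ℓ` (lattice descent from the
inertia-fixed ring to `ℤ_(ℓ)`), by `helper1312.exists_rat_model`.

`stmt_SpineAll` : hence the spine at every level, unconditionally.
-/

namespace Fermat.Agent.S19.helper1312

/-- **DESCENT**: an order `H0` of `A`-valued, inertia-equivariant functions on a finite Galois
module with open stabilisers, stable under the decomposition group and under the inertia-fixed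
constants of `A`, separating points and closed under the addition law, contains a function model
over `ℤ_(ℓ)`. -/
theorem stmt_Descent (ℓ : ℕ) [Fact ℓ.Prime] : Fermat.Agent.S19.helper2111.Stmt_Descent ℓ := by
  intro A hA M _ _ _ hopen H0 hval hI hD hR0 hsep hadd
  exact exists_rat_model ℓ A hA (fun s m m' => smul_add s m m') hopen H0 hval hI hD hR0 hsep hadd

/-- **The spine at every level**, unconditionally. -/
theorem stmt_SpineAll (ℓ : ℕ) [Fact ℓ.Prime] : Fermat.Agent.S19.helper2111.Stmt_SpineAll ℓ :=
  Fermat.Agent.S19.helper2111.stmt_SpineAll_of_descent ℓ (stmt_Descent ℓ)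

end Fermat.Agent.S19.helper1312
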