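import Fermat.Agent.S19.helper3573_GateClose
import Fermat.Agent.S19.helper1312_DescentStmt

set_option autoImplicit false

/-!
# S19: the root with the gate and the spine discharged (captain's glue)

`result_of_coreAt` : the frozen statement S19 from the ONE remaining Prop, the geometric core
`helper3573.Stmt_CoreAt` at the auxiliary level `helper2289.auxLevel p ℓ`.

* gate   : `helper3573.stmt_GateLat_aux` (S18 track A on the Hauptmodul lines), inside
  `helper3573.result_of_core`;
* spine  : `helper1312.stmt_SpineAll` (centres, order, closure, descent);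
* FUNCMODEL, FIN, LEVEL : inside `helper3573.result_of_gate`.
-/

namespace Fermat.Agent.S19.helper2111

open ModularCurve

/-- **Root of S19**: the frozen statement from the geometric core at the auxiliary level. -/
theorem result_of_coreAt (p : ℕ) [NeZero p] (ℓ : ℕ) [Fact ℓ.Prime] (hℓp : ¬ ℓ ∣ p) (k : ℕ)
    (hcore : Fermat.Agent.S19.helper3573.Stmt_CoreAt (Fermat.Agent.S19.helper2289.auxLevel p ℓ) ℓ
      (Fermat.Agent.S19.helper2289.not_dvd_auxLevel (Fact.out : ℓ.Prime) hℓp)) :
    ∃ (H : Type) (_ : CommRing H) (_ : HopfAlgebra (GaloisRep.ratLocalizedAt ℓ) H),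
      Module.Finite (GaloisRep.ratLocalizedAt ℓ) H ∧ Module.Flat (GaloisRep.ratLocalizedAt ℓ) H ∧
      Coalgebra.IsCocomm (GaloisRep.ratLocalizedAt ℓ) H ∧
      ∃ e : WithConv (H →ₐ[GaloisRep.ratLocalizedAt ℓ] AlgebraicClosure ℚ) ≃
          ↥(Submodule.torsionBy ℤ (JZero p) ((ℓ : ℤ) ^ k)),
        (∀ f g, e (f * g) = e f + e g) ∧
        ∀ (σ : AlgebraicClosure ℚ ≃ₐ[ℚ] AlgebraicClosure ℚ)
          (f g : WithConv (H →ₐ[GaloisRep.ratLocalizedAt ℓ] AlgebraicClosure ℚ)),
          (∀ h : H, g h = σ (f h)) → ((e g : JZero p)) = σ • (e f : JZero p) :=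
  Fermat.Agent.S19.helper3573.result_of_core p ℓ hℓp k hcore
    (Fermat.Agent.S19.helper1312.stmt_SpineAll ℓ _ (NeZero.ne _))

end Fermat.Agent.S19.helper2111
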