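import Mathlib

/-!
# `π`-adic closure calculus (helper1288, S19-ADICCALC)

Route-independent, Mathlib-only brick for S19 (module B "`R₀`-analytic calculus" of the
kernel-of-reduction routes).  For a commutative ring `B`, an element `π : B` and a subring `S`,
`adicClosure π S` is the set of `f : B` which are congruent to an element of `S` modulo `π ^ j`
for every `j`.  It is a subring, it is closed under uniform limits, and, with no completeness
hypothesis and no division by `π`, it is closed under

* convergent power series in topologically nilpotent elements (`series_mem_adicClosure`);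
* inverses, given an approximate inverse in the closure (`inv_mem_adicClosure`);
* inverse matrices and Cramer solutions (`matrix_inv_mem_adicClosure`, `cramer_mem_adicClosure`);
* Hensel roots in one variable (`hensel_mem_adicClosure`) and in several variables
  (`hensel_mv_mem_adicClosure`), by the chord iteration `c ↦ c - u * Φ(c)`;
* substitution along ring homomorphisms (`map_mem_adicClosure`).

"Topologically nilpotent" means: in the radical of `(π)` (`topNilp π`).

The second half restates everything for functions: `IsAnalyticOn A R₀ π X ξ F` says that the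
function `F` is, on the set `X`, congruent modulo `π ^ j • A` to a polynomial over `R₀` in the
coordinate functions `ξ i`, for every `j`.
-/

set_option autoImplicit false

namespace Fermat.Agent.S19.helper1288

/-! ## The abstract core -/

section Core

variable {B : Type*} [CommRing B]

/-- The `π`-adic closure of a subring `S`: the elements congruent to an element of `S` modulo
every power of `π`. -/
def adicClosure (π : B) (S : Subring B) : Subring B where
  carrier := {f | ∀ j : ℕ, ∃ g ∈ S, f - g ∈ Ideal.span {π ^ j}}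
  mul_mem' := by
    intro a b ha hb j
    obtain ⟨g, hg, hag⟩ := ha j
    obtain ⟨h, hh, hbh⟩ := hb j
    refine ⟨g * h, S.mul_mem hg hh, ?_⟩
    have e : a * b - g * h = a * (b - h) + h * (a - g) := by ring
    rw [e]
    exact Ideal.add_mem _ (Ideal.mul_mem_left _ _ hbh) (Ideal.mul_mem_left _ _ hag)
  one_mem' := fun j => ⟨1, S.one_mem, by simp⟩
  add_mem' := by
    intro a b ha hb j
    obtain ⟨g, hg, hag⟩ := ha j
    obtain ⟨h, hh, hbh⟩ := hb j
    refine ⟨g + h, S.add_mem hg hh, ?_⟩
    have e : a + b - (g + h) = (a - g) + (b - h) := by ring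
    rw [e]
    exact Ideal.add_mem _ hag hbh
  zero_mem' := fun j => ⟨0, S.zero_mem, by simp⟩
  neg_mem' := by
    intro a ha j
    obtain ⟨g, hg, hag⟩ := ha j
    refine ⟨-g, S.neg_mem hg, ?_⟩
    have e : -a - -g = -(a - g) := by ring
    rw [e]
    exact Ideal.neg_mem_iff _ |>.mpr hag

theorem mem_adicClosure {π : B} {S : Subring B} {f : B} :
    f ∈ adicClosure π S ↔ ∀ j : ℕ, ∃ g ∈ S, f - g ∈ Ideal.span {π ^ j} := Iff.rfl

theorem le_adicClosure (π : B) (S : Subring B) : S ≤ adicClosure π S :=
  fun f hf _ => ⟨f, hf, by simp⟩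

theorem adicClosure_mono (π : B) {S T : Subring B} (h : S ≤ T) :
    adicClosure π S ≤ adicClosure π T := by
  intro f hf j
  obtain ⟨g, hg, hfg⟩ := hf j
  exact ⟨g, h hg, hfg⟩

/-- **Uniform limits.** An element which is approximated modulo every power of `π` by elements
of the closure lies in the closure. -/
theorem mem_adicClosure_of_approx {π : B} {S : Subring B} {f : B}
    (h : ∀ j : ℕ, ∃ g ∈ adicClosure π S, f - g ∈ Ideal.span {π ^ j}) : f ∈ adicClosure π S := by
  intro j
  obtain ⟨g, hg, hfg⟩ := h j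
  obtain ⟨g', hg', hgg'⟩ := hg j
  refine ⟨g', hg', ?_⟩
  have e : f - g' = (f - g) + (g - g') := by ring
  rw [e]
  exact Ideal.add_mem _ hfg hgg'

theorem adicClosure_idem (π : B) (S : Subring B) :
    adicClosure π (adicClosure π S) = adicClosure π S :=
  le_antisymm (fun _ hf => mem_adicClosure_of_approx hf) (le_adicClosure π _)

/-- The ideal of topologically nilpotent elements: the radical of `(π)`. -/
def topNilp (π : B) : Ideal B := (Ideal.span {π}).radical

theorem mem_topNilp {π f : B} : f ∈ topNilp π ↔ ∃ N : ℕ, f ^ N ∈ Ideal.span {π} :=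
  Ideal.mem_radical_iff

theorem pi_mem_topNilp (π : B) : π ∈ topNilp π :=
  Ideal.le_radical (Ideal.subset_span rfl)

/-- A finitely generated ideal of topologically nilpotent elements has a power inside `(π ^ j)`. -/
theorem exists_pow_le_span_pow {π : B} {J : Ideal B} (hJ : J ≤ topNilp π) (hfg : J.FG) (j : ℕ) :
    ∃ n : ℕ, J ^ n ≤ Ideal.span {π ^ j} := by
  obtain ⟨k, hk⟩ := Ideal.exists_pow_le_of_le_radical_of_fg hJ hfg
  refine ⟨k * j, ?_⟩
  rw [pow_mul, ← Ideal.span_singleton_pow]
  exact Ideal.pow_right_mono hk j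

/-- Limits along the powers of a finitely generated topologically nilpotent ideal. -/
theorem mem_adicClosure_of_approx_ideal {π : B} {S : Subring B} {f : B} {J : Ideal B}
    (hJ : J ≤ topNilp π) (hfg : J.FG)
    (h : ∀ n : ℕ, ∃ g ∈ adicClosure π S, f - g ∈ J ^ n) : f ∈ adicClosure π S := by
  refine mem_adicClosure_of_approx fun j => ?_
  obtain ⟨n, hn⟩ := exists_pow_le_span_pow hJ hfg j
  obtain ⟨g, hg, hfg'⟩ := h n
  exact ⟨g, hg, hn hfg'⟩

theorem span_singleton_le_topNilp {π t : B} (ht : t ∈ topNilp π) :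
    Ideal.span {t} ≤ topNilp π :=
  (Ideal.span_singleton_le_iff_mem _).mpr ht

theorem span_pair_le_topNilp {π s t : B} (hs : s ∈ topNilp π) (ht : t ∈ topNilp π) :
    Ideal.span {s, t} ≤ topNilp π := by
  rw [Ideal.span_le]
  rintro x (rfl | rfl)
  · exact hs
  · exact ht

/-- **Power series.** If `f` is, modulo `t ^ n` for every `n`, a polynomial in the topologically
nilpotent element `t` with coefficients in the closure, then `f` is in the closure. -/
theorem series_mem_adicClosure {π : B} {S : Subring B} {f t : B} (η : ℕ → B)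
    (ht : t ∈ adicClosure π S) (htn : t ∈ topNilp π) (hη : ∀ m, η m ∈ adicClosure π S)
    (h : ∀ n : ℕ, f - ∑ m ∈ Finset.range n, η m * t ^ m ∈ Ideal.span {t ^ n}) :
    f ∈ adicClosure π S := by
  refine mem_adicClosure_of_approx_ideal (span_singleton_le_topNilp htn)
    (Submodule.fg_span (Set.toFinite _)) fun n => ⟨∑ m ∈ Finset.range n, η m * t ^ m, ?_, ?_⟩
  · exact Subring.sum_mem _ fun m _ => Subring.mul_mem _ (hη m) (Subring.pow_mem _ ht m)
  · rw [Ideal.span_singleton_pow]
    exact h n

/-- **Inverses.** If `f` and an approximate inverse `g` of `f` lie in the closure, then any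
inverse `f'` of `f` lies in the closure. -/
theorem inv_mem_adicClosure {π : B} {S : Subring B} {f g f' : B}
    (hf : f ∈ adicClosure π S) (hg : g ∈ adicClosure π S) (hff' : f * f' = 1)
    (h : 1 - f * g ∈ topNilp π) : f' ∈ adicClosure π S := by
  refine mem_adicClosure_of_approx_ideal (span_singleton_le_topNilp h)
    (Submodule.fg_span (Set.toFinite _)) fun n =>
      ⟨g * ∑ i ∈ Finset.range n, (1 - f * g) ^ i, ?_, ?_⟩
  · refine Subring.mul_mem _ hg (Subring.sum_mem _ fun i _ => Subring.pow_mem _ ?_ i)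
    exact Subring.sub_mem _ (Subring.one_mem _) (Subring.mul_mem _ hf hg)
  · rw [Ideal.span_singleton_pow, Ideal.mem_span_singleton']
    refine ⟨f', ?_⟩
    have key := mul_neg_geom_sum (1 - f * g) n
    have e1 : f' - g * ∑ i ∈ Finset.range n, (1 - f * g) ^ i
        = f' * (1 - (1 - (1 - f * g)) * ∑ i ∈ Finset.range n, (1 - f * g) ^ i)
          + (f * f' - 1) * (g * ∑ i ∈ Finset.range n, (1 - f * g) ^ i) := by ring
    rw [e1, key, hff']
    ring

/-- If `π` lies in the Jacobson radical, an element with an approximate inverse is a unit. -/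
theorem isUnit_of_approx_inv {π : B} (hπ : π ∈ Ideal.jacobson (⊥ : Ideal B)) {f g : B}
    (h : 1 - f * g ∈ topNilp π) : IsUnit f := by
  have h1 : 1 - f * g ∈ Ideal.jacobson (⊥ : Ideal B) := by
    have hle : topNilp π ≤ Ideal.jacobson (⊥ : Ideal B) := by
      refine (Ideal.radical_mono ((Ideal.span_singleton_le_iff_mem _).mpr hπ)).trans ?_
      exact (Ideal.radical_le_jacobson).trans (le_of_eq Ideal.jacobson_idem)
    exact hle h
  have h2 : IsUnit (f * g) := by
    have := Ideal.mem_jacobson_bot.mp h1 (-1)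
    have e : (1 - f * g) * (-1) + 1 = f * g := by ring
    rwa [e] at this
  exact isUnit_of_mul_isUnit_left h2

/-- `(J ^ (n + 1) ⊔ P) * (J ⊔ P) ⊆ J ^ (n + 2) ⊔ P`. -/
theorem mul_mem_pow_succ_sup {J P : Ideal B} {n : ℕ} {d e : B}
    (hd : d ∈ J ^ (n + 1) ⊔ P) (he : e ∈ J ⊔ P) : d * e ∈ J ^ (n + 2) ⊔ P := by
  obtain ⟨a, ha, p, hp, rfl⟩ := Submodule.mem_sup.mp hd
  obtain ⟨b, hb, q, hq, rfl⟩ := Submodule.mem_sup.mp he
  have e1 : (a + p) * (b + q) = a * b + (a * q + p * (b + q)) := by ring
  rw [e1]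
  refine Submodule.add_mem_sup ?_ (P.add_mem (P.mul_mem_left _ hq) (P.mul_mem_right _ hp))
  have h2 : a * b ∈ J ^ (n + 1) * J := Ideal.mul_mem_mul ha hb
  rwa [← pow_succ] at h2

theorem pow_succ_sup_le_sup {J P : Ideal B} (n : ℕ) : J ^ (n + 1) ⊔ P ≤ J ⊔ P :=
  sup_le_sup_right (Ideal.pow_le_self (Nat.succ_ne_zero n)) P

/-- **Hensel roots, one variable** (general form).  Let `c0` be in the closure and `c` be
congruent to `c0` modulo topologically nilpotent elements.  If for every `j` the element `c` is a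
root modulo `π ^ j` of a polynomial `Φ` with coefficients in the closure whose derivative at `c0`
has an approximate inverse `u` in the closure, then `c` is in the closure.  (Chord iteration
`x ↦ x - u * Φ(x)`; no completeness, no division by `π`, no exact inverse.) -/
theorem hensel_mem_adicClosure {π : B} {S : Subring B} {c c0 : B}
    (hc0 : c0 ∈ adicClosure π S) (hnil : c - c0 ∈ topNilp π)
    (h : ∀ j : ℕ, ∃ (Φ : Polynomial B) (u : B), (∀ n, Φ.coeff n ∈ adicClosure π S) ∧
        u ∈ adicClosure π S ∧ Φ.eval c ∈ Ideal.span {π ^ j} ∧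
        1 - u * Φ.derivative.eval c0 ∈ topNilp π) :
    c ∈ adicClosure π S := by
  refine mem_adicClosure_of_approx fun j => ?_
  obtain ⟨Φ, u, hΦ, hu, hroot, hder⟩ := h j
  set J : Ideal B := Ideal.span {c - c0, 1 - u * Φ.derivative.eval c0} with hJ
  set P : Ideal B := Ideal.span {π ^ j} with hP
  have hJle : J ≤ topNilp π := span_pair_le_topNilp hnil hder
  have hJfg : J.FG := Submodule.fg_span (Set.toFinite _)
  have h1J : c - c0 ∈ J := Ideal.subset_span (by simp)
  have h2J : 1 - u * Φ.derivative.eval c0 ∈ J := Ideal.subset_span (by simp)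
  -- the chord iteration
  let it : ℕ → B := fun n => Nat.rec c0 (fun _ x => x - u * Φ.eval x) n
  have it_succ : ∀ n, it (n + 1) = it n - u * Φ.eval (it n) := fun n => rfl
  have hmem : ∀ n, it n ∈ adicClosure π S := by
    intro n
    induction n with
    | zero => exact hc0
    | succ n ih =>
      rw [it_succ]
      refine Subring.sub_mem _ ih (Subring.mul_mem _ hu ?_)
      rw [Polynomial.eval_eq_sum_range]
      exact Subring.sum_mem _ fun i _ => Subring.mul_mem _ (hΦ i) (Subring.pow_mem _ ih i)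
  have hconv : ∀ n, c - it n ∈ J ^ (n + 1) ⊔ P := by
    intro n
    induction n with
    | zero =>
      simp only [zero_add, pow_one]
      exact Ideal.mem_sup_left h1J
    | succ n ih =>
      obtain ⟨k, hk⟩ := Polynomial.binomExpansion Φ (it n) (c - it n)
      have hcd : it n + (c - it n) = c := by ring
      rw [hcd] at hk
      obtain ⟨m, hm⟩ := Polynomial.sub_dvd_eval_sub c0 (it n) (Polynomial.derivative Φ)
      have e : c - it (n + 1) = (c - it n) * ((1 - u * Φ.derivative.eval c0)
          + u * m * ((c - it n) - (c - c0)) - u * k * (c - it n)) + u * Φ.eval c := by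
        rw [it_succ]
        have h1 : Φ.eval (it n) = Φ.eval c - Φ.derivative.eval (it n) * (c - it n)
            - k * (c - it n) ^ 2 := by rw [hk]; ring
        have h2 : Φ.derivative.eval (it n) = Φ.derivative.eval c0 - (c0 - it n) * m := by
          rw [← hm]; ring
        rw [h1, h2]; ring
      rw [e]
      have hdJ : c - it n ∈ J ⊔ P := pow_succ_sup_le_sup n ih
      refine Ideal.add_mem _ (mul_mem_pow_succ_sup ih ?_)
        (Ideal.mem_sup_right (Ideal.mul_mem_left _ _ hroot))
      exact Ideal.sub_mem _ (Ideal.add_mem _ (Ideal.mem_sup_left h2J)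
        (Ideal.mul_mem_left _ _ (Ideal.sub_mem _ hdJ (Ideal.mem_sup_left h1J))))
        (Ideal.mul_mem_left _ _ hdJ)
  obtain ⟨n, hn⟩ := exists_pow_le_span_pow hJle hJfg j
  refine ⟨it n, hmem n, ?_⟩
  have hle : J ^ (n + 1) ⊔ P ≤ P :=
    sup_le ((Ideal.pow_le_pow_right (Nat.le_succ n)).trans hn) le_rfl
  exact hle (hconv n)

/-- **Hensel roots, one variable** (exact root of one polynomial). -/
theorem hensel_mem_adicClosure' {π : B} {S : Subring B} (Φ : Polynomial B) {c c0 u : B}
    (hΦ : ∀ n, Φ.coeff n ∈ adicClosure π S) (hc0 : c0 ∈ adicClosure π S)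
    (hu : u ∈ adicClosure π S) (hroot : Φ.eval c = 0) (hnil : c - c0 ∈ topNilp π)
    (hder : 1 - u * Φ.derivative.eval c0 ∈ topNilp π) : c ∈ adicClosure π S :=
  hensel_mem_adicClosure hc0 hnil fun _ => ⟨Φ, u, hΦ, hu, by rw [hroot]; exact Ideal.zero_mem _, hder⟩

/-- **Substitution.** A ring homomorphism sending `π` to `π'` and `S` into the closure of `S'`
sends the closure of `S` into the closure of `S'`. -/
theorem map_mem_adicClosure {B' : Type*} [CommRing B'] (φ : B →+* B') {π : B} {π' : B'}
    {S : Subring B} {S' : Subring B'} (hπ : φ π = π')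
    (hS : ∀ g ∈ S, φ g ∈ adicClosure π' S') {f : B} (hf : f ∈ adicClosure π S) :
    φ f ∈ adicClosure π' S' := by
  refine mem_adicClosure_of_approx fun j => ?_
  obtain ⟨g, hg, hfg⟩ := hf j
  refine ⟨φ g, hS g hg, ?_⟩
  obtain ⟨a, ha⟩ := Ideal.mem_span_singleton'.mp hfg
  rw [Ideal.mem_span_singleton']
  exact ⟨φ a, by rw [← map_sub, ← ha, map_mul, map_pow, hπ]⟩

end Core

/-! ## Matrices: determinants, inverses, Cramer -/

section Mat

variable {B : Type*} [CommRing B] {n : Type*} [Fintype n] [DecidableEq n]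

theorem det_mem_of_forall_mem (T : Subring B) (M : Matrix n n B) (hM : ∀ i j, M i j ∈ T) :
    M.det ∈ T := by
  let M₀ : Matrix n n T := fun i j => ⟨M i j, hM i j⟩
  have e : M = T.subtype.mapMatrix M₀ := by ext i j; rfl
  rw [e, ← RingHom.map_det]
  exact (M₀.det).2

theorem adjugate_mem_of_forall_mem (T : Subring B) (M : Matrix n n B) (hM : ∀ i j, M i j ∈ T)
    (i j : n) : M.adjugate i j ∈ T := by
  let M₀ : Matrix n n T := fun i j => ⟨M i j, hM i j⟩
  have e : M = T.subtype.mapMatrix M₀ := by ext i j; rfl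
  rw [e, ← RingHom.map_adjugate]
  exact (M₀.adjugate i j).2

/-- The determinant of a matrix which is the identity modulo an ideal is `1` modulo that ideal. -/
theorem one_sub_det_mem_of_forall_mem (I : Ideal B) (M : Matrix n n B)
    (hM : ∀ i j, (1 - M) i j ∈ I) : 1 - M.det ∈ I := by
  rw [← Ideal.Quotient.eq_zero_iff_mem, map_sub, map_one, RingHom.map_det]
  have e : (Ideal.Quotient.mk I).mapMatrix M = 1 := by
    ext a b
    have h1 := hM a b
    rw [← Ideal.Quotient.eq_zero_iff_mem] at h1
    rw [Matrix.sub_apply, map_sub, sub_eq_zero] at h1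
    rw [RingHom.mapMatrix_apply, Matrix.map_apply, ← h1, Matrix.one_apply, Matrix.one_apply]
    split_ifs <;> simp
  rw [e, Matrix.det_one, sub_self]

/-- **Inverse matrices.** If `M` and an approximate inverse `N` of `M` have entries in the
closure, then any inverse `M'` of `M` has entries in the closure. -/
theorem matrix_inv_mem_adicClosure {π : B} {S : Subring B} (M N M' : Matrix n n B)
    (hM : ∀ i j, M i j ∈ adicClosure π S) (hN : ∀ i j, N i j ∈ adicClosure π S)
    (hMM' : M * M' = 1) (h : ∀ i j, (1 - M * N) i j ∈ topNilp π) (i j : n) :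
    M' i j ∈ adicClosure π S := by
  have hdet : M.det * M'.det = 1 := by rw [← Matrix.det_mul, hMM', Matrix.det_one]
  have hnil : 1 - M.det * N.det ∈ topNilp π := by
    rw [← Matrix.det_mul]
    exact one_sub_det_mem_of_forall_mem _ _ h
  have hdetinv : M'.det ∈ adicClosure π S :=
    inv_mem_adicClosure (det_mem_of_forall_mem _ M hM) (det_mem_of_forall_mem _ N hN) hdet hnil
  have hadj : M.adjugate = M.det • M' := by
    calc M.adjugate = M.adjugate * (M * M') := by rw [hMM', mul_one]
      _ = (M.adjugate * M) * M' := by rw [mul_assoc]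
      _ = M.det • M' := by rw [Matrix.adjugate_mul, Matrix.smul_mul, one_mul]
  have hM' : M' = M'.det • M.adjugate := by
    rw [hadj, smul_smul, mul_comm, hdet, one_smul]
  rw [hM', Matrix.smul_apply, smul_eq_mul]
  exact Subring.mul_mem _ hdetinv (adjugate_mem_of_forall_mem _ M hM i j)

/-- **Cramer.** A solution `x` of `M x = y`, where `M` has entries in the closure and an
approximate inverse `N` with entries in the closure, an exact inverse `M'` in `B`, and `y` has
entries in the closure, has entries in the closure. -/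
theorem cramer_mem_adicClosure {π : B} {S : Subring B} (M N M' : Matrix n n B) (x y : n → B)
    (hM : ∀ i j, M i j ∈ adicClosure π S) (hN : ∀ i j, N i j ∈ adicClosure π S)
    (hMM' : M * M' = 1) (h : ∀ i j, (1 - M * N) i j ∈ topNilp π)
    (hy : ∀ i, y i ∈ adicClosure π S) (hxy : M.mulVec x = y) (i : n) :
    x i ∈ adicClosure π S := by
  have hM'M : M' * M = 1 := mul_eq_one_comm.mp hMM'
  have hx : x = M'.mulVec y := by
    rw [← hxy, Matrix.mulVec_mulVec, hM'M, Matrix.one_mulVec]
  rw [hx, Matrix.mulVec, dotProduct]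
  exact Subring.sum_mem _ fun k _ =>
    Subring.mul_mem _ (matrix_inv_mem_adicClosure M N M' hM hN hMM' h i k) (hy k)

end Mat

/-! ## Hensel roots in several variables -/

section MvHensel

variable {B : Type*} [CommRing B] {σ : Type*} [Fintype σ] [DecidableEq σ]

open MvPolynomial

/-- First-order Taylor expansion of a multivariate polynomial, modulo the square of an ideal
containing the increments. -/
theorem mv_taylor (P : MvPolynomial σ B) (x d : σ → B) (I : Ideal B) (hd : ∀ i, d i ∈ I) :
    eval (x + d) P - eval x P ∈ I ∧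
    eval (x + d) P - eval x P - ∑ i, eval x (pderiv i P) * d i ∈ I ^ 2 := by
  induction P using MvPolynomial.induction_on with
  | C a => simp
  | add p q hp hq =>
    constructor
    · have e : eval (x + d) (p + q) - eval x (p + q)
          = (eval (x + d) p - eval x p) + (eval (x + d) q - eval x q) := by
        simp only [map_add]; ring
      rw [e]; exact I.add_mem hp.1 hq.1
    · have e : eval (x + d) (p + q) - eval x (p + q) - ∑ i, eval x (pderiv i (p + q)) * d i
          = (eval (x + d) p - eval x p - ∑ i, eval x (pderiv i p) * d i)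
            + (eval (x + d) q - eval x q - ∑ i, eval x (pderiv i q) * d i) := by
        simp only [map_add, add_mul, Finset.sum_add_distrib]; ring
      rw [e]; exact Ideal.add_mem _ hp.2 hq.2
  | mul_X p i hp =>
    constructor
    · have e : eval (x + d) (p * X i) - eval x (p * X i)
          = (eval (x + d) p - eval x p) * (x i + d i) + eval x p * d i := by
        simp only [map_mul, MvPolynomial.eval_X, Pi.add_apply]; ring
      rw [e]; exact I.add_mem (I.mul_mem_right _ hp.1) (I.mul_mem_left _ (hd i))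
    · have e : eval (x + d) (p * X i) - eval x (p * X i)
            - ∑ j, eval x (pderiv j (p * X i)) * d j
          = (eval (x + d) p - eval x p - ∑ j, eval x (pderiv j p) * d j) * x i
            + (eval (x + d) p - eval x p) * d i := by
        have h1 : ∀ j, eval x (pderiv j (p * X i)) * d j
            = x i * (eval x (pderiv j p) * d j) + eval x p * (if j = i then d j else 0) := by
          intro j
          rw [Derivation.leibniz, pderiv_X]
          simp only [smul_eq_mul, map_add, map_mul, MvPolynomial.eval_X, Pi.single_apply]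
          split_ifs with h1 h2 h2
          · simp; ring
          · exact absurd h1.symm h2
          · exact absurd h2.symm h1
          · simp; ring
        simp only [h1, Finset.sum_add_distrib, ← Finset.mul_sum, Finset.sum_ite_eq',
          Finset.mem_univ, if_true, map_mul, MvPolynomial.eval_X, Pi.add_apply]
        ring
      rw [e]
      refine Ideal.add_mem _ (Ideal.mul_mem_right _ _ hp.2) ?_
      rw [pow_two]; exact Ideal.mul_mem_mul hp.1 (hd i)

omit [Fintype σ] [DecidableEq σ] in
theorem eval_mem_of_forall_mem (T : Subring B) (P : MvPolynomial σ B)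
    (hP : ∀ m, P.coeff m ∈ T) (x : σ → B) (hx : ∀ i, x i ∈ T) : eval x P ∈ T := by
  rw [MvPolynomial.eval_eq]
  exact Subring.sum_mem _ fun m _ => Subring.mul_mem _ (hP m)
    (Subring.prod_mem _ fun i _ => Subring.pow_mem _ (hx i) _)

/-- **Hensel roots, several variables** (general form).  `c0` has coordinates in the closure and
`c` is congruent to `c0` modulo topologically nilpotent elements.  If for every `j` the point `c`
is a zero modulo `π ^ j` of a system `F` of polynomials with coefficients in the closure, whose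
Jacobian at `c0` has an approximate left inverse `U` with entries in the closure, then the
coordinates of `c` are in the closure. -/
theorem hensel_mv_mem_adicClosure {π : B} {S : Subring B} {c c0 : σ → B}
    (hc0 : ∀ i, c0 i ∈ adicClosure π S) (hnil : ∀ i, c i - c0 i ∈ topNilp π)
    (h : ∀ j : ℕ, ∃ (F : σ → MvPolynomial σ B) (U : Matrix σ σ B),
        (∀ k m, (F k).coeff m ∈ adicClosure π S) ∧ (∀ a b, U a b ∈ adicClosure π S) ∧
        (∀ k, eval c (F k) ∈ Ideal.span {π ^ j}) ∧
        (∀ a b, (if a = b then 1 else 0) - ∑ k, U a k * eval c0 (pderiv b (F k)) ∈ topNilp π)) :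
    ∀ i, c i ∈ adicClosure π S := by
  intro i0
  refine mem_adicClosure_of_approx fun j => ?_
  obtain ⟨F, U, hF, hU, hroot, hder⟩ := h j
  let E : σ → σ → B := fun a b =>
    (if a = b then 1 else 0) - ∑ k, U a k * eval c0 (pderiv b (F k))
  set J : Ideal B := Ideal.span (Set.range (fun i => c i - c0 i) ∪
    Set.range (fun ab : σ × σ => E ab.1 ab.2)) with hJ
  set P : Ideal B := Ideal.span {π ^ j} with hP
  have hJle : J ≤ topNilp π := by
    rw [hJ, Ideal.span_le]
    rintro x (⟨i, rfl⟩ | ⟨ab, rfl⟩)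
    · exact hnil i
    · exact hder ab.1 ab.2
  have hJfg : J.FG := Submodule.fg_span ((Set.finite_range _).union (Set.finite_range _))
  have h1J : ∀ i, c i - c0 i ∈ J := fun i => Ideal.subset_span (Or.inl ⟨i, rfl⟩)
  have h2J : ∀ a b, E a b ∈ J := fun a b => Ideal.subset_span (Or.inr ⟨(a, b), rfl⟩)
  let it : ℕ → (σ → B) := fun n =>
    Nat.rec c0 (fun _ x => fun i => x i - ∑ k, U i k * eval x (F k)) n
  have it_succ : ∀ n i, it (n + 1) i = it n i - ∑ k, U i k * eval (it n) (F k) :=
    fun n i => rfl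
  have hmem : ∀ n i, it n i ∈ adicClosure π S := by
    intro n
    induction n with
    | zero => exact hc0
    | succ n ih =>
      intro i
      rw [it_succ]
      exact Subring.sub_mem _ (ih i) (Subring.sum_mem _ fun k _ =>
        Subring.mul_mem _ (hU i k) (eval_mem_of_forall_mem _ (F k) (hF k) _ ih))
  have hconv : ∀ n i, c i - it n i ∈ J ^ (n + 1) ⊔ P := by
    intro n
    induction n with
    | zero =>
      intro i
      simp only [zero_add, pow_one]
      exact Ideal.mem_sup_left (h1J i)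
    | succ n ih =>
      intro i
      set d : σ → B := fun l => c l - it n l with hd
      have hcd : it n + d = c := by funext l; simp [hd]
      have hdJ : ∀ l, d l ∈ J ⊔ P := fun l => pow_succ_sup_le_sup n (ih l)
      have hT : ∀ k, eval c (F k) - eval (it n) (F k)
          - ∑ l, eval (it n) (pderiv l (F k)) * d l ∈ J ^ (n + 2) ⊔ P := by
        intro k
        have h3 := (mv_taylor (F k) (it n) d (J ^ (n + 1) ⊔ P) ih).2
        rw [hcd] at h3
        have hle : (J ^ (n + 1) ⊔ P) ^ 2 ≤ J ^ (n + 2) ⊔ P := by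
          rw [pow_two, Ideal.mul_le]
          intro a ha b hb
          exact mul_mem_pow_succ_sup ha (pow_succ_sup_le_sup n hb)
        exact hle h3
      have hD : ∀ k l, eval c0 (pderiv l (F k)) - eval (it n) (pderiv l (F k)) ∈ J ⊔ P := by
        intro k l
        have h3 : ∀ l', (c0 - it n) l' ∈ J ⊔ P := by
          intro l'
          have e : (c0 - it n) l' = d l' - (c l' - c0 l') := by simp [hd]
          rw [e]
          exact Ideal.sub_mem _ (hdJ l') (Ideal.mem_sup_left (h1J l'))
        have h4 := (mv_taylor (pderiv l (F k)) (it n) (c0 - it n) (J ⊔ P) h3).1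
        have e2 : it n + (c0 - it n) = c0 := by funext l'; simp
        rwa [e2] at h4
      have e : c i - it (n + 1) i
          = ∑ l, (E i l + ∑ k, U i k *
                (eval c0 (pderiv l (F k)) - eval (it n) (pderiv l (F k)))) * d l
            + ∑ k, U i k * eval c (F k)
            - ∑ k, U i k * (eval c (F k) - eval (it n) (F k)
                - ∑ l, eval (it n) (pderiv l (F k)) * d l) := by
        rw [it_succ]
        have hE : ∀ l, E i l + ∑ k, U i k *
              (eval c0 (pderiv l (F k)) - eval (it n) (pderiv l (F k)))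
            = (if i = l then 1 else 0) - ∑ k, U i k * eval (it n) (pderiv l (F k)) := by
          intro l
          simp only [E, mul_sub, Finset.sum_sub_distrib]; ring
        have s1 : ∑ l, (E i l + ∑ k, U i k *
              (eval c0 (pderiv l (F k)) - eval (it n) (pderiv l (F k)))) * d l
            = d i - ∑ l, ∑ k, U i k * eval (it n) (pderiv l (F k)) * d l := by
          rw [Finset.sum_congr rfl (fun l _ => by rw [hE l])]
          simp only [sub_mul, Finset.sum_sub_distrib, ite_mul, one_mul, zero_mul,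
            Finset.sum_ite_eq, Finset.mem_univ, if_true, Finset.sum_mul]
        have s2 : ∑ k, U i k * (eval c (F k) - eval (it n) (F k)
              - ∑ l, eval (it n) (pderiv l (F k)) * d l)
            = ∑ k, U i k * eval c (F k) - ∑ k, U i k * eval (it n) (F k)
              - ∑ l, ∑ k, U i k * eval (it n) (pderiv l (F k)) * d l := by
          simp only [mul_sub, Finset.sum_sub_distrib, Finset.mul_sum]
          rw [Finset.sum_comm]
          simp only [mul_assoc]
        rw [s1, s2]
        simp only [hd]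
        ring
      rw [e]
      refine Ideal.sub_mem _ (Ideal.add_mem _ (Ideal.sum_mem _ fun l _ => ?_)
        (Ideal.sum_mem _ fun k _ => Ideal.mem_sup_right (Ideal.mul_mem_left _ _ (hroot k))))
        (Ideal.sum_mem _ fun k _ => Ideal.mul_mem_left _ _ (hT k))
      rw [mul_comm]
      refine mul_mem_pow_succ_sup (ih l) ?_
      exact Ideal.add_mem _ (Ideal.mem_sup_left (h2J i l))
        (Ideal.sum_mem _ fun k _ => Ideal.mul_mem_left _ _ (hD k l))
  obtain ⟨n, hn⟩ := exists_pow_le_span_pow hJle hJfg j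
  refine ⟨it n i0, hmem n i0, ?_⟩
  have hle : J ^ (n + 1) ⊔ P ≤ P :=
    sup_le ((Ideal.pow_le_pow_right (Nat.le_succ n)).trans hn) le_rfl
  exact hle (hconv n i0)

end MvHensel

/-! ## Function form

`Ω` is a commutative ring (in the applications `ℚ̄`), `A` a subring (a valuation ring), `R₀ ≤ A`
a subring of constants (the inertia-fixed elements), `π ∈ A`.  For a set `X` with coordinate
functions `ξ i : α → Ω` which are `A`-valued on `X`, a function `F` is *analytic on `X`* if for
every `j` it is congruent modulo `π ^ j • A`, uniformly on `X`, to ONE polynomial over `R₀` in the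
coordinates. -/

section Functions

variable {Ω : Type*} [CommRing Ω] {α : Type*} {ι : Type*}

/-- `F` is, on `X`, a uniform `π`-adic limit of polynomials over `R₀` in the coordinates `ξ`. -/
def IsAnalyticOn (A R₀ : Subring Ω) (π : Ω) (X : Set α) (ξ : ι → α → Ω) (F : α → Ω) : Prop :=
  ∀ j : ℕ, ∃ P : MvPolynomial ι R₀, ∀ x ∈ X, ∃ w ∈ A,
    F x - MvPolynomial.aeval (fun i => ξ i x) P = π ^ j * w

/-- `t` is uniformly topologically nilpotent on `X`: one power of `t` is divisible by `π` in `A`
at all points of `X`. -/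
def IsTopNilpOn (A : Subring Ω) (π : Ω) (X : Set α) (t : α → Ω) : Prop :=
  ∃ N : ℕ, ∀ x ∈ X, ∃ w ∈ A, t x ^ N = π * w

/-- The standing hypotheses of the function calculus. -/
structure AnalyticSetup (A R₀ : Subring Ω) (π : Ω) (X : Set α) (ξ : ι → α → Ω) : Prop where
  pi_mem : π ∈ A
  le : R₀ ≤ A
  coord_mem : ∀ i, ∀ x ∈ X, ξ i x ∈ A

variable {A R₀ : Subring Ω} {π : Ω} {X : Set α} {ξ : ι → α → Ω}

/-- The constant function `π` in the ring of `A`-valued functions on `X`. -/
def piB (hs : AnalyticSetup A R₀ π X ξ) : X → A := fun _ => ⟨π, hs.pi_mem⟩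

/-- Evaluation of polynomials over `R₀` at the coordinates, as a ring homomorphism into the ring
of `A`-valued functions on `X`. -/
noncomputable def polyHom (hs : AnalyticSetup A R₀ π X ξ) : MvPolynomial ι R₀ →+* (X → A) :=
  RingHom.pi fun x => MvPolynomial.eval₂Hom (Subring.inclusion hs.le)
    (fun i => ⟨ξ i x, hs.coord_mem i x x.2⟩)

theorem coe_polyHom (hs : AnalyticSetup A R₀ π X ξ) (P : MvPolynomial ι R₀) (x : X) :
    ((polyHom hs P x : A) : Ω) = MvPolynomial.aeval (fun i => ξ i x) P := by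
  change A.subtype (MvPolynomial.eval₂ _ _ P) = _
  rw [MvPolynomial.hom_eval₂, MvPolynomial.aeval_def]
  rfl

theorem mem_span_piB_pow (hs : AnalyticSetup A R₀ π X ξ) (f : X → A) (j : ℕ) :
    f ∈ Ideal.span {piB hs ^ j} ↔ ∀ x : X, ∃ w ∈ A, (f x : Ω) = π ^ j * w := by
  rw [Ideal.mem_span_singleton']
  constructor
  · rintro ⟨a, rfl⟩ x
    exact ⟨a x, (a x).2, by simp [piB, mul_comm]⟩
  · intro h
    choose w hw hfw using h
    refine ⟨fun x => ⟨w x, hw x⟩, ?_⟩
    funext x
    apply Subtype.ext
    simp [piB, hfw x, mul_comm]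

theorem mem_topNilp_piB (hs : AnalyticSetup A R₀ π X ξ) (f : X → A) :
    f ∈ topNilp (piB hs) ↔ ∃ N : ℕ, ∀ x : X, ∃ w ∈ A, (f x : Ω) ^ N = π * w := by
  rw [mem_topNilp]
  refine exists_congr fun N => ?_
  have h := mem_span_piB_pow hs (f ^ N) 1
  rw [pow_one] at h
  rw [h]
  simp

/-- Analytic functions are `A`-valued on `X`. -/
theorem IsAnalyticOn.mem (hs : AnalyticSetup A R₀ π X ξ) {F : α → Ω}
    (h : IsAnalyticOn A R₀ π X ξ F) : ∀ x ∈ X, F x ∈ A := by
  intro x hx
  obtain ⟨P, hP⟩ := h 0
  obtain ⟨w, hw, e⟩ := hP x hx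
  have e2 : F x = MvPolynomial.aeval (fun i => ξ i x) P + w := by
    rw [pow_zero, one_mul] at e; rw [← e]; ring
  rw [e2]
  refine A.add_mem ?_ hw
  rw [← coe_polyHom hs P ⟨x, hx⟩]
  exact (polyHom hs P ⟨x, hx⟩).2

/-- From the function form to the abstract closure. -/
theorem IsAnalyticOn.exists_rep (hs : AnalyticSetup A R₀ π X ξ) {F : α → Ω}
    (h : IsAnalyticOn A R₀ π X ξ F) :
    ∃ f : X → A, f ∈ adicClosure (piB hs) (polyHom hs).range ∧ ∀ x : X, (f x : Ω) = F x := by
  refine ⟨fun x => ⟨F x, h.mem hs x x.2⟩, fun j => ?_, fun x => rfl⟩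
  obtain ⟨P, hP⟩ := h j
  refine ⟨polyHom hs P, ⟨P, rfl⟩, ?_⟩
  rw [mem_span_piB_pow]
  intro x
  obtain ⟨w, hw, e⟩ := hP x x.2
  refine ⟨w, hw, ?_⟩
  rw [← e, ← coe_polyHom hs P x]
  rfl

/-- From the abstract closure to the function form. -/
theorem IsAnalyticOn.of_rep (hs : AnalyticSetup A R₀ π X ξ) {F : α → Ω} {f : X → A}
    (hf : f ∈ adicClosure (piB hs) (polyHom hs).range) (hrep : ∀ x : X, (f x : Ω) = F x) :
    IsAnalyticOn A R₀ π X ξ F := by
  intro j
  obtain ⟨g, ⟨P, rfl⟩, hfg⟩ := hf j
  rw [mem_span_piB_pow] at hfg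
  refine ⟨P, fun x hx => ?_⟩
  obtain ⟨w, hw, e⟩ := hfg ⟨x, hx⟩
  refine ⟨w, hw, ?_⟩
  rw [← e, ← coe_polyHom hs P ⟨x, hx⟩, ← hrep ⟨x, hx⟩]
  rfl

theorem IsAnalyticOn.congr {F G : α → Ω} (h : IsAnalyticOn A R₀ π X ξ F)
    (hFG : ∀ x ∈ X, F x = G x) : IsAnalyticOn A R₀ π X ξ G := by
  intro j
  obtain ⟨P, hP⟩ := h j
  exact ⟨P, fun x hx => by rw [← hFG x hx]; exact hP x hx⟩

theorem IsAnalyticOn.mono {F : α → Ω} {Y : Set α} (h : IsAnalyticOn A R₀ π X ξ F)
    (hYX : Y ⊆ X) : IsAnalyticOn A R₀ π Y ξ F := by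
  intro j
  obtain ⟨P, hP⟩ := h j
  exact ⟨P, fun x hx => hP x (hYX hx)⟩

/-- Constants of `R₀` are analytic. -/
theorem isAnalyticOn_const (A : Subring Ω) {R₀ : Subring Ω} (π : Ω) (X : Set α)
    (ξ : ι → α → Ω) {c : Ω} (hc : c ∈ R₀) : IsAnalyticOn A R₀ π X ξ (fun _ => c) := by
  intro j
  refine ⟨MvPolynomial.C ⟨c, hc⟩, fun x _ => ⟨0, A.zero_mem, ?_⟩⟩
  rw [MvPolynomial.aeval_C, mul_zero, sub_eq_zero]
  rfl

/-- The coordinates are analytic. -/
theorem isAnalyticOn_coord (A R₀ : Subring Ω) (π : Ω) (X : Set α) (ξ : ι → α → Ω) (i : ι) :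
    IsAnalyticOn A R₀ π X ξ (ξ i) := by
  intro j
  refine ⟨MvPolynomial.X i, fun x _ => ⟨0, A.zero_mem, ?_⟩⟩
  rw [MvPolynomial.aeval_X, mul_zero, sub_self]

theorem IsAnalyticOn.add (hs : AnalyticSetup A R₀ π X ξ) {F G : α → Ω}
    (hF : IsAnalyticOn A R₀ π X ξ F) (hG : IsAnalyticOn A R₀ π X ξ G) :
    IsAnalyticOn A R₀ π X ξ (fun x => F x + G x) := by
  obtain ⟨f, hf, hfF⟩ := hF.exists_rep hs
  obtain ⟨g, hg, hgG⟩ := hG.exists_rep hs
  refine IsAnalyticOn.of_rep hs (Subring.add_mem _ hf hg) fun x => ?_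
  simp [hfF x, hgG x]

theorem IsAnalyticOn.neg (hs : AnalyticSetup A R₀ π X ξ) {F : α → Ω}
    (hF : IsAnalyticOn A R₀ π X ξ F) : IsAnalyticOn A R₀ π X ξ (fun x => - F x) := by
  obtain ⟨f, hf, hfF⟩ := hF.exists_rep hs
  refine IsAnalyticOn.of_rep hs (Subring.neg_mem _ hf) fun x => ?_
  simp [hfF x]

theorem IsAnalyticOn.sub (hs : AnalyticSetup A R₀ π X ξ) {F G : α → Ω}
    (hF : IsAnalyticOn A R₀ π X ξ F) (hG : IsAnalyticOn A R₀ π X ξ G) :
    IsAnalyticOn A R₀ π X ξ (fun x => F x - G x) := by
  obtain ⟨f, hf, hfF⟩ := hF.exists_rep hs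
  obtain ⟨g, hg, hgG⟩ := hG.exists_rep hs
  refine IsAnalyticOn.of_rep hs (Subring.sub_mem _ hf hg) fun x => ?_
  simp [hfF x, hgG x]

theorem IsAnalyticOn.mul (hs : AnalyticSetup A R₀ π X ξ) {F G : α → Ω}
    (hF : IsAnalyticOn A R₀ π X ξ F) (hG : IsAnalyticOn A R₀ π X ξ G) :
    IsAnalyticOn A R₀ π X ξ (fun x => F x * G x) := by
  obtain ⟨f, hf, hfF⟩ := hF.exists_rep hs
  obtain ⟨g, hg, hgG⟩ := hG.exists_rep hs
  refine IsAnalyticOn.of_rep hs (Subring.mul_mem _ hf hg) fun x => ?_
  simp [hfF x, hgG x]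

theorem IsAnalyticOn.pow (hs : AnalyticSetup A R₀ π X ξ) {F : α → Ω}
    (hF : IsAnalyticOn A R₀ π X ξ F) (n : ℕ) :
    IsAnalyticOn A R₀ π X ξ (fun x => F x ^ n) := by
  obtain ⟨f, hf, hfF⟩ := hF.exists_rep hs
  refine IsAnalyticOn.of_rep hs (Subring.pow_mem _ hf n) fun x => ?_
  simp [hfF x]

theorem IsAnalyticOn.sum (hs : AnalyticSetup A R₀ π X ξ) {κ : Type*} (s : Finset κ)
    {F : κ → α → Ω} (hF : ∀ k ∈ s, IsAnalyticOn A R₀ π X ξ (F k)) :
    IsAnalyticOn A R₀ π X ξ (fun x => ∑ k ∈ s, F k x) := by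
  classical
  induction s using Finset.induction_on with
  | empty =>
    simp only [Finset.sum_empty]
    exact isAnalyticOn_const A π X ξ R₀.zero_mem
  | insert a s ha ih =>
    simp only [Finset.sum_insert ha]
    exact (hF a (Finset.mem_insert_self a s)).add hs
      (ih fun k hk => hF k (Finset.mem_insert_of_mem hk))

theorem IsAnalyticOn.prod (hs : AnalyticSetup A R₀ π X ξ) {κ : Type*} (s : Finset κ)
    {F : κ → α → Ω} (hF : ∀ k ∈ s, IsAnalyticOn A R₀ π X ξ (F k)) :
    IsAnalyticOn A R₀ π X ξ (fun x => ∏ k ∈ s, F k x) := by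
  classical
  induction s using Finset.induction_on with
  | empty =>
    simp only [Finset.prod_empty]
    exact isAnalyticOn_const A π X ξ R₀.one_mem
  | insert a s ha ih =>
    simp only [Finset.prod_insert ha]
    exact (hF a (Finset.mem_insert_self a s)).mul hs
      (ih fun k hk => hF k (Finset.mem_insert_of_mem hk))

/-- **Uniform limits** of analytic functions are analytic. -/
theorem IsAnalyticOn.of_approx {F : α → Ω}
    (h : ∀ j : ℕ, ∃ G : α → Ω, IsAnalyticOn A R₀ π X ξ G ∧
      ∀ x ∈ X, ∃ w ∈ A, F x - G x = π ^ j * w) : IsAnalyticOn A R₀ π X ξ F := by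
  intro j
  obtain ⟨G, hG, hFG⟩ := h j
  obtain ⟨P, hP⟩ := hG j
  refine ⟨P, fun x hx => ?_⟩
  obtain ⟨w, hw, e⟩ := hFG x hx
  obtain ⟨w', hw', e'⟩ := hP x hx
  refine ⟨w + w', A.add_mem hw hw', ?_⟩
  rw [mul_add, ← e, ← e']; ring

/-- Polynomials over `R₀` in analytic functions are analytic. -/
theorem IsAnalyticOn.aeval (hs : AnalyticSetup A R₀ π X ξ) {κ : Type*} (Q : MvPolynomial κ R₀)
    {G : κ → α → Ω} (hG : ∀ k, IsAnalyticOn A R₀ π X ξ (G k)) :
    IsAnalyticOn A R₀ π X ξ (fun x => MvPolynomial.aeval (fun k => G k x) Q) := by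
  induction Q using MvPolynomial.induction_on with
  | C a =>
    simp only [MvPolynomial.aeval_C]
    exact isAnalyticOn_const A π X ξ a.2
  | add p q hp hq =>
    simp only [map_add]
    exact hp.add hs hq
  | mul_X p k hp =>
    simp only [map_mul, MvPolynomial.aeval_X]
    exact hp.mul hs (hG k)

/-- **Composition.** If `G` is analytic on `Y` in the coordinates `η`, `φ` maps `X` into `Y` and
the pulled-back coordinates `η k ∘ φ` are analytic on `X`, then `G ∘ φ` is analytic on `X`. -/
theorem IsAnalyticOn.comp (hs : AnalyticSetup A R₀ π X ξ) {β κ : Type*} {Y : Set β}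
    {η : κ → β → Ω} {G : β → Ω} (hG : IsAnalyticOn A R₀ π Y η G) (φ : α → β)
    (hφ : Set.MapsTo φ X Y) (hη : ∀ k, IsAnalyticOn A R₀ π X ξ (fun x => η k (φ x))) :
    IsAnalyticOn A R₀ π X ξ (fun x => G (φ x)) := by
  refine IsAnalyticOn.of_approx fun j => ?_
  obtain ⟨Q, hQ⟩ := hG j
  exact ⟨fun x => MvPolynomial.aeval (fun k => η k (φ x)) Q, IsAnalyticOn.aeval hs Q hη,
    fun x hx => hQ (φ x) (hφ hx)⟩

/-! ### Topologically nilpotent functions -/

theorem isTopNilpOn_pi (A : Subring Ω) (π : Ω) (X : Set α) : IsTopNilpOn A π X (fun _ => π) :=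
  ⟨1, fun _ _ => ⟨1, A.one_mem, by simp⟩⟩

/-- Representing an `A`-valued function in the function ring. -/
theorem isTopNilpOn_iff_rep (hs : AnalyticSetup A R₀ π X ξ) {t : α → Ω} {f : X → A}
    (hrep : ∀ x : X, (f x : Ω) = t x) : IsTopNilpOn A π X t ↔ f ∈ topNilp (piB hs) := by
  rw [mem_topNilp_piB]
  refine exists_congr fun N => ⟨fun h x => ?_, fun h x hx => ?_⟩
  · rw [hrep x]; exact h x x.2
  · rw [← hrep ⟨x, hx⟩]; exact h ⟨x, hx⟩

theorem IsTopNilpOn.add (hs : AnalyticSetup A R₀ π X ξ) {s t : α → Ω}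
    (hsA : ∀ x ∈ X, s x ∈ A) (htA : ∀ x ∈ X, t x ∈ A)
    (hsn : IsTopNilpOn A π X s) (htn : IsTopNilpOn A π X t) :
    IsTopNilpOn A π X (fun x => s x + t x) := by
  have h1 := (isTopNilpOn_iff_rep hs (f := fun x => ⟨s x, hsA x x.2⟩) (fun _ => rfl)).mp hsn
  have h2 := (isTopNilpOn_iff_rep hs (f := fun x => ⟨t x, htA x x.2⟩) (fun _ => rfl)).mp htn
  exact (isTopNilpOn_iff_rep hs (fun _ => rfl)).mpr (Ideal.add_mem _ h1 h2)

theorem IsTopNilpOn.mul_left {t g : α → Ω} (hg : ∀ x ∈ X, g x ∈ A)
    (htn : IsTopNilpOn A π X t) : IsTopNilpOn A π X (fun x => g x * t x) := by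
  obtain ⟨N, hN⟩ := htn
  refine ⟨N, fun x hx => ?_⟩
  obtain ⟨w, hw, e⟩ := hN x hx
  exact ⟨g x ^ N * w, A.mul_mem (A.pow_mem (hg x hx) N) hw, by rw [mul_pow, e]; ring⟩

theorem IsTopNilpOn.neg {t : α → Ω} (htn : IsTopNilpOn A π X t) :
    IsTopNilpOn A π X (fun x => - t x) := by
  have h := htn.mul_left (g := fun _ => -1) (fun _ _ => A.neg_mem A.one_mem)
  simpa using h

theorem IsTopNilpOn.sub (hs : AnalyticSetup A R₀ π X ξ) {s t : α → Ω}
    (hsA : ∀ x ∈ X, s x ∈ A) (htA : ∀ x ∈ X, t x ∈ A)
    (hsn : IsTopNilpOn A π X s) (htn : IsTopNilpOn A π X t) :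
    IsTopNilpOn A π X (fun x => s x - t x) := by
  have h := IsTopNilpOn.add hs hsA (fun x hx => A.neg_mem (htA x hx)) hsn htn.neg
  simpa [sub_eq_add_neg] using h

theorem IsTopNilpOn.congr {s t : α → Ω} (hsn : IsTopNilpOn A π X s)
    (hst : ∀ x ∈ X, s x = t x) : IsTopNilpOn A π X t := by
  obtain ⟨N, hN⟩ := hsn
  exact ⟨N, fun x hx => by rw [← hst x hx]; exact hN x hx⟩

/-- On a finite set, pointwise topological nilpotence is uniform. -/
theorem isTopNilpOn_of_finite (hX : X.Finite) {t : α → Ω} (htA : ∀ x ∈ X, t x ∈ A)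
    (h : ∀ x ∈ X, ∃ N : ℕ, ∃ w ∈ A, t x ^ N = π * w) : IsTopNilpOn A π X t := by
  classical
  choose! N w hw hN using h
  refine ⟨hX.toFinset.sup N, fun x hx => ?_⟩
  have hle : N x ≤ hX.toFinset.sup N := Finset.le_sup (f := N) (hX.mem_toFinset.mpr hx)
  obtain ⟨d, hd⟩ := Nat.exists_eq_add_of_le hle
  refine ⟨w x * t x ^ d, A.mul_mem (hw x hx) (A.pow_mem (htA x hx) d), ?_⟩
  rw [hd, pow_add, hN x hx]; ring

/-- **Power series** in a topologically nilpotent analytic function, with analytic coefficients. -/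
theorem IsAnalyticOn.series (hs : AnalyticSetup A R₀ π X ξ) {F t : α → Ω} (η : ℕ → α → Ω)
    (ht : IsAnalyticOn A R₀ π X ξ t) (htn : IsTopNilpOn A π X t)
    (hη : ∀ m, IsAnalyticOn A R₀ π X ξ (η m))
    (h : ∀ n : ℕ, ∀ x ∈ X, ∃ w ∈ A, F x - ∑ m ∈ Finset.range n, η m x * t x ^ m = t x ^ n * w) :
    IsAnalyticOn A R₀ π X ξ F := by
  obtain ⟨N, hN⟩ := htn
  refine IsAnalyticOn.of_approx fun j => ⟨fun x => ∑ m ∈ Finset.range (N * j), η m x * t x ^ m,
    IsAnalyticOn.sum hs _ fun m _ => (hη m).mul hs (ht.pow hs m), fun x hx => ?_⟩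
  obtain ⟨w, hw, e⟩ := h (N * j) x hx
  obtain ⟨w', hw', e'⟩ := hN x hx
  refine ⟨w' ^ j * w, A.mul_mem (A.pow_mem hw' j) hw, ?_⟩
  rw [e, pow_mul, e']; ring

/-- **Inverses.** If `F` and an approximate inverse `G` are analytic, then an `A`-valued inverse
`F'` of `F` is analytic. -/
theorem IsAnalyticOn.inv (hs : AnalyticSetup A R₀ π X ξ) {F G F' : α → Ω}
    (hF : IsAnalyticOn A R₀ π X ξ F) (hG : IsAnalyticOn A R₀ π X ξ G)
    (hF' : ∀ x ∈ X, F' x ∈ A) (hFF' : ∀ x ∈ X, F x * F' x = 1)
    (h : IsTopNilpOn A π X (fun x => 1 - F x * G x)) : IsAnalyticOn A R₀ π X ξ F' := by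
  obtain ⟨f, hf, hfF⟩ := hF.exists_rep hs
  obtain ⟨g, hg, hgG⟩ := hG.exists_rep hs
  refine IsAnalyticOn.of_rep hs (f := fun x => ⟨F' x, hF' x x.2⟩)
    (inv_mem_adicClosure hf hg ?_ ?_) fun _ => rfl
  · funext x
    apply Subtype.ext
    simp [hfF x, hFF' x x.2]
  · refine (isTopNilpOn_iff_rep hs fun x => ?_).mp h
    simp [hfF x, hgG x]

/-- Evaluation at a point of `X`, from the ring of `A`-valued functions to `Ω`. -/
def evalAt (A : Subring Ω) (X : Set α) (x : X) : (X → A) →+* Ω :=
  A.subtype.comp (Pi.evalRingHom (fun _ : X => A) x)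

theorem evalAt_apply (x : X) (f : X → A) : evalAt A X x f = (f x : Ω) := rfl

theorem coe_eval_fun (x : X) (Ψ : Polynomial (X → A)) (b : X → A) :
    ((Ψ.eval b x : A) : Ω) = (Ψ.map (evalAt A X x)).eval (b x : Ω) := by
  rw [Polynomial.eval_map]
  exact (Polynomial.eval₂_at_apply (evalAt A X x) b).symm

/-- **Hensel roots, one variable, function form.**  `Φ x` is a polynomial of bounded degree whose
coefficients are analytic functions of `x`; `c x` is an `A`-valued root of `Φ x`, congruent to an
analytic `c0 x` modulo topologically nilpotent elements; `u` is an analytic approximate inverse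
of `Φ x'(c0 x)`.  Then `c` is analytic. -/
theorem IsAnalyticOn.hensel (hs : AnalyticSetup A R₀ π X ξ) (Φ : α → Polynomial Ω) (deg : ℕ)
    (hdeg : ∀ x ∈ X, (Φ x).natDegree ≤ deg)
    (hΦ : ∀ k, IsAnalyticOn A R₀ π X ξ (fun x => (Φ x).coeff k))
    {c c0 u : α → Ω} (hc : ∀ x ∈ X, c x ∈ A) (hc0 : IsAnalyticOn A R₀ π X ξ c0)
    (hu : IsAnalyticOn A R₀ π X ξ u)
    (hroot : ∀ x ∈ X, (Φ x).eval (c x) = 0)
    (hnil : IsTopNilpOn A π X (fun x => c x - c0 x))
    (hder : IsTopNilpOn A π X (fun x => 1 - u x * (Φ x).derivative.eval (c0 x))) :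
    IsAnalyticOn A R₀ π X ξ c := by
  classical
  choose φ hφ hφrep using fun k => (hΦ k).exists_rep hs
  obtain ⟨g0, hg0, hg0rep⟩ := hc0.exists_rep hs
  obtain ⟨gu, hgu, hgurep⟩ := hu.exists_rep hs
  let ΦB : Polynomial (X → A) :=
    ∑ k ∈ Finset.range (deg + 1), Polynomial.C (φ k) * Polynomial.X ^ k
  have hcoeff : ∀ n, ΦB.coeff n = if n < deg + 1 then φ n else 0 := by
    intro n
    simp only [ΦB, Polynomial.finsetSum_coeff, Polynomial.coeff_C_mul_X_pow]
    rw [Finset.sum_ite_eq]
    simp
  have hmap : ∀ x : X, ΦB.map (evalAt A X x) = Φ x := by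
    intro x
    ext n
    rw [Polynomial.coeff_map, hcoeff]
    split_ifs with hn
    · rw [evalAt_apply, hφrep n x]
    · rw [map_zero]
      exact (Polynomial.coeff_eq_zero_of_natDegree_lt
        (lt_of_le_of_lt (hdeg x x.2) (by omega))).symm
  refine IsAnalyticOn.of_rep hs (f := fun x => ⟨c x, hc x x.2⟩)
    (hensel_mem_adicClosure' ΦB (c0 := g0) (u := gu) ?_ hg0 hgu ?_ ?_ ?_) fun _ => rfl
  · intro n
    rw [hcoeff]
    split_ifs
    · exact hφ n
    · exact Subring.zero_mem _
  · funext x
    apply Subtype.ext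
    rw [coe_eval_fun, hmap]
    exact hroot x x.2
  · refine (isTopNilpOn_iff_rep hs fun x => ?_).mp hnil
    simp [hg0rep x]
  · refine (isTopNilpOn_iff_rep hs fun x => ?_).mp hder
    have e : ((Polynomial.eval g0 (Polynomial.derivative ΦB) x : A) : Ω)
        = (Φ x).derivative.eval (c0 x) := by
      rw [coe_eval_fun, ← Polynomial.derivative_map, hmap, hg0rep]
    simp [hgurep x, e]

/-- **Inverse matrices, function form.** -/
theorem IsAnalyticOn.matrix_inv (hs : AnalyticSetup A R₀ π X ξ) {n : Type*} [Fintype n]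
    [DecidableEq n] {M N M' : α → Matrix n n Ω}
    (hM : ∀ a b, IsAnalyticOn A R₀ π X ξ (fun x => M x a b))
    (hN : ∀ a b, IsAnalyticOn A R₀ π X ξ (fun x => N x a b))
    (hM'A : ∀ x ∈ X, ∀ a b, M' x a b ∈ A) (hMM' : ∀ x ∈ X, M x * M' x = 1)
    (h : ∀ a b, IsTopNilpOn A π X (fun x => (1 - M x * N x) a b)) (a b : n) :
    IsAnalyticOn A R₀ π X ξ (fun x => M' x a b) := by
  choose m hm hmrep using fun a b => (hM a b).exists_rep hs
  choose nn hnn hnnrep using fun a b => (hN a b).exists_rep hs
  let MB : Matrix n n (X → A) := Matrix.of m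
  let NB : Matrix n n (X → A) := Matrix.of nn
  let MB' : Matrix n n (X → A) := Matrix.of fun a b x => ⟨M' x a b, hM'A x x.2 a b⟩
  refine IsAnalyticOn.of_rep hs (f := MB' a b)
    (matrix_inv_mem_adicClosure MB NB MB' hm hnn ?_ ?_ a b) fun _ => rfl
  · ext a' b' x
    have e1 : ∀ a b, evalAt A X x (MB a b) = M x a b := fun a b => hmrep a b x
    have e2 : ∀ a b, evalAt A X x (MB' a b) = M' x a b := fun a b => rfl
    have e := congrFun (congrFun (hMM' x x.2) a') b'
    rw [Matrix.mul_apply] at e
    change evalAt A X x ((MB * MB') a' b') = evalAt A X x ((1 : Matrix n n (X → A)) a' b')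
    simp only [Matrix.mul_apply, map_sum, map_mul, e1, e2, e, Matrix.one_apply]
    split_ifs <;> simp
  · intro a' b'
    refine (isTopNilpOn_iff_rep hs fun x => ?_).mp (h a' b')
    have e1 : ∀ a b, evalAt A X x (MB a b) = M x a b := fun a b => hmrep a b x
    have e2 : ∀ a b, evalAt A X x (NB a b) = N x a b := fun a b => hnnrep a b x
    change evalAt A X x ((1 - MB * NB) a' b') = _
    simp only [Matrix.sub_apply, Matrix.mul_apply, map_sub, map_sum, map_mul, e1, e2,
      Matrix.one_apply]
    congr 1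
    split_ifs <;> simp

/-- **Cramer, function form.** -/
theorem IsAnalyticOn.cramer (hs : AnalyticSetup A R₀ π X ξ) {n : Type*} [Fintype n]
    [DecidableEq n] {M N M' : α → Matrix n n Ω} {v y : α → n → Ω}
    (hM : ∀ a b, IsAnalyticOn A R₀ π X ξ (fun x => M x a b))
    (hN : ∀ a b, IsAnalyticOn A R₀ π X ξ (fun x => N x a b))
    (hM'A : ∀ x ∈ X, ∀ a b, M' x a b ∈ A) (hMM' : ∀ x ∈ X, M x * M' x = 1)
    (h : ∀ a b, IsTopNilpOn A π X (fun x => (1 - M x * N x) a b))
    (hy : ∀ a, IsAnalyticOn A R₀ π X ξ (fun x => y x a))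
    (hvy : ∀ x ∈ X, (M x).mulVec (v x) = y x) (a : n) :
    IsAnalyticOn A R₀ π X ξ (fun x => v x a) := by
  have h1 : IsAnalyticOn A R₀ π X ξ (fun x => ∑ b, M' x a b * y x b) :=
    IsAnalyticOn.sum hs _ fun b _ =>
      (IsAnalyticOn.matrix_inv hs hM hN hM'A hMM' h a b).mul hs (hy b)
  refine h1.congr fun x hx => ?_
  have hM'M : M' x * M x = 1 := mul_eq_one_comm.mp (hMM' x hx)
  have e : v x = (M' x).mulVec (y x) := by
    rw [← hvy x hx, Matrix.mulVec_mulVec, hM'M, Matrix.one_mulVec]
  rw [e]
  rfl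

theorem evalAt_mvEval (x : X) {σ : Type*} (P : MvPolynomial σ (X → A)) (b : σ → X → A) :
    evalAt A X x (MvPolynomial.eval b P)
      = MvPolynomial.eval (fun i => (b i x : Ω)) (MvPolynomial.map (evalAt A X x) P) := by
  rw [MvPolynomial.eval_map, MvPolynomial.eval₂_comp]
  rfl

/-- **Hensel roots, several variables, function form.**  `F x k` (`k : σ`) is a system of
polynomials in the variables `σ` with monomials in a fixed finite set `T` and coefficients which
are analytic functions of `x`; `c x` is an `A`-valued zero of the system, congruent to an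
analytic `c0 x` modulo topologically nilpotent elements; `U x` is an analytic approximate left
inverse of the Jacobian at `c0 x`.  Then the coordinates of `c` are analytic. -/
theorem IsAnalyticOn.hensel_mv (hs : AnalyticSetup A R₀ π X ξ) {σ : Type*} [Fintype σ]
    [DecidableEq σ] (F : α → σ → MvPolynomial σ Ω) (T : Finset (σ →₀ ℕ))
    (hT : ∀ x ∈ X, ∀ k, (F x k).support ⊆ T)
    (hF : ∀ k m, IsAnalyticOn A R₀ π X ξ (fun x => (F x k).coeff m))
    {U : α → Matrix σ σ Ω} (hU : ∀ a b, IsAnalyticOn A R₀ π X ξ (fun x => U x a b))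
    {c c0 : α → σ → Ω} (hc : ∀ x ∈ X, ∀ i, c x i ∈ A)
    (hc0 : ∀ i, IsAnalyticOn A R₀ π X ξ (fun x => c0 x i))
    (hroot : ∀ x ∈ X, ∀ k, MvPolynomial.eval (c x) (F x k) = 0)
    (hnil : ∀ i, IsTopNilpOn A π X (fun x => c x i - c0 x i))
    (hder : ∀ a b, IsTopNilpOn A π X (fun x => (if a = b then 1 else 0)
      - ∑ k, U x a k * MvPolynomial.eval (c0 x) (MvPolynomial.pderiv b (F x k)))) (i : σ) :
    IsAnalyticOn A R₀ π X ξ (fun x => c x i) := by
  classical
  choose φ hφ hφrep using fun k m => (hF k m).exists_rep hs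
  choose g0 hg0 hg0rep using fun i => (hc0 i).exists_rep hs
  choose uB huB huBrep using fun a b => (hU a b).exists_rep hs
  let FB : σ → MvPolynomial σ (X → A) := fun k => ∑ m ∈ T, MvPolynomial.monomial m (φ k m)
  have hcoeff : ∀ k m, (FB k).coeff m = if m ∈ T then φ k m else 0 := by
    intro k m
    simp only [FB, MvPolynomial.coeff_sum, MvPolynomial.coeff_monomial]
    rw [Finset.sum_ite_eq']
  have hmap : ∀ (x : X) k, MvPolynomial.map (evalAt A X x) (FB k) = F x k := by
    intro x k
    ext m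
    rw [MvPolynomial.coeff_map, hcoeff]
    split_ifs with hm
    · rw [evalAt_apply, hφrep k m x]
    · rw [map_zero]
      by_contra hne
      exact hm (hT x x.2 k (MvPolynomial.mem_support_iff.mpr (Ne.symm hne)))
  let cB : σ → X → A := fun i x => ⟨c x i, hc x x.2 i⟩
  have hmain := hensel_mv_mem_adicClosure (π := piB hs) (S := (polyHom hs).range)
    (c := cB) (c0 := g0) hg0 ?_ ?_ i
  · exact IsAnalyticOn.of_rep hs hmain fun _ => rfl
  · intro i'
    refine (isTopNilpOn_iff_rep hs fun x => ?_).mp (hnil i')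
    simp [cB, hg0rep i' x]
  · intro j
    refine ⟨FB, Matrix.of uB, fun k m => ?_, huB, fun k => ?_, fun a b => ?_⟩
    · rw [hcoeff]
      split_ifs
      · exact hφ k m
      · exact Subring.zero_mem _
    · have e0 : MvPolynomial.eval cB (FB k) = 0 := by
        funext x
        apply Subtype.ext
        change evalAt A X x (MvPolynomial.eval cB (FB k)) = _
        rw [evalAt_mvEval, hmap]
        exact hroot x x.2 k
      rw [e0]
      exact Ideal.zero_mem _
    · refine (isTopNilpOn_iff_rep hs fun x => ?_).mp (hder a b)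
      have e1 : ∀ k, evalAt A X x (MvPolynomial.eval g0 (MvPolynomial.pderiv b (FB k)))
          = MvPolynomial.eval (c0 x) (MvPolynomial.pderiv b (F x k)) := by
        intro k
        rw [evalAt_mvEval, ← MvPolynomial.pderiv_map, hmap]
        congr 2
        funext i'
        exact hg0rep i' x
      have e2 : ∀ a b, evalAt A X x (Matrix.of uB a b) = U x a b := fun a b => huBrep a b x
      change evalAt A X x ((if a = b then 1 else 0)
        - ∑ k, Matrix.of uB a k * MvPolynomial.eval g0 (MvPolynomial.pderiv b (FB k))) = _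
      simp only [map_sub, map_sum, map_mul, e1, e2]
      congr 1
      split_ifs <;> simp

end Functions

/-! ## Valuation rings -/

section Val

variable {L : Type*} [Field L] {α : Type*} {ι : Type*}

/-- **Inverses over a valuation ring.** If `π` is a nonunit of the valuation ring `A`, an analytic
function with an analytic approximate inverse is pointwise invertible and its inverse is
analytic. -/
theorem IsAnalyticOn.inv₀ {A : ValuationSubring L} {R₀ : Subring L} {π : L} {X : Set α}
    {ξ : ι → α → L} (hs : AnalyticSetup A.toSubring R₀ π X ξ) (hπ : π ∈ A.nonunits)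
    {F G : α → L} (hF : IsAnalyticOn A.toSubring R₀ π X ξ F)
    (hG : IsAnalyticOn A.toSubring R₀ π X ξ G)
    (h : IsTopNilpOn A.toSubring π X (fun x => 1 - F x * G x)) :
    IsAnalyticOn A.toSubring R₀ π X ξ (fun x => (F x)⁻¹) := by
  have key : ∀ x ∈ X, A.valuation (F x) = 1 := by
    intro x hx
    obtain ⟨N, hN⟩ := h
    obtain ⟨w, hw, e⟩ := hN x hx
    have hFA : A.valuation (F x) ≤ 1 := (A.valuation_le_one_iff _).mpr (hF.mem hs x hx)
    have hGA : A.valuation (G x) ≤ 1 := (A.valuation_le_one_iff _).mpr (hG.mem hs x hx)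
    have hlt : A.valuation (1 - F x * G x) < 1 := by
      by_contra hge
      rw [not_lt] at hge
      have h1 : (1 : A.ValueGroup) ≤ A.valuation ((1 - F x * G x) ^ N) := by
        rw [map_pow]; exact one_le_pow₀ hge
      rw [e, map_mul] at h1
      have h2 : A.valuation π * A.valuation w < 1 := by
        calc A.valuation π * A.valuation w ≤ A.valuation π * 1 :=
              mul_le_mul_right ((A.valuation_le_one_iff _).mpr hw) _
          _ = A.valuation π := mul_one _
          _ < 1 := A.mem_nonunits_iff.mp hπ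
      exact absurd h1 (not_le.mpr h2)
    have h3 : A.valuation (F x * G x) = 1 := by
      have e2 : F x * G x = 1 - (1 - F x * G x) := by ring
      rw [e2]
      exact Valuation.map_one_sub_of_lt _ hlt
    rw [map_mul] at h3
    refine le_antisymm hFA ?_
    calc (1 : A.ValueGroup) = A.valuation (F x) * A.valuation (G x) := h3.symm
      _ ≤ A.valuation (F x) * 1 := mul_le_mul_right hGA _
      _ = A.valuation (F x) := mul_one _
  refine IsAnalyticOn.inv hs hF hG (fun x hx => ?_) (fun x hx => ?_) h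
  · change (F x)⁻¹ ∈ A
    rw [← A.valuation_le_one_iff, map_inv₀, key x hx, inv_one]
  · have hne : F x ≠ 0 := by
      intro h0
      have := key x hx
      rw [h0, map_zero] at this
      exact zero_ne_one this
    exact mul_inv_cancel₀ hne

/-- **Rank one.** In a valuation ring `A` of an algebraic extension of `ℚ` in which the prime `ℓ`
is a nonunit, every nonunit is topologically nilpotent for `ℓ`: a power of it is divisible by `ℓ`
in `A`.  (Elementary: a primitive integer polynomial vanishing at `a`, and the first coefficient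
prime to `ℓ`.) -/
theorem exists_pow_eq_mul_of_mem_nonunits {L : Type*} [Field L] [CharZero L]
    [Algebra.IsAlgebraic ℚ L] (A : ValuationSubring L) {ℓ : ℕ} (hℓ : ℓ.Prime)
    (hA : (ℓ : L) ∈ A.nonunits) {a : L} (ha : a ∈ A.nonunits) :
    ∃ N : ℕ, ∃ w ∈ A, a ^ N = (ℓ : L) * w := by
  classical
  by_cases ha0 : a = 0
  · exact ⟨1, 0, A.zero_mem, by simp [ha0]⟩
  have hvℓ : A.valuation (ℓ : L) < 1 := A.mem_nonunits_iff.mp hA
  have hva : A.valuation a < 1 := A.mem_nonunits_iff.mp ha
  have hva0 : 0 < A.valuation a := zero_lt_iff.mpr ((Valuation.ne_zero_iff _).mpr ha0)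
  have hℓ0 : (ℓ : L) ≠ 0 := Nat.cast_ne_zero.mpr hℓ.ne_zero
  have halg : IsAlgebraic ℤ a :=
    (IsFractionRing.isAlgebraic_iff ℤ ℚ L).mpr (Algebra.IsAlgebraic.isAlgebraic a)
  obtain ⟨p, hp0, hpa⟩ := halg
  have hq : Polynomial.aeval a p.primPart = 0 := Polynomial.aeval_primPart_eq_zero hp0 hpa
  have hprim : p.primPart.IsPrimitive := Polynomial.isPrimitive_primPart p
  generalize p.primPart = q at hq hprim
  have hex : ∃ k, ¬ ((ℓ : ℤ) ∣ q.coeff k) := by
    by_contra hall
    have hall' : ∀ k, (ℓ : ℤ) ∣ q.coeff k := fun k => not_not.mp fun h => hall ⟨k, h⟩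
    have hu : IsUnit (ℓ : ℤ) := Polynomial.isPrimitive_iff_isUnit_of_C_dvd.mp hprim _
      ((Polynomial.C_dvd_iff_dvd_coeff _ _).mpr hall')
    rcases Int.isUnit_iff.mp hu with h1 | h1
    · have : ℓ = 1 := by exact_mod_cast h1
      exact hℓ.one_lt.ne' this
    · have : (0 : ℤ) ≤ (ℓ : ℤ) := Int.natCast_nonneg ℓ
      omega
  let k0 := Nat.find hex
  have hk0 : ¬ ((ℓ : ℤ) ∣ q.coeff k0) := Nat.find_spec hex
  have hlt : ∀ k < k0, (ℓ : ℤ) ∣ q.coeff k := fun k hk => not_not.mp (Nat.find_min hex hk)
  have hint : ∀ m : ℤ, A.valuation (m : L) ≤ 1 := fun m =>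
    (A.valuation_le_one_iff _).mpr (intCast_mem A m)
  have hunit : A.valuation ((q.coeff k0 : ℤ) : L) = 1 := by
    have hcop : IsCoprime (q.coeff k0) (ℓ : ℤ) := by
      rw [isCoprime_comm]
      exact (Nat.prime_iff_prime_int.mp hℓ).coprime_iff_not_dvd.mpr hk0
    obtain ⟨s, t, hst⟩ := hcop
    have e : (s : L) * (q.coeff k0 : L) = 1 - (t : L) * (ℓ : L) := by
      have := congrArg (Int.cast : ℤ → L) hst
      push_cast at this
      linear_combination this
    have h1 : A.valuation ((s : L) * (q.coeff k0 : L)) = 1 := by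
      rw [e]
      apply Valuation.map_one_sub_of_lt
      rw [map_mul]
      calc A.valuation (t : L) * A.valuation (ℓ : L) ≤ 1 * A.valuation (ℓ : L) :=
            mul_le_mul_left (hint t) _
        _ = A.valuation (ℓ : L) := one_mul _
        _ < 1 := hvℓ
    rw [map_mul] at h1
    refine le_antisymm (hint _) ?_
    calc (1 : A.ValueGroup) = A.valuation (s : L) * A.valuation ((q.coeff k0 : ℤ) : L) := h1.symm
      _ ≤ 1 * A.valuation ((q.coeff k0 : ℤ) : L) := mul_le_mul_left (hint s) _
      _ = _ := one_mul _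
  have hkey : A.valuation a ^ k0 ≤ A.valuation (ℓ : L) := by
    have hsum : ∑ i ∈ Finset.range (q.natDegree + 1), (q.coeff i : L) * a ^ i = 0 := by
      rw [Polynomial.aeval_eq_sum_range] at hq
      simpa [zsmul_eq_mul] using hq
    by_cases hk0deg : k0 ∈ Finset.range (q.natDegree + 1)
    · have e : (q.coeff k0 : L) * a ^ k0
          = - ∑ i ∈ (Finset.range (q.natDegree + 1)).erase k0, (q.coeff i : L) * a ^ i := by
        rw [← Finset.add_sum_erase _ _ hk0deg] at hsum
        linear_combination hsum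
      have h1 : A.valuation ((q.coeff k0 : L) * a ^ k0) = A.valuation a ^ k0 := by
        rw [map_mul, hunit, one_mul, map_pow]
      have h2 : A.valuation (∑ i ∈ (Finset.range (q.natDegree + 1)).erase k0,
          (q.coeff i : L) * a ^ i) ≤ max (A.valuation (ℓ : L)) (A.valuation a ^ (k0 + 1)) := by
        apply Valuation.map_sum_le
        intro i hi
        rcases lt_or_gt_of_ne (Finset.ne_of_mem_erase hi) with hlt' | hgt
        · obtain ⟨m, hm⟩ := hlt i hlt'
          refine le_max_of_le_left ?_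
          rw [hm]
          push_cast
          rw [map_mul, map_mul, map_pow]
          calc A.valuation (ℓ : L) * A.valuation (m : L) * A.valuation a ^ i
              ≤ A.valuation (ℓ : L) * 1 * 1 :=
                mul_le_mul' (mul_le_mul' le_rfl (hint m)) (pow_le_one' hva.le i)
            _ = A.valuation (ℓ : L) := by rw [mul_one, mul_one]
        · refine le_max_of_le_right ?_
          rw [map_mul, map_pow]
          calc A.valuation (q.coeff i : L) * A.valuation a ^ i
              ≤ 1 * A.valuation a ^ (k0 + 1) :=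
                mul_le_mul' (hint _) (pow_le_pow_right_of_le_one' hva.le hgt)
            _ = A.valuation a ^ (k0 + 1) := one_mul _
      rw [e, Valuation.map_neg] at h1
      rw [h1] at h2
      rcases le_max_iff.mp h2 with h3 | h3
      · exact h3
      · exact absurd h3 (not_le.mpr (pow_lt_pow_right_of_lt_one₀ hva0 hva (Nat.lt_succ_self k0)))
    · exfalso
      apply hk0
      rw [Polynomial.coeff_eq_zero_of_natDegree_lt (by simpa using hk0deg)]
      exact dvd_zero _
  refine ⟨k0, a ^ k0 / (ℓ : L), ?_, by field_simp⟩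
  rw [← A.valuation_le_one_iff, map_div₀, map_pow]
  exact div_le_one_of_le₀ hkey zero_le


/-- On a finite set, a function with values in the maximal ideal of a valuation ring of an
algebraic extension of `ℚ` over `ℓ` is uniformly topologically nilpotent. -/
theorem isTopNilpOn_of_finite_of_nonunits {L : Type*} [Field L] [CharZero L]
    [Algebra.IsAlgebraic ℚ L] (A : ValuationSubring L) {ℓ : ℕ} (hℓ : ℓ.Prime)
    (hA : (ℓ : L) ∈ A.nonunits) {α : Type*} {X : Set α} (hX : X.Finite) {t : α → L}
    (ht : ∀ x ∈ X, t x ∈ A.nonunits) : IsTopNilpOn A.toSubring (ℓ : L) X t :=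
  isTopNilpOn_of_finite hX
    (fun x hx => (A.valuation_le_one_iff _).mp (le_of_lt (A.mem_nonunits_iff.mp (ht x hx))))
    (fun x hx => exists_pow_eq_mul_of_mem_nonunits A hℓ hA (ht x hx))

end Val

end Fermat.Agent.S19.helper1288
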