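/-
S19-CALG-COVER (helper1458): the ADAPTED COVER lemma = (T2) of findings #2887.

Abstract, hypothesis-passing, place language (Prelude `AlgebraicCurve.Place`, `Divisor`,
`riemannRochSpace`), on the landed S37/S18 lattice layer (`helper6835.Cons`, `helper981`).

Setting: function fields `F / L` (generic fibre) and `Fk / k` (special fibre), a valuation
subring `A` of the constants `L`, the Gauss ring `O` of `F`, the reduction `red : O →+* Fk`
and the specialisation of places `sp`.  Hypotheses (bundle `CoverHyp`): conservation of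
number, Riemann's theorem (equality in degree `≥ c`) with the SAME `g` on both fibres and the
cartesian property of `(O, red)`.

Data: `g` places `P i` and one more place `Pinf` with pairwise distinct specialisations, the
reduced divisor `∑ sp (P i)` non-special (`L_k(∑ sp (P i)) = k`), and functions
`e i ∈ O ∩ L(n Pinf + P i)` whose reductions are not in `L_k(n sp(Pinf))`.

Results:
* `special_U` (U): on the special fibre, `∑ c i • ē i = g1 + g2` with `g1` regular off
  `sp Pinf` and `g2` regular off the `sp (P i)` forces all `c i = 0`.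
* `special_decomp`: `L_k(m Q∞ + m' ∑ Q i) = L_k(m Q∞) + L_k(m' ∑ Q i) + ∑ k ē i`.
* `linearIndependent_of_red`, `coeff_mem_of_sum_mem`: a family of `O` with `k`-independent
  reductions is `L`-independent and coordinates of Gauss-integral elements are in `A`.
* `red_mem_rr`, `exists_lift_rr`: reduction maps `O ∩ L(E)` into `L_k(sp_* E)`, onto in
  degree `≥ c`.
* `cover_graded`, `cover_E` (E): every `h ∈ O` regular off `{Pinf} ∪ {P i}` is
  `b1 + b2 + ∑ a i • e i` with `b1 ∈ O` regular off `Pinf`, `b2 ∈ O` regular off the `P i`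
  and `a i ∈ A`.
* `cover_U`: (U) stated with the generic data (`ē i = red (e i)`).
* `exists_e`: existence of the functions `e i` (for `n ≥ c`).
* `ord_red_e`, `ord_e`: `red (e i)` has an exact simple pole at `sp (P i)`; `e i` has an exact
  simple pole at `P i` and is a unit at every other place of the residue class of `P i`.
-/
import Mathlib
import Fermat.Prelude.Def_AlgebraicCurve_Repartitions
import Fermat.Agent.S18.helper981_Riemann
import Fermat.Agent.S37.helper6835_NSData

set_option autoImplicit false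

noncomputable section

open AlgebraicCurve WithZero Module

namespace Fermat.Agent.S19.helper1458

open Fermat.Agent.S37 Fermat.Agent.S18

/-! ## Part 0: reduced divisors `∑ Q i` -/

section Basics

variable {K F : Type*} [Field K] [Field F] [Algebra K F]
variable {ι : Type*} [Fintype ι]

/-- The reduced effective divisor `∑ i, Q i`. -/
def sumPl (Q : ι → Place K F) : Divisor K F := ∑ i, Finsupp.single (Q i) (1 : ℤ)

theorem sumPl_apply_self (Q : ι → Place K F) (hQ : Function.Injective Q) (j : ι) :
    sumPl Q (Q j) = 1 := by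
  classical
  rw [sumPl, Finsupp.finsetSum_apply, Finset.sum_eq_single j]
  · rw [Finsupp.single_apply, if_pos rfl]
  · intro i _ hij
    rw [Finsupp.single_apply, if_neg (fun h => hij (hQ h))]
  · intro h
    exact absurd (Finset.mem_univ j) h

theorem sumPl_apply_of_ne (Q : ι → Place K F) (v : Place K F) (hv : ∀ i, Q i ≠ v) :
    sumPl Q v = 0 := by
  classical
  rw [sumPl, Finsupp.finsetSum_apply]
  refine Finset.sum_eq_zero fun i _ => ?_
  rw [Finsupp.single_apply, if_neg (hv i)]

theorem sumPl_apply_nonneg (Q : ι → Place K F) (v : Place K F) : 0 ≤ sumPl Q v := by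
  classical
  rw [sumPl, Finsupp.finsetSum_apply]
  refine Finset.sum_nonneg fun i _ => ?_
  rw [Finsupp.single_apply]
  split_ifs
  · exact zero_le_one
  · exact le_rfl

theorem degree_sumPl (hdeg : ∀ v : Place K F, v.deg = 1) (Q : ι → Place K F) :
    Divisor.degree (sumPl Q) = Fintype.card ι := by
  rw [sumPl, map_sum]
  simp [hdeg]

theorem mem_of_mem_rr_single {Pinf v : Place K F} {m : ℤ} {f : F}
    (hf : f ∈ riemannRochSpace (Finsupp.single Pinf m : Divisor K F)) (hv : v ≠ Pinf) :
    f ∈ v.toValuationSubring := by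
  classical
  have h := hf v
  rw [Finsupp.single_apply, if_neg (Ne.symm hv), exp_zero] at h
  exact helper981.mem_valuationSubring_of_val_le_one v h

theorem mem_of_mem_rr_sumPl {Q : ι → Place K F} {m' : ℤ} {f : F}
    (hf : f ∈ riemannRochSpace (m' • sumPl Q)) {v : Place K F} (hv : ∀ i, v ≠ Q i) :
    f ∈ v.toValuationSubring := by
  have h := hf v
  rw [Finsupp.smul_apply, sumPl_apply_of_ne Q v (fun i => (hv i).symm), smul_zero, exp_zero] at h
  exact helper981.mem_valuationSubring_of_val_le_one v h

end Basics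

/-! ## Part 1: the special fibre -/

section Special

variable {k Fk : Type*} [Field k] [Field Fk] [Algebra k Fk]
variable {ι : Type*} [Fintype ι]

/-- **(U)**: a combination of the `ē i` which is a sum of a function regular off `Q∞` and a
function regular off the `Q i` is trivial. -/
theorem special_U (Qinf : Place k Fk) (Q : ι → Place k Fk) (hQ : Function.Injective Q)
    (hinf : ∀ i, Q i ≠ Qinf)
    (hns : ∀ w ∈ riemannRochSpace (sumPl Q), ∃ b : k, w = algebraMap k Fk b)
    (n : ℤ) (eb : ι → Fk)
    (he : ∀ i, eb i ∈ riemannRochSpace (Finsupp.single Qinf n + Finsupp.single (Q i) 1))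
    (he' : ∀ i, eb i ∉ riemannRochSpace (Finsupp.single Qinf n : Divisor k Fk))
    (c : ι → k) (g1 g2 : Fk)
    (hg1 : ∀ v : Place k Fk, v ≠ Qinf → g1 ∈ v.toValuationSubring)
    (hg2 : ∀ v : Place k Fk, (∀ i, v ≠ Q i) → g2 ∈ v.toValuationSubring)
    (h : ∑ i, c i • eb i = g1 + g2) : ∀ i, c i = 0 := by
  classical
  have hval_e1 : ∀ (i : ι) (v : Place k Fk), v ≠ Qinf → v.adicValuation (eb i) ≤ exp (1 : ℤ) := by
    intro i v hv1
    have h1 := he i v
    rw [Finsupp.add_apply, Finsupp.single_apply, if_neg (Ne.symm hv1), zero_add] at h1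
    refine h1.trans (exp_le_exp.mpr ?_)
    rw [Finsupp.single_apply]
    split_ifs
    · exact le_rfl
    · exact zero_le_one
  have hval_inf : ∀ i, Qinf.adicValuation (eb i) ≤ exp n := by
    intro i
    have h1 := he i Qinf
    rwa [Finsupp.add_apply, Finsupp.single_apply, if_pos rfl, Finsupp.single_apply,
      if_neg (hinf i), add_zero] at h1
  have hTval : ∀ (v : Place k Fk) (x : ℤᵐ⁰), (∀ i, v.adicValuation (eb i) ≤ x) →
      v.adicValuation (∑ i, c i • eb i) ≤ x := by
    intro v x hx
    refine Valuation.map_sum_le _ fun i _ => ?_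
    exact (helper6835.adicValuation_smul_le v (c i) (eb i)).trans (hx i)
  -- step 1: `g2 ∈ L(∑ Q i)`, hence constant
  have hg2L : g2 ∈ riemannRochSpace (sumPl Q) := by
    intro v
    by_cases hv : ∀ i, v ≠ Q i
    · rw [sumPl_apply_of_ne Q v (fun i => (hv i).symm), exp_zero]
      exact v.adicValuation_le_one_of_mem (hg2 v hv)
    · push Not at hv
      obtain ⟨j, rfl⟩ := hv
      rw [sumPl_apply_self Q hQ j]
      have h2 : g2 = ∑ i, c i • eb i - g1 := by rw [h]; ring
      rw [h2]
      refine (Valuation.map_sub _ _ _).trans (max_le ?_ ?_)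
      · exact hTval _ _ fun i => hval_e1 i (Q j) (hinf j)
      · refine ((Q j).adicValuation_le_one_of_mem (hg1 _ (hinf j))).trans ?_
        rw [← exp_zero]
        exact exp_le_exp.mpr zero_le_one
  obtain ⟨b, hb⟩ := hns g2 hg2L
  -- step 2: the combination lies in `L(n Q∞)`
  have hTL : ∑ i, c i • eb i ∈ riemannRochSpace (Finsupp.single Qinf n : Divisor k Fk) := by
    intro v
    by_cases hv : v = Qinf
    · rw [hv, Finsupp.single_apply, if_pos rfl]
      exact hTval _ _ hval_inf
    · rw [Finsupp.single_apply, if_neg (Ne.symm hv), exp_zero, h, hb]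
      exact v.adicValuation_le_one_of_mem (add_mem (hg1 v hv) (v.algebraMap_mem' b))
  exact fun i => helper6835.eq_zero_of_sum_smul_mem Finset.univ _ Q hQ.injOn eb
    (fun i _ => he i) (fun i _ => he' i) c hTL i (Finset.mem_univ i)

/-- The functions `ē i` are linearly independent. -/
theorem special_linearIndependent (Qinf : Place k Fk) (Q : ι → Place k Fk)
    (hQ : Function.Injective Q) (hinf : ∀ i, Q i ≠ Qinf)
    (hns : ∀ w ∈ riemannRochSpace (sumPl Q), ∃ b : k, w = algebraMap k Fk b)
    (n : ℤ) (eb : ι → Fk)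
    (he : ∀ i, eb i ∈ riemannRochSpace (Finsupp.single Qinf n + Finsupp.single (Q i) 1))
    (he' : ∀ i, eb i ∉ riemannRochSpace (Finsupp.single Qinf n : Divisor k Fk)) :
    LinearIndependent k eb := by
  rw [Fintype.linearIndependent_iff]
  intro c hc i
  exact special_U Qinf Q hQ hinf hns n eb he he' c 0 0 (fun v _ => zero_mem _)
    (fun v _ => zero_mem _) (by rw [hc, add_zero]) i

/-- **Special-fibre decomposition**: `L_k(m Q∞ + m' ∑ Q i) = L_k(m Q∞) + L_k(m' ∑ Q i) + ∑ k ē i`
(dimension count from Riemann's theorem; no duality). -/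
theorem special_decomp [HasPrincipalDivisors k Fk] (hdeg : ∀ v : Place k Fk, v.deg = 1)
    (g : ℕ) (c : ℤ)
    (hR : ∀ E : Divisor k Fk, c ≤ Divisor.degree E →
      (finrank k (riemannRochSpace E) : ℤ) = Divisor.degree E + 1 - g)
    (hcard : Fintype.card ι = g)
    (Qinf : Place k Fk) (Q : ι → Place k Fk) (hQ : Function.Injective Q)
    (hinf : ∀ i, Q i ≠ Qinf)
    (hns : ∀ w ∈ riemannRochSpace (sumPl Q), ∃ b : k, w = algebraMap k Fk b)
    (n : ℤ) (eb : ι → Fk)
    (he : ∀ i, eb i ∈ riemannRochSpace (Finsupp.single Qinf n + Finsupp.single (Q i) 1))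
    (he' : ∀ i, eb i ∉ riemannRochSpace (Finsupp.single Qinf n : Divisor k Fk))
    (m m' : ℤ) (hm : n ≤ m) (hm0 : 0 ≤ m) (hmc : c ≤ m) (hm' : 1 ≤ m') (hm'c : c ≤ m' * g)
    {y : Fk} (hy : y ∈ riemannRochSpace (Finsupp.single Qinf m + m' • sumPl Q)) :
    ∃ (y1 y2 : Fk) (b : ι → k),
      y1 ∈ riemannRochSpace (Finsupp.single Qinf m : Divisor k Fk) ∧
      y2 ∈ riemannRochSpace (m' • sumPl Q) ∧ y = y1 + y2 + ∑ i, b i • eb i := by
  classical
  set V := riemannRochSpace (Finsupp.single Qinf m + m' • sumPl Q) with hV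
  set V1 := riemannRochSpace (Finsupp.single Qinf m : Divisor k Fk) with hV1
  set V2 := riemannRochSpace (m' • sumPl Q) with hV2
  set S := Submodule.span k (Set.range eb) with hS
  have hfinV : Module.Finite k V := helper981.finite_riemannRochSpace hdeg Qinf _
  have hfinV1 : Module.Finite k V1 := helper981.finite_riemannRochSpace hdeg Qinf _
  have hfinV2 : Module.Finite k V2 := helper981.finite_riemannRochSpace hdeg Qinf _
  have hfin0 : Module.Finite k (riemannRochSpace (0 : Divisor k Fk)) :=
    helper981.finite_riemannRochSpace hdeg Qinf _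
  have hfinS : Module.Finite k S := Module.Finite.span_of_finite k (Set.finite_range eb)
  -- degrees
  have hd1 : Divisor.degree (Finsupp.single Qinf m : Divisor k Fk) = m := by
    rw [Divisor.degree_single, hdeg]; simp
  have hd2 : Divisor.degree (m' • sumPl Q) = m' * g := by
    rw [map_zsmul, degree_sumPl hdeg, hcard, smul_eq_mul]
  have hd : Divisor.degree (Finsupp.single Qinf m + m' • sumPl Q) = m + m' * g := by
    rw [map_add, hd1, hd2]
  have hg0 : (0 : ℤ) ≤ (g : ℤ) := Int.natCast_nonneg g
  have hm'g : 0 ≤ m' * (g : ℤ) := mul_nonneg (by omega) hg0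
  have hrV := hR _ (by rw [hd]; omega)
  have hrV1 := hR _ (by rw [hd1]; exact hmc)
  have hrV2 := hR _ (by rw [hd2]; exact hm'c)
  rw [hd] at hrV
  rw [hd1] at hrV1
  rw [hd2] at hrV2
  -- inclusions
  have hle1 : V1 ≤ V := by
    intro f hf v
    refine (hf v).trans (exp_le_exp.mpr ?_)
    rw [Finsupp.add_apply, Finsupp.smul_apply, smul_eq_mul]
    exact le_add_of_nonneg_right (mul_nonneg (by omega) (sumPl_apply_nonneg Q v))
  have hle2 : V2 ≤ V := by
    intro f hf v
    refine (hf v).trans (exp_le_exp.mpr ?_)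
    rw [Finsupp.add_apply]
    refine le_add_of_nonneg_left ?_
    rw [Finsupp.single_apply]
    split_ifs
    · exact hm0
    · exact le_rfl
  have hleS : S ≤ V := by
    rw [hS, Submodule.span_le]
    rintro _ ⟨i, rfl⟩
    intro v
    refine (he i v).trans (exp_le_exp.mpr ?_)
    rw [Finsupp.add_apply, Finsupp.add_apply, Finsupp.smul_apply, smul_eq_mul]
    refine add_le_add ?_ ?_
    · rw [Finsupp.single_apply, Finsupp.single_apply]
      split_ifs
      · exact hm
      · exact le_rfl
    · by_cases hv : v = Q i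
      · rw [hv, sumPl_apply_self Q hQ i, Finsupp.single_apply, if_pos rfl, mul_one]
        exact hm'
      · rw [Finsupp.single_apply, if_neg (Ne.symm hv)]
        exact mul_nonneg (by omega) (sumPl_apply_nonneg Q v)
  -- `V1 ⊓ V2` consists of constants
  have hinf12 : V1 ⊓ V2 ≤ riemannRochSpace (0 : Divisor k Fk) := by
    rintro f ⟨hf1, hf2⟩ v
    rw [Finsupp.zero_apply]
    by_cases hv : v = Qinf
    · rw [hv]
      have h2 := hf2 Qinf
      rwa [Finsupp.smul_apply, sumPl_apply_of_ne Q Qinf hinf, smul_zero] at h2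
    · have h1 := hf1 v
      rwa [Finsupp.single_apply, if_neg (Ne.symm hv)] at h1
  have hfr12 : finrank k (V1 ⊓ V2 : Submodule k Fk) ≤ 1 := by
    have h1 := Submodule.finrank_mono hinf12
    rwa [helper981.finrank_zero hdeg Qinf] at h1
  -- `S` is of dimension `g` and meets `V1 ⊔ V2` trivially
  have hU := special_U Qinf Q hQ hinf hns n eb he he'
  have hli := special_linearIndependent Qinf Q hQ hinf hns n eb he he'
  have hfrS : finrank k S = g := by rw [hS, finrank_span_eq_card hli, hcard]
  have hdisj : (V1 ⊔ V2) ⊓ S = ⊥ := by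
    rw [eq_bot_iff]
    rintro x ⟨hx12, hxS⟩
    obtain ⟨y1, hy1, y2, hy2, rfl⟩ := Submodule.mem_sup.mp hx12
    obtain ⟨b, hb⟩ := (Submodule.mem_span_range_iff_exists_fun k).mp hxS
    have hb0 := hU b y1 y2 (fun v hv => mem_of_mem_rr_single hy1 hv)
      (fun v hv => mem_of_mem_rr_sumPl hy2 hv) hb
    rw [Submodule.mem_bot, ← hb]
    exact Finset.sum_eq_zero fun i _ => by rw [hb0 i, zero_smul]
  -- the count
  have h12 := Submodule.finrank_sup_add_finrank_inf_eq V1 V2
  have h12S := Submodule.finrank_sup_add_finrank_inf_eq (V1 ⊔ V2) S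
  rw [hdisj, finrank_bot, add_zero] at h12S
  have hle : V1 ⊔ V2 ⊔ S ≤ V := sup_le (sup_le hle1 hle2) hleS
  have hfr : finrank k V ≤ finrank k (V1 ⊔ V2 ⊔ S : Submodule k Fk) := by
    have e1 : (finrank k (V1 ⊔ V2 ⊔ S : Submodule k Fk) : ℤ)
        = (finrank k (V1 ⊔ V2 : Submodule k Fk) : ℤ) + (finrank k S : ℤ) := by
      exact_mod_cast h12S
    have e2 : (finrank k (V1 ⊔ V2 : Submodule k Fk) : ℤ)
        + (finrank k (V1 ⊓ V2 : Submodule k Fk) : ℤ) = (finrank k V1 : ℤ) + (finrank k V2 : ℤ) := by
      exact_mod_cast h12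
    have e3 : (finrank k (V1 ⊓ V2 : Submodule k Fk) : ℤ) ≤ 1 := by exact_mod_cast hfr12
    have e4 : (finrank k S : ℤ) = g := by exact_mod_cast hfrS
    have : (finrank k V : ℤ) ≤ (finrank k (V1 ⊔ V2 ⊔ S : Submodule k Fk) : ℤ) := by linarith
    exact_mod_cast this
  have heq : V1 ⊔ V2 ⊔ S = V := Submodule.eq_of_le_of_finrank_le hle hfr
  have hy' : y ∈ V1 ⊔ V2 ⊔ S := by rw [heq]; exact hy
  obtain ⟨y12, hy12, s, hs, rfl⟩ := Submodule.mem_sup.mp hy'
  obtain ⟨y1, hy1, y2, hy2, rfl⟩ := Submodule.mem_sup.mp hy12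
  obtain ⟨b, hb⟩ := (Submodule.mem_span_range_iff_exists_fun k).mp hs
  exact ⟨y1, y2, b, hy1, hy2, by rw [hb]⟩

end Special

/-! ## Part 2: families with independent reductions -/

section Transfer

variable {L F k Fk : Type*} [Field L] [Field F] [Algebra L F] [Field k] [Field Fk] [Algebra k Fk]
variable {ι : Type*} [Fintype ι]
variable (A : ValuationSubring L) {O : ValuationSubring F} {red : O →+* Fk}

/-- Normalisation by a coefficient of maximal valuation. -/
theorem exists_normalise (c : ι → L) (hc : ∃ i, c i ≠ 0) :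
    ∃ i0, c i0 ≠ 0 ∧ ∀ i, c i * (c i0)⁻¹ ∈ A := by
  classical
  obtain ⟨j, hj⟩ := hc
  obtain ⟨i0, -, hmax⟩ := Finset.exists_max_image Finset.univ (fun i => A.valuation (c i))
    ⟨j, Finset.mem_univ j⟩
  have h0 : c i0 ≠ 0 := by
    intro h
    have h1 := hmax j (Finset.mem_univ j)
    rw [h, map_zero] at h1
    exact hj ((map_eq_zero A.valuation).mp (le_antisymm h1 zero_le))
  refine ⟨i0, h0, fun i => ?_⟩
  rw [← A.valuation_le_one_iff, map_mul, map_inv₀]
  have hv0 : 0 < A.valuation (c i0) := zero_lt_iff.mpr ((map_ne_zero A.valuation).mpr h0)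
  rw [mul_inv_le_iff₀ hv0, one_mul]
  exact hmax i (Finset.mem_univ i)

/-- **Unit lemma**: an `A`-combination, with one coefficient equal to `1`, of a family with
`k`-independent reductions has nonzero reduction. -/
theorem exists_red_ne_zero (hAO : ∀ a : L, a ∈ A → algebraMap L F a ∈ O)
    (hRK : ∀ (a : L) (h : algebraMap L F a ∈ O),
      ∃ b : k, red ⟨algebraMap L F a, h⟩ = algebraMap k Fk b)
    (w : ι → O) (hw : LinearIndependent k (fun i => red (w i)))
    (a : ι → L) (ha : ∀ i, a i ∈ A) (i0 : ι) (hi0 : a i0 = 1) :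
    ∃ y : O, (y : F) = ∑ i, a i • (w i : F) ∧ red y ≠ 0 := by
  classical
  set aO : ι → O := fun i => ⟨algebraMap L F (a i), hAO _ (ha i)⟩ with haO
  have hb : ∀ i, ∃ b : k, red (aO i) = algebraMap k Fk b := fun i => hRK _ _
  choose b hb using hb
  refine ⟨∑ i, aO i * w i, ?_, ?_⟩
  · rw [← O.subtype_apply, map_sum]
    refine Finset.sum_congr rfl fun i _ => ?_
    rw [map_mul, Algebra.smul_def]
    rfl
  · rw [map_sum]
    intro h0
    have h1 : ∑ i, b i • red (w i) = 0 := by
      rw [← h0]
      refine Finset.sum_congr rfl fun i _ => ?_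
      rw [map_mul, hb, Algebra.smul_def]
    have h2 := Fintype.linearIndependent_iff.mp hw b h1 i0
    have h3 : red (aO i0) = 1 := by
      have h4 : aO i0 = 1 := Subtype.ext (by simp [haO, hi0])
      rw [h4, map_one]
    rw [hb, h2, map_zero] at h3
    exact zero_ne_one h3

/-- A family of `O` with `k`-independent reductions is `L`-independent. -/
theorem linearIndependent_of_red (hAO : ∀ a : L, a ∈ A → algebraMap L F a ∈ O)
    (hRK : ∀ (a : L) (h : algebraMap L F a ∈ O),
      ∃ b : k, red ⟨algebraMap L F a, h⟩ = algebraMap k Fk b)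
    (w : ι → O) (hw : LinearIndependent k (fun i => red (w i))) :
    LinearIndependent L (fun i => (w i : F)) := by
  classical
  rw [Fintype.linearIndependent_iff]
  intro c hc
  by_contra hne
  push Not at hne
  obtain ⟨i0, h0, hall⟩ := exists_normalise A c hne
  obtain ⟨y, hy, hyne⟩ := exists_red_ne_zero A hAO hRK w hw (fun i => c i * (c i0)⁻¹) hall i0
    (mul_inv_cancel₀ h0)
  have hy0 : (y : F) = 0 := by
    rw [hy]
    have h1 : ∑ i, (c i * (c i0)⁻¹) • (w i : F) = (c i0)⁻¹ • ∑ i, c i • (w i : F) := by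
      rw [Finset.smul_sum]
      refine Finset.sum_congr rfl fun i _ => ?_
      rw [smul_smul, mul_comm]
    rw [h1, hc, smul_zero]
  have hy1 : y = 0 := Subtype.ext hy0
  exact hyne (by rw [hy1, map_zero])

/-- **Integral coordinates**: if a combination of a family with `k`-independent reductions is
Gauss-integral, its coefficients are in `A`. -/
theorem coeff_mem_of_sum_mem (hA : ∀ a : L, algebraMap L F a ∈ O ↔ a ∈ A)
    (hker : ∀ y : O, ¬ IsUnit y → red y = 0)
    (hRK : ∀ (a : L) (h : algebraMap L F a ∈ O),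
      ∃ b : k, red ⟨algebraMap L F a, h⟩ = algebraMap k Fk b)
    (w : ι → O) (hw : LinearIndependent k (fun i => red (w i))) (c : ι → L)
    (hx : ∑ i, c i • (w i : F) ∈ O) : ∀ i, c i ∈ A := by
  classical
  by_cases hne : ∃ i, c i ≠ 0
  · obtain ⟨i0, h0, hall⟩ := exists_normalise A c hne
    suffices hi0 : c i0 ∈ A by
      intro i
      have h1 := A.mul_mem _ _ (hall i) hi0
      rwa [inv_mul_cancel_right₀ h0] at h1
    obtain ⟨y, hy, hyne⟩ := exists_red_ne_zero A (fun a ha => (hA a).mpr ha) hRK w hw
      (fun i => c i * (c i0)⁻¹) hall i0 (mul_inv_cancel₀ h0)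
    have hyu : IsUnit y := by
      by_contra h
      exact hyne (hker y h)
    have hyx : (y : F) = algebraMap L F (c i0)⁻¹ * ∑ i, c i • (w i : F) := by
      rw [hy, ← Algebra.smul_def, Finset.smul_sum]
      refine Finset.sum_congr rfl fun i _ => ?_
      rw [smul_smul, mul_comm]
    obtain ⟨z, hz⟩ := hyu.exists_right_inv
    have hzF : (y : F) * (z : F) = 1 := by
      have h1 := congrArg (fun t : O => (t : F)) hz
      simpa using h1
    rw [← hA]
    have hc0 : algebraMap L F (c i0) ≠ 0 := by simpa using h0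
    have h2 : algebraMap L F (c i0) = (∑ i, c i • (w i : F)) * (z : F) := by
      calc algebraMap L F (c i0) = algebraMap L F (c i0) * ((y : F) * (z : F)) := by
            rw [hzF, mul_one]
        _ = (algebraMap L F (c i0) * (y : F)) * (z : F) := by ring
        _ = (∑ i, c i • (w i : F)) * (z : F) := by
            rw [hyx, map_inv₀, ← mul_assoc, mul_inv_cancel₀ hc0, one_mul]
    rw [h2]
    exact O.mul_mem _ _ hx z.2
  · push Not at hne
    intro i
    rw [hne i]
    exact A.zero_mem

/-- In a finite-dimensional subspace, an independent family of the right size spans. -/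
theorem exists_coeff_of_card_eq (V : Submodule L F) [Module.Finite L V] {l : ℕ} (w : Fin l → F)
    (hw : ∀ j, w j ∈ V) (hli : LinearIndependent L w) (hl : l = finrank L V) {f : F}
    (hf : f ∈ V) : ∃ α : Fin l → L, f = ∑ j, α j • w j := by
  set w' : Fin l → V := fun j => ⟨w j, hw j⟩ with hw'
  have hli' : LinearIndependent L w' := by
    apply LinearIndependent.of_comp V.subtype
    exact hli
  have hcard : Fintype.card (Fin l) = finrank L V := by rw [Fintype.card_fin, hl]
  have hspan := hli'.span_eq_top_of_card_eq_finrank' hcard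
  have hf' : (⟨f, hf⟩ : V) ∈ Submodule.span L (Set.range w') := by
    rw [hspan]; exact Submodule.mem_top
  obtain ⟨α, hα⟩ := (Submodule.mem_span_range_iff_exists_fun L).mp hf'
  refine ⟨α, ?_⟩
  have h1 := congrArg (fun z : V => (z : F)) hα
  simp only [Submodule.coe_sum, Submodule.coe_smul, hw'] at h1
  exact h1.symm

end Transfer

/-! ## Part 3: reduction of Riemann–Roch spaces and the cover lemma -/

section Lift

variable {L F k Fk : Type*} [Field L] [Field F] [Algebra L F] [Field k] [Field Fk] [Algebra k Fk]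
variable {ι : Type*} [Fintype ι]

/-- Hypotheses of the cover lemma: `A` is the valuation ring of the constants cut out by the
Gauss ring `O`, `red` kills the non-units, maps the constants of `O` onto `k`, conservation of
number holds along `sp`, all places have degree one, Riemann's theorem holds with equality in
degree `≥ c` with the same `g` on both fibres, and `(O, red)` is cartesian. -/
structure CoverHyp (A : ValuationSubring L) (O : ValuationSubring F) (red : O →+* Fk)
    (sp : Place L F → Place k Fk) (g : ℕ) (c : ℤ) : Prop where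
  mem_iff : ∀ a : L, algebraMap L F a ∈ O ↔ a ∈ A
  ker : ∀ y : O, ¬ IsUnit y → red y = 0
  red_const : ∀ (a : L) (h : algebraMap L F a ∈ O),
    ∃ b : k, red ⟨algebraMap L F a, h⟩ = algebraMap k Fk b
  const_surj : ∀ b : k, ∃ (a : L) (h : algebraMap L F a ∈ O),
    red ⟨algebraMap L F a, h⟩ = algebraMap k Fk b
  cons : helper6835.Cons O red sp
  degL : ∀ P : Place L F, P.deg = 1
  degk : ∀ Q : Place k Fk, Q.deg = 1
  riemL : ∀ E : Divisor L F, c ≤ Divisor.degree E →
    (finrank L (riemannRochSpace E) : ℤ) = Divisor.degree E + 1 - g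
  riemk : ∀ E : Divisor k Fk, c ≤ Divisor.degree E →
    (finrank k (riemannRochSpace E) : ℤ) = Divisor.degree E + 1 - g
  cart : ∀ (E : Divisor L F) (n : ℕ) (v : Fin n → F), LinearIndependent L v →
    (∀ i, v i ∈ riemannRochSpace E) →
    ∃ u : Fin n → O, (∀ i, (u i : F) ∈ riemannRochSpace E) ∧
      LinearIndependent k (fun i => red (u i))

variable {A : ValuationSubring L} {O : ValuationSubring F} {red : O →+* Fk}
  {sp : Place L F → Place k Fk} {g : ℕ} {c : ℤ}

/-- Reduction maps `O ∩ L(E)` into `L_k(sp_* E)` (conservation of number). -/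
theorem red_mem_rr [HasPrincipalDivisors L F] (hC : helper6835.Cons O red sp) (f : O)
    (E : Divisor L F) (hf : (f : F) ∈ riemannRochSpace E) :
    red f ∈ riemannRochSpace (Finsupp.mapDomain sp E) := by
  classical
  by_cases h0 : red f = 0
  · rw [h0]; exact zero_mem _
  have hf0 : (f : F) ≠ 0 := helper6835.coe_ne_zero_of_red_ne_zero h0
  obtain ⟨D, hD, -⟩ := HasPrincipalDivisors.exists_divisor (K := L) (f : F) hf0
  rw [mem_riemannRochSpace_iff]
  intro s
  right
  rw [← hC f h0 D hD s]
  have hnn : 0 ≤ Finsupp.mapDomain sp (D + E) s := by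
    rw [helper6835.mapDomain_apply_eq_sum]
    refine Finset.sum_nonneg fun P _ => ?_
    split_ifs
    · rw [Finsupp.add_apply, hD P]
      have h1 := (mem_riemannRochSpace_iff.mp hf P).resolve_left hf0
      omega
    · exact le_rfl
  rw [Finsupp.mapDomain_add, Finsupp.add_apply] at hnn
  omega

/-- Push-forward of divisors along `sp` preserves the degree (all places of degree one). -/
theorem degree_mapDomain (hdegL : ∀ P : Place L F, P.deg = 1) (hdegk : ∀ Q : Place k Fk, Q.deg = 1)
    (sp : Place L F → Place k Fk) (E : Divisor L F) :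
    Divisor.degree (Finsupp.mapDomain sp E) = Divisor.degree E := by
  induction E using Finsupp.induction with
  | zero => simp
  | single_add P n D _ _ ih =>
    rw [Finsupp.mapDomain_add, map_add, map_add, ih, Finsupp.mapDomain_single,
      Divisor.degree_single, Divisor.degree_single, hdegL, hdegk]

theorem mapDomain_sumPl (sp : Place L F → Place k Fk) (P : ι → Place L F) :
    Finsupp.mapDomain sp (sumPl P) = sumPl (fun i => sp (P i)) := by
  rw [sumPl, sumPl, Finsupp.mapDomain_finsetSum]
  exact Finset.sum_congr rfl fun i _ => Finsupp.mapDomain_single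

/-- A **cartesian basis** of `L(E)`: an `L`-basis contained in `O` with `k`-independent
reductions. -/
theorem exists_cart_basis [HasPrincipalDivisors L F] (H : CoverHyp A O red sp g c)
    (P0 : Place L F) (E : Divisor L F) :
    ∃ (l : ℕ) (u : Fin l → O), l = finrank L (riemannRochSpace E) ∧
      (∀ j, (u j : F) ∈ riemannRochSpace E) ∧ LinearIndependent k (fun j => red (u j)) := by
  have hfin : Module.Finite L (riemannRochSpace E) :=
    helper981.finite_riemannRochSpace H.degL P0 E
  let b := Module.finBasis L (riemannRochSpace E)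
  have hli : LinearIndependent L (fun j => ((b j : riemannRochSpace E) : F)) :=
    b.linearIndependent.map' (riemannRochSpace E).subtype (Submodule.ker_subtype _)
  obtain ⟨u, hu, hured⟩ := H.cart E _ _ hli (fun j => (b j).2)
  exact ⟨_, u, rfl, hu, hured⟩

/-- **Reduction is onto in large degree**: every element of `L_k(sp_* E)` is the reduction of a
Gauss-integral element of `L(E)`. -/
theorem exists_lift_rr [HasPrincipalDivisors L F] [HasPrincipalDivisors k Fk]
    (H : CoverHyp A O red sp g c) (P0 : Place L F) (E : Divisor L F)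
    (hE : c ≤ Divisor.degree E) {y : Fk} (hy : y ∈ riemannRochSpace (Finsupp.mapDomain sp E)) :
    ∃ u : O, (u : F) ∈ riemannRochSpace E ∧ red u = y := by
  classical
  set Ek := Finsupp.mapDomain sp E with hEk
  have hdegk : Divisor.degree Ek = Divisor.degree E := degree_mapDomain H.degL H.degk sp E
  have hfink : Module.Finite k (riemannRochSpace Ek) :=
    helper981.finite_riemannRochSpace H.degk (sp P0) Ek
  obtain ⟨l, u, hl, hu, hli⟩ := exists_cart_basis H P0 E
  have hmem : ∀ i, red (u i) ∈ riemannRochSpace Ek := fun i => red_mem_rr H.cons (u i) E (hu i)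
  set v : Fin l → riemannRochSpace Ek := fun i => ⟨red (u i), hmem i⟩ with hv
  have hli' : LinearIndependent k v := by
    apply LinearIndependent.of_comp (riemannRochSpace Ek).subtype
    exact hli
  have hcard : Fintype.card (Fin l) = finrank k (riemannRochSpace Ek) := by
    rw [Fintype.card_fin, hl]
    have h1 := H.riemL E hE
    have h2 := H.riemk Ek (by rw [hdegk]; exact hE)
    rw [hdegk] at h2
    have h3 : (finrank L (riemannRochSpace E) : ℤ) = (finrank k (riemannRochSpace Ek) : ℤ) := by
      rw [h1, h2]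
    exact_mod_cast h3
  have hspan := hli'.span_eq_top_of_card_eq_finrank' hcard
  have hy' : (⟨y, hy⟩ : riemannRochSpace Ek) ∈ Submodule.span k (Set.range v) := by
    rw [hspan]; exact Submodule.mem_top
  obtain ⟨b, hb⟩ := (Submodule.mem_span_range_iff_exists_fun k).mp hy'
  have hks := H.const_surj
  choose a ha hred using hks
  refine ⟨∑ i, (⟨algebraMap L F (a (b i)), ha (b i)⟩ : O) * u i, ?_, ?_⟩
  · have hcoe : ((∑ i, (⟨algebraMap L F (a (b i)), ha (b i)⟩ : O) * u i : O) : F)
        = ∑ i, a (b i) • ((u i : O) : F) := by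
      rw [← O.subtype_apply, map_sum]
      refine Finset.sum_congr rfl fun i _ => ?_
      rw [map_mul, Algebra.smul_def]
      rfl
    rw [hcoe]
    exact Submodule.sum_mem _ fun i _ => Submodule.smul_mem _ _ (hu i)
  · have h1 := congrArg (fun z : riemannRochSpace Ek => (z : Fk)) hb
    simp only [Submodule.coe_sum, Submodule.coe_smul, hv] at h1
    rw [map_sum, ← h1]
    refine Finset.sum_congr rfl fun i _ => ?_
    rw [map_mul, hred, Algebra.smul_def]

/-- **The cover lemma, graded form**: for `m ≥ max n c`, `m' ≥ 1`, `m' g ≥ c`,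
`O ∩ L(m P∞ + m' ∑ P i) = O ∩ L(m P∞) + O ∩ L(m' ∑ P i) + ∑ A e i`. -/
theorem cover_graded [HasPrincipalDivisors L F] [HasPrincipalDivisors k Fk]
    (H : CoverHyp A O red sp g c) (hcard : Fintype.card ι = g)
    (Pinf : Place L F) (P : ι → Place L F)
    (hP : Function.Injective (fun i => sp (P i))) (hinf : ∀ i, sp (P i) ≠ sp Pinf)
    (hns : ∀ w ∈ riemannRochSpace (sumPl (fun i => sp (P i))), ∃ b : k, w = algebraMap k Fk b)
    (n : ℤ) (e : ι → O)
    (he : ∀ i, (e i : F) ∈ riemannRochSpace (Finsupp.single Pinf n + Finsupp.single (P i) 1))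
    (he' : ∀ i, red (e i) ∉ riemannRochSpace (Finsupp.single (sp Pinf) n : Divisor k Fk))
    (m m' : ℤ) (hm : n ≤ m) (hm0 : 0 ≤ m) (hmc : c ≤ m) (hm' : 1 ≤ m') (hm'c : c ≤ m' * g)
    {h : F} (hO : h ∈ O) (hh : h ∈ riemannRochSpace (Finsupp.single Pinf m + m' • sumPl P)) :
    ∃ (b1 b2 : F) (a : ι → L),
      b1 ∈ O ∧ b1 ∈ riemannRochSpace (Finsupp.single Pinf m : Divisor L F) ∧
      b2 ∈ O ∧ b2 ∈ riemannRochSpace (m' • sumPl P) ∧ (∀ i, a i ∈ A) ∧
      h = b1 + b2 + ∑ i, a i • (e i : F) := by
  classical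
  set Q : ι → Place k Fk := fun i => sp (P i) with hQdef
  set eb : ι → Fk := fun i => red (e i) with heb
  have hPinj : Function.Injective P := fun i j hij => hP (congrArg sp hij)
  have hAO : ∀ a : L, a ∈ A → algebraMap L F a ∈ O := fun a ha => (H.mem_iff a).mpr ha
  -- push-forwards
  have hmap1 : ∀ t : ℤ, Finsupp.mapDomain sp (Finsupp.single Pinf t : Divisor L F)
      = Finsupp.single (sp Pinf) t := fun t => Finsupp.mapDomain_single
  have hmap2 : Finsupp.mapDomain sp (m' • sumPl P) = m' • sumPl Q := by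
    rw [Finsupp.mapDomain_smul, mapDomain_sumPl]
  have hmapG : Finsupp.mapDomain sp (Finsupp.single Pinf m + m' • sumPl P)
      = Finsupp.single (sp Pinf) m + m' • sumPl Q := by
    rw [Finsupp.mapDomain_add, hmap1, hmap2]
  have heb1 : ∀ i, eb i ∈ riemannRochSpace
      (Finsupp.single (sp Pinf) n + Finsupp.single (Q i) 1) := by
    intro i
    have h1 := red_mem_rr H.cons (e i) _ (he i)
    rwa [Finsupp.mapDomain_add, hmap1, Finsupp.mapDomain_single] at h1
  -- degrees
  have hd1 : Divisor.degree (Finsupp.single Pinf m : Divisor L F) = m := by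
    rw [Divisor.degree_single, H.degL]; simp
  have hd2 : Divisor.degree (m' • sumPl P) = m' * g := by
    rw [map_zsmul, degree_sumPl H.degL, hcard, smul_eq_mul]
  -- inclusions on the generic fibre
  have hle1 : riemannRochSpace (Finsupp.single Pinf m : Divisor L F)
      ≤ riemannRochSpace (Finsupp.single Pinf m + m' • sumPl P) := by
    intro f hf v
    refine (hf v).trans (exp_le_exp.mpr ?_)
    rw [Finsupp.add_apply, Finsupp.smul_apply, smul_eq_mul]
    exact le_add_of_nonneg_right (mul_nonneg (by omega) (sumPl_apply_nonneg P v))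
  have hle2 : riemannRochSpace (m' • sumPl P)
      ≤ riemannRochSpace (Finsupp.single Pinf m + m' • sumPl P) := by
    intro f hf v
    refine (hf v).trans (exp_le_exp.mpr ?_)
    rw [Finsupp.add_apply]
    refine le_add_of_nonneg_left ?_
    rw [Finsupp.single_apply]
    split_ifs
    · exact hm0
    · exact le_rfl
  have hleE : ∀ i, (e i : F) ∈ riemannRochSpace (Finsupp.single Pinf m + m' • sumPl P) := by
    intro i v
    refine (he i v).trans (exp_le_exp.mpr ?_)
    rw [Finsupp.add_apply, Finsupp.add_apply, Finsupp.smul_apply, smul_eq_mul]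
    refine add_le_add ?_ ?_
    · rw [Finsupp.single_apply, Finsupp.single_apply]
      split_ifs
      · exact hm
      · exact le_rfl
    · by_cases hv : v = P i
      · rw [hv, sumPl_apply_self P hPinj i, Finsupp.single_apply, if_pos rfl, mul_one]
        exact hm'
      · rw [Finsupp.single_apply, if_neg (Ne.symm hv)]
        exact mul_nonneg (by omega) (sumPl_apply_nonneg P v)
  -- a cartesian basis of `L(G)`
  have hfinG : Module.Finite L (riemannRochSpace (Finsupp.single Pinf m + m' • sumPl P)) :=
    helper981.finite_riemannRochSpace H.degL Pinf _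
  obtain ⟨l, u, hl, hu, hli⟩ := exists_cart_basis H Pinf (Finsupp.single Pinf m + m' • sumPl P)
  -- decomposition of the reductions on the special fibre
  have hdec : ∀ j, ∃ (y1 y2 : Fk) (b : ι → k),
      y1 ∈ riemannRochSpace (Finsupp.single (sp Pinf) m : Divisor k Fk) ∧
      y2 ∈ riemannRochSpace (m' • sumPl Q) ∧ red (u j) = y1 + y2 + ∑ i, b i • eb i := by
    intro j
    have hmem := red_mem_rr H.cons (u j) _ (hu j)
    rw [hmapG] at hmem
    exact special_decomp H.degk g c H.riemk hcard (sp Pinf) Q hP hinf hns n eb heb1 he' m m'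
      hm hm0 hmc hm' hm'c hmem
  choose y1 y2 b hy1 hy2 hred using hdec
  -- lifts
  have hl1 : ∀ j, ∃ f1 : O, (f1 : F) ∈ riemannRochSpace (Finsupp.single Pinf m : Divisor L F) ∧
      red f1 = y1 j := fun j =>
    exists_lift_rr H Pinf _ (by rw [hd1]; exact hmc) (by rw [hmap1]; exact hy1 j)
  have hl2 : ∀ j, ∃ f2 : O, (f2 : F) ∈ riemannRochSpace (m' • sumPl P) ∧ red f2 = y2 j :=
    fun j => exists_lift_rr H Pinf _ (by rw [hd2]; exact hm'c) (by rw [hmap2]; exact hy2 j)
  choose f1 hf1 hf1r using hl1
  choose f2 hf2 hf2r using hl2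
  have hks := H.const_surj
  choose aa haa hared using hks
  -- the adapted basis
  set w : Fin l → O := fun j =>
    f1 j + f2 j + ∑ i, (⟨algebraMap L F (aa (b j i)), haa (b j i)⟩ : O) * e i with hw
  have hwred : ∀ j, red (w j) = red (u j) := by
    intro j
    rw [hred j]
    simp only [hw, map_add, map_sum, map_mul, hf1r, hf2r, hared, heb, Algebra.smul_def]
  have hwcoe : ∀ j, (w j : F) = (f1 j : F) + (f2 j : F) + ∑ i, aa (b j i) • (e i : F) := by
    intro j
    have h1 : ((∑ i, (⟨algebraMap L F (aa (b j i)), haa (b j i)⟩ : O) * e i : O) : F)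
        = ∑ i, aa (b j i) • (e i : F) := by
      rw [← O.subtype_apply, map_sum]
      refine Finset.sum_congr rfl fun i _ => ?_
      rw [map_mul, Algebra.smul_def]
      rfl
    rw [← h1]
    rfl
  have hwG : ∀ j, (w j : F) ∈ riemannRochSpace (Finsupp.single Pinf m + m' • sumPl P) := by
    intro j
    rw [hwcoe j]
    refine Submodule.add_mem _ (Submodule.add_mem _ (hle1 (hf1 j)) (hle2 (hf2 j))) ?_
    exact Submodule.sum_mem _ fun i _ => Submodule.smul_mem _ _ (hleE i)
  have hwli : LinearIndependent k (fun j => red (w j)) := by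
    have h1 : (fun j => red (w j)) = fun j => red (u j) := funext hwred
    rw [h1]
    exact hli
  have hwL : LinearIndependent L (fun j => (w j : F)) :=
    linearIndependent_of_red A hAO H.red_const w hwli
  obtain ⟨α, hα⟩ := exists_coeff_of_card_eq _ (fun j => (w j : F)) hwG hwL hl hh
  have hαA : ∀ j, α j ∈ A :=
    coeff_mem_of_sum_mem A H.mem_iff H.ker H.red_const w hwli α (hα ▸ hO)
  have hsmulO : ∀ (j : Fin l) (x : O), α j • (x : F) ∈ O := by
    intro j x
    rw [Algebra.smul_def]
    exact O.mul_mem _ _ (hAO _ (hαA j)) x.2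
  refine ⟨∑ j, α j • (f1 j : F), ∑ j, α j • (f2 j : F), fun i => ∑ j, α j * aa (b j i),
    ?_, ?_, ?_, ?_, ?_, ?_⟩
  · exact sum_mem fun j _ => hsmulO j (f1 j)
  · exact Submodule.sum_mem _ fun j _ => Submodule.smul_mem _ _ (hf1 j)
  · exact sum_mem fun j _ => hsmulO j (f2 j)
  · exact Submodule.sum_mem _ fun j _ => Submodule.smul_mem _ _ (hf2 j)
  · intro i
    exact sum_mem fun j _ => A.mul_mem _ _ (hαA j) ((H.mem_iff _).mp (haa (b j i)))
  · rw [hα]
    simp only [hwcoe, smul_add, Finset.sum_add_distrib, Finset.smul_sum, Finset.sum_smul,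
      smul_smul]
    congr 1
    exact Finset.sum_comm

/-- **The cover lemma (E)**: every Gauss-integral function regular off `{P∞} ∪ {P i}` is
`b1 + b2 + ∑ a i • e i` with `b1 ∈ O` regular off `P∞`, `b2 ∈ O` regular off the `P i` and
`a i ∈ A`. -/
theorem cover_E [HasPrincipalDivisors L F] [HasPrincipalDivisors k Fk]
    (H : CoverHyp A O red sp g c) (hcard : Fintype.card ι = g)
    (Pinf : Place L F) (P : ι → Place L F)
    (hP : Function.Injective (fun i => sp (P i))) (hinf : ∀ i, sp (P i) ≠ sp Pinf)
    (hns : ∀ w ∈ riemannRochSpace (sumPl (fun i => sp (P i))), ∃ b : k, w = algebraMap k Fk b)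
    (n : ℤ) (e : ι → O)
    (he : ∀ i, (e i : F) ∈ riemannRochSpace (Finsupp.single Pinf n + Finsupp.single (P i) 1))
    (he' : ∀ i, red (e i) ∉ riemannRochSpace (Finsupp.single (sp Pinf) n : Divisor k Fk))
    {h : F} (hO : h ∈ O)
    (hreg : ∀ v : Place L F, v ≠ Pinf → (∀ i, v ≠ P i) → h ∈ v.toValuationSubring) :
    ∃ (b1 b2 : F) (a : ι → L),
      b1 ∈ O ∧ (∀ v : Place L F, v ≠ Pinf → b1 ∈ v.toValuationSubring) ∧
      b2 ∈ O ∧ (∀ v : Place L F, (∀ i, v ≠ P i) → b2 ∈ v.toValuationSubring) ∧
      (∀ i, a i ∈ A) ∧ h = b1 + b2 + ∑ i, a i • (e i : F) := by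
  classical
  rcases isEmpty_or_nonempty ι with hι | hι
  · -- no `P i` at all: `h` is already regular off `P∞`
    refine ⟨h, 0, fun _ => 0, hO, fun v hv => hreg v hv (fun i => (IsEmpty.false i).elim),
      zero_mem _, fun v _ => zero_mem _, fun i => (IsEmpty.false i).elim, ?_⟩
    rw [Finset.univ_eq_empty, Finset.sum_empty, add_zero, add_zero]
  have hg1 : (1 : ℤ) ≤ (g : ℤ) := by
    have h1 : 0 < Fintype.card ι := Fintype.card_pos
    rw [hcard] at h1
    exact_mod_cast h1
  have hPinj : Function.Injective P := fun i j hij => hP (congrArg sp hij)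
  have hPinf : ∀ i, P i ≠ Pinf := fun i hi => hinf i (congrArg sp hi)
  set m : ℤ := max (max n c) (max 0 (-(Pinf.ord h))) with hm
  set m' : ℤ := max (max 1 c) (∑ i, max 0 (-((P i).ord h))) with hm'
  have hmn : n ≤ m := (le_max_left _ _).trans (le_max_left _ _)
  have hmc : c ≤ m := (le_max_right _ _).trans (le_max_left _ _)
  have hm0 : 0 ≤ m := (le_max_left _ _).trans (le_max_right _ _)
  have hmord : -(Pinf.ord h) ≤ m := (le_max_right _ _).trans (le_max_right _ _)
  have hm'1 : 1 ≤ m' := (le_max_left _ _).trans (le_max_left _ _)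
  have hm'c0 : c ≤ m' := (le_max_right _ _).trans (le_max_left _ _)
  have hm'ord : ∀ j, -((P j).ord h) ≤ m' := by
    intro j
    refine le_trans ?_ (le_max_right _ _)
    refine (le_max_right 0 _).trans ?_
    exact Finset.single_le_sum (f := fun i => max 0 (-((P i).ord h)))
      (fun i _ => le_max_left _ _) (Finset.mem_univ j)
  have hm'c : c ≤ m' * g := by nlinarith
  have hh : h ∈ riemannRochSpace (Finsupp.single Pinf m + m' • sumPl P) := by
    rw [mem_riemannRochSpace_iff]
    intro v
    right
    rw [Finsupp.add_apply, Finsupp.smul_apply, smul_eq_mul]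
    by_cases hv : v = Pinf
    · rw [hv, Finsupp.single_apply, if_pos rfl, sumPl_apply_of_ne P Pinf hPinf, mul_zero,
        add_zero]
      omega
    · rw [Finsupp.single_apply, if_neg (Ne.symm hv), zero_add]
      by_cases hv' : ∀ i, v ≠ P i
      · rw [sumPl_apply_of_ne P v (fun i => (hv' i).symm), mul_zero, neg_zero]
        exact helper6835.ord_nonneg_of_mem v (hreg v hv hv')
      · push Not at hv'
        obtain ⟨j, rfl⟩ := hv'
        rw [sumPl_apply_self P hPinj j, mul_one]
        have := hm'ord j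
        omega
  obtain ⟨b1, b2, a, hb1O, hb1, hb2O, hb2, ha, hsum⟩ :=
    cover_graded H hcard Pinf P hP hinf hns n e he he' m m' hmn hm0 hmc hm'1 hm'c hO hh
  exact ⟨b1, b2, a, hb1O, fun v hv => mem_of_mem_rr_single hb1 hv, hb2O,
    fun v hv => mem_of_mem_rr_sumPl hb2 hv, ha, hsum⟩

/-- **(U)** in terms of the generic data: a `k`-combination of the reductions `red (e i)`
which is the sum of a function regular off `sp P∞` and a function regular off the `sp (P i)`
is trivial. -/
theorem cover_U [HasPrincipalDivisors L F] (hC : helper6835.Cons O red sp)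
    (Pinf : Place L F) (P : ι → Place L F)
    (hP : Function.Injective (fun i => sp (P i))) (hinf : ∀ i, sp (P i) ≠ sp Pinf)
    (hns : ∀ w ∈ riemannRochSpace (sumPl (fun i => sp (P i))), ∃ b : k, w = algebraMap k Fk b)
    (n : ℤ) (e : ι → O)
    (he : ∀ i, (e i : F) ∈ riemannRochSpace (Finsupp.single Pinf n + Finsupp.single (P i) 1))
    (he' : ∀ i, red (e i) ∉ riemannRochSpace (Finsupp.single (sp Pinf) n : Divisor k Fk))
    (c : ι → k) (g1 g2 : Fk)
    (hg1 : ∀ v : Place k Fk, v ≠ sp Pinf → g1 ∈ v.toValuationSubring)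
    (hg2 : ∀ v : Place k Fk, (∀ i, v ≠ sp (P i)) → g2 ∈ v.toValuationSubring)
    (h : ∑ i, c i • red (e i) = g1 + g2) : ∀ i, c i = 0 := by
  have heb1 : ∀ i, red (e i) ∈ riemannRochSpace
      (Finsupp.single (sp Pinf) n + Finsupp.single (sp (P i)) 1) := by
    intro i
    have h1 := red_mem_rr hC (e i) _ (he i)
    rwa [Finsupp.mapDomain_add, Finsupp.mapDomain_single, Finsupp.mapDomain_single] at h1
  exact special_U (sp Pinf) (fun i => sp (P i)) hP hinf hns n (fun i => red (e i)) heb1 he'
    c g1 g2 hg1 hg2 h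

omit [Fintype ι] in
/-- **Existence of the functions `e i`**: for `n ≥ c` there are `e i ∈ O ∩ L(n P∞ + P i)` whose
reductions are not in `L_k(n sp(P∞))`. -/
theorem exists_e [HasPrincipalDivisors L F] [HasPrincipalDivisors k Fk]
    (H : CoverHyp A O red sp g c) (Pinf : Place L F) (P : ι → Place L F) (n : ℤ) (hn : c ≤ n) :
    ∃ e : ι → O,
      (∀ i, (e i : F) ∈ riemannRochSpace (Finsupp.single Pinf n + Finsupp.single (P i) 1)) ∧
      ∀ i, red (e i) ∉ riemannRochSpace (Finsupp.single (sp Pinf) n : Divisor k Fk) := by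
  classical
  have hex : ∀ i, ∃ e : O,
      (e : F) ∈ riemannRochSpace (Finsupp.single Pinf n + Finsupp.single (P i) 1) ∧
      red e ∉ riemannRochSpace (Finsupp.single (sp Pinf) n : Divisor k Fk) := by
    intro i
    set D : Divisor k Fk := Finsupp.single (sp Pinf) n with hD
    set D' : Divisor k Fk := Finsupp.single (sp Pinf) n + Finsupp.single (sp (P i)) 1 with hD'
    have hdD : Divisor.degree D = n := by
      rw [hD, Divisor.degree_single, H.degk]; simp
    have hdD' : Divisor.degree D' = n + 1 := by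
      rw [hD', map_add, Divisor.degree_single, Divisor.degree_single, H.degk, H.degk]; simp
    have h1 := H.riemk D (by rw [hdD]; exact hn)
    have h2 := H.riemk D' (by rw [hdD']; omega)
    rw [hdD] at h1
    rw [hdD'] at h2
    have hfin : Module.Finite k (riemannRochSpace D) :=
      helper981.finite_riemannRochSpace H.degk (sp Pinf) D
    have hnot : ¬ (riemannRochSpace D' ≤ riemannRochSpace D) := by
      intro hle
      have h3 := Submodule.finrank_mono hle
      have h4 : (finrank k (riemannRochSpace D') : ℤ) ≤ (finrank k (riemannRochSpace D) : ℤ) := by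
        exact_mod_cast h3
      omega
    obtain ⟨y, hy1, hy2⟩ := SetLike.not_le_iff_exists.mp hnot
    have hmap : Finsupp.mapDomain sp (Finsupp.single Pinf n + Finsupp.single (P i) 1) = D' := by
      rw [Finsupp.mapDomain_add, Finsupp.mapDomain_single, Finsupp.mapDomain_single]
    have hdE : Divisor.degree (Finsupp.single Pinf n + Finsupp.single (P i) 1 : Divisor L F)
        = n + 1 := by
      rw [map_add, Divisor.degree_single, Divisor.degree_single, H.degL, H.degL]; simp
    obtain ⟨e, he, hered⟩ := exists_lift_rr H Pinf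
      (Finsupp.single Pinf n + Finsupp.single (P i) 1) (by rw [hdE]; omega) (y := y)
      (by rw [hmap]; exact hy1)
    exact ⟨e, he, by rw [hered]; exact hy2⟩
  choose e he he' using hex
  exact ⟨e, he, he'⟩

/-- The reduction of `e i` has an exact simple pole at `sp (P i)`. -/
theorem ord_red_e [HasPrincipalDivisors L F] (hC : helper6835.Cons O red sp)
    (Pinf : Place L F) (Pi : Place L F) (hinf : sp Pi ≠ sp Pinf) (n : ℤ) (e : O)
    (he : (e : F) ∈ riemannRochSpace (Finsupp.single Pinf n + Finsupp.single Pi 1))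
    (he' : red e ∉ riemannRochSpace (Finsupp.single (sp Pinf) n : Divisor k Fk)) :
    (sp Pi).ord (red e) = -1 := by
  classical
  have h1 := red_mem_rr hC e _ he
  rw [Finsupp.mapDomain_add, Finsupp.mapDomain_single, Finsupp.mapDomain_single] at h1
  have h0 : red e ≠ 0 := fun h => he' (h ▸ zero_mem _)
  have hord := fun v => (mem_riemannRochSpace_iff.mp h1 v).resolve_left h0
  have h2 := hord (sp Pi)
  rw [Finsupp.add_apply, Finsupp.single_apply, if_neg (Ne.symm hinf), Finsupp.single_apply,
    if_pos rfl] at h2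
  by_contra hne
  apply he'
  rw [mem_riemannRochSpace_iff]
  intro v
  right
  by_cases hv : v = sp Pi
  · rw [hv, Finsupp.single_apply, if_neg (Ne.symm hinf)]
    omega
  · have h3 := hord v
    rw [Finsupp.add_apply, Finsupp.single_apply (a := sp Pi), if_neg (Ne.symm hv), add_zero] at h3
    exact h3

/-- `e i` has an exact simple pole at `P i` and is a unit at every other place of the residue
class of `P i`. -/
theorem ord_e [HasPrincipalDivisors L F] (hC : helper6835.Cons O red sp)
    (Pinf : Place L F) (Pi : Place L F) (hinf : sp Pi ≠ sp Pinf) (n : ℤ) (e : O)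
    (he : (e : F) ∈ riemannRochSpace (Finsupp.single Pinf n + Finsupp.single Pi 1))
    (he' : red e ∉ riemannRochSpace (Finsupp.single (sp Pinf) n : Divisor k Fk)) :
    Pi.ord (e : F) = -1 ∧ ∀ v : Place L F, sp v = sp Pi → v ≠ Pi → v.ord (e : F) = 0 := by
  classical
  have hred := ord_red_e hC Pinf Pi hinf n e he he'
  have h0 : red e ≠ 0 := fun h => he' (h ▸ zero_mem _)
  have hf0 : (e : F) ≠ 0 := helper6835.coe_ne_zero_of_red_ne_zero h0
  obtain ⟨D, hD, -⟩ := HasPrincipalDivisors.exists_divisor (K := L) (e : F) hf0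
  have hcons := hC e h0 D hD (sp Pi)
  rw [hred, helper6835.mapDomain_apply_eq_sum] at hcons
  have hord := fun v => (mem_riemannRochSpace_iff.mp he v).resolve_left hf0
  -- orders in the residue class of `P i`
  have hge : ∀ v : Place L F, sp v = sp Pi → v ≠ Pi → 0 ≤ D v := by
    intro v hv hne
    have h1 := hord v
    have hvinf : v ≠ Pinf := fun h => hinf (by rw [← hv, h])
    rw [Finsupp.add_apply, Finsupp.single_apply, if_neg (Ne.symm hvinf), Finsupp.single_apply,
      if_neg (Ne.symm hne)] at h1
    rw [hD v]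
    omega
  have hPi : -1 ≤ D Pi := by
    have h1 := hord Pi
    have hvinf : Pi ≠ Pinf := fun h => hinf (by rw [h])
    rw [Finsupp.add_apply, Finsupp.single_apply, if_neg (Ne.symm hvinf), Finsupp.single_apply,
      if_pos rfl] at h1
    rw [hD Pi]
    omega
  have hterm : ∀ v ∈ D.support, v ≠ Pi → 0 ≤ (if sp v = sp Pi then D v else 0) := by
    intro v _ hne
    split_ifs with hv
    · exact hge v hv hne
    · exact le_rfl
  have hmem : Pi ∈ D.support := by
    by_contra hnot
    have h1 : 0 ≤ ∑ a ∈ D.support, if sp a = sp Pi then D a else 0 :=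
      Finset.sum_nonneg fun v hv => hterm v hv (fun h => hnot (h ▸ hv))
    omega
  rw [← Finset.add_sum_erase _ _ hmem, if_pos rfl] at hcons
  have hrest : ∀ v ∈ D.support.erase Pi, 0 ≤ (if sp v = sp Pi then D v else 0) := fun v hv =>
    hterm v (Finset.mem_of_mem_erase hv) (Finset.ne_of_mem_erase hv)
  have hrest0 : 0 ≤ ∑ v ∈ D.support.erase Pi, if sp v = sp Pi then D v else 0 :=
    Finset.sum_nonneg hrest
  have hDPi : D Pi = -1 := by omega
  have hsum0 : ∑ v ∈ D.support.erase Pi, (if sp v = sp Pi then D v else 0) = 0 := by omega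
  refine ⟨by rw [← hD Pi, hDPi], fun v hv hne => ?_⟩
  rw [← hD v]
  by_cases hvs : v ∈ D.support
  · have h1 := (Finset.sum_eq_zero_iff_of_nonneg hrest).mp hsum0 v
      (Finset.mem_erase.mpr ⟨hne, hvs⟩)
    rwa [if_pos hv] at h1
  · exact Finsupp.notMem_support_iff.mp hvs

end Lift

end Fermat.Agent.S19.helper1458

end
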