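import Mathlib
import Fermat.Prelude.Def_AlgebraicCurve_DivisorClassGroup
import Fermat.Agent.S37.helper126_TorsionCore

/-!
# S19 / CALG-T1: the tube lemmas

Setting: the abstract valued function field of `S37/helper126_TorsionCore`: a valuation subring
`O` of `F` (the Gauss ring), a reduction `red : O →+* Fk`, a specialisation map `sp` on places
with the conservation law `sp (div y) = div (red y)`.  The *tube* of a place `s` of the special
fibre is `{P | sp P = s}`.

* (a) is already in `TorsionCore` (`eval_rd`, `rd_mem_of_regular`, `rd_mem_nonunits_of_regular`);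
  here are the value forms used by the coordinates: `value_mem_nonunits`, `value_sub_mem_nonunits`.
* (b) `tube_degree_eq_zero`: `f ≡ 1` modulo the maximal ideal of `O` has degree `0` in every tube,
  with the corollaries `ord_eq_zero_of_regular_tube`, `exists_zero_of_simple_pole`.
* (c) `sub_one_mem_nonunits_of_normalised`, `exists_const_mul_inv_sub_one_mem_nonunits`,
  `exists_const_of_place`: a function whose divisor has degree `0` in every tube is a constant
  times a function `≡ 1`.
* (d) `rd_mem_range_of_disjoint_poles`: two Gauss-integral functions with poles in disjoint sets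
  of tubes and sum `≡ 0` have constant reductions.
-/

set_option autoImplicit false

namespace Fermat.Agent.S19.helper1726

open AlgebraicCurve
open Fermat.Agent.S37.helper126

section MapDomain

variable {α β : Type*} (sp : α → β)

/-- The value of a push-forward at `s` is the sum over any finite set of points of the fibre
containing the support on that fibre. -/
theorem mapDomain_apply_eq_sum_fibre (D : α →₀ ℤ) (s : β) (T : Finset α)
    (hT : ∀ P ∈ T, sp P = s) (hsupp : ∀ P, sp P = s → D P ≠ 0 → P ∈ T) :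
    Finsupp.mapDomain sp D s = ∑ P ∈ T, D P := by
  classical
  rw [mapDomain_apply_eq_sum]
  have h1 : ∑ P ∈ T, D P = ∑ P ∈ T, if sp P = s then D P else 0 :=
    Finset.sum_congr rfl fun P hP => by rw [if_pos (hT P hP)]
  have h2 : ∑ P ∈ D.support, (if sp P = s then D P else 0)
      = ∑ P ∈ D.support ∪ T, if sp P = s then D P else 0 := by
    refine Finset.sum_subset Finset.subset_union_left fun P _ hP => ?_
    rw [Finsupp.mem_support_iff, not_not] at hP
    rw [hP, ite_self]
  have h3 : ∑ P ∈ T, (if sp P = s then D P else 0)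
      = ∑ P ∈ D.support ∪ T, if sp P = s then D P else 0 := by
    refine Finset.sum_subset Finset.subset_union_right fun P _ hP => ?_
    split_ifs with h
    · by_contra h0
      exact hP (hsupp P h h0)
    · rfl
  rw [h1, h2, h3]

/-- A divisor which is nonnegative on the fibre over `s` and has push-forward `0` at `s`
vanishes on that fibre. -/
theorem eq_zero_of_mapDomain_apply_eq_zero (D : α →₀ ℤ) (s : β)
    (hnn : ∀ P, sp P = s → 0 ≤ D P) (h0 : Finsupp.mapDomain sp D s = 0)
    (P : α) (hP : sp P = s) : D P = 0 := by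
  have h1 := le_mapDomain_apply sp D s hnn P hP
  have h2 := hnn P hP
  omega

end MapDomain

section Core

variable {K F k Fk : Type*} [Field K] [Field F] [Algebra K F] [Field k] [Field Fk] [Algebra k Fk]
variable {O : ValuationSubring F} {red : O →+* Fk} {sp : Place K F → Place k Fk}

/-- An element congruent to `1` modulo the maximal ideal of `O` lies in `O`. -/
theorem mem_of_sub_one_mem_nonunits {f : F} (hf : f - 1 ∈ O.nonunits) : f ∈ O := by
  have h := add_mem (mem_of_mem_nonunits O hf) (one_mem O)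
  rwa [sub_add_cancel] at h

/-- An element congruent to `1` modulo the maximal ideal of `O` reduces to `1`. -/
theorem rd_eq_one_of_sub_one_mem_nonunits (hker : RedKer O red) {f : F}
    (hf : f - 1 ∈ O.nonunits) : rd O red f = 1 := by
  have hfO := mem_of_sub_one_mem_nonunits hf
  have h0 : rd O red (f - 1) = 0 := (rd_eq_zero_iff hker (mem_of_mem_nonunits O hf)).mpr hf
  rw [rd_sub O red hfO (one_mem O), rd_one] at h0
  exact sub_eq_zero.mp h0

theorem ne_zero_of_sub_one_mem_nonunits {f : F} (hf : f - 1 ∈ O.nonunits) : f ≠ 0 := by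
  rintro rfl
  rw [zero_sub] at hf
  have := neg_mem_nonunits O hf
  rw [neg_neg] at this
  exact one_notMem_nonunits O this

/-- The inverse of an element congruent to `1` is congruent to `1`. -/
theorem inv_sub_one_mem_nonunits (hker : RedKer O red) {f : F} (hf : f - 1 ∈ O.nonunits) :
    f⁻¹ - 1 ∈ O.nonunits := by
  have hf0 := ne_zero_of_sub_one_mem_nonunits hf
  have hfO := mem_of_sub_one_mem_nonunits hf
  have hrd := rd_eq_one_of_sub_one_mem_nonunits hker hf
  have hnu : f ∉ O.nonunits := fun h => by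
    rw [← rd_eq_zero_iff hker hfO, hrd] at h
    exact one_ne_zero h
  have hinv : f⁻¹ ∈ O := inv_mem_of_notMem_nonunits O hfO hnu
  have e : f⁻¹ - 1 = -((f - 1) * f⁻¹) := by
    field_simp
    ring
  rw [e]
  exact neg_mem_nonunits O (mul_mem_nonunits_of_mem O hf hinv)

/-- The product of two elements congruent to `1` is congruent to `1`. -/
theorem mul_sub_one_mem_nonunits {f g : F} (hf : f - 1 ∈ O.nonunits)
    (hg : g - 1 ∈ O.nonunits) : f * g - 1 ∈ O.nonunits := by
  have hgO := mem_of_sub_one_mem_nonunits hg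
  have e : f * g - 1 = (f - 1) * g + (g - 1) := by ring
  rw [e]
  exact add_mem_nonunits O (mul_mem_nonunits_of_mem O hf hgO) hg

/-! ### (b) degree zero in every tube -/

/-- Conservation in `rd` form. -/
theorem mapDomain_apply_eq_ord_rd (hcons : Conservation O red sp) {f : F} (hf : f ∈ O)
    (hrd : rd O red f ≠ 0) (D : Divisor K F) (hD : ∀ P, D P = P.ord f) (s : Place k Fk) :
    Finsupp.mapDomain sp D s = s.ord (rd O red f) := by
  rw [rd_of_mem O red hf] at hrd ⊢
  exact hcons ⟨f, hf⟩ hrd D hD s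

/-- **(T1b)** A function congruent to `1` modulo the maximal ideal of `O` has as many zeros as
poles in every tube: the push-forward of its divisor vanishes. -/
theorem tube_degree_eq_zero (hker : RedKer O red) (hcons : Conservation O red sp) {f : F}
    (hf : f - 1 ∈ O.nonunits) (D : Divisor K F) (hD : ∀ P, D P = P.ord f) (s : Place k Fk) :
    Finsupp.mapDomain sp D s = 0 := by
  have hfO := mem_of_sub_one_mem_nonunits hf
  have hrd := rd_eq_one_of_sub_one_mem_nonunits hker hf
  rw [mapDomain_apply_eq_ord_rd hcons hfO (by rw [hrd]; exact one_ne_zero) D hD s, hrd,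
    Place.ord_one]

/-- (T1b), whole divisor. -/
theorem mapDomain_eq_zero_of_sub_one_mem_nonunits (hker : RedKer O red)
    (hcons : Conservation O red sp) {f : F} (hf : f - 1 ∈ O.nonunits) (D : Divisor K F)
    (hD : ∀ P, D P = P.ord f) : Finsupp.mapDomain sp D = 0 :=
  Finsupp.ext fun s => tube_degree_eq_zero hker hcons hf D hD s

/-- (T1b), sum form: over any finite set of places of the tube containing the zeros and poles
of `f` in that tube, the orders of `f` add up to `0`. -/
theorem sum_ord_tube_eq_zero [HasPrincipalDivisors K F] (hker : RedKer O red)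
    (hcons : Conservation O red sp) {f : F} (hf : f - 1 ∈ O.nonunits) (s : Place k Fk)
    (T : Finset (Place K F)) (hT : ∀ P ∈ T, sp P = s)
    (hsupp : ∀ P, sp P = s → P.ord f ≠ 0 → P ∈ T) : ∑ P ∈ T, P.ord f = 0 := by
  obtain ⟨D, hD, -⟩ := HasPrincipalDivisors.exists_divisor (K := K) f
    (ne_zero_of_sub_one_mem_nonunits hf)
  have h := tube_degree_eq_zero hker hcons hf D hD s
  rw [mapDomain_apply_eq_sum_fibre sp D s T hT (fun P hP h0 => hsupp P hP (by rwa [← hD P]))] at h
  rw [← h]
  exact Finset.sum_congr rfl fun P _ => (hD P).symm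

/-- A Gauss-integral function which is regular on the tube of `s` and whose reduction is a unit
at `s` has neither zeros nor poles on that tube. -/
theorem ord_eq_zero_of_regular_tube [HasPrincipalDivisors K F] (hcons : Conservation O red sp)
    {w : F} (hw : w ∈ O) (s : Place k Fk) (hreg : ∀ P, sp P = s → w ∈ P.toValuationSubring)
    (hrd : rd O red w ≠ 0) (hs : s.ord (rd O red w) = 0) (P : Place K F) (hP : sp P = s) :
    P.ord w = 0 := by
  have hw0 : w ≠ 0 := by
    rintro rfl
    exact hrd (rd_zero O red)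
  obtain ⟨D, hD, -⟩ := HasPrincipalDivisors.exists_divisor (K := K) w hw0
  have h := mapDomain_apply_eq_ord_rd hcons hw hrd D hD s
  rw [hs] at h
  rw [← hD P]
  exact eq_zero_of_mapDomain_apply_eq_zero sp D s
    (fun P' hP' => by rw [hD P']; exact ord_nonneg_of_mem P' (hreg P' hP')) h P hP

/-- (T1b), "no pole in the tube ⟹ no zero in the tube". -/
theorem ord_eq_zero_of_sub_one_of_regular_tube [HasPrincipalDivisors K F] (hker : RedKer O red)
    (hcons : Conservation O red sp) {f : F} (hf : f - 1 ∈ O.nonunits) (s : Place k Fk)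
    (hreg : ∀ P, sp P = s → f ∈ P.toValuationSubring) (P : Place K F) (hP : sp P = s) :
    P.ord f = 0 := by
  have hrd := rd_eq_one_of_sub_one_mem_nonunits hker hf
  exact ord_eq_zero_of_regular_tube hcons (mem_of_sub_one_mem_nonunits hf) s hreg
    (by rw [hrd]; exact one_ne_zero) (by rw [hrd, Place.ord_one]) P hP

/-- (T1b), "no zero in the tube ⟹ no pole in the tube". -/
theorem ord_eq_zero_of_sub_one_of_no_zero_tube [HasPrincipalDivisors K F] (hker : RedKer O red)
    (hcons : Conservation O red sp) {f : F} (hf : f - 1 ∈ O.nonunits) (s : Place k Fk)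
    (hnz : ∀ P, sp P = s → P.ord f ≤ 0) (P : Place K F) (hP : sp P = s) :
    P.ord f = 0 := by
  have h := ord_eq_zero_of_sub_one_of_regular_tube hker hcons (inv_sub_one_mem_nonunits hker hf) s
    (fun P' hP' => mem_of_ord_nonneg P' (by rw [P'.ord_inv]; have := hnz P' hP'; omega)) P hP
  rw [P.ord_inv] at h
  omega

/-- (T1b), the form used for the coordinates: a function `≡ 1` with exactly one simple pole `P₀`
in the tube of `s` has exactly one zero `Q` in that tube, and it is simple. -/
theorem exists_zero_of_simple_pole [HasPrincipalDivisors K F] (hker : RedKer O red)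
    (hcons : Conservation O red sp) {f : F} (hf : f - 1 ∈ O.nonunits) (s : Place k Fk)
    (P₀ : Place K F) (hP₀ : sp P₀ = s) (hpole : P₀.ord f = -1)
    (hreg : ∀ P, sp P = s → P ≠ P₀ → 0 ≤ P.ord f) :
    ∃ Q, sp Q = s ∧ Q ≠ P₀ ∧ Q.ord f = 1 ∧ ∀ P, sp P = s → P ≠ P₀ → P ≠ Q → P.ord f = 0 := by
  classical
  obtain ⟨D, hD, -⟩ := HasPrincipalDivisors.exists_divisor (K := K) f
    (ne_zero_of_sub_one_mem_nonunits hf)
  have h0 := tube_degree_eq_zero hker hcons hf D hD s
  set E : Divisor K F := D + Finsupp.single P₀ (1 : ℤ) with hE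
  have hEP₀ : E P₀ = 0 := by
    rw [hE, Finsupp.add_apply, Finsupp.single_eq_same, hD P₀, hpole]
    norm_num
  have hEne : ∀ P, P ≠ P₀ → E P = P.ord f := fun P hP => by
    rw [hE, Finsupp.add_apply, Finsupp.single_apply, if_neg (Ne.symm hP), add_zero, hD P]
  have hEnn : ∀ P, sp P = s → 0 ≤ E P := fun P hP => by
    by_cases h : P = P₀
    · rw [h, hEP₀]
    · rw [hEne P h]
      exact hreg P hP h
  have hmapE : Finsupp.mapDomain sp E s = 1 := by
    rw [hE, Finsupp.mapDomain_add, Finsupp.add_apply, h0, Finsupp.mapDomain_single, hP₀,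
      Finsupp.single_eq_same, zero_add]
  obtain ⟨Q, hQ, hQpos⟩ := exists_pos_of_mapDomain_apply_pos sp E s (by rw [hmapE]; exact one_pos)
  have hQne : Q ≠ P₀ := by
    rintro rfl
    rw [hEP₀] at hQpos
    exact lt_irrefl _ hQpos
  have hQle : E Q ≤ 1 := hmapE ▸ le_mapDomain_apply sp E s hEnn Q hQ
  have hEQ : E Q = 1 := by omega
  refine ⟨Q, hQ, hQne, by rw [← hEne Q hQne, hEQ], fun P hP hPne hPQ => ?_⟩
  have h3 := add_le_mapDomain_apply sp E s hEnn P Q hP hQ hPQ
  rw [hmapE, hEQ] at h3
  have h4 := hEnn P hP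
  rw [← hEne P hPne]
  omega

/-! ### (a) values on a tube -/

section Values

variable [HasPrincipalDivisors K F]

/-- (T1a) The value at a place of the tube of `s` of a function of the maximal ideal of `O`,
regular on that tube, lies in the maximal ideal. -/
theorem value_mem_nonunits (hker : RedKer O red) (hconst : RedConst K k O red)
    (hcons : Conservation O red sp) {h : F} (hh : h ∈ O.nonunits) (s : Place k Fk)
    (hreg : ∀ P, sp P = s → h ∈ P.toValuationSubring) (P : Place K F) (hP : sp P = s) (a : K)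
    (ha : h - algebraMap K F a ∈ P.toValuationSubring.nonunits) :
    algebraMap K F a ∈ O.nonunits := by
  have hhO := mem_of_mem_nonunits O hh
  obtain ⟨haO, hd⟩ := eval_rd hker hcons hhO s hreg P hP a ha
  rw [(rd_eq_zero_iff hker hhO).mpr hh, zero_sub] at hd
  obtain ⟨κ, hκ⟩ := rd_const hconst a haO
  have hd' := neg_mem_nonunits _ hd
  rw [neg_neg, hκ] at hd'
  have hκ0 := const_eq_zero_of_mem_nonunits s κ hd'
  rw [hκ0, map_zero] at hκ
  exact (rd_eq_zero_iff hker haO).mp hκ

/-- (T1a) The values of a Gauss-integral function, regular on the tube of `s`, at two places of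
that tube are congruent modulo the maximal ideal. -/
theorem value_sub_mem_nonunits (hker : RedKer O red) (hconst : RedConst K k O red)
    (hcons : Conservation O red sp) {h : F} (hh : h ∈ O) (s : Place k Fk)
    (hreg : ∀ P, sp P = s → h ∈ P.toValuationSubring) (P P' : Place K F) (hP : sp P = s)
    (hP' : sp P' = s) (a a' : K) (ha : h - algebraMap K F a ∈ P.toValuationSubring.nonunits)
    (ha' : h - algebraMap K F a' ∈ P'.toValuationSubring.nonunits) :
    algebraMap K F a - algebraMap K F a' ∈ O.nonunits := by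
  obtain ⟨haO, hd⟩ := eval_rd hker hcons hh s hreg P hP a ha
  obtain ⟨haO', hd'⟩ := eval_rd hker hcons hh s hreg P' hP' a' ha'
  obtain ⟨κ, hκ⟩ := rd_const hconst a haO
  obtain ⟨κ', hκ'⟩ := rd_const hconst a' haO'
  have h1 := sub_mem_nonunits _ hd' hd
  rw [sub_sub_sub_cancel_left, hκ, hκ', ← map_sub] at h1
  have h2 := const_eq_zero_of_mem_nonunits s _ h1
  rw [← rd_eq_zero_iff hker (sub_mem haO haO'), rd_sub O red haO haO', hκ, hκ',
    ← map_sub, h2, map_zero]

/-- (T1a) A function `≡ 1`, regular on the tube of `s`, takes values `≡ 1` on that tube. -/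
theorem value_sub_one_mem_nonunits (hker : RedKer O red) (hconst : RedConst K k O red)
    (hcons : Conservation O red sp) {f : F} (hf : f - 1 ∈ O.nonunits) (s : Place k Fk)
    (hreg : ∀ P, sp P = s → f ∈ P.toValuationSubring) (P : Place K F) (hP : sp P = s) (a : K)
    (ha : f - algebraMap K F a ∈ P.toValuationSubring.nonunits) :
    algebraMap K F a - 1 ∈ O.nonunits := by
  have h := value_mem_nonunits hker hconst hcons hf s
    (fun P' hP' => sub_mem (hreg P' hP') (one_mem _)) P hP (a - 1)
    (by rw [map_sub, map_one, sub_sub_sub_cancel_right]; exact ha)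
  rwa [map_sub, map_one] at h

end Values

/-! ### (c) degree zero in every tube implies constant times a one-unit -/

/-- **(T1c)**, normalised form (no lifting of constants needed): a function whose divisor has
degree `0` in every tube, regular on the tube of a place `Q₀` where it takes the value `1`, is
congruent to `1` modulo the maximal ideal of `O`. -/
theorem sub_one_mem_nonunits_of_normalised [HasPrincipalDivisors K F] (hker : RedKer O red)
    (hconst : RedConst K k O red) (hvg : ValueGroupConst K O) (hcons : Conservation O red sp)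
    (hk : ∀ w : Fk, w ≠ 0 → (∀ s : Place k Fk, s.ord w = 0) → w ∈ Set.range (algebraMap k Fk))
    {w : F} (hw0 : w ≠ 0) (D : Divisor K F) (hD : ∀ P, D P = P.ord w)
    (hsp : Finsupp.mapDomain sp D = 0) (Q₀ : Place K F)
    (hreg : ∀ P, sp P = sp Q₀ → w ∈ P.toValuationSubring)
    (hQ : w - 1 ∈ Q₀.toValuationSubring.nonunits) : w - 1 ∈ O.nonunits := by
  obtain ⟨c₀, hc₀0, hu₀O, hu₀invO⟩ := hvg w hw0
  set u₀ := w * (algebraMap K F c₀)⁻¹ with hu₀_def
  have hC₀ : algebraMap K F c₀ ≠ 0 := by simpa using hc₀0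
  have hu₀0 : u₀ ≠ 0 := mul_ne_zero hw0 (inv_ne_zero hC₀)
  have hordu₀ : ∀ P : Place K F, P.ord u₀ = P.ord w := fun P => ord_mul_const_inv P hw0 hc₀0
  have hru₀ : rd O red u₀ ≠ 0 := fun h =>
    notMem_nonunits_of_inv_mem O hu₀0 hu₀invO ((rd_eq_zero_iff hker hu₀O).mp h)
  have hord0 : ∀ s : Place k Fk, s.ord (rd O red u₀) = 0 := fun s => by
    rw [← mapDomain_apply_eq_ord_rd hcons hu₀O hru₀ D (fun P => by rw [hD P, hordu₀ P]) s, hsp,
      Finsupp.zero_apply]
  obtain ⟨κ₀, hκ₀⟩ := hk (rd O red u₀) hru₀ hord0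
  have hreg₀ : ∀ P, sp P = sp Q₀ → u₀ ∈ P.toValuationSubring := fun P hP => by
    refine mul_mem (hreg P hP) ?_
    rw [← map_inv₀]
    exact P.algebraMap_mem' _
  have hz : u₀ - algebraMap K F c₀⁻¹ ∈ Q₀.toValuationSubring.nonunits := by
    have e : u₀ - algebraMap K F c₀⁻¹ = (w - 1) * (algebraMap K F c₀)⁻¹ := by
      rw [hu₀_def, map_inv₀]
      ring
    rw [e]
    refine mul_mem_nonunits_of_mem _ hQ ?_
    rw [← map_inv₀]
    exact Q₀.algebraMap_mem' _
  obtain ⟨haO, hdiff⟩ := eval_rd hker hcons hu₀O (sp Q₀) hreg₀ Q₀ rfl c₀⁻¹ hz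
  obtain ⟨κ', hκ'⟩ := rd_const hconst c₀⁻¹ haO
  rw [← hκ₀, hκ', ← map_sub] at hdiff
  have hκeq : κ₀ = κ' := sub_eq_zero.mp (const_eq_zero_of_mem_nonunits (sp Q₀) _ hdiff)
  have hrdc : rd O red (algebraMap K F c₀⁻¹) = rd O red u₀ := by rw [hκ', ← hκeq, hκ₀]
  have hcnu : algebraMap K F c₀⁻¹ ∉ O.nonunits := fun h =>
    hru₀ (hrdc ▸ (rd_eq_zero_iff hker haO).mpr h)
  have hC₀O : algebraMap K F c₀ ∈ O := by
    have := inv_mem_of_notMem_nonunits O haO hcnu
    rwa [map_inv₀, inv_inv] at this
  have hwe : w = u₀ * algebraMap K F c₀ := by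
    rw [hu₀_def, mul_assoc, inv_mul_cancel₀ hC₀, mul_one]
  have hwO : w ∈ O := hwe ▸ mul_mem hu₀O hC₀O
  have hrw : rd O red w = 1 := by
    rw [hwe, rd_mul O red hu₀O hC₀O, ← hrdc, ← rd_mul O red haO hC₀O, map_inv₀,
      inv_mul_cancel₀ hC₀, rd_one]
  rw [← rd_eq_zero_iff hker (sub_mem hwO (one_mem O)), rd_sub O red hwO (one_mem O), hrw, rd_one,
    sub_self]

/-- **(T1c)**, with lifting of constants: a function whose divisor has degree `0` in every tube
is a constant times a function congruent to `1` modulo the maximal ideal of `O`. -/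
theorem exists_const_mul_inv_sub_one_mem_nonunits (hker : RedKer O red)
    (hvg : ValueGroupConst K O) (hcons : Conservation O red sp)
    (hk : ∀ w : Fk, w ≠ 0 → (∀ s : Place k Fk, s.ord w = 0) → w ∈ Set.range (algebraMap k Fk))
    (hlift : ∀ κ : k, ∃ a : K, algebraMap K F a ∈ O ∧
      rd O red (algebraMap K F a) = algebraMap k Fk κ)
    {w : F} (hw0 : w ≠ 0) (D : Divisor K F) (hD : ∀ P, D P = P.ord w)
    (hsp : Finsupp.mapDomain sp D = 0) :
    ∃ c : K, c ≠ 0 ∧ w * (algebraMap K F c)⁻¹ - 1 ∈ O.nonunits := by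
  obtain ⟨c₀, hc₀0, hu₀O, hu₀invO⟩ := hvg w hw0
  set u₀ := w * (algebraMap K F c₀)⁻¹ with hu₀_def
  have hC₀ : algebraMap K F c₀ ≠ 0 := by simpa using hc₀0
  have hu₀0 : u₀ ≠ 0 := mul_ne_zero hw0 (inv_ne_zero hC₀)
  have hordu₀ : ∀ P : Place K F, P.ord u₀ = P.ord w := fun P => ord_mul_const_inv P hw0 hc₀0
  have hru₀ : rd O red u₀ ≠ 0 := fun h =>
    notMem_nonunits_of_inv_mem O hu₀0 hu₀invO ((rd_eq_zero_iff hker hu₀O).mp h)
  have hord0 : ∀ s : Place k Fk, s.ord (rd O red u₀) = 0 := fun s => by
    rw [← mapDomain_apply_eq_ord_rd hcons hu₀O hru₀ D (fun P => by rw [hD P, hordu₀ P]) s, hsp,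
      Finsupp.zero_apply]
  obtain ⟨κ₀, hκ₀⟩ := hk (rd O red u₀) hru₀ hord0
  obtain ⟨a, haO, hra⟩ := hlift κ₀
  have hra0 : rd O red (algebraMap K F a) ≠ 0 := by rw [hra, hκ₀]; exact hru₀
  have ha0 : a ≠ 0 := by
    rintro rfl
    rw [map_zero, rd_zero] at hra0
    exact hra0 rfl
  have hA0 : algebraMap K F a ≠ 0 := by simpa using ha0
  have hanu : algebraMap K F a ∉ O.nonunits := fun h => hra0 ((rd_eq_zero_iff hker haO).mpr h)
  have hainvO : (algebraMap K F a)⁻¹ ∈ O := inv_mem_of_notMem_nonunits O haO hanu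
  refine ⟨c₀ * a, mul_ne_zero hc₀0 ha0, ?_⟩
  have e : w * (algebraMap K F (c₀ * a))⁻¹ = u₀ * (algebraMap K F a)⁻¹ := by
    rw [hu₀_def, map_mul, mul_inv, mul_assoc]
  have hmem : u₀ * (algebraMap K F a)⁻¹ ∈ O := mul_mem hu₀O hainvO
  rw [e, ← rd_eq_zero_iff hker (sub_mem hmem (one_mem O)), rd_sub O red hmem (one_mem O),
    rd_mul O red hu₀O hainvO, rd_inv haO hainvO hA0, hra, hκ₀, rd_one,
    mul_inv_cancel₀ hru₀, sub_self]

/-- **(T1c)**, place form: if `w` is regular on the tube of some place `Q₀` and does not vanish at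
`Q₀`, the constant is the value of `w` at `Q₀`. -/
theorem exists_const_of_place [HasPrincipalDivisors K F] (hker : RedKer O red)
    (hconst : RedConst K k O red) (hvg : ValueGroupConst K O) (hcons : Conservation O red sp)
    (hdeg1 : ResidueTrivial K F)
    (hk : ∀ w : Fk, w ≠ 0 → (∀ s : Place k Fk, s.ord w = 0) → w ∈ Set.range (algebraMap k Fk))
    {w : F} (hw0 : w ≠ 0) (D : Divisor K F) (hD : ∀ P, D P = P.ord w)
    (hsp : Finsupp.mapDomain sp D = 0) (Q₀ : Place K F)
    (hreg : ∀ P, sp P = sp Q₀ → w ∈ P.toValuationSubring) (hQ0 : Q₀.ord w = 0) :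
    ∃ c : K, c ≠ 0 ∧ w - algebraMap K F c ∈ Q₀.toValuationSubring.nonunits ∧
      w * (algebraMap K F c)⁻¹ - 1 ∈ O.nonunits := by
  obtain ⟨c, hc⟩ := hdeg1 Q₀ w (hreg Q₀ rfl)
  have hc0 : c ≠ 0 := by
    rintro rfl
    rw [map_zero, sub_zero] at hc
    have := (one_le_ord_iff Q₀ hw0).mpr hc
    omega
  have hC0 : algebraMap K F c ≠ 0 := by simpa using hc0
  have hCinv : ∀ P : Place K F, (algebraMap K F c)⁻¹ ∈ P.toValuationSubring := fun P => by
    rw [← map_inv₀]
    exact P.algebraMap_mem' _
  refine ⟨c, hc0, hc, ?_⟩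
  refine sub_one_mem_nonunits_of_normalised hker hconst hvg hcons hk
    (mul_ne_zero hw0 (inv_ne_zero hC0)) D
    (fun P => by rw [hD P, ord_mul_const_inv P hw0 hc0]) hsp Q₀
    (fun P hP => mul_mem (hreg P hP) (hCinv P)) ?_
  have e : w * (algebraMap K F c)⁻¹ - 1 = (w - algebraMap K F c) * (algebraMap K F c)⁻¹ := by
    field_simp
  rw [e]
  exact mul_mem_nonunits_of_mem _ hc (hCinv Q₀)

/-! ### (d) disjoint poles -/

/-- **(T1d)** Two Gauss-integral functions whose sum lies in the maximal ideal of `O` and whose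
poles lie in disjoint sets of tubes have reductions without poles; if functions without poles on
the special fibre are constant, both reductions are constant. -/
theorem rd_mem_range_of_disjoint_poles [HasPrincipalDivisors K F] (hker : RedKer O red)
    (hcons : Conservation O red sp)
    (hk : ∀ w : Fk, (∀ s : Place k Fk, w ∈ s.toValuationSubring) →
      w ∈ Set.range (algebraMap k Fk))
    {h g : F} (hh : h ∈ O) (hg : g ∈ O) (hsum : h + g ∈ O.nonunits)
    (hpoles : ∀ s : Place k Fk, (∀ P, sp P = s → h ∈ P.toValuationSubring) ∨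
      (∀ P, sp P = s → g ∈ P.toValuationSubring)) :
    rd O red h ∈ Set.range (algebraMap k Fk) ∧ rd O red g ∈ Set.range (algebraMap k Fk) := by
  have hrd : rd O red h + rd O red g = 0 := by
    rw [← rd_add O red hh hg]
    exact (rd_eq_zero_iff hker (add_mem hh hg)).mpr hsum
  have hg' : rd O red g = -rd O red h := by linear_combination hrd
  have hreg : ∀ s : Place k Fk, rd O red h ∈ s.toValuationSubring := fun s => by
    rcases hpoles s with h1 | h1
    · exact rd_mem_of_regular hcons hh s h1
    · have h2 := rd_mem_of_regular hcons hg s h1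
      rw [hg'] at h2
      simpa using neg_mem h2
  obtain ⟨κ, hκ⟩ := hk _ hreg
  exact ⟨⟨κ, hκ⟩, ⟨-κ, by rw [hg', map_neg, hκ]⟩⟩

end Core

end Fermat.Agent.S19.helper1726
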