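import Mathlib
import Fermat.Agent.S37.helper126_TorsionCore
import Fermat.Agent.S19.helper1726_Tubes

/-!
# S19, C-alg main line: the key lemma (T5)

Setting: a valued function field `(F, O)` over `K` with residue function field `Fk / k`, a
specialisation map `sp` on places satisfying the conservation law (the `Core` vocabulary of
`Fermat.Agent.S37.helper126`).  On an adapted cover (`R i` the base points, `Pinf` the point at
infinity, `e i` a function with a simple pole at `R i` and poles at `Pinf`), the Cech normal form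
is `cechProd e z = ∏ i, (1 + z i * e i)`.

* `key_of_factor`: if `cechProd e z' + η = cechProd e z * w₁ * w₂` with `w₁ ≡ 1`, `w₂ ≡ 1`,
  `w₁` regular off the tube of `Pinf`, `w₂` regular off the tubes of the `R i` and normalised at
  `Pinf`, and `η` divisible by the constant `δ`, then `z i - z' i` is divisible by `δ`.
* `key_of_principal`: the same conclusion from the evaluated Cech law
  `cechProd e x * cechProd e y = a₁ * a₂ * (cechProd e z' + η)` and a function `φ` whose divisor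
  is the part of `div (cechProd e x) + div (cechProd e y) - div (cechProd e z)` inside the tubes
  of the `R i` (i.e. the class of `z` is the sum of the classes of `x` and `y`).
-/

set_option autoImplicit false

namespace Fermat.Agent.S19.helper2570

open AlgebraicCurve Fermat.Agent.S37.helper126

section ValLemmas

variable {F : Type*} [Field F] (O : ValuationSubring F)

theorem mem_of_sub_one_mem_nonunits {x : F} (hx : x - 1 ∈ O.nonunits) : x ∈ O := by
  have h := add_mem (mem_of_mem_nonunits O hx) (one_mem O)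
  rwa [sub_add_cancel] at h

theorem notMem_nonunits_of_sub_one_mem_nonunits {x : F} (hx : x - 1 ∈ O.nonunits) :
    x ∉ O.nonunits := by
  intro h
  have h1 := sub_mem_nonunits O h hx
  rw [sub_sub_cancel] at h1
  exact one_notMem_nonunits O h1

theorem ne_zero_of_sub_one_mem_nonunits {x : F} (hx : x - 1 ∈ O.nonunits) : x ≠ 0 := by
  rintro rfl
  exact notMem_nonunits_of_sub_one_mem_nonunits O hx (zero_mem_nonunits' O)

theorem inv_mem_of_sub_one_mem_nonunits {x : F} (hx : x - 1 ∈ O.nonunits) : x⁻¹ ∈ O :=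
  inv_mem_of_notMem_nonunits O (mem_of_sub_one_mem_nonunits O hx)
    (notMem_nonunits_of_sub_one_mem_nonunits O hx)

theorem mul_sub_one_mem_nonunits {x y : F} (hx : x - 1 ∈ O.nonunits) (hy : y - 1 ∈ O.nonunits) :
    x * y - 1 ∈ O.nonunits := by
  have e : x * y - 1 = (x - 1) * y + (y - 1) := by ring
  rw [e]
  exact add_mem_nonunits O (mul_mem_nonunits_of_mem O hx (mem_of_sub_one_mem_nonunits O hy)) hy

theorem inv_sub_one_mem_nonunits {x : F} (hx : x - 1 ∈ O.nonunits) : x⁻¹ - 1 ∈ O.nonunits := by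
  have hx0 := ne_zero_of_sub_one_mem_nonunits O hx
  have e : x⁻¹ - 1 = -((x - 1) * x⁻¹) := by
    field_simp
    ring
  rw [e]
  exact neg_mem_nonunits O (mul_mem_nonunits_of_mem O hx (inv_mem_of_sub_one_mem_nonunits O hx))

end ValLemmas

section Prod

variable {F : Type*} [Field F] (O : ValuationSubring F) {ι : Type*}

/-- A product of factors `1 + Z i * e i` with `Z i` small is `≡ 1`. -/
theorem prod_sub_one_mem_nonunits (e Z : ι → F) (heO : ∀ i, e i ∈ O)
    (hZ : ∀ i, Z i ∈ O.nonunits) (s : Finset ι) :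
    ∏ i ∈ s, (1 + Z i * e i) - 1 ∈ O.nonunits := by
  classical
  induction s using Finset.induction_on with
  | empty =>
    rw [Finset.prod_empty, sub_self]
    exact zero_mem_nonunits' O
  | insert a s ha ih =>
    rw [Finset.prod_insert ha]
    have hP : ∏ i ∈ s, (1 + Z i * e i) ∈ O := mem_of_sub_one_mem_nonunits O ih
    have e1 : (1 + Z a * e a) * ∏ i ∈ s, (1 + Z i * e i) - 1
        = (∏ i ∈ s, (1 + Z i * e i) - 1) + Z a * (e a * ∏ i ∈ s, (1 + Z i * e i)) := by ring
    rw [e1]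
    exact add_mem_nonunits O ih (mul_mem_nonunits_of_mem O (hZ a) (mul_mem (heO a) hP))

/-- First-order expansion of the difference of two Cech products. -/
theorem prod_sub_prod (e Z Z' C : ι → F) (ϖ : F) (heO : ∀ i, e i ∈ O)
    (hZ : ∀ i, Z i ∈ O.nonunits) (hZ' : ∀ i, Z' i ∈ O.nonunits) (hC : ∀ i, C i ∈ O)
    (hdiff : ∀ i, Z i - Z' i = ϖ * C i) (s : Finset ι) :
    ∃ m ∈ O.nonunits, ∏ i ∈ s, (1 + Z i * e i) - ∏ i ∈ s, (1 + Z' i * e i)
      = ϖ * (∑ i ∈ s, C i * e i + m) := by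
  classical
  induction s using Finset.induction_on with
  | empty => exact ⟨0, zero_mem_nonunits' O, by simp⟩
  | insert a s ha ih =>
    obtain ⟨m, hm, h⟩ := ih
    have hS : ∑ i ∈ s, C i * e i ∈ O := sum_mem fun i _ => mul_mem (hC i) (heO i)
    have hP' := prod_sub_one_mem_nonunits O e Z' heO hZ' s
    refine ⟨m + Z a * (e a * (∑ i ∈ s, C i * e i + m))
        + (∏ i ∈ s, (1 + Z' i * e i) - 1) * (C a * e a), ?_, ?_⟩
    · refine add_mem_nonunits O (add_mem_nonunits O hm ?_) ?_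
      · exact mul_mem_nonunits_of_mem O (hZ a)
          (mul_mem (heO a) (add_mem hS (mem_of_mem_nonunits O hm)))
      · exact mul_mem_nonunits_of_mem O hP' (mul_mem (hC a) (heO a))
    · rw [Finset.prod_insert ha, Finset.prod_insert ha, Finset.sum_insert ha]
      have e1 : (1 + Z a * e a) * ∏ i ∈ s, (1 + Z i * e i)
          - (1 + Z' a * e a) * ∏ i ∈ s, (1 + Z' i * e i)
          = (1 + Z a * e a) * (∏ i ∈ s, (1 + Z i * e i) - ∏ i ∈ s, (1 + Z' i * e i))
            + (Z a - Z' a) * e a * ∏ i ∈ s, (1 + Z' i * e i) := by ring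
      rw [e1, h, hdiff a]
      ring

end Prod

section Core

variable {K F k Fk : Type*} [Field K] [Field F] [Algebra K F] [Field k] [Field Fk] [Algebra k Fk]
variable {O : ValuationSubring F} {red : O →+* Fk} {sp : Place K F → Place k Fk}
variable {ι : Type*} [Fintype ι]

/-- The Cech normal form on the adapted cover. -/
noncomputable def cechProd (e : ι → F) (z : ι → K) : F :=
  ∏ i, (1 + algebraMap K F (z i) * e i)

theorem cechProd_sub_one_mem_nonunits (e : ι → F) (heO : ∀ i, e i ∈ O) (z : ι → K)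
    (hz : ∀ i, algebraMap K F (z i) ∈ O.nonunits) : cechProd e z - 1 ∈ O.nonunits :=
  prod_sub_one_mem_nonunits O e (fun i => algebraMap K F (z i)) heO hz Finset.univ

theorem rd_sub_one (hker : RedKer O red) {x : F} (hx : x - 1 ∈ O.nonunits) :
    rd O red x = 1 := by
  have hxO := mem_of_sub_one_mem_nonunits O hx
  have h := (rd_eq_zero_iff hker (sub_mem hxO (one_mem O))).mpr hx
  rw [rd_sub O red hxO (one_mem O), rd_one, sub_eq_zero] at h
  exact h

omit [Fintype ι] in
theorem rd_sum (s : Finset ι) (x : ι → F) (hx : ∀ i, x i ∈ O) :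
    rd O red (∑ i ∈ s, x i) = ∑ i ∈ s, rd O red (x i) := by
  classical
  induction s using Finset.induction_on with
  | empty => rw [Finset.sum_empty, Finset.sum_empty, rd_zero]
  | insert a s ha ih =>
    rw [Finset.sum_insert ha, Finset.sum_insert ha,
      rd_add O red (hx a) (sum_mem fun i _ => hx i), ih]

/-- (T1b) A function `≡ 1` which is regular on a tube has neither zeros nor poles there. -/
theorem ord_eq_zero_of_sub_one_mem_nonunits [HasPrincipalDivisors K F] (hker : RedKer O red)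
    (hcons : Conservation O red sp) {f : F} (hf : f - 1 ∈ O.nonunits) (s : Place k Fk)
    (hreg : ∀ P, sp P = s → f ∈ P.toValuationSubring) (P₀ : Place K F) (hP₀ : sp P₀ = s) :
    P₀.ord f = 0 := by
  have hfO := mem_of_sub_one_mem_nonunits O hf
  have hf0 := ne_zero_of_sub_one_mem_nonunits O hf
  have hrd : rd O red f = 1 := rd_sub_one hker hf
  obtain ⟨D, hD, -⟩ := HasPrincipalDivisors.exists_divisor (K := K) f hf0
  have hred : red ⟨f, hfO⟩ ≠ 0 := by
    rw [← rd_of_mem O red hfO, hrd]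
    exact one_ne_zero
  have hc := hcons ⟨f, hfO⟩ hred D hD s
  rw [← rd_of_mem O red hfO, hrd, Place.ord_one] at hc
  have hnn : ∀ P, sp P = s → 0 ≤ D P := fun P hP => by
    rw [hD P]
    exact ord_nonneg_of_mem P (hreg P hP)
  have h1 := le_mapDomain_apply sp D s hnn P₀ hP₀
  have h2 := hnn P₀ hP₀
  rw [← hD P₀]
  omega

omit [Fintype ι] in
/-- Step (i) of (T5): two functions `b₁`, `b₂` (integral, `b₁` regular off the tube of `Pinf`,
`b₂` regular off the tubes of the `R i` and vanishing at `Pinf`) whose sum is small are both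
small. -/
theorem small_of_add_small [HasPrincipalDivisors K F]
    (hker : RedKer O red) (hcons : Conservation O red sp)
    (hconstk : ∀ w : Fk, (∀ s : Place k Fk, w ∈ s.toValuationSubring) →
      w ∈ Set.range (algebraMap k Fk))
    (R : ι → Place K F) (Pinf : Place K F) (hPinf : ∀ i, sp Pinf ≠ sp (R i))
    {b₁ b₂ : F} (hb₁O : b₁ ∈ O) (hb₂O : b₂ ∈ O)
    (hb₁reg : ∀ P : Place K F, sp P ≠ sp Pinf → b₁ ∈ P.toValuationSubring)
    (hb₂reg : ∀ P : Place K F, (∀ i, sp P ≠ sp (R i)) → b₂ ∈ P.toValuationSubring)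
    (hb₂inf : b₂ ∈ Pinf.toValuationSubring.nonunits)
    (hsum : b₁ + b₂ ∈ O.nonunits) :
    b₁ ∈ O.nonunits ∧ b₂ ∈ O.nonunits := by
  have hrd : rd O red b₁ + rd O red b₂ = 0 := by
    rw [← rd_add O red hb₁O hb₂O]
    exact (rd_eq_zero_iff hker (add_mem hb₁O hb₂O)).mpr hsum
  have hreg₁ : ∀ s : Place k Fk, s ≠ sp Pinf → rd O red b₁ ∈ s.toValuationSubring :=
    fun s hs => rd_mem_of_regular hcons hb₁O s fun P hP => hb₁reg P (hP ▸ hs)
  have hreg₂ : ∀ s : Place k Fk, (∀ i, s ≠ sp (R i)) → rd O red b₂ ∈ s.toValuationSubring :=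
    fun s hs => rd_mem_of_regular hcons hb₂O s fun P hP => hb₂reg P fun i => hP ▸ hs i
  have hb₁ : rd O red b₁ = -rd O red b₂ := eq_neg_of_add_eq_zero_left hrd
  have hall : ∀ s : Place k Fk, rd O red b₁ ∈ s.toValuationSubring := by
    intro s
    by_cases hs : s = sp Pinf
    · rw [hb₁]
      exact neg_mem (hreg₂ s fun i => hs ▸ hPinf i)
    · exact hreg₁ s hs
  obtain ⟨κ, hκ⟩ := hconstk _ hall
  have hb₂ : rd O red b₂ = algebraMap k Fk (-κ) := by
    rw [map_neg, hκ, hb₁, neg_neg]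
  have hb₂n : rd O red b₂ ∈ (sp Pinf).toValuationSubring.nonunits :=
    rd_mem_nonunits_of_regular hcons hb₂O (sp Pinf)
      (fun P hP => hb₂reg P fun i => hP ▸ hPinf i) Pinf rfl hb₂inf
  rw [hb₂] at hb₂n
  have hκ0 := const_eq_zero_of_mem_nonunits (sp Pinf) (-κ) hb₂n
  rw [hκ0, map_zero] at hb₂
  rw [hb₂, neg_zero] at hb₁
  exact ⟨(rd_eq_zero_iff hker hb₁O).mp hb₁, (rd_eq_zero_iff hker hb₂O).mp hb₂⟩

omit [Fintype ι] in
theorem val_const_inv_mem (P : Place K F) (r : K) :
    (algebraMap K F r)⁻¹ ∈ P.toValuationSubring := by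
  rw [← map_inv₀]
  exact P.algebraMap_mem' r⁻¹

/-- The contradiction at the heart of (T5). -/
theorem key_aux [HasPrincipalDivisors K F]
    (hker : RedKer O red) (hconst : RedConst K k O red) (hvg : ValueGroupConst K O)
    (hcons : Conservation O red sp)
    (hconstk : ∀ w : Fk, (∀ s : Place k Fk, w ∈ s.toValuationSubring) →
      w ∈ Set.range (algebraMap k Fk))
    (R : ι → Place K F) (Pinf : Place K F) (hPinf : ∀ i, sp Pinf ≠ sp (R i))
    (e : ι → F) (heO : ∀ i, e i ∈ O)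
    (hU : ∀ (c : ι → k) (g₁ g₂ : Fk),
      (∀ s : Place k Fk, s ≠ sp Pinf → g₁ ∈ s.toValuationSubring) →
      (∀ s : Place k Fk, (∀ i, s ≠ sp (R i)) → g₂ ∈ s.toValuationSubring) →
      ∑ i, algebraMap k Fk (c i) * rd O red (e i) = g₁ + g₂ → ∀ i, c i = 0)
    (z z' : ι → K) (hz : ∀ i, algebraMap K F (z i) ∈ O.nonunits)
    (hz' : ∀ i, algebraMap K F (z' i) ∈ O.nonunits)
    (δ : K) (η₀ w₁ w₂ : F) (hη₀ : η₀ ∈ O)
    (hw₂ : w₂ - 1 ∈ O.nonunits)
    (hw₁reg : ∀ P : Place K F, sp P ≠ sp Pinf → w₁ ∈ P.toValuationSubring)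
    (hw₂reg : ∀ P : Place K F, (∀ i, sp P ≠ sp (R i)) → w₂ ∈ P.toValuationSubring)
    (hw₂inf : w₂ - 1 ∈ Pinf.toValuationSubring.nonunits)
    (hfac : cechProd e z' + algebraMap K F δ * η₀ = cechProd e z * w₁ * w₂)
    (p : K) (hp0 : p ≠ 0) (c : ι → K) (hc : ∀ i, algebraMap K F (c i) ∈ O)
    (hcz : ∀ i, z i - z' i = p * c i) (k₀ : ι) (hk₀ : c k₀ = 1)
    (hlt : O.valuation (algebraMap K F δ) < O.valuation (algebraMap K F p)) : False := by
  classical
  set ϖ : F := algebraMap K F p with hϖ_def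
  have hϖ0 : ϖ ≠ 0 := by simpa [hϖ_def] using hp0
  have hvϖ : O.valuation ϖ ≠ 0 := (Valuation.ne_zero_iff _).mpr hϖ0
  have hvϖpos : 0 < O.valuation ϖ := zero_lt_iff.mpr hvϖ
  -- `ϖ` is small
  have hϖn : ϖ ∈ O.nonunits := by
    have h1 : ϖ = algebraMap K F (z k₀) - algebraMap K F (z' k₀) := by
      rw [hϖ_def, ← map_sub, hcz k₀, hk₀, mul_one]
    rw [h1]
    exact sub_mem_nonunits O (hz k₀) (hz' k₀)
  -- first-order expansion
  obtain ⟨m, hm, hdiff⟩ := prod_sub_prod O e (fun i => algebraMap K F (z i))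
    (fun i => algebraMap K F (z' i)) (fun i => algebraMap K F (c i)) ϖ heO hz hz' hc
    (fun i => by rw [← map_sub, hcz i, map_mul]) Finset.univ
  set S : F := ∑ i, algebraMap K F (c i) * e i with hS_def
  have hSO : S ∈ O := sum_mem fun i _ => mul_mem (hc i) (heO i)
  have hmO : m ∈ O := mem_of_mem_nonunits O hm
  change cechProd e z - cechProd e z' = ϖ * (S + m) at hdiff
  -- the error term
  set η₁ : F := algebraMap K F δ * ϖ⁻¹ * η₀ with hη₁_def
  have hη₁ : η₁ ∈ O.nonunits := by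
    have h1 : algebraMap K F δ * ϖ⁻¹ ∈ O.nonunits := by
      rw [O.mem_nonunits_iff, map_mul, map_inv₀]
      exact (mul_inv_lt_iff₀ hvϖpos).mpr (by rwa [one_mul])
    exact mul_mem_nonunits_of_mem O h1 hη₀
  have hη₁O : η₁ ∈ O := mem_of_mem_nonunits O hη₁
  have hηeq : algebraMap K F δ * η₀ = ϖ * η₁ := by
    rw [hη₁_def]
    field_simp
  -- the units
  have hU1 := cechProd_sub_one_mem_nonunits (O := O) e heO z hz
  have hU0 := ne_zero_of_sub_one_mem_nonunits O hU1
  have hUinv := inv_sub_one_mem_nonunits O hU1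
  set U : F := cechProd e z with hU_def
  set G : F := (η₁ - (S + m)) * U⁻¹ with hG_def
  have hW : w₁ * w₂ - 1 = ϖ * G := by
    have h1 : U * (w₁ * w₂ - 1) = ϖ * (η₁ - (S + m)) := by
      rw [hηeq] at hfac
      linear_combination (-1 : F) * hfac - hdiff
    rw [hG_def, ← mul_assoc, ← h1]
    field_simp
  have hGS : G + S ∈ O.nonunits := by
    have e1 : G + S = (η₁ - (S + m)) * (U⁻¹ - 1) + (η₁ - m) := by
      rw [hG_def]
      ring
    rw [e1]
    exact add_mem_nonunits O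
      (mul_mem_nonunits_of_mem' O (sub_mem hη₁O (add_mem hSO hmO)) hUinv)
      (sub_mem_nonunits O hη₁ hm)
  have hGO : G ∈ O := by
    have := sub_mem (mem_of_mem_nonunits O hGS) hSO
    rwa [add_sub_cancel_right] at this
  set β₁ : F := w₁ - 1 with hβ₁_def
  set β₂ : F := w₂ - 1 with hβ₂_def
  have hβ : β₁ + β₂ + β₁ * β₂ = ϖ * G := by
    rw [← hW, hβ₁_def, hβ₂_def]
    ring
  -- step (i): both `β₁`, `β₂` are divisible by `ϖ`
  have hstep : O.valuation β₁ ≤ O.valuation ϖ ∧ O.valuation β₂ ≤ O.valuation ϖ := by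
    by_contra hcon
    -- the larger of the two
    obtain ⟨β, hβ0, hβ1, hβ2, hβlt, hβmem⟩ : ∃ β : F, β ≠ 0 ∧ O.valuation β₁ ≤ O.valuation β ∧
        O.valuation β₂ ≤ O.valuation β ∧ O.valuation ϖ < O.valuation β ∧ (β = β₁ ∨ β = β₂) := by
      rcases le_total (O.valuation β₁) (O.valuation β₂) with h | h
      · have hlt' : O.valuation ϖ < O.valuation β₂ := by
          by_contra h'
          exact hcon ⟨h.trans (not_lt.mp h'), not_lt.mp h'⟩
        refine ⟨β₂, ?_, h, le_rfl, hlt', Or.inr rfl⟩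
        rintro h0
        rw [h0, map_zero] at hlt'
        exact not_lt_zero hlt'
      · have hlt' : O.valuation ϖ < O.valuation β₁ := by
          by_contra h'
          exact hcon ⟨not_lt.mp h', h.trans (not_lt.mp h')⟩
        refine ⟨β₁, ?_, le_rfl, h, hlt', Or.inl rfl⟩
        rintro h0
        rw [h0, map_zero] at hlt'
        exact not_lt_zero hlt'
    obtain ⟨ρ, hρ0, hρ1, hρ2⟩ := hvg β hβ0
    set r : F := algebraMap K F ρ with hr_def
    have hr0 : r ≠ 0 := by simpa [hr_def] using hρ0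
    have hvr : 0 < O.valuation r := zero_lt_iff.mpr ((Valuation.ne_zero_iff _).mpr hr0)
    have hvβr : O.valuation β = O.valuation r := by
      have h1 : O.valuation (β * r⁻¹) ≤ 1 := (O.valuation_le_one_iff _).mpr hρ1
      have h2 : O.valuation (β * r⁻¹)⁻¹ ≤ 1 := (O.valuation_le_one_iff _).mpr hρ2
      rw [map_inv₀] at h2
      have h3 : O.valuation (β * r⁻¹) = 1 := by
        refine le_antisymm h1 ?_
        have hne : O.valuation (β * r⁻¹) ≠ 0 :=
          (Valuation.ne_zero_iff _).mpr (mul_ne_zero hβ0 (inv_ne_zero hr0))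
        exact (inv_le_one₀ (zero_lt_iff.mpr hne)).mp h2
      rw [map_mul, map_inv₀] at h3
      exact (mul_inv_eq_one₀ hvr.ne').mp h3
    have hb₁O : β₁ * r⁻¹ ∈ O := by
      rw [← O.valuation_le_one_iff, map_mul, map_inv₀]
      exact (mul_inv_le_iff₀ hvr).mpr (by rw [one_mul, ← hvβr]; exact hβ1)
    have hb₂O : β₂ * r⁻¹ ∈ O := by
      rw [← O.valuation_le_one_iff, map_mul, map_inv₀]
      exact (mul_inv_le_iff₀ hvr).mpr (by rw [one_mul, ← hvβr]; exact hβ2)
    have hϖr : ϖ * r⁻¹ ∈ O.nonunits := by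
      rw [O.mem_nonunits_iff, map_mul, map_inv₀]
      exact (mul_inv_lt_iff₀ hvr).mpr (by rw [one_mul, ← hvβr]; exact hβlt)
    have hsum : β₁ * r⁻¹ + β₂ * r⁻¹ ∈ O.nonunits := by
      have e1 : β₁ * r⁻¹ + β₂ * r⁻¹ = ϖ * r⁻¹ * G - β₁ * r⁻¹ * β₂ := by
        have : β₁ + β₂ = ϖ * G - β₁ * β₂ := by linear_combination hβ
        calc β₁ * r⁻¹ + β₂ * r⁻¹ = (β₁ + β₂) * r⁻¹ := by ring
          _ = (ϖ * G - β₁ * β₂) * r⁻¹ := by rw [this]
          _ = ϖ * r⁻¹ * G - β₁ * r⁻¹ * β₂ := by ring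
      rw [e1]
      exact sub_mem_nonunits O (mul_mem_nonunits_of_mem O hϖr hGO)
        (mul_mem_nonunits_of_mem' O hb₁O hw₂)
    obtain ⟨hn₁, hn₂⟩ := small_of_add_small hker hcons hconstk R Pinf hPinf hb₁O hb₂O
      (fun P hP => mul_mem (sub_mem (hw₁reg P hP) (one_mem _)) (val_const_inv_mem P ρ))
      (fun P hP => mul_mem (sub_mem (hw₂reg P hP) (one_mem _)) (val_const_inv_mem P ρ))
      (mul_mem_nonunits_of_mem _ hw₂inf (val_const_inv_mem Pinf ρ)) hsum
    have hnβ : β * r⁻¹ ∈ O.nonunits := by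
      rcases hβmem with rfl | rfl
      · exact hn₁
      · exact hn₂
    exact notMem_nonunits_of_inv_mem O (mul_ne_zero hβ0 (inv_ne_zero hr0)) hρ2 hnβ
  obtain ⟨hs₁, hs₂⟩ := hstep
  -- step (ii)
  set γ₁ : F := β₁ * ϖ⁻¹ with hγ₁_def
  set γ₂ : F := β₂ * ϖ⁻¹ with hγ₂_def
  have hγ₁O : γ₁ ∈ O := by
    rw [← O.valuation_le_one_iff, hγ₁_def, map_mul, map_inv₀]
    exact (mul_inv_le_iff₀ hvϖpos).mpr (by rwa [one_mul])
  have hγ₂O : γ₂ ∈ O := by
    rw [← O.valuation_le_one_iff, hγ₂_def, map_mul, map_inv₀]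
    exact (mul_inv_le_iff₀ hvϖpos).mpr (by rwa [one_mul])
  have hγ : γ₁ + γ₂ + S ∈ O.nonunits := by
    have e1 : γ₁ + γ₂ + S = (G + S) - ϖ * (γ₁ * γ₂) := by
      have h1 : γ₁ + γ₂ + ϖ * (γ₁ * γ₂) = G := by
        rw [hγ₁_def, hγ₂_def]
        field_simp
        linear_combination hβ
      linear_combination h1
    rw [e1]
    exact sub_mem_nonunits O hGS (mul_mem_nonunits_of_mem O hϖn (mul_mem hγ₁O hγ₂O))
  have hrd : rd O red γ₁ + rd O red γ₂ + rd O red S = 0 := by
    rw [← rd_add O red hγ₁O hγ₂O, ← rd_add O red (add_mem hγ₁O hγ₂O) hSO]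
    exact (rd_eq_zero_iff hker (add_mem (add_mem hγ₁O hγ₂O) hSO)).mpr hγ
  choose κ hκ using fun i => rd_const hconst (c i) (hc i)
  have hrdS : rd O red S = ∑ i, algebraMap k Fk (κ i) * rd O red (e i) := by
    rw [hS_def, rd_sum Finset.univ _ fun i => mul_mem (hc i) (heO i)]
    refine Finset.sum_congr rfl fun i _ => ?_
    rw [rd_mul O red (hc i) (heO i), hκ i]
  have hreg₁ : ∀ s : Place k Fk, s ≠ sp Pinf → -rd O red γ₁ ∈ s.toValuationSubring :=
    fun s hs => neg_mem (rd_mem_of_regular hcons hγ₁O s fun P hP =>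
      mul_mem (sub_mem (hw₁reg P (hP ▸ hs)) (one_mem _)) (val_const_inv_mem P p))
  have hreg₂ : ∀ s : Place k Fk, (∀ i, s ≠ sp (R i)) → -rd O red γ₂ ∈ s.toValuationSubring :=
    fun s hs => neg_mem (rd_mem_of_regular hcons hγ₂O s fun P hP =>
      mul_mem (sub_mem (hw₂reg P fun i => hP ▸ hs i) (one_mem _)) (val_const_inv_mem P p))
  have hUeq : ∑ i, algebraMap k Fk (κ i) * rd O red (e i)
      = -rd O red γ₁ + -rd O red γ₂ := by
    rw [← hrdS]
    linear_combination hrd
  have hκ0 := hU κ _ _ hreg₁ hreg₂ hUeq k₀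
  have h1 := hκ k₀
  rw [hk₀, map_one, rd_one, hκ0, map_zero] at h1
  exact one_ne_zero h1

/-- **Key lemma (T5), factorised form.**  On an adapted cover (`R i`, `Pinf`, `e i` with the
uniqueness property (U) on the special fibre), if
`cechProd e z' + δ * η₀ = cechProd e z * w₁ * w₂` with `η₀` integral, `w₂ ≡ 1`, `w₁` regular off
the tube of `Pinf`, `w₂` regular off the tubes of the `R i` and `w₂(Pinf) = 1`, then every
`z i - z' i` is divisible by `δ` (in the valuation ring of constants). -/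
theorem key_of_factor [HasPrincipalDivisors K F]
    (hker : RedKer O red) (hconst : RedConst K k O red) (hvg : ValueGroupConst K O)
    (hcons : Conservation O red sp)
    (hconstk : ∀ w : Fk, (∀ s : Place k Fk, w ∈ s.toValuationSubring) →
      w ∈ Set.range (algebraMap k Fk))
    (R : ι → Place K F) (Pinf : Place K F) (hPinf : ∀ i, sp Pinf ≠ sp (R i))
    (e : ι → F) (heO : ∀ i, e i ∈ O)
    (hU : ∀ (c : ι → k) (g₁ g₂ : Fk),
      (∀ s : Place k Fk, s ≠ sp Pinf → g₁ ∈ s.toValuationSubring) →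
      (∀ s : Place k Fk, (∀ i, s ≠ sp (R i)) → g₂ ∈ s.toValuationSubring) →
      ∑ i, algebraMap k Fk (c i) * rd O red (e i) = g₁ + g₂ → ∀ i, c i = 0)
    (z z' : ι → K) (hz : ∀ i, algebraMap K F (z i) ∈ O.nonunits)
    (hz' : ∀ i, algebraMap K F (z' i) ∈ O.nonunits)
    (δ : K) (η₀ w₁ w₂ : F) (hη₀ : η₀ ∈ O)
    (hw₂ : w₂ - 1 ∈ O.nonunits)
    (hw₁reg : ∀ P : Place K F, sp P ≠ sp Pinf → w₁ ∈ P.toValuationSubring)
    (hw₂reg : ∀ P : Place K F, (∀ i, sp P ≠ sp (R i)) → w₂ ∈ P.toValuationSubring)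
    (hw₂inf : w₂ - 1 ∈ Pinf.toValuationSubring.nonunits)
    (hfac : cechProd e z' + algebraMap K F δ * η₀ = cechProd e z * w₁ * w₂) :
    ∀ i, ∃ a : K, algebraMap K F a ∈ O ∧ z i - z' i = δ * a := by
  classical
  by_cases hall : ∀ i, z i = z' i
  · intro i
    exact ⟨0, by rw [map_zero]; exact zero_mem O, by rw [hall i, sub_self, mul_zero]⟩
  obtain ⟨i₀, hi₀⟩ := not_forall.mp hall
  obtain ⟨k₀, -, hk₀⟩ := Finset.exists_max_image Finset.univ
    (fun i => O.valuation (algebraMap K F (z i - z' i))) ⟨i₀, Finset.mem_univ i₀⟩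
  set p : K := z k₀ - z' k₀ with hp_def
  have hvi₀ : O.valuation (algebraMap K F (z i₀ - z' i₀)) ≠ 0 := by
    rw [Valuation.ne_zero_iff]
    exact (map_ne_zero _).mpr (sub_ne_zero.mpr hi₀)
  have hvp : 0 < O.valuation (algebraMap K F p) :=
    lt_of_lt_of_le (zero_lt_iff.mpr hvi₀) (hk₀ i₀ (Finset.mem_univ i₀))
  have hp0 : p ≠ 0 := by
    rintro h0
    rw [h0, map_zero, map_zero] at hvp
    exact lt_irrefl _ hvp
  have hc : ∀ i, algebraMap K F ((z i - z' i) / p) ∈ O := by
    intro i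
    rw [← O.valuation_le_one_iff, map_div₀, map_div₀]
    exact (div_le_one₀ hvp).mpr (hk₀ i (Finset.mem_univ i))
  have hcz : ∀ i, z i - z' i = p * ((z i - z' i) / p) := fun i => by
    field_simp
  rcases lt_or_ge (O.valuation (algebraMap K F δ)) (O.valuation (algebraMap K F p)) with hlt | hle
  · exact (key_aux hker hconst hvg hcons hconstk R Pinf hPinf e heO hU z z' hz hz' δ η₀ w₁ w₂
      hη₀ hw₂ hw₁reg hw₂reg hw₂inf hfac p hp0 (fun i => (z i - z' i) / p) hc hcz k₀
      (div_self hp0) hlt).elim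
  · have hvδ : 0 < O.valuation (algebraMap K F δ) := lt_of_lt_of_le hvp hle
    have hδ0 : δ ≠ 0 := by
      rintro h0
      rw [h0, map_zero, map_zero] at hvδ
      exact lt_irrefl _ hvδ
    intro i
    refine ⟨(z i - z' i) / δ, ?_, by field_simp⟩
    rw [← O.valuation_le_one_iff, map_div₀, map_div₀]
    exact (div_le_one₀ hvδ).mpr ((hk₀ i (Finset.mem_univ i)).trans hle)

omit [Fintype ι] in
/-- Push-forwards of two divisors agreeing on the fibre over `s` agree at `s`. -/
theorem mapDomain_apply_congr_fibre {α β : Type*} (f : α → β) (D D' : α →₀ ℤ) (s : β)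
    (h : ∀ P, f P = s → D P = D' P) :
    Finsupp.mapDomain f D s = Finsupp.mapDomain f D' s := by
  classical
  have hT : ∀ P ∈ (D.support ∪ D'.support).filter (fun P => f P = s), f P = s :=
    fun P hP => (Finset.mem_filter.mp hP).2
  rw [helper1726.mapDomain_apply_eq_sum_fibre f D s _ hT (fun P hP h0 =>
      Finset.mem_filter.mpr ⟨Finset.mem_union_left _ (Finsupp.mem_support_iff.mpr h0), hP⟩),
    helper1726.mapDomain_apply_eq_sum_fibre f D' s _ hT (fun P hP h0 =>
      Finset.mem_filter.mpr ⟨Finset.mem_union_right _ (Finsupp.mem_support_iff.mpr h0), hP⟩)]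
  exact Finset.sum_congr rfl fun P hP => h P (hT P hP)

/-- The Cech product is regular wherever all the `e i` are. -/
theorem cechProd_mem (e : ι → F) (z : ι → K) (P : Place K F)
    (he : ∀ i, e i ∈ P.toValuationSubring) : cechProd e z ∈ P.toValuationSubring :=
  prod_mem fun i _ => add_mem (one_mem _) (mul_mem (P.algebraMap_mem' (z i)) (he i))

/-- **Key lemma (T5), divisor form.**  On an adapted cover, from the evaluated Cech law
`cechProd e x * cechProd e y = a₁ * a₂ * (cechProd e z' + δ * η₀)` and a function `φ` whose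
divisor is the part of `div (cechProd e x) + div (cechProd e y) - div (cechProd e z)` inside the
tubes of the `R i` (i.e. the class with coordinates `z` is the sum of the classes with coordinates
`x` and `y`), every `z i - z' i` is divisible by `δ`. -/
theorem key_of_principal [HasPrincipalDivisors K F]
    (hker : RedKer O red) (hconst : RedConst K k O red) (hvg : ValueGroupConst K O)
    (hcons : Conservation O red sp) (hdeg1 : ResidueTrivial K F)
    (hconstk : ∀ w : Fk, (∀ s : Place k Fk, w ∈ s.toValuationSubring) →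
      w ∈ Set.range (algebraMap k Fk))
    (R : ι → Place K F) (Pinf : Place K F) (hPinf : ∀ i, sp Pinf ≠ sp (R i))
    (e : ι → F) (heO : ∀ i, e i ∈ O)
    (hereg : ∀ (i : ι) (P : Place K F), sp P ≠ sp Pinf → (∀ j, sp P ≠ sp (R j)) →
      e i ∈ P.toValuationSubring)
    (hU : ∀ (c : ι → k) (g₁ g₂ : Fk),
      (∀ s : Place k Fk, s ≠ sp Pinf → g₁ ∈ s.toValuationSubring) →
      (∀ s : Place k Fk, (∀ i, s ≠ sp (R i)) → g₂ ∈ s.toValuationSubring) →
      ∑ i, algebraMap k Fk (c i) * rd O red (e i) = g₁ + g₂ → ∀ i, c i = 0)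
    (x y z z' : ι → K) (hx : ∀ i, algebraMap K F (x i) ∈ O.nonunits)
    (hy : ∀ i, algebraMap K F (y i) ∈ O.nonunits)
    (hz : ∀ i, algebraMap K F (z i) ∈ O.nonunits)
    (hz' : ∀ i, algebraMap K F (z' i) ∈ O.nonunits)
    (δ : K) (η₀ a₁ a₂ : F) (hη₀ : η₀ ∈ O)
    (ha₁ : a₁ - 1 ∈ O.nonunits) (ha₂ : a₂ - 1 ∈ O.nonunits)
    (ha₁reg : ∀ P : Place K F, sp P ≠ sp Pinf → a₁ ∈ P.toValuationSubring)
    (ha₂reg : ∀ P : Place K F, (∀ i, sp P ≠ sp (R i)) → a₂ ∈ P.toValuationSubring)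
    (hlaw : cechProd e x * cechProd e y
      = a₁ * a₂ * (cechProd e z' + algebraMap K F δ * η₀))
    (φ : F) (hφ0 : φ ≠ 0)
    (hφR : ∀ (P : Place K F) (i : ι), sp P = sp (R i) →
      P.ord φ = P.ord (cechProd e x) + P.ord (cechProd e y) - P.ord (cechProd e z))
    (hφ : ∀ P : Place K F, (∀ i, sp P ≠ sp (R i)) → P.ord φ = 0) :
    ∀ i, ∃ a : K, algebraMap K F a ∈ O ∧ z i - z' i = δ * a := by
  classical
  have hUx := cechProd_sub_one_mem_nonunits (O := O) e heO x hx
  have hUy := cechProd_sub_one_mem_nonunits (O := O) e heO y hy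
  have hUz := cechProd_sub_one_mem_nonunits (O := O) e heO z hz
  have hUx0 := ne_zero_of_sub_one_mem_nonunits O hUx
  have hUy0 := ne_zero_of_sub_one_mem_nonunits O hUy
  have hUz0 := ne_zero_of_sub_one_mem_nonunits O hUz
  have ha₁0 := ne_zero_of_sub_one_mem_nonunits O ha₁
  have ha₂0 := ne_zero_of_sub_one_mem_nonunits O ha₂
  obtain ⟨V, hV⟩ : ∃ V : F, V = cechProd e z' + algebraMap K F δ * η₀ := ⟨_, rfl⟩
  rw [← hV] at hlaw
  have hV0 : V ≠ 0 := by
    rintro h
    rw [h, mul_zero] at hlaw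
    exact mul_ne_zero hUx0 hUy0 hlaw
  obtain ⟨ψ, hψ⟩ : ∃ ψ : F, ψ = φ * a₂⁻¹ := ⟨_, rfl⟩
  have hψ0 : ψ ≠ 0 := by
    rw [hψ]
    exact mul_ne_zero hφ0 (inv_ne_zero ha₂0)
  have hordψ : ∀ P : Place K F, P.ord ψ = P.ord φ - P.ord a₂ := fun P => by
    rw [hψ, Place.ord_mul _ hφ0 (inv_ne_zero ha₂0), Place.ord_inv]
    ring
  -- (T1b) facts
  have hUord : ∀ u : ι → K, (∀ i, algebraMap K F (u i) ∈ O.nonunits) → ∀ P : Place K F,
      sp P ≠ sp Pinf → (∀ j, sp P ≠ sp (R j)) → P.ord (cechProd e u) = 0 :=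
    fun u hu P h1 h2 => ord_eq_zero_of_sub_one_mem_nonunits hker hcons
      (cechProd_sub_one_mem_nonunits e heO u hu) (sp P)
      (fun Q hQ => cechProd_mem e u Q fun i => hereg i Q (hQ ▸ h1) fun j => hQ ▸ h2 j) P rfl
  have ha₁ord : ∀ P : Place K F, sp P ≠ sp Pinf → P.ord a₁ = 0 := fun P h1 =>
    ord_eq_zero_of_sub_one_mem_nonunits hker hcons ha₁ (sp P)
      (fun Q hQ => ha₁reg Q (hQ ▸ h1)) P rfl
  have ha₂ord : ∀ P : Place K F, (∀ i, sp P ≠ sp (R i)) → P.ord a₂ = 0 := fun P h1 =>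
    ord_eq_zero_of_sub_one_mem_nonunits hker hcons ha₂ (sp P)
      (fun Q hQ => ha₂reg Q fun i => hQ ▸ h1 i) P rfl
  have hψord : ∀ P : Place K F, (∀ i, sp P ≠ sp (R i)) → P.ord ψ = 0 := fun P h => by
    rw [hordψ, hφ P h, ha₂ord P h, sub_zero]
  -- the divisor of `ψ` has degree `0` in every tube
  obtain ⟨Dψ, hDψ, -⟩ := HasPrincipalDivisors.exists_divisor (K := K) ψ hψ0
  obtain ⟨Dx, hDx, -⟩ := HasPrincipalDivisors.exists_divisor (K := K) _ hUx0
  obtain ⟨Dy, hDy, -⟩ := HasPrincipalDivisors.exists_divisor (K := K) _ hUy0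
  obtain ⟨Dz, hDz, -⟩ := HasPrincipalDivisors.exists_divisor (K := K) _ hUz0
  obtain ⟨Da, hDa, -⟩ := HasPrincipalDivisors.exists_divisor (K := K) _ ha₂0
  have hsp : Finsupp.mapDomain sp Dψ = 0 := by
    refine Finsupp.ext fun s => ?_
    rw [Finsupp.zero_apply]
    by_cases hs : ∃ i, s = sp (R i)
    · obtain ⟨i, rfl⟩ := hs
      have h1 : Finsupp.mapDomain sp (Dψ + Dz + Da) (sp (R i))
          = Finsupp.mapDomain sp (Dx + Dy) (sp (R i)) :=
        mapDomain_apply_congr_fibre sp _ _ _ fun P hP => by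
          rw [Finsupp.add_apply, Finsupp.add_apply, Finsupp.add_apply, hDψ, hDz, hDa, hDx, hDy,
            hordψ, hφR P i hP]
          ring
      rw [Finsupp.mapDomain_add, Finsupp.mapDomain_add, Finsupp.mapDomain_add,
        Finsupp.add_apply, Finsupp.add_apply, Finsupp.add_apply,
        helper1726.tube_degree_eq_zero hker hcons hUz Dz hDz,
        helper1726.tube_degree_eq_zero hker hcons ha₂ Da hDa,
        helper1726.tube_degree_eq_zero hker hcons hUx Dx hDx,
        helper1726.tube_degree_eq_zero hker hcons hUy Dy hDy] at h1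
      simpa using h1
    · have hs' : ∀ i, s ≠ sp (R i) := fun i hi => hs ⟨i, hi⟩
      rw [helper1726.mapDomain_apply_eq_sum_fibre sp Dψ s ∅ (fun P hP => by simp at hP)
        (fun P hP h0 => absurd (by rw [hDψ]; exact hψord P fun i => hP ▸ hs' i) h0)]
      exact Finset.sum_empty
  have hk : ∀ w : Fk, w ≠ 0 → (∀ s : Place k Fk, s.ord w = 0) →
      w ∈ Set.range (algebraMap k Fk) := fun w _ hw =>
    hconstk w fun s => mem_of_ord_nonneg s (by rw [hw s])
  have hψreg : ∀ P : Place K F, sp P = sp Pinf → ψ ∈ P.toValuationSubring := fun P hP =>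
    mem_of_ord_nonneg P (by rw [hψord P fun i => hP ▸ hPinf i])
  obtain ⟨c, hc0, hcinf, hcO⟩ := helper1726.exists_const_of_place hker hconst hvg hcons hdeg1 hk
    hψ0 Dψ hDψ hsp Pinf hψreg (hψord Pinf hPinf)
  have hC0 : algebraMap K F c ≠ 0 := (map_ne_zero _).mpr hc0
  have hw₂0 : ψ * (algebraMap K F c)⁻¹ ≠ 0 := mul_ne_zero hψ0 (inv_ne_zero hC0)
  have hVord : ∀ P : Place K F,
      P.ord V = P.ord (cechProd e x) + P.ord (cechProd e y) - P.ord a₁ - P.ord a₂ := fun P => by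
    have h := congrArg P.ord hlaw
    rw [Place.ord_mul _ hUx0 hUy0, Place.ord_mul _ (mul_ne_zero ha₁0 ha₂0) hV0,
      Place.ord_mul _ ha₁0 ha₂0] at h
    omega
  refine key_of_factor hker hconst hvg hcons hconstk R Pinf hPinf e heO hU z z' hz hz' δ η₀
    (V * (cechProd e z * (ψ * (algebraMap K F c)⁻¹))⁻¹) (ψ * (algebraMap K F c)⁻¹) hη₀ hcO
    ?_ ?_ ?_ ?_
  · intro P hP
    refine mem_of_ord_nonneg P (le_of_eq (Eq.symm ?_))
    rw [Place.ord_mul _ hV0 (inv_ne_zero (mul_ne_zero hUz0 hw₂0)), Place.ord_inv,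
      Place.ord_mul _ hUz0 hw₂0, ord_mul_const_inv P hψ0 hc0, hVord, hordψ, ha₁ord P hP]
    by_cases h : ∃ i, sp P = sp (R i)
    · obtain ⟨i, hi⟩ := h
      rw [hφR P i hi]
      ring
    · have h' : ∀ i, sp P ≠ sp (R i) := fun i hi => h ⟨i, hi⟩
      rw [hφ P h', hUord x hx P hP h', hUord y hy P hP h', hUord z hz P hP h', ha₂ord P h']
      ring
  · intro P hP
    exact mul_mem (mem_of_ord_nonneg P (by rw [hψord P hP])) (val_const_inv_mem P c)
  · have e1 : ψ * (algebraMap K F c)⁻¹ - 1 = (ψ - algebraMap K F c) * (algebraMap K F c)⁻¹ := by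
      field_simp
    rw [e1]
    exact mul_mem_nonunits_of_mem _ hcinf (val_const_inv_mem Pinf c)
  · rw [← hV]
    field_simp

end Core

end Fermat.Agent.S19.helper2570
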