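import Mathlib

/-!
# S19 CALG-LAW: existence half of the Čech unit factorisation, polynomial form

`R₀` a commutative ring, `B` a commutative `R₀`-algebra, `B₁ B₂ : Subalgebra R₀ B`,
`e : ι → B` (finite family) with

  (E)  `B = B₁ + B₂ + ∑ R₀ e k`   (as `R₀`-modules).

Then every polynomial `u` over `B` with constant coefficient `1` factors, modulo
any power of the ideal of the variables, as

  `u ≡ a₁ * a₂ * ∏ k, (1 + C (e k) * F k)`

with `a₁`, `a₂` polynomials with coefficients in `B₁`, `B₂` and constant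
coefficient `1`, and `F k` polynomials over `R₀` without constant term.
Applied to `u = ∏ (1 + e k X k) * ∏ (1 + e k Y k)` this is the addition law
(`(T3)` of the C-alg line), together with evaluated forms for a valuation.
-/

namespace Fermat.Agent.S19.helper8101

open MvPolynomial

section Abstract

variable {S : Type*} [CommRing S] {ι : Type*}

theorem mul_sub_one_mem {I : Ideal S} {x y : S} (hx : x - 1 ∈ I) (hy : y - 1 ∈ I) :
    x * y - 1 ∈ I := by
  have : x * y - 1 = x * (y - 1) + (x - 1) := by ring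
  rw [this]
  exact I.add_mem (I.mul_mem_left _ hy) hx

/-- Perturbing the parameters of `∏ (1 + e k * f k)` by elements `c k` of an ideal `K`
changes the product by `∑ e k * c k` modulo `K * I`. -/
theorem prod_perturb (I K L : Ideal S) (hK : K ≤ I) (hKI : ∀ x ∈ K, ∀ y ∈ I, x * y ∈ L)
    (f c e : ι → S) (hf : ∀ k, f k ∈ I) (hc : ∀ k, c k ∈ K) (s : Finset ι) :
    (∏ k ∈ s, (1 + e k * (f k + c k))) - (∏ k ∈ s, (1 + e k * f k)) - ∑ k ∈ s, e k * c k ∈ L ∧
      (∏ k ∈ s, (1 + e k * f k)) - 1 ∈ I := by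
  classical
  induction s using Finset.induction_on with
  | empty => simp
  | insert a s ha ih =>
    obtain ⟨ih1, ih2⟩ := ih
    rw [Finset.prod_insert ha, Finset.prod_insert ha, Finset.sum_insert ha]
    have hSK : ∑ k ∈ s, e k * c k ∈ K := Ideal.sum_mem _ fun k _ => Ideal.mul_mem_left _ _ (hc k)
    constructor
    · have : (1 + e a * (f a + c a)) * (∏ k ∈ s, (1 + e k * (f k + c k))) -
          (1 + e a * f a) * (∏ k ∈ s, (1 + e k * f k)) - (e a * c a + ∑ k ∈ s, e k * c k) =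
          (1 + e a * (f a + c a)) * ((∏ k ∈ s, (1 + e k * (f k + c k))) -
            (∏ k ∈ s, (1 + e k * f k)) - ∑ k ∈ s, e k * c k) +
          c a * (e a * ((∏ k ∈ s, (1 + e k * f k)) - 1)) +
          (∑ k ∈ s, e k * c k) * (e a * f a) + c a * (e a * ∑ k ∈ s, e k * c k) := by ring
      rw [this]
      exact L.add_mem (L.add_mem (L.add_mem (L.mul_mem_left _ ih1)
        (hKI _ (hc a) _ (I.mul_mem_left _ ih2))) (hKI _ hSK _ (I.mul_mem_left _ (hf a))))
        (hKI _ (hc a) _ (I.mul_mem_left _ (hK hSK)))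
    · have : (1 + e a * f a) * (∏ k ∈ s, (1 + e k * f k)) - 1 =
          (1 + e a * f a) * ((∏ k ∈ s, (1 + e k * f k)) - 1) + e a * f a := by ring
      rw [this]
      exact I.add_mem (I.mul_mem_left _ ih2) (I.mul_mem_left _ (hf a))

/-- Perturbing all three factors of `a₁ * a₂ * P`. -/
theorem factor_perturb (I K L : Ideal S) (hK : K ≤ I) (hKI : ∀ x ∈ K, ∀ y ∈ I, x * y ∈ L)
    (a₁ a₂ P P' β₁ β₂ γ : S) (h1 : a₁ - 1 ∈ I) (h2 : a₂ - 1 ∈ I) (hP : P - 1 ∈ I)
    (hβ₁ : β₁ ∈ K) (hβ₂ : β₂ ∈ K) (hγ : γ ∈ K) (hP' : P' - P - γ ∈ L) :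
    (a₁ + β₁) * (a₂ + β₂) * P' - a₁ * a₂ * P - (β₁ + β₂ + γ) ∈ L := by
  have e : (a₁ + β₁) * (a₂ + β₂) * P' - a₁ * a₂ * P - (β₁ + β₂ + γ) =
      (a₁ + β₁) * (a₂ + β₂) * (P' - P - γ) + γ * (a₁ * a₂ - 1) + β₁ * (a₂ * P - 1) +
        β₂ * (a₁ * P - 1) + β₁ * (β₂ * P) + γ * (β₁ * a₂ + a₁ * β₂ + β₁ * β₂) := by ring
  rw [e]
  refine L.add_mem (L.add_mem (L.add_mem (L.add_mem (L.add_mem (L.mul_mem_left _ hP') ?_) ?_) ?_)
    ?_) ?_
  · exact hKI _ hγ _ (mul_sub_one_mem h1 h2)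
  · exact hKI _ hβ₁ _ (mul_sub_one_mem h2 hP)
  · exact hKI _ hβ₂ _ (mul_sub_one_mem h1 hP)
  · exact hKI _ hβ₁ _ (I.mul_mem_right _ (hK hβ₂))
  · exact hKI _ hγ _ (I.add_mem (I.add_mem (I.mul_mem_right _ (hK hβ₁))
      (I.mul_mem_left _ (hK hβ₂))) (I.mul_mem_right _ (hK hβ₁)))

end Abstract

section Poly

variable {R₀ B : Type*} [CommRing R₀] [CommRing B] [Algebra R₀ B]
variable {ι σ : Type*}

open scoped Classical in
theorem coeff_sum_monomial {R : Type*} [CommSemiring R] (s : Finset (σ →₀ ℕ))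
    (g : (σ →₀ ℕ) → R) (m : σ →₀ ℕ) :
    coeff m (∑ n ∈ s, monomial n (g n)) = if m ∈ s then g m else 0 := by
  rw [coeff_sum]
  simp only [coeff_monomial]
  rw [Finset.sum_ite_eq' s m]

theorem constantCoeff_eq_zero_iff_mem {R : Type*} [CommRing R] (p : MvPolynomial σ R) :
    constantCoeff p = 0 ↔ p ∈ idealOfVars σ R := by
  rw [← pow_one (idealOfVars σ R), mem_pow_idealOfVars_iff']
  constructor
  · intro h x hx
    have : x = 0 := by
      ext i
      have := Finsupp.le_degree i x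
      simp only [Finsupp.coe_zero, Pi.zero_apply]
      omega
    rw [this, ← constantCoeff_eq]
    exact h
  · intro h
    rw [constantCoeff_eq]
    exact h 0 (by simp)

theorem sub_one_mem_idealOfVars {R : Type*} [CommRing R] (p : MvPolynomial σ R)
    (hp : constantCoeff p = 1) : p - 1 ∈ idealOfVars σ R := by
  rw [← constantCoeff_eq_zero_iff_mem]
  simp [hp]

/-- Coefficientwise decomposition along `(E)`. -/
theorem exists_decomp [Fintype ι] (B₁ B₂ : Subalgebra R₀ B) (e : ι → B)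
    (hE : Subalgebra.toSubmodule B₁ ⊔ Subalgebra.toSubmodule B₂ ⊔
      Submodule.span R₀ (Set.range e) = ⊤)
    (η : MvPolynomial σ B) :
    ∃ (β₁ β₂ : MvPolynomial σ B) (c : ι → MvPolynomial σ R₀),
      (∀ m, β₁.coeff m ∈ B₁) ∧ (∀ m, β₂.coeff m ∈ B₂) ∧
      η = β₁ + β₂ + ∑ k, C (e k) * map (algebraMap R₀ B) (c k) ∧
      (∀ m, η.coeff m = 0 → β₁.coeff m = 0 ∧ β₂.coeff m = 0 ∧ ∀ k, (c k).coeff m = 0) := by
  classical
  have key : ∀ b : B, ∃ (b₁ b₂ : B) (r : ι → R₀), b₁ ∈ B₁ ∧ b₂ ∈ B₂ ∧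
      b = b₁ + b₂ + ∑ k, r k • e k := by
    intro b
    have hb : b ∈ Subalgebra.toSubmodule B₁ ⊔ Subalgebra.toSubmodule B₂ ⊔
        Submodule.span R₀ (Set.range e) := by rw [hE]; trivial
    obtain ⟨x, hx, z, hz, rfl⟩ := Submodule.mem_sup.mp hb
    obtain ⟨b₁, hb₁, b₂, hb₂, rfl⟩ := Submodule.mem_sup.mp hx
    obtain ⟨r, rfl⟩ := (Submodule.mem_span_range_iff_exists_fun R₀).mp hz
    exact ⟨b₁, b₂, r, hb₁, hb₂, rfl⟩
  choose b₁ b₂ r hb₁ hb₂ hb using key
  refine ⟨∑ m ∈ η.support, monomial m (b₁ (η.coeff m)),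
    ∑ m ∈ η.support, monomial m (b₂ (η.coeff m)),
    fun k => ∑ m ∈ η.support, monomial m (r (η.coeff m) k), ?_, ?_, ?_, ?_⟩
  · intro m
    rw [coeff_sum_monomial]
    split_ifs
    · exact hb₁ _
    · exact B₁.zero_mem
  · intro m
    rw [coeff_sum_monomial]
    split_ifs
    · exact hb₂ _
    · exact B₂.zero_mem
  · ext m
    have h3 : ∀ k, coeff m (C (e k) * map (algebraMap R₀ B)
        (∑ n ∈ η.support, monomial n (r (η.coeff n) k))) =
        if m ∈ η.support then r (η.coeff m) k • e k else 0 := by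
      intro k
      rw [coeff_C_mul, coeff_map, coeff_sum_monomial]
      split_ifs
      · rw [Algebra.smul_def, mul_comm]
      · simp
    rw [coeff_add, coeff_add, coeff_sum_monomial, coeff_sum_monomial, coeff_sum]
    simp only [h3]
    by_cases hm : m ∈ η.support
    · simp only [if_pos hm]
      exact hb _
    · simp only [if_neg hm]
      simpa using hm
  · intro m hm
    have hm' : m ∉ η.support := by simpa using hm
    refine ⟨?_, ?_, fun k => ?_⟩ <;> rw [coeff_sum_monomial, if_neg hm']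

theorem map_mem_pow_idealOfVars {R T : Type*} [CommRing R] [CommRing T] (g : R →+* T) (n : ℕ)
    (p : MvPolynomial σ R) (hp : ∀ m, Finsupp.degree m < n → p.coeff m = 0) :
    map g p ∈ idealOfVars σ T ^ n := by
  rw [mem_pow_idealOfVars_iff']
  intro m hm
  rw [coeff_map, hp m hm, map_zero]

/-- **Čech unit factorisation, existence half, polynomial form.**  Under `(E)`, every
polynomial `u` over `B` with constant coefficient `1` is, modulo the `d`-th power of the ideal of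
the variables, of the form `a₁ * a₂ * ∏ (1 + e k * F k)`. -/
theorem exists_factorisation [Fintype ι] (B₁ B₂ : Subalgebra R₀ B) (e : ι → B)
    (hE : Subalgebra.toSubmodule B₁ ⊔ Subalgebra.toSubmodule B₂ ⊔
      Submodule.span R₀ (Set.range e) = ⊤)
    (u : MvPolynomial σ B) (hu : constantCoeff u = 1) (d : ℕ) :
    ∃ (F : ι → MvPolynomial σ R₀) (a₁ a₂ : MvPolynomial σ B),
      (∀ k, constantCoeff (F k) = 0) ∧
      (∀ m, a₁.coeff m ∈ B₁) ∧ constantCoeff a₁ = 1 ∧
      (∀ m, a₂.coeff m ∈ B₂) ∧ constantCoeff a₂ = 1 ∧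
      u - a₁ * a₂ * ∏ k, (1 + C (e k) * map (algebraMap R₀ B) (F k)) ∈ idealOfVars σ B ^ d := by
  classical
  have base : ∃ (F : ι → MvPolynomial σ R₀) (a₁ a₂ : MvPolynomial σ B),
      (∀ k, constantCoeff (F k) = 0) ∧
      (∀ m, a₁.coeff m ∈ B₁) ∧ constantCoeff a₁ = 1 ∧
      (∀ m, a₂.coeff m ∈ B₂) ∧ constantCoeff a₂ = 1 ∧
      u - a₁ * a₂ * ∏ k, (1 + C (e k) * map (algebraMap R₀ B) (F k)) ∈ idealOfVars σ B ^ 1 := by
    have hone : ∀ (T : Subalgebra R₀ B) (m : σ →₀ ℕ), (1 : MvPolynomial σ B).coeff m ∈ T := by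
      intro T m
      rw [coeff_one]
      split_ifs
      · exact T.one_mem
      · exact T.zero_mem
    refine ⟨fun _ => 0, 1, 1, fun _ => by simp, hone B₁, by simp, hone B₂, by simp, ?_⟩
    simp only [map_zero, mul_zero, add_zero, Finset.prod_const_one, mul_one, pow_one]
    exact sub_one_mem_idealOfVars u hu
  induction d with
  | zero =>
    obtain ⟨F, a₁, a₂, hF, h1, h1c, h2, h2c, -⟩ := base
    exact ⟨F, a₁, a₂, hF, h1, h1c, h2, h2c, by simp⟩
  | succ d ih =>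
    rcases Nat.eq_zero_or_pos d with rfl | hd
    · exact base
    obtain ⟨F, a₁, a₂, hF, h1, h1c, h2, h2c, hη⟩ := ih
    obtain ⟨β₁, β₂, c, hβ₁, hβ₂, hdec, hsupp⟩ := exists_decomp B₁ B₂ e hE
      (u - a₁ * a₂ * ∏ k, (1 + C (e k) * map (algebraMap R₀ B) (F k)))
    have hη' := (mem_pow_idealOfVars_iff' d _).mp hη
    have hβ₁d : β₁ ∈ idealOfVars σ B ^ d :=
      (mem_pow_idealOfVars_iff' d _).mpr fun x hx => (hsupp x (hη' x hx)).1
    have hβ₂d : β₂ ∈ idealOfVars σ B ^ d :=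
      (mem_pow_idealOfVars_iff' d _).mpr fun x hx => (hsupp x (hη' x hx)).2.1
    have hcd : ∀ k, map (algebraMap R₀ B) (c k) ∈ idealOfVars σ B ^ d := fun k =>
      map_mem_pow_idealOfVars _ d _ fun x hx => (hsupp x (hη' x hx)).2.2 k
    have h0 : coeff 0 (u - a₁ * a₂ * ∏ k, (1 + C (e k) * map (algebraMap R₀ B) (F k))) = 0 :=
      hη' 0 (by simpa using hd)
    have hKle : idealOfVars σ B ^ d ≤ idealOfVars σ B := Ideal.pow_le_self hd.ne'
    have hKI : ∀ x ∈ idealOfVars σ B ^ d, ∀ y ∈ idealOfVars σ B,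
        x * y ∈ idealOfVars σ B ^ (d + 1) := by
      intro x hx y hy
      rw [pow_succ]
      exact Ideal.mul_mem_mul hx hy
    have hfI : ∀ k, map (algebraMap R₀ B) (F k) ∈ idealOfVars σ B := by
      intro k
      rw [← constantCoeff_eq_zero_iff_mem, constantCoeff_map, hF k, map_zero]
    obtain ⟨hP1, hP2⟩ := prod_perturb (idealOfVars σ B) (idealOfVars σ B ^ d)
      (idealOfVars σ B ^ (d + 1)) hKle hKI (fun k => map (algebraMap R₀ B) (F k))
      (fun k => map (algebraMap R₀ B) (c k)) (fun k => C (e k)) hfI hcd Finset.univ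
    have hγ : ∑ k, C (e k) * map (algebraMap R₀ B) (c k) ∈ idealOfVars σ B ^ d :=
      Ideal.sum_mem _ fun k _ => Ideal.mul_mem_left _ _ (hcd k)
    have hfin := factor_perturb (idealOfVars σ B) (idealOfVars σ B ^ d)
      (idealOfVars σ B ^ (d + 1)) hKle hKI a₁ a₂ _ _ β₁ β₂ _
      (sub_one_mem_idealOfVars a₁ h1c) (sub_one_mem_idealOfVars a₂ h2c) hP2 hβ₁d hβ₂d hγ hP1
    refine ⟨fun k => F k + c k, a₁ + β₁, a₂ + β₂, ?_, ?_, ?_, ?_, ?_, ?_⟩
    · intro k
      rw [map_add, hF k, zero_add, constantCoeff_eq]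
      exact (hsupp 0 h0).2.2 k
    · intro m
      rw [coeff_add]
      exact B₁.add_mem (h1 m) (hβ₁ m)
    · rw [map_add, h1c, constantCoeff_eq, (hsupp 0 h0).1, add_zero]
    · intro m
      rw [coeff_add]
      exact B₂.add_mem (h2 m) (hβ₂ m)
    · rw [map_add, h2c, constantCoeff_eq, (hsupp 0 h0).2.1, add_zero]
    · have hrw : u - (a₁ + β₁) * (a₂ + β₂) *
          ∏ k, (1 + C (e k) * map (algebraMap R₀ B) (F k + c k)) =
          -((a₁ + β₁) * (a₂ + β₂) *
            (∏ k, (1 + C (e k) * (map (algebraMap R₀ B) (F k) + map (algebraMap R₀ B) (c k)))) -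
            a₁ * a₂ * (∏ k, (1 + C (e k) * map (algebraMap R₀ B) (F k))) -
            (β₁ + β₂ + ∑ k, C (e k) * map (algebraMap R₀ B) (c k))) := by
        simp only [map_add]
        linear_combination hdec
      rw [hrw]
      exact neg_mem hfin

/-- **The addition law (`(T3)`), polynomial form.**  With variables `X k = X (inl k)` and
`Y k = X (inr k)`:
`∏ (1 + e k X k) * ∏ (1 + e k Y k) ≡ a₁ * a₂ * ∏ (1 + e k F k)` modulo `(X, Y) ^ d`. -/
theorem exists_law [Fintype ι] (B₁ B₂ : Subalgebra R₀ B) (e : ι → B)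
    (hE : Subalgebra.toSubmodule B₁ ⊔ Subalgebra.toSubmodule B₂ ⊔
      Submodule.span R₀ (Set.range e) = ⊤) (d : ℕ) :
    ∃ (F : ι → MvPolynomial (ι ⊕ ι) R₀) (a₁ a₂ : MvPolynomial (ι ⊕ ι) B),
      (∀ k, constantCoeff (F k) = 0) ∧
      (∀ m, a₁.coeff m ∈ B₁) ∧ constantCoeff a₁ = 1 ∧
      (∀ m, a₂.coeff m ∈ B₂) ∧ constantCoeff a₂ = 1 ∧
      (∏ k, (1 + C (e k) * X (Sum.inl k))) * (∏ k, (1 + C (e k) * X (Sum.inr k))) -
        a₁ * a₂ * ∏ k, (1 + C (e k) * map (algebraMap R₀ B) (F k)) ∈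
          idealOfVars (ι ⊕ ι) B ^ d :=
  exists_factorisation B₁ B₂ e hE _ (by simp) d

end Poly

section Ambient

variable {R₀ Ω : Type*} [CommRing R₀] [CommRing Ω] [Algebra R₀ Ω] {ι : Type*}

/-- **The addition law, ambient form**: `B₁ B₂ ≤ B₁₂` subalgebras of a commutative ring `Ω`,
`e k ∈ B₁₂`, `(E) : B₁₂ ≤ B₁ + B₂ + ∑ R₀ e k`.  The error term `η` is returned explicitly. -/
theorem exists_law_ambient [Fintype ι] (B₁ B₂ B₁₂ : Subalgebra R₀ Ω)
    (h1 : B₁ ≤ B₁₂) (h2 : B₂ ≤ B₁₂) (e : ι → Ω) (he : ∀ k, e k ∈ B₁₂)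
    (hE : Subalgebra.toSubmodule B₁₂ ≤ Subalgebra.toSubmodule B₁ ⊔ Subalgebra.toSubmodule B₂ ⊔
      Submodule.span R₀ (Set.range e)) (d : ℕ) :
    ∃ (F : ι → MvPolynomial (ι ⊕ ι) R₀) (a₁ a₂ η : MvPolynomial (ι ⊕ ι) Ω),
      (∀ k, constantCoeff (F k) = 0) ∧
      (∀ m, a₁.coeff m ∈ B₁) ∧ constantCoeff a₁ = 1 ∧
      (∀ m, a₂.coeff m ∈ B₂) ∧ constantCoeff a₂ = 1 ∧
      (∀ m, η.coeff m ∈ B₁₂) ∧ η ∈ idealOfVars (ι ⊕ ι) Ω ^ d ∧
      (∏ k, (1 + C (e k) * X (Sum.inl k))) * (∏ k, (1 + C (e k) * X (Sum.inr k))) =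
        a₁ * a₂ * ∏ k, (1 + C (e k) * map (algebraMap R₀ Ω) (F k)) + η := by
  classical
  have hE' : Subalgebra.toSubmodule (B₁.comap B₁₂.val) ⊔ Subalgebra.toSubmodule (B₂.comap B₁₂.val) ⊔
      Submodule.span R₀ (Set.range fun k => (⟨e k, he k⟩ : B₁₂)) = ⊤ := by
    rw [eq_top_iff]
    rintro ⟨b, hb⟩ -
    obtain ⟨x, hx, z, hz, hxz⟩ := Submodule.mem_sup.mp (hE hb)
    obtain ⟨b₁, hb₁, b₂, hb₂, rfl⟩ := Submodule.mem_sup.mp hx
    obtain ⟨r, rfl⟩ := (Submodule.mem_span_range_iff_exists_fun R₀).mp hz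
    have : (⟨b, hb⟩ : B₁₂) = ⟨b₁, h1 hb₁⟩ + ⟨b₂, h2 hb₂⟩ +
        ∑ k, r k • (⟨e k, he k⟩ : B₁₂) := by
      apply Subtype.ext
      simp [← hxz]
    rw [this]
    refine Submodule.add_mem _ (Submodule.add_mem _
      (Submodule.mem_sup_left (Submodule.mem_sup_left ?_))
      (Submodule.mem_sup_left (Submodule.mem_sup_right ?_)))
      (Submodule.mem_sup_right (Submodule.sum_mem _ fun k _ =>
        Submodule.smul_mem _ _ (Submodule.subset_span ⟨k, rfl⟩)))
    · exact hb₁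
    · exact hb₂
  obtain ⟨F, a₁, a₂, hF, ha₁, ha₁c, ha₂, ha₂c, hη⟩ :=
    exists_law (B₁.comap B₁₂.val) (B₂.comap B₁₂.val) (fun k => (⟨e k, he k⟩ : B₁₂)) hE' d
  have hcomp : (B₁₂.val : B₁₂ →+* Ω).comp (algebraMap R₀ B₁₂) = algebraMap R₀ Ω :=
    RingHom.ext fun _ => rfl
  refine ⟨F, map (B₁₂.val : B₁₂ →+* Ω) a₁, map (B₁₂.val : B₁₂ →+* Ω) a₂,
    map (B₁₂.val : B₁₂ →+* Ω) _, hF, ?_, ?_, ?_, ?_, ?_,
    map_mem_pow_idealOfVars _ d _ ((mem_pow_idealOfVars_iff' d _).mp hη), ?_⟩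
  · intro m
    rw [coeff_map]
    exact ha₁ m
  · rw [constantCoeff_map, ha₁c, map_one]
  · intro m
    rw [coeff_map]
    exact ha₂ m
  · rw [constantCoeff_map, ha₂c, map_one]
  · intro m
    rw [coeff_map]
    exact Subtype.property _
  · simp only [map_sub, map_mul, map_prod, map_add, map_one, map_C, map_X, map_map, hcomp]
    simp

end Ambient

section Valued

variable {R₀ K Γ₀ : Type*} [CommRing R₀] [Field K] [Algebra R₀ K]
  [LinearOrderedCommGroupWithZero Γ₀] {ι σ : Type*}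

/-- A polynomial in `(vars) ^ d` with coefficients of valuation `≤ 1`, evaluated at a point with
coordinates of valuation `≤ ε ≤ 1`, has valuation `≤ ε ^ d`. -/
theorem valuation_eval_le (v : Valuation K Γ₀) (z : σ → K) (ε : Γ₀) (hε : ε ≤ 1)
    (hz : ∀ i, v (z i) ≤ ε) (d : ℕ) (p : MvPolynomial σ K) (hc : ∀ m, v (p.coeff m) ≤ 1)
    (hp : p ∈ idealOfVars σ K ^ d) : v (eval z p) ≤ ε ^ d := by
  rw [eval_eq]
  refine v.map_sum_le fun m hm => ?_
  have hdeg : d ≤ Finsupp.degree m := (mem_pow_idealOfVars_iff d p).mp hp m hm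
  rw [map_mul, map_prod]
  calc v (coeff m p) * ∏ i ∈ m.support, v (z i ^ m i)
      ≤ 1 * ∏ i ∈ m.support, ε ^ m i := by
        refine mul_le_mul' (hc _) (Finset.prod_le_prod' fun i _ => ?_)
        rw [map_pow]
        exact pow_le_pow_left' (hz i) _
    _ = ε ^ Finsupp.degree m := by
        rw [one_mul, Finset.prod_pow_eq_pow_sum, Finsupp.degree_apply]
    _ ≤ ε ^ d := pow_le_pow_right_of_le_one' hε hdeg

/-- Evaluation at a point with coordinates in a subring `A` stays in any `A`-submodule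
containing the coefficients. -/
theorem eval_mem_submodule (A : Subring K) (z : σ → K) (hz : ∀ i, z i ∈ A) (M : Submodule A K)
    (p : MvPolynomial σ K) (hp : ∀ m, p.coeff m ∈ M) : eval z p ∈ M := by
  rw [eval_eq]
  refine Submodule.sum_mem _ fun m _ => ?_
  have hmem : ∏ i ∈ m.support, z i ^ m i ∈ A :=
    Subring.prod_mem _ fun i _ => Subring.pow_mem _ (hz i) _
  have : coeff m p * ∏ i ∈ m.support, z i ^ m i =
      (⟨_, hmem⟩ : A) • coeff m p := by
    rw [Subring.smul_def, smul_eq_mul, mul_comm]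
  rw [this]
  exact M.smul_mem _ (hp m)

/-- **The addition law, valued form** (the shape consumed by the key lemma `(T5)`):
for all points `x, y` with coordinates of valuation `≤ ε < 1`,
`∏ (1 + e k x k) * ∏ (1 + e k y k) = a₁(x,y) * a₂(x,y) * (∏ (1 + e k F k(x,y)) + η)` with
`v η ≤ ε ^ d`, `v (a_i(x,y) - 1) ≤ ε`, `v (F k (x,y)) ≤ ε`.  The polynomials `F`, `a₁`, `a₂`
do not depend on `v`, `ε`, `x`, `y`. -/
theorem exists_law_valued [Fintype ι] (v : Valuation K Γ₀) (B₁ B₂ B₁₂ : Subalgebra R₀ K)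
    (h1 : B₁ ≤ B₁₂) (h2 : B₂ ≤ B₁₂) (e : ι → K) (he : ∀ k, e k ∈ B₁₂)
    (hE : Subalgebra.toSubmodule B₁₂ ≤ Subalgebra.toSubmodule B₁ ⊔ Subalgebra.toSubmodule B₂ ⊔
      Submodule.span R₀ (Set.range e))
    (hv : ∀ b ∈ B₁₂, v b ≤ 1) (d : ℕ) :
    ∃ (F : ι → MvPolynomial (ι ⊕ ι) R₀) (a₁ a₂ : MvPolynomial (ι ⊕ ι) K),
      (∀ k, constantCoeff (F k) = 0) ∧
      (∀ m, a₁.coeff m ∈ B₁) ∧ constantCoeff a₁ = 1 ∧
      (∀ m, a₂.coeff m ∈ B₂) ∧ constantCoeff a₂ = 1 ∧
      ∀ (ε : Γ₀) (x y : ι → K), ε < 1 → (∀ k, v (x k) ≤ ε) → (∀ k, v (y k) ≤ ε) →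
        v (eval (Sum.elim x y) a₁ - 1) ≤ ε ∧ v (eval (Sum.elim x y) a₂ - 1) ≤ ε ∧
        (∀ k, v (aeval (Sum.elim x y) (F k)) ≤ ε) ∧
        ∃ η : K, v η ≤ ε ^ d ∧
          (∏ k, (1 + e k * x k)) * (∏ k, (1 + e k * y k)) =
            eval (Sum.elim x y) a₁ * eval (Sum.elim x y) a₂ *
              ((∏ k, (1 + e k * aeval (Sum.elim x y) (F k))) + η) := by
  classical
  obtain ⟨F, a₁, a₂, η, hF, ha₁, ha₁c, ha₂, ha₂c, hηc, hη, hid⟩ :=
    exists_law_ambient B₁ B₂ B₁₂ h1 h2 e he hE d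
  refine ⟨F, a₁, a₂, hF, ha₁, ha₁c, ha₂, ha₂c, ?_⟩
  intro ε x y hε hx hy
  have hz : ∀ i, v (Sum.elim x y i) ≤ ε := by
    rintro (i | i)
    · exact hx i
    · exact hy i
  have hone : ∀ m, v ((1 : MvPolynomial (ι ⊕ ι) K).coeff m) ≤ 1 := by
    intro m
    rw [coeff_one]
    split_ifs <;> simp
  have key : ∀ (a : MvPolynomial (ι ⊕ ι) K), (∀ m, a.coeff m ∈ B₁₂) → constantCoeff a = 1 →
      v (eval (Sum.elim x y) a - 1) ≤ ε := by
    intro a hac hc
    have := valuation_eval_le v (Sum.elim x y) ε hε.le hz 1 (a - 1) (fun m => by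
      rw [coeff_sub]
      exact le_trans (v.map_sub _ _) (max_le (hv _ (hac m)) (hone m)))
      (by rw [pow_one]; exact sub_one_mem_idealOfVars a hc)
    simpa using this
  have hα₁ := key a₁ (fun m => h1 (ha₁ m)) ha₁c
  have hα₂ := key a₂ (fun m => h2 (ha₂ m)) ha₂c
  have hFv : ∀ k, v (aeval (Sum.elim x y) (F k)) ≤ ε := by
    intro k
    have := valuation_eval_le v (Sum.elim x y) ε hε.le hz 1 (map (algebraMap R₀ K) (F k))
      (fun m => by
        rw [coeff_map]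
        exact hv _ (B₁₂.algebraMap_mem _))
      (map_mem_pow_idealOfVars _ 1 _ (fun m hm => by
        have hm0 : m = 0 := by
          rw [← Finsupp.degree_eq_zero_iff]
          omega
        rw [hm0, ← constantCoeff_eq]
        exact hF k))
    rw [eval_map, ← aeval_def, pow_one] at this
    exact this
  have hηv : v (eval (Sum.elim x y) η) ≤ ε ^ d :=
    valuation_eval_le v (Sum.elim x y) ε hε.le hz d η (fun m => hv _ (hηc m)) hη
  have hu₁ : v (eval (Sum.elim x y) a₁) = 1 := by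
    have := v.map_one_add_of_lt (lt_of_le_of_lt hα₁ hε)
    rwa [add_sub_cancel] at this
  have hu₂ : v (eval (Sum.elim x y) a₂) = 1 := by
    have := v.map_one_add_of_lt (lt_of_le_of_lt hα₂ hε)
    rwa [add_sub_cancel] at this
  have hne₁ : eval (Sum.elim x y) a₁ ≠ 0 := by
    intro h
    rw [h, map_zero] at hu₁
    exact zero_ne_one hu₁
  have hne₂ : eval (Sum.elim x y) a₂ ≠ 0 := by
    intro h
    rw [h, map_zero] at hu₂
    exact zero_ne_one hu₂
  refine ⟨hα₁, hα₂, hFv, eval (Sum.elim x y) η /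
    (eval (Sum.elim x y) a₁ * eval (Sum.elim x y) a₂), ?_, ?_⟩
  · rw [map_div₀, map_mul, hu₁, hu₂, one_mul, div_one]
    exact hηv
  · have := congrArg (eval (Sum.elim x y)) hid
    simp only [map_mul, map_prod, map_add, map_one, eval_C, eval_X, Sum.elim_inl, Sum.elim_inr,
      eval_map, ← aeval_def] at this
    rw [this]
    field_simp

end Valued

section Const

variable {R₀ K F Γ₀ : Type*} [CommRing R₀] [Field K] [Field F] [Algebra R₀ K] [Algebra K F]
  [Algebra R₀ F] [IsScalarTower R₀ K F] [LinearOrderedCommGroupWithZero Γ₀] {ι σ : Type*}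

/-- Evaluation at a point with coordinates in a subring `R` stays in `R` when the coefficients
are in `R` (e.g. `R` the valuation ring of a place). -/
theorem eval_mem_subring {F : Type*} [CommRing F] (R : Subring F) (z : σ → F)
    (hz : ∀ i, z i ∈ R) (p : MvPolynomial σ F) (hp : ∀ m, p.coeff m ∈ R) : eval z p ∈ R := by
  rw [eval_eq]
  exact Subring.sum_mem _ fun m _ => Subring.mul_mem _ (hp m)
    (Subring.prod_mem _ fun i _ => Subring.pow_mem _ (hz i) _)

/-- `aeval` at a point of constants is the constant `aeval`. -/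
theorem aeval_algebraMap_comp (z : σ → K) (p : MvPolynomial σ R₀) :
    aeval (fun i => algebraMap K F (z i)) p = algebraMap K F (aeval z p) := by
  induction p using MvPolynomial.induction_on with
  | C r => simp [IsScalarTower.algebraMap_apply R₀ K F]
  | add p q hp hq => simp [hp, hq]
  | mul_X p i hp => simp [hp]

/-- **The addition law at constant points** (function field `F` over a field of constants `K`,
the shape of the key lemma): for `c : K` small and points `x y : ι → K` with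
`v (x k), v (y k) ≤ v c`,
`∏ (1 + x k e k) * ∏ (1 + y k e k) = α₁ * α₂ * (∏ (1 + F k (x, y) e k) + c ^ d * η₀)` with
`v η₀ ≤ 1`, where `α i` is the value of the universal polynomial `a i` at `(x, y)`. -/
theorem exists_law_const [Fintype ι] (v : Valuation F Γ₀) (B₁ B₂ B₁₂ : Subalgebra R₀ F)
    (h1 : B₁ ≤ B₁₂) (h2 : B₂ ≤ B₁₂) (e : ι → F) (he : ∀ k, e k ∈ B₁₂)
    (hE : Subalgebra.toSubmodule B₁₂ ≤ Subalgebra.toSubmodule B₁ ⊔ Subalgebra.toSubmodule B₂ ⊔
      Submodule.span R₀ (Set.range e))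
    (hv : ∀ b ∈ B₁₂, v b ≤ 1) (d : ℕ) :
    ∃ (Fd : ι → MvPolynomial (ι ⊕ ι) R₀) (a₁ a₂ : MvPolynomial (ι ⊕ ι) F),
      (∀ k, constantCoeff (Fd k) = 0) ∧
      (∀ m, a₁.coeff m ∈ B₁) ∧ constantCoeff a₁ = 1 ∧
      (∀ m, a₂.coeff m ∈ B₂) ∧ constantCoeff a₂ = 1 ∧
      ∀ (c : K) (x y : ι → K), v (algebraMap K F c) < 1 →
        (∀ k, v (algebraMap K F (x k)) ≤ v (algebraMap K F c)) →
        (∀ k, v (algebraMap K F (y k)) ≤ v (algebraMap K F c)) →
        v (eval (Sum.elim (fun k => algebraMap K F (x k)) (fun k => algebraMap K F (y k))) a₁ - 1)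
          ≤ v (algebraMap K F c) ∧
        v (eval (Sum.elim (fun k => algebraMap K F (x k)) (fun k => algebraMap K F (y k))) a₂ - 1)
          ≤ v (algebraMap K F c) ∧
        (∀ k, v (algebraMap K F (aeval (Sum.elim x y) (Fd k))) ≤ v (algebraMap K F c)) ∧
        ∃ η₀ : F, v η₀ ≤ 1 ∧
          (∏ k, (1 + algebraMap K F (x k) * e k)) * (∏ k, (1 + algebraMap K F (y k) * e k)) =
            eval (Sum.elim (fun k => algebraMap K F (x k)) (fun k => algebraMap K F (y k))) a₁ *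
            eval (Sum.elim (fun k => algebraMap K F (x k)) (fun k => algebraMap K F (y k))) a₂ *
              ((∏ k, (1 + algebraMap K F (aeval (Sum.elim x y) (Fd k)) * e k)) +
                algebraMap K F (c ^ d) * η₀) := by
  classical
  obtain ⟨Fd, a₁, a₂, hF, ha₁, ha₁c, ha₂, ha₂c, hlaw⟩ :=
    exists_law_valued v B₁ B₂ B₁₂ h1 h2 e he hE hv d
  refine ⟨Fd, a₁, a₂, hF, ha₁, ha₁c, ha₂, ha₂c, ?_⟩
  intro c x y hc hx hy
  obtain ⟨hα₁, hα₂, hFv, η, hη, hid⟩ := hlaw (v (algebraMap K F c))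
    (fun k => algebraMap K F (x k)) (fun k => algebraMap K F (y k)) hc hx hy
  have hpt : (Sum.elim (fun k => algebraMap K F (x k)) (fun k => algebraMap K F (y k)) :
      ι ⊕ ι → F) = fun i => algebraMap K F (Sum.elim x y i) := by
    funext i
    cases i <;> rfl
  have hae : ∀ k, aeval (Sum.elim (fun k => algebraMap K F (x k))
      (fun k => algebraMap K F (y k))) (Fd k) = algebraMap K F (aeval (Sum.elim x y) (Fd k)) := by
    intro k
    rw [hpt]
    exact aeval_algebraMap_comp (Sum.elim x y) (Fd k)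
  refine ⟨hα₁, hα₂, fun k => by rw [← hae k]; exact hFv k, ?_⟩
  have hprod : ∀ w : ι → K, ∏ k, (1 + algebraMap K F (w k) * e k) =
      ∏ k, (1 + e k * algebraMap K F (w k)) :=
    fun w => Finset.prod_congr rfl fun k _ => by rw [mul_comm]
  rw [hprod x, hprod y, hprod, hid]
  simp only [hae]
  by_cases hcd : algebraMap K F (c ^ d) = 0
  · refine ⟨0, by simp, ?_⟩
    have hη0 : η = 0 := by
      have : v η ≤ 0 := by
        have h0 : v (algebraMap K F c) ^ d = 0 := by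
          rw [← map_pow, ← map_pow, hcd, map_zero]
        rw [← h0]
        exact hη
      exact v.zero_iff.mp (le_antisymm this zero_le)
    rw [hη0, hcd, zero_mul]
  · refine ⟨η / algebraMap K F (c ^ d), ?_, ?_⟩
    · rw [map_div₀, map_pow, map_pow]
      have hne : v (algebraMap K F c) ^ d ≠ 0 := by
        rw [← map_pow, ← map_pow]
        exact (v.ne_zero_iff).mpr hcd
      exact (div_le_one₀ (zero_lt_iff.mpr hne)).mpr hη
    · rw [mul_div_cancel₀ _ hcd]

end Const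

end Fermat.Agent.S19.helper8101
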