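import Mathlib
import Fermat.Agent.S19.helper2570_CAlgKey
import Fermat.Agent.S19.helper8101_CechLaw
import Fermat.Agent.S19.helper5161_CAlgCoord

/-!
# S19, C-alg main line: the key lemma (T5), end form

The approximate addition law in the coordinates of the kernel of reduction.

* `exists_evalLaw`: the evaluated Cech law (T3) (`helper8101.exists_law_valued`) in the place
  vocabulary of the key lemma.
* `exists_classFunction`: the class relation `[z] = [x] + [y]` as a function `φ` whose divisor is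
  `div u_x + div u_y - div u_z` on the discs of the base points (from `helper5161`).
* `key_law`: for every `d` there are polynomials `Fd` with integral coefficients such that, for
  every small constant `c` and all classes `x`, `y` of the kernel of reduction with coordinates
  divisible by `c`, `coord (x + y) i - Fd i (coord x, coord y)` is divisible by `c ^ d`.
* `approx_law_of_key`, `approx_law`: the law modulo `ϖ ^ j` on finite sets of classes.
-/

set_option autoImplicit false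

namespace Fermat.Agent.S19.helper2570

open AlgebraicCurve Fermat.Agent.S37.helper126 Fermat.Agent.S19.helper2007

section Law

variable {K F k Fk : Type*} [Field K] [Field F] [Algebra K F] [Field k] [Field Fk] [Algebra k Fk]
variable {O : ValuationSubring F} {red : O →+* Fk} {sp : Place K F → Place k Fk}
variable {ι : Type*} [Fintype ι]

omit [Fintype ι] in
/-- Evaluation of a polynomial with coefficients in a subring at a point of the subring. -/
theorem eval_mem_of_coeff_mem {σ : Type*} {L : Type*} [CommRing L] (S : Subring L) (z : σ → L)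
    (hz : ∀ i, z i ∈ S) (p : MvPolynomial σ L) (hp : ∀ m, p.coeff m ∈ S) :
    MvPolynomial.eval z p ∈ S := by
  rw [MvPolynomial.eval_eq]
  exact Subring.sum_mem _ fun m _ => Subring.mul_mem _ (hp m)
    (Subring.prod_mem _ fun i _ => Subring.pow_mem _ (hz i) _)

/-- **(T3), evaluated, place form.**  From a Cech decomposition
`B₁₂ = B₁ + B₂ + ∑ R₀ e i` with `B₁₂` integral, `B₁` regular off the tube of `Pinf`, `B₂` regular
off the tubes of the `R i`: universal polynomials `Fd` (integral coefficients) with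
`u_x * u_y = a₁ * a₂ * (u_{Fd(x,y)} + c ^ d * η₀)` whenever `x`, `y` are divisible by the small
constant `c`. -/
theorem exists_evalLaw {R₀ : Type*} [CommRing R₀] [Algebra R₀ K] [Algebra R₀ F]
    [IsScalarTower R₀ K F] (hR₀ : ∀ r : R₀, algebraMap R₀ F r ∈ O)
    (R : ι → Place K F) (Pinf : Place K F) (e : ι → F)
    (B₁ B₂ B₁₂ : Subalgebra R₀ F) (h1 : B₁ ≤ B₁₂) (h2 : B₂ ≤ B₁₂) (he : ∀ i, e i ∈ B₁₂)
    (hE : Subalgebra.toSubmodule B₁₂ ≤ Subalgebra.toSubmodule B₁ ⊔ Subalgebra.toSubmodule B₂ ⊔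
      Submodule.span R₀ (Set.range e))
    (hB₁₂ : ∀ f ∈ B₁₂, f ∈ O)
    (hB₁ : ∀ f ∈ B₁, ∀ P : Place K F, sp P ≠ sp Pinf → f ∈ P.toValuationSubring)
    (hB₂ : ∀ f ∈ B₂, ∀ P : Place K F, (∀ i, sp P ≠ sp (R i)) → f ∈ P.toValuationSubring)
    (d : ℕ) :
    ∃ Fd : ι → MvPolynomial (ι ⊕ ι) K, (∀ i m, algebraMap K F ((Fd i).coeff m) ∈ O) ∧
      ∀ c : K, algebraMap K F c ∈ O.nonunits → ∀ x y : ι → K,
        (∀ i, ∃ a : K, algebraMap K F a ∈ O ∧ x i = c * a) →
        (∀ i, ∃ a : K, algebraMap K F a ∈ O ∧ y i = c * a) →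
        (∀ i, algebraMap K F (MvPolynomial.eval (Sum.elim x y) (Fd i)) ∈ O.nonunits) ∧
        ∃ a₁ a₂ η₀ : F, η₀ ∈ O ∧ a₁ - 1 ∈ O.nonunits ∧ a₂ - 1 ∈ O.nonunits ∧
          (∀ P : Place K F, sp P ≠ sp Pinf → a₁ ∈ P.toValuationSubring) ∧
          (∀ P : Place K F, (∀ i, sp P ≠ sp (R i)) → a₂ ∈ P.toValuationSubring) ∧
          cechProd e x * cechProd e y = a₁ * a₂ *
            (cechProd e (fun i => MvPolynomial.eval (Sum.elim x y) (Fd i))
              + algebraMap K F (c ^ d) * η₀) := by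
  classical
  obtain ⟨G, p₁, p₂, -, hp₁, -, hp₂, -, hlaw⟩ := helper8101.exists_law_valued O.valuation
    B₁ B₂ B₁₂ h1 h2 e he hE (fun b hb => (O.valuation_le_one_iff b).mpr (hB₁₂ b hb)) d
  refine ⟨fun i => MvPolynomial.map (algebraMap R₀ K) (G i), fun i m => ?_, ?_⟩
  · rw [MvPolynomial.coeff_map, ← IsScalarTower.algebraMap_apply]
    exact hR₀ _
  intro c hc x y hx hy
  have hε : O.valuation (algebraMap K F c) < 1 := (O.mem_nonunits_iff).mp hc
  have hdivv : ∀ u : ι → K, (∀ i, ∃ a : K, algebraMap K F a ∈ O ∧ u i = c * a) →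
      ∀ i, O.valuation (algebraMap K F (u i)) ≤ O.valuation (algebraMap K F c) := by
    intro u hu i
    obtain ⟨a, ha, h⟩ := hu i
    rw [h, map_mul, map_mul]
    exact mul_le_of_le_one_right' ((O.valuation_le_one_iff _).mpr ha)
  obtain ⟨h₁, h₂, h₃, η, hη, heq⟩ := hlaw (O.valuation (algebraMap K F c))
    (fun i => algebraMap K F (x i)) (fun i => algebraMap K F (y i)) hε (hdivv x hx) (hdivv y hy)
  have key : ∀ i, MvPolynomial.aeval
      (Sum.elim (fun i => algebraMap K F (x i)) (fun i => algebraMap K F (y i))) (G i)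
      = algebraMap K F (MvPolynomial.eval (Sum.elim x y)
          (MvPolynomial.map (algebraMap R₀ K) (G i))) := fun i => by
    rw [MvPolynomial.eval_map, MvPolynomial.eval₂_comp_left (algebraMap K F),
      MvPolynomial.aeval_def, ← IsScalarTower.algebraMap_eq]
    congr 1
    funext j
    cases j <;> rfl
  obtain ⟨η₀, hη₀, hηeq⟩ : ∃ η₀ ∈ O, η = algebraMap K F (c ^ d) * η₀ := by
    have hv : O.valuation η ≤ O.valuation (algebraMap K F (c ^ d)) := by
      rw [map_pow, map_pow]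
      exact hη
    by_cases h0 : algebraMap K F (c ^ d) = 0
    · have hη0 : η = 0 := by
        rw [h0, map_zero] at hv
        exact (Valuation.zero_iff _).mp (le_antisymm hv zero_le)
      exact ⟨0, zero_mem O, by rw [hη0, mul_zero]⟩
    · refine ⟨η / algebraMap K F (c ^ d), ?_, by field_simp⟩
      rw [← O.valuation_le_one_iff, map_div₀]
      exact (div_le_one₀ (zero_lt_iff.mpr ((Valuation.ne_zero_iff _).mpr h0))).mpr hv
  have hconstmem : ∀ (P : Place K F) (j : ι ⊕ ι),
      Sum.elim (fun i => algebraMap K F (x i)) (fun i => algebraMap K F (y i)) j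
        ∈ P.toValuationSubring.toSubring := by
    intro P j
    cases j
    · exact P.algebraMap_mem' _
    · exact P.algebraMap_mem' _
  have hcp : ∀ u : ι → K, cechProd e u = ∏ i, (1 + e i * algebraMap K F (u i)) := fun u =>
    Finset.prod_congr rfl fun i _ => by rw [mul_comm]
  refine ⟨fun i => ?_, _, _, η₀, hη₀, (O.mem_nonunits_iff).mpr (lt_of_le_of_lt h₁ hε),
    (O.mem_nonunits_iff).mpr (lt_of_le_of_lt h₂ hε), fun P hP => ?_, fun P hP => ?_, ?_⟩
  · rw [← key i]
    exact (O.mem_nonunits_iff).mpr (lt_of_le_of_lt (h₃ i) hε)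
  · exact eval_mem_of_coeff_mem P.toValuationSubring.toSubring _ (hconstmem P) p₁
      fun m => hB₁ _ (hp₁ m) P hP
  · exact eval_mem_of_coeff_mem P.toValuationSubring.toSubring _ (hconstmem P) p₂
      fun m => hB₂ _ (hp₂ m) P hP
  · rw [hcp x, hcp y, hcp, ← hηeq]
    simp only [← key]
    exact heq

/-- **Class relation.**  For classes `x`, `y` of the kernel of reduction there is a function
`φ` whose divisor is `div u_x + div u_y - div u_{x+y}` on the discs of the base points and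
trivial elsewhere. -/
theorem exists_classFunction [HasPrincipalDivisors K F] {R : ι → Place K F} {t : ι → F}
    (hS : helper5161.IsAdapted O red sp R t)
    (hreg : ∀ i j, i ≠ j → (t j)⁻¹ ∈ discRing O sp (sp (R i)))
    {x y : Pic0 K F} (hx : x ∈ specKernel sp) (hy : y ∈ specKernel sp) :
    ∃ φ : F, φ ≠ 0 ∧
      (∀ (P : Place K F) (i : ι), sp P = sp (R i) →
        P.ord φ = P.ord (helper5161.unitOf t (helper5161.coord sp R t x))
          + P.ord (helper5161.unitOf t (helper5161.coord sp R t y))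
          - P.ord (helper5161.unitOf t (helper5161.coord sp R t (x + y)))) ∧
      (∀ P : Place K F, (∀ i, sp P ≠ sp (R i)) → P.ord φ = 0) := by
  classical
  obtain ⟨Qx, hQx, ⟨Dx, hDx, fx, hfx0, hfx⟩, hax⟩ := helper5161.coord_spec hS hx
  obtain ⟨Qy, hQy, ⟨Dy, hDy, fy, hfy0, hfy⟩, hay⟩ := helper5161.coord_spec hS hy
  obtain ⟨Qz, hQz, ⟨Dz, hDz, fz, hfz0, hfz⟩, haz⟩ :=
    helper5161.coord_spec hS ((specKernel sp).add_mem hx hy)
  have hmk : Pic0.mk (Dx + Dy) = Pic0.mk Dz := by
    rw [Pic0.mk_add, hDx, hDy, hDz]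
  obtain ⟨f, hf0, hf⟩ := helper5161.mk_eq_mk_iff.mp hmk
  have hφ0 : f * fx * fy * fz⁻¹ ≠ 0 :=
    mul_ne_zero (mul_ne_zero (mul_ne_zero hf0 hfx0) hfy0) (inv_ne_zero hfz0)
  have hord : ∀ P : Place K F, P.ord (f * fx * fy * fz⁻¹)
      = (∑ i, Finsupp.single (Qx i) (1 : ℤ)) P + (∑ i, Finsupp.single (Qy i) (1 : ℤ)) P
        - (∑ i, Finsupp.single (Qz i) (1 : ℤ)) P - (∑ i, Finsupp.single (R i) (1 : ℤ)) P := by
    intro P
    rw [P.ord_mul (mul_ne_zero (mul_ne_zero hf0 hfx0) hfy0) (inv_ne_zero hfz0),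
      P.ord_mul (mul_ne_zero hf0 hfx0) hfy0, P.ord_mul hf0 hfx0, P.ord_inv]
    have h1 := hf P
    have h2 := hfx P
    have h3 := hfy P
    have h4 := hfz P
    rw [Finsupp.sub_apply, AddSubgroup.coe_add, Finsupp.add_apply] at h1
    omega
  have hoff : ∀ (Q : ι → Place K F), (∀ i, sp (Q i) = sp (R i)) → ∀ P : Place K F,
      (∀ i, sp P ≠ sp (R i)) → (∑ i, Finsupp.single (Q i) (1 : ℤ)) P = 0 := by
    intro Q hQ P hP
    refine sum_single_apply_of_ne Q P fun j hj => hP j ?_
    rw [← hj, hQ j]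
  refine ⟨f * fx * fy * fz⁻¹, hφ0, fun P i hP => ?_, fun P hP => ?_⟩
  · rw [hord, helper5161.ord_unitOf hS hreg hQx hax i hP,
      helper5161.ord_unitOf hS hreg hQy hay i hP, helper5161.ord_unitOf hS hreg hQz haz i hP]
    ring
  · rw [hord, hoff Qx hQx P hP, hoff Qy hQy P hP, hoff Qz hQz P hP, hoff R (fun _ => rfl) P hP]
    ring

omit [Fintype ι] in
theorem cechProd_eq_unitOf [Fintype ι] (t : ι → F) (e : ι → F) (het : ∀ i, e i = -(t i)⁻¹)
    (a : ι → K) : cechProd e a = helper5161.unitOf t a := by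
  unfold cechProd helper5161.unitOf
  exact Finset.prod_congr rfl fun i _ => by rw [het i]; ring

/-- **(U) on the special fibre** follows from an adapted system: a `k`-combination of the
reductions of the `e i = -1 / t i` which is `g₁ + g₂`, with `g₁` regular off the reduction of
`Pinf` and `g₂` regular off the reductions of the `R i`, has all coefficients zero.  (`g₂` has
at most simple poles at the reductions of the `R i`, so it is constant by non-speciality; then
`c i * ē i` is regular at the reduction of `R i`.) -/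
theorem unique_of_adapted [HasPrincipalDivisors K F] {R : ι → Place K F} {t : ι → F}
    (hS : helper5161.IsAdapted O red sp R t)
    (Pinf : Place K F) (hPinf : ∀ i, sp Pinf ≠ sp (R i))
    (e : ι → F) (het : ∀ i, e i = -(t i)⁻¹)
    (hereg : ∀ (j : ι) (P : Place K F), sp P ≠ sp Pinf → sp P ≠ sp (R j) →
      e j ∈ P.toValuationSubring)
    (c : ι → k) (g₁ g₂ : Fk)
    (hg₁ : ∀ s : Place k Fk, s ≠ sp Pinf → g₁ ∈ s.toValuationSubring)
    (hg₂ : ∀ s : Place k Fk, (∀ i, s ≠ sp (R i)) → g₂ ∈ s.toValuationSubring)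
    (hsum : ∑ i, algebraMap k Fk (c i) * rd O red (e i) = g₁ + g₂) : ∀ i, c i = 0 := by
  classical
  have ht0 : ∀ i, t i ≠ 0 := fun i h0 => (hS.coord i).rd_ne_zero (by rw [h0, rd_zero])
  have heO : ∀ i, e i ∈ O := fun i => by
    rw [het i]
    exact neg_mem ((hS.coord i).inv_mem hS.ker)
  have hmul : ∀ i, rd O red (e i) * rd O red (t i) = algebraMap k Fk (-1) := fun i => by
    rw [← rd_mul O red (heO i) (hS.coord i).mem]
    have e1 : e i * t i = 0 - 1 := by
      rw [het i, neg_mul, inv_mul_cancel₀ (ht0 i), zero_sub]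
    rw [e1, rd_sub O red (zero_mem O) (one_mem O), rd_zero, rd_one, zero_sub, map_neg, map_one]
  have hτ0 : ∀ i, rd O red (t i) ≠ 0 := fun i => (hS.coord i).rd_ne_zero
  have hτ : ∀ i, rd O red (t i) ∈ (sp (R i)).toValuationSubring := fun i =>
    mem_of_ord_nonneg _ (by rw [(hS.coord i).ord]; norm_num)
  have hother : ∀ i j, i ≠ j → rd O red (e j) ∈ (sp (R i)).toValuationSubring := fun i j hij =>
    rd_mem_of_regular hS.cons (heO j) (sp (R i)) fun P hP =>
      hereg j P (by rw [hP]; exact fun h => hPinf i h.symm)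
        (by rw [hP]; exact fun h => hij (hS.inj h))
  have hsplit : ∀ i, ∑ j, algebraMap k Fk (c j) * rd O red (e j)
      = algebraMap k Fk (c i) * rd O red (e i)
        + ∑ j ∈ Finset.univ.erase i, algebraMap k Fk (c j) * rd O red (e j) := fun i =>
    (Finset.add_sum_erase _ _ (Finset.mem_univ i)).symm
  have hrest : ∀ i, ∑ j ∈ Finset.univ.erase i, algebraMap k Fk (c j) * rd O red (e j)
      ∈ (sp (R i)).toValuationSubring := fun i =>
    sum_mem fun j hj => mul_mem ((sp (R i)).algebraMap_mem' (c j))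
      (hother i j (Finset.ne_of_mem_erase hj).symm)
  have hg₁i : ∀ i, g₁ ∈ (sp (R i)).toValuationSubring := fun i =>
    hg₁ _ fun h => hPinf i h.symm
  -- `g₂` is constant
  have hg₂c : g₂ ∈ Set.range (algebraMap k Fk) := by
    by_cases h0 : g₂ = 0
    · exact ⟨0, by rw [h0, map_zero]⟩
    refine hS.ns g₂ h0 (fun s hs => ord_nonneg_of_mem s (hg₂ s hs)) fun i => ?_
    have hmem : g₂ * rd O red (t i) ∈ (sp (R i)).toValuationSubring := by
      have e0 : g₂ = algebraMap k Fk (c i) * rd O red (e i)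
          + ∑ j ∈ Finset.univ.erase i, algebraMap k Fk (c j) * rd O red (e j) - g₁ := by
        rw [← hsplit i, hsum]
        ring
      have e1 : g₂ * rd O red (t i) = algebraMap k Fk (c i) * (rd O red (e i) * rd O red (t i))
          + (∑ j ∈ Finset.univ.erase i, algebraMap k Fk (c j) * rd O red (e j) - g₁)
            * rd O red (t i) := by
        rw [e0]
        ring
      rw [e1, hmul i]
      exact add_mem (mul_mem ((sp (R i)).algebraMap_mem' _) ((sp (R i)).algebraMap_mem' _))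
        (mul_mem (sub_mem (hrest i) (hg₁i i)) (hτ i))
    have h1 := ord_nonneg_of_mem _ hmem
    rw [Place.ord_mul _ h0 (hτ0 i), (hS.coord i).ord] at h1
    omega
  obtain ⟨κ, hκ⟩ := hg₂c
  intro i
  by_contra hci
  have h1 : algebraMap k Fk (c i) * rd O red (e i) ∈ (sp (R i)).toValuationSubring := by
    have e0 : algebraMap k Fk (c i) * rd O red (e i) = g₁ + g₂
        - ∑ j ∈ Finset.univ.erase i, algebraMap k Fk (c j) * rd O red (e j) := by
      rw [← hsum, hsplit i]
      ring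
    rw [e0, ← hκ]
    exact sub_mem (add_mem (hg₁i i) ((sp (R i)).algebraMap_mem' κ)) (hrest i)
  have h2 : rd O red (e i) ∈ (sp (R i)).toValuationSubring := by
    have e0 : rd O red (e i)
        = algebraMap k Fk (c i)⁻¹ * (algebraMap k Fk (c i) * rd O red (e i)) := by
      rw [← mul_assoc, ← map_mul, inv_mul_cancel₀ hci, map_one, one_mul]
    rw [e0]
    exact mul_mem ((sp (R i)).algebraMap_mem' _) h1
  have h3 := ord_nonneg_of_mem _ h2
  have hē0 : rd O red (e i) ≠ 0 := by
    intro h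
    have h4 := hmul i
    rw [h, zero_mul, map_neg, map_one] at h4
    exact one_ne_zero (neg_eq_zero.mp h4.symm)
  have h4 := congrArg (sp (R i)).ord (hmul i)
  rw [Place.ord_mul _ hē0 (hτ0 i), (hS.coord i).ord, ord_algebraMap] at h4
  omega

/-- **Key lemma (T5), end form.**  On an adapted system (`helper5161.IsAdapted`) with point at
infinity `Pinf`, functions `e i = -1 / t i` regular off the tube of `Pinf` and their own disc,
and a Cech decomposition (E) `B₁₂ = B₁ + B₂ + ∑ R₀ e i`: for every `d` there are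
polynomials `Fd` with integral coefficients such that for every small constant `c` and all
classes `x`, `y` of the kernel of reduction whose coordinates are divisible by `c`,
`coord (x + y) i - Fd i (coord x, coord y)` is divisible by `c ^ d`. -/
theorem key_law [HasPrincipalDivisors K F] {R : ι → Place K F} {t : ι → F}
    (hS : helper5161.IsAdapted O red sp R t)
    (Pinf : Place K F) (hPinf : ∀ i, sp Pinf ≠ sp (R i))
    (e : ι → F) (het : ∀ i, e i = -(t i)⁻¹)
    (hereg : ∀ (j : ι) (P : Place K F), sp P ≠ sp Pinf → sp P ≠ sp (R j) →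
      e j ∈ P.toValuationSubring)
    {R₀ : Type*} [CommRing R₀] [Algebra R₀ K] [Algebra R₀ F] [IsScalarTower R₀ K F]
    (hR₀ : ∀ r : R₀, algebraMap R₀ F r ∈ O)
    (B₁ B₂ B₁₂ : Subalgebra R₀ F) (h1 : B₁ ≤ B₁₂) (h2 : B₂ ≤ B₁₂) (he : ∀ i, e i ∈ B₁₂)
    (hE : Subalgebra.toSubmodule B₁₂ ≤ Subalgebra.toSubmodule B₁ ⊔ Subalgebra.toSubmodule B₂ ⊔
      Submodule.span R₀ (Set.range e))
    (hB₁₂ : ∀ f ∈ B₁₂, f ∈ O)
    (hB₁ : ∀ f ∈ B₁, ∀ P : Place K F, sp P ≠ sp Pinf → f ∈ P.toValuationSubring)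
    (hB₂ : ∀ f ∈ B₂, ∀ P : Place K F, (∀ i, sp P ≠ sp (R i)) → f ∈ P.toValuationSubring)
    (d : ℕ) :
    ∃ Fd : ι → MvPolynomial (ι ⊕ ι) K, (∀ i m, algebraMap K F ((Fd i).coeff m) ∈ O) ∧
      ∀ c : K, algebraMap K F c ∈ O.nonunits →
        ∀ x ∈ specKernel sp, ∀ y ∈ specKernel sp,
        (∀ i, ∃ a : K, algebraMap K F a ∈ O ∧ helper5161.coord sp R t x i = c * a) →
        (∀ i, ∃ a : K, algebraMap K F a ∈ O ∧ helper5161.coord sp R t y i = c * a) →
        ∀ i, ∃ a : K, algebraMap K F a ∈ O ∧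
          helper5161.coord sp R t (x + y) i
            - MvPolynomial.eval (Sum.elim (helper5161.coord sp R t x)
                (helper5161.coord sp R t y)) (Fd i) = c ^ d * a := by
  classical
  have heO : ∀ i, e i ∈ O := fun i => hB₁₂ _ (he i)
  have hconstk : ∀ w : Fk, (∀ s : Place k Fk, w ∈ s.toValuationSubring) →
      w ∈ Set.range (algebraMap k Fk) := by
    intro w hw
    by_cases hw0 : w = 0
    · exact ⟨0, by rw [hw0, map_zero]⟩
    · exact hS.ns w hw0 (fun s _ => ord_nonneg_of_mem s (hw s))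
        (fun i => le_trans (by norm_num) (ord_nonneg_of_mem _ (hw _)))
  have hreg : ∀ i j, i ≠ j → (t j)⁻¹ ∈ discRing O sp (sp (R i)) := by
    intro i j hij
    have e1 : (t j)⁻¹ = -e j := by rw [het j, neg_neg]
    rw [e1]
    refine ⟨neg_mem (heO j), fun P hP => neg_mem (hereg j P ?_ ?_)⟩
    · rw [hP]
      exact fun h => hPinf i h.symm
    · rw [hP]
      exact fun h => hij (hS.inj h)
  obtain ⟨Fd, hFd, hlaw⟩ := exists_evalLaw (O := O) (sp := sp) hR₀ R Pinf e B₁ B₂ B₁₂ h1 h2 he hE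
    hB₁₂ hB₁ hB₂ d
  refine ⟨Fd, hFd, fun c hc x hx y hy hxc hyc => ?_⟩
  obtain ⟨hz', a₁, a₂, η₀, hη₀, ha₁, ha₂, ha₁reg, ha₂reg, hl⟩ := hlaw c hc _ _ hxc hyc
  obtain ⟨φ, hφ0, hφR, hφ⟩ := exists_classFunction hS hreg hx hy
  simp only [← cechProd_eq_unitOf t e het] at hφR
  exact key_of_principal hS.ker hS.const hS.vg hS.cons hS.deg1 hconstk R Pinf hPinf e heO
    (fun i P h1 h2 => hereg i P h1 (h2 i))
    (unique_of_adapted hS Pinf hPinf e het hereg) _ _ _ _
    (fun i => helper5161.coord_mem_nonunits hS hx i)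
    (fun i => helper5161.coord_mem_nonunits hS hy i)
    (fun i => helper5161.coord_mem_nonunits hS ((specKernel sp).add_mem hx hy) i)
    hz' (c ^ d) η₀ a₁ a₂ hη₀ ha₁ ha₂ ha₁reg ha₂reg hl φ hφ0 hφR hφ

omit [Fintype ι] in
/-- From the `c ^ d`-form of the law to the law modulo `ϖ ^ j` on finite sets: the only input is
that every small constant has a power divisible by `ϖ` (rank one). -/
theorem approx_law_of_key [Fintype ι] {J : Type*} [Add J] (b : J → ι → K) (J1 : Set J)
    (hb : ∀ x ∈ J1, ∀ i, algebraMap K F (b x i) ∈ O.nonunits)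
    (hkey : ∀ d : ℕ, ∃ Fd : ι → MvPolynomial (ι ⊕ ι) K,
      (∀ i m, algebraMap K F ((Fd i).coeff m) ∈ O) ∧
      ∀ c : K, algebraMap K F c ∈ O.nonunits → ∀ x ∈ J1, ∀ y ∈ J1,
        (∀ i, ∃ a : K, algebraMap K F a ∈ O ∧ b x i = c * a) →
        (∀ i, ∃ a : K, algebraMap K F a ∈ O ∧ b y i = c * a) →
        ∀ i, ∃ a : K, algebraMap K F a ∈ O ∧
          b (x + y) i - MvPolynomial.eval (Sum.elim (b x) (b y)) (Fd i) = c ^ d * a)
    (ϖ : K)
    (harch : ∀ c : K, algebraMap K F c ∈ O.nonunits →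
      ∃ n : ℕ, ∃ a : K, algebraMap K F a ∈ O ∧ c ^ n = ϖ * a)
    (j : ℕ) (T : Finset J) (hT : ∀ x ∈ T, x ∈ J1) :
    ∃ P : ι → MvPolynomial (ι ⊕ ι) K, (∀ i m, algebraMap K F ((P i).coeff m) ∈ O) ∧
      ∀ x ∈ T, ∀ y ∈ T, ∀ i, ∃ w : K, algebraMap K F w ∈ O ∧
        b (x + y) i - MvPolynomial.eval (Sum.elim (b x) (b y)) (P i) = ϖ ^ j * w := by
  classical
  by_cases hne : (T ×ˢ (Finset.univ : Finset ι)).Nonempty
  · obtain ⟨⟨x₀, i₀⟩, hmem, hmax⟩ := Finset.exists_max_image _
      (fun p : J × ι => O.valuation (algebraMap K F (b p.1 p.2))) hne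
    have hc : algebraMap K F (b x₀ i₀) ∈ O.nonunits :=
      hb x₀ (hT x₀ (Finset.mem_product.mp hmem).1) i₀
    obtain ⟨n, a₀, ha₀, hn⟩ := harch _ hc
    obtain ⟨Fd, hFd, hlaw⟩ := hkey (n * j)
    have hdiv : ∀ x ∈ T, ∀ i, ∃ a : K, algebraMap K F a ∈ O ∧ b x i = b x₀ i₀ * a := by
      intro x hx i
      have hle : O.valuation (algebraMap K F (b x i)) ≤ O.valuation (algebraMap K F (b x₀ i₀)) :=
        hmax (x, i) (Finset.mem_product.mpr ⟨hx, Finset.mem_univ i⟩)
      by_cases hc0 : b x₀ i₀ = 0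
      · refine ⟨0, by rw [map_zero]; exact zero_mem O, ?_⟩
        rw [hc0, map_zero, map_zero] at hle
        have h0 := (Valuation.zero_iff _).mp (le_antisymm hle zero_le)
        rw [mul_zero]
        exact (map_eq_zero _).mp h0
      · refine ⟨b x i / b x₀ i₀, ?_, by field_simp⟩
        rw [← O.valuation_le_one_iff, map_div₀, map_div₀]
        exact (div_le_one₀ (zero_lt_iff.mpr ((Valuation.ne_zero_iff _).mpr
          ((map_ne_zero _).mpr hc0)))).mpr hle
    refine ⟨Fd, hFd, fun x hx y hy i => ?_⟩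
    obtain ⟨a, ha, h⟩ := hlaw _ hc x (hT x hx) y (hT y hy) (hdiv x hx) (hdiv y hy) i
    refine ⟨a₀ ^ j * a, ?_, ?_⟩
    · rw [map_mul, map_pow]
      exact mul_mem (pow_mem ha₀ j) ha
    · rw [h, pow_mul, hn]
      ring
  · obtain ⟨Fd, hFd, -⟩ := hkey 0
    refine ⟨Fd, hFd, fun x hx y hy i => ?_⟩
    exact absurd ⟨(x, i), Finset.mem_product.mpr ⟨hx, Finset.mem_univ i⟩⟩ hne

/-- **The approximate addition law** on the kernel of reduction, in the shape of the field `law`
of `helper2111.IsCoordSystem`: for every `j` and every finite set `T` of classes of the kernel of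
reduction there are polynomials `P i` with integral coefficients such that
`coord (x + y) i ≡ P i (coord x, coord y)` modulo `ϖ ^ j` for all `x`, `y` in `T`. -/
theorem approx_law [HasPrincipalDivisors K F] {R : ι → Place K F} {t : ι → F}
    (hS : helper5161.IsAdapted O red sp R t)
    (Pinf : Place K F) (hPinf : ∀ i, sp Pinf ≠ sp (R i))
    (e : ι → F) (het : ∀ i, e i = -(t i)⁻¹)
    (hereg : ∀ (j : ι) (P : Place K F), sp P ≠ sp Pinf → sp P ≠ sp (R j) →
      e j ∈ P.toValuationSubring)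
    {R₀ : Type*} [CommRing R₀] [Algebra R₀ K] [Algebra R₀ F] [IsScalarTower R₀ K F]
    (hR₀ : ∀ r : R₀, algebraMap R₀ F r ∈ O)
    (B₁ B₂ B₁₂ : Subalgebra R₀ F) (h1 : B₁ ≤ B₁₂) (h2 : B₂ ≤ B₁₂) (he : ∀ i, e i ∈ B₁₂)
    (hE : Subalgebra.toSubmodule B₁₂ ≤ Subalgebra.toSubmodule B₁ ⊔ Subalgebra.toSubmodule B₂ ⊔
      Submodule.span R₀ (Set.range e))
    (hB₁₂ : ∀ f ∈ B₁₂, f ∈ O)
    (hB₁ : ∀ f ∈ B₁, ∀ P : Place K F, sp P ≠ sp Pinf → f ∈ P.toValuationSubring)
    (hB₂ : ∀ f ∈ B₂, ∀ P : Place K F, (∀ i, sp P ≠ sp (R i)) → f ∈ P.toValuationSubring)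
    (ϖ : K)
    (harch : ∀ c : K, algebraMap K F c ∈ O.nonunits →
      ∃ n : ℕ, ∃ a : K, algebraMap K F a ∈ O ∧ c ^ n = ϖ * a)
    (j : ℕ) (T : Finset (Pic0 K F)) (hT : ∀ x ∈ T, x ∈ specKernel sp) :
    ∃ P : ι → MvPolynomial (ι ⊕ ι) K, (∀ i m, algebraMap K F ((P i).coeff m) ∈ O) ∧
      ∀ x ∈ T, ∀ y ∈ T, ∀ i, ∃ w : K, algebraMap K F w ∈ O ∧
        helper5161.coord sp R t (x + y) i
          - MvPolynomial.eval (Sum.elim (helper5161.coord sp R t x)
              (helper5161.coord sp R t y)) (P i) = ϖ ^ j * w :=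
  approx_law_of_key (O := O) (helper5161.coord sp R t) (specKernel sp : Set (Pic0 K F))
    (fun _ hx i => helper5161.coord_mem_nonunits hS hx i)
    (fun d => key_law hS Pinf hPinf e het hereg hR₀ B₁ B₂ B₁₂ h1 h2 he hE hB₁₂ hB₁ hB₂ d)
    ϖ harch j T hT

end Law

end Fermat.Agent.S19.helper2570
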