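import Mathlib
import Fermat.Prelude.Def_ModularCurve_ReductionModL
import Fermat.Prelude.Def_ModularCurve_ArithmeticGalois
import Fermat.Agent.S18.helper508_GaussMod
import Fermat.Agent.S37.helper5413_LatticeReduction
import Fermat.Agent.S37.helper2563_GaussGalois
import Fermat.Agent.S37.helper126_TorsionGlue
import Fermat.Agent.S19.helper2007_Discs

/-!
# S19-CALG-INST (helper3103, backup copy): the Galois side of the Gauss instance

Setting: `F = laurentBaseChange L (modularFunctionFieldFull N)` (for `L = ℚ̄` this is
`modularFunctionFieldBar N`), `ℓ ∤ N`, `A` a valuation subring of `L` over `ℓ`,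
`O = helper508.gaussValuationSubring N ℓ hℓN A hA`, `red = helper508.gaussResidue N ℓ hℓN A hA`
with values in `Fk = modularFunctionFieldFullC k N`, `k` the residue field of `A`.

* (G1) the decomposition group of `A`, acting through the Prelude `arithmeticGalois`, preserves
  `O` (`smul_mem_gauss_iff_of_mem_decomposition`);
* (G2) `red (σ • f) = σ̄ • red f` for `σ` in the decomposition group (`σ̄` the coefficientwise
  semilinear automorphism of `Fk`), and `red (τ • f) = red f` for `τ` in the inertia group;
* (U) abstract: under the lattice gate `helper5413.LatHyp`, EVERY map on places satisfying the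
  conservation law is the lattice place reduction (`eq_placeRed_of_cons`);
* (G3) hence for every `sp` with the conservation law at the Gauss pair:
  `sp (σ • P) = σ̄ • sp P` for `σ` in the decomposition group and `sp (τ • P) = sp P` for `τ`
  in the inertia group.
-/

set_option autoImplicit false

noncomputable section

namespace Fermat.Agent.S19.helper3103

open HahnSeries ModularCurve AlgebraicCurve Polynomial
open Fermat.Agent.S18.helper508
open Fermat.Agent.S28
open Fermat.Agent.Lib.helper6879
open Fermat.Agent.S37.helper2563 (restrictA coeffAutC resAut resAut_residue coe_coeffAutC_smul)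

-- For `k` a residue field the default instance search for `Algebra k ↥(modularFunctionFieldFullC k N)`
-- first explores a long failing branch through the following instance; switching it off in this
-- file (only) keeps the elaborated instance terms canonical and the search fast.
attribute [-instance] IsLocalRing.ResidueField.algebraOfIsIntegral

/-! ### Formal core: endomorphisms of `L` preserving `A` and the Gauss-integral series -/

section Formal

variable {L : Type*} [Field L] (A : ValuationSubring L)

theorem subtype_comp_restrictA (s : L →+* L) (hs : ∀ a ∈ A, s a ∈ A) :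
    A.subtype.comp (restrictA A s hs) = s.comp A.subtype :=
  RingHom.ext fun _ => rfl

/-- A ring endomorphism `s` of `L` mapping `A` into `A` and inducing `φ` on the residue field
maps Gauss-integral series to Gauss-integral series. -/
theorem isGaussIntegral_coeffMap (s : L →+* L) (hs : ∀ a ∈ A, s a ∈ A)
    (φ : IsLocalRing.ResidueField A →+* IsLocalRing.ResidueField A)
    (hπ : ∀ a : A, IsLocalRing.residue A ⟨s a, hs a a.2⟩ = φ (IsLocalRing.residue A a))
    {f : LaurentSeries L} (hf : IsGaussIntegral A f) : IsGaussIntegral A (coeffMap s f) := by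
  obtain ⟨Q, y, hQ, h⟩ := hf
  have hcomp : (IsLocalRing.residue A).comp (restrictA A s hs)
      = φ.comp (IsLocalRing.residue A) := RingHom.ext fun a => hπ a
  refine ⟨Q.map (restrictA A s hs), coeffMap (restrictA A s hs) y, ?_, ?_⟩
  · rw [Polynomial.map_map, hcomp, ← Polynomial.map_map]
    exact (Polynomial.map_ne_zero_iff φ.injective).mpr hQ
  · have h1 := congrArg (coeffMap s) h
    rw [map_mul, helper3292.coeffMap_aeval_jqModC, Polynomial.map_map] at h1
    rw [Polynomial.map_map, subtype_comp_restrictA, h1]
    show coeffMap s (coeffMap A.subtype y) = coeffMap A.subtype (coeffMap (restrictA A s hs) y)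
    rw [coeffMap_coeffMap, coeffMap_coeffMap, subtype_comp_restrictA]

/-- ... and the residue map intertwines `s` and `φ`, coefficientwise. -/
theorem gaussResFun_coeffMap (s : L →+* L) (hs : ∀ a ∈ A, s a ∈ A)
    (φ : IsLocalRing.ResidueField A →+* IsLocalRing.ResidueField A)
    (hπ : ∀ a : A, IsLocalRing.residue A ⟨s a, hs a a.2⟩ = φ (IsLocalRing.residue A a))
    {f : LaurentSeries L} (hf : IsGaussIntegral A f) :
    gaussResFun A (coeffMap s f) = coeffMap φ (gaussResFun A f) := by
  obtain ⟨Q, y, hQ, h⟩ := hf
  have hcomp : (IsLocalRing.residue A).comp (restrictA A s hs)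
      = φ.comp (IsLocalRing.residue A) := RingHom.ext fun a => hπ a
  have hQ' : (Q.map (restrictA A s hs)).map (IsLocalRing.residue A) ≠ 0 := by
    rw [Polynomial.map_map, hcomp, ← Polynomial.map_map]
    exact (Polynomial.map_ne_zero_iff φ.injective).mpr hQ
  have h' : aeval (jqModC L) ((Q.map (restrictA A s hs)).map A.subtype) * coeffMap s f
      = cA A (coeffMap (restrictA A s hs) y) := by
    have h1 := congrArg (coeffMap s) h
    rw [map_mul, helper3292.coeffMap_aeval_jqModC, Polynomial.map_map] at h1
    rw [Polynomial.map_map, subtype_comp_restrictA, h1]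
    show coeffMap s (coeffMap A.subtype y) = coeffMap A.subtype (coeffMap (restrictA A s hs) y)
    rw [coeffMap_coeffMap, coeffMap_coeffMap, subtype_comp_restrictA]
  rw [gaussResFun_eq hQ' h', gaussResFun_eq hQ h, map_div₀]
  congr 1
  · show coeffMap (IsLocalRing.residue A) (coeffMap (restrictA A s hs) y)
      = coeffMap φ (coeffMap (IsLocalRing.residue A) y)
    rw [coeffMap_coeffMap, coeffMap_coeffMap, hcomp]
  · rw [helper3292.coeffMap_aeval_jqModC, Polynomial.map_map, Polynomial.map_map, hcomp]

end Formal

/-! ### (G1), (G2): the decomposition and inertia groups on the Gauss pair -/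

section Instance

variable (N : ℕ) [NeZero N] (ℓ : ℕ) [Fact ℓ.Prime] (hℓN : ¬ ℓ ∣ N)
variable {L : Type*} [Field L] [Algebra ℚ L] (A : ValuationSubring L)
  (hA : (ℓ : L) ∈ A.nonunits)

/-- (G1) The decomposition group of `A` maps the Gauss valuation ring into itself. -/
theorem smul_mem_gauss_of_mem_decomposition {σ : L ≃ₐ[ℚ] L}
    (hσ : σ ∈ A.decompositionSubgroup ℚ)
    {f : ↥(laurentBaseChange L (modularFunctionFieldFull N))}
    (hf : f ∈ gaussValuationSubring N ℓ hℓN A hA) :
    arithmeticGalois (modularFunctionFieldFull N) σ • f ∈ gaussValuationSubring N ℓ hℓN A hA :=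
  isGaussIntegral_coeffMap A (σ : L →+* L)
    (fun _ ha => map_mem_of_mem_decompositionSubgroup hσ ha)
    ((resAut A hσ : RingAut (IsLocalRing.ResidueField A)) :
      IsLocalRing.ResidueField A →+* IsLocalRing.ResidueField A)
    (fun a => resAut_residue A hσ a) hf

/-- (G1) `σ • f ∈ O ↔ f ∈ O` for `σ` in the decomposition group. -/
theorem smul_mem_gauss_iff_of_mem_decomposition {σ : L ≃ₐ[ℚ] L}
    (hσ : σ ∈ A.decompositionSubgroup ℚ)
    {f : ↥(laurentBaseChange L (modularFunctionFieldFull N))} :
    arithmeticGalois (modularFunctionFieldFull N) σ • f ∈ gaussValuationSubring N ℓ hℓN A hA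
      ↔ f ∈ gaussValuationSubring N ℓ hℓN A hA := by
  constructor
  · intro h
    have h1 := smul_mem_gauss_of_mem_decomposition N ℓ hℓN A hA (inv_mem hσ) h
    rwa [map_inv, inv_smul_smul] at h1
  · exact smul_mem_gauss_of_mem_decomposition N ℓ hℓN A hA hσ

/-- (G2) The residue map of the Gauss ring intertwines `σ` in the decomposition group with the
coefficientwise semilinear automorphism `σ̄` of the function field of the special fibre. -/
theorem gaussResidue_smul_of_mem_decomposition {σ : L ≃ₐ[ℚ] L}
    (hσ : σ ∈ A.decompositionSubgroup ℚ) (f : ↥(gaussValuationSubring N ℓ hℓN A hA)) :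
    gaussResidue N ℓ hℓN A hA
        ⟨arithmeticGalois (modularFunctionFieldFull N) σ •
          (f : ↥(laurentBaseChange L (modularFunctionFieldFull N))),
          smul_mem_gauss_of_mem_decomposition N ℓ hℓN A hA hσ f.2⟩
      = coeffAutC N (resAut A hσ) • gaussResidue N ℓ hℓN A hA f := by
  apply Subtype.ext
  rw [coe_coeffAutC_smul]
  exact gaussResFun_coeffMap A (σ : L →+* L)
    (fun _ ha => map_mem_of_mem_decompositionSubgroup hσ ha)
    ((resAut A hσ : RingAut (IsLocalRing.ResidueField A)) :
      IsLocalRing.ResidueField A →+* IsLocalRing.ResidueField A)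
    (fun a => resAut_residue A hσ a) f.2

/-- (G1) The inertia group of `A` maps the Gauss valuation ring into itself. -/
theorem smul_mem_gauss_of_mem_inertia {τ : L ≃ₐ[ℚ] L} (hτ : τ ∈ A.inertiaSubgroupIn ℚ)
    {f : ↥(laurentBaseChange L (modularFunctionFieldFull N))}
    (hf : f ∈ gaussValuationSubring N ℓ hℓN A hA) :
    arithmeticGalois (modularFunctionFieldFull N) τ • f ∈ gaussValuationSubring N ℓ hℓN A hA :=
  smul_mem_gauss_of_mem_decomposition N ℓ hℓN A hA
    (mem_decompositionSubgroup_of_mem_inertiaSubgroupIn hτ) hf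

/-- (G2) The inertia group acts trivially on the residue function field:
`red (τ • f) = red f`. -/
theorem gaussResidue_smul_of_mem_inertia {τ : L ≃ₐ[ℚ] L} (hτ : τ ∈ A.inertiaSubgroupIn ℚ)
    (f : ↥(gaussValuationSubring N ℓ hℓN A hA)) :
    gaussResidue N ℓ hℓN A hA
        ⟨arithmeticGalois (modularFunctionFieldFull N) τ •
          (f : ↥(laurentBaseChange L (modularFunctionFieldFull N))),
          smul_mem_gauss_of_mem_inertia N ℓ hℓN A hA hτ f.2⟩
      = gaussResidue N ℓ hℓN A hA f := by
  apply Subtype.ext
  have h := gaussResFun_coeffMap A (τ : L →+* L)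
    (fun _ ha => map_mem_of_mem_decompositionSubgroup
      (mem_decompositionSubgroup_of_mem_inertiaSubgroupIn hτ) ha)
    (RingHom.id (IsLocalRing.ResidueField A)) (fun a => inertia_residue hτ a) f.2
  rw [coeffMap_id] at h
  exact h

end Instance

/-! ### (U) Uniqueness of the place reduction under the lattice gate -/

section Unique

open Fermat.Agent.S37.helper5413

variable {L F k Fk : Type*} [Field L] [Field F] [Algebra L F] [Field k] [Field Fk] [Algebra k Fk]
variable {O : ValuationSubring F} {red : O →+* Fk} {g c : ℤ}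
  {E₀ : Divisor L F} {E₀k : Divisor k Fk}

/-- A map on places between two function fields all of whose places have degree one preserves
degrees of divisors. -/
theorem degree_mapDomain_of_deg_one (hL : ∀ P : Place L F, P.deg = 1)
    (hk : ∀ Q : Place k Fk, Q.deg = 1) (sp : Place L F → Place k Fk) (E : Divisor L F) :
    Divisor.degree (Finsupp.mapDomain sp E) = Divisor.degree E := by
  classical
  rw [degree_eq_sum, degree_eq_sum, Finsupp.sum_mapDomain_index (by simp) (by intros; ring)]
  refine Finsupp.sum_congr fun Q _ => ?_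
  rw [hL, hk]

/-- Under the lattice gate, the push-forward along ANY map on places satisfying the conservation
law is the lattice reduction `rho` of divisors (in large degree). -/
theorem mapDomain_eq_rho_of_cons [HasPrincipalDivisors L F] (H : LatHyp O red g c E₀ E₀k)
    (sp : Place L F → Place k Fk) (hsp : Fermat.Agent.S37.helper6835.Cons O red sp)
    {E : Divisor L F} (hE : LatHyp.thr g c ≤ Divisor.degree E) :
    Finsupp.mapDomain sp E = rho k O red E := by
  have hgE : g ≤ Divisor.degree E := LatHyp.g_le_thr.trans hE
  have hle : rho k O red E ≤ Finsupp.mapDomain sp E := by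
    intro Q
    obtain ⟨f, hf, hne, e⟩ := H.exists_rho_eq hgE Q
    have hf0 : (f : F) ≠ 0 := LatHyp.coe_ne_zero_of_red_ne_zero hne
    obtain ⟨D, hD, -⟩ := HasPrincipalDivisors.exists_divisor (K := L) (f : F) hf0
    have h1 := hsp f hne D hD Q
    have hDE : ∀ v : Place L F, 0 ≤ (D + E) v := by
      intro v
      rw [mem_rr_iff] at hf
      rcases hf with h0 | h
      · exact absurd h0 hf0
      · have := h v
        rw [Finsupp.add_apply, hD v]
        linarith
    have h2 : 0 ≤ Finsupp.mapDomain sp (D + E) Q :=
      Fermat.Agent.S37.helper126.mapDomain_apply_nonneg sp (D + E) Q (fun P _ => hDE P)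
    rw [Finsupp.mapDomain_add, Finsupp.add_apply, h1] at h2
    rw [e]
    linarith
  have hdeg : Divisor.degree (rho k O red E) = Divisor.degree (Finsupp.mapDomain sp E) := by
    rw [H.degree_rho hE, degree_mapDomain_of_deg_one H.degL H.degk]
  exact (eq_of_le_of_degree_eq H.degk hle hdeg).symm

/-- **(U)** Under the lattice gate, every map on places satisfying the conservation law
`sp_*(div f) = div (red f)` IS the lattice place reduction. -/
theorem eq_placeRed_of_cons [HasPrincipalDivisors L F] (H : LatHyp O red g c E₀ E₀k)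
    (sp : Place L F → Place k Fk) (hsp : Fermat.Agent.S37.helper6835.Cons O red sp)
    (P : Place L F) : sp P = H.placeRed P := by
  obtain ⟨T, hT⟩ := H.exists_thr_le
  have hdegP : Divisor.degree (Finsupp.single P (1 : ℤ)) = 1 := by
    rw [Divisor.degree_single, H.degL]; simp
  have hTP : LatHyp.thr g c ≤ Divisor.degree (T + Finsupp.single P 1) := by
    rw [map_add, hdegP]; linarith
  have h1 := mapDomain_eq_rho_of_cons H sp hsp hTP
  rw [H.rho_add_single hT P, ← mapDomain_eq_rho_of_cons H sp hsp hT, Finsupp.mapDomain_add,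
    Finsupp.mapDomain_single] at h1
  exact Finsupp.single_left_injective one_ne_zero (add_left_cancel h1)

end Unique

/-! ### (G3) Equivariance of the place reduction at the Gauss pair -/

section Equivariance

open Fermat.Agent.S37.helper5413

variable (N : ℕ) [NeZero N] (ℓ : ℕ) [Fact ℓ.Prime] (hℓN : ¬ ℓ ∣ N)
variable {L : Type*} [Field L] [Algebra ℚ L] (A : ValuationSubring L)
  (hA : (ℓ : L) ∈ A.nonunits)
variable {g c : ℤ} {E₀ : Divisor L ↥(laurentBaseChange L (modularFunctionFieldFull N))}
  {E₀k : Divisor (IsLocalRing.ResidueField A)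
    ↥(modularFunctionFieldFullC (IsLocalRing.ResidueField A) N)}

/-- (G3, lattice form) The lattice place reduction at the Gauss pair intertwines `σ` in the
decomposition group of `A` with the coefficientwise semilinear automorphism `σ̄` of the special
fibre. -/
theorem placeRed_smul_of_mem_decomposition
    (H : LatHyp (gaussValuationSubring N ℓ hℓN A hA) (gaussResidue N ℓ hℓN A hA) g c E₀ E₀k)
    {σ : L ≃ₐ[ℚ] L} (hσ : σ ∈ A.decompositionSubgroup ℚ)
    (P : Place L ↥(laurentBaseChange L (modularFunctionFieldFull N))) :
    H.placeRed (arithmeticGalois (modularFunctionFieldFull N) σ • P)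
      = coeffAutC N (resAut A hσ) • H.placeRed P :=
  H.placeRed_equivariant
    (SemilinearAut.toRingAut (arithmeticGalois (modularFunctionFieldFull N) σ))
    (SemilinearAut.toRingAut (coeffAutC N (resAut A hσ)))
    (MulAction.toPerm (arithmeticGalois (modularFunctionFieldFull N) σ))
    (MulAction.toPerm (coeffAutC N (resAut A hσ)))
    (fun _ hf => smul_mem_gauss_of_mem_decomposition N ℓ hℓN A hA hσ hf)
    (fun f hf => by
      have h1 := smul_mem_gauss_of_mem_decomposition N ℓ hℓN A hA (inv_mem hσ) hf
      rwa [map_inv] at h1)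
    (fun f _ => gaussResidue_smul_of_mem_decomposition N ℓ hℓN A hA hσ f)
    (fun P f => SemilinearAut.ord_smul _ P f)
    (fun Q y => SemilinearAut.ord_smul _ Q y) P

/-- (G3, lattice form) The inertia group acts trivially on the special fibre. -/
theorem placeRed_smul_of_mem_inertia
    (H : LatHyp (gaussValuationSubring N ℓ hℓN A hA) (gaussResidue N ℓ hℓN A hA) g c E₀ E₀k)
    {τ : L ≃ₐ[ℚ] L} (hτ : τ ∈ A.inertiaSubgroupIn ℚ)
    (P : Place L ↥(laurentBaseChange L (modularFunctionFieldFull N))) :
    H.placeRed (arithmeticGalois (modularFunctionFieldFull N) τ • P) = H.placeRed P := by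
  have h := H.placeRed_equivariant
    (SemilinearAut.toRingAut (arithmeticGalois (modularFunctionFieldFull N) τ))
    (RingEquiv.refl _)
    (MulAction.toPerm (arithmeticGalois (modularFunctionFieldFull N) τ))
    (Equiv.refl _)
    (fun _ hf => smul_mem_gauss_of_mem_inertia N ℓ hℓN A hA hτ hf)
    (fun f hf => by
      have h1 := smul_mem_gauss_of_mem_inertia N ℓ hℓN A hA (inv_mem hτ) hf
      rwa [map_inv] at h1)
    (fun f _ => gaussResidue_smul_of_mem_inertia N ℓ hℓN A hA hτ f)
    (fun P f => SemilinearAut.ord_smul _ P f)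
    (fun _ _ => rfl) P
  exact h

variable [HasPrincipalDivisors L ↥(laurentBaseChange L (modularFunctionFieldFull N))]

/-- **(G3)** For EVERY map on places `sp` with the conservation law at the Gauss pair (given the
lattice gate): `sp (σ • P) = σ̄ • sp P` for `σ` in the decomposition group of `A`. -/
theorem sp_smul_of_mem_decomposition
    (H : LatHyp (gaussValuationSubring N ℓ hℓN A hA) (gaussResidue N ℓ hℓN A hA) g c E₀ E₀k)
    (sp : Place L ↥(laurentBaseChange L (modularFunctionFieldFull N)) →
      Place (IsLocalRing.ResidueField A)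
        ↥(modularFunctionFieldFullC (IsLocalRing.ResidueField A) N))
    (hsp : Fermat.Agent.S37.helper126.Conservation (gaussValuationSubring N ℓ hℓN A hA)
      (gaussResidue N ℓ hℓN A hA) sp)
    {σ : L ≃ₐ[ℚ] L} (hσ : σ ∈ A.decompositionSubgroup ℚ)
    (P : Place L ↥(laurentBaseChange L (modularFunctionFieldFull N))) :
    sp (arithmeticGalois (modularFunctionFieldFull N) σ • P)
      = coeffAutC N (resAut A hσ) • sp P := by
  rw [eq_placeRed_of_cons H sp hsp, eq_placeRed_of_cons H sp hsp]
  exact placeRed_smul_of_mem_decomposition N ℓ hℓN A hA H hσ P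

/-- **(G3)** For EVERY map on places `sp` with the conservation law at the Gauss pair (given the
lattice gate), the inertia group of `A` acts trivially on the special fibre:
`sp (τ • P) = sp P`. -/
theorem sp_smul_of_mem_inertia
    (H : LatHyp (gaussValuationSubring N ℓ hℓN A hA) (gaussResidue N ℓ hℓN A hA) g c E₀ E₀k)
    (sp : Place L ↥(laurentBaseChange L (modularFunctionFieldFull N)) →
      Place (IsLocalRing.ResidueField A)
        ↥(modularFunctionFieldFullC (IsLocalRing.ResidueField A) N))
    (hsp : Fermat.Agent.S37.helper126.Conservation (gaussValuationSubring N ℓ hℓN A hA)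
      (gaussResidue N ℓ hℓN A hA) sp)
    {τ : L ≃ₐ[ℚ] L} (hτ : τ ∈ A.inertiaSubgroupIn ℚ)
    (P : Place L ↥(laurentBaseChange L (modularFunctionFieldFull N))) :
    sp (arithmeticGalois (modularFunctionFieldFull N) τ • P) = sp P := by
  rw [eq_placeRed_of_cons H sp hsp, eq_placeRed_of_cons H sp hsp]
  exact placeRed_smul_of_mem_inertia N ℓ hℓN A hA H hτ P

end Equivariance

/-! ### Packaged form: the inertia image `G` as a set of semilinear automorphisms

The C-alg leaves (`helper2007` DISCS/CEN, `helper5161` COORD, `helper5236` BOOT, ...) take an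
abstract `G : Set (SemilinearAut K F)` with the hypotheses `hGO`, `hGO'`, `hGred`, `hG`.  Here
they are for `G := inertiaAut N A`, the image of the inertia group of `A` under the Prelude
`arithmeticGalois`. -/

section Packaged

open Fermat.Agent.S37.helper5413
open Fermat.Agent.S37.helper126 (rd rd_of_mem Conservation)

variable (N : ℕ) {L : Type*} [Field L] [Algebra ℚ L] (A : ValuationSubring L)

/-- The image of the inertia group of `A` in the semilinear automorphisms of
`F̄_N = laurentBaseChange L (modularFunctionFieldFull N)`. -/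
def inertiaAut : Subgroup (SemilinearAut L ↥(laurentBaseChange L (modularFunctionFieldFull N))) :=
  (A.inertiaSubgroupIn ℚ).map (arithmeticGalois (modularFunctionFieldFull N))

/-- The image of the decomposition group of `A` in the semilinear automorphisms of `F̄_N`. -/
def decompAut : Subgroup (SemilinearAut L ↥(laurentBaseChange L (modularFunctionFieldFull N))) :=
  (A.decompositionSubgroup ℚ).map (arithmeticGalois (modularFunctionFieldFull N))

variable {N A}

theorem mem_inertiaAut {γ : SemilinearAut L ↥(laurentBaseChange L (modularFunctionFieldFull N))} :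
    γ ∈ inertiaAut N A ↔
      ∃ τ ∈ A.inertiaSubgroupIn ℚ, arithmeticGalois (modularFunctionFieldFull N) τ = γ :=
  Subgroup.mem_map

theorem mem_decompAut {γ : SemilinearAut L ↥(laurentBaseChange L (modularFunctionFieldFull N))} :
    γ ∈ decompAut N A ↔
      ∃ σ ∈ A.decompositionSubgroup ℚ, arithmeticGalois (modularFunctionFieldFull N) σ = γ :=
  Subgroup.mem_map

theorem arithmeticGalois_mem_inertiaAut {τ : L ≃ₐ[ℚ] L} (hτ : τ ∈ A.inertiaSubgroupIn ℚ) :
    arithmeticGalois (modularFunctionFieldFull N) τ ∈ inertiaAut N A :=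
  Subgroup.mem_map_of_mem _ hτ

theorem arithmeticGalois_mem_decompAut {σ : L ≃ₐ[ℚ] L} (hσ : σ ∈ A.decompositionSubgroup ℚ) :
    arithmeticGalois (modularFunctionFieldFull N) σ ∈ decompAut N A :=
  Subgroup.mem_map_of_mem _ hσ

theorem inertiaAut_le_decompAut : inertiaAut N A ≤ decompAut N A := by
  intro γ hγ
  obtain ⟨τ, hτ, rfl⟩ := mem_inertiaAut.mp hγ
  exact arithmeticGalois_mem_decompAut (mem_decompositionSubgroup_of_mem_inertiaSubgroupIn hτ)

/-- A statement about all elements of the inertia image is a statement about all elements of the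
inertia group. -/
theorem forall_mem_inertiaAut
    {p : SemilinearAut L ↥(laurentBaseChange L (modularFunctionFieldFull N)) → Prop} :
    (∀ γ ∈ inertiaAut N A, p γ) ↔
      ∀ τ ∈ A.inertiaSubgroupIn ℚ, p (arithmeticGalois (modularFunctionFieldFull N) τ) := by
  constructor
  · intro h τ hτ
    exact h _ (arithmeticGalois_mem_inertiaAut hτ)
  · intro h γ hγ
    obtain ⟨τ, hτ, rfl⟩ := mem_inertiaAut.mp hγ
    exact h τ hτ

/-- (G4) The action of the inertia image on constants is the action of the inertia group. -/
theorem exists_baseAut_eq_of_mem_inertiaAut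
    {γ : SemilinearAut L ↥(laurentBaseChange L (modularFunctionFieldFull N))}
    (hγ : γ ∈ inertiaAut N A) :
    ∃ τ ∈ A.inertiaSubgroupIn ℚ, ∀ a : L, SemilinearAut.baseAut γ a = τ a := by
  obtain ⟨τ, hτ, rfl⟩ := mem_inertiaAut.mp hγ
  exact ⟨τ, hτ, fun _ => rfl⟩

end Packaged

section PackagedGauss

open Fermat.Agent.S37.helper5413
open Fermat.Agent.S37.helper126 (rd rd_of_mem Conservation)

variable (N : ℕ) [NeZero N] (ℓ : ℕ) [Fact ℓ.Prime] (hℓN : ¬ ℓ ∣ N)
variable {L : Type*} [Field L] [Algebra ℚ L] (A : ValuationSubring L)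
  (hA : (ℓ : L) ∈ A.nonunits)

/-- (`hGO`) The inertia image preserves the Gauss valuation ring. -/
theorem inertiaAut_smul_mem
    {γ : SemilinearAut L ↥(laurentBaseChange L (modularFunctionFieldFull N))}
    (hγ : γ ∈ inertiaAut N A) {f : ↥(laurentBaseChange L (modularFunctionFieldFull N))}
    (hf : f ∈ gaussValuationSubring N ℓ hℓN A hA) :
    γ • f ∈ gaussValuationSubring N ℓ hℓN A hA := by
  obtain ⟨τ, hτ, rfl⟩ := mem_inertiaAut.mp hγ
  exact smul_mem_gauss_of_mem_inertia N ℓ hℓN A hA hτ hf

/-- (`hGO'`) ... and so do the inverses. -/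
theorem inertiaAut_inv_smul_mem
    {γ : SemilinearAut L ↥(laurentBaseChange L (modularFunctionFieldFull N))}
    (hγ : γ ∈ inertiaAut N A) {f : ↥(laurentBaseChange L (modularFunctionFieldFull N))}
    (hf : f ∈ gaussValuationSubring N ℓ hℓN A hA) :
    γ⁻¹ • f ∈ gaussValuationSubring N ℓ hℓN A hA :=
  inertiaAut_smul_mem N ℓ hℓN A hA (inv_mem hγ) hf

theorem inertiaAut_smul_mem_iff
    {γ : SemilinearAut L ↥(laurentBaseChange L (modularFunctionFieldFull N))}
    (hγ : γ ∈ inertiaAut N A) {f : ↥(laurentBaseChange L (modularFunctionFieldFull N))} :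
    γ • f ∈ gaussValuationSubring N ℓ hℓN A hA ↔ f ∈ gaussValuationSubring N ℓ hℓN A hA := by
  constructor
  · intro h
    have h1 := inertiaAut_inv_smul_mem N ℓ hℓN A hA hγ h
    rwa [inv_smul_smul] at h1
  · exact inertiaAut_smul_mem N ℓ hℓN A hA hγ

/-- (`hGred`) The inertia image acts trivially on the residue function field. -/
theorem inertiaAut_gaussResidue
    {γ : SemilinearAut L ↥(laurentBaseChange L (modularFunctionFieldFull N))}
    (hγ : γ ∈ inertiaAut N A) (f : ↥(gaussValuationSubring N ℓ hℓN A hA))
    (hf : γ • (f : ↥(laurentBaseChange L (modularFunctionFieldFull N))) ∈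
      gaussValuationSubring N ℓ hℓN A hA) :
    gaussResidue N ℓ hℓN A hA ⟨γ • (f : ↥(laurentBaseChange L (modularFunctionFieldFull N))), hf⟩
      = gaussResidue N ℓ hℓN A hA f := by
  obtain ⟨τ, hτ, rfl⟩ := mem_inertiaAut.mp hγ
  exact gaussResidue_smul_of_mem_inertia N ℓ hℓN A hA hτ f

/-- (`hGred`, `rd` form) `rd (γ • f) = rd f` for every `f` of the function field. -/
theorem inertiaAut_rd
    {γ : SemilinearAut L ↥(laurentBaseChange L (modularFunctionFieldFull N))}
    (hγ : γ ∈ inertiaAut N A) (f : ↥(laurentBaseChange L (modularFunctionFieldFull N))) :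
    rd (gaussValuationSubring N ℓ hℓN A hA) (gaussResidue N ℓ hℓN A hA) (γ • f)
      = rd (gaussValuationSubring N ℓ hℓN A hA) (gaussResidue N ℓ hℓN A hA) f := by
  by_cases hf : f ∈ gaussValuationSubring N ℓ hℓN A hA
  · have hf' := inertiaAut_smul_mem N ℓ hℓN A hA hγ hf
    rw [rd_of_mem _ _ hf', rd_of_mem _ _ hf]
    exact inertiaAut_gaussResidue N ℓ hℓN A hA hγ ⟨f, hf⟩ hf'
  · have hf' : γ • f ∉ gaussValuationSubring N ℓ hℓN A hA := fun h =>
      hf ((inertiaAut_smul_mem_iff N ℓ hℓN A hA hγ).mp h)
    rw [rd, rd, dif_neg hf', dif_neg hf]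

variable {g c : ℤ} {E₀ : Divisor L ↥(laurentBaseChange L (modularFunctionFieldFull N))}
  {E₀k : Divisor (IsLocalRing.ResidueField A)
    ↥(modularFunctionFieldFullC (IsLocalRing.ResidueField A) N)}

/-- (`hG`, lattice form) The inertia image preserves every residue disc of the lattice place
reduction. -/
theorem inertiaAut_placeRed
    (H : LatHyp (gaussValuationSubring N ℓ hℓN A hA) (gaussResidue N ℓ hℓN A hA) g c E₀ E₀k)
    {γ : SemilinearAut L ↥(laurentBaseChange L (modularFunctionFieldFull N))}
    (hγ : γ ∈ inertiaAut N A)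
    (P : Place L ↥(laurentBaseChange L (modularFunctionFieldFull N))) :
    H.placeRed (γ • P) = H.placeRed P := by
  obtain ⟨τ, hτ, rfl⟩ := mem_inertiaAut.mp hγ
  exact placeRed_smul_of_mem_inertia N ℓ hℓN A hA H hτ P

/-- (`hG`) The inertia image preserves every residue disc of EVERY map on places with the
conservation law at the Gauss pair (given the lattice gate). -/
theorem inertiaAut_sp [HasPrincipalDivisors L ↥(laurentBaseChange L (modularFunctionFieldFull N))]
    (H : LatHyp (gaussValuationSubring N ℓ hℓN A hA) (gaussResidue N ℓ hℓN A hA) g c E₀ E₀k)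
    (sp : Place L ↥(laurentBaseChange L (modularFunctionFieldFull N)) →
      Place (IsLocalRing.ResidueField A)
        ↥(modularFunctionFieldFullC (IsLocalRing.ResidueField A) N))
    (hsp : Conservation (gaussValuationSubring N ℓ hℓN A hA) (gaussResidue N ℓ hℓN A hA) sp)
    {γ : SemilinearAut L ↥(laurentBaseChange L (modularFunctionFieldFull N))}
    (hγ : γ ∈ inertiaAut N A)
    (P : Place L ↥(laurentBaseChange L (modularFunctionFieldFull N))) :
    sp (γ • P) = sp P := by
  obtain ⟨τ, hτ, rfl⟩ := mem_inertiaAut.mp hγ
  exact sp_smul_of_mem_inertia N ℓ hℓN A hA H sp hsp hτ P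

/-- The decomposition image preserves the Gauss valuation ring. -/
theorem decompAut_smul_mem_iff
    {γ : SemilinearAut L ↥(laurentBaseChange L (modularFunctionFieldFull N))}
    (hγ : γ ∈ decompAut N A) {f : ↥(laurentBaseChange L (modularFunctionFieldFull N))} :
    γ • f ∈ gaussValuationSubring N ℓ hℓN A hA ↔ f ∈ gaussValuationSubring N ℓ hℓN A hA := by
  obtain ⟨σ, hσ, rfl⟩ := mem_decompAut.mp hγ
  exact smul_mem_gauss_iff_of_mem_decomposition N ℓ hℓN A hA hσ

/-- The decomposition image descends to the special fibre: every `γ` in it acts on the residue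
discs of the lattice place reduction through a permutation of the places of the special fibre
(the shape of the hypothesis of `helper2007.smul_mem_specKernel`). -/
theorem decompAut_placeRed
    (H : LatHyp (gaussValuationSubring N ℓ hℓN A hA) (gaussResidue N ℓ hℓN A hA) g c E₀ E₀k)
    {γ : SemilinearAut L ↥(laurentBaseChange L (modularFunctionFieldFull N))}
    (hγ : γ ∈ decompAut N A) :
    ∃ γk : SemilinearAut (IsLocalRing.ResidueField A)
        ↥(modularFunctionFieldFullC (IsLocalRing.ResidueField A) N),
      ∀ P : Place L ↥(laurentBaseChange L (modularFunctionFieldFull N)),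
        H.placeRed (γ • P) = γk • H.placeRed P := by
  obtain ⟨σ, hσ, rfl⟩ := mem_decompAut.mp hγ
  exact ⟨coeffAutC N (resAut A hσ),
    fun P => placeRed_smul_of_mem_decomposition N ℓ hℓN A hA H hσ P⟩

end PackagedGauss

end Fermat.Agent.S19.helper3103

end
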