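import Mathlib
import Fermat.Agent.Lib.helper1852_HopfOrder
import Fermat.Agent.S19.helper2111_Spec
import Fermat.Agent.S28.helper508_RatLoc

set_option autoImplicit false

/-!
# S19, brick FUNCMODEL: a function model gives the frozen Hopf-algebra existential

`stmt_FuncModel ℓ : Stmt_FuncModel ℓ` for the captain's Spec (`helper2111_Spec`), from the
Mathlib-only core `Fermat.Agent.Lib.helper1852.FunOrder` (`Lib/helper1852_HopfOrder.lean`).
-/

namespace Fermat.Agent.S19.helper1852

open Fermat.Agent.S19.helper2111 Fermat.Agent.Lib.helper1852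

/-- `ℚ` is the fraction field of `ℤ_(ℓ)`. -/
theorem isFractionRing_ratLocalizedAt (ℓ : ℕ) :
    IsFractionRing (GaloisRep.ratLocalizedAt ℓ) ℚ := by
  refine IsFractionRing.of_field _ ℚ fun z => ?_
  refine ⟨⟨(z.num : ℚ), Fermat.Agent.S28.helper508.intCast_mem ℓ z.num⟩,
    ⟨(z.den : ℚ), Fermat.Agent.S28.helper508.natCast_mem ℓ z.den⟩, ?_⟩
  exact (Rat.num_div_den z).symm

/-- `AlgebraicClosure ℚ` is Galois over `ℚ`. -/
theorem isGalois_algebraicClosure_rat : IsGalois ℚ (AlgebraicClosure ℚ) := by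
  have : IsAlgClosure ℚ (AlgebraicClosure ℚ) := ⟨inferInstance, AlgebraicClosure.isAlgebraic ℚ⟩
  infer_instance

/-- **FUNCMODEL.**  A function model on `M` gives the frozen Hopf-algebra existential. -/
theorem stmt_FuncModel (ℓ : ℕ) [Fact ℓ.Prime] : Stmt_FuncModel ℓ := by
  intro M _ _ act hact hact0 hmod
  obtain ⟨H, hH⟩ := hmod
  have := isFractionRing_ratLocalizedAt ℓ
  have := isGalois_algebraicClosure_rat
  have hFO : FunOrder H :=
    FunOrder.of_finite_equivariant (K := ℚ) act hact hact0 hH.finite hH.eqv hH.sep hH.comul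
  obtain ⟨H', i1, i2, h1, h2, h3, e, he1, he2⟩ := hFO.exists_hopfAlgebra
  refine ⟨H', i1, i2, h1, h2, h3, e, he1, ?_⟩
  intro σ f g hfg
  exact he2 (act σ) σ (fun φ hφ m => hH.eqv φ hφ σ m) f g hfg

/-- The same without the finiteness hypothesis on `M` (it follows from the function model). -/
theorem hopfModel_of_galModel (ℓ : ℕ) [Fact ℓ.Prime] (M : Type) [AddCommGroup M]
    (act : GQ → M → M) (hact : ∀ σ, Function.Surjective (act σ)) (hact0 : ∀ σ, act σ 0 = 0)
    (hmod : GalModel ℓ M act) : HopfModel ℓ M act := by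
  obtain ⟨H, hH⟩ := hmod
  have := isFractionRing_ratLocalizedAt ℓ
  have := isGalois_algebraicClosure_rat
  have hFO : FunOrder H :=
    FunOrder.of_finite_equivariant (K := ℚ) act hact hact0 hH.finite hH.eqv hH.sep hH.comul
  obtain ⟨H', i1, i2, h1, h2, h3, e, he1, he2⟩ := hFO.exists_hopfAlgebra
  refine ⟨H', i1, i2, h1, h2, h3, e, he1, ?_⟩
  intro σ f g hfg
  exact he2 (act σ) σ (fun φ hφ m => hH.eqv φ hφ σ m) f g hfg

end Fermat.Agent.S19.helper1852
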