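/-
S19, board leaf "S19-LEVEL" (helper2289): LEVEL CHANGE for the finite-flat statement, in the
vocabulary of the captain's Spec (`helper2111_Spec`: `GalModel`, `Tors`, `torsAct`, `Stmt_Model`).

Every realisation of S19 builds its order at an AUXILIARY level `N'` (`N.lcm r`, `r = 2, 3`, where
the S18/S37 layer lands the gate; or `N·4` / `N·9`) and has to come back to level `N`.

* `exists_beta`, `exists_beta_four`, `exists_beta_nine`, `exists_beta_prime`, `exists_lcm` (LV2):
  HYPOTHESIS-FREE injective Galois-equivariant homomorphisms `J₀(N) → J₀(N·q^(k+1))`,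
  `J₀(N) → J₀(N.lcm r)` (`β_m^*`, `q ↦ q^m`).  All inputs are landed S37 files: PICINJ
  `helper9304`, `betaPic` `helper5176`, the degree bound `helper6887`, the fundamental identity and
  the norm formula `helper1187`.  Note that `β_r^*` is injective for EVERY prime `r` (degree
  `r + 1 < 2 r`, the cusp has index `r`), also when `ℓ` divides the degree.
* `torsMap`, `stmt_Model_of_level` (LV3): `Stmt_Model N' ℓ k → Stmt_Model N ℓ k` for every
  injective equivariant `φ : J₀(N) →+ J₀(N')`;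
  `stmt_Model_of_subgroup`: the same from a function model on ANY Galois-stable subgroup of
  `J₀(N')` containing the image of the torsion (e.g. the output of DESCENT);
  `stmt_Model_of_lcm`, `stmt_Model_of_beta`, `stmt_Model_of_four`, `stmt_Model_of_nine`,
  `stmt_Model_of_aux`: the instances.
-/
import Mathlib
import Fermat.Agent.S19.helper2111_Spec
import Fermat.Agent.S37.helper5176_LevelDescent
import Fermat.Agent.S37.helper6887_Fricke
import Fermat.Agent.S37.helper1187_RelFunctionField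

set_option autoImplicit false

noncomputable section

namespace Fermat.Agent.S19.helper2289

open ModularCurve AlgebraicCurve
open Fermat.Agent.S24.helper24
open Fermat.Agent.S19.helper2111

/-! ## (LV2) Injective Galois-equivariant maps between the `J₀` -/

section Modular

/-- **(LV2)** For a prime power `m = q^(k+1)` the pull-back `β_m^* : J₀(N) → J₀(N m)` along
`q ↦ q^m` is injective and Galois-equivariant.  Hypothesis-free. -/
theorem exists_beta (N m : ℕ) [NeZero N] [NeZero m] (q k : ℕ) (hq : q.Prime)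
    (hm : m = q ^ (k + 1)) :
    ∃ φ : JZero N →+ JZero (N * m), Function.Injective φ ∧
      ∀ (σ : GQ) (x : JZero N), φ (σ • x) = σ • φ x := by
  have hfin := Fermat.Agent.S37.helper5162.finiteAlong_heckeBetaBar N m
  have hFI : Fermat.Agent.S37.helper5176.BetaFI N m :=
    Fermat.Agent.S37.helper1187.fundamentalIdentityAlong_of_finite _ _ hfin
  have hNF : Fermat.Agent.S37.helper5176.BetaNF N m :=
    Fermat.Agent.S37.helper1187.normFormulaAlong_of_finite _ hfin
  refine ⟨Fermat.Agent.S37.helper5176.betaPic hFI,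
    Fermat.Agent.S37.helper5176.betaPic_injective hFI hNF ?_,
    Fermat.Agent.S37.helper5176.betaPic_galois hFI⟩
  subst hm
  exact Fermat.Agent.S37.helper6887.finrankAlong_heckeBetaBar_prime_pow_lt N q k hq

/-- Level `4 N`. -/
theorem exists_beta_four (N : ℕ) [NeZero N] :
    ∃ φ : JZero N →+ JZero (N * 4), Function.Injective φ ∧
      ∀ (σ : GQ) (x : JZero N), φ (σ • x) = σ • φ x :=
  exists_beta N 4 2 1 Nat.prime_two (by norm_num)

/-- Level `9 N`. -/
theorem exists_beta_nine (N : ℕ) [NeZero N] :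
    ∃ φ : JZero N →+ JZero (N * 9), Function.Injective φ ∧
      ∀ (σ : GQ) (x : JZero N), φ (σ • x) = σ • φ x :=
  exists_beta N 9 3 1 Nat.prime_three (by norm_num)

/-- Level `N r`, `r` prime. -/
theorem exists_beta_prime (N : ℕ) [NeZero N] (r : ℕ) (hr : r.Prime) :
    ∃ φ : JZero N →+ JZero (N * r), Function.Injective φ ∧
      ∀ (σ : GQ) (x : JZero N), φ (σ • x) = σ • φ x :=
  haveI : NeZero r := ⟨hr.ne_zero⟩
  exists_beta N r r 0 hr (by simp)

/-- **(LV2)** Level `N.lcm r`, `r` prime (the auxiliary levels `N.lcm 2`, `N.lcm 3` of the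
S18/S37 layer): an injective Galois-equivariant homomorphism `J₀(N) → J₀(N.lcm r)`. -/
theorem exists_lcm (N : ℕ) [NeZero N] (r : ℕ) (hr : r.Prime) :
    ∃ φ : JZero N →+ JZero (N.lcm r), Function.Injective φ ∧
      ∀ (σ : GQ) (x : JZero N), φ (σ • x) = σ • φ x := by
  by_cases h : r ∣ N
  · rw [Nat.lcm_eq_left h]
    exact ⟨AddMonoidHom.id _, Function.injective_id, fun _ _ => rfl⟩
  · have hcop : Nat.Coprime N r := (Nat.Coprime.symm ((Nat.Prime.coprime_iff_not_dvd hr).2 h))
    rw [hcop.lcm_eq_mul]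
    exact exists_beta_prime N r hr

end Modular

/-! ## (LV3) Level change for `Stmt_Model` -/

section Torsion

/-- The restriction of a homomorphism `φ : J₀(N) →+ J₀(N')` to `ℓ^k`-torsion. -/
def torsMap {N N' : ℕ} (φ : JZero N →+ JZero N') (ℓ k : ℕ) : Tors N ℓ k →+ Tors N' ℓ k where
  toFun x := ⟨φ (x : JZero N), by
    have hx := x.2
    rw [Submodule.mem_torsionBy_iff] at hx ⊢
    rw [← map_zsmul, hx, map_zero]⟩
  map_zero' := Subtype.ext (by simp)
  map_add' x y := Subtype.ext (by simp)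

@[simp]
theorem coe_torsMap {N N' : ℕ} (φ : JZero N →+ JZero N') (ℓ k : ℕ) (x : Tors N ℓ k) :
    (torsMap φ ℓ k x : JZero N') = φ (x : JZero N) :=
  rfl

theorem torsMap_injective {N N' : ℕ} (φ : JZero N →+ JZero N') (hφ : Function.Injective φ)
    (ℓ k : ℕ) : Function.Injective (torsMap φ ℓ k) := by
  intro x y h
  exact Subtype.ext (hφ (congrArg Subtype.val h))

theorem torsMap_torsAct {N N' : ℕ} (φ : JZero N →+ JZero N')
    (hgal : ∀ (σ : GQ) (x : JZero N), φ (σ • x) = σ • φ x) (ℓ k : ℕ) (σ : GQ)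
    (x : Tors N ℓ k) :
    torsMap φ ℓ k (torsAct N ℓ k σ x) = torsAct N' ℓ k σ (torsMap φ ℓ k x) :=
  Subtype.ext (by rw [coe_torsMap, coe_torsAct, coe_torsAct, coe_torsMap, hgal])

/-- **(LV3) Level change.**  Let `φ : J₀(N) →+ J₀(N')` be injective and Galois-equivariant.
A function model of `J₀(N')[ℓ^k]` gives a function model of `J₀(N)[ℓ^k]`. -/
theorem stmt_Model_of_level {N N' : ℕ} (φ : JZero N →+ JZero N')
    (hφ : Function.Injective φ) (hgal : ∀ (σ : GQ) (x : JZero N), φ (σ • x) = σ • φ x)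
    (ℓ k : ℕ) (h : Stmt_Model N' ℓ k) : Stmt_Model N ℓ k :=
  GalModel.of_injective h (torsMap φ ℓ k) (torsMap_injective φ hφ ℓ k)
    (torsMap_torsAct φ hgal ℓ k)

/-- **(LV3), subgroup form.**  It suffices to have a function model on ANY subgroup `S` of
`J₀(N')` (with any action `act` inducing the Galois action) that contains the image of the
`ℓ^k`-torsion of `J₀(N)` under an injective Galois-equivariant `φ : J₀(N) →+ J₀(N')`.
(`N' = N`, `φ = id`: a model on a Galois-stable subgroup containing the torsion suffices.) -/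
theorem stmt_Model_of_subgroup {N N' : ℕ} (φ : JZero N →+ JZero N')
    (hφ : Function.Injective φ) (hgal : ∀ (σ : GQ) (x : JZero N), φ (σ • x) = σ • φ x)
    (ℓ k : ℕ) (S : AddSubgroup (JZero N')) (act : GQ → S → S)
    (hact : ∀ (σ : GQ) (x : S), ((act σ x : S) : JZero N') = σ • (x : JZero N'))
    (hS : ∀ x : Tors N ℓ k, φ (x : JZero N) ∈ S)
    (h : GalModel ℓ S act) : Stmt_Model N ℓ k := by
  let ι : Tors N ℓ k →+ S :=
    { toFun := fun x => ⟨φ (x : JZero N), hS x⟩
      map_zero' := Subtype.ext (by simp)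
      map_add' := fun x y => Subtype.ext (by simp) }
  refine GalModel.of_injective h ι ?_ ?_
  · intro x y hxy
    exact Subtype.ext (hφ (congrArg Subtype.val hxy))
  · intro σ x
    refine Subtype.ext ?_
    rw [hact]
    change φ (σ • (x : JZero N)) = σ • φ (x : JZero N)
    exact hgal σ x

/-- Level change along `β_m^*`, `m = q^(k'+1)` a prime power. -/
theorem stmt_Model_of_beta (N m : ℕ) [NeZero N] [NeZero m] (q k' : ℕ) (hq : q.Prime)
    (hm : m = q ^ (k' + 1)) (ℓ k : ℕ) (h : Stmt_Model (N * m) ℓ k) : Stmt_Model N ℓ k := by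
  obtain ⟨φ, hφ, hgal⟩ := exists_beta N m q k' hq hm
  exact stmt_Model_of_level φ hφ hgal ℓ k h

/-- Level change `4 N → N`. -/
theorem stmt_Model_of_four (N : ℕ) [NeZero N] (ℓ k : ℕ) (h : Stmt_Model (N * 4) ℓ k) :
    Stmt_Model N ℓ k :=
  stmt_Model_of_beta N 4 2 1 Nat.prime_two (by norm_num) ℓ k h

/-- Level change `9 N → N`. -/
theorem stmt_Model_of_nine (N : ℕ) [NeZero N] (ℓ k : ℕ) (h : Stmt_Model (N * 9) ℓ k) :
    Stmt_Model N ℓ k :=
  stmt_Model_of_beta N 9 3 1 Nat.prime_three (by norm_num) ℓ k h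

/-- **Level change `N.lcm r → N`**, `r` prime (the auxiliary levels `N.lcm 2`, `N.lcm 3` at which
the S18/S37 layer lands the gate). -/
theorem stmt_Model_of_lcm (N : ℕ) [NeZero N] (r : ℕ) (hr : r.Prime) (ℓ k : ℕ)
    (h : Stmt_Model (N.lcm r) ℓ k) : Stmt_Model N ℓ k := by
  obtain ⟨φ, hφ, hgal⟩ := exists_lcm N r hr
  exact stmt_Model_of_level φ hφ hgal ℓ k h

/-- The auxiliary level of the gate: `N.lcm 2` for `ℓ` odd, `N.lcm 3` for `ℓ = 2`. -/
def auxLevel (N ℓ : ℕ) : ℕ := if ℓ = 2 then N.lcm 3 else N.lcm 2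

theorem dvd_auxLevel (N ℓ : ℕ) : N ∣ auxLevel N ℓ := by
  unfold auxLevel
  split_ifs
  · exact Nat.dvd_lcm_left N 3
  · exact Nat.dvd_lcm_left N 2

instance auxLevel_neZero (N ℓ : ℕ) [NeZero N] : NeZero (auxLevel N ℓ) := by
  refine ⟨?_⟩
  unfold auxLevel
  split_ifs
  · exact Nat.lcm_ne_zero (NeZero.ne N) (by norm_num)
  · exact Nat.lcm_ne_zero (NeZero.ne N) (by norm_num)

/-- `ℓ` does not divide the auxiliary level. -/
theorem not_dvd_auxLevel {N ℓ : ℕ} (hℓ : ℓ.Prime) (hℓN : ¬ ℓ ∣ N) : ¬ ℓ ∣ auxLevel N ℓ := by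
  unfold auxLevel
  split_ifs with h2
  · subst h2
    intro h
    rcases (Nat.Prime.dvd_mul Nat.prime_two).1 (h.trans (Nat.lcm_dvd_mul N 3)) with h | h
    · exact hℓN h
    · omega
  · intro h
    rcases (Nat.Prime.dvd_mul hℓ).1 (h.trans (Nat.lcm_dvd_mul N 2)) with h | h
    · exact hℓN h
    · exact h2 ((Nat.prime_dvd_prime_iff_eq hℓ Nat.prime_two).1 h)

/-- **Level change from the auxiliary level of the gate.** -/
theorem stmt_Model_of_aux (N : ℕ) [NeZero N] (ℓ k : ℕ) (h : Stmt_Model (auxLevel N ℓ) ℓ k) :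
    Stmt_Model N ℓ k := by
  unfold auxLevel at h
  split_ifs at h
  · exact stmt_Model_of_lcm N 3 Nat.prime_three ℓ k h
  · exact stmt_Model_of_lcm N 2 Nat.prime_two ℓ k h

end Torsion

end Fermat.Agent.S19.helper2289

end
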