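import Fermat.Agent.S19.helper2111_Spec
import Fermat.Agent.S29.helper288_FinTorsion

set_option autoImplicit false

/-!
# S19: discharge of `Stmt_Fin` (the FIN arrow of the captain's chain)

`Stmt_Fin N ℓ k` (finiteness of `J₀(N)[ℓ^k]`) holds unconditionally for every level `N ≠ 0`
and every `ℓ ≠ 0`, by the landed Kummer-class finiteness theorem
`Fermat.Agent.S29.helper288.finite_torsionBy`.  Hence the frozen statement S19 follows from
`Stmt_FuncModel ℓ` and `Stmt_Model p ℓ k` alone (`result_of_model`), and, through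
`GalModel.of_injective`, from a function model on any finite Galois module receiving the torsion
injectively and equivariantly (`result_of_embedding`).
-/

namespace Fermat.Agent.S19.helper4778

open ModularCurve Fermat.Agent.S19.helper2111

/-- FIN, unconditional: `J₀(N)[ℓ^k]` is finite. -/
theorem stmt_Fin (N : ℕ) [NeZero N] (ℓ : ℕ) (hℓ : ℓ ≠ 0) (k : ℕ) : Stmt_Fin N ℓ k := by
  have h := Fermat.Agent.S29.helper288.finite_torsionBy N (n := ℓ ^ k) (pow_ne_zero k hℓ)
  rw [Nat.cast_pow] at h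
  exact h

/-- FIN for a prime `ℓ` (instance form). -/
theorem stmt_Fin_prime (N : ℕ) [NeZero N] (ℓ : ℕ) [Fact ℓ.Prime] (k : ℕ) : Stmt_Fin N ℓ k :=
  stmt_Fin N ℓ (Fact.out : ℓ.Prime).ne_zero k

/-- The torsion is a finite type (instance-ready form of `stmt_Fin`). -/
theorem finite_Tors (N : ℕ) [NeZero N] (ℓ : ℕ) (hℓ : ℓ ≠ 0) (k : ℕ) : Finite (Tors N ℓ k) :=
  stmt_Fin N ℓ hℓ k

/-- The frozen statement S19 from FUNCMODEL and MODEL only (FIN discharged). -/
theorem result_of_model (p : ℕ) [NeZero p] (ℓ : ℕ) (hℓ : ℓ ≠ 0) (k : ℕ)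
    (hFM : Stmt_FuncModel ℓ) (hmod : Stmt_Model p ℓ k) :
    ∃ (H : Type) (_ : CommRing H) (_ : HopfAlgebra (GaloisRep.ratLocalizedAt ℓ) H),
      Module.Finite (GaloisRep.ratLocalizedAt ℓ) H ∧ Module.Flat (GaloisRep.ratLocalizedAt ℓ) H ∧
      Coalgebra.IsCocomm (GaloisRep.ratLocalizedAt ℓ) H ∧
      ∃ e : WithConv (H →ₐ[GaloisRep.ratLocalizedAt ℓ] AlgebraicClosure ℚ) ≃
          ↥(Submodule.torsionBy ℤ (JZero p) ((ℓ : ℤ) ^ k)),
        (∀ f g, e (f * g) = e f + e g) ∧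
        ∀ (σ : AlgebraicClosure ℚ ≃ₐ[ℚ] AlgebraicClosure ℚ)
          (f g : WithConv (H →ₐ[GaloisRep.ratLocalizedAt ℓ] AlgebraicClosure ℚ)),
          (∀ h : H, g h = σ (f h)) → ((e g : JZero p)) = σ • (e f : JZero p) :=
  result_of p ℓ k hFM (stmt_Fin p ℓ hℓ k) hmod

/-- The frozen statement S19 from FUNCMODEL and a function model on ANY Galois module `M'`
into which the torsion embeds additively and equivariantly (e.g. the torsion at an auxiliary
level, or a larger finite Galois-stable subgroup of `J₀(p)`). -/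
theorem result_of_embedding (p : ℕ) [NeZero p] (ℓ : ℕ) (hℓ : ℓ ≠ 0) (k : ℕ)
    (hFM : Stmt_FuncModel ℓ) {M' : Type} [AddCommGroup M'] {act' : GQ → M' → M'}
    (hM' : GalModel ℓ M' act') (ι : Tors p ℓ k →+ M') (hι : Function.Injective ι)
    (heq : ∀ σ m, ι (torsAct p ℓ k σ m) = act' σ (ι m)) :
    ∃ (H : Type) (_ : CommRing H) (_ : HopfAlgebra (GaloisRep.ratLocalizedAt ℓ) H),
      Module.Finite (GaloisRep.ratLocalizedAt ℓ) H ∧ Module.Flat (GaloisRep.ratLocalizedAt ℓ) H ∧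
      Coalgebra.IsCocomm (GaloisRep.ratLocalizedAt ℓ) H ∧
      ∃ e : WithConv (H →ₐ[GaloisRep.ratLocalizedAt ℓ] AlgebraicClosure ℚ) ≃
          ↥(Submodule.torsionBy ℤ (JZero p) ((ℓ : ℤ) ^ k)),
        (∀ f g, e (f * g) = e f + e g) ∧
        ∀ (σ : AlgebraicClosure ℚ ≃ₐ[ℚ] AlgebraicClosure ℚ)
          (f g : WithConv (H →ₐ[GaloisRep.ratLocalizedAt ℓ] AlgebraicClosure ℚ)),
          (∀ h : H, g h = σ (f h)) → ((e g : JZero p)) = σ • (e f : JZero p) :=
  result_of_model p ℓ hℓ k hFM (GalModel.of_injective hM' ι hι heq)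

end Fermat.Agent.S19.helper4778
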