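import Mathlib
import Fermat.Agent.S19.helper2111_SpecCore
import Fermat.Agent.S19.helper2289_Level
import Fermat.Agent.S19.helper4778_Fin
import Fermat.Agent.S19.helper1852_FuncModel
import Fermat.Agent.S18.helper508_GaussMod
import Fermat.Agent.S37.helper5413_LatticeReduction
import Fermat.Agent.Lib.helper54_Frobenius

set_option autoImplicit false
set_option synthInstance.maxHeartbeats 400000

/-!
# S19: the GATE block (helper3573, architect of GATE + WILD PRIMES)

The geometric core of S19 consumes ONE external input, the *gate*: the lattice bundle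
`Fermat.Agent.S37.helper5413.LatHyp` for the landed Gauss pair
(`Fermat.Agent.S18.helper508.gaussValuationSubring`, `gaussResidue`) of the modular function
field `F̄_M` at a place `A` of `ℚ̄` over `ℓ ∤ M`.  It is the same Prop that the S37 lattice track
consumes; it is supplied by S18 track A (`helper2030.Stmt_Cart`, `helper2030.LineData`) through
the adapter `latHyp_of_lineData`.

* `GateAt M ℓ hℓM A hA`   : the gate at one place `A`;
* `Stmt_GateLat M ℓ hℓM`  : the gate at every place `A` over `ℓ`;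
* `Stmt_CoreAt M ℓ hℓM`   : the geometric core: at every place where the gate holds there is a
  coordinate system in the sense of the captain's `helper2111.IsCoordSystem`;
* `stmt_Coords_of_gate`   : gate + core give `helper2111.Stmt_Coords ℓ M`;
* `result_of_gate`        : the frozen statement S19 from the gate, the core and the spine at
  the single auxiliary level `helper2289.auxLevel p ℓ` (WILD PRIMES are absorbed by the landed
  level change `helper2289.stmt_Model_of_aux`; FUNCMODEL and FIN are landed).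
-/

noncomputable section

namespace Fermat.Agent.S19.helper3573

open ModularCurve AlgebraicCurve
open Fermat.Agent.S19.helper2111

section Gate

variable (M : ℕ) [NeZero M] (ℓ : ℕ) [Fact ℓ.Prime] (hℓM : ¬ ℓ ∣ M)

/-- **The gate at one place.**  The lattice hypotheses of `S37/helper5413_LatticeReduction` for
the landed Gauss valuation ring of `F̄_M` at `A` and its residue map onto the function field of
the special fibre. -/
def GateAt (A : ValuationSubring Qb) (hA : A.LiesOverPrime ℓ) : Prop :=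
  ∃ (g c : ℤ) (E₀ : Divisor Qb (modularFunctionFieldBar M))
    (E₀k : Divisor (IsLocalRing.ResidueField A)
      (modularFunctionFieldFullC (IsLocalRing.ResidueField A) M)),
    Fermat.Agent.S37.helper5413.LatHyp
      (Fermat.Agent.S18.helper508.gaussValuationSubring M ℓ hℓM A hA)
      (Fermat.Agent.S18.helper508.gaussResidue M ℓ hℓM A hA) g c E₀ E₀k

/-- **GATE**: the lattice hypotheses hold at every place of `ℚ̄` over `ℓ`. -/
def Stmt_GateLat : Prop :=
  ∀ (A : ValuationSubring Qb) (hA : A.LiesOverPrime ℓ), GateAt M ℓ hℓM A hA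

/-- **CORE (consumer form of the gate)**: at every place of `ℚ̄` over `ℓ` where the gate holds,
level `M` carries a coordinate system on the kernel of reduction. -/
def Stmt_CoreAt : Prop :=
  ∀ (A : ValuationSubring Qb) (hA : A.LiesOverPrime ℓ), GateAt M ℓ hℓM A hA →
    ∃ (g : ℕ) (J1 : AddSubgroup (JZero M)) (b : JZero M → Fin g → Qb),
      IsCoordSystem ℓ M A g J1 b

/-- Gate + core give the captain's `Stmt_Coords` at the same level. -/
theorem stmt_Coords_of_gate (hgate : Stmt_GateLat M ℓ hℓM) (hcore : Stmt_CoreAt M ℓ hℓM) :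
    Stmt_Coords ℓ M := by
  obtain ⟨A, hA⟩ := Fermat.Agent.Lib.helper54.exists_liesOverPrime (Fact.out : ℓ.Prime)
  exact ⟨A, hA, hcore A hA (hgate A hA)⟩

/-- One place is enough: the gate at a single place and the core give `Stmt_Coords`. -/
theorem stmt_Coords_of_gateAt (A : ValuationSubring Qb) (hA : A.LiesOverPrime ℓ)
    (hgate : GateAt M ℓ hℓM A hA) (hcore : Stmt_CoreAt M ℓ hℓM) : Stmt_Coords ℓ M :=
  ⟨A, hA, hcore A hA hgate⟩

end Gate

/-- **The root of S19 with the gate explicit.**  The frozen statement S19 at level `p` from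
three Props at the single auxiliary level `auxLevel p ℓ` (`p.lcm 3` for `ℓ = 2`, `p.lcm 2`
otherwise): the gate, the geometric core and the spine.  FUNCMODEL, FIN and the level change
are landed theorems. -/
theorem result_of_gate (p : ℕ) [NeZero p] (ℓ : ℕ) [Fact ℓ.Prime] (hℓp : ¬ ℓ ∣ p) (k : ℕ)
    (hgate : Stmt_GateLat (Fermat.Agent.S19.helper2289.auxLevel p ℓ) ℓ
      (Fermat.Agent.S19.helper2289.not_dvd_auxLevel (Fact.out : ℓ.Prime) hℓp))
    (hcore : Stmt_CoreAt (Fermat.Agent.S19.helper2289.auxLevel p ℓ) ℓ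
      (Fermat.Agent.S19.helper2289.not_dvd_auxLevel (Fact.out : ℓ.Prime) hℓp))
    (hspine : Stmt_Spine ℓ (Fermat.Agent.S19.helper2289.auxLevel p ℓ)) :
    ∃ (H : Type) (_ : CommRing H) (_ : HopfAlgebra (GaloisRep.ratLocalizedAt ℓ) H),
      Module.Finite (GaloisRep.ratLocalizedAt ℓ) H ∧ Module.Flat (GaloisRep.ratLocalizedAt ℓ) H ∧
      Coalgebra.IsCocomm (GaloisRep.ratLocalizedAt ℓ) H ∧
      ∃ e : WithConv (H →ₐ[GaloisRep.ratLocalizedAt ℓ] AlgebraicClosure ℚ) ≃
          ↥(Submodule.torsionBy ℤ (JZero p) ((ℓ : ℤ) ^ k)),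
        (∀ f g, e (f * g) = e f + e g) ∧
        ∀ (σ : AlgebraicClosure ℚ ≃ₐ[ℚ] AlgebraicClosure ℚ)
          (f g : WithConv (H →ₐ[GaloisRep.ratLocalizedAt ℓ] AlgebraicClosure ℚ)),
          (∀ h : H, g h = σ (f h)) → ((e g : JZero p)) = σ • (e f : JZero p) := by
  have hcoords : Stmt_Coords ℓ (Fermat.Agent.S19.helper2289.auxLevel p ℓ) :=
    stmt_Coords_of_gate _ ℓ _ hgate hcore
  have hmodel : Stmt_Model p ℓ k :=
    Fermat.Agent.S19.helper2289.stmt_Model_of_aux p ℓ k (hspine hcoords k)
  exact result_of p ℓ k (Fermat.Agent.S19.helper1852.stmt_FuncModel ℓ)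
    (Fermat.Agent.S19.helper4778.stmt_Fin_prime p ℓ k) hmodel

/-- Same, with the gate needed at ONE place of `ℚ̄` over `ℓ` only. -/
theorem result_of_gateAt (p : ℕ) [NeZero p] (ℓ : ℕ) [Fact ℓ.Prime] (hℓp : ¬ ℓ ∣ p) (k : ℕ)
    (A : ValuationSubring Qb) (hA : A.LiesOverPrime ℓ)
    (hgate : GateAt (Fermat.Agent.S19.helper2289.auxLevel p ℓ) ℓ
      (Fermat.Agent.S19.helper2289.not_dvd_auxLevel (Fact.out : ℓ.Prime) hℓp) A hA)
    (hcore : Stmt_CoreAt (Fermat.Agent.S19.helper2289.auxLevel p ℓ) ℓ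
      (Fermat.Agent.S19.helper2289.not_dvd_auxLevel (Fact.out : ℓ.Prime) hℓp))
    (hspine : Stmt_Spine ℓ (Fermat.Agent.S19.helper2289.auxLevel p ℓ)) :
    ∃ (H : Type) (_ : CommRing H) (_ : HopfAlgebra (GaloisRep.ratLocalizedAt ℓ) H),
      Module.Finite (GaloisRep.ratLocalizedAt ℓ) H ∧ Module.Flat (GaloisRep.ratLocalizedAt ℓ) H ∧
      Coalgebra.IsCocomm (GaloisRep.ratLocalizedAt ℓ) H ∧
      ∃ e : WithConv (H →ₐ[GaloisRep.ratLocalizedAt ℓ] AlgebraicClosure ℚ) ≃
          ↥(Submodule.torsionBy ℤ (JZero p) ((ℓ : ℤ) ^ k)),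
        (∀ f g, e (f * g) = e f + e g) ∧
        ∀ (σ : AlgebraicClosure ℚ ≃ₐ[ℚ] AlgebraicClosure ℚ)
          (f g : WithConv (H →ₐ[GaloisRep.ratLocalizedAt ℓ] AlgebraicClosure ℚ)),
          (∀ h : H, g h = σ (f h)) → ((e g : JZero p)) = σ • (e f : JZero p) := by
  have hcoords : Stmt_Coords ℓ (Fermat.Agent.S19.helper2289.auxLevel p ℓ) :=
    stmt_Coords_of_gateAt _ ℓ _ A hA hgate hcore
  have hmodel : Stmt_Model p ℓ k :=
    Fermat.Agent.S19.helper2289.stmt_Model_of_aux p ℓ k (hspine hcoords k)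
  exact result_of p ℓ k (Fermat.Agent.S19.helper1852.stmt_FuncModel ℓ)
    (Fermat.Agent.S19.helper4778.stmt_Fin_prime p ℓ k) hmodel

end Fermat.Agent.S19.helper3573

end
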