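import Mathlib
import Fermat.Agent.S19.helper2007_Centres
import Fermat.Agent.S19.helper5161_CAlgCoordJ
import Fermat.Agent.S19.helper2570_CAlgKeyLaw
import Fermat.Agent.S19.helper1458_CAlgCover
import Fermat.Agent.S37.helper5413_LatticeRiemann
import Fermat.Agent.S37.helper5413_LatticeModular
import Fermat.Agent.S19.helper1288_AdicCalculus
import Fermat.Agent.S19.helper3103_CAlgInst
import Fermat.Agent.S19.helper3573_SpecGate
import Fermat.Agent.S17.helper3753_QPlaceFixed

/-!
# S19, C-alg main line: the adapted system on the lattice layer (END-WIRE, part 1)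

Setting: the lattice bundle `H : helper5413.LatHyp O red g c E₀ E₀k` (the gate), its place
reduction `sp := H.placeRed`, a set `G` of semilinear automorphisms (the image of inertia) with
`sp (γ • P) = sp P`, one `G`-fixed base place `Q`, and the rationality input (CALG-RAT) in the
divisor form `FixedLiftDiv`.

* `FixedLiftDiv H G E` : every element of `L_k(sp_* E)` is the reduction of a `G`-fixed
  Gauss-integral element of `L(E)`.
* `exists_simple_pole` : on the special fibre, a function with poles at `q` and an exact simple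
  pole at `s`.
* `ord_eq_of_simple_pole`, `isCoord_neg_inv` : a Gauss-integral `e ∈ L(n Q + R)` whose reduction
  has an exact simple pole at `sp R` has an exact simple pole at `R`, no other pole or zero on
  the residue disc of `R`, and `-e⁻¹` is a disc coordinate vanishing at `R`.
* `exists_adapted_system` : the adapted system `(R i, e i)` of the C-alg line: `g` non-special
  points of the special fibre, `G`-fixed lifts `R i`, `G`-fixed `e i ∈ O ∩ L(n Q + R i)` whose
  reductions have exact simple poles at `sp (R i)`.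
-/

set_option autoImplicit false

namespace Fermat.Agent.S19.helper989

open AlgebraicCurve Module
open Fermat.Agent.S37.helper126 Fermat.Agent.S37.helper5413 Fermat.Agent.S19.helper2007

section PlaceLemmas

variable {K F : Type*} [Field K] [Field F] [Algebra K F]

theorem ord_neg' (v : Place K F) (x : F) : v.ord (-x) = v.ord x := by
  by_cases hx : x = 0
  · rw [hx, neg_zero]
  · have h1 : -x = algebraMap K F (-1) * x := by simp
    have h2 : algebraMap K F (-1) ≠ 0 := by simp
    rw [h1, v.ord_mul h2 hx, ord_algebraMap, zero_add]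

end PlaceLemmas

section TCoord

variable {K F k Fk : Type*} [Field K] [Field F] [Algebra K F] [Field k] [Field Fk] [Algebra k Fk]
variable {O : ValuationSubring F} {red : O →+* Fk} {sp : Place K F → Place k Fk}
variable [HasPrincipalDivisors K F]

/-- A Gauss-integral `e ∈ L(n Q + R)` whose reduction has an exact simple pole at `sp R`
(`sp Q ≠ sp R`) has an exact simple pole at `R` and neither zeros nor poles at the other places
of the residue disc of `R`. -/
theorem ord_eq_of_simple_pole (hcons : Conservation O red sp)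
    (Q R : Place K F) (hQR : sp Q ≠ sp R) (n : ℤ) (e : F) (heO : e ∈ O)
    (heL : e ∈ riemannRochSpace (Finsupp.single Q n + Finsupp.single R 1 : Divisor K F))
    (hord : (sp R).ord (rd O red e) = -1) :
    R.ord e = -1 ∧ ∀ P, sp P = sp R → P ≠ R → P.ord e = 0 := by
  classical
  have hrd0 : rd O red e ≠ 0 := by
    intro h
    rw [h, Place.ord_zero] at hord
    omega
  have hred0 : red ⟨e, heO⟩ ≠ 0 := by rwa [← rd_of_mem O red heO]
  have he0 : e ≠ 0 := by
    rintro rfl
    exact hrd0 (rd_zero O red)
  obtain ⟨D, hD, -⟩ := HasPrincipalDivisors.exists_divisor (K := K) e he0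
  have hc := hcons ⟨e, heO⟩ hred0 D hD (sp R)
  rw [← rd_of_mem O red heO, hord] at hc
  have hL := (mem_rr_iff.mp heL).resolve_left he0
  set D' : Divisor K F := D + Finsupp.single R 1 with hD'
  have hD'app : ∀ P, D' P = P.ord e + (Finsupp.single R (1 : ℤ)) P := fun P => by
    rw [hD', Finsupp.add_apply, hD P]
  have hnn : ∀ P, sp P = sp R → 0 ≤ D' P := by
    intro P hP
    have hPQ : Q ≠ P := by
      rintro rfl
      exact hQR hP
    have h1 := hL P
    rw [Finsupp.add_apply, Finsupp.single_apply, if_neg hPQ, zero_add] at h1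
    rw [hD'app]
    omega
  have hmap : Finsupp.mapDomain sp D' (sp R) = 0 := by
    rw [hD', Finsupp.mapDomain_add, Finsupp.add_apply, hc, Finsupp.mapDomain_single,
      Finsupp.single_apply, if_pos rfl]
    norm_num
  have hzero : ∀ P, sp P = sp R → D' P = 0 := by
    intro P hP
    have h1 := le_mapDomain_apply sp D' (sp R) hnn P hP
    rw [hmap] at h1
    exact le_antisymm h1 (hnn P hP)
  constructor
  · have h1 := hzero R rfl
    rw [hD'app, Finsupp.single_apply, if_pos rfl] at h1
    omega
  · intro P hP hPR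
    have h1 := hzero P hP
    rw [hD'app, Finsupp.single_apply, if_neg (Ne.symm hPR), add_zero] at h1
    exact h1

/-- The disc coordinate attached to `e`: `t := -e⁻¹` is a coordinate on the residue disc of
`sp R` vanishing at `R`. -/
theorem isCoord_neg_inv (hker : RedKer O red) (hcons : Conservation O red sp)
    (Q R : Place K F) (hQR : sp Q ≠ sp R) (n : ℤ) (e : F) (heO : e ∈ O)
    (heL : e ∈ riemannRochSpace (Finsupp.single Q n + Finsupp.single R 1 : Divisor K F))
    (hord : (sp R).ord (rd O red e) = -1) :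
    IsCoord O red sp (sp R) (-e⁻¹) ∧ -e⁻¹ ∈ R.toValuationSubring.nonunits := by
  obtain ⟨hR, hoff⟩ := ord_eq_of_simple_pole hcons Q R hQR n e heO heL hord
  have hrd0 : rd O red e ≠ 0 := by
    intro h
    rw [h, Place.ord_zero] at hord
    omega
  have he0 : e ≠ 0 := by
    rintro rfl
    exact hrd0 (rd_zero O red)
  have hnu : e ∉ O.nonunits := fun h => hrd0 ((rd_eq_zero_iff hker heO).mpr h)
  have hinv : e⁻¹ ∈ O := inv_mem_of_notMem_nonunits O heO hnu
  refine ⟨⟨neg_mem hinv, fun P hP => ?_, ?_⟩, ?_⟩
  · refine neg_mem (mem_of_ord_nonneg P ?_)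
    rw [P.ord_inv]
    by_cases hPR : P = R
    · rw [hPR, hR]
      norm_num
    · rw [hoff P hP hPR]
      norm_num
  · have h1 : -e⁻¹ = 0 - e⁻¹ := by ring
    rw [h1, rd_sub O red (zero_mem O) hinv, rd_zero, rd_inv heO hinv he0, zero_sub, ord_neg',
      Place.ord_inv, hord]
    norm_num
  · have hne : -e⁻¹ ≠ 0 := neg_ne_zero.mpr (inv_ne_zero he0)
    refine (one_le_ord_iff R hne).mp ?_
    rw [ord_neg', R.ord_inv, hR]
    norm_num

omit [HasPrincipalDivisors K F] in
/-- `e` is regular at every place different from `Q` and `R`. -/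
theorem mem_of_mem_rr_single (Q R : Place K F) (n : ℤ) (e : F)
    (heL : e ∈ riemannRochSpace (Finsupp.single Q n + Finsupp.single R 1 : Divisor K F))
    (P : Place K F) (hPQ : P ≠ Q) (hPR : P ≠ R) : e ∈ P.toValuationSubring := by
  classical
  by_cases he0 : e = 0
  · rw [he0]
    exact zero_mem _
  have h1 := (mem_rr_iff.mp heL).resolve_left he0 P
  rw [Finsupp.add_apply, Finsupp.single_apply, if_neg (Ne.symm hPQ), Finsupp.single_apply,
    if_neg (Ne.symm hPR)] at h1
  exact mem_of_ord_nonneg P (by omega)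

end TCoord

section Adapted

variable {L F k Fk : Type*} [Field L] [Field F] [Algebra L F] [Field k] [Field Fk] [Algebra k Fk]
variable {O : ValuationSubring F} {red : O →+* Fk} {g c : ℤ}
  {E₀ : Divisor L F} {E₀k : Divisor k Fk}

/-- (CALG-RAT, divisor form) Every element of `L_k(sp_* E)` is the reduction of a `G`-fixed
Gauss-integral element of `L(E)`. -/
def FixedLiftDiv (H : LatHyp O red g c E₀ E₀k) (G : Set (SemilinearAut L F))
    (E : Divisor L F) : Prop :=
  ∀ y ∈ riemannRochSpace (Finsupp.mapDomain H.placeRed E),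
    ∃ u : O, (u : F) ∈ riemannRochSpace E ∧ red u = y ∧ ∀ γ ∈ G, γ • (u : F) = u

theorem fixedLiftRR_of_fixedLiftDiv (H : LatHyp O red g c E₀ E₀k) (G : Set (SemilinearAut L F))
    (Q : Place L F) (n : ℤ) (h : FixedLiftDiv H G (Finsupp.single Q n)) :
    FixedLiftRR H G Q n := by
  intro y hy
  refine h y ?_
  rwa [Finsupp.mapDomain_single]

/-- On the special fibre: for two distinct places `s ≠ q` and `n` large there is a function
with poles only at `q` (of order at most `n`) and at `s`, with an exact simple pole at `s`. -/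
theorem exists_simple_pole (H : LatHyp O red g c E₀ E₀k) [HasPrincipalDivisors L F]
    (hsurj : Function.Surjective red) (s q : Place k Fk) (hsq : s ≠ q) (n : ℤ)
    (hn : max c (LatHyp.thr g c) ≤ n) :
    ∃ y ∈ riemannRochSpace (Finsupp.single q n + Finsupp.single s 1 : Divisor k Fk),
      s.ord y = -1 := by
  classical
  set E1 : Divisor k Fk := Finsupp.single q n + Finsupp.single s 1 with hE1
  set E2 : Divisor k Fk := Finsupp.single q n with hE2
  have hd1 : Divisor.degree E1 = n + 1 := by
    rw [hE1, map_add, degree_single H.degk, degree_single H.degk]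
  have hd2 : Divisor.degree E2 = n := by
    rw [hE2, degree_single H.degk]
  have h1 := LatHypGlue.finrank_rr_eq H hsurj E1 (by rw [hd1]; omega)
  have h2 := LatHypGlue.finrank_rr_eq H hsurj E2 (by rw [hd2]; omega)
  have hfin1 := LatHypGlue.finiteDimensional_rr H E1
  have hfin2 := LatHypGlue.finiteDimensional_rr H E2
  have hnot : ¬ (riemannRochSpace E1 ≤ riemannRochSpace E2) := by
    intro hle
    have := Submodule.finrank_mono hle
    omega
  obtain ⟨y, hy1, hy2⟩ := SetLike.not_le_iff_exists.mp hnot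
  have hy0 : y ≠ 0 := fun h => hy2 (h ▸ zero_mem _)
  have hord := (mem_rr_iff.mp hy1).resolve_left hy0
  have hqs : q ≠ s := fun h => hsq h.symm
  refine ⟨y, hy1, ?_⟩
  have hs1 := hord s
  rw [hE1, Finsupp.add_apply, Finsupp.single_apply, if_neg hqs, Finsupp.single_apply,
    if_pos rfl] at hs1
  by_contra hne
  apply hy2
  rw [mem_rr_iff]
  right
  intro v
  by_cases hv : v = s
  · subst hv
    rw [hE2, Finsupp.single_apply, if_neg hqs]
    omega
  · have := hord v
    rw [hE1, Finsupp.add_apply, Finsupp.single_apply (a := s), if_neg (Ne.symm hv),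
      add_zero] at this
    exact this

/-- **The adapted system of the C-alg line on the lattice layer.**  From the lattice bundle,
a `G`-fixed base place `Q` and the rationality input for the divisors `n Q` and `n Q + R`
(`R` a `G`-fixed place): `g` places `R i` and functions `e i` such that the `sp (R i)` are
distinct, different from `sp Q` and form a non-special divisor of the special fibre, every `R i`
and `e i` is `G`-fixed, `e i ∈ O ∩ L(n Q + R i)` and the reduction of `e i` has an exact simple
pole at `sp (R i)`. -/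
theorem exists_adapted_system {g : ℕ} (H : LatHyp O red (g : ℤ) c E₀ E₀k)
    [HasPrincipalDivisors L F] [HasPrincipalDivisors k Fk]
    (hsurj : Function.Surjective red)
    (hinf : (Set.univ : Set (Place k Fk)).Infinite)
    (G : Set (SemilinearAut L F)) (hG : ∀ γ ∈ G, ∀ P, H.placeRed (γ • P) = H.placeRed P)
    (Q : Place L F) (n : ℤ) (hn : max c (LatHyp.thr (g : ℤ) c) + 2 ≤ n)
    (hratQ : FixedLiftDiv H G (Finsupp.single Q n))
    (hratR : ∀ R : Place L F, (∀ γ ∈ G, γ • R = R) →
      FixedLiftDiv H G (Finsupp.single Q n + Finsupp.single R 1)) :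
    ∃ (R : Fin g → Place L F) (e : Fin g → F),
      Function.Injective (fun i => H.placeRed (R i)) ∧
      (∀ i, H.placeRed Q ≠ H.placeRed (R i)) ∧
      (∀ γ ∈ G, ∀ i, γ • R i = R i) ∧ (∀ γ ∈ G, ∀ i, γ • e i = e i) ∧
      (∀ i, e i ∈ O) ∧
      (∀ i, e i ∈ riemannRochSpace
        (Finsupp.single Q n + Finsupp.single (R i) 1 : Divisor L F)) ∧
      (∀ i, (H.placeRed (R i)).ord (rd O red (e i)) = -1) ∧
      (∀ w ∈ riemannRochSpace (∑ i, Finsupp.single (H.placeRed (R i)) (1 : ℤ)),
        ∃ a : k, w = algebraMap k Fk a) := by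
  classical
  obtain ⟨s, hsinj, hsS, hsL⟩ := Fermat.Agent.S37.helper6835.exists_nonspecial_const g
    (max c (LatHyp.thr (g : ℤ) c)) (LatHypGlue.finiteDimensional_rr H) H.degk
    (fun E hE => LatHypGlue.finrank_rr_eq H hsurj E hE) hinf {H.placeRed Q}
  have hs : ∀ i, s i ≠ H.placeRed Q := fun i h => hsS i (by rw [h]; exact Finset.mem_singleton_self _)
  have hker : RedKer O red := redKer_of_nonunit H.red_nonunit
  have hconst : RedConst L k O red := fun a ha => by
    obtain ⟨b, hb⟩ := LatHypGlue.redConst H a ha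
    exact ⟨b, hb.symm⟩
  have hcons : Conservation O red H.placeRed := LatHypGlue.cons H
  have hfl : ∀ i, HasFixedLift H.placeRed G (s i) := fun i =>
    (hasFixedCoord_of_fixedLiftRR H hsurj G Q n hn
      (fixedLiftRR_of_fixedLiftDiv H G Q n hratQ) (s i) (hs i)).hasFixedLift hker hconst hcons hG
  choose R hR hRfix using hfl
  have hy : ∀ i, ∃ y ∈ riemannRochSpace
      (Finsupp.single (H.placeRed Q) n + Finsupp.single (s i) 1 : Divisor k Fk),
      (s i).ord y = -1 := fun i =>
    exists_simple_pole H hsurj (s i) (H.placeRed Q) (hs i) n (by omega)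
  choose y hyL hyord using hy
  have hu : ∀ i, ∃ u : O, (u : F) ∈ riemannRochSpace
      (Finsupp.single Q n + Finsupp.single (R i) 1 : Divisor L F) ∧ red u = y i ∧
      ∀ γ ∈ G, γ • (u : F) = u := fun i =>
    hratR (R i) (hRfix i) (y i) (by
      rw [Finsupp.mapDomain_add, Finsupp.mapDomain_single, Finsupp.mapDomain_single, hR i]
      exact hyL i)
  choose u huL hured hufix using hu
  refine ⟨R, fun i => (u i : F), ?_, ?_, fun γ hγ i => hRfix i γ hγ,
    fun γ hγ i => hufix i γ hγ, fun i => (u i).2, huL, fun i => ?_, ?_⟩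
  · have : (fun i => H.placeRed (R i)) = s := funext hR
    rw [this]
    exact hsinj
  · intro i h
    exact hs i (by rw [← hR i, ← h])
  · rw [rd_of_mem O red (u i).2]
    have e1 : (⟨(u i : F), (u i).2⟩ : O) = u i := Subtype.ext rfl
    rw [e1, hured, hR i, hyord]
  · have : (∑ i, Finsupp.single (H.placeRed (R i)) (1 : ℤ)) =
        ∑ i, Finsupp.single (s i) (1 : ℤ) :=
      Finset.sum_congr rfl fun i _ => by rw [hR i]
    rw [this]
    exact hsL

end Adapted

section System

variable {L F k Fk : Type*} [Field L] [Field F] [Algebra L F] [Field k] [Field Fk] [Algebra k Fk]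
variable {O : ValuationSubring F} {red : O →+* Fk} {c : ℤ}
  {E₀ : Divisor L F} {E₀k : Divisor k Fk}

open Fermat.Agent.S19.helper5161

/-- The output of `exists_adapted_system`, as a structure: the adapted system `(Q, R, e)` of the
C-alg line for a specialisation map `sp`. -/
structure IsSystem (O : ValuationSubring F) (red : O →+* Fk) (sp : Place L F → Place k Fk)
    (G : Set (SemilinearAut L F)) {g : ℕ} (Q : Place L F) (n : ℤ) (R : Fin g → Place L F)
    (e : Fin g → F) : Prop where
  inj : Function.Injective (fun i => sp (R i))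
  base : ∀ i, sp Q ≠ sp (R i)
  fixR : ∀ γ ∈ G, ∀ i, γ • R i = R i
  fixe : ∀ γ ∈ G, ∀ i, γ • e i = e i
  mem : ∀ i, e i ∈ O
  rr : ∀ i, e i ∈ riemannRochSpace (Finsupp.single Q n + Finsupp.single (R i) 1 : Divisor L F)
  ord : ∀ i, (sp (R i)).ord (rd O red (e i)) = -1
  ns : ∀ w ∈ riemannRochSpace (∑ i, Finsupp.single (sp (R i)) (1 : ℤ)),
    ∃ a : k, w = algebraMap k Fk a

namespace IsSystem

variable {sp : Place L F → Place k Fk} {G : Set (SemilinearAut L F)} {g : ℕ} {Q : Place L F}
  {n : ℤ} {R : Fin g → Place L F} {e : Fin g → F}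

/-- The disc coordinates of an adapted system. -/
noncomputable def tc (e : Fin g → F) : Fin g → F := fun i => -(e i)⁻¹

theorem tc_inv (e : Fin g → F) (i : Fin g) : (tc e i)⁻¹ = -e i := by
  rw [tc, inv_neg, inv_inv]

theorem smul_tc (S : IsSystem O red sp G Q n R e) (γ : SemilinearAut L F) (hγ : γ ∈ G)
    (i : Fin g) : γ • tc e i = tc e i := by
  rw [tc, smul_neg, smul_inv'', S.fixe γ hγ i]

/-- `e i` is regular on the residue disc of `R j` for `j ≠ i`. -/
theorem mem_of_ne (S : IsSystem O red sp G Q n R e) {i j : Fin g} (hij : i ≠ j) (P : Place L F)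
    (hP : sp P = sp (R j)) : e i ∈ P.toValuationSubring := by
  refine mem_of_mem_rr_single Q (R i) n (e i) (S.rr i) P ?_ ?_
  · rintro rfl
    exact S.base j hP
  · rintro rfl
    exact hij (S.inj hP)

/-- `e i` is regular off the residue discs of `Q` and of the `R j`. -/
theorem mem_of_off (S : IsSystem O red sp G Q n R e) (i : Fin g) (P : Place L F)
    (hPQ : sp P ≠ sp Q) (hPR : ∀ j, sp P ≠ sp (R j)) : e i ∈ P.toValuationSubring := by
  refine mem_of_mem_rr_single Q (R i) n (e i) (S.rr i) P ?_ ?_
  · rintro rfl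
    exact hPQ rfl
  · rintro rfl
    exact hPR i rfl

/-- The non-speciality of `∑ sp (R i)` in the shape of `helper126.exists_canonical`. -/
theorem ns' (S : IsSystem O red sp G Q n R e) :
    ∀ w : Fk, w ≠ 0 → (∀ s, (∀ i, s ≠ sp (R i)) → 0 ≤ s.ord w) →
      (∀ i, -1 ≤ (sp (R i)).ord w) → w ∈ Set.range (algebraMap k Fk) := by
  classical
  intro w _ hoff hon
  obtain ⟨a, ha⟩ := S.ns w (by
    rw [mem_rr_iff]
    right
    intro s
    by_cases hs : ∃ i, s = sp (R i)
    · obtain ⟨i, rfl⟩ := hs
      rw [sum_single_apply_self (fun i => sp (R i)) S.inj i]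
      exact hon i
    · push Not at hs
      rw [sum_single_apply_of_ne (fun i => sp (R i)) s (fun j h => hs j h.symm)]
      simpa using hoff s hs)
  exact ⟨a, ha.symm⟩

end IsSystem

/-- **An adapted system is adapted** in the sense of `helper5161.IsAdapted` (the input of the
coordinate package), with the disc coordinates `t i = -(e i)⁻¹`, on the lattice layer. -/
theorem isAdapted_of_system {g : ℕ} (H : LatHyp O red (g : ℤ) c E₀ E₀k)
    [HasPrincipalDivisors L F] [HasPrincipalDivisors k Fk]
    (hvg : ValueGroupConst L O) {G : Set (SemilinearAut L F)} {Q : Place L F} {n : ℤ}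
    {R : Fin g → Place L F} {e : Fin g → F} (S : IsSystem O red H.placeRed G Q n R e) :
    IsAdapted O red H.placeRed R (IsSystem.tc e) := by
  have hker : RedKer O red := redKer_of_nonunit H.red_nonunit
  have hconst : RedConst L k O red := fun a ha => by
    obtain ⟨b, hb⟩ := LatHypGlue.redConst H a ha
    exact ⟨b, hb.symm⟩
  have hcons : Conservation O red H.placeRed := LatHypGlue.cons H
  refine ⟨hker, hconst, hvg, hcons, residueTrivial_of_deg_eq_one H.degL, S.inj,
    fun i => (isCoord_neg_inv hker hcons Q (R i) (S.base i) n (e i) (S.mem i) (S.rr i)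
      (S.ord i)).1,
    fun i => (isCoord_neg_inv hker hcons Q (R i) (S.base i) n (e i) (S.mem i) (S.rr i)
      (S.ord i)).2, S.ns', ?_, ⟨Q, S.base⟩⟩
  intro D hD
  obtain ⟨u, hu, hli⟩ := H.lat (D + ∑ i, Finsupp.single (R i) (1 : ℤ)) 1 (by
    rw [map_add, hD, degree_sum_single_one H.degL, zero_add]
    simp)
  have h0 : ((u 0 : O) : F) ≠ 0 := LatHyp.coe_ne_zero_of_red_ne_zero (hli.ne_zero 0)
  refine ⟨(u 0 : O), h0, fun P => ?_⟩
  have := (mem_rr_iff.mp (hu 0)).resolve_left h0 P
  rw [Finsupp.add_apply] at this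
  omega

/-- The regularity hypothesis `hreg` of `helper5161.ord_unitOf` for an adapted system. -/
theorem tc_inv_mem_discRing {sp : Place L F → Place k Fk} {G : Set (SemilinearAut L F)}
    {g : ℕ} {Q : Place L F} {n : ℤ} {R : Fin g → Place L F} {e : Fin g → F}
    (S : IsSystem O red sp G Q n R e) (i j : Fin g) (hij : i ≠ j) :
    (IsSystem.tc e j)⁻¹ ∈ discRing O sp (sp (R i)) := by
  rw [IsSystem.tc_inv]
  exact ⟨neg_mem (S.mem j), fun P hP => neg_mem (S.mem_of_ne (Ne.symm hij) P hP)⟩

/-- `exists_adapted_system`, structure form. -/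
theorem exists_isSystem {g : ℕ} (H : LatHyp O red (g : ℤ) c E₀ E₀k)
    [HasPrincipalDivisors L F] [HasPrincipalDivisors k Fk]
    (hsurj : Function.Surjective red)
    (hinf : (Set.univ : Set (Place k Fk)).Infinite)
    (G : Set (SemilinearAut L F)) (hG : ∀ γ ∈ G, ∀ P, H.placeRed (γ • P) = H.placeRed P)
    (Q : Place L F) (n : ℤ) (hn : max c (LatHyp.thr (g : ℤ) c) + 2 ≤ n)
    (hratQ : FixedLiftDiv H G (Finsupp.single Q n))
    (hratR : ∀ R : Place L F, (∀ γ ∈ G, γ • R = R) →
      FixedLiftDiv H G (Finsupp.single Q n + Finsupp.single R 1)) :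
    ∃ (R : Fin g → Place L F) (e : Fin g → F), IsSystem O red H.placeRed G Q n R e := by
  obtain ⟨R, e, h1, h2, h3, h4, h5, h6, h7, h8⟩ :=
    exists_adapted_system H hsurj hinf G hG Q n hn hratQ hratR
  exact ⟨R, e, h1, h2, h3, h4, h5, h6, h7, h8⟩

end System

section CoverInst

variable {L F k Fk : Type*} [Field L] [Field F] [Algebra L F] [Field k] [Field Fk] [Algebra k Fk]
variable {O : ValuationSubring F} {red : O →+* Fk} {c : ℤ}
  {E₀ : Divisor L F} {E₀k : Divisor k Fk}

open Fermat.Agent.S19.helper5161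

/-- The constant `g` of a lattice bundle is nonnegative. -/
theorem latHyp_g_nonneg {g : ℤ} (H : LatHyp O red g c E₀ E₀k) [HasPrincipalDivisors L F]
    (hsurj : Function.Surjective red) : 0 ≤ g := by
  classical
  obtain ⟨P0, -⟩ := LatHypGlue.exists_place_generic H
  set m : ℤ := max 0 (max c (LatHyp.thr g c)) with hm
  set E : Divisor k Fk := Finsupp.single (H.placeRed P0) m with hE
  have hdeg : Divisor.degree E = m := by rw [hE, degree_single H.degk]
  have h1 := LatHypGlue.finrank_rr_eq H hsurj E (by rw [hdeg]; exact le_max_right _ _)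
  have hfin := LatHypGlue.finiteDimensional_rr H E
  set n := finrank k (riemannRochSpace E) with hn
  have b := Module.finBasis k (riemannRochSpace E)
  have hli : LinearIndependent k (fun i : Fin n => ((b i : riemannRochSpace E) : Fk)) :=
    b.linearIndependent.map' (riemannRochSpace E).subtype (Submodule.ker_subtype _)
  have h2 := (H.rk E n _ hli (fun i => (b i).2)).1
  rw [hdeg] at h1 h2
  have hm0 : 0 ≤ m := le_max_left _ _
  rw [max_eq_right (by omega)] at h2
  omega

/-- **The hypotheses of the cover lemma on the lattice layer**: a lattice bundle of a cartesian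
pair `(O, red)` satisfies `helper1458.CoverHyp` (Riemann's theorem with equality in large degree
and the same `g` on both fibres). -/
theorem coverHyp_of_latHyp {g : ℕ} (H : LatHyp O red (g : ℤ) c E₀ E₀k)
    [HasPrincipalDivisors L F] [HasPrincipalDivisors k Fk]
    (A : ValuationSubring L) (hA : ∀ a : L, algebraMap L F a ∈ O ↔ a ∈ A)
    (hsurj : Function.Surjective red)
    (hksurj : ∀ b : k, ∃ (a : L) (h : algebraMap L F a ∈ O),
      red ⟨algebraMap L F a, h⟩ = algebraMap k Fk b)
    (hcart : IsCartesian (L := L) k O red) :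
    Fermat.Agent.S19.helper1458.CoverHyp A O red H.placeRed g
      (max c (LatHyp.thr (g : ℤ) c)) := by
  classical
  obtain ⟨P0, -⟩ := LatHypGlue.exists_place_generic H
  have hRK := LatHypGlue.redConst H
  refine ⟨hA, H.red_nonunit, hRK, hksurj, LatHypGlue.cons H, H.degL, H.degk, ?_,
    fun E hE => LatHypGlue.finrank_rr_eq H hsurj E hE, hcart⟩
  intro E hE
  have hfin : Module.Finite L (riemannRochSpace E) :=
    Fermat.Agent.S18.helper981.finite_riemannRochSpace H.degL P0 E
  have hthr : LatHyp.thr (g : ℤ) c ≤ Divisor.degree E := (le_max_right _ _).trans hE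
  have hgE : (g : ℤ) ≤ Divisor.degree E := LatHyp.g_le_thr.trans hthr
  apply le_antisymm
  · set n := finrank L (riemannRochSpace E) with hn
    have b := Module.finBasis L (riemannRochSpace E)
    have hli : LinearIndependent L (fun j : Fin n => ((b j : riemannRochSpace E) : F)) :=
      b.linearIndependent.map' (riemannRochSpace E).subtype (Submodule.ker_subtype _)
    obtain ⟨u, hu, hured⟩ := hcart E n _ hli (fun j => (b j).2)
    have hmem : ∀ i, red (u i) ∈ riemannRochSpace (Finsupp.mapDomain H.placeRed E) := fun i =>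
      Fermat.Agent.S19.helper1458.red_mem_rr (LatHypGlue.cons H) (u i) E (hu i)
    have h2 := (H.rk (Finsupp.mapDomain H.placeRed E) n _ hured hmem).2 (by
      rw [LatHypGlue.degree_mapDomain_placeRed H E]
      exact (le_max_left _ _).trans hE)
    rw [LatHypGlue.degree_mapDomain_placeRed H E] at h2
    exact h2
  · set n : ℕ := (Divisor.degree E + 1 - g).toNat with hn
    have h3 : (n : ℤ) = Divisor.degree E + 1 - g := by rw [hn]; omega
    obtain ⟨u, hu, hli⟩ := H.lat E n (by rw [h3])
    have hL : LinearIndependent L (fun i => (u i : F)) :=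
      Fermat.Agent.S19.helper1458.linearIndependent_of_red A (fun a ha => (hA a).mpr ha) hRK u hli
    have hL' : LinearIndependent L
        (fun i : Fin n => (⟨(u i : F), hu i⟩ : riemannRochSpace E)) :=
      LinearIndependent.of_comp (riemannRochSpace E).subtype hL
    have h4 := hL'.fintype_card_le_finrank
    rw [Fintype.card_fin] at h4
    omega

/-- The subalgebra (over the valuation ring `A` of constants) of the Gauss-integral functions
which are regular off a set `S` of places. -/
def regOff (A : ValuationSubring L) (O : ValuationSubring F)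
    (hA : ∀ a : L, a ∈ A → algebraMap L F a ∈ O) (S : Set (Place L F)) : Subalgebra ↥A F where
  carrier := {f | f ∈ O ∧ ∀ P, P ∉ S → f ∈ P.toValuationSubring}
  mul_mem' := fun ha hb => ⟨mul_mem ha.1 hb.1, fun P hP => mul_mem (ha.2 P hP) (hb.2 P hP)⟩
  one_mem' := ⟨one_mem O, fun _ _ => one_mem _⟩
  add_mem' := fun ha hb => ⟨add_mem ha.1 hb.1, fun P hP => add_mem (ha.2 P hP) (hb.2 P hP)⟩
  zero_mem' := ⟨zero_mem O, fun _ _ => zero_mem _⟩
  algebraMap_mem' := fun r => ⟨hA (r : L) r.2, fun P _ => P.algebraMap_mem' (r : L)⟩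

theorem mem_regOff {A : ValuationSubring L} {O : ValuationSubring F}
    {hA : ∀ a : L, a ∈ A → algebraMap L F a ∈ O} {S : Set (Place L F)} {f : F} :
    f ∈ regOff A O hA S ↔ f ∈ O ∧ ∀ P, P ∉ S → f ∈ P.toValuationSubring := Iff.rfl

theorem regOff_mono {A : ValuationSubring L} {O : ValuationSubring F}
    {hA : ∀ a : L, a ∈ A → algebraMap L F a ∈ O} {S T : Set (Place L F)} (h : S ⊆ T) :
    regOff A O hA S ≤ regOff A O hA T :=
  fun _ hf => ⟨hf.1, fun P hP => hf.2 P fun hS => hP (h hS)⟩

end CoverInst

section Main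

variable {L F k Fk : Type*} [Field L] [Field F] [Algebra L F] [Field k] [Field Fk] [Algebra k Fk]
variable {O : ValuationSubring F} {red : O →+* Fk} {c : ℤ}
  {E₀ : Divisor L F} {E₀k : Divisor k Fk}

open Fermat.Agent.S19.helper5161

/-- **(E) for an adapted system on the lattice layer**, in the subalgebra form consumed by the
Cech law: Gauss-integral functions regular off `{Q} ∪ {R i}` are sums of one regular off `Q`,
one regular off the `R i`, and an `A`-combination of the `e i`. -/
theorem regOff_le_sup {g : ℕ} (H : LatHyp O red (g : ℤ) c E₀ E₀k)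
    [HasPrincipalDivisors L F] [HasPrincipalDivisors k Fk]
    (A : ValuationSubring L) (hA : ∀ a : L, algebraMap L F a ∈ O ↔ a ∈ A)
    (hsurj : Function.Surjective red)
    (hksurj : ∀ b : k, ∃ (a : L) (h : algebraMap L F a ∈ O),
      red ⟨algebraMap L F a, h⟩ = algebraMap k Fk b)
    (hcart : IsCartesian (L := L) k O red)
    {G : Set (SemilinearAut L F)} {Q : Place L F} {n : ℤ} {R : Fin g → Place L F}
    {e : Fin g → F} (S : IsSystem O red H.placeRed G Q n R e)
    (hAO : ∀ a : L, a ∈ A → algebraMap L F a ∈ O) :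
    Subalgebra.toSubmodule (regOff A O hAO ({Q} ∪ Set.range R)) ≤
      Subalgebra.toSubmodule (regOff A O hAO {Q}) ⊔
        Subalgebra.toSubmodule (regOff A O hAO (Set.range R)) ⊔
        Submodule.span ↥A (Set.range e) := by
  classical
  intro h hh
  have hC := coverHyp_of_latHyp H A hA hsurj hksurj hcart
  have he' : ∀ i, red (⟨e i, S.mem i⟩ : O) ∉
      riemannRochSpace (Finsupp.single (H.placeRed Q) n : Divisor k Fk) := by
    intro i hmem
    have hord := S.ord i
    rw [rd_of_mem O red (S.mem i)] at hord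
    have hne : red (⟨e i, S.mem i⟩ : O) ≠ 0 := by
      intro h0
      rw [h0, Place.ord_zero] at hord
      omega
    have h1 := (mem_rr_iff.mp hmem).resolve_left hne (H.placeRed (R i))
    rw [Finsupp.single_apply, if_neg (S.base i), hord] at h1
    omega
  obtain ⟨b1, b2, a, hb1O, hb1, hb2O, hb2, ha, hsum⟩ :=
    Fermat.Agent.S19.helper1458.cover_E hC (Fintype.card_fin g) Q R S.inj
      (fun i => (S.base i).symm) S.ns n (fun i => (⟨e i, S.mem i⟩ : O)) S.rr he'
      hh.1 (fun v hvQ hvR => hh.2 v (fun hv => hv.elim (fun h => hvQ h)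
        (fun ⟨i, hi⟩ => hvR i hi.symm)))
  rw [hsum]
  refine Submodule.add_mem _ (Submodule.add_mem _
    (Submodule.mem_sup_left (Submodule.mem_sup_left ?_))
    (Submodule.mem_sup_left (Submodule.mem_sup_right ?_)))
    (Submodule.mem_sup_right (Submodule.sum_mem _ fun i _ => ?_))
  · exact ⟨hb1O, fun P hP => hb1 P hP⟩
  · exact ⟨hb2O, fun P hP => hb2 P (fun i hi => hP ⟨i, hi.symm⟩)⟩
  · have e1 : a i • (((⟨e i, S.mem i⟩ : O)) : F) = (⟨a i, ha i⟩ : A) • e i := rfl
    rw [e1]
    exact Submodule.smul_mem _ _ (Submodule.subset_span ⟨i, rfl⟩)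

/-- **The C-alg core on the lattice layer.**  From a lattice bundle `H` of a cartesian pair
`(O, red)` with valuation ring of constants `A`, a set `G` of semilinear automorphisms acting
trivially on the special fibre, a `G`-fixed place `Q` and the rationality input (CALG-RAT) for
`G`-fixed divisors of large degree: an adapted system `(R, t)` with `G`-fixed disc coordinates,
`G`-fixed centres modulo the specialisation kernel, and the approximate addition law of the
coordinates modulo every power of `ϖ` (rank one) on finite subsets of the specialisation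
kernel. -/
theorem exists_coords_of_latHyp {g : ℕ} (H : LatHyp O red (g : ℤ) c E₀ E₀k)
    [HasPrincipalDivisors L F] [HasPrincipalDivisors k Fk]
    (A : ValuationSubring L) (hA : ∀ a : L, algebraMap L F a ∈ O ↔ a ∈ A)
    (hsurj : Function.Surjective red)
    (hksurj : ∀ b : k, ∃ (a : L) (h : algebraMap L F a ∈ O),
      red ⟨algebraMap L F a, h⟩ = algebraMap k Fk b)
    (hvg : ValueGroupConst L O) (hcart : IsCartesian (L := L) k O red)
    (hinf : (Set.univ : Set (Place k Fk)).Infinite)
    (G : Set (SemilinearAut L F)) (hG : ∀ γ ∈ G, ∀ P, H.placeRed (γ • P) = H.placeRed P)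
    (Q : Place L F) (hQ : ∀ γ ∈ G, γ • Q = Q)
    (hrat : ∀ E : Divisor L F, (∀ γ ∈ G, γ • E = E) →
      max c (LatHyp.thr (g : ℤ) c) ≤ Divisor.degree E → FixedLiftDiv H G E)
    (ϖ : L) (hrank : ∀ a ∈ A.nonunits, ∃ n : ℕ, ∃ w ∈ A, a ^ n = ϖ * w) :
    ∃ (R : Fin g → Place L F) (t : Fin g → F),
      IsAdapted O red H.placeRed R t ∧ (∀ γ ∈ G, ∀ i, γ • t i = t i) ∧
      (∀ x : Pic0 L F, ∃ y : Pic0 L F, (∀ γ ∈ G, γ • y = y) ∧
        x - y ∈ specKernel H.placeRed) ∧
      ∀ (j : ℕ) (T : Finset (Pic0 L F)), (∀ x ∈ T, x ∈ specKernel H.placeRed) →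
        ∃ P : Fin g → MvPolynomial (Fin g ⊕ Fin g) L, (∀ i d, (P i).coeff d ∈ A) ∧
          ∀ x ∈ T, ∀ y ∈ T, ∀ i, ∃ w ∈ A,
            coord H.placeRed R t (x + y) i
              - MvPolynomial.eval (Sum.elim (coord H.placeRed R t x)
                  (coord H.placeRed R t y)) (P i) = ϖ ^ j * w := by
  classical
  set n : ℤ := max c (LatHyp.thr (g : ℤ) c) + 2 with hn
  have hratQ : FixedLiftDiv H G (Finsupp.single Q n) :=
    hrat _ (fun γ hγ => by rw [SemilinearAut.smul_single, hQ γ hγ])
      (by rw [degree_single H.degL]; omega)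
  have hratR : ∀ R : Place L F, (∀ γ ∈ G, γ • R = R) →
      FixedLiftDiv H G (Finsupp.single Q n + Finsupp.single R 1) := fun R hR =>
    hrat _ (fun γ hγ => by
      rw [smul_add, SemilinearAut.smul_single, SemilinearAut.smul_single, hQ γ hγ, hR γ hγ])
      (by rw [map_add, degree_single H.degL, degree_single H.degL]; omega)
  obtain ⟨R, e, S⟩ := exists_isSystem H hsurj hinf G hG Q n le_rfl hratQ hratR
  have hS := isAdapted_of_system H hvg S
  refine ⟨R, IsSystem.tc e, hS, fun γ hγ i => S.smul_tc γ hγ i,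
    fun x => exists_fixed_centre_of_latHyp H hsurj G hG Q hQ n le_rfl
      (fixedLiftRR_of_fixedLiftDiv H G Q n hratQ) x, ?_⟩
  intro j T hT
  have hAO : ∀ a : L, a ∈ A → algebraMap L F a ∈ O := fun a ha => (hA a).mpr ha
  obtain ⟨P, hP, hlaw⟩ := Fermat.Agent.S19.helper2570.approx_law hS Q S.base e
    (fun i => by rw [IsSystem.tc_inv, neg_neg])
    (fun i P h1 h2 => mem_of_mem_rr_single Q (R i) n (e i) (S.rr i) P
      (fun h => h1 (by rw [h])) (fun h => h2 (by rw [h])))
    (R₀ := ↥A) (fun r => hAO _ r.2)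
    (regOff A O hAO {Q}) (regOff A O hAO (Set.range R)) (regOff A O hAO ({Q} ∪ Set.range R))
    (regOff_mono Set.subset_union_left) (regOff_mono Set.subset_union_right)
    (fun i => ⟨S.mem i, fun P hP => mem_of_mem_rr_single Q (R i) n (e i) (S.rr i) P
      (fun h => hP (Or.inl h)) (fun h => hP (Or.inr ⟨i, h.symm⟩))⟩)
    (regOff_le_sup H A hA hsurj hksurj hcart S hAO)
    (fun f hf => hf.1)
    (fun f hf P hP => hf.2 P (fun h => hP (by rw [Set.mem_singleton_iff.mp h])))
    (fun f hf P hP => hf.2 P (fun ⟨i, hi⟩ => hP i (by rw [hi])))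
    ϖ (fun a ha => by
      obtain ⟨m, w, hw, h⟩ := hrank a (mem_nonunits_of_algebraMap_mem_nonunits A hA ha)
      exact ⟨m, w, hAO w hw, h⟩) j T hT
  exact ⟨P, fun i d => (hA _).mp (hP i d), fun x hx y hy i => by
    obtain ⟨w, hw, h⟩ := hlaw x hx y hy i
    exact ⟨w, (hA w).mp hw, h⟩⟩

end Main

section Gauss

open ModularCurve
open Fermat.Agent.S18 Fermat.Agent.S19.helper5161 Fermat.Agent.S19.helper2111

variable (M : ℕ) [NeZero M] (ℓ : ℕ) [Fact ℓ.Prime] (hℓM : ¬ ℓ ∣ M)

/-- **(CALG-RAT at the Gauss pair)**, the rationality input of the core at one place `A` of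
`ℚ̄` over `ℓ`: for every lattice bundle `H` of the Gauss pair and every divisor `E` of large
degree fixed by the inertia group of `A`, every element of `L_k(sp_* E)` is the reduction of an
inertia-fixed Gauss-integral element of `L(E)`. -/
def Stmt_RatAt (A : ValuationSubring Qb) (hA : A.LiesOverPrime ℓ) : Prop :=
  ∀ (g c : ℤ) (E₀ : Divisor Qb (modularFunctionFieldBar M))
    (E₀k : Divisor (IsLocalRing.ResidueField A)
      (modularFunctionFieldFullC (IsLocalRing.ResidueField A) M))
    (H : LatHyp (helper508.gaussValuationSubring M ℓ hℓM A hA)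
      (helper508.gaussResidue M ℓ hℓM A hA) g c E₀ E₀k)
    (E : Divisor Qb (modularFunctionFieldBar M)),
    (∀ γ ∈ inertiaSet M A, γ • E = E) → max c (LatHyp.thr g c) ≤ Divisor.degree E →
      FixedLiftDiv H (inertiaSet M A) E

/-- **The core at one place**, from the gate and the rationality input: a coordinate system on
the kernel of reduction of `J₀(M)` at `A`. -/
theorem coreAt_of_rat (A : ValuationSubring Qb) (hA : A.LiesOverPrime ℓ)
    (hrat : Stmt_RatAt M ℓ hℓM A hA)
    (hgate : Fermat.Agent.S19.helper3573.GateAt M ℓ hℓM A hA) :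
    ∃ (g : ℕ) (J1 : AddSubgroup (JZero M)) (b : JZero M → Fin g → Qb),
      IsCoordSystem ℓ M A g J1 b := by
  obtain ⟨g, c, E₀, E₀k, H⟩ := hgate
  have hPL := hasPrincipalDivisors_bar M ℓ hℓM A hA
  have hPk := hasPrincipalDivisors_res M ℓ hℓM A hA
  have hsurj := helper508.gaussResidue_surjective M ℓ hℓM A hA
  have hg0 := latHyp_g_nonneg H hsurj
  obtain ⟨g', rfl⟩ := Int.eq_ofNat_of_zero_le hg0
  have hG : ∀ γ ∈ inertiaSet M A, ∀ P : Place Qb (modularFunctionFieldBar M),
      H.placeRed (γ • P) = H.placeRed P := by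
    rintro γ ⟨σ, hσ, rfl⟩ P
    exact Fermat.Agent.S19.helper3103.placeRed_smul_of_mem_inertia M ℓ hℓM A hA H hσ P
  have hQb : Algebra.IsAlgebraic ℚ Qb := AlgebraicClosure.isAlgebraic ℚ
  have hQ : ∀ γ ∈ inertiaSet M A, γ • Fermat.Agent.S29.helper36.qPlaceL Qb M =
      Fermat.Agent.S29.helper36.qPlaceL Qb M := by
    rintro γ ⟨σ, -, rfl⟩
    exact Fermat.Agent.S17.helper3753.arithmeticGalois_smul_qPlaceL Qb M σ
  obtain ⟨R, t, hS, hGt, hcen, hlaw⟩ := exists_coords_of_latHyp H A
    (helper508.algebraMap_mem_gaussValuationSubring_iff M ℓ hℓM A hA) hsurj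
    (fun b => by
      obtain ⟨a, ha, h⟩ := gaussResidue_const_surj M ℓ hℓM A hA b
      exact ⟨a, ha, h⟩)
    (gauss_valueGroupConst M ℓ hℓM A hA) (gauss_isCartesian M ℓ hℓM A hA)
    (infinite_places_res M ℓ hℓM A hA) (inertiaSet M A) hG
    (Fermat.Agent.S29.helper36.qPlaceL Qb M) hQ (hrat (g' : ℤ) c E₀ E₀k H) (ℓ : Qb)
    (fun a ha => Fermat.Agent.S19.helper1288.exists_pow_eq_mul_of_mem_nonunits A
      (Fact.out : ℓ.Prime) hA ha)
  exact ⟨g', specKernel H.placeRed, coord H.placeRed R t,
    isCoordSystem_of_adapted_set ℓ M A hS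
      (fun a ha => (helper508.algebraMap_mem_gaussValuationSubring_iff M ℓ hℓM A hA a).mp ha)
      hG hGt hcen hlaw⟩

/-- **CORE from CALG-RAT**: `helper3573.Stmt_CoreAt` at level `M` from the rationality input at
every place of `ℚ̄` over `ℓ`. -/
theorem stmt_CoreAt_of_rat (hrat : ∀ (A : ValuationSubring Qb) (hA : A.LiesOverPrime ℓ),
    Stmt_RatAt M ℓ hℓM A hA) : Fermat.Agent.S19.helper3573.Stmt_CoreAt M ℓ hℓM :=
  fun A hA hgate => coreAt_of_rat M ℓ hℓM A hA (hrat A hA) hgate

end Gauss

end Fermat.Agent.S19.helper989
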