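import Mathlib
import Fermat.Agent.S19.helper989_CAlgWire
import Fermat.Agent.S19.helper3214_RationalLat

/-!
# S19, C-alg main line: the core at every place (END-WIRE, part 2)

The rationality input `Stmt_RatAt` of `helper989_CAlgWire` is the landed CALG-RAT theorem
`helper3214.gauss_fixedLift_of_latHyp` at the Gauss pair.  Hence the core `helper3573.Stmt_CoreAt`
holds at every level `M` prime to `ℓ`, with no hypothesis.
-/

set_option autoImplicit false

namespace Fermat.Agent.S19.helper989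

open AlgebraicCurve Module ModularCurve
open Fermat.Agent.S37.helper126 Fermat.Agent.S37.helper5413 Fermat.Agent.S19.helper2007
open Fermat.Agent.S18 Fermat.Agent.S19.helper5161 Fermat.Agent.S19.helper2111

variable (M : ℕ) [NeZero M] (ℓ : ℕ) [Fact ℓ.Prime] (hℓM : ¬ ℓ ∣ M)

/-- **CALG-RAT at the Gauss pair**, in the shape consumed by the end-wire. -/
theorem ratAt (A : ValuationSubring Qb) (hA : A.LiesOverPrime ℓ) : Stmt_RatAt M ℓ hℓM A hA := by
  intro g c E₀ E₀k H E hE hdeg y hy
  have hPL := hasPrincipalDivisors_bar M ℓ hℓM A hA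
  obtain ⟨w, hwE, hwy, hwfix⟩ :=
    Fermat.Agent.S19.helper3214.gauss_fixedLift_of_latHyp M ℓ hℓM A hA H
      (Fermat.Agent.S29.helper36.qPlaceL Qb M) E
      (fun σ hσ => hE _ ⟨σ, hσ, rfl⟩) hdeg y hy
  refine ⟨w, hwE, hwy, ?_⟩
  rintro γ ⟨σ, hσ, rfl⟩
  exact hwfix σ hσ

/-- **The core of S19**: at every place of `ℚ̄` over `ℓ ∤ M`, the gate gives a coordinate system
on the kernel of reduction of `J₀(M)`. -/
theorem stmt_CoreAt : Fermat.Agent.S19.helper3573.Stmt_CoreAt M ℓ hℓM :=
  stmt_CoreAt_of_rat M ℓ hℓM (ratAt M ℓ hℓM)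

end Fermat.Agent.S19.helper989
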