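import Fermat.Agent.S19.helper1288_AdicCalculus

/-!
# S19 (C-alg main line): from the KEY output to the `law` field (helper1288)

The geometric core (CALG-KEY) proves the addition law of the coordinates of the kernel of
specialisation in the *valuation-free* form

  for every `d` there are polynomials `F_d` with integral coefficients such that, for every
  small constant `c` dividing all coordinates of `x` and `y`,
  `b (x + y) k - F_d k (b x, b y) ∈ c ^ d • A`.

The spine (`helper2111.IsCoordSystem.law`) wants it modulo `ℓ ^ j` on every finite subset.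
The two are linked by

* a common small divisor of finitely many elements of the maximal ideal of a valuation ring
  (`exists_common_divisor`);
* the rank-one lemma `exists_pow_eq_mul_of_mem_nonunits` (a power of every nonunit is divisible
  by `ℓ`).

`law_of_key_pred` is the adapter for arbitrary "integral" / "small" predicates, `law_of_key` the
form with the valuation ring `A` of constants itself, `law_of_key_gauss` the form in which
integrality and smallness of constants are tested in a valuation ring `O` of a function field.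
Everything is Mathlib-only (plus the rank-one lemma of `helper1288_AdicCalculus`).

`law_of_key_rank_pred`, `law_of_key_rank`, `law_of_key_rank_gauss` are the same three statements
modulo powers of an arbitrary constant `π`, with rank one as a hypothesis
(`hrank : ∀ a ∈ A.nonunits, ∃ n, ∃ w ∈ A, a ^ n = π * w`) and no assumption on the field of
constants: the shape of `helper6256.IsAbsCoordSystem.law` / `IsAdaptedCover.hrank`.
-/

set_option autoImplicit false

namespace Fermat.Agent.S19.helper1288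

section LawAdapter

variable {K : Type*} [Field K]

/-- Finitely many elements of the maximal ideal of a valuation ring have a common divisor in the
maximal ideal (one of them, or `0`). -/
theorem exists_common_divisor (A : ValuationSubring K) (s : Finset K)
    (hs : ∀ a ∈ s, a ∈ A.nonunits) :
    ∃ c ∈ A.nonunits, ∀ a ∈ s, ∃ u ∈ A, a = c * u := by
  classical
  induction s using Finset.induction_on with
  | empty =>
    refine ⟨0, ?_, ?_⟩
    · rw [ValuationSubring.mem_nonunits_iff, map_zero]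
      exact zero_lt_one
    · intro a ha
      simp at ha
  | insert a s _ ih =>
    obtain ⟨c, hc, hdiv⟩ := ih (fun x hx => hs x (Finset.mem_insert_of_mem hx))
    have ha : a ∈ A.nonunits := hs a (Finset.mem_insert_self a s)
    by_cases ha0 : a = 0
    · refine ⟨c, hc, ?_⟩
      intro x hx
      rcases Finset.mem_insert.mp hx with rfl | hx
      · exact ⟨0, A.zero_mem, by rw [ha0, mul_zero]⟩
      · exact hdiv x hx
    by_cases hc0 : c = 0
    · refine ⟨a, ha, ?_⟩
      intro x hx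
      rcases Finset.mem_insert.mp hx with rfl | hx
      · exact ⟨1, A.one_mem, (mul_one _).symm⟩
      · obtain ⟨u, _, hu⟩ := hdiv x hx
        exact ⟨0, A.zero_mem, by rw [hu, hc0, zero_mul, mul_zero]⟩
    rcases A.mem_or_inv_mem (a / c) with h | h
    · refine ⟨c, hc, ?_⟩
      intro x hx
      rcases Finset.mem_insert.mp hx with rfl | hx
      · exact ⟨x / c, h, by field_simp⟩
      · exact hdiv x hx
    · refine ⟨a, ha, ?_⟩
      intro x hx
      rcases Finset.mem_insert.mp hx with rfl | hx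
      · exact ⟨1, A.one_mem, (mul_one _).symm⟩
      · obtain ⟨u, huA, hu⟩ := hdiv x hx
        refine ⟨(a / c)⁻¹ * u, A.mul_mem _ _ h huA, ?_⟩
        rw [hu]
        field_simp

/-- A constant is a nonunit of `O` as soon as it is a nonunit of `A`, when `O` restricts to `A`
on constants. -/
theorem algebraMap_mem_nonunits_of_comap {F : Type*} [Field F] [Algebra K F]
    (A : ValuationSubring K) (O : ValuationSubring F)
    (hO : ∀ a : K, algebraMap K F a ∈ O ↔ a ∈ A) {c : K} (hc : c ∈ A.nonunits) :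
    algebraMap K F c ∈ O.nonunits := by
  by_cases hc0 : c = 0
  · rw [hc0, map_zero, ValuationSubring.mem_nonunits_iff, map_zero]
    exact zero_lt_one
  have h1 : A.valuation c < 1 := A.mem_nonunits_iff.mp hc
  rw [ValuationSubring.mem_nonunits_iff]
  by_contra hlt
  have h2 : (1 : O.ValueGroup) ≤ O.valuation (algebraMap K F c) := not_lt.mp hlt
  have h3 : O.valuation (algebraMap K F c⁻¹) ≤ 1 := by
    rw [map_inv₀, map_inv₀]
    exact inv_le_one_of_one_le₀ h2
  have h4 : c⁻¹ ∈ A := (hO c⁻¹).mp ((O.valuation_le_one_iff _).mp h3)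
  have h5 : A.valuation c⁻¹ ≤ 1 := (A.valuation_le_one_iff _).mpr h4
  rw [map_inv₀] at h5
  have h6 : (1 : A.ValueGroup) ≤ A.valuation c := by
    have hv0 : A.valuation c ≠ 0 := (Valuation.ne_zero_iff _).mpr hc0
    exact (one_le_inv₀ (zero_lt_iff.mpr (inv_ne_zero hv0))).mpr h5 |>.trans_eq (inv_inv _)
  exact absurd h1 (not_lt.mpr h6)

/-! ### The `π`-forms: rank one as a hypothesis (no assumption on the field of constants) -/

/-- **KEY ⟹ `law`, predicate form, rank one as a hypothesis.**  `π` is any constant such that a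
power of every nonunit of `A` is divisible by `π` (`hrank`).  Same statement as
`law_of_key_pred`, modulo `π ^ j`. -/
theorem law_of_key_rank_pred (A : ValuationSubring K) (π : K)
    (hrank : ∀ a ∈ A.nonunits, ∃ n : ℕ, ∃ w ∈ A, a ^ n = π * w) (IsInt IsSmall : K → Prop)
    (hIntA : ∀ a : K, IsInt a → a ∈ A) (hAInt : ∀ a ∈ A, IsInt a)
    (hSmall : ∀ c ∈ A.nonunits, IsSmall c)
    {J : Type*} [AddCommGroup J] (J1 : AddSubgroup J) {g : ℕ} (b : J → Fin g → K)
    (hsmall : ∀ x ∈ J1, ∀ i, b x i ∈ A.nonunits)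
    (hkey : ∀ d : ℕ, ∃ F : Fin g → MvPolynomial (Fin g ⊕ Fin g) K,
      (∀ i m, (F i).coeff m ∈ A) ∧
      ∀ c : K, IsSmall c → ∀ x ∈ J1, ∀ y ∈ J1,
        (∀ i, ∃ u, IsInt u ∧ b x i = c * u) → (∀ i, ∃ u, IsInt u ∧ b y i = c * u) →
        ∀ k, ∃ a, IsInt a ∧
          b (x + y) k - MvPolynomial.eval (Sum.elim (b x) (b y)) (F k) = c ^ d * a) :
    ∀ (j : ℕ) (T : Finset J), (∀ x ∈ T, x ∈ J1) →
      ∃ P : Fin g → MvPolynomial (Fin g ⊕ Fin g) K, (∀ i d, (P i).coeff d ∈ A) ∧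
        ∀ x ∈ T, ∀ y ∈ T, ∀ i, ∃ w ∈ A,
          b (x + y) i - MvPolynomial.eval (Sum.elim (b x) (b y)) (P i) = π ^ j * w := by
  classical
  intro j T hT
  obtain ⟨c, hc, hdiv⟩ := exists_common_divisor A
    ((T ×ˢ (Finset.univ : Finset (Fin g))).image (fun p => b p.1 p.2))
    (by
      intro a ha
      obtain ⟨p, hp, rfl⟩ := Finset.mem_image.mp ha
      exact hsmall p.1 (hT p.1 (Finset.mem_product.mp hp).1) p.2)
  have hdiv' : ∀ x ∈ T, ∀ i, ∃ u, IsInt u ∧ b x i = c * u := by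
    intro x hx i
    obtain ⟨u, hu, h⟩ := hdiv (b x i)
      (Finset.mem_image.mpr ⟨(x, i), Finset.mem_product.mpr ⟨hx, Finset.mem_univ i⟩, rfl⟩)
    exact ⟨u, hAInt u hu, h⟩
  obtain ⟨N, w, hw, hcN⟩ := hrank c hc
  obtain ⟨F, hF, hlaw⟩ := hkey (N * j)
  refine ⟨F, hF, ?_⟩
  intro x hx y hy i
  obtain ⟨a, ha, h⟩ := hlaw c (hSmall c hc) x (hT x hx) y (hT y hy) (hdiv' x hx) (hdiv' y hy) i
  refine ⟨w ^ j * a, A.mul_mem _ _ (A.pow_mem hw j) (hIntA a ha), ?_⟩
  rw [h, pow_mul, hcN, mul_pow, mul_assoc]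

/-- **KEY ⟹ `law`, `π`-form with the valuation ring of constants.** -/
theorem law_of_key_rank (A : ValuationSubring K) (π : K)
    (hrank : ∀ a ∈ A.nonunits, ∃ n : ℕ, ∃ w ∈ A, a ^ n = π * w)
    {J : Type*} [AddCommGroup J] (J1 : AddSubgroup J) {g : ℕ} (b : J → Fin g → K)
    (hsmall : ∀ x ∈ J1, ∀ i, b x i ∈ A.nonunits)
    (hkey : ∀ d : ℕ, ∃ F : Fin g → MvPolynomial (Fin g ⊕ Fin g) K,
      (∀ i m, (F i).coeff m ∈ A) ∧
      ∀ c ∈ A.nonunits, ∀ x ∈ J1, ∀ y ∈ J1,
        (∀ i, ∃ u ∈ A, b x i = c * u) → (∀ i, ∃ u ∈ A, b y i = c * u) →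
        ∀ k, ∃ a ∈ A,
          b (x + y) k - MvPolynomial.eval (Sum.elim (b x) (b y)) (F k) = c ^ d * a) :
    ∀ (j : ℕ) (T : Finset J), (∀ x ∈ T, x ∈ J1) →
      ∃ P : Fin g → MvPolynomial (Fin g ⊕ Fin g) K, (∀ i d, (P i).coeff d ∈ A) ∧
        ∀ x ∈ T, ∀ y ∈ T, ∀ i, ∃ w ∈ A,
          b (x + y) i - MvPolynomial.eval (Sum.elim (b x) (b y)) (P i) = π ^ j * w :=
  law_of_key_rank_pred A π hrank (fun a => a ∈ A) (fun c => c ∈ A.nonunits) (fun _ h => h)
    (fun _ h => h) (fun _ h => h) J1 b hsmall hkey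

/-- **KEY ⟹ `law`, `π`-form, Gauss form** (the output shape of CALG-KEY; `hO` is the field `hA`
of `helper6256.IsAdaptedCover`, `hrank` its field `hrank`). -/
theorem law_of_key_rank_gauss (A : ValuationSubring K) (π : K)
    (hrank : ∀ a ∈ A.nonunits, ∃ n : ℕ, ∃ w ∈ A, a ^ n = π * w)
    {F : Type*} [Field F] [Algebra K F] (O : ValuationSubring F)
    (hO : ∀ a : K, algebraMap K F a ∈ O ↔ a ∈ A)
    {J : Type*} [AddCommGroup J] (J1 : AddSubgroup J) {g : ℕ} (b : J → Fin g → K)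
    (hsmall : ∀ x ∈ J1, ∀ i, b x i ∈ A.nonunits)
    (hkey : ∀ d : ℕ, ∃ P : Fin g → MvPolynomial (Fin g ⊕ Fin g) K,
      (∀ i m, (P i).coeff m ∈ A) ∧
      ∀ c : K, algebraMap K F c ∈ O.nonunits → ∀ x ∈ J1, ∀ y ∈ J1,
        (∀ i, ∃ u, algebraMap K F u ∈ O ∧ b x i = c * u) →
        (∀ i, ∃ u, algebraMap K F u ∈ O ∧ b y i = c * u) →
        ∀ k, ∃ a, algebraMap K F a ∈ O ∧
          b (x + y) k - MvPolynomial.eval (Sum.elim (b x) (b y)) (P k) = c ^ d * a) :
    ∀ (j : ℕ) (T : Finset J), (∀ x ∈ T, x ∈ J1) →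
      ∃ P : Fin g → MvPolynomial (Fin g ⊕ Fin g) K, (∀ i d, (P i).coeff d ∈ A) ∧
        ∀ x ∈ T, ∀ y ∈ T, ∀ i, ∃ w ∈ A,
          b (x + y) i - MvPolynomial.eval (Sum.elim (b x) (b y)) (P i) = π ^ j * w :=
  law_of_key_rank_pred A π hrank (fun a => algebraMap K F a ∈ O)
    (fun c => algebraMap K F c ∈ O.nonunits) (fun a h => (hO a).mp h)
    (fun a h => (hO a).mpr h) (fun _ h => algebraMap_mem_nonunits_of_comap A O hO h)
    J1 b hsmall hkey

/-- The converse direction of `algebraMap_mem_nonunits_of_comap`. -/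
theorem mem_nonunits_of_algebraMap_mem_nonunits {F : Type*} [Field F] [Algebra K F]
    (A : ValuationSubring K) (O : ValuationSubring F)
    (hO : ∀ a : K, algebraMap K F a ∈ O ↔ a ∈ A) {c : K}
    (hc : algebraMap K F c ∈ O.nonunits) : c ∈ A.nonunits := by
  by_cases hc0 : c = 0
  · rw [hc0, ValuationSubring.mem_nonunits_iff, map_zero]
    exact zero_lt_one
  have h1 : O.valuation (algebraMap K F c) < 1 := O.mem_nonunits_iff.mp hc
  rw [ValuationSubring.mem_nonunits_iff]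
  by_contra hlt
  have h2 : (1 : A.ValueGroup) ≤ A.valuation c := not_lt.mp hlt
  have h3 : A.valuation c⁻¹ ≤ 1 := by
    rw [map_inv₀]
    exact inv_le_one_of_one_le₀ h2
  have h4 : algebraMap K F c⁻¹ ∈ O := (hO c⁻¹).mpr ((A.valuation_le_one_iff _).mp h3)
  have h5 : O.valuation (algebraMap K F c⁻¹) ≤ 1 := (O.valuation_le_one_iff _).mpr h4
  rw [map_inv₀, map_inv₀] at h5
  have hv0 : O.valuation (algebraMap K F c) ≠ 0 :=
    (Valuation.ne_zero_iff _).mpr (by rwa [Ne, map_eq_zero])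
  have h6 : (1 : O.ValueGroup) ≤ O.valuation (algebraMap K F c) :=
    ((one_le_inv₀ (zero_lt_iff.mpr (inv_ne_zero hv0))).mpr h5).trans_eq (inv_inv _)
  exact absurd h1 (not_lt.mpr h6)


variable [CharZero K] [Algebra.IsAlgebraic ℚ K]

/-- **KEY ⟹ `law`, predicate form.**  `IsInt` / `IsSmall` are any predicates on constants with
`IsInt a → a ∈ A`, `u ∈ A → IsInt u` and `c ∈ 𝔪_A → IsSmall c`.  If the coordinates `b` are
small on `J1` and satisfy the addition law modulo `c ^ d` for every small common divisor `c` of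
the coordinates, then they satisfy the addition law modulo `ℓ ^ j` on every finite subset of
`J1` (the field `law` of `helper2111.IsCoordSystem`, verbatim). -/
theorem law_of_key_pred (A : ValuationSubring K) {ℓ : ℕ} (hℓ : ℓ.Prime)
    (hℓA : (ℓ : K) ∈ A.nonunits) (IsInt IsSmall : K → Prop)
    (hIntA : ∀ a : K, IsInt a → a ∈ A) (hAInt : ∀ a ∈ A, IsInt a)
    (hSmall : ∀ c ∈ A.nonunits, IsSmall c)
    {J : Type*} [AddCommGroup J] (J1 : AddSubgroup J) {g : ℕ} (b : J → Fin g → K)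
    (hsmall : ∀ x ∈ J1, ∀ i, b x i ∈ A.nonunits)
    (hkey : ∀ d : ℕ, ∃ F : Fin g → MvPolynomial (Fin g ⊕ Fin g) K,
      (∀ i m, (F i).coeff m ∈ A) ∧
      ∀ c : K, IsSmall c → ∀ x ∈ J1, ∀ y ∈ J1,
        (∀ i, ∃ u, IsInt u ∧ b x i = c * u) → (∀ i, ∃ u, IsInt u ∧ b y i = c * u) →
        ∀ k, ∃ a, IsInt a ∧
          b (x + y) k - MvPolynomial.eval (Sum.elim (b x) (b y)) (F k) = c ^ d * a) :
    ∀ (j : ℕ) (T : Finset J), (∀ x ∈ T, x ∈ J1) →
      ∃ P : Fin g → MvPolynomial (Fin g ⊕ Fin g) K, (∀ i d, (P i).coeff d ∈ A) ∧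
        ∀ x ∈ T, ∀ y ∈ T, ∀ i, ∃ w ∈ A,
          b (x + y) i - MvPolynomial.eval (Sum.elim (b x) (b y)) (P i) = (ℓ : K) ^ j * w := by
  classical
  intro j T hT
  -- a common small divisor of all coordinates of the points of `T`
  obtain ⟨c, hc, hdiv⟩ := exists_common_divisor A
    ((T ×ˢ (Finset.univ : Finset (Fin g))).image (fun p => b p.1 p.2))
    (by
      intro a ha
      obtain ⟨p, hp, rfl⟩ := Finset.mem_image.mp ha
      exact hsmall p.1 (hT p.1 (Finset.mem_product.mp hp).1) p.2)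
  have hdiv' : ∀ x ∈ T, ∀ i, ∃ u, IsInt u ∧ b x i = c * u := by
    intro x hx i
    obtain ⟨u, hu, h⟩ := hdiv (b x i)
      (Finset.mem_image.mpr ⟨(x, i), Finset.mem_product.mpr ⟨hx, Finset.mem_univ i⟩, rfl⟩)
    exact ⟨u, hAInt u hu, h⟩
  -- rank one: a power of `c` is divisible by `ℓ`
  obtain ⟨N, w, hw, hcN⟩ := exists_pow_eq_mul_of_mem_nonunits A hℓ hℓA hc
  obtain ⟨F, hF, hlaw⟩ := hkey (N * j)
  refine ⟨F, hF, ?_⟩
  intro x hx y hy i
  obtain ⟨a, ha, h⟩ := hlaw c (hSmall c hc) x (hT x hx) y (hT y hy) (hdiv' x hx) (hdiv' y hy) i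
  refine ⟨w ^ j * a, A.mul_mem _ _ (A.pow_mem hw j) (hIntA a ha), ?_⟩
  rw [h, pow_mul, hcN, mul_pow, mul_assoc]

/-- **KEY ⟹ `law`, form with the valuation ring of constants.** -/
theorem law_of_key (A : ValuationSubring K) {ℓ : ℕ} (hℓ : ℓ.Prime)
    (hℓA : (ℓ : K) ∈ A.nonunits)
    {J : Type*} [AddCommGroup J] (J1 : AddSubgroup J) {g : ℕ} (b : J → Fin g → K)
    (hsmall : ∀ x ∈ J1, ∀ i, b x i ∈ A.nonunits)
    (hkey : ∀ d : ℕ, ∃ F : Fin g → MvPolynomial (Fin g ⊕ Fin g) K,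
      (∀ i m, (F i).coeff m ∈ A) ∧
      ∀ c ∈ A.nonunits, ∀ x ∈ J1, ∀ y ∈ J1,
        (∀ i, ∃ u ∈ A, b x i = c * u) → (∀ i, ∃ u ∈ A, b y i = c * u) →
        ∀ k, ∃ a ∈ A,
          b (x + y) k - MvPolynomial.eval (Sum.elim (b x) (b y)) (F k) = c ^ d * a) :
    ∀ (j : ℕ) (T : Finset J), (∀ x ∈ T, x ∈ J1) →
      ∃ P : Fin g → MvPolynomial (Fin g ⊕ Fin g) K, (∀ i d, (P i).coeff d ∈ A) ∧
        ∀ x ∈ T, ∀ y ∈ T, ∀ i, ∃ w ∈ A,
          b (x + y) i - MvPolynomial.eval (Sum.elim (b x) (b y)) (P i) = (ℓ : K) ^ j * w :=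
  law_of_key_pred A hℓ hℓA (fun a => a ∈ A) (fun c => c ∈ A.nonunits) (fun _ h => h)
    (fun _ h => h) (fun _ h => h) J1 b hsmall hkey

/-- **KEY ⟹ `law`, Gauss form** (the output shape of CALG-KEY): integrality and smallness of
constants are tested in a valuation ring `O` of a function field `F ⊇ K` which restricts to `A`
on constants. -/
theorem law_of_key_gauss (A : ValuationSubring K) {ℓ : ℕ} (hℓ : ℓ.Prime)
    (hℓA : (ℓ : K) ∈ A.nonunits) {F : Type*} [Field F] [Algebra K F] (O : ValuationSubring F)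
    (hO : ∀ a : K, algebraMap K F a ∈ O ↔ a ∈ A)
    {J : Type*} [AddCommGroup J] (J1 : AddSubgroup J) {g : ℕ} (b : J → Fin g → K)
    (hsmall : ∀ x ∈ J1, ∀ i, b x i ∈ A.nonunits)
    (hkey : ∀ d : ℕ, ∃ P : Fin g → MvPolynomial (Fin g ⊕ Fin g) K,
      (∀ i m, (P i).coeff m ∈ A) ∧
      ∀ c : K, algebraMap K F c ∈ O.nonunits → ∀ x ∈ J1, ∀ y ∈ J1,
        (∀ i, ∃ u, algebraMap K F u ∈ O ∧ b x i = c * u) →
        (∀ i, ∃ u, algebraMap K F u ∈ O ∧ b y i = c * u) →
        ∀ k, ∃ a, algebraMap K F a ∈ O ∧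
          b (x + y) k - MvPolynomial.eval (Sum.elim (b x) (b y)) (P k) = c ^ d * a) :
    ∀ (j : ℕ) (T : Finset J), (∀ x ∈ T, x ∈ J1) →
      ∃ P : Fin g → MvPolynomial (Fin g ⊕ Fin g) K, (∀ i d, (P i).coeff d ∈ A) ∧
        ∀ x ∈ T, ∀ y ∈ T, ∀ i, ∃ w ∈ A,
          b (x + y) i - MvPolynomial.eval (Sum.elim (b x) (b y)) (P i) = (ℓ : K) ^ j * w :=
  law_of_key_pred A hℓ hℓA (fun a => algebraMap K F a ∈ O)
    (fun c => algebraMap K F c ∈ O.nonunits) (fun a h => (hO a).mp h)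
    (fun a h => (hO a).mpr h) (fun _ h => algebraMap_mem_nonunits_of_comap A O hO h)
    J1 b hsmall hkey

end LawAdapter

end Fermat.Agent.S19.helper1288
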