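import Mathlib
import Fermat.Prelude.Def_GaloisRep_Flat

/-!
# Function models of finite flat group schemes (helper1476, S19-FUNCMODEL)

Route-independent brick for S19 / S32 (`IsFlatAt`): an order `H` in the algebra of functions
`M → Ω` on a finite abelian group `M`, closed under `φ ↦ (m, m') ↦ φ (m + m')`, is a finite flat
cocommutative Hopf algebra whose `Ω`-points are the evaluations at the points of `M`, with
convolution of points equal to addition in `M`.

* Part A (`Core`): abstract statement over any commutative ring `R`, for `H` with a basis that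
  stays linearly independent over the field `Ω` (`FunctionModel`,
  `FunctionModel.exists_hopfAlgebra`).
* Part B: Galois descent for equivariant functions with values in `AlgebraicClosure ℚ`
  (`linearIndependent_of_equivariant`).
* Part C: the ring `GaloisRep.ratLocalizedAt ℓ` is a principal ideal domain with fraction
  field `ℚ`, for every `ℓ`.
* Part D: the consumer-facing statement.  Input: `IsFunctionModel ℓ act H` (four fields:
  `finite`, `eqv`, `sep`, `comul`); no basis, no spanning hypothesis, no finiteness of `M`, no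
  hypothesis on `act` (additivity, bijectivity of `act σ` and finiteness of `M` are consequences).
  Output: `IsFunctionModel.exists_hopfAlgebra`, the existential of the frozen statement S19 and
  of `GaloisRepAdic.IsFlatAt`.
* Part E: wrappers `exists_finiteFlat_model_torsionBy` (frozen S19 conclusion for
  `J := ModularCurve.JZero p`, `n := (ℓ : ℤ) ^ k`) and `isFlatAt_of_hasFunctionModel`.
-/

set_option autoImplicit false

open scoped TensorProduct

namespace Fermat.Agent.S19.helper1476

noncomputable section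

/-! ## Part A: the abstract core -/

section Core

variable {R : Type} [CommRing R] {Ω : Type} [Field Ω] [Algebra R Ω]

/-- Pull-back of functions along a map, as an algebra homomorphism. -/
def pull {X Y : Type} (f : X → Y) : (Y → Ω) →ₐ[R] (X → Ω) where
  toFun φ := fun x => φ (f x)
  map_one' := rfl
  map_mul' _ _ := rfl
  map_zero' := rfl
  map_add' _ _ := rfl
  commutes' _ := rfl

@[simp] lemma pull_apply {X Y : Type} (f : X → Y) (φ : Y → Ω) (x : X) :
    (pull (R := R) f φ) x = φ (f x) := rfl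

/-- Products of two linearly independent families of functions are linearly independent
functions on the product. -/
lemma linearIndependent_mul_prod {X Y ι κ : Type} [Fintype ι] [Fintype κ]
    {u : ι → X → Ω} {v : κ → Y → Ω}
    (hu : LinearIndependent Ω u) (hv : LinearIndependent Ω v) :
    LinearIndependent Ω (fun p : ι × κ => fun q : X × Y => u p.1 q.1 * v p.2 q.2) := by
  rw [Fintype.linearIndependent_iff]
  intro g hg
  have key : ∀ (y : Y) (i : ι), ∑ j, g (i, j) * v j y = 0 := by
    intro y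
    have h1 : ∑ i, (∑ j, g (i, j) * v j y) • u i = 0 := by
      funext x
      have h2 := congrFun hg (x, y)
      simp only [Finset.sum_apply, Pi.smul_apply, smul_eq_mul, Pi.zero_apply] at h2 ⊢
      rw [← h2, Fintype.sum_prod_type]
      refine Finset.sum_congr rfl fun i _ => ?_
      rw [Finset.sum_mul]
      refine Finset.sum_congr rfl fun j _ => ?_
      ring
    exact Fintype.linearIndependent_iff.mp hu _ h1
  rintro ⟨i, j⟩
  have h3 : ∑ j, g (i, j) • v j = 0 := by
    funext y
    simpa only [Finset.sum_apply, Pi.smul_apply, smul_eq_mul, Pi.zero_apply] using key y i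
  exact Fintype.linearIndependent_iff.mp hv _ h3 j

/-- A linear map that sends a finite basis to a linearly independent family is injective. -/
lemma injective_of_basis_linearIndependent {N P κ : Type} [AddCommGroup N] [Module R N]
    [AddCommGroup P] [Module R P] [Fintype κ] (e : Module.Basis κ R N) (f : N →ₗ[R] P)
    (h : LinearIndependent R (fun k => f (e k))) : Function.Injective f := by
  rw [injective_iff_map_eq_zero]
  intro x hx
  have hx' : ∑ k, (e.repr x k) • f (e k) = 0 := by
    rw [← hx]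
    conv_rhs => rw [← e.sum_repr x]
    rw [map_sum]
    exact Finset.sum_congr rfl fun k _ => (map_smul f _ _).symm
  have h0 := Fintype.linearIndependent_iff.mp h _ hx'
  rw [← e.sum_repr x]
  exact Finset.sum_eq_zero fun k _ => by rw [h0 k, zero_smul]

/-- Abstract form of the statement on points: for a Hopf algebra `H'` mapping to the functions
on `M` such that evaluations at the points of `M` are exactly the `Ω`-points of `H'` and the
comultiplication is dual to the addition of `M`, convolution of points is addition. -/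
theorem exists_pointEquiv_of_hopf {M : Type} [AddCommGroup M] {H' : Type} [CommRing H']
    [HopfAlgebra R H'] (j : H' →ₐ[R] (M → Ω))
    (hbij : Function.Bijective
      (fun m : M => (Pi.evalAlgHom R (fun _ : M => Ω) m).comp j))
    (hlift : ∀ (m m' : M) (x : H'),
      Algebra.TensorProduct.lift ((Pi.evalAlgHom R (fun _ : M => Ω) m).comp j)
        ((Pi.evalAlgHom R (fun _ : M => Ω) m').comp j) (fun _ _ => Commute.all _ _)
        (Coalgebra.comul (R := R) x) = j x (m + m')) :
    ∃ e : WithConv (H' →ₐ[R] Ω) ≃ M, (∀ f g, e (f * g) = e f + e g) ∧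
      ∀ (f : WithConv (H' →ₐ[R] Ω)) (x : H'), f x = j x (e f) := by
  let E := Equiv.ofBijective _ hbij
  have hE : ∀ (m : M) (x : H'), E m x = j x m := fun _ _ => rfl
  let e : WithConv (H' →ₐ[R] Ω) ≃ M := (WithConv.equiv _).trans E.symm
  have he : ∀ f : WithConv (H' →ₐ[R] Ω), E (e f) = f.ofConv := fun f =>
    E.apply_symm_apply f.ofConv
  refine ⟨e, ?_, ?_⟩
  · intro f g
    apply E.injective
    apply AlgHom.ext
    intro x
    rw [he, AlgHom.convMul_apply, hE]
    have h1 := hlift (e f) (e g) x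
    have h2 : (Pi.evalAlgHom R (fun _ : M => Ω) (e f)).comp j = f.ofConv := he f
    have h3 : (Pi.evalAlgHom R (fun _ : M => Ω) (e g)).comp j = g.ofConv := he g
    simp only [h2, h3] at h1
    exact h1
  · intro f x
    rw [← hE, he]

variable {M : Type} (H : Subalgebra R (M → Ω))

/-- Evaluation of a two-fold tensor as a function of two variables. -/
def ev₂ : ↥H ⊗[R] ↥H →ₐ[R] (M × M → Ω) :=
  Algebra.TensorProduct.productMap ((pull Prod.fst).comp H.val) ((pull Prod.snd).comp H.val)

@[simp] lemma ev₂_tmul (a b : ↥H) (p : M × M) :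
    ev₂ H (a ⊗ₜ[R] b) p = (a : M → Ω) p.1 * (b : M → Ω) p.2 := by
  simp [ev₂]

/-- Evaluation of a three-fold tensor as a function of three variables. -/
def ev₃ : ↥H ⊗[R] (↥H ⊗[R] ↥H) →ₐ[R] (M × M × M → Ω) :=
  Algebra.TensorProduct.productMap ((pull Prod.fst).comp H.val) ((pull Prod.snd).comp (ev₂ H))

@[simp] lemma ev₃_tmul (a : ↥H) (t : ↥H ⊗[R] ↥H) (p : M × M × M) :
    ev₃ H (a ⊗ₜ[R] t) p = (a : M → Ω) p.1 * ev₂ H t p.2 := by
  simp [ev₃]

variable [AddCommGroup M]

/-- The function `(m, m') ↦ φ (m + m')`. -/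
def addPull : ↥H →ₐ[R] (M × M → Ω) := (pull (fun p : M × M => p.1 + p.2)).comp H.val

@[simp] lemma addPull_apply (φ : ↥H) (p : M × M) : addPull H φ p = (φ : M → Ω) (p.1 + p.2) := rfl

/-- Evaluation at the origin. -/
def ev0 : ↥H →ₐ[R] Ω := (Pi.evalAlgHom R (fun _ : M => Ω) 0).comp H.val

@[simp] lemma ev0_apply (φ : ↥H) : ev0 H φ = (φ : M → Ω) 0 := rfl

/-- Evaluation at a point of `M`. -/
def evPt (m : M) : ↥H →ₐ[R] Ω := (Pi.evalAlgHom R (fun _ : M => Ω) m).comp H.val

omit [AddCommGroup M] in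
@[simp] lemma evPt_apply (m : M) (φ : ↥H) : evPt H m φ = (φ : M → Ω) m := rfl

omit [AddCommGroup M] in
lemma evPt_injective
    (hsep : ∀ m m' : M, m ≠ m' → ∃ φ : ↥H, (φ : M → Ω) m ≠ (φ : M → Ω) m') :
    Function.Injective (evPt H) := by
  intro m m' h
  by_contra hne
  obtain ⟨φ, hφ⟩ := hsep m m' hne
  exact hφ (by simpa using AlgHom.congr_fun h φ)

omit [AddCommGroup M] in
/-- If `H` is free of finite rank over `R`, it has finitely many `Ω`-points, at most as many
as the rank. -/
lemma finite_algHom_of_basis {ι : Type} [Fintype ι] (b : Module.Basis ι R ↥H) :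
    Finite (↥H →ₐ[R] Ω) ∧ Nat.card (↥H →ₐ[R] Ω) ≤ Fintype.card ι := by
  have hLI := linearIndependent_algHom_toLinearMap R ↥H Ω
  have hLI' : LinearIndependent Ω
      (fun f : ↥H →ₐ[R] Ω => (b.constr Ω).symm f.toLinearMap) :=
    hLI.map' _ (LinearEquiv.ker _)
  have hfin : Finite (↥H →ₐ[R] Ω) := hLI'.finite_of_isNoetherian
  have := Fintype.ofFinite (↥H →ₐ[R] Ω)
  have h1 := hLI'.fintype_card_le_finrank
  rw [Module.finrank_fintype_fun_eq_card] at h1
  exact ⟨hfin, by rwa [Nat.card_eq_fintype_card]⟩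

/-- A *function model*: a subalgebra `H` of the functions on `M`, free over `R` on a basis
that stays linearly independent over `Ω`, and closed under the co-operations induced by the
group structure of `M`. -/
structure FunctionModel (ι : Type) [Fintype ι] where
  hinj : Function.Injective (algebraMap R Ω)
  b : Module.Basis ι R ↥H
  hb : LinearIndependent Ω (fun i => ((b i : ↥H) : M → Ω))
  hcomul : ∀ φ : ↥H, addPull H φ ∈ (ev₂ H).range
  hcounit : ∀ φ : ↥H, ev0 H φ ∈ (Algebra.ofId R Ω).range
  hneg : ∀ φ : ↥H, (fun m => (φ : M → Ω) (-m)) ∈ H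

variable {H} {ι : Type} [Fintype ι] (D : FunctionModel H ι)

namespace FunctionModel

include D

lemma smul_one_injective : Function.Injective fun r : R => r • (1 : Ω) := by
  intro r s h
  apply D.hinj
  simpa [Algebra.smul_def] using h

lemma ev₂_injective : Function.Injective (ev₂ H) := by
  refine injective_of_basis_linearIndependent (N := ↥H ⊗[R] ↥H) (P := M × M → Ω)
    (D.b.tensorProduct D.b) (ev₂ H).toLinearMap ?_
  have h1 := (linearIndependent_mul_prod D.hb D.hb).restrict_scalars (R := R)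
    D.smul_one_injective
  have e : (fun k => (ev₂ H).toLinearMap ((D.b.tensorProduct D.b) k)) =
      (fun p : ι × ι => fun q : M × M =>
        ((D.b p.1 : ↥H) : M → Ω) q.1 * ((D.b p.2 : ↥H) : M → Ω) q.2) := by
    funext ⟨i, j⟩
    funext q
    simp [Module.Basis.tensorProduct_apply]
  rw [e]
  exact h1

lemma ev₃_injective : Function.Injective (ev₃ H) := by
  refine injective_of_basis_linearIndependent (N := ↥H ⊗[R] (↥H ⊗[R] ↥H)) (P := M × M × M → Ω)
    (D.b.tensorProduct (D.b.tensorProduct D.b)) (ev₃ H).toLinearMap ?_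
  have h1 := (linearIndependent_mul_prod D.hb
    (linearIndependent_mul_prod D.hb D.hb)).restrict_scalars (R := R) D.smul_one_injective
  have e : (fun k => (ev₃ H).toLinearMap ((D.b.tensorProduct (D.b.tensorProduct D.b)) k)) =
      (fun p : ι × (ι × ι) => fun q : M × (M × M) =>
        ((D.b p.1 : ↥H) : M → Ω) q.1 *
          (((D.b p.2.1 : ↥H) : M → Ω) q.2.1 * ((D.b p.2.2 : ↥H) : M → Ω) q.2.2)) := by
    funext ⟨i, j, k⟩
    funext q
    simp [Module.Basis.tensorProduct_apply]
  rw [e]
  exact h1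

/-- The comultiplication, as an algebra homomorphism. -/
def comulAlg : ↥H →ₐ[R] ↥H ⊗[R] ↥H :=
  ((AlgEquiv.ofInjective (ev₂ H) D.ev₂_injective).symm : (ev₂ H).range →ₐ[R] _).comp
    ((addPull H).codRestrict (ev₂ H).range D.hcomul)

lemma ev₂_comulAlg (φ : ↥H) : ev₂ H (D.comulAlg φ) = addPull H φ := by
  have h := (AlgEquiv.ofInjective (ev₂ H) D.ev₂_injective).apply_symm_apply
    ((addPull H).codRestrict (ev₂ H).range D.hcomul φ)
  exact congrArg Subtype.val h

lemma ev₂_comulAlg_apply (φ : ↥H) (p : M × M) :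
    ev₂ H (D.comulAlg φ) p = (φ : M → Ω) (p.1 + p.2) := by
  rw [D.ev₂_comulAlg]; rfl

/-- The counit, as an algebra homomorphism. -/
def counitAlg : ↥H →ₐ[R] R :=
  ((AlgEquiv.ofInjective (Algebra.ofId R Ω) D.hinj).symm : (Algebra.ofId R Ω).range →ₐ[R] R).comp
    ((ev0 H).codRestrict (Algebra.ofId R Ω).range D.hcounit)

lemma algebraMap_counitAlg (φ : ↥H) : algebraMap R Ω (D.counitAlg φ) = (φ : M → Ω) 0 := by
  have h := (AlgEquiv.ofInjective (Algebra.ofId R Ω) D.hinj).apply_symm_apply
    ((ev0 H).codRestrict (Algebra.ofId R Ω).range D.hcounit φ)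
  exact congrArg Subtype.val h

/-- The antipode. -/
def antipodeLin : ↥H →ₗ[R] ↥H where
  toFun φ := ⟨fun m => (φ : M → Ω) (-m), D.hneg φ⟩
  map_add' _ _ := rfl
  map_smul' _ _ := rfl

@[simp] lemma antipodeLin_apply (φ : ↥H) (m : M) :
    (D.antipodeLin φ : M → Ω) m = (φ : M → Ω) (-m) := rfl

/-! ### Compatibility of the evaluation maps with the structure maps -/

lemma ev₃_map_id_comul (t : ↥H ⊗[R] ↥H) (p : M × M × M) :
    ev₃ H (Algebra.TensorProduct.map (AlgHom.id R ↥H) D.comulAlg t) p =
      ev₂ H t (p.1, p.2.1 + p.2.2) := by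
  have h : (ev₃ H).comp (Algebra.TensorProduct.map (AlgHom.id R ↥H) D.comulAlg) =
      (pull (fun p : M × M × M => (p.1, p.2.1 + p.2.2))).comp (ev₂ H) := by
    apply Algebra.TensorProduct.ext'
    intro a b
    funext p
    simp [D.ev₂_comulAlg_apply]
  exact congrFun (AlgHom.congr_fun h t) p

omit [AddCommGroup M] [Fintype ι] D in
lemma ev₃_assoc_tmul (x : ↥H ⊗[R] ↥H) (c : ↥H) (p : M × M × M) :
    ev₃ H (Algebra.TensorProduct.assoc R R R ↥H ↥H ↥H (x ⊗ₜ[R] c)) p =
      ev₂ H x (p.1, p.2.1) * (c : M → Ω) p.2.2 := by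
  induction x using TensorProduct.induction_on with
  | zero => simp
  | tmul a b => simp [mul_assoc]
  | add x y hx hy => simp only [TensorProduct.add_tmul, map_add, Pi.add_apply, hx, hy, add_mul]

lemma ev₃_assoc_map_comul_id (t : ↥H ⊗[R] ↥H) (p : M × M × M) :
    ev₃ H (Algebra.TensorProduct.assoc R R R ↥H ↥H ↥H
      (Algebra.TensorProduct.map D.comulAlg (AlgHom.id R ↥H) t)) p =
      ev₂ H t (p.1 + p.2.1, p.2.2) := by
  have h : (ev₃ H).comp (((Algebra.TensorProduct.assoc R R R ↥H ↥H ↥H : _ ≃ₐ[R] _) :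
        _ →ₐ[R] _).comp (Algebra.TensorProduct.map D.comulAlg (AlgHom.id R ↥H))) =
      (pull (fun p : M × M × M => (p.1 + p.2.1, p.2.2))).comp (ev₂ H) := by
    apply Algebra.TensorProduct.ext'
    intro a b
    funext p
    simp [ev₃_assoc_tmul, D.ev₂_comulAlg_apply]
  exact congrFun (AlgHom.congr_fun h t) p

lemma lid_map_counit_id (t : ↥H ⊗[R] ↥H) (m : M) :
    ((Algebra.TensorProduct.lid R ↥H
      (Algebra.TensorProduct.map D.counitAlg (AlgHom.id R ↥H) t) : ↥H) : M → Ω) m =
      ev₂ H t (0, m) := by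
  have h : H.val.comp (((Algebra.TensorProduct.lid R ↥H : _ ≃ₐ[R] _) : _ →ₐ[R] _).comp
        (Algebra.TensorProduct.map D.counitAlg (AlgHom.id R ↥H))) =
      (pull (fun m : M => ((0 : M), m))).comp (ev₂ H) := by
    apply Algebra.TensorProduct.ext'
    intro a b
    funext m
    simp [Algebra.smul_def, D.algebraMap_counitAlg]
  exact congrFun (AlgHom.congr_fun h t) m

lemma rid_map_id_counit (t : ↥H ⊗[R] ↥H) (m : M) :
    ((Algebra.TensorProduct.rid R R ↥H
      (Algebra.TensorProduct.map (AlgHom.id R ↥H) D.counitAlg t) : ↥H) : M → Ω) m =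
      ev₂ H t (m, 0) := by
  have h : H.val.comp (((Algebra.TensorProduct.rid R R ↥H : _ ≃ₐ[R] _) : _ →ₐ[R] _).comp
        (Algebra.TensorProduct.map (AlgHom.id R ↥H) D.counitAlg)) =
      (pull (fun m : M => (m, (0 : M)))).comp (ev₂ H) := by
    apply Algebra.TensorProduct.ext'
    intro a b
    funext m
    simp [Algebra.smul_def, D.algebraMap_counitAlg, mul_comm]
  exact congrFun (AlgHom.congr_fun h t) m

/-- The bialgebra structure on a function model. -/
@[reducible] def bialgebra : Bialgebra R ↥H :=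
  Bialgebra.ofAlgHom D.comulAlg D.counitAlg
    (by
      apply AlgHom.ext
      intro φ
      apply D.ev₃_injective
      funext p
      simp only [AlgHom.comp_apply, AlgEquiv.coe_toAlgHom]
      rw [D.ev₃_assoc_map_comul_id, D.ev₃_map_id_comul, D.ev₂_comulAlg_apply,
        D.ev₂_comulAlg_apply, add_assoc])
    (by
      apply AlgHom.ext
      intro φ
      apply (Algebra.TensorProduct.lid R ↥H).injective
      simp only [AlgHom.comp_apply, AlgEquiv.coe_toAlgHom, AlgEquiv.apply_symm_apply]
      apply Subtype.ext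
      funext m
      rw [D.lid_map_counit_id, D.ev₂_comulAlg_apply, zero_add])
    (by
      apply AlgHom.ext
      intro φ
      apply (Algebra.TensorProduct.rid R R ↥H).injective
      simp only [AlgHom.comp_apply, AlgEquiv.coe_toAlgHom, AlgEquiv.apply_symm_apply]
      apply Subtype.ext
      funext m
      rw [D.rid_map_id_counit, D.ev₂_comulAlg_apply, add_zero])

lemma mul'_antipode_rTensor (t : ↥H ⊗[R] ↥H) (m : M) :
    ((LinearMap.mul' R ↥H (D.antipodeLin.rTensor ↥H t) : ↥H) : M → Ω) m = ev₂ H t (-m, m) := by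
  induction t using TensorProduct.induction_on with
  | zero => simp
  | tmul a b => simp
  | add x y hx hy => simp only [map_add, Subalgebra.coe_add, Pi.add_apply, hx, hy]

lemma mul'_antipode_lTensor (t : ↥H ⊗[R] ↥H) (m : M) :
    ((LinearMap.mul' R ↥H (D.antipodeLin.lTensor ↥H t) : ↥H) : M → Ω) m = ev₂ H t (m, -m) := by
  induction t using TensorProduct.induction_on with
  | zero => simp
  | tmul a b => simp
  | add x y hx hy => simp only [map_add, Subalgebra.coe_add, Pi.add_apply, hx, hy]

omit [AddCommGroup M] [Fintype ι] D in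
lemma ev₂_comm (t : ↥H ⊗[R] ↥H) (p : M × M) :
    ev₂ H (TensorProduct.comm R ↥H ↥H t) p = ev₂ H t p.swap := by
  induction t using TensorProduct.induction_on with
  | zero => simp
  | tmul a b => simp [mul_comm]
  | add x y hx hy => simp only [map_add, Pi.add_apply, hx, hy]

/-- The Hopf algebra structure on a function model. -/
@[reducible] def hopfAlgebra : HopfAlgebra R ↥H :=
  letI := D.bialgebra
  { antipode := D.antipodeLin
    mul_antipode_rTensor_comul := by
      apply LinearMap.ext
      intro φ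
      apply Subtype.ext
      funext m
      have h1 := D.mul'_antipode_rTensor (D.comulAlg φ) m
      rw [D.ev₂_comulAlg_apply] at h1
      simp only [neg_add_cancel] at h1
      rw [← D.algebraMap_counitAlg] at h1
      exact h1
    mul_antipode_lTensor_comul := by
      apply LinearMap.ext
      intro φ
      apply Subtype.ext
      funext m
      have h1 := D.mul'_antipode_lTensor (D.comulAlg φ) m
      rw [D.ev₂_comulAlg_apply] at h1
      simp only [add_neg_cancel] at h1
      rw [← D.algebraMap_counitAlg] at h1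
      exact h1 }

lemma isCocomm : @Coalgebra.IsCocomm R ↥H _ _ _ D.bialgebra.toCoalgebra := by
  refine @Coalgebra.IsCocomm.mk R ↥H _ _ _ D.bialgebra.toCoalgebra ?_
  apply LinearMap.ext
  intro φ
  apply D.ev₂_injective
  funext p
  have h1 := ev₂_comm (H := H) (D.comulAlg φ) p
  rw [D.ev₂_comulAlg_apply, Prod.fst_swap, Prod.snd_swap, add_comm,
    ← D.ev₂_comulAlg_apply φ p] at h1
  exact h1

lemma finite_algHom : Finite (↥H →ₐ[R] Ω) ∧ Nat.card (↥H →ₐ[R] Ω) ≤ Fintype.card ι :=
  finite_algHom_of_basis H D.b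

variable [Finite M]
  (hsep : ∀ m m' : M, m ≠ m' → ∃ φ : ↥H, (φ : M → Ω) m ≠ (φ : M → Ω) m')

include hsep

lemma evPt_bijective : Function.Bijective (evPt H) := by
  obtain ⟨hfin, hcard⟩ := D.finite_algHom
  refine (evPt_injective H hsep).bijective_of_nat_card_le ?_
  have := Fintype.ofFinite M
  have hι : Fintype.card ι ≤ Fintype.card M := by
    have h1 := D.hb.fintype_card_le_finrank
    rwa [Module.finrank_fintype_fun_eq_card] at h1
  calc Nat.card (↥H →ₐ[R] Ω) ≤ Fintype.card ι := hcard
    _ ≤ Fintype.card M := hι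
    _ = Nat.card M := Nat.card_eq_fintype_card.symm

/-- The points of a function model are the points of `M`. -/
def pointEquiv : WithConv (↥H →ₐ[R] Ω) ≃ M :=
  (WithConv.equiv _).trans (Equiv.ofBijective (evPt H) (D.evPt_bijective hsep)).symm

lemma pointEquiv_spec (f : WithConv (↥H →ₐ[R] Ω)) (φ : ↥H) :
    f.ofConv φ = (φ : M → Ω) (D.pointEquiv hsep f) := by
  have h1 : evPt H (D.pointEquiv hsep f) = f.ofConv :=
    (Equiv.ofBijective (evPt H) (D.evPt_bijective hsep)).apply_symm_apply f.ofConv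
  rw [← h1]
  rfl

omit [Finite M] hsep in
lemma lift_evPt_comulAlg (m m' : M) (φ : ↥H) :
    Algebra.TensorProduct.lift (evPt H m) (evPt H m') (fun _ _ => Commute.all _ _)
      (D.comulAlg φ) = (φ : M → Ω) (m + m') := by
  have key : ∀ t : ↥H ⊗[R] ↥H,
      Algebra.TensorProduct.lift (evPt H m) (evPt H m') (fun _ _ => Commute.all _ _) t =
        ev₂ H t (m, m') := by
    intro t
    induction t using TensorProduct.induction_on with
    | zero => simp
    | tmul a b => simp
    | add x y hx hy => simp only [map_add, Pi.add_apply, hx, hy]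
  rw [key, D.ev₂_comulAlg_apply]

/-- **Part A, main statement.** A function model is a finite flat cocommutative Hopf algebra
whose `Ω`-points are the points of `M`, convolution being addition; any pair of maps
`σ : Ω → Ω`, `a : M → M` under which the functions in `H` are equivariant acts compatibly. -/
theorem exists_hopfAlgebra :
    ∃ (H' : Type) (_ : CommRing H') (_ : HopfAlgebra R H'), Module.Finite R H' ∧
      Module.Flat R H' ∧ Coalgebra.IsCocomm R H' ∧
      ∃ e : WithConv (H' →ₐ[R] Ω) ≃ M, (∀ f g, e (f * g) = e f + e g) ∧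
        ∀ (σ : Ω → Ω) (a : M → M),
          (∀ φ : ↥H, ∀ m, (φ : M → Ω) (a m) = σ ((φ : M → Ω) m)) →
          ∀ f g : WithConv (H' →ₐ[R] Ω), (∀ h : H', g h = σ (f h)) → e g = a (e f) := by
  have hfree : Module.Free R ↥H := Module.Free.of_basis D.b
  have hfin : Module.Finite R ↥H := Module.Finite.of_basis D.b
  refine ⟨↥H, inferInstance, D.hopfAlgebra, hfin, @Module.Flat.of_free R ↥H _ _ _ hfree,
    D.isCocomm, ?_⟩
  obtain ⟨e, he1, he2⟩ := @exists_pointEquiv_of_hopf R _ Ω _ _ M _ ↥H _ D.hopfAlgebra H.val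
    (D.evPt_bijective hsep) (fun m m' x => D.lift_evPt_comulAlg m m' x)
  refine ⟨e, he1, ?_⟩
  intro σ a hσ f g hfg
  by_contra hne
  obtain ⟨φ, hφ⟩ := hsep _ _ hne
  exact hφ ((he2 g φ).symm.trans ((hfg φ).trans ((congrArg σ (he2 f φ)).trans (hσ φ _).symm)))

end FunctionModel

end Core

/-! ## Part B: Galois descent for equivariant functions -/

section Descent

/-- `AlgebraicClosure ℚ` is Galois over `ℚ`. -/
theorem isGalois_Qbar : IsGalois ℚ (AlgebraicClosure ℚ) := by
  have : IsAlgClosure ℚ (AlgebraicClosure ℚ) := ⟨inferInstance, AlgebraicClosure.isAlgebraic ℚ⟩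
  infer_instance

/-- An element of `AlgebraicClosure ℚ` fixed by the absolute Galois group is rational. -/
lemma exists_rat_of_fixed (x : AlgebraicClosure ℚ)
    (hx : ∀ σ : AlgebraicClosure ℚ ≃ₐ[ℚ] AlgebraicClosure ℚ, σ x = x) :
    ∃ q : ℚ, algebraMap ℚ (AlgebraicClosure ℚ) q = x := by
  have := isGalois_Qbar
  have h := (InfiniteGalois.mem_bot_iff_fixed (k := ℚ) (K := AlgebraicClosure ℚ) x).mpr hx
  exact IntermediateField.mem_bot.mp h

variable {M : Type} (act : (AlgebraicClosure ℚ ≃ₐ[ℚ] AlgebraicClosure ℚ) → M → M)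

/-- **Galois descent.** Functions on a set with a (surjective) action of the absolute Galois
group that are equivariant and linearly independent over `ℚ` are linearly independent over
`AlgebraicClosure ℚ`. -/
theorem linearIndependent_of_equivariant (hact : ∀ σ, Function.Surjective (act σ))
    {n : ℕ} (v : Fin n → M → AlgebraicClosure ℚ)
    (hv : ∀ i σ m, v i (act σ m) = σ (v i m))
    (hli : LinearIndependent ℚ v) : LinearIndependent (AlgebraicClosure ℚ) v := by
  classical
  have key : ∀ (k : ℕ) (c : Fin n → AlgebraicClosure ℚ), ∑ i, c i • v i = 0 →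
      (Finset.univ.filter (fun i => c i ≠ 0)).card ≤ k → ∀ i, c i = 0 := by
    intro k
    induction k with
    | zero =>
      intro c _ hcard i
      by_contra hi
      have hmem : i ∈ Finset.univ.filter (fun i => c i ≠ 0) := by simp [hi]
      have hpos := Finset.card_pos.mpr ⟨i, hmem⟩
      omega
    | succ k ih =>
      intro c hc hcard
      by_contra hne
      push Not at hne
      obtain ⟨i₀, hi₀⟩ := hne
      -- normalise
      set c' : Fin n → AlgebraicClosure ℚ := fun i => c i / c i₀ with hc'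
      have hrel' : ∀ m, ∑ i, c' i * v i m = 0 := by
        intro m
        have h1 := congrFun hc m
        simp only [Finset.sum_apply, Pi.smul_apply, smul_eq_mul, Pi.zero_apply] at h1
        have h2 : ∑ i, c' i * v i m = (∑ i, c i * v i m) / c i₀ := by
          rw [Finset.sum_div]
          exact Finset.sum_congr rfl fun i _ => by rw [hc']; ring
        rw [h2, h1, zero_div]
      have hfix : ∀ (σ : AlgebraicClosure ℚ ≃ₐ[ℚ] AlgebraicClosure ℚ) (i : Fin n),
          σ (c' i) = c' i := by
        intro σ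
        have hrelσ : ∀ m, ∑ i, σ (c' i) * v i m = 0 := by
          intro m
          obtain ⟨m', rfl⟩ := hact σ m
          have h1 := congrArg σ (hrel' m')
          rw [map_sum, map_zero] at h1
          rw [← h1]
          exact Finset.sum_congr rfl fun i _ => by rw [map_mul, hv]
        have hd : ∑ i, (σ (c' i) - c' i) • v i = 0 := by
          funext m
          simp only [Finset.sum_apply, Pi.smul_apply, smul_eq_mul, Pi.zero_apply]
          have h1 : ∑ i, (σ (c' i) - c' i) * v i m =
              ∑ i, σ (c' i) * v i m - ∑ i, c' i * v i m := by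
            rw [← Finset.sum_sub_distrib]
            exact Finset.sum_congr rfl fun i _ => by ring
          rw [h1, hrelσ, hrel', sub_zero]
        have hsub : Finset.univ.filter (fun i => σ (c' i) - c' i ≠ 0) ⊆
            (Finset.univ.filter (fun i => c i ≠ 0)).erase i₀ := by
          intro i hi
          rw [Finset.mem_filter] at hi
          rw [Finset.mem_erase, Finset.mem_filter]
          refine ⟨?_, Finset.mem_univ _, ?_⟩
          · rintro rfl
            apply hi.2
            have : c' i = 1 := by rw [hc']; exact div_self hi₀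
            rw [this, map_one, sub_self]
          · intro hci
            apply hi.2
            have : c' i = 0 := by rw [hc']; simp [hci]
            rw [this, map_zero, sub_self]
        have hcard' : (Finset.univ.filter (fun i => σ (c' i) - c' i ≠ 0)).card ≤ k := by
          have h1 := Finset.card_le_card hsub
          have h2 : i₀ ∈ Finset.univ.filter (fun i => c i ≠ 0) := by simp [hi₀]
          rw [Finset.card_erase_of_mem h2] at h1
          omega
        intro i
        have h3 := ih _ hd hcard' i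
        exact sub_eq_zero.mp h3
      -- the normalised coefficients are rational
      have hq : ∀ i, ∃ q : ℚ, algebraMap ℚ (AlgebraicClosure ℚ) q = c' i := fun i =>
        exists_rat_of_fixed _ fun σ => hfix σ i
      choose q hq using hq
      have hrelq : ∑ i, q i • v i = 0 := by
        funext m
        simp only [Finset.sum_apply, Pi.smul_apply, Pi.zero_apply]
        rw [← hrel' m]
        exact Finset.sum_congr rfl fun i _ => by rw [Algebra.smul_def, hq]
      have hq0 := Fintype.linearIndependent_iff.mp hli q hrelq i₀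
      have h1 : c' i₀ = 1 := by rw [hc']; exact div_self hi₀
      rw [← hq, hq0, map_zero] at h1
      exact zero_ne_one h1
  rw [Fintype.linearIndependent_iff]
  intro c hc i
  exact key _ c hc le_rfl i

end Descent

/-! ## Part C: the base ring `GaloisRep.ratLocalizedAt ℓ` -/

section BaseRing

variable (ℓ : ℕ)

lemma intCast_mem_ratLocalizedAt (n : ℤ) : (n : ℚ) ∈ GaloisRep.ratLocalizedAt ℓ := by
  change ((n : ℚ)).den.Coprime ℓ
  rw [Rat.den_intCast]
  exact Nat.coprime_one_left ℓ

lemma natCast_mem_ratLocalizedAt (n : ℕ) : (n : ℚ) ∈ GaloisRep.ratLocalizedAt ℓ := by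
  exact_mod_cast intCast_mem_ratLocalizedAt ℓ (n : ℤ)

lemma inv_den_mem_ratLocalizedAt {q : ℚ} (hq : q ∈ GaloisRep.ratLocalizedAt ℓ) :
    ((q.den : ℚ))⁻¹ ∈ GaloisRep.ratLocalizedAt ℓ := by
  change ((q.den : ℚ)⁻¹).den.Coprime ℓ
  rw [Rat.inv_natCast_den_of_pos q.den_pos]
  exact hq

/-- `GaloisRep.ratLocalizedAt ℓ` is a principal ideal ring (for every `ℓ`). -/
theorem isPrincipalIdealRing_ratLocalizedAt :
    IsPrincipalIdealRing (GaloisRep.ratLocalizedAt ℓ) := by
  refine ⟨fun I => ?_⟩
  obtain ⟨n, hn⟩ := (IsPrincipalIdealRing.principal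
    (I.comap (Int.castRingHom (GaloisRep.ratLocalizedAt ℓ)))).principal
  refine ⟨⟨((n : ℤ) : GaloisRep.ratLocalizedAt ℓ), ?_⟩⟩
  have hnI : ((n : ℤ) : GaloisRep.ratLocalizedAt ℓ) ∈ I := by
    have h : n ∈ I.comap (Int.castRingHom (GaloisRep.ratLocalizedAt ℓ)) := by
      rw [hn]; exact Submodule.mem_span_singleton_self n
    exact h
  apply le_antisymm
  · rintro ⟨q, hq⟩ hx
    have h1 : ((q.num : ℤ) : GaloisRep.ratLocalizedAt ℓ) ∈ I := by
      have e : ((q.num : ℤ) : GaloisRep.ratLocalizedAt ℓ) =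
          ((q.den : ℕ) : GaloisRep.ratLocalizedAt ℓ) * ⟨q, hq⟩ := by
        apply Subtype.ext
        push_cast
        rw [mul_comm]
        exact (Rat.mul_den_eq_num q).symm
      rw [e]
      exact I.mul_mem_left _ hx
    have h2 : q.num ∈ I.comap (Int.castRingHom (GaloisRep.ratLocalizedAt ℓ)) := h1
    rw [hn, Submodule.mem_span_singleton] at h2
    obtain ⟨c, hc⟩ := h2
    rw [Submodule.mem_span_singleton]
    refine ⟨(c : GaloisRep.ratLocalizedAt ℓ) *
      ⟨(q.den : ℚ)⁻¹, inv_den_mem_ratLocalizedAt ℓ hq⟩, ?_⟩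
    apply Subtype.ext
    have hq' : q = (q.num : ℚ) / (q.den : ℚ) := (Rat.num_div_den q).symm
    have hc' : (q.num : ℚ) = (c : ℚ) * (n : ℚ) := by
      rw [← hc, smul_eq_mul]; push_cast; rfl
    have hden : (q.den : ℚ) ≠ 0 := Nat.cast_ne_zero.mpr q.den_nz
    simp only [smul_eq_mul, Subring.coe_mul, Subring.coe_intCast]
    conv_rhs => rw [hq', hc']
    field_simp
  · rw [Submodule.span_singleton_le_iff_mem]
    exact hnI

/-- `ℚ` is the fraction field of `GaloisRep.ratLocalizedAt ℓ`. -/
theorem isFractionRing_ratLocalizedAt : IsFractionRing (GaloisRep.ratLocalizedAt ℓ) ℚ := by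
  apply IsFractionRing.of_field
  intro z
  exact ⟨⟨(z.num : ℚ), intCast_mem_ratLocalizedAt ℓ _⟩, ⟨(z.den : ℚ),
    natCast_mem_ratLocalizedAt ℓ _⟩, (Rat.num_div_den z).symm⟩

/-- A rational number that is integral over `GaloisRep.ratLocalizedAt ℓ` lies in it. -/
lemma mem_ratLocalizedAt_of_isIntegral {q : ℚ}
    (hq : IsIntegral (GaloisRep.ratLocalizedAt ℓ) q) : q ∈ GaloisRep.ratLocalizedAt ℓ := by
  have := isPrincipalIdealRing_ratLocalizedAt ℓ
  have := isFractionRing_ratLocalizedAt ℓ
  obtain ⟨r, hr⟩ := IsIntegrallyClosed.isIntegral_iff.mp hq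
  rw [← hr]
  exact r.2

lemma algebraMap_ratLocalizedAt_injective :
    Function.Injective
      (algebraMap (GaloisRep.ratLocalizedAt ℓ) (AlgebraicClosure ℚ)) := by
  intro x y h
  apply Subtype.ext
  exact (algebraMap ℚ (AlgebraicClosure ℚ)).injective h

end BaseRing

/-! ## Part D: the consumer-facing statement -/

section Final

/-- **Input surface of the function-model lemma.** `H` is a subalgebra, finite as a module over
`ℤ_(ℓ) = GaloisRep.ratLocalizedAt ℓ`, of the `AlgebraicClosure ℚ`-valued functions on an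
abelian group `M` carrying a family of maps `act σ : M → M`; its elements are Galois
equivariant, separate the points of `M`, and `H` is closed under the addition law of `M`. -/
structure IsFunctionModel (ℓ : ℕ) {M : Type} [AddCommGroup M]
    (act : (AlgebraicClosure ℚ ≃ₐ[ℚ] AlgebraicClosure ℚ) → M → M)
    (H : Subalgebra (GaloisRep.ratLocalizedAt ℓ) (M → AlgebraicClosure ℚ)) : Prop where
  finite : Module.Finite (GaloisRep.ratLocalizedAt ℓ) ↥H
  eqv : ∀ φ ∈ H, ∀ (σ : AlgebraicClosure ℚ ≃ₐ[ℚ] AlgebraicClosure ℚ) (m : M),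
    φ (act σ m) = σ (φ m)
  sep : ∀ m m' : M, m ≠ m' → ∃ φ ∈ H, φ m ≠ φ m'
  comul : ∀ φ ∈ H, ∃ (n : ℕ) (a b : Fin n → M → AlgebraicClosure ℚ),
    (∀ i, a i ∈ H) ∧ (∀ i, b i ∈ H) ∧ ∀ m m' : M, φ (m + m') = ∑ i, a i m * b i m'

/-- `M` (with the maps `act σ`) has a function model over `GaloisRep.ratLocalizedAt ℓ`. -/
def HasFunctionModel (ℓ : ℕ) {M : Type} [AddCommGroup M]
    (act : (AlgebraicClosure ℚ ≃ₐ[ℚ] AlgebraicClosure ℚ) → M → M) : Prop :=
  ∃ H : Subalgebra (GaloisRep.ratLocalizedAt ℓ) (M → AlgebraicClosure ℚ),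
    IsFunctionModel ℓ act H

namespace IsFunctionModel

variable {ℓ : ℕ} {M : Type} [AddCommGroup M]
  {act : (AlgebraicClosure ℚ ≃ₐ[ℚ] AlgebraicClosure ℚ) → M → M}
  {H : Subalgebra (GaloisRep.ratLocalizedAt ℓ) (M → AlgebraicClosure ℚ)}
  (hH : IsFunctionModel ℓ act H)

include hH

/-- The maps `act σ` are automatically additive. -/
lemma act_add (σ : AlgebraicClosure ℚ ≃ₐ[ℚ] AlgebraicClosure ℚ) (m m' : M) :
    act σ (m + m') = act σ m + act σ m' := by
  by_contra hne
  obtain ⟨φ, hφ, hφne⟩ := hH.sep _ _ hne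
  obtain ⟨n, a, b, ha, hb, hab⟩ := hH.comul φ hφ
  apply hφne
  rw [hH.eqv φ hφ, hab, hab, map_sum]
  refine Finset.sum_congr rfl fun i _ => ?_
  rw [map_mul, hH.eqv _ (ha i), hH.eqv _ (hb i)]

lemma act_zero (σ : AlgebraicClosure ℚ ≃ₐ[ℚ] AlgebraicClosure ℚ) : act σ 0 = 0 := by
  have h := hH.act_add σ 0 0
  rw [add_zero] at h
  exact add_eq_left.mp h.symm

lemma act_injective (σ : AlgebraicClosure ℚ ≃ₐ[ℚ] AlgebraicClosure ℚ) :
    Function.Injective (act σ) := by
  intro m m' h
  by_contra hne
  obtain ⟨φ, hφ, hφne⟩ := hH.sep _ _ hne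
  apply hφne
  have h1 := hH.eqv φ hφ σ m
  have h2 := hH.eqv φ hφ σ m'
  rw [h] at h1
  exact σ.injective (h1.symm.trans h2)

lemma sep_subtype (m m' : M) (h : m ≠ m') :
    ∃ φ : ↥H, (φ : M → AlgebraicClosure ℚ) m ≠ (φ : M → AlgebraicClosure ℚ) m' := by
  obtain ⟨φ, hφ, hne⟩ := hH.sep m m' h
  exact ⟨⟨φ, hφ⟩, hne⟩

omit [AddCommGroup M] hH in
lemma isTorsionFree (H : Subalgebra (GaloisRep.ratLocalizedAt ℓ) (M → AlgebraicClosure ℚ)) :
    Module.IsTorsionFree (GaloisRep.ratLocalizedAt ℓ) ↥H := by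
  refine ⟨fun r hr φ ψ h => ?_⟩
  have hr0 : algebraMap (GaloisRep.ratLocalizedAt ℓ) (AlgebraicClosure ℚ) r ≠ 0 :=
    (map_ne_zero_iff _ (algebraMap_ratLocalizedAt_injective ℓ)).mpr hr.ne_zero
  apply Subtype.ext
  funext m
  have h1 : (r • (φ : M → AlgebraicClosure ℚ)) m = (r • (ψ : M → AlgebraicClosure ℚ)) m :=
    congrFun (congrArg Subtype.val h) m
  rw [Pi.smul_apply, Pi.smul_apply, Algebra.smul_def, Algebra.smul_def] at h1
  exact mul_left_cancel₀ hr0 h1

/-- A function model is free of finite rank. -/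
lemma exists_basis :
    ∃ n : ℕ, Nonempty (Module.Basis (Fin n) (GaloisRep.ratLocalizedAt ℓ) ↥H) := by
  have := isPrincipalIdealRing_ratLocalizedAt ℓ
  have := hH.finite
  have := isTorsionFree H
  exact ⟨_, ⟨(Module.basisOfFiniteTypeTorsionFree'
    (R := GaloisRep.ratLocalizedAt ℓ) (M := ↥H)).2⟩⟩

/-- The group carrying a function model is automatically finite. -/
lemma finite_carrier : Finite M := by
  obtain ⟨n, ⟨b⟩⟩ := hH.exists_basis
  have := (finite_algHom_of_basis (Ω := AlgebraicClosure ℚ) H b).1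
  exact Finite.of_injective (evPt H) (evPt_injective H hH.sep_subtype)

lemma act_surjective (σ : AlgebraicClosure ℚ ≃ₐ[ℚ] AlgebraicClosure ℚ) :
    Function.Surjective (act σ) := by
  have := hH.finite_carrier
  exact Finite.surjective_of_injective (hH.act_injective σ)

/-- The value at the origin of a function of the model lies in the base ring. -/
lemma exists_eval_zero (φ : M → AlgebraicClosure ℚ) (hφ : φ ∈ H) :
    ∃ r : GaloisRep.ratLocalizedAt ℓ,
      algebraMap (GaloisRep.ratLocalizedAt ℓ) (AlgebraicClosure ℚ) r = φ 0 := by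
  have hfix : ∀ σ : AlgebraicClosure ℚ ≃ₐ[ℚ] AlgebraicClosure ℚ, σ (φ 0) = φ 0 := fun σ => by
    rw [← hH.eqv φ hφ, hH.act_zero]
  obtain ⟨q, hq⟩ := exists_rat_of_fixed _ hfix
  have := hH.finite
  have hint : IsIntegral (GaloisRep.ratLocalizedAt ℓ) (⟨φ, hφ⟩ : ↥H) := IsIntegral.of_finite _ _
  have hint' : IsIntegral (GaloisRep.ratLocalizedAt ℓ) (φ 0) := hint.map (ev0 H)
  rw [← hq] at hint'
  have hq' : IsIntegral (GaloisRep.ratLocalizedAt ℓ) q :=
    (isIntegral_algebraMap_iff (algebraMap ℚ (AlgebraicClosure ℚ)).injective).mp hint'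
  exact ⟨⟨q, mem_ratLocalizedAt_of_isIntegral ℓ hq'⟩, hq⟩

lemma comp_nsmul_mem (k : ℕ) : ∀ φ ∈ H, (fun m : M => φ (k • m)) ∈ H := by
  induction k with
  | zero =>
    intro φ hφ
    obtain ⟨r, hr⟩ := hH.exists_eval_zero φ hφ
    have e : (fun m : M => φ (0 • m)) =
        algebraMap (GaloisRep.ratLocalizedAt ℓ) (M → AlgebraicClosure ℚ) r := by
      funext m
      rw [zero_smul, Pi.algebraMap_apply, hr]
    rw [e]
    exact H.algebraMap_mem r
  | succ k ih =>
    intro φ hφ
    obtain ⟨n, a, b, ha, hb, hab⟩ := hH.comul φ hφ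
    have e : (fun m : M => φ ((k + 1) • m)) = ∑ i, (fun m : M => a i (k • m)) * b i := by
      funext m
      rw [succ_nsmul, hab, Finset.sum_apply]
      rfl
    rw [e]
    exact H.sum_mem fun i _ => H.mul_mem (ih _ (ha i)) (hb i)

/-- A function model is automatically stable under `φ ↦ φ ∘ neg`. -/
lemma comp_neg_mem (φ : M → AlgebraicClosure ℚ) (hφ : φ ∈ H) : (fun m : M => φ (-m)) ∈ H := by
  have := hH.finite_carrier
  have h : ∀ m : M, -m = (Nat.card M - 1) • m := by
    intro m
    have hpos : 0 < Nat.card M := Nat.card_pos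
    have h1 : (Nat.card M - 1) • m + m = 0 := by
      rw [← succ_nsmul, Nat.sub_add_cancel hpos]
      exact card_nsmul_eq_zero'
    exact neg_eq_of_add_eq_zero_left h1
  have e : (fun m : M => φ (-m)) = fun m : M => φ ((Nat.card M - 1) • m) := by
    funext m
    rw [h]
  rw [e]
  exact hH.comp_nsmul_mem _ φ hφ

/-- The abstract core datum of Part A attached to a function model. -/
lemma exists_core : ∃ n : ℕ, Nonempty (FunctionModel H (Fin n)) := by
  obtain ⟨n, ⟨b⟩⟩ := hH.exists_basis
  refine ⟨n, ⟨{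
    hinj := algebraMap_ratLocalizedAt_injective ℓ
    b := b
    hb := ?_
    hcomul := ?_
    hcounit := ?_
    hneg := ?_ }⟩⟩
  · have := isFractionRing_ratLocalizedAt ℓ
    have h1 : LinearIndependent (GaloisRep.ratLocalizedAt ℓ)
        (fun i => ((b i : ↥H) : M → AlgebraicClosure ℚ)) :=
      b.linearIndependent.map' H.val.toLinearMap (LinearMap.ker_eq_bot.mpr Subtype.val_injective)
    have h2 : LinearIndependent ℚ (fun i => ((b i : ↥H) : M → AlgebraicClosure ℚ)) :=
      (LinearIndependent.iff_fractionRing (GaloisRep.ratLocalizedAt ℓ) ℚ).mp h1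
    exact linearIndependent_of_equivariant act hH.act_surjective _
      (fun i σ m => hH.eqv _ (b i).2 σ m) h2
  · intro φ
    obtain ⟨n, a, c, ha, hc, hac⟩ := hH.comul φ φ.2
    refine (AlgHom.mem_range _).mpr ⟨∑ i, (⟨a i, ha i⟩ : ↥H) ⊗ₜ[GaloisRep.ratLocalizedAt ℓ]
      (⟨c i, hc i⟩ : ↥H), ?_⟩
    funext p
    rw [map_sum, Finset.sum_apply, addPull_apply, hac]
    exact Finset.sum_congr rfl fun i _ => ev₂_tmul H _ _ p
  · intro φ
    obtain ⟨r, hr⟩ := hH.exists_eval_zero φ φ.2
    exact (AlgHom.mem_range _).mpr ⟨r, hr⟩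
  · intro φ
    exact hH.comp_neg_mem φ φ.2

/-- **The function-model lemma.** A function model on `M` gives a finite flat cocommutative
Hopf algebra over `GaloisRep.ratLocalizedAt ℓ` whose `AlgebraicClosure ℚ`-points are `M`,
Galois-equivariantly (the shape of the frozen S19 conclusion and of `GaloisRepAdic.IsFlatAt`).
-/
theorem exists_hopfAlgebra :
    ∃ (H' : Type) (_ : CommRing H') (_ : HopfAlgebra (GaloisRep.ratLocalizedAt ℓ) H'),
      Module.Finite (GaloisRep.ratLocalizedAt ℓ) H' ∧
      Module.Flat (GaloisRep.ratLocalizedAt ℓ) H' ∧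
      Coalgebra.IsCocomm (GaloisRep.ratLocalizedAt ℓ) H' ∧
      ∃ e : WithConv (H' →ₐ[GaloisRep.ratLocalizedAt ℓ] AlgebraicClosure ℚ) ≃ M,
        (∀ f g, e (f * g) = e f + e g) ∧
        ∀ (σ : AlgebraicClosure ℚ ≃ₐ[ℚ] AlgebraicClosure ℚ)
          (f g : WithConv (H' →ₐ[GaloisRep.ratLocalizedAt ℓ] AlgebraicClosure ℚ)),
          (∀ h : H', g h = σ (f h)) → e g = act σ (e f) := by
  obtain ⟨n, ⟨D⟩⟩ := hH.exists_core
  have := hH.finite_carrier
  obtain ⟨H', i1, i2, h1, h2, h3, e, he1, he2⟩ := D.exists_hopfAlgebra hH.sep_subtype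
  exact ⟨H', i1, i2, h1, h2, h3, e, he1, fun σ f g hfg =>
    he2 (⇑σ) (act σ) (fun φ m => hH.eqv _ φ.2 σ m) f g hfg⟩

end IsFunctionModel

/-- The function-model lemma, existential form. -/
theorem HasFunctionModel.exists_hopfAlgebra {ℓ : ℕ} {M : Type} [AddCommGroup M]
    {act : (AlgebraicClosure ℚ ≃ₐ[ℚ] AlgebraicClosure ℚ) → M → M}
    (h : HasFunctionModel ℓ act) :
    ∃ (H' : Type) (_ : CommRing H') (_ : HopfAlgebra (GaloisRep.ratLocalizedAt ℓ) H'),
      Module.Finite (GaloisRep.ratLocalizedAt ℓ) H' ∧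
      Module.Flat (GaloisRep.ratLocalizedAt ℓ) H' ∧
      Coalgebra.IsCocomm (GaloisRep.ratLocalizedAt ℓ) H' ∧
      ∃ e : WithConv (H' →ₐ[GaloisRep.ratLocalizedAt ℓ] AlgebraicClosure ℚ) ≃ M,
        (∀ f g, e (f * g) = e f + e g) ∧
        ∀ (σ : AlgebraicClosure ℚ ≃ₐ[ℚ] AlgebraicClosure ℚ)
          (f g : WithConv (H' →ₐ[GaloisRep.ratLocalizedAt ℓ] AlgebraicClosure ℚ)),
          (∀ h : H', g h = σ (f h)) → e g = act σ (e f) := by
  obtain ⟨H, hH⟩ := h
  exact hH.exists_hopfAlgebra

end Final

/-! ## Part E: wrappers in the frozen shapes -/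

section Wrappers

/-- The Galois action on the `n`-torsion of an abelian group with a distributive action. -/
def torsionAct (J : Type) [AddCommGroup J]
    [DistribMulAction (AlgebraicClosure ℚ ≃ₐ[ℚ] AlgebraicClosure ℚ) J] (n : ℤ)
    (σ : AlgebraicClosure ℚ ≃ₐ[ℚ] AlgebraicClosure ℚ) (x : ↥(Submodule.torsionBy ℤ J n)) :
    ↥(Submodule.torsionBy ℤ J n) :=
  ⟨σ • (x : J), by
    rw [Submodule.mem_torsionBy_iff]
    have h := (Submodule.mem_torsionBy_iff _ _).mp x.2
    rw [smul_comm, h, smul_zero]⟩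

@[simp] lemma coe_torsionAct (J : Type) [AddCommGroup J]
    [DistribMulAction (AlgebraicClosure ℚ ≃ₐ[ℚ] AlgebraicClosure ℚ) J] (n : ℤ)
    (σ : AlgebraicClosure ℚ ≃ₐ[ℚ] AlgebraicClosure ℚ) (x : ↥(Submodule.torsionBy ℤ J n)) :
    ((torsionAct J n σ x : ↥(Submodule.torsionBy ℤ J n)) : J) = σ • (x : J) := rfl

/-- **Frozen S19 shape.** A function model on the `n`-torsion of a Galois module `J` gives the
conclusion of the frozen statement S19 (take `J := ModularCurve.JZero p`, `n := (ℓ : ℤ) ^ k`).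
-/
theorem exists_finiteFlat_model_torsionBy {J : Type} [AddCommGroup J]
    [DistribMulAction (AlgebraicClosure ℚ ≃ₐ[ℚ] AlgebraicClosure ℚ) J] (ℓ : ℕ) (n : ℤ)
    (h : HasFunctionModel ℓ (torsionAct J n)) :
    ∃ (H : Type) (_ : CommRing H) (_ : HopfAlgebra (GaloisRep.ratLocalizedAt ℓ) H),
      Module.Finite (GaloisRep.ratLocalizedAt ℓ) H ∧ Module.Flat (GaloisRep.ratLocalizedAt ℓ) H ∧
      Coalgebra.IsCocomm (GaloisRep.ratLocalizedAt ℓ) H ∧
      ∃ e : WithConv (H →ₐ[GaloisRep.ratLocalizedAt ℓ] AlgebraicClosure ℚ) ≃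
          ↥(Submodule.torsionBy ℤ J n),
        (∀ f g, e (f * g) = e f + e g) ∧
        ∀ (σ : AlgebraicClosure ℚ ≃ₐ[ℚ] AlgebraicClosure ℚ)
          (f g : WithConv (H →ₐ[GaloisRep.ratLocalizedAt ℓ] AlgebraicClosure ℚ)),
          (∀ h : H, g h = σ (f h)) → ((e g : J)) = σ • (e f : J) := by
  obtain ⟨H', i1, i2, h1, h2, h3, e, he1, he2⟩ := h.exists_hopfAlgebra
  exact ⟨H', i1, i2, h1, h2, h3, e, he1, fun σ f g hfg =>
    congrArg Subtype.val (he2 σ f g hfg)⟩

/-- **`IsFlatAt` shape.** Function models on all finite levels `V ⧸ I • V` give flatness of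
an adic Galois representation at `p` in the sense of `GaloisRepAdic.IsFlatAt`. -/
theorem isFlatAt_of_hasFunctionModel {A : Type} [CommRing A] [IsLocalRing A]
    (ρ : GaloisRepAdic A) (p : ℕ) (hres : Finite (IsLocalRing.ResidueField A))
    (h : ∀ I : Ideal A, Finite (A ⧸ I) →
      HasFunctionModel p (fun σ => ⇑(ρ.levelAction I σ))) :
    ρ.IsFlatAt p :=
  ⟨hres, fun I hI => (h I hI).exists_hopfAlgebra⟩

end Wrappers

end

end Fermat.Agent.S19.helper1476
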