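/-
S19, route W, leaf W4 in PLACE LANGUAGE (helper150; backup of the chart design, different
design): the moving lemma on the gate alone.

Everything is a consequence of the lattice bundle `S37.helper5413.LatHyp` (the gate of record)
and the landed `S37.helper126_TorsionGlue` (conservation of number for `H.placeRed`, Riemann's
theorem with equality on the special fibre, lifting of Riemann-Roch spaces).  No chart, no point
ideal.  "The place `P` reduces into `S`" means `H.placeRed P ∈ S`, `S : Finset (Place k Fk)`.

Main results (`H : LatHyp O red g c E₀ E₀k`, `k` infinite, `red` onto, constants onto `k`):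

* `exists_rr_exact`      : (special fibre) for `deg T` large and finite `S` there is
                           `y ∈ L_k(T)`, `y ≠ 0`, with `ord_Q y = -T Q` for all `Q ∈ S`.
* `exists_lift_exact`    : (GEN) the same with `y = red u`, `u ∈ L(T) ∩ O`, on the generic fibre.
* `exists_moved_effective` : for `deg E` large there is a Gauss unit `f ∈ L(E)` such that the
                           effective divisor `E + div f` has no point reducing into `S`.
* `exists_denominator`, `mul_mem_rr_of_denominator`, `exists_unit_denominator` : a Gauss unit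
                           `s ∈ L(m Z - B)` clearing the poles of every `f ∈ L(B)` into `Z`, with
                           unit values of `O ∩ L` at finitely many prescribed places.
* `exists_moving`        : (W4) for a place `P` and finite `S` there is a Gauss unit `u` with
                           `ord_P u = 1` and no other zero or pole reducing into `S ∪ {red P}`.
* `exists_moving_div`    : (W4-DIV) every divisor can be moved off `S` by a principal divisor.
* `exists_moved_divisor`, `exists_moved_degZero`, `exists_moved_degZero_image` : divisor and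
                           `Pic0` forms ("every class has a representative reducing off `S`").
* `value_mem_and_inv_mem`, `prod_value_mem_and_inv_mem` : (EV3) values of a unit of `O` at
                           places over which it has neither zero nor pole are units of `O ∩ L`
                           (any `sp` with the conservation law); `value_unit_of_latHyp`,
                           `prod_value_unit_of_latHyp` : the same on the gate (`sp = H.placeRed`).
-/
import Fermat.Agent.S37.helper126_TorsionGlue

set_option autoImplicit false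

noncomputable section

open AlgebraicCurve Module

namespace Fermat.Agent.S19.helper150

open Fermat.Agent.S37 Fermat.Agent.S37.helper5413

section PlaceOrd

variable {K F : Type*} [Field K] [Field F] [Algebra K F]

/-- `ord` of a finite product of nonzero functions. -/
theorem ord_prod (v : Place K F) {ι : Type*} (s : Finset ι) (f : ι → F)
    (hf : ∀ i ∈ s, f i ≠ 0) : v.ord (∏ i ∈ s, f i) = ∑ i ∈ s, v.ord (f i) := by
  classical
  induction s using Finset.induction_on with
  | empty => simp
  | insert a s ha ih =>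
    rw [Finset.prod_insert ha, Finset.sum_insert ha,
      v.ord_mul (hf a (Finset.mem_insert_self a s))
        (Finset.prod_ne_zero_iff.mpr fun i hi => hf i (Finset.mem_insert_of_mem hi)),
      ih fun i hi => hf i (Finset.mem_insert_of_mem hi)]

end PlaceOrd

section Moving

variable {L F k Fk : Type*} [Field L] [Field F] [Algebra L F] [Field k] [Field Fk] [Algebra k Fk]
variable {O : ValuationSubring F} {red : O →+* Fk} {g c : ℤ}
  {E₀ : Divisor L F} {E₀k : Divisor k Fk}

/-- **General position on the special fibre.**  For a divisor `T` of large degree and a finite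
set `S` of places there is a nonzero `y ∈ L_k(T)` whose order at every place of `S` is exactly
`-T`. -/
theorem exists_rr_exact (H : LatHyp O red g c E₀ E₀k) [HasPrincipalDivisors L F] [Infinite k]
    (hsurj : Function.Surjective red) (T : Divisor k Fk)
    (hT : max c (LatHyp.thr g c) + 1 ≤ Divisor.degree T) (S : Finset (Place k Fk)) :
    ∃ y ∈ riemannRochSpace T, y ≠ 0 ∧ ∀ Q ∈ S, Q.ord y = -T Q := by
  classical
  have hfinT := helper126.LatHypGlue.finiteDimensional_rr H T
  have hrT := helper126.LatHypGlue.finrank_rr_eq H hsurj T (by omega)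
  have hgthr : g ≤ LatHyp.thr g c := LatHyp.g_le_thr
  let p : Option S → Submodule k (riemannRochSpace T) := fun o =>
    match o with
    | none => ⊥
    | some Q => (riemannRochSpace (T - Finsupp.single (Q : Place k Fk) 1)).comap
        (riemannRochSpace T).subtype
  have hp : ∀ o, p o ≠ ⊤ := by
    intro o
    rcases o with _ | Q
    · intro h
      have h0 : finrank k (riemannRochSpace T) = 0 := by
        rw [← finrank_top k (riemannRochSpace T), ← h]
        exact finrank_bot k (riemannRochSpace T)
      omega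
    · intro h
      have hle : riemannRochSpace T
          ≤ riemannRochSpace (T - Finsupp.single (Q : Place k Fk) 1) := by
        intro y hy
        have hmem : (⟨y, hy⟩ : riemannRochSpace T) ∈ p (some Q) := by rw [h]; trivial
        exact hmem
      have hd : Divisor.degree (T - Finsupp.single (Q : Place k Fk) 1)
          = Divisor.degree T - 1 := by
        rw [map_sub, helper126.degree_single H.degk]
      have hfin' := helper126.LatHypGlue.finiteDimensional_rr H
        (T - Finsupp.single (Q : Place k Fk) 1)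
      have hr' := helper126.LatHypGlue.finrank_rr_eq H hsurj
        (T - Finsupp.single (Q : Place k Fk) 1) (by rw [hd]; omega)
      have := Submodule.finrank_mono hle
      omega
  obtain ⟨y, hy⟩ := Submodule.exists_forall_notMem_of_forall_ne_top p hp
  have hy0 : (y : Fk) ≠ 0 := by
    intro h0
    apply hy none
    show y ∈ (⊥ : Submodule k (riemannRochSpace T))
    rw [Submodule.mem_bot]
    exact Subtype.ext h0
  have hord := (mem_rr_iff.mp y.2).resolve_left hy0
  refine ⟨y, y.2, hy0, ?_⟩
  intro Q hQ
  have h1 := hord Q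
  by_contra hne
  apply hy (some ⟨Q, hQ⟩)
  show (y : Fk) ∈ riemannRochSpace (T - Finsupp.single Q 1)
  rw [mem_rr_iff]
  right
  intro v
  rw [Finsupp.sub_apply, Finsupp.single_apply]
  split_ifs with hv
  · subst hv
    omega
  · have := hord v
    omega

/-- **(GEN) General position on the generic fibre.**  For a divisor `T` of large degree and a
finite set `S` of places of the special fibre there is a Gauss-integral `u ∈ L(T)` with nonzero
reduction whose reduction has order exactly `-(sp_* T) Q` at every `Q ∈ S`. -/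
theorem exists_lift_exact (H : LatHyp O red g c E₀ E₀k) [HasPrincipalDivisors L F] [Infinite k]
    (hsurj : Function.Surjective red)
    (hksurj : ∀ b : k, ∃ (a : L) (h : algebraMap L F a ∈ O),
      red ⟨algebraMap L F a, h⟩ = algebraMap k Fk b)
    (T : Divisor L F) (hT : max c (LatHyp.thr g c) + 1 ≤ Divisor.degree T)
    (S : Finset (Place k Fk)) :
    ∃ u : O, (u : F) ∈ riemannRochSpace T ∧ red u ≠ 0 ∧
      ∀ Q ∈ S, Q.ord (red u) = -(Finsupp.mapDomain H.placeRed T) Q := by
  obtain ⟨y, hy, hy0, hord⟩ := exists_rr_exact H hsurj (Finsupp.mapDomain H.placeRed T)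
    (by rw [helper126.LatHypGlue.degree_mapDomain_placeRed H T]; exact hT) S
  obtain ⟨u, hu, hred⟩ := helper126.LatHypGlue.exists_lift_rr H hsurj hksurj T (by omega) hy
  exact ⟨u, hu, by rw [hred]; exact hy0, fun Q hQ => by rw [hred]; exact hord Q hQ⟩

/-- **Effective moving lemma.**  For a divisor `E` of large degree and a finite set `S` of places
of the special fibre there is a Gauss unit `f ∈ L(E)` such that the effective divisor
`E + div f` has no point reducing into `S`. -/
theorem exists_moved_effective (H : LatHyp O red g c E₀ E₀k) [HasPrincipalDivisors L F]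
    [Infinite k] (hsurj : Function.Surjective red)
    (hksurj : ∀ b : k, ∃ (a : L) (h : algebraMap L F a ∈ O),
      red ⟨algebraMap L F a, h⟩ = algebraMap k Fk b)
    (E : Divisor L F) (hE : max c (LatHyp.thr g c) + 1 ≤ Divisor.degree E)
    (S : Finset (Place k Fk)) :
    ∃ f : O, red f ≠ 0 ∧ (f : F) ∈ riemannRochSpace E ∧
      (∀ P : Place L F, 0 ≤ E P + P.ord (f : F)) ∧
      ∀ P : Place L F, H.placeRed P ∈ S → E P + P.ord (f : F) = 0 := by
  obtain ⟨u, huE, hured, huS⟩ := exists_lift_exact H hsurj hksurj E hE S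
  have hu0 : (u : F) ≠ 0 := LatHyp.coe_ne_zero_of_red_ne_zero hured
  have hordE := (mem_rr_iff.mp huE).resolve_left hu0
  obtain ⟨D, hD, -⟩ := HasPrincipalDivisors.exists_divisor (K := L) (u : F) hu0
  have hnn : ∀ P : Place L F, 0 ≤ (E + D) P := by
    intro P
    rw [Finsupp.add_apply, hD P]
    have := hordE P
    omega
  refine ⟨u, hured, huE, fun P => ?_, fun P hP => ?_⟩
  · have := hnn P
    rwa [Finsupp.add_apply, hD P] at this
  · have h := helper126.le_mapDomain_apply H.placeRed (E + D) (H.placeRed P)
      (fun P' _ => hnn P') P rfl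
    have h1 : Finsupp.mapDomain H.placeRed (E + D) (H.placeRed P) = 0 := by
      rw [Finsupp.mapDomain_add, Finsupp.add_apply, H.mapDomain_placeRed_div hured hD,
        huS _ hP, add_neg_cancel]
    have h2 := hnn P
    rw [h1] at h
    rw [Finsupp.add_apply, hD P] at h h2
    omega

/-- **Denominators.**  For a divisor `Z` of positive degree, a divisor `B` (a bound for the polar
part of a function) and a finite set `S` of places of the special fibre there are `m` and a
Gauss unit `s ∈ L(m Z - B)` such that `(m Z - B) + div s` is effective without points reducing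
into `S`.  (If `f ∈ L(B)` then `s * f ∈ L(m Z)`: see `mul_mem_rr_of_denominator`.) -/
theorem exists_denominator (H : LatHyp O red g c E₀ E₀k) [HasPrincipalDivisors L F]
    [Infinite k] (hsurj : Function.Surjective red)
    (hksurj : ∀ b : k, ∃ (a : L) (h : algebraMap L F a ∈ O),
      red ⟨algebraMap L F a, h⟩ = algebraMap k Fk b)
    (Z B : Divisor L F) (hZ : 0 < Divisor.degree Z) (S : Finset (Place k Fk)) :
    ∃ (m : ℕ) (s : O), red s ≠ 0 ∧ (s : F) ∈ riemannRochSpace (m • Z - B) ∧
      (∀ P : Place L F, 0 ≤ (m • Z - B) P + P.ord (s : F)) ∧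
      ∀ P : Place L F, H.placeRed P ∈ S → (m • Z - B) P + P.ord (s : F) = 0 := by
  set m : ℕ := (max c (LatHyp.thr g c) + 1 + Divisor.degree B).toNat with hm
  have hdeg : max c (LatHyp.thr g c) + 1 ≤ Divisor.degree (m • Z - B) := by
    rw [map_sub, map_nsmul, nsmul_eq_mul]
    have h1 : max c (LatHyp.thr g c) + 1 + Divisor.degree B ≤ (m : ℤ) := by
      rw [hm]
      exact Int.self_le_toNat _
    have h2 : (m : ℤ) ≤ (m : ℤ) * Divisor.degree Z := by
      nlinarith [Int.natCast_nonneg m]
    linarith
  obtain ⟨s, hs, hmem, hnn, hS⟩ := exists_moved_effective H hsurj hksurj (m • Z - B) hdeg S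
  exact ⟨m, s, hs, hmem, hnn, hS⟩

omit [Field k] [Field Fk] [Algebra k Fk] in
/-- A denominator `s ∈ L(m Z - B)` clears the poles of every `f ∈ L(B)`. -/
theorem mul_mem_rr_of_denominator {Z B : Divisor L F} {m : ℕ} {s f : F}
    (hs : s ∈ riemannRochSpace (m • Z - B)) (hf : f ∈ riemannRochSpace B) :
    s * f ∈ riemannRochSpace (m • Z) := by
  have h := mul_mem_rr hs hf
  rwa [sub_add_cancel] at h

/-- **Unit denominators.**  Let `T` be a finite set of places of the generic fibre none of which
has the same reduction as a point of `Z` or `B`.  Then there are `m` and a Gauss unit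
`s ∈ L(m Z - B)` without zero or pole at any place with the same reduction as a point of `T`;
in particular `s` takes a unit value of `O ∩ L` at every point of `T`. -/
theorem exists_unit_denominator (H : LatHyp O red g c E₀ E₀k) [HasPrincipalDivisors L F]
    [Infinite k] (hsurj : Function.Surjective red)
    (hksurj : ∀ b : k, ∃ (a : L) (h : algebraMap L F a ∈ O),
      red ⟨algebraMap L F a, h⟩ = algebraMap k Fk b)
    (Z B : Divisor L F) (hZ : 0 < Divisor.degree Z) (T : Finset (Place L F))
    (hT : ∀ P ∈ T, ∀ P' : Place L F, H.placeRed P' = H.placeRed P → Z P' = 0 ∧ B P' = 0) :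
    ∃ (m : ℕ) (s : O), red s ≠ 0 ∧ (s : F) ∈ riemannRochSpace (m • Z - B) ∧
      (∀ P ∈ T, ∀ P' : Place L F, H.placeRed P' = H.placeRed P → P'.ord (s : F) = 0) ∧
      ∀ P ∈ T, ∃ a : L, a ≠ 0 ∧ algebraMap L F a ∈ O ∧ algebraMap L F a⁻¹ ∈ O ∧
        (s : F) - algebraMap L F a ∈ P.toValuationSubring.nonunits := by
  classical
  obtain ⟨m, s, hs, hmem, -, hS⟩ :=
    exists_denominator H hsurj hksurj Z B hZ (T.image H.placeRed)
  have hord : ∀ P ∈ T, ∀ P' : Place L F, H.placeRed P' = H.placeRed P →
      P'.ord (s : F) = 0 := by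
    intro P hP P' hP'
    have h := hS P' (by rw [hP']; exact Finset.mem_image_of_mem _ hP)
    obtain ⟨hZ0, hB0⟩ := hT P hP P' hP'
    rw [Finsupp.sub_apply, Finsupp.smul_apply, hZ0, hB0] at h
    simpa using h
  refine ⟨m, s, hs, hmem, hord, fun P hP => ?_⟩
  have hsP : (s : F) ∈ P.toValuationSubring :=
    helper126.mem_of_ord_nonneg P (by rw [hord P hP P rfl])
  obtain ⟨a, ha⟩ := helper126.residueTrivial_of_deg_eq_one H.degL P (s : F) hsP
  obtain ⟨hv, hu⟩ := H.isUnit_of_red_ne_zero hs
  have hinv : ((s : O) : F)⁻¹ ∈ O := by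
    have h1 : ((s : O) : F) * ((hv⁻¹ : Oˣ) : O) = 1 := by
      rw [← hu]
      exact_mod_cast congrArg (fun z : O => (z : F)) hv.mul_inv
    rw [← eq_inv_of_mul_eq_one_right h1]
    exact ((hv⁻¹ : Oˣ) : O).2
  have hker : helper126.RedKer O red := helper126.redKer_of_nonunit H.red_nonunit
  have hcons : helper126.Conservation O red H.placeRed := helper126.LatHypGlue.cons H
  have hs0 : (s : F) ≠ 0 := LatHyp.coe_ne_zero_of_red_ne_zero hs
  -- the value is a unit: evaluation of `s` and of `s⁻¹`
  have ha0 : a ≠ 0 := by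
    rintro rfl
    rw [map_zero, sub_zero] at ha
    have h1 := (helper126.one_le_ord_iff P hs0).mpr ha
    have h2 := hord P hP P rfl
    omega
  have h1 := (helper126.eval_rd hker hcons s.2 (H.placeRed P)
    (fun P' hP' => helper126.mem_of_ord_nonneg P' (by rw [hord P hP P' hP'])) P rfl a ha).1
  have hinvP : ∀ P', H.placeRed P' = H.placeRed P → ((s : O) : F)⁻¹ ∈ P'.toValuationSubring :=
    fun P' hP' => helper126.mem_of_ord_nonneg P' (by rw [P'.ord_inv, hord P hP P' hP', neg_zero])
  have haF : algebraMap L F a ≠ 0 := by simpa using ha0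
  have ha' : ((s : O) : F)⁻¹ - algebraMap L F a⁻¹ ∈ P.toValuationSubring.nonunits := by
    have e : ((s : O) : F)⁻¹ - algebraMap L F a⁻¹
        = -((((s : O) : F) - algebraMap L F a) * (((s : O) : F)⁻¹ * algebraMap L F a⁻¹)) := by
      rw [map_inv₀]
      field_simp
      ring
    rw [e]
    exact helper126.neg_mem_nonunits _ (helper126.mul_mem_nonunits_of_mem _ ha
      (mul_mem (hinvP P rfl) (P.algebraMap_mem' a⁻¹)))
  exact ⟨a, ha0, h1,
    (helper126.eval_rd hker hcons hinv (H.placeRed P) hinvP P rfl a⁻¹ ha').1, ha⟩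

/-- **(W4) The moving lemma in place language.**  For a place `P` of the generic fibre and a
finite set `S` of places of the special fibre there is a Gauss unit `u` (`u ∈ O`, `red u ≠ 0`)
with a simple zero at `P` and no other zero or pole reducing into `S ∪ {red P}`. -/
theorem exists_moving (H : LatHyp O red g c E₀ E₀k) [HasPrincipalDivisors L F]
    [HasPrincipalDivisors k Fk] [Infinite k]
    (hsurj : Function.Surjective red)
    (hksurj : ∀ b : k, ∃ (a : L) (h : algebraMap L F a ∈ O),
      red ⟨algebraMap L F a, h⟩ = algebraMap k Fk b)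
    (P : Place L F) (S : Finset (Place k Fk)) :
    ∃ u : O, red u ≠ 0 ∧ P.ord (u : F) = 1 ∧
      ∀ P' : Place L F, P' ≠ P → P'.ord (u : F) ≠ 0 →
        H.placeRed P' ∉ S ∧ H.placeRed P' ≠ H.placeRed P := by
  classical
  set Q₀ := H.placeRed P with hQ₀
  have hinf := helper126.LatHypGlue.infinite_places H
  obtain ⟨Q₁, -, hQ₁⟩ := (hinf.sdiff (Finset.finite_toSet (insert Q₀ S))).nonempty
  have hQ₁S : Q₁ ∉ S := fun h => hQ₁ (by simp [h])
  have hQ₁Q₀ : Q₁ ≠ Q₀ := fun h => hQ₁ (by simp [h])
  obtain ⟨P₁, hP₁⟩ := helper126.LatHypGlue.placeRed_surjective H hsurj Q₁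
  set m : ℤ := max c (LatHyp.thr g c) + 2 with hm
  set T : Divisor L F := Finsupp.single P₁ m - Finsupp.single P 1 with hT
  have hdeg : Divisor.degree T = m - 1 := by
    rw [hT, map_sub, helper126.degree_single H.degL, helper126.degree_single H.degL]
  have hmap : Finsupp.mapDomain H.placeRed T
      = Finsupp.single Q₁ m - Finsupp.single Q₀ 1 := by
    rw [hT, Finsupp.mapDomain_sub, Finsupp.mapDomain_single, Finsupp.mapDomain_single, hP₁]
  obtain ⟨u, huT, hured, huS⟩ := exists_lift_exact H hsurj hksurj T (by rw [hdeg]; omega)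
    (insert Q₀ S)
  have hu0 : (u : F) ≠ 0 := LatHyp.coe_ne_zero_of_red_ne_zero hured
  have hordT := (mem_rr_iff.mp huT).resolve_left hu0
  obtain ⟨D, hD, -⟩ := HasPrincipalDivisors.exists_divisor (K := L) (u : F) hu0
  have hcons : ∀ Q, Finsupp.mapDomain H.placeRed D Q = Q.ord (red u) :=
    fun Q => H.mapDomain_placeRed_div hured hD Q
  -- orders of the reduction on `S ∪ {Q₀}`
  have hQ₀ord : Q₀.ord (red u) = 1 := by
    rw [huS Q₀ (Finset.mem_insert_self _ _), hmap, Finsupp.sub_apply, Finsupp.single_apply,
      if_neg hQ₁Q₀, Finsupp.single_apply, if_pos rfl]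
    norm_num
  have hSord : ∀ Q ∈ S, Q ≠ Q₀ → Q.ord (red u) = 0 := by
    intro Q hQ hne
    have hQQ₁ : Q₁ ≠ Q := by
      rintro rfl
      exact hQ₁S hQ
    rw [huS Q (Finset.mem_insert_of_mem hQ), hmap, Finsupp.sub_apply, Finsupp.single_apply,
      if_neg hQQ₁, Finsupp.single_apply, if_neg (Ne.symm hne)]
    norm_num
  -- `u` is regular away from `P₁` and vanishes at `P`
  have hreg : ∀ P' : Place L F, P' ≠ P₁ → 0 ≤ D P' := by
    intro P' hne
    have h := hordT P'
    rw [hT, Finsupp.sub_apply, Finsupp.single_apply, if_neg (Ne.symm hne),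
      Finsupp.single_apply] at h
    rw [hD P']
    split_ifs at h <;> omega
  have hP₁P : P₁ ≠ P := by
    rintro rfl
    exact hQ₁Q₀ hP₁.symm
  have hPone : 1 ≤ D P := by
    have h := hordT P
    rw [hT, Finsupp.sub_apply, Finsupp.single_apply, if_neg hP₁P, Finsupp.single_apply,
      if_pos rfl] at h
    rw [hD P]
    omega
  have hne₁ : ∀ P' : Place L F, H.placeRed P' ≠ Q₁ → P' ≠ P₁ := by
    rintro P' h rfl
    exact h hP₁
  -- conservation at `Q₀`
  have hnn₀ : ∀ P' : Place L F, H.placeRed P' = Q₀ → 0 ≤ D P' :=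
    fun P' hP' => hreg P' (hne₁ P' (by rw [hP']; exact Ne.symm hQ₁Q₀))
  have hDP : D P = 1 := by
    have h := helper126.le_mapDomain_apply H.placeRed D Q₀ hnn₀ P rfl
    rw [hcons Q₀, hQ₀ord] at h
    omega
  have hzero₀ : ∀ P' : Place L F, P' ≠ P → H.placeRed P' = Q₀ → D P' = 0 := by
    intro P' hne hP'
    have h := helper126.add_le_mapDomain_apply H.placeRed D Q₀ hnn₀ P P' rfl hP' (Ne.symm hne)
    rw [hcons Q₀, hQ₀ord] at h
    have := hnn₀ P' hP'
    omega
  -- conservation at the points of `S`
  have hzeroS : ∀ P' : Place L F, H.placeRed P' ∈ S → H.placeRed P' ≠ Q₀ → D P' = 0 := by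
    intro P' hS hne
    have hQ₁' : H.placeRed P' ≠ Q₁ := by
      intro h
      exact hQ₁S (h ▸ hS)
    have hnn : ∀ P'' : Place L F, H.placeRed P'' = H.placeRed P' → 0 ≤ D P'' :=
      fun P'' hP'' => hreg P'' (hne₁ P'' (by rw [hP'']; exact hQ₁'))
    have h := helper126.le_mapDomain_apply H.placeRed D (H.placeRed P') hnn P' rfl
    rw [hcons (H.placeRed P'), hSord _ hS hne] at h
    have := hnn P' rfl
    omega
  refine ⟨u, hured, by rw [← hD P]; exact hDP, ?_⟩
  intro P' hne hord
  rw [← hD P'] at hord
  refine ⟨fun hS => ?_, fun hP' => hord (hzero₀ P' hne hP')⟩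
  by_cases hP' : H.placeRed P' = Q₀
  · exact hord (hzero₀ P' hne hP')
  · exact hord (hzeroS P' hS hP')

/-- **(W4-DIV)** Every divisor of the generic fibre can be moved by a principal divisor off the
places reducing into a given finite set `S` of the special fibre. -/
theorem exists_moving_div (H : LatHyp O red g c E₀ E₀k) [HasPrincipalDivisors L F]
    [HasPrincipalDivisors k Fk] [Infinite k]
    (hsurj : Function.Surjective red)
    (hksurj : ∀ b : k, ∃ (a : L) (h : algebraMap L F a ∈ O),
      red ⟨algebraMap L F a, h⟩ = algebraMap k Fk b)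
    (D : Divisor L F) (S : Finset (Place k Fk)) :
    ∃ u : F, u ≠ 0 ∧ ∀ P : Place L F, D P - P.ord u ≠ 0 → H.placeRed P ∉ S := by
  classical
  choose gP hred hone hoff using fun P => exists_moving H hsurj hksurj P S
  set B : Finset (Place L F) := D.support.filter (fun P => H.placeRed P ∈ S) with hB
  have hne : ∀ P ∈ B, ((gP P : O) : F) ^ (D P) ≠ 0 := fun P _ =>
    zpow_ne_zero _ (LatHyp.coe_ne_zero_of_red_ne_zero (hred P))
  refine ⟨∏ P ∈ B, ((gP P : O) : F) ^ (D P), Finset.prod_ne_zero_iff.mpr hne, ?_⟩
  intro P' hP' hS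
  apply hP'
  rw [ord_prod P' B _ hne]
  have hsum : ∑ P ∈ B, P'.ord (((gP P : O) : F) ^ (D P)) = D P' := by
    rw [Finset.sum_eq_single P']
    · rw [Place.ord_zpow, hone P', mul_one]
    · intro P _ hPP'
      rw [Place.ord_zpow]
      by_contra h
      have h' : P'.ord ((gP P : O) : F) ≠ 0 := fun h0 => h (by rw [h0, mul_zero])
      exact (hoff P P' (Ne.symm hPP') h').1 hS
    · intro hnot
      have hD0 : D P' = 0 := by
        by_contra h
        exact hnot (by rw [hB, Finset.mem_filter]; exact ⟨Finsupp.mem_support_iff.mpr h, hS⟩)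
      rw [hD0, zpow_zero, Place.ord_one]
  rw [hsum, sub_self]

/-- Divisor form of (W4-DIV): `D` is linearly equivalent to a divisor whose support reduces off
`S`. -/
theorem exists_moved_divisor (H : LatHyp O red g c E₀ E₀k) [HasPrincipalDivisors L F]
    [HasPrincipalDivisors k Fk] [Infinite k]
    (hsurj : Function.Surjective red)
    (hksurj : ∀ b : k, ∃ (a : L) (h : algebraMap L F a ∈ O),
      red ⟨algebraMap L F a, h⟩ = algebraMap k Fk b)
    (D : Divisor L F) (S : Finset (Place k Fk)) :
    ∃ (D' : Divisor L F) (u : F), u ≠ 0 ∧ (∀ P : Place L F, D P - D' P = P.ord u) ∧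
      Divisor.degree D' = Divisor.degree D ∧ ∀ P ∈ D'.support, H.placeRed P ∉ S := by
  obtain ⟨u, hu0, hu⟩ := exists_moving_div H hsurj hksurj D S
  obtain ⟨Du, hDu, hdeg⟩ := HasPrincipalDivisors.exists_divisor (K := L) u hu0
  refine ⟨D - Du, u, hu0, fun P => ?_, ?_, fun P hP => ?_⟩
  · rw [Finsupp.sub_apply, hDu P]
    ring
  · rw [map_sub, hdeg, sub_zero]
  · apply hu P
    have := Finsupp.mem_support_iff.mp hP
    rwa [Finsupp.sub_apply, hDu P] at this

/-- `Pic0` form of (W4-DIV): every degree-zero class has a representative whose support reduces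
off `S`. -/
theorem exists_moved_degZero (H : LatHyp O red g c E₀ E₀k) [HasPrincipalDivisors L F]
    [HasPrincipalDivisors k Fk] [Infinite k]
    (hsurj : Function.Surjective red)
    (hksurj : ∀ b : k, ∃ (a : L) (h : algebraMap L F a ∈ O),
      red ⟨algebraMap L F a, h⟩ = algebraMap k Fk b)
    (D : Divisor.degZero (K := L) (F := F)) (S : Finset (Place k Fk)) :
    ∃ D' : Divisor.degZero (K := L) (F := F), Pic0.mk D' = Pic0.mk D ∧
      ∀ P ∈ (D' : Divisor L F).support, H.placeRed P ∉ S := by
  obtain ⟨D', u, hu0, hu, hdeg, hS⟩ := exists_moved_divisor H hsurj hksurj (D : Divisor L F) S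
  have hD' : D' ∈ Divisor.degZero (K := L) (F := F) := by
    rw [Divisor.mem_degZero, hdeg]
    exact Divisor.mem_degZero.mp D.2
  refine ⟨⟨D', hD'⟩, ?_, hS⟩
  refine (QuotientAddGroup.eq).mpr ?_
  rw [AddSubgroup.mem_addSubgroupOf, Divisor.mem_principal]
  refine ⟨u, hu0, fun P => ?_⟩
  have h := hu P
  simp only [AddSubgroup.coe_add, NegMemClass.coe_neg, Finsupp.add_apply, Finsupp.neg_apply]
  omega

/-- `Pic0` form of (W4-DIV) for a finite set of places of the GENERIC fibre: every degree-zero
class has a representative none of whose points has the same reduction as a point of `T`. -/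
theorem exists_moved_degZero_image (H : LatHyp O red g c E₀ E₀k) [HasPrincipalDivisors L F]
    [HasPrincipalDivisors k Fk] [Infinite k]
    (hsurj : Function.Surjective red)
    (hksurj : ∀ b : k, ∃ (a : L) (h : algebraMap L F a ∈ O),
      red ⟨algebraMap L F a, h⟩ = algebraMap k Fk b)
    (D : Divisor.degZero (K := L) (F := F)) (T : Finset (Place L F)) :
    ∃ D' : Divisor.degZero (K := L) (F := F), Pic0.mk D' = Pic0.mk D ∧
      ∀ P ∈ (D' : Divisor L F).support, ∀ Q ∈ T, H.placeRed P ≠ H.placeRed Q := by
  classical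
  obtain ⟨D', hD', hS⟩ := exists_moved_degZero H hsurj hksurj D (T.image H.placeRed)
  exact ⟨D', hD', fun P hP Q hQ h => hS P hP (h ▸ Finset.mem_image_of_mem _ hQ)⟩

end Moving

section Values

variable {L F k Fk : Type*} [Field L] [Field F] [Algebra L F] [Field k] [Field Fk] [Algebra k Fk]
variable {O : ValuationSubring F} {red : O →+* Fk}

/-- Integer powers of a unit of a valuation ring stay in the ring. -/
theorem zpow_mem_of_mem_of_inv_mem (A : ValuationSubring F) {x : F} (hx : x ∈ A)
    (hx' : x⁻¹ ∈ A) (n : ℤ) : x ^ n ∈ A := by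
  obtain ⟨m, rfl | rfl⟩ := Int.eq_nat_or_neg n
  · rw [zpow_natCast]
    exact pow_mem hx m
  · rw [zpow_neg, zpow_natCast, ← inv_pow]
    exact pow_mem hx' m

/-- **(EV3) Unit values, conservation form.**  Let `w` be a unit of `O` without zero or pole at
the places with the same reduction as `P₀`.  Then its value `a` at `P₀` is a unit of `O ∩ L`. -/
theorem value_mem_and_inv_mem {sp : Place L F → Place k Fk} [HasPrincipalDivisors L F]
    (hker : helper126.RedKer O red) (hcons : helper126.Conservation O red sp)
    {w : F} (hw : w ∈ O) (hw' : w⁻¹ ∈ O) (hw0 : w ≠ 0) (P₀ : Place L F)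
    (hreg : ∀ P, sp P = sp P₀ → P.ord w = 0) (a : L)
    (ha : w - algebraMap L F a ∈ P₀.toValuationSubring.nonunits) :
    a ≠ 0 ∧ algebraMap L F a ∈ O ∧ algebraMap L F a⁻¹ ∈ O := by
  have ha0 : a ≠ 0 := by
    rintro rfl
    rw [map_zero, sub_zero] at ha
    have h1 := (helper126.one_le_ord_iff P₀ hw0).mpr ha
    have h2 := hreg P₀ rfl
    omega
  have h1 := (helper126.eval_rd hker hcons hw (sp P₀)
    (fun P hP => helper126.mem_of_ord_nonneg P (by rw [hreg P hP])) P₀ rfl a ha).1
  have hinvP : ∀ P, sp P = sp P₀ → w⁻¹ ∈ P.toValuationSubring := fun P hP =>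
    helper126.mem_of_ord_nonneg P (by rw [P.ord_inv, hreg P hP, neg_zero])
  have haF : algebraMap L F a ≠ 0 := by simpa using ha0
  have ha' : w⁻¹ - algebraMap L F a⁻¹ ∈ P₀.toValuationSubring.nonunits := by
    have e : w⁻¹ - algebraMap L F a⁻¹
        = -((w - algebraMap L F a) * (w⁻¹ * algebraMap L F a⁻¹)) := by
      rw [map_inv₀]
      field_simp
      ring
    rw [e]
    exact helper126.neg_mem_nonunits _ (helper126.mul_mem_nonunits_of_mem _ ha
      (mul_mem (hinvP P₀ rfl) (P₀.algebraMap_mem' a⁻¹)))
  exact ⟨ha0, h1, (helper126.eval_rd hker hcons hw' (sp P₀) hinvP P₀ rfl a⁻¹ ha').1⟩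

/-- **(EV3) Unit values of a divisor, conservation form.**  If the unit `w` of `O` has neither
zero nor pole at any place with the same reduction as a point of `D`, then
`w(D) = ∏_P w(P)^(D P)` is a unit of `O ∩ L`. -/
theorem prod_value_mem_and_inv_mem {sp : Place L F → Place k Fk} [HasPrincipalDivisors L F]
    (hker : helper126.RedKer O red) (hcons : helper126.Conservation O red sp)
    {w : F} (hw : w ∈ O) (hw' : w⁻¹ ∈ O) (hw0 : w ≠ 0) (D : Divisor L F)
    (val : Place L F → L)
    (hval : ∀ P ∈ D.support, w - algebraMap L F (val P) ∈ P.toValuationSubring.nonunits)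
    (hoff : ∀ P ∈ D.support, ∀ P', sp P' = sp P → P'.ord w = 0) :
    algebraMap L F (D.prod fun P m => val P ^ m) ∈ O ∧
      algebraMap L F (D.prod fun P m => val P ^ m)⁻¹ ∈ O := by
  have key : ∀ P ∈ D.support, val P ≠ 0 ∧ algebraMap L F (val P) ∈ O ∧
      algebraMap L F (val P)⁻¹ ∈ O := fun P hP =>
    value_mem_and_inv_mem hker hcons hw hw' hw0 P (hoff P hP) (val P) (hval P hP)
  constructor
  · rw [Finsupp.prod, map_prod]
    refine prod_mem fun P hP => ?_
    rw [map_zpow₀]
    refine zpow_mem_of_mem_of_inv_mem O (key P hP).2.1 ?_ _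
    rw [← map_inv₀]
    exact (key P hP).2.2
  · rw [Finsupp.prod, ← Finset.prod_inv_distrib, map_prod]
    refine prod_mem fun P hP => ?_
    rw [← zpow_neg, map_zpow₀]
    refine zpow_mem_of_mem_of_inv_mem O (key P hP).2.1 ?_ _
    rw [← map_inv₀]
    exact (key P hP).2.2

variable {g c : ℤ} {E₀ : Divisor L F} {E₀k : Divisor k Fk}

/-- **(EV3) on the gate.**  A Gauss unit `u` (`red u ≠ 0`) without zero or pole at the places
with the same reduction as `P₀` takes a unit value of `O ∩ L` at `P₀`. -/
theorem value_unit_of_latHyp (H : LatHyp O red g c E₀ E₀k) [HasPrincipalDivisors L F]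
    (u : O) (hu : red u ≠ 0) (P₀ : Place L F)
    (hreg : ∀ P, H.placeRed P = H.placeRed P₀ → P.ord (u : F) = 0) (a : L)
    (ha : (u : F) - algebraMap L F a ∈ P₀.toValuationSubring.nonunits) :
    a ≠ 0 ∧ algebraMap L F a ∈ O ∧ algebraMap L F a⁻¹ ∈ O := by
  obtain ⟨v, hv⟩ := H.isUnit_of_red_ne_zero hu
  have hinv : ((u : O) : F)⁻¹ ∈ O := by
    have h1 : ((u : O) : F) * ((v⁻¹ : Oˣ) : O) = 1 := by
      rw [← hv]
      exact_mod_cast congrArg (fun z : O => (z : F)) v.mul_inv
    rw [← eq_inv_of_mul_eq_one_right h1]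
    exact ((v⁻¹ : Oˣ) : O).2
  exact value_mem_and_inv_mem (helper126.redKer_of_nonunit H.red_nonunit)
    (helper126.LatHypGlue.cons H) u.2 hinv (LatHyp.coe_ne_zero_of_red_ne_zero hu) P₀ hreg a ha

/-- **(EV3) for divisors on the gate.**  If no zero or pole of the Gauss unit `u` has the same
reduction as a point of `D`, then `u(D) = ∏_P u(P)^(D P)` is a unit of `O ∩ L`. -/
theorem prod_value_unit_of_latHyp (H : LatHyp O red g c E₀ E₀k) [HasPrincipalDivisors L F]
    (u : O) (hu : red u ≠ 0) (D : Divisor L F) (val : Place L F → L)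
    (hval : ∀ P ∈ D.support, (u : F) - algebraMap L F (val P) ∈ P.toValuationSubring.nonunits)
    (hoff : ∀ P ∈ D.support, ∀ P', H.placeRed P' = H.placeRed P → P'.ord (u : F) = 0) :
    algebraMap L F (D.prod fun P m => val P ^ m) ∈ O ∧
      algebraMap L F (D.prod fun P m => val P ^ m)⁻¹ ∈ O := by
  obtain ⟨v, hv⟩ := H.isUnit_of_red_ne_zero hu
  have hinv : ((u : O) : F)⁻¹ ∈ O := by
    have h1 : ((u : O) : F) * ((v⁻¹ : Oˣ) : O) = 1 := by
      rw [← hv]
      exact_mod_cast congrArg (fun z : O => (z : F)) v.mul_inv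
    rw [← eq_inv_of_mul_eq_one_right h1]
    exact ((v⁻¹ : Oˣ) : O).2
  exact prod_value_mem_and_inv_mem (helper126.redKer_of_nonunit H.red_nonunit)
    (helper126.LatHypGlue.cons H) u.2 hinv (LatHyp.coe_ne_zero_of_red_ne_zero hu) D val hval hoff

end Values

end Fermat.Agent.S19.helper150

end
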