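/-
S19 spine, seat helper1908: the CENTRES ADAPTER (first arrow of `Stmt_Spine`).

* `centres_classwise_aux` / `centres_classwise` : from coordinates `b` on a subgroup `J1`
  ("kernel of reduction") of an ambient group `J ⊇ M`, inertia-fixed centres in every class
  and the addition law of `b` on finite subsets of `J1` modulo every `ℓ ^ j`, one gets
  class-wise coordinates `Ξ i m = b (m - y (cls m)) i` on the finite group `M` with a class-wise
  law modulo every `ℓ ^ j` (the law is applied twice; the correction term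
  `w = y c + y c' - y (c + c')` lies in `J1`).  The output is verbatim the hypothesis list of
  `helper1243.exists_order_of_approxLaw_int`.
* `centres_of_isCoordSystem` : the same for the captain's `helper2111.IsCoordSystem` and the
  torsion `Tors N ℓ k`.
-/
import Mathlib
import Fermat.Agent.S19.helper2111_SpecCore

set_option autoImplicit false

namespace Fermat.Agent.S19.helper1908

section Centres

local notation "Qb" => AlgebraicClosure ℚ
local notation "G" => AlgebraicClosure ℚ ≃ₐ[ℚ] AlgebraicClosure ℚ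

variable (ℓ : ℕ) {A : ValuationSubring Qb} {I : Subgroup G}

theorem aeval_mem_valuationSubring {R : Subring Qb} (hR : ∀ x ∈ R, x ∈ A) {σ : Type*}
    (P : MvPolynomial σ R) (u : σ → Qb) (hu : ∀ v, u v ∈ A) : MvPolynomial.aeval u P ∈ A := by
  induction P using MvPolynomial.induction_on with
  | C r =>
    simp only [MvPolynomial.aeval_C]
    exact hR _ r.2
  | add p q hp hq =>
    simp only [map_add]
    exact add_mem hp hq
  | mul_X p v hp =>
    simp only [map_mul, MvPolynomial.aeval_X]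
    exact mul_mem hp (hu v)

/-- Polynomials with integral coefficients respect congruences modulo `ℓ ^ j • A`. -/
theorem aeval_sub_aeval_mem {R : Subring Qb} (hR : ∀ x ∈ R, x ∈ A) {σ : Type*} (j : ℕ)
    (P : MvPolynomial σ R) (u u' : σ → Qb) (hu : ∀ v, u v ∈ A) (hu' : ∀ v, u' v ∈ A)
    (h : ∀ v, ∃ ε ∈ A, u v - u' v = (ℓ : Qb) ^ j * ε) :
    ∃ ε ∈ A, MvPolynomial.aeval u P - MvPolynomial.aeval u' P = (ℓ : Qb) ^ j * ε := by
  induction P using MvPolynomial.induction_on with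
  | C r => exact ⟨0, zero_mem A, by simp⟩
  | add p q hp hq =>
    obtain ⟨e1, h1, he1⟩ := hp
    obtain ⟨e2, h2, he2⟩ := hq
    exact ⟨e1 + e2, add_mem h1 h2, by rw [map_add, map_add, mul_add, ← he1, ← he2]; ring⟩
  | mul_X p v hp =>
    obtain ⟨e1, h1, he1⟩ := hp
    obtain ⟨e2, h2, he2⟩ := h v
    refine ⟨e1 * u v + MvPolynomial.aeval u' p * e2,
      add_mem (mul_mem h1 (hu v)) (mul_mem (aeval_mem_valuationSubring hR p u' hu') h2), ?_⟩
    rw [map_mul, map_mul, MvPolynomial.aeval_X, MvPolynomial.aeval_X, mul_add, ← mul_assoc,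
      ← he1, mul_left_comm, ← he2]
    ring

/-- (3) CENTRES, core form.  `R` is any subring of `A` containing the coordinates of the
`I`-fixed points of `J1` (`R = A ^ I` or `R = A`).  From coordinates `b` on the kernel of
reduction `J1` of an ambient group `J ⊇ M`, `I`-fixed centres and the law of `b` on finite
subsets of `J1` modulo every `ℓ ^ j`, one gets class-wise coordinates `Ξ` on the finite group
`M` with a class-wise law, with polynomials over the same ring `R`. -/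
theorem centres_classwise_aux (R : Subring Qb) (hR : ∀ x ∈ R, x ∈ A)
    {J : Type*} [AddCommGroup J] [MulAction G J]
    (hsmulJ : ∀ s ∈ I, ∀ x y : J, s • (x + y) = s • x + s • y)
    {M : Type*} [AddCommGroup M] [Finite M] (act : G → M → M)
    (ι : M →+ J) (hι : Function.Injective ι) (hιact : ∀ s ∈ I, ∀ m, ι (act s m) = s • ι m)
    (J1 : AddSubgroup J) (hJ1 : ∀ s ∈ I, ∀ x ∈ J1, s • x ∈ J1)
    {g : ℕ} (b : J → Fin g → Qb)
    (hbA : ∀ x ∈ J1, ∀ i, b x i ∈ A)
    (hbI : ∀ s ∈ I, ∀ x ∈ J1, ∀ i, b (s • x) i = s (b x i))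
    (hbinj : ∀ x ∈ J1, ∀ y ∈ J1, b x = b y → x = y)
    (hRw : ∀ x ∈ J1, (∀ s ∈ I, s • x = x) → ∀ i, b x i ∈ R)
    (hcen : ∀ m : M, ∃ z : J, (∀ s ∈ I, s • z = z) ∧ ι m - z ∈ J1)
    (hlaw : ∀ (j : ℕ) (T : Finset J), (∀ x ∈ T, x ∈ J1) →
      ∃ P : Fin g → MvPolynomial (Fin g ⊕ Fin g) R, ∀ x ∈ T, ∀ y ∈ T, ∀ i,
        ∃ ε ∈ A, b (x + y) i - MvPolynomial.aeval (Sum.elim (b x) (b y)) (P i) =
          (ℓ : Qb) ^ j * ε) :
    ∃ (cls : M →+ M ⧸ J1.comap ι) (Ξ : Fin g → M → Qb),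
      (∀ s ∈ I, ∀ m, cls (act s m) = cls m) ∧
      (∀ i m, Ξ i m ∈ A) ∧
      (∀ s ∈ I, ∀ i m, Ξ i (act s m) = s (Ξ i m)) ∧
      (∀ m m', cls m = cls m' → (∀ i, Ξ i m = Ξ i m') → m = m') ∧
      (∀ s ∈ I, ∀ m m', act s (m + m') = act s m + act s m') ∧
      (∀ (j : ℕ) (c c' : M ⧸ J1.comap ι) (i : Fin g),
        ∃ Q : MvPolynomial (Fin g ⊕ Fin g) R, ∀ m m', cls m = c → cls m' = c' →
          ∃ ε ∈ A, Ξ i (m + m') -
            MvPolynomial.aeval (Sum.elim (fun a => Ξ a m) (fun a => Ξ a m')) Q =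
              (ℓ : Qb) ^ j * ε) := by
  classical
  cases nonempty_fintype M
  -- consequences of additivity of the action of `I` on `J`
  have hs0 : ∀ s ∈ I, s • (0 : J) = 0 := fun s hs => by
    have h := hsmulJ s hs 0 0
    rw [add_zero] at h
    exact left_eq_add.mp h
  have hsneg : ∀ s ∈ I, ∀ x : J, s • (-x) = -(s • x) := fun s hs x => by
    have h := hsmulJ s hs x (-x)
    rw [add_neg_cancel, hs0 s hs] at h
    exact (neg_eq_of_add_eq_zero_right h.symm).symm
  have hssub : ∀ s ∈ I, ∀ x y : J, s • (x - y) = s • x - s • y := fun s hs x y => by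
    rw [sub_eq_add_neg, hsmulJ s hs, hsneg s hs, ← sub_eq_add_neg]
  -- the classes of `M` modulo `J1`
  obtain ⟨cls, hclsdef⟩ : ∃ cls : M →+ M ⧸ J1.comap ι,
      cls = QuotientAddGroup.mk' (J1.comap ι) := ⟨_, rfl⟩
  have hclsN : ∀ m m' : M, cls m = cls m' ↔ ι m - ι m' ∈ J1 := by
    intro m m'
    rw [hclsdef, QuotientAddGroup.mk'_apply, QuotientAddGroup.mk'_apply, QuotientAddGroup.eq,
      AddSubgroup.mem_comap, map_add, map_neg, ← neg_mem_iff (H := J1)]
    rw [show -(-ι m + ι m') = ι m - ι m' by abel]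
  have hclssurj : Function.Surjective cls := by
    rw [hclsdef]; exact QuotientAddGroup.mk'_surjective _
  -- centres
  choose z hzI hz using hcen
  obtain ⟨y, hydef⟩ : ∃ y : M ⧸ J1.comap ι → J, y = fun c => z (Quotient.out c) := ⟨_, rfl⟩
  have hyI : ∀ s ∈ I, ∀ c, s • y c = y c := fun s hs c => by rw [hydef]; exact hzI _ s hs
  have hy : ∀ m, ι m - y (cls m) ∈ J1 := by
    intro m
    have h1 : cls m = cls (Quotient.out (cls m)) := by
      conv_lhs => rw [← QuotientAddGroup.out_eq' (cls m)]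
      rw [hclsdef]; rfl
    have h2 := (hclsN _ _).mp h1
    have h3 := hz (Quotient.out (cls m))
    have h4 : ι m - y (cls m) = (ι m - ι (Quotient.out (cls m))) +
        (ι (Quotient.out (cls m)) - z (Quotient.out (cls m))) := by
      rw [hydef]; abel
    rw [h4]
    exact J1.add_mem h2 h3
  obtain ⟨Xi, hXidef⟩ : ∃ Xi : Fin g → M → Qb, Xi = fun i m => b (ι m - y (cls m)) i := ⟨_, rfl⟩
  have hM : ∀ s ∈ I, ∀ m m' : M, act s (m + m') = act s m + act s m' := fun s hs m m' =>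
    hι (by rw [hιact s hs, map_add, map_add, hsmulJ s hs, hιact s hs, hιact s hs])
  have hcls : ∀ s ∈ I, ∀ m, cls (act s m) = cls m := by
    intro s hs m
    rw [hclsN, hιact s hs]
    have h : s • ι m - ι m = s • (ι m - y (cls m)) - (ι m - y (cls m)) := by
      rw [hssub s hs, hyI s hs]; abel
    rw [h]
    exact J1.sub_mem (hJ1 s hs _ (hy m)) (hy m)
  have hXiA : ∀ i m, Xi i m ∈ A := fun i m => by rw [hXidef]; exact hbA _ (hy m) i
  have hXiI : ∀ s ∈ I, ∀ i m, Xi i (act s m) = s (Xi i m) := by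
    intro s hs i m
    rw [hXidef]
    show b (ι (act s m) - y (cls (act s m))) i = s (b (ι m - y (cls m)) i)
    rw [hcls s hs, hιact s hs, ← hbI s hs _ (hy m), hssub s hs, hyI s hs]
  have hXisep : ∀ m m', cls m = cls m' → (∀ i, Xi i m = Xi i m') → m = m' := by
    intro m m' hc h
    have h1 : b (ι m - y (cls m)) = b (ι m' - y (cls m')) := by
      funext i
      have := h i
      rw [hXidef] at this
      exact this
    have h2 := hbinj _ (hy m) _ (hy m') h1
    rw [hc] at h2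
    exact hι (sub_left_injective h2)
  refine ⟨cls, Xi, hcls, hXiA, hXiI, hXisep, hM, ?_⟩
  intro j c c' i
  -- the correction term `w`
  obtain ⟨w, hwdef⟩ : ∃ w : J, w = y c + y c' - y (c + c') := ⟨_, rfl⟩
  have hw : w ∈ J1 := by
    obtain ⟨m0, rfl⟩ := hclssurj c
    obtain ⟨m0', rfl⟩ := hclssurj c'
    have h1 := hy m0
    have h2 := hy m0'
    have h3 := hy (m0 + m0')
    have h : w = (ι (m0 + m0') - y (cls (m0 + m0'))) - (ι m0 - y (cls m0)) -
        (ι m0' - y (cls m0')) := by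
      rw [hwdef, map_add, map_add]; abel
    rw [h]
    exact J1.sub_mem (J1.sub_mem h3 h1) h2
  have hwI : ∀ s ∈ I, s • w = w := by
    intro s hs
    rw [hwdef, hssub s hs, hsmulJ s hs, hyI s hs, hyI s hs, hyI s hs]
  have hbw : ∀ a, b w a ∈ R := hRw w hw hwI
  -- the finite set of points of `J1` involved
  obtain ⟨T, hTdef⟩ : ∃ T : Finset J, T = (Finset.univ.image fun m : M => ι m - y (cls m)) ∪ {w} ∪
      (Finset.univ.image fun p : M × M => (ι p.1 - y (cls p.1)) + (ι p.2 - y (cls p.2))) :=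
    ⟨_, rfl⟩
  have hT1 : ∀ m : M, ι m - y (cls m) ∈ T := fun m => by
    rw [hTdef]
    exact Finset.mem_union_left _ (Finset.mem_union_left _
      (Finset.mem_image.mpr ⟨m, Finset.mem_univ _, rfl⟩))
  have hT2 : w ∈ T := by
    rw [hTdef]
    exact Finset.mem_union_left _ (Finset.mem_union_right _ (Finset.mem_singleton_self w))
  have hT3 : ∀ m m' : M, (ι m - y (cls m)) + (ι m' - y (cls m')) ∈ T := fun m m' => by
    rw [hTdef]
    exact Finset.mem_union_right _ (Finset.mem_image.mpr ⟨(m, m'), Finset.mem_univ _, rfl⟩)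
  have hT : ∀ x ∈ T, x ∈ J1 := by
    intro x hx
    rw [hTdef] at hx
    simp only [Finset.mem_union, Finset.mem_image, Finset.mem_univ, true_and,
      Finset.mem_singleton] at hx
    rcases hx with (⟨m, rfl⟩ | rfl) | ⟨p, rfl⟩
    · exact hy m
    · exact hw
    · exact J1.add_mem (hy p.1) (hy p.2)
  obtain ⟨P, hP⟩ := hlaw j T hT
  refine ⟨MvPolynomial.bind₁
    (Sum.elim (fun a => P a) (fun a => MvPolynomial.C ⟨b w a, hbw a⟩)) (P i),
    fun m m' hm hm' => ?_⟩
  subst hm hm'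
  obtain ⟨x, hx⟩ : ∃ x : J, x = ι m - y (cls m) := ⟨_, rfl⟩
  obtain ⟨x', hx'⟩ : ∃ x' : J, x' = ι m' - y (cls m') := ⟨_, rfl⟩
  have hxJ : x ∈ J1 := hx ▸ hy m
  have hx'J : x' ∈ J1 := hx' ▸ hy m'
  have hxT : x ∈ T := hx ▸ hT1 m
  have hx'T : x' ∈ T := hx' ▸ hT1 m'
  have hxxT : x + x' ∈ T := by rw [hx, hx']; exact hT3 m m'
  have hsum : ι (m + m') - y (cls (m + m')) = (x + x') + w := by
    rw [hx, hx', hwdef, map_add, map_add]; abel
  obtain ⟨e1, he1A, he1⟩ := hP (x + x') hxxT w hT2 i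
  have hinner : ∀ a, ∃ ε ∈ A, b (x + x') a -
      MvPolynomial.aeval (Sum.elim (b x) (b x')) (P a) = (ℓ : Qb) ^ j * ε :=
    fun a => hP x hxT x' hx'T a
  have hinnerA : ∀ a, MvPolynomial.aeval (Sum.elim (b x) (b x')) (P a) ∈ A := fun a =>
    aeval_mem_valuationSubring hR (P a) _ (fun v => by
      rcases v with v | v
      · exact hbA x hxJ v
      · exact hbA x' hx'J v)
  obtain ⟨e2, he2A, he2⟩ := aeval_sub_aeval_mem ℓ hR j (P i)
    (Sum.elim (b (x + x')) (b w))
    (Sum.elim (fun a => MvPolynomial.aeval (Sum.elim (b x) (b x')) (P a)) (b w))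
    (fun v => by
      rcases v with v | v
      · exact hbA _ (J1.add_mem hxJ hx'J) v
      · exact hbA w hw v)
    (fun v => by
      rcases v with v | v
      · exact hinnerA v
      · exact hbA w hw v)
    (fun v => by
      rcases v with v | v
      · exact hinner v
      · exact ⟨0, zero_mem A, by simp⟩)
  refine ⟨e1 + e2, add_mem he1A he2A, ?_⟩
  have hQ : MvPolynomial.aeval (Sum.elim (fun a => Xi a m) (fun a => Xi a m'))
      (MvPolynomial.bind₁
        (Sum.elim (fun a => P a) (fun a => MvPolynomial.C ⟨b w a, hbw a⟩)) (P i)) =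
      MvPolynomial.aeval
        (Sum.elim (fun a => MvPolynomial.aeval (Sum.elim (b x) (b x')) (P a)) (b w)) (P i) := by
    rw [MvPolynomial.aeval_bind₁]
    have hfun : (fun v => MvPolynomial.aeval (Sum.elim (fun a => Xi a m) (fun a => Xi a m'))
        (Sum.elim (fun a => P a) (fun a => MvPolynomial.C ⟨b w a, hbw a⟩) v)) =
        Sum.elim (fun a => MvPolynomial.aeval (Sum.elim (b x) (b x')) (P a)) (b w) := by
      funext v
      rcases v with a | a
      · simp only [Sum.elim_inl, hXidef, hx, hx']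
      · simp only [Sum.elim_inr, MvPolynomial.aeval_C]
        rfl
    rw [hfun]
  have hXi : Xi i (m + m') = b (ι (m + m') - y (cls (m + m'))) i := by rw [hXidef]
  rw [hQ, hXi, hsum, mul_add, ← he1, ← he2]
  ring

/-- A polynomial over `Qb` with coefficients in `A` comes from a polynomial over `A`. -/
theorem exists_map_eq_of_coeff_mem {σ : Type*} (P : MvPolynomial σ Qb)
    (hP : ∀ d, P.coeff d ∈ A) :
    ∃ P' : MvPolynomial σ A.toSubring, MvPolynomial.map A.toSubring.subtype P' = P := by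
  have : P ∈ Set.range (MvPolynomial.map (σ := σ) A.toSubring.subtype) := by
    rw [MvPolynomial.mem_range_map_iff_coeffs_subset]
    intro c hc
    obtain ⟨d, -, rfl⟩ := MvPolynomial.mem_coeffs_iff.mp hc
    exact ⟨⟨P.coeff d, hP d⟩, rfl⟩
  exact this

theorem eval_map_subtype_eq_aeval {σ : Type*} (P' : MvPolynomial σ A.toSubring) (u : σ → Qb) :
    MvPolynomial.eval u (MvPolynomial.map A.toSubring.subtype P') = MvPolynomial.aeval u P' := by
  rw [MvPolynomial.eval_map, MvPolynomial.aeval_def]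
  rfl

/-- (3) CENTRES ADAPTER in the shape of the captain's `IsCoordSystem` (law with polynomials
over `Qb` with coefficients in `A`, `MvPolynomial.eval`): class-wise coordinates on a finite
group `M ⊆ J` with the class-wise law modulo every `ℓ ^ j`, coefficients in `A`. -/
theorem centres_classwise
    {J : Type*} [AddCommGroup J] [MulAction G J]
    (hsmulJ : ∀ s ∈ I, ∀ x y : J, s • (x + y) = s • x + s • y)
    {M : Type*} [AddCommGroup M] [Finite M] (act : G → M → M)
    (ι : M →+ J) (hι : Function.Injective ι) (hιact : ∀ s ∈ I, ∀ m, ι (act s m) = s • ι m)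
    (J1 : AddSubgroup J) (hJ1 : ∀ s ∈ I, ∀ x ∈ J1, s • x ∈ J1)
    {g : ℕ} (b : J → Fin g → Qb)
    (hbA : ∀ x ∈ J1, ∀ i, b x i ∈ A)
    (hbI : ∀ s ∈ I, ∀ x ∈ J1, ∀ i, b (s • x) i = s (b x i))
    (hbinj : ∀ x ∈ J1, ∀ y ∈ J1, b x = b y → x = y)
    (hcen : ∀ m : M, ∃ z : J, (∀ s ∈ I, s • z = z) ∧ ι m - z ∈ J1)
    (hlaw : ∀ (j : ℕ) (T : Finset J), (∀ x ∈ T, x ∈ J1) →
      ∃ P : Fin g → MvPolynomial (Fin g ⊕ Fin g) Qb, (∀ i d, (P i).coeff d ∈ A) ∧
        ∀ x ∈ T, ∀ y ∈ T, ∀ i, ∃ w ∈ A,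
          b (x + y) i - MvPolynomial.eval (Sum.elim (b x) (b y)) (P i) = (ℓ : Qb) ^ j * w) :
    ∃ (cls : M →+ M ⧸ J1.comap ι) (Ξ : Fin g → M → Qb),
      (∀ s ∈ I, ∀ m, cls (act s m) = cls m) ∧
      (∀ i m, Ξ i m ∈ A) ∧
      (∀ s ∈ I, ∀ i m, Ξ i (act s m) = s (Ξ i m)) ∧
      (∀ m m', cls m = cls m' → (∀ i, Ξ i m = Ξ i m') → m = m') ∧
      (∀ s ∈ I, ∀ m m', act s (m + m') = act s m + act s m') ∧
      (∀ (j : ℕ) (c c' : M ⧸ J1.comap ι) (i : Fin g),
        ∃ P : MvPolynomial (Fin g ⊕ Fin g) Qb, (∀ d, P.coeff d ∈ A) ∧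
          ∀ m m', cls m = c → cls m' = c' → ∃ t ∈ A, Ξ i (m + m') -
            MvPolynomial.eval (Sum.elim (fun k => Ξ k m) (fun k => Ξ k m')) P =
              (ℓ : Qb) ^ j * t) := by
  obtain ⟨cls, Xi, hcls, hXiA, hXiI, hXisep, hM, hlaw'⟩ :=
    centres_classwise_aux ℓ A.toSubring (fun x hx => hx) hsmulJ act ι hι hιact J1 hJ1 b hbA hbI
      hbinj (fun x hx _ i => hbA x hx i) hcen (fun j T hT => by
        obtain ⟨P, hPA, hP⟩ := hlaw j T hT
        choose P' hP' using fun i => exists_map_eq_of_coeff_mem (P i) (hPA i)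
        refine ⟨P', fun x hx y hy i => ?_⟩
        obtain ⟨w, hw, h⟩ := hP x hx y hy i
        refine ⟨w, hw, ?_⟩
        rw [← eval_map_subtype_eq_aeval, hP' i]
        exact h)
  refine ⟨cls, Xi, hcls, hXiA, hXiI, hXisep, hM, fun j c c' i => ?_⟩
  obtain ⟨Q, hQ⟩ := hlaw' j c c' i
  refine ⟨MvPolynomial.map A.toSubring.subtype Q, fun d => ?_, fun m m' hm hm' => ?_⟩
  · rw [MvPolynomial.coeff_map]
    exact (Q.coeff d).2
  · obtain ⟨ε, hε, h⟩ := hQ m m' hm hm'
    refine ⟨ε, hε, ?_⟩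
    rw [eval_map_subtype_eq_aeval]
    exact h

end Centres

section Spec

open Fermat.Agent.S19.helper2111 ModularCurve

/-- The inclusion of the `ℓ ^ k`-torsion into `J₀(N)`. -/
noncomputable def torsIncl (N ℓ k : ℕ) : Tors N ℓ k →+ JZero N :=
  (Submodule.torsionBy ℤ (JZero N) ((ℓ : ℤ) ^ k)).subtype.toAddMonoidHom

theorem torsIncl_apply (N ℓ k : ℕ) (m : Tors N ℓ k) : torsIncl N ℓ k m = (m : JZero N) := rfl

theorem torsIncl_injective (N ℓ k : ℕ) : Function.Injective (torsIncl N ℓ k) :=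
  Subtype.val_injective

/-- CENTRES ADAPTER for the captain's `IsCoordSystem`: class-wise coordinates on the torsion
with the class-wise approximate addition law, coefficients in `A`. -/
theorem centres_of_isCoordSystem {ℓ N : ℕ} {A : ValuationSubring Qb} {g : ℕ}
    {J1 : AddSubgroup (JZero N)} {b : JZero N → Fin g → Qb}
    (h : IsCoordSystem ℓ N A g J1 b) (k : ℕ) [Finite (Tors N ℓ k)] :
    ∃ (cls : Tors N ℓ k →+ Tors N ℓ k ⧸ J1.comap (torsIncl N ℓ k))
      (Ξ : Fin g → Tors N ℓ k → Qb),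
      (∀ s ∈ A.inertiaSubgroupIn ℚ, ∀ m, cls (torsAct N ℓ k s m) = cls m) ∧
      (∀ i m, Ξ i m ∈ A) ∧
      (∀ s ∈ A.inertiaSubgroupIn ℚ, ∀ i m, Ξ i (torsAct N ℓ k s m) = s (Ξ i m)) ∧
      (∀ m m', cls m = cls m' → (∀ i, Ξ i m = Ξ i m') → m = m') ∧
      (∀ s ∈ A.inertiaSubgroupIn ℚ, ∀ m m',
        torsAct N ℓ k s (m + m') = torsAct N ℓ k s m + torsAct N ℓ k s m') ∧
      (∀ (j : ℕ) (c c' : Tors N ℓ k ⧸ J1.comap (torsIncl N ℓ k)) (i : Fin g),
        ∃ P : MvPolynomial (Fin g ⊕ Fin g) Qb, (∀ d, P.coeff d ∈ A) ∧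
          ∀ m m', cls m = c → cls m' = c' → ∃ t ∈ A, Ξ i (m + m') -
            MvPolynomial.eval (Sum.elim (fun a => Ξ a m) (fun a => Ξ a m')) P =
              (ℓ : Qb) ^ j * t) :=
  centres_classwise ℓ (fun s _ x y => smul_add s x y) (torsAct N ℓ k) (torsIncl N ℓ k)
    (torsIncl_injective N ℓ k) (fun _ _ _ => rfl) J1 h.stable b h.val h.eqv h.inj
    (fun _ => h.cen _) h.law

end Spec

end Fermat.Agent.S19.helper1908
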