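import Mathlib

/-!
# Two-chart lemmas (Mathlib only)

Abstract commutative algebra behind the Cech cohomology of the two standard charts of a curve
over the projective `t`-line.

* `isIntegral_of_isIntegral_adjoin_of_isIntegral_adjoin_inv`: an element of a field extension of
  `k` which is integral over `k[t]` and over `k[t⁻¹]` (`t` transcendental) is algebraic over `k`;
* `laurentSeries_eq_const_of_isIntegral`: a Laurent series over a field `k` which is algebraic
  over `k` is a constant;
* `exists_finite_generators_of_dep`: finiteness of an integral closure from a degree bound;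
* `two_chart_span`: `S01 = S0 + S1 + (finitely generated)`;
* `exists_coords_quotient`, `saturated_of_uniformiser`: a finitely generated quotient by a
  saturated submodule over a discrete valuation ring is free.
-/

set_option autoImplicit false

noncomputable section

namespace Fermat.Agent.S19.helper2052

open Polynomial

section Intersection

variable {k L : Type*} [Field k] [Field L] [Algebra k L]

/-- `k[t] ∩ k[t⁻¹] = k` for a transcendental `t`. -/
theorem mem_range_of_mem_adjoin_of_mem_adjoin_inv {t : L} (ht : Transcendental k t) {c : L}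
    (h1 : c ∈ Algebra.adjoin k {t}) (h2 : c ∈ Algebra.adjoin k {t⁻¹}) :
    c ∈ (algebraMap k L).range := by
  rw [Algebra.adjoin_singleton_eq_range_aeval] at h1 h2
  obtain ⟨p, rfl⟩ := h1
  obtain ⟨q, hq⟩ := h2
  have ht0 : t ≠ 0 := by
    rintro rfl
    exact ht ⟨X, X_ne_zero, by simp⟩
  let _ : Invertible (t⁻¹) := ⟨t, mul_inv_cancel₀ ht0, inv_mul_cancel₀ ht0⟩
  have h3 := eval₂_reverse_mul_pow (algebraMap k L) (t⁻¹) q
  have h3' : aeval t q.reverse * (t⁻¹) ^ q.natDegree = aeval (t⁻¹) q := h3
  have key : aeval t (p * X ^ q.natDegree) = aeval t q.reverse := by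
    rw [map_mul, map_pow, aeval_X]
    have : aeval t q.reverse = aeval (t⁻¹) q * t ^ q.natDegree := by
      rw [← h3', mul_assoc, ← mul_pow, inv_mul_cancel₀ ht0, one_pow, mul_one]
    rw [this]
    exact congrArg (· * t ^ q.natDegree) hq.symm
  have hpq : p * X ^ q.natDegree = q.reverse := transcendental_iff_injective.mp ht key
  by_cases hp : p = 0
  · exact ⟨0, by rw [hp]; simp⟩
  have hdeg : (p * X ^ q.natDegree).natDegree = p.natDegree + q.natDegree := by
    rw [natDegree_mul hp (pow_ne_zero _ X_ne_zero), natDegree_X_pow]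
  have hle : p.natDegree + q.natDegree ≤ q.natDegree := by
    rw [← hdeg, hpq]
    exact reverse_natDegree_le q
  have hp0 : p.natDegree = 0 := by omega
  obtain ⟨a, rfl⟩ := natDegree_eq_zero.mp hp0
  exact ⟨a, by simp⟩

theorem transcendental_inv {t : L} (ht : Transcendental k t) : Transcendental k t⁻¹ := by
  intro h
  apply ht
  have := h.inv
  rwa [inv_inv] at this

theorem isIntegrallyClosed_adjoin_singleton {t : L} (ht : Transcendental k t) :
    IsIntegrallyClosed ↥(Algebra.adjoin k {t}) := by
  have e : k[X] ≃ₐ[k] ↥(Algebra.adjoin k {t}) :=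
    (AlgEquiv.ofInjective (aeval t) (transcendental_iff_injective.mp ht)).trans
      (Subalgebra.equivOfEq _ _ (Algebra.adjoin_singleton_eq_range_aeval k t).symm)
  exact IsIntegrallyClosed.of_equiv e.toRingEquiv

open scoped IntermediateField.algebraAdjoinAdjoin in
theorem coeff_map_minpoly_mem_adjoin {t : L} (ht : Transcendental k t) {f : L}
    (hf : IsIntegral (Algebra.adjoin k {t}) f) (i : ℕ) :
    ((minpoly (IntermediateField.adjoin k {t}) f).map
      (algebraMap (IntermediateField.adjoin k {t}) L)).coeff i ∈ Algebra.adjoin k {t} := by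
  have := isIntegrallyClosed_adjoin_singleton ht
  rw [minpoly.isIntegrallyClosed_eq_field_fractions' (IntermediateField.adjoin k {t}) hf,
    Polynomial.map_map, coeff_map]
  exact ((minpoly (Algebra.adjoin k {t}) f).coeff i).2

theorem map_minpoly_congr {K K' : IntermediateField k L} (h : K = K') (f : L) :
    (minpoly K f).map (algebraMap K L) = (minpoly K' f).map (algebraMap K' L) := by
  subst h; rfl

open scoped IntermediateField.algebraAdjoinAdjoin in
/-- An element which is integral over `k[t]` and over `k[t⁻¹]` (`t` transcendental over the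
field `k`) is integral over `k`. -/
theorem isIntegral_of_isIntegral_adjoin_of_isIntegral_adjoin_inv {t : L}
    (ht : Transcendental k t) {f : L}
    (h1 : IsIntegral (Algebra.adjoin k {t}) f) (h2 : IsIntegral (Algebra.adjoin k {t⁻¹}) f) :
    IsIntegral k f := by
  have ht' : Transcendental k t⁻¹ := transcendental_inv ht
  have ht0 : t ≠ 0 := by
    rintro rfl
    exact ht ⟨X, X_ne_zero, by simp⟩
  have hK : IntermediateField.adjoin k {t⁻¹} = IntermediateField.adjoin k {t} := by
    apply le_antisymm
    · rw [IntermediateField.adjoin_le_iff, Set.singleton_subset_iff]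
      exact inv_mem (IntermediateField.mem_adjoin_simple_self k t)
    · rw [IntermediateField.adjoin_le_iff, Set.singleton_subset_iff]
      have := inv_mem (IntermediateField.mem_adjoin_simple_self k t⁻¹)
      rwa [inv_inv] at this
  have hfK : IsIntegral (IntermediateField.adjoin k {t}) f := h1.tower_top
  set P := (minpoly (IntermediateField.adjoin k {t}) f).map
    (algebraMap (IntermediateField.adjoin k {t}) L) with hP
  have hP' : P = (minpoly (IntermediateField.adjoin k {t⁻¹}) f).map
      (algebraMap (IntermediateField.adjoin k {t⁻¹}) L) := map_minpoly_congr hK.symm f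
  have hcoef : ∀ i, P.coeff i ∈ (algebraMap k L).range := fun i =>
    mem_range_of_mem_adjoin_of_mem_adjoin_inv ht (coeff_map_minpoly_mem_adjoin ht h1 i)
      (by rw [hP']; exact coeff_map_minpoly_mem_adjoin ht' h2 i)
  have hlifts : P ∈ lifts (algebraMap k L) := (lifts_iff_coeff_lifts P).mpr hcoef
  have hmonic : P.Monic := (minpoly.monic hfK).map _
  obtain ⟨Q, hQP, -, hQmonic⟩ := lifts_and_natDegree_eq_and_monic hlifts hmonic
  refine ⟨Q, hQmonic, ?_⟩
  rw [eval₂_eq_eval_map, hQP, hP, eval_map, ← aeval_def, minpoly.aeval]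

end Intersection

section Laurent

variable {k : Type*} [Field k]

theorem coeff_zero_algebraMap_laurent (c : k) :
    (algebraMap k (LaurentSeries k) c).coeff 0 = c := by
  have h1 : algebraMap k (PowerSeries k) c = PowerSeries.C c := by simp
  rw [HahnSeries.algebraMap_apply', h1, HahnSeries.ofPowerSeries_C]
  simp

/-- A Laurent series over a field `k` which is algebraic over `k` is constant. -/
theorem laurentSeries_eq_const_of_isIntegral (f : LaurentSeries k) (hf : IsIntegral k f) :
    f = algebraMap k (LaurentSeries k) (f.coeff 0) := by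
  have htop : ∀ x : LaurentSeries k, IsIntegral k x → IsIntegral (PowerSeries k) x := by
    rintro x ⟨P, hP, hPx⟩
    refine ⟨P.map (algebraMap k (PowerSeries k)), hP.map _, ?_⟩
    rw [Polynomial.eval₂_map]
    exact hPx
  set g := f - algebraMap k (LaurentSeries k) (f.coeff 0) with hg
  have hgint : IsIntegral k g := hf.sub isIntegral_algebraMap
  by_contra hne
  have hg0 : g ≠ 0 := fun h => hne (sub_eq_zero.mp h)
  have hgi : IsIntegral k g⁻¹ := hgint.inv
  have h1 : IsIntegral (PowerSeries k) g := htop _ hgint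
  have h2 : IsIntegral (PowerSeries k) g⁻¹ := htop _ hgi
  obtain ⟨p, hp⟩ := IsIntegrallyClosed.isIntegral_iff.mp h1
  obtain ⟨p', hp'⟩ := IsIntegrallyClosed.isIntegral_iff.mp h2
  have hpp : p * p' = 1 := by
    apply IsFractionRing.injective (PowerSeries k) (LaurentSeries k)
    rw [map_mul, hp, hp', map_one, mul_inv_cancel₀ hg0]
  have hunit : IsUnit p := IsUnit.of_mul_eq_one _ hpp
  have hc : PowerSeries.constantCoeff p ≠ 0 :=
    (PowerSeries.isUnit_iff_constantCoeff.mp hunit).ne_zero
  apply hc
  have hg00 : g.coeff 0 = 0 := by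
    rw [hg, HahnSeries.coeff_sub, coeff_zero_algebraMap_laurent, sub_self]
  rw [← hg00, ← hp, HahnSeries.algebraMap_apply',
    show (0 : ℤ) = ((0 : ℕ) : ℤ) from rfl, HahnSeries.ofPowerSeries_apply_coeff,
    PowerSeries.coeff_zero_eq_constantCoeff]
  rfl

end Laurent

section Finite

variable {A L : Type*} [CommRing A] [IsDomain A] [IsIntegrallyClosed A] [IsNoetherianRing A]
  [Field L] [CharZero L] [Algebra A L] [FaithfulSMul A L]

attribute [local instance] FractionRing.liftAlgebra in
/-- If any `n + 1` elements of the characteristic zero field `L` are linearly dependent over the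
integrally closed noetherian domain `A ⊆ L`, then the integral closure of `A` in `L` is a finite
`A`-module. -/
theorem finite_integralClosure_of_dep (n : ℕ)
    (hdep : ∀ x : Fin (n + 1) → L, ∃ c : Fin (n + 1) → A, c ≠ 0 ∧ ∑ i, c i • x i = 0) :
    Module.Finite A (integralClosure A L) := by
  have hinj : Function.Injective (algebraMap A L) := FaithfulSMul.algebraMap_injective A L
  have : CharZero A := by
    refine ⟨fun a b h => ?_⟩
    have h' := congrArg (algebraMap A L) h
    rw [map_natCast, map_natCast] at h'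
    exact Nat.cast_injective h'
  have : CharZero (FractionRing A) :=
    charZero_of_injective_algebraMap (IsFractionRing.injective A (FractionRing A))
  have hrank : Module.rank (FractionRing A) L ≤ n := by
    apply rank_le
    intro s hs
    by_contra hcard
    have hcard' : n + 1 ≤ s.card := by omega
    let e : Fin (n + 1) ↪ s := (Fin.castLEEmb hcard').trans s.equivFin.symm.toEmbedding
    obtain ⟨c, hc0, hc⟩ := hdep (fun i => (e i : L))
    have hli := hs.comp e e.injective
    have h0 := Fintype.linearIndependent_iff.mp hli (fun i => algebraMap A (FractionRing A) (c i))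
      (by
        rw [← hc]
        refine Finset.sum_congr rfl (fun i _ => ?_)
        simp only [Function.comp_apply, algebraMap_smul])
    apply hc0
    funext i
    exact IsFractionRing.injective A (FractionRing A) ((h0 i).trans (map_zero _).symm)
  have : FiniteDimensional (FractionRing A) L := by
    rw [FiniteDimensional, ← Module.rank_lt_aleph0_iff]
    exact lt_of_le_of_lt hrank Cardinal.natCast_lt_aleph0
  exact IsIntegralClosure.finite A (FractionRing A) L (integralClosure A L)

end Finite

section FiniteHom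

variable {A L : Type*} [CommRing A] [IsDomain A] [IsIntegrallyClosed A] [IsNoetherianRing A]
  [Field L] [CharZero L]

/-- Ring-hom form of `finite_integralClosure_of_dep`: finitely many module generators of the
integral closure. -/
theorem exists_finite_generators_of_dep (φ : A →+* L) (hφ : Function.Injective φ) (n : ℕ)
    (hdep : ∀ x : Fin (n + 1) → L, ∃ c : Fin (n + 1) → A, c ≠ 0 ∧ ∑ i, φ (c i) * x i = 0) :
    ∃ (m : ℕ) (ω : Fin m → L), (∀ i, φ.IsIntegralElem (ω i)) ∧
      ∀ x : L, φ.IsIntegralElem x → ∃ c : Fin m → A, x = ∑ i, φ (c i) * ω i := by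
  let _ : Algebra A L := φ.toAlgebra
  have : FaithfulSMul A L := (faithfulSMul_iff_algebraMap_injective A L).mpr hφ
  have hfin : Module.Finite A (integralClosure A L) :=
    finite_integralClosure_of_dep n (fun x => by
      obtain ⟨c, hc0, hc⟩ := hdep x
      refine ⟨c, hc0, ?_⟩
      simp only [Algebra.smul_def]
      exact hc)
  obtain ⟨m, s, hs⟩ := Module.Finite.exists_fin (R := A) (M := integralClosure A L)
  refine ⟨m, fun i => (s i : L), fun i => (s i).2, fun x hx => ?_⟩
  have hmem : (⟨x, hx⟩ : integralClosure A L) ∈ Submodule.span A (Set.range s) := by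
    rw [hs]; exact Submodule.mem_top
  obtain ⟨c, hc⟩ := (Submodule.mem_span_range_iff_exists_fun A).mp hmem
  refine ⟨c, ?_⟩
  have h2 : ((∑ i, c i • s i : integralClosure A L) : L) = x := congrArg Subtype.val hc
  refine h2.symm.trans ?_
  simp only [AddSubmonoidClass.coe_finsetSum]
  refine Finset.sum_congr rfl (fun i _ => ?_)
  rfl

end FiniteHom

section AdjoinIntegral

variable {k L : Type*} [CommRing k] [CommRing L] [Algebra k L]

/-- Integrality with respect to the evaluation hom `k[X] → L`, `X ↦ t`, gives integrality over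
the subalgebra `k[t]`. -/
theorem isIntegral_adjoin_singleton_of_isIntegralElem (t f : L)
    (h : (aeval (R := k) t).toRingHom.IsIntegralElem f) :
    IsIntegral (Algebra.adjoin k {t}) f := by
  obtain ⟨P, hP, hPf⟩ := h
  refine ⟨P.map (aeval (R := k) (⟨t, Algebra.subset_adjoin rfl⟩ : Algebra.adjoin k {t})).toRingHom,
    hP.map _, ?_⟩
  rw [eval₂_map]
  have hcomp : (algebraMap (Algebra.adjoin k {t}) L).comp
      (aeval (R := k) (⟨t, Algebra.subset_adjoin rfl⟩ : Algebra.adjoin k {t})).toRingHom =
      (aeval (R := k) t).toRingHom := by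
    apply Polynomial.ringHom_ext
    · intro a
      simp
    · simp
  rw [hcomp]
  exact hPf

end AdjoinIntegral

section TwoChart

variable {R F : Type*} [CommRing R] [Field F] [Algebra R F]

/-- The combinatorial heart of the finiteness of `H^1` for two charts `S0`, `S1` of a curve over
the `t`-line: if `S0` is generated over `R[t]` by finitely many `ω i`, then
`S01 = S0 + S1 + ∑ R t^(-k) ω i` with finitely many `k`. -/
theorem two_chart_span (S0 S1 S01 : Subalgebra R F) (t : F) (ht : t ≠ 0)
    (ht0 : t ∈ S0) (ht1 : t⁻¹ ∈ S1)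
    (hloc0 : ∀ x ∈ S01, ∃ n : ℕ, t ^ n * x ∈ S0)
    (hloc1 : ∀ x ∈ S0, ∃ n : ℕ, t⁻¹ ^ n * x ∈ S1)
    (m : ℕ) (ω : Fin m → F) (hω : ∀ i, ω i ∈ S0)
    (hgen : ∀ x ∈ S0, ∃ p : Fin m → R[X], x = ∑ i, aeval t (p i) * ω i) :
    ∃ K : ℕ, ∀ x ∈ S01, ∃ a ∈ S0, ∃ b ∈ S1, ∃ c : Fin m × Fin K → R,
      x = a + b + ∑ q, c q • (t⁻¹ ^ (q.2 : ℕ) * ω q.1) := by
  choose k hk using fun i => hloc1 (ω i) (hω i)
  obtain ⟨K, hKdef⟩ : ∃ K : ℕ, K = ∑ i, k i := ⟨_, rfl⟩
  have hkK : ∀ i, k i ≤ K := fun i => by
    rw [hKdef]
    exact Finset.single_le_sum (f := k) (fun _ _ => Nat.zero_le _) (Finset.mem_univ i)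
  have hK : ∀ i, ∀ e, K ≤ e → t⁻¹ ^ e * ω i ∈ S1 := by
    intro i e he
    have h1 : t⁻¹ ^ e * ω i = t⁻¹ ^ (e - k i) * (t⁻¹ ^ k i * ω i) := by
      rw [← mul_assoc, ← pow_add]
      congr 2
      have := hkK i
      omega
    rw [h1]
    exact S1.mul_mem (S1.pow_mem ht1 _) (hk i)
  refine ⟨K, fun x hx => ?_⟩
  obtain ⟨T, hT⟩ : ∃ T : Submodule R F, T = Subalgebra.toSubmodule S0 ⊔ Subalgebra.toSubmodule S1 ⊔
      Submodule.span R (Set.range fun q : Fin m × Fin K => t⁻¹ ^ (q.2 : ℕ) * ω q.1) := ⟨_, rfl⟩
  have hmem : ∀ (n e : ℕ) (i : Fin m), t⁻¹ ^ n * t ^ e * ω i ∈ T := by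
    intro n e i
    by_cases hne : n ≤ e
    · have h1 : t⁻¹ ^ n * t ^ e * ω i = t ^ (e - n) * ω i := by
        obtain ⟨d, rfl⟩ := Nat.exists_eq_add_of_le hne
        rw [Nat.add_sub_cancel_left, pow_add, ← mul_assoc, ← mul_pow, inv_mul_cancel₀ ht, one_pow,
          one_mul]
      rw [h1, hT]
      exact Submodule.mem_sup_left (Submodule.mem_sup_left
        (S0.mul_mem (S0.pow_mem ht0 _) (hω i)))
    · have hen : e ≤ n := by omega
      have h1 : t⁻¹ ^ n * t ^ e * ω i = t⁻¹ ^ (n - e) * ω i := by
        obtain ⟨d, rfl⟩ := Nat.exists_eq_add_of_le hen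
        rw [Nat.add_sub_cancel_left, pow_add, mul_comm (t⁻¹ ^ e), mul_assoc (t⁻¹ ^ d), ← mul_pow,
          inv_mul_cancel₀ ht, one_pow, mul_one]
      rw [h1, hT]
      by_cases hK' : K ≤ n - e
      · exact Submodule.mem_sup_left (Submodule.mem_sup_right (hK i _ hK'))
      · exact Submodule.mem_sup_right
          (Submodule.subset_span ⟨(i, ⟨n - e, by omega⟩), rfl⟩)
  have hxT : x ∈ T := by
    obtain ⟨n, hn⟩ := hloc0 x hx
    obtain ⟨p, hp⟩ := hgen _ hn
    have hx' : x = t⁻¹ ^ n * (t ^ n * x) := by
      rw [← mul_assoc, ← mul_pow, inv_mul_cancel₀ ht, one_pow, one_mul]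
    rw [hx', hp, Finset.mul_sum]
    refine Submodule.sum_mem _ (fun i _ => ?_)
    rw [aeval_eq_sum_range, Finset.sum_mul, Finset.mul_sum]
    refine Submodule.sum_mem _ (fun e _ => ?_)
    have h2 : t⁻¹ ^ n * ((p i).coeff e • t ^ e * ω i) =
        (p i).coeff e • (t⁻¹ ^ n * t ^ e * ω i) := by
      rw [smul_mul_assoc, mul_smul_comm, mul_assoc]
    rw [h2]
    exact Submodule.smul_mem _ _ (hmem n e i)
  rw [hT] at hxT
  obtain ⟨y, hy, z, hz, rfl⟩ := Submodule.mem_sup.mp hxT
  obtain ⟨a, ha, b, hb, rfl⟩ := Submodule.mem_sup.mp hy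
  obtain ⟨c, rfl⟩ := (Submodule.mem_span_range_iff_exists_fun R).mp hz
  exact ⟨a, ha, b, hb, c, rfl⟩

end TwoChart

section Quot

variable {R M : Type*} [CommRing R] [IsDomain R] [IsPrincipalIdealRing R] [AddCommGroup M]
  [Module R M]

/-- A finitely generated quotient by a saturated submodule over a PID is free: coordinates. -/
theorem exists_coords_quotient (P : Submodule R M) (hfin : Module.Finite R (M ⧸ P))
    (hsat : ∀ (r : R) (x : M), r ≠ 0 → r • x ∈ P → x ∈ P) :
    ∃ (g : ℕ) (π : M →ₗ[R] (Fin g → R)), Function.Surjective π ∧ LinearMap.ker π = P := by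
  have : Module.IsTorsionFree R (M ⧸ P) := by
    refine Module.IsTorsionFree.of_smul_eq_zero (fun r h hr => ?_)
    by_cases hr0 : r = 0
    · exact Or.inl hr0
    refine Or.inr ?_
    obtain ⟨x, rfl⟩ := P.mkQ_surjective h
    rw [← map_smul, Submodule.mkQ_apply, Submodule.Quotient.mk_eq_zero] at hr
    rw [Submodule.mkQ_apply, Submodule.Quotient.mk_eq_zero]
    exact hsat r x hr0 hr
  have : Module.Free R (M ⧸ P) := inferInstance
  refine ⟨_, (Module.finBasis R (M ⧸ P)).equivFun.toLinearMap ∘ₗ P.mkQ, ?_, ?_⟩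
  · exact (Module.finBasis R (M ⧸ P)).equivFun.surjective.comp P.mkQ_surjective
  · rw [LinearEquiv.ker_comp, Submodule.ker_mkQ]

/-- Saturation with respect to a uniformiser of a discrete valuation ring is saturation. -/
theorem saturated_of_uniformiser {R M : Type*} [CommRing R] [IsDomain R]
    [IsDiscreteValuationRing R] [AddCommGroup M] [Module R M] (P : Submodule R M) (ϖ : R)
    (hϖ : Irreducible ϖ) (h : ∀ x : M, ϖ • x ∈ P → x ∈ P) :
    ∀ (r : R) (x : M), r ≠ 0 → r • x ∈ P → x ∈ P := by
  intro r x hr hx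
  obtain ⟨n, u, rfl⟩ := IsDiscreteValuationRing.eq_unit_mul_pow_irreducible hr hϖ
  have h1 : ϖ ^ n • x ∈ P := by
    have h2 := P.smul_mem (↑u⁻¹ : R) hx
    rwa [smul_smul, ← mul_assoc, Units.inv_mul, one_mul] at h2
  clear hx hr
  induction n with
  | zero => simpa using h1
  | succ n ih =>
    apply ih
    apply h
    rwa [smul_smul, ← pow_succ']

end Quot

end Fermat.Agent.S19.helper2052
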