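import Fermat.Agent.S28.helper1588_Core
import Fermat.Agent.S19.helper2052_TwoChart

/-!
# S19-H1FREE: Cech cohomology of the two charts of the Igusa model

`R = ℤ_(ℓ)`, `S0 = chartAlgFin N ℓ`, `S1 = chartAlgInf N ℓ`, `S01 = chartAlgMid N ℓ`.

* `fin_inter_inf`   : `S0 ∩ S1 = R` (no hypothesis on `ℓ`);
* `exists_coords`   : (under the S28 modular input) a surjective `R`-linear
  `π : S01 → R^g` with kernel `S0 + S1`, i.e. `H^1 = S01 / (S0 + S1)` is `R`-free of rank `g`;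
* `h1free`          : the same with an explicit `R`-basis `η` of a complement.
-/

set_option autoImplicit false
set_option linter.unusedSectionVars false

noncomputable section

open ModularCurve ModularCurve.IgusaScheme Polynomial

namespace Fermat.Agent.S19.helper2052

open Fermat.Agent.S28 Fermat.Agent.S28.helper1588

variable (ℓ : ℕ) [Fact ℓ.Prime]

/-! ### Reduction of integrality equations -/

theorem evalS_mem_OSub (s : LaurentSeries ℚ) (hs : s ∈ OSub ℓ) (p : Polynomial (Zl ℓ)) :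
    evalS ℓ s p ∈ OSub ℓ := by
  rw [evalS, Polynomial.coe_eval₂RingHom, Polynomial.eval₂_eq_sum_range]
  exact Subring.sum_mem _ (fun e _ =>
    Subring.mul_mem _ (ZlToLS_mem_OSub ℓ _) (Subring.pow_mem _ hs e))

/-- evaluation `ℤ_(ℓ)[X] → O`, `X ↦ s`, for `s` in the Gauss ring. -/
def evalO (s : LaurentSeries ℚ) (hs : s ∈ OSub ℓ) : Polynomial (Zl ℓ) →+* ↥(OSub ℓ) :=
  RingHom.codRestrict (evalS ℓ s) (OSub ℓ) (evalS_mem_OSub ℓ s hs)

theorem redS_ZlToLS (a : Zl ℓ) :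
    redS ℓ ⟨ZlToLS ℓ a, ZlToLS_mem_OSub ℓ a⟩ =
      algebraMap (ZMod ℓ) (LaurentSeries (ZMod ℓ)) (resZl ℓ a) := by
  have h : ZlToLS ℓ a = incl ℓ (HahnSeries.single 0 a) := by
    show algebraMap ℚ (LaurentSeries ℚ) (a : ℚ) = coeffMap _ (HahnSeries.single 0 a)
    rw [coeffMap_single, helper3292.algebraMap_eq_single]
    rfl
  have h1 : (⟨ZlToLS ℓ a, ZlToLS_mem_OSub ℓ a⟩ : OSub ℓ) =
      ⟨incl ℓ (HahnSeries.single 0 a), incl_mem_OSub ℓ _⟩ := Subtype.ext h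
  rw [h1, redS_incl, red, coeffMap_single, helper3292.algebraMap_eq_single]

theorem redS_comp_evalO (s : LaurentSeries ℚ) (hs : s ∈ OSub ℓ) :
    (redS ℓ).comp (evalO ℓ s hs) =
      (Polynomial.aeval (R := ZMod ℓ) (redS ℓ ⟨s, hs⟩)).toRingHom.comp
        (Polynomial.mapRingHom (resZl ℓ)) := by
  apply Polynomial.ringHom_ext
  · intro a
    have h1 : evalO ℓ s hs (Polynomial.C a) = ⟨ZlToLS ℓ a, ZlToLS_mem_OSub ℓ a⟩ := by
      apply Subtype.ext
      show evalS ℓ s (Polynomial.C a) = ZlToLS ℓ a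
      rw [evalS, Polynomial.coe_eval₂RingHom, Polynomial.eval₂_C]
    simp only [RingHom.coe_comp, Function.comp_apply, h1, redS_ZlToLS, Polynomial.coe_mapRingHom,
      Polynomial.map_C, AlgHom.toRingHom_eq_coe, RingHom.coe_coe, Polynomial.aeval_C]
  · have h1 : evalO ℓ s hs Polynomial.X = ⟨s, hs⟩ := by
      apply Subtype.ext
      show evalS ℓ s Polynomial.X = s
      rw [evalS, Polynomial.coe_eval₂RingHom, Polynomial.eval₂_X]
    simp only [RingHom.coe_comp, Function.comp_apply, h1, Polynomial.coe_mapRingHom,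
      Polynomial.map_X, AlgHom.toRingHom_eq_coe, RingHom.coe_coe, Polynomial.aeval_X]

/-- An integrality equation over `ℤ_(ℓ)[s]` reduces to an integrality equation over
`𝔽_ℓ[s̄]`. -/
theorem redS_isIntegralElem (s : LaurentSeries ℚ) (hs : s ∈ OSub ℓ) (x : LaurentSeries ℚ)
    (hx : x ∈ OSub ℓ) (h : (evalS ℓ s).IsIntegralElem x) :
    (Polynomial.aeval (R := ZMod ℓ) (redS ℓ ⟨s, hs⟩)).toRingHom.IsIntegralElem
      (redS ℓ ⟨x, hx⟩) := by
  obtain ⟨P, hP, hPx⟩ := h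
  refine ⟨P.map (Polynomial.mapRingHom (resZl ℓ)), hP.map _, ?_⟩
  rw [Polynomial.eval₂_map, ← redS_comp_evalO ℓ s hs,
    ← Polynomial.hom_eval₂ P (evalO ℓ s hs) (redS ℓ) ⟨x, hx⟩]
  have h0 : Polynomial.eval₂ (evalO ℓ s hs) ⟨x, hx⟩ P = 0 := by
    apply Subtype.ext
    have h2 := Polynomial.hom_eval₂ P (evalO ℓ s hs) (OSub ℓ).subtype ⟨x, hx⟩
    have h3 : (OSub ℓ).subtype.comp (evalO ℓ s hs) = evalS ℓ s := RingHom.ext (fun _ => rfl)
    rw [h3] at h2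
    exact h2.trans hPx
  rw [h0, map_zero]

theorem redS_jq_inv :
    redS ℓ ⟨jq⁻¹, jq_inv_mem_OSub ℓ⟩ = (jqModC (ZMod ℓ))⁻¹ := by
  have h1 : (⟨jq⁻¹, jq_inv_mem_OSub ℓ⟩ : OSub ℓ) * ⟨jq, jq_mem_OSub ℓ⟩ = 1 :=
    Subtype.ext (inv_mul_cancel₀ jq_ne_zero)
  have h2 := congrArg (redS ℓ) h1
  rw [map_mul, redS_jq, map_one] at h2
  exact eq_inv_of_mul_eq_one_left h2

theorem transcendental_jqModC : Transcendental (ZMod ℓ) (jqModC (ZMod ℓ)) :=
  transcendental_iff_injective.mpr (helper3292.aeval_jqModC_injective (ZMod ℓ))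

theorem transcendental_jq : Transcendental ℚ jq := by
  rw [← jqModC_rat]
  exact transcendental_iff_injective.mpr (helper3292.aeval_jqModC_injective ℚ)

theorem resZl_surjective : Function.Surjective (resZl ℓ) := by
  intro x
  obtain ⟨n, rfl⟩ := ZMod.intCast_surjective x
  exact ⟨(n : Zl ℓ), map_intCast (resZl ℓ) n⟩

/-! ### The charts -/

variable (N : ℕ) [NeZero N]

theorem hS_fin : ∀ s ∈ ({jFull N} : Set ↥(modularFunctionFieldFull N)),
    ((s : ↥(modularFunctionFieldFull N)) : LaurentSeries ℚ) ∈ OSub ℓ := by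
  rintro s rfl; exact jq_mem_OSub ℓ

theorem hS_inf : ∀ s ∈ ({(jFull N)⁻¹} : Set ↥(modularFunctionFieldFull N)),
    ((s : ↥(modularFunctionFieldFull N)) : LaurentSeries ℚ) ∈ OSub ℓ := by
  rintro s rfl; exact jq_inv_mem_OSub ℓ

theorem hS_mid : ∀ s ∈ ({jFull N, (jFull N)⁻¹} : Set ↥(modularFunctionFieldFull N)),
    ((s : ↥(modularFunctionFieldFull N)) : LaurentSeries ℚ) ∈ OSub ℓ := by
  rintro s (rfl | rfl)
  · exact jq_mem_OSub ℓ
  · exact jq_inv_mem_OSub ℓ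

/-- **Constants.** If `s0 ∈ S0`, `s1 ∈ S1` and `s0 + s1 ≡ 0` modulo `ℓ`, then the reduction of
`s0` is a constant of `𝔽_ℓ`. -/
theorem redS_eq_const (s0 s1 : ↥(modularFunctionFieldFull N))
    (h0 : s0 ∈ chartAlg N ℓ {jFull N}) (h1 : s1 ∈ chartAlg N ℓ {(jFull N)⁻¹})
    (hO0 : (s0 : LaurentSeries ℚ) ∈ OSub ℓ) (hO1 : (s1 : LaurentSeries ℚ) ∈ OSub ℓ)
    (hsum : redS ℓ ⟨s0, hO0⟩ + redS ℓ ⟨s1, hO1⟩ = 0) :
    ∃ c : ZMod ℓ, redS ℓ ⟨s0, hO0⟩ = algebraMap (ZMod ℓ) (LaurentSeries (ZMod ℓ)) c := by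
  have i0 := redS_isIntegralElem ℓ jq (jq_mem_OSub ℓ) s0 hO0
    (isIntegralElem_of_mem_chartAlg ℓ N (jFull N) s0 h0)
  rw [redS_jq] at i0
  have i1 := redS_isIntegralElem ℓ jq⁻¹ (jq_inv_mem_OSub ℓ) s1 hO1
    (isIntegralElem_of_mem_chartAlg ℓ N (jFull N)⁻¹ s1 h1)
  rw [redS_jq_inv] at i1
  have e1 : redS ℓ ⟨s1, hO1⟩ = - redS ℓ ⟨s0, hO0⟩ := by linear_combination hsum
  have j0 := isIntegral_adjoin_singleton_of_isIntegralElem _ _ i0
  have j1 := isIntegral_adjoin_singleton_of_isIntegralElem _ _ i1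
  rw [e1] at j1
  have j1' := j1.neg
  rw [neg_neg] at j1'
  have hint := isIntegral_of_isIntegral_adjoin_of_isIntegral_adjoin_inv
    (transcendental_jqModC ℓ) j0 j1'
  exact ⟨_, laurentSeries_eq_const_of_isIntegral _ hint⟩

theorem inv_mul_mem_chartAlg_of_redS_eq_zero (S : Set ↥(modularFunctionFieldFull N))
    (hker : ∀ y : ↥(modularFunctionFieldFull N), (y : LaurentSeries ℚ) ∈ OSub ℓ →
      (ℓ : ↥(modularFunctionFieldFull N)) * y ∈ chartAlg N ℓ S → y ∈ chartAlg N ℓ S)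
    (u : ↥(modularFunctionFieldFull N)) (hu : u ∈ chartAlg N ℓ S)
    (hO : (u : LaurentSeries ℚ) ∈ OSub ℓ) (hred : redS ℓ ⟨u, hO⟩ = 0) :
    (ℓ : ↥(modularFunctionFieldFull N))⁻¹ * u ∈ chartAlg N ℓ S := by
  obtain ⟨z, hz⟩ := (redS_eq_zero_iff ℓ _).mp hred
  have hz' : (u : LaurentSeries ℚ) = (ℓ : LaurentSeries ℚ) * (z : LaurentSeries ℚ) := by
    have := congrArg Subtype.val hz
    simpa using this
  have hl0 : (ℓ : ↥(modularFunctionFieldFull N)) ≠ 0 :=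
    Nat.cast_ne_zero.mpr (Fact.out : ℓ.Prime).ne_zero
  have hay : (ℓ : ↥(modularFunctionFieldFull N)) *
      ((ℓ : ↥(modularFunctionFieldFull N))⁻¹ * u) = u := mul_inv_cancel_left₀ hl0 u
  have hyz : ((((ℓ : ↥(modularFunctionFieldFull N))⁻¹ * u : ↥(modularFunctionFieldFull N))) :
      LaurentSeries ℚ) = (z : LaurentSeries ℚ) := by
    have h3 : (ℓ : LaurentSeries ℚ) *
        ((((ℓ : ↥(modularFunctionFieldFull N))⁻¹ * u : ↥(modularFunctionFieldFull N))) :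
          LaurentSeries ℚ) = (ℓ : LaurentSeries ℚ) * (z : LaurentSeries ℚ) := by
      rw [← hz', ← coe_natCast_mul, hay]
    exact mul_left_cancel₀ (natCast_ne_zero_LS ℓ) h3
  exact hker _ (by rw [hyz]; exact z.2) (by rw [hay]; exact hu)

/-- **Saturation.** `S0 + S1` is `ℓ`-saturated in `S01`. -/
theorem sat_key (hin : Spec.Stmt_CoreInput N ℓ) (a : ↥(chartAlgFin N ℓ))
    (b : ↥(chartAlgInf N ℓ)) (x : ↥(chartAlgMid N ℓ))
    (h : inclFin N ℓ a + inclInf N ℓ b = (ℓ : Zl ℓ) • x) :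
    ∃ (a' : ↥(chartAlgFin N ℓ)) (b' : ↥(chartAlgInf N ℓ)),
      x = inclFin N ℓ a' + inclInf N ℓ b' := by
  have hl0 : (ℓ : ↥(modularFunctionFieldFull N)) ≠ 0 :=
    Nat.cast_ne_zero.mpr (Fact.out : ℓ.Prime).ne_zero
  have hF : (a : ↥(modularFunctionFieldFull N)) + (b : ↥(modularFunctionFieldFull N)) =
      (ℓ : ↥(modularFunctionFieldFull N)) * (x : ↥(modularFunctionFieldFull N)) := by
    have h1 := congrArg Subtype.val h
    have h2 : (((ℓ : Zl ℓ) • x : ↥(chartAlgMid N ℓ)) : ↥(modularFunctionFieldFull N)) =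
        (ℓ : ↥(modularFunctionFieldFull N)) * (x : ↥(modularFunctionFieldFull N)) := by
      rw [Subalgebra.coe_smul, Algebra.smul_def, map_natCast]
    exact h1.trans h2
  have hOa := coe_mem_OSub_of_mem_chartAlg ℓ N _ (hS_fin ℓ N) a a.2
  have hOb := coe_mem_OSub_of_mem_chartAlg ℓ N _ (hS_inf ℓ N) b b.2
  have hOx := coe_mem_OSub_of_mem_chartAlg ℓ N _ (hS_mid ℓ N) x x.2
  have hsum : redS ℓ ⟨a, hOa⟩ + redS ℓ ⟨b, hOb⟩ = 0 := by
    rw [← map_add]
    refine (redS_eq_zero_iff ℓ _).mpr ⟨⟨x, hOx⟩, Subtype.ext ?_⟩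
    have h3 := congrArg (coeF N) hF
    rw [map_add, map_mul, map_natCast] at h3
    simpa [coeF_apply] using h3
  obtain ⟨cbar, hc⟩ := redS_eq_const ℓ N a b a.2 b.2 hOa hOb hsum
  obtain ⟨c, rfl⟩ := resZl_surjective ℓ cbar
  obtain ⟨u0, hu0⟩ : ∃ u0 : ↥(modularFunctionFieldFull N),
      u0 = (a : ↥(modularFunctionFieldFull N)) -
        algebraMap (Zl ℓ) ↥(modularFunctionFieldFull N) c := ⟨_, rfl⟩
  obtain ⟨u1, hu1⟩ : ∃ u1 : ↥(modularFunctionFieldFull N),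
      u1 = (b : ↥(modularFunctionFieldFull N)) +
        algebraMap (Zl ℓ) ↥(modularFunctionFieldFull N) c := ⟨_, rfl⟩
  have hu0mem : u0 ∈ chartAlg N ℓ {jFull N} := by
    rw [hu0]; exact sub_mem a.2 (Subalgebra.algebraMap_mem _ c)
  have hu1mem : u1 ∈ chartAlg N ℓ {(jFull N)⁻¹} := by
    rw [hu1]; exact add_mem b.2 (Subalgebra.algebraMap_mem _ c)
  have hO0 := coe_mem_OSub_of_mem_chartAlg ℓ N _ (hS_fin ℓ N) u0 hu0mem
  have hO1 := coe_mem_OSub_of_mem_chartAlg ℓ N _ (hS_inf ℓ N) u1 hu1mem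
  have hr0 : redS ℓ ⟨u0, hO0⟩ = 0 := by
    have h4 : (⟨u0, hO0⟩ : OSub ℓ) =
        ⟨a, hOa⟩ - ⟨ZlToLS ℓ c, ZlToLS_mem_OSub ℓ c⟩ := Subtype.ext (by
      show ((u0 : ↥(modularFunctionFieldFull N)) : LaurentSeries ℚ) =
        ((a : ↥(modularFunctionFieldFull N)) : LaurentSeries ℚ) - ZlToLS ℓ c
      rw [← coe_algebraMap_Zl ℓ N c, hu0]; rfl)
    rw [h4, map_sub, hc, redS_ZlToLS, sub_self]
  have hr1 : redS ℓ ⟨u1, hO1⟩ = 0 := by
    have h4 : (⟨u1, hO1⟩ : OSub ℓ) =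
        ⟨b, hOb⟩ + ⟨ZlToLS ℓ c, ZlToLS_mem_OSub ℓ c⟩ := Subtype.ext (by
      show ((u1 : ↥(modularFunctionFieldFull N)) : LaurentSeries ℚ) =
        ((b : ↥(modularFunctionFieldFull N)) : LaurentSeries ℚ) + ZlToLS ℓ c
      rw [← coe_algebraMap_Zl ℓ N c, hu1]; rfl)
    rw [h4, map_add, redS_ZlToLS, ← hc]
    linear_combination hsum
  have hy0 := inv_mul_mem_chartAlg_of_redS_eq_zero ℓ N _ (fin_kernel ℓ N hin) u0 hu0mem hO0 hr0
  have hy1 := inv_mul_mem_chartAlg_of_redS_eq_zero ℓ N _ (inf_kernel ℓ N hin) u1 hu1mem hO1 hr1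
  refine ⟨⟨_, hy0⟩, ⟨_, hy1⟩, Subtype.ext ?_⟩
  show (x : ↥(modularFunctionFieldFull N)) =
    (ℓ : ↥(modularFunctionFieldFull N))⁻¹ * u0 + (ℓ : ↥(modularFunctionFieldFull N))⁻¹ * u1
  have h5 : u0 + u1 = (ℓ : ↥(modularFunctionFieldFull N)) * x := by
    rw [← hF, hu0, hu1]; ring
  rw [← mul_add, h5, inv_mul_cancel_left₀ hl0]

/-! ### `S0 ∩ S1 = R` -/

/-- A rational constant lying in the Gauss ring is `ℓ`-integral. -/
theorem rat_mem_of_algebraMap_mem_OSub (r : ℚ)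
    (h : algebraMap ℚ (LaurentSeries ℚ) r ∈ OSub ℓ) : r ∈ GaloisRep.ratLocalizedAt ℓ := by
  have hp : ℓ.Prime := Fact.out
  show r.den.Coprime ℓ
  by_contra hcop
  have hdvd : ℓ ∣ r.den := by
    by_contra hnd
    exact hcop ((Nat.Prime.coprime_iff_not_dvd hp).mpr hnd).symm
  obtain ⟨d, hd⟩ := hdvd
  -- `num = ℓ * (r * d)` in the Gauss ring
  have hnum : ((r.num : ℤ) : OSub ℓ) = (ℓ : OSub ℓ) * (⟨_, h⟩ * (d : OSub ℓ)) := by
    apply Subtype.ext
    show ((r.num : ℤ) : LaurentSeries ℚ) =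
      (ℓ : LaurentSeries ℚ) * (algebraMap ℚ (LaurentSeries ℚ) r * (d : LaurentSeries ℚ))
    have h1 : (r.num : ℚ) = (ℓ : ℚ) * (r * (d : ℚ)) := by
      have h2 := Rat.mul_den_eq_num r
      rw [hd] at h2
      rw [← h2]
      push_cast
      ring
    have h3 := congrArg (algebraMap ℚ (LaurentSeries ℚ)) h1
    rw [map_mul, map_mul, map_natCast, map_natCast, map_intCast] at h3
    exact h3
  have hred : redS ℓ ((r.num : ℤ) : OSub ℓ) = 0 := (redS_eq_zero_iff ℓ _).mpr ⟨_, hnum⟩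
  rw [map_intCast] at hred
  have h4 : ((r.num : ℤ) : ZMod ℓ) = 0 := by
    have h5 : algebraMap (ZMod ℓ) (LaurentSeries (ZMod ℓ)) ((r.num : ℤ) : ZMod ℓ) = 0 := by
      rw [map_intCast]; exact hred
    exact (map_eq_zero_iff _ (algebraMap (ZMod ℓ) (LaurentSeries (ZMod ℓ))).injective).mp h5
  have h6 : (ℓ : ℤ) ∣ r.num := (ZMod.intCast_zmod_eq_zero_iff_dvd _ _).mp h4
  have h7 : ℓ ∣ r.num.natAbs := Int.natCast_dvd.mp h6
  have h8 : ℓ ∣ Nat.gcd r.num.natAbs r.den := Nat.dvd_gcd h7 ⟨d, hd⟩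
  rw [r.reduced.gcd_eq_one] at h8
  exact hp.one_lt.ne' (Nat.dvd_one.mp h8)

theorem isIntegralElem_rat_of_evalS (s x : LaurentSeries ℚ) (h : (evalS ℓ s).IsIntegralElem x) :
    (Polynomial.aeval (R := ℚ) s).toRingHom.IsIntegralElem x := by
  obtain ⟨P, hP, hPx⟩ := h
  refine ⟨P.map (Polynomial.mapRingHom (GaloisRep.ratLocalizedAt ℓ).subtype), hP.map _, ?_⟩
  rw [Polynomial.eval₂_map]
  have h1 : (Polynomial.aeval (R := ℚ) s).toRingHom.comp
      (Polynomial.mapRingHom (GaloisRep.ratLocalizedAt ℓ).subtype) = evalS ℓ s :=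
    RingHom.ext (fun p => (evalS_eq_aeval ℓ s p).symm)
  rw [h1]
  exact hPx

/-- `S0 ∩ S1 = R` inside the function field. -/
theorem eq_algebraMap_of_mem_fin_of_mem_inf (x : ↥(modularFunctionFieldFull N))
    (h0 : x ∈ chartAlg N ℓ {jFull N}) (h1 : x ∈ chartAlg N ℓ {(jFull N)⁻¹}) :
    ∃ c : Zl ℓ, x = algebraMap (Zl ℓ) ↥(modularFunctionFieldFull N) c := by
  have j0 := isIntegral_adjoin_singleton_of_isIntegralElem _ _
    (isIntegralElem_rat_of_evalS ℓ _ _ (isIntegralElem_of_mem_chartAlg ℓ N (jFull N) x h0))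
  have j1 := isIntegral_adjoin_singleton_of_isIntegralElem _ _
    (isIntegralElem_rat_of_evalS ℓ _ _ (isIntegralElem_of_mem_chartAlg ℓ N (jFull N)⁻¹ x h1))
  have hint : IsIntegral ℚ (x : LaurentSeries ℚ) :=
    isIntegral_of_isIntegral_adjoin_of_isIntegral_adjoin_inv transcendental_jq j0 j1
  have hconst := laurentSeries_eq_const_of_isIntegral _ hint
  have hO := coe_mem_OSub_of_mem_chartAlg ℓ N _ (hS_fin ℓ N) x h0
  rw [hconst] at hO
  refine ⟨⟨_, rat_mem_of_algebraMap_mem_OSub ℓ _ hO⟩, Subtype.ext ?_⟩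
  rw [coe_algebraMap_Zl]
  exact hconst

/-- **`H^0`**: `S0 ∩ S1 = R`, chart form. -/
theorem fin_inter_inf (a : ↥(chartAlgFin N ℓ)) (b : ↥(chartAlgInf N ℓ))
    (h : inclFin N ℓ a = inclInf N ℓ b) :
    ∃ c : Zl ℓ, a = algebraMap (Zl ℓ) ↥(chartAlgFin N ℓ) c ∧
      b = algebraMap (Zl ℓ) ↥(chartAlgInf N ℓ) c := by
  have hab : (a : ↥(modularFunctionFieldFull N)) = (b : ↥(modularFunctionFieldFull N)) := by
    have h1 := congrArg Subtype.val h
    rwa [coe_chartIncl, coe_chartIncl] at h1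
  obtain ⟨c, hc⟩ := eq_algebraMap_of_mem_fin_of_mem_inf ℓ N (a : ↥(modularFunctionFieldFull N))
    a.2 (by rw [hab]; exact b.2)
  refine ⟨c, Subtype.ext ?_, Subtype.ext ?_⟩
  · rw [Subalgebra.coe_algebraMap]; exact hc
  · rw [Subalgebra.coe_algebraMap]; exact hab.symm.trans hc

/-! ### Finiteness -/

/-- the evaluation hom `ℤ_(ℓ)[X] → F`, `X ↦ s`. -/
def evalF (s : ↥(modularFunctionFieldFull N)) :
    Polynomial (Zl ℓ) →+* ↥(modularFunctionFieldFull N) :=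
  (Polynomial.aeval (R := Zl ℓ) s).toRingHom

theorem coeF_comp_evalF (s : ↥(modularFunctionFieldFull N)) :
    (coeF N).comp (evalF ℓ N s) = evalS ℓ (s : LaurentSeries ℚ) := by
  apply Polynomial.ringHom_ext
  · intro a
    simp only [evalF, RingHom.coe_comp, Function.comp_apply, AlgHom.toRingHom_eq_coe,
      RingHom.coe_coe, Polynomial.aeval_C, evalS, Polynomial.coe_eval₂RingHom, Polynomial.eval₂_C]
    rw [coeF_apply, coe_algebraMap_Zl]
  · simp only [evalF, RingHom.coe_comp, Function.comp_apply, AlgHom.toRingHom_eq_coe,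
      RingHom.coe_coe, Polynomial.aeval_X, evalS, Polynomial.coe_eval₂RingHom, Polynomial.eval₂_X]
    rfl

theorem evalF_injective (s : ↥(modularFunctionFieldFull N))
    (hs : Function.Injective (Polynomial.aeval (R := ℚ) (s : LaurentSeries ℚ))) :
    Function.Injective (evalF ℓ N s) := by
  intro p q h
  have h1 := congrArg (coeF N) h
  have h2 : evalS ℓ (s : LaurentSeries ℚ) p = evalS ℓ (s : LaurentSeries ℚ) q := by
    rw [← coeF_comp_evalF ℓ N]; exact h1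
  exact evalS_injective ℓ _ hs h2

theorem evalF_isIntegralElem_iff (s y : ↥(modularFunctionFieldFull N)) :
    (evalF ℓ N s).IsIntegralElem y ↔ y ∈ chartAlg N ℓ {s} := by
  constructor
  · rintro ⟨P, hP, hPy⟩
    apply mem_chartAlg_of_isIntegralElem ℓ N s y
    refine ⟨P, hP, ?_⟩
    have h2 := Polynomial.hom_eval₂ P (evalF ℓ N s) (coeF N) y
    rw [hPy, map_zero, coeF_comp_evalF] at h2
    exact h2.symm
  · intro hy
    obtain ⟨P, hP, hPy⟩ := isIntegralElem_of_mem_chartAlg ℓ N s y hy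
    refine ⟨P, hP, coeF_injective N ?_⟩
    rw [Polynomial.hom_eval₂, coeF_comp_evalF, map_zero]
    exact hPy

/-- A chart `chartAlg N ℓ {s}` is a finitely generated module over `ℤ_(ℓ)[s]` as soon as `s` is
transcendental and any `n + 1` elements of `F` are dependent over `ℤ_(ℓ)[s]`. -/
theorem exists_generators_of_dep (s : ↥(modularFunctionFieldFull N))
    (hs : Function.Injective (Polynomial.aeval (R := ℚ) (s : LaurentSeries ℚ))) (n : ℕ)
    (hdep : ∀ x : Fin (n + 1) → ↥(modularFunctionFieldFull N),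
      ∃ c : Fin (n + 1) → Polynomial (Zl ℓ), c ≠ 0 ∧ ∑ i, evalF ℓ N s (c i) * x i = 0) :
    ∃ (m : ℕ) (ω : Fin m → ↥(modularFunctionFieldFull N)),
      (∀ i, ω i ∈ chartAlg N ℓ {s}) ∧
      ∀ x ∈ chartAlg N ℓ {s}, ∃ p : Fin m → Polynomial (Zl ℓ),
        x = ∑ i, Polynomial.aeval s (p i) * ω i := by
  obtain ⟨m, ω, hω, hgen⟩ :=
    exists_finite_generators_of_dep (evalF ℓ N s) (evalF_injective ℓ N s hs) n hdep
  exact ⟨m, ω, fun i => (evalF_isIntegralElem_iff ℓ N s _).mp (hω i),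
    fun x hx => hgen x ((evalF_isIntegralElem_iff ℓ N s x).mpr hx)⟩

theorem map_intCast_poly_injective :
    Function.Injective (Polynomial.map (Int.castRingHom (Zl ℓ))) :=
  Polynomial.map_injective (Int.castRingHom (Zl ℓ))
    (RingHom.injective_int (Int.castRingHom (Zl ℓ)))

/-- `S0` is a finitely generated module over `ℤ_(ℓ)[j]`. -/
theorem exists_generators_fin (hin : Spec.Stmt_CoreInput N ℓ) :
    ∃ (m : ℕ) (ω : Fin m → ↥(modularFunctionFieldFull N)),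
      (∀ i, ω i ∈ chartAlg N ℓ {jFull N}) ∧
      ∀ x ∈ chartAlg N ℓ {jFull N}, ∃ p : Fin m → Polynomial (Zl ℓ),
        x = ∑ i, Polynomial.aeval (jFull N) (p i) * ω i := by
  obtain ⟨n, L, b, hFL, -, -, hdeg, -⟩ := hin
  refine exists_generators_of_dep ℓ N (jFull N)
    (by rw [coe_jFull, ← jqModC_rat]; exact helper3292.aeval_jqModC_injective ℚ) n ?_
  intro x
  obtain ⟨c', hc'0, hc'⟩ := hdeg (fun i => ((x i : ↥(modularFunctionFieldFull N)) :
    LaurentSeries ℚ)) (fun i => hFL (x i).2)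
  refine ⟨fun i => (c' i).map (Int.castRingHom (Zl ℓ)), ?_, coeF_injective N ?_⟩
  · intro h0
    apply hc'0
    funext i
    have h1 := congrFun h0 i
    simp only [Pi.zero_apply] at h1 ⊢
    exact map_intCast_poly_injective ℓ (h1.trans (Polynomial.map_zero _).symm)
  · rw [map_sum, map_zero, ← hc']
    refine Finset.sum_congr rfl (fun i _ => ?_)
    rw [map_mul, ← RingHom.comp_apply, coeF_comp_evalF, coe_jFull, evalS_map_int, coeF_apply]

theorem coe_jFull_inv :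
    (((jFull N)⁻¹ : ↥(modularFunctionFieldFull N)) : LaurentSeries ℚ) = jq⁻¹ := rfl

theorem aeval_jq_inv_reflect (D : ℕ) (p : Polynomial ℤ) (hp : p.natDegree ≤ D) :
    Polynomial.aeval jq⁻¹ (p.reflect D) * jq ^ D = Polynomial.aeval jq p := by
  let _ : Invertible jq := invertibleOfNonzero jq_ne_zero
  have h := Polynomial.eval₂_reflect_mul_pow (algebraMap ℤ (LaurentSeries ℚ)) jq D p hp
  rwa [invOf_eq_inv] at h

/-- `S1` is a finitely generated module over `ℤ_(ℓ)[j⁻¹]`. -/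
theorem exists_generators_inf (hin : Spec.Stmt_CoreInput N ℓ) :
    ∃ (m : ℕ) (ω : Fin m → ↥(modularFunctionFieldFull N)),
      (∀ i, ω i ∈ chartAlg N ℓ {(jFull N)⁻¹}) ∧
      ∀ x ∈ chartAlg N ℓ {(jFull N)⁻¹}, ∃ p : Fin m → Polynomial (Zl ℓ),
        x = ∑ i, Polynomial.aeval (jFull N)⁻¹ (p i) * ω i := by
  obtain ⟨n, L, b, hFL, -, -, hdeg, -⟩ := hin
  refine exists_generators_of_dep ℓ N (jFull N)⁻¹
    (by rw [coe_jFull_inv]; exact helper3292.aeval_jq_inv_injective) n ?_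
  intro x
  obtain ⟨c', hc'0, hc'⟩ := hdeg (fun i => ((x i : ↥(modularFunctionFieldFull N)) :
    LaurentSeries ℚ)) (fun i => hFL (x i).2)
  obtain ⟨D, hD⟩ : ∃ D : ℕ, ∀ i, (c' i).natDegree ≤ D :=
    ⟨Finset.univ.sup (fun i => (c' i).natDegree),
      fun i => Finset.le_sup (f := fun i => (c' i).natDegree) (Finset.mem_univ i)⟩
  refine ⟨fun i => ((c' i).reflect D).map (Int.castRingHom (Zl ℓ)), ?_, coeF_injective N ?_⟩
  · intro h0
    apply hc'0
    funext i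
    have h1 := congrFun h0 i
    simp only [Pi.zero_apply] at h1 ⊢
    have h2 : (c' i).reflect D = 0 :=
      map_intCast_poly_injective ℓ (h1.trans (Polynomial.map_zero _).symm)
    exact (Polynomial.reflect_eq_zero_iff).mp h2
  · rw [map_sum, map_zero]
    have h3 : (∑ i, coeF N (evalF ℓ N (jFull N)⁻¹
        (((c' i).reflect D).map (Int.castRingHom (Zl ℓ))) * x i)) * jq ^ D = 0 := by
      rw [Finset.sum_mul, ← hc']
      refine Finset.sum_congr rfl (fun i _ => ?_)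
      rw [map_mul, ← RingHom.comp_apply, coeF_comp_evalF, coe_jFull_inv, evalS_map_int,
        coeF_apply, mul_right_comm, aeval_jq_inv_reflect D (c' i) (hD i)]
    exact (mul_eq_zero.mp h3).resolve_right (pow_ne_zero _ jq_ne_zero)

/-! ### `S01 = S0 + S1 + (finitely generated)` -/

theorem exists_span_mid (hin : Spec.Stmt_CoreInput N ℓ) :
    ∃ (ι : Type) (_ : Fintype ι) (ζ : ι → ↥(chartAlgMid N ℓ)),
      ∀ x : ↥(chartAlgMid N ℓ), ∃ (a : ↥(chartAlgFin N ℓ)) (b : ↥(chartAlgInf N ℓ))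
        (c : ι → Zl ℓ), x = inclFin N ℓ a + inclInf N ℓ b + ∑ q, c q • ζ q := by
  obtain ⟨m, ω, hω, hgen⟩ := exists_generators_fin ℓ N hin
  have hj0 : jFull N ∈ chartAlgFin N ℓ := subset_chartAlg N ℓ _ rfl
  have hj1 : (jFull N)⁻¹ ∈ chartAlgInf N ℓ := subset_chartAlg N ℓ _ rfl
  have hjm : (jFull N)⁻¹ ∈ chartAlgMid N ℓ := subset_chartAlg N ℓ _ (by simp)
  have hloc0 : ∀ x ∈ chartAlgMid N ℓ, ∃ n : ℕ, jFull N ^ n * x ∈ chartAlgFin N ℓ := by
    intro x hx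
    have hz : x ∈ chartAlg N ℓ (insert (jFull N)⁻¹ {jFull N}) := by
      rw [show insert (jFull N)⁻¹ ({jFull N} : Set ↥(modularFunctionFieldFull N)) =
        {jFull N, (jFull N)⁻¹} from Set.pair_comm _ _]
      exact hx
    exact exists_pow_mul_mem_chartAlg (Set.mem_singleton _) (jFull_ne_zero N) hz
  have hloc1 : ∀ x ∈ chartAlgFin N ℓ, ∃ n : ℕ, (jFull N)⁻¹ ^ n * x ∈ chartAlgInf N ℓ := by
    intro x hx
    have hz : x ∈ chartAlg N ℓ (insert (jFull N)⁻¹⁻¹ {(jFull N)⁻¹}) := by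
      rw [inv_inv]; exact chartAlg_mono N ℓ (sFin_subset N) hx
    exact exists_pow_mul_mem_chartAlg (Set.mem_singleton _) (inv_ne_zero (jFull_ne_zero N)) hz
  obtain ⟨K, hK⟩ := two_chart_span (chartAlgFin N ℓ) (chartAlgInf N ℓ) (chartAlgMid N ℓ)
    (jFull N) (jFull_ne_zero N) hj0 hj1 hloc0 hloc1 m ω hω hgen
  have hζ : ∀ q : Fin m × Fin K, (jFull N)⁻¹ ^ (q.2 : ℕ) * ω q.1 ∈ chartAlgMid N ℓ := fun q =>
    mul_mem (pow_mem hjm _) (chartAlg_mono N ℓ (sFin_subset N) (hω q.1))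
  refine ⟨Fin m × Fin K, inferInstance, fun q => ⟨_, hζ q⟩, fun x => ?_⟩
  obtain ⟨a, ha, b, hb, c, hc⟩ := hK x x.2
  refine ⟨⟨a, ha⟩, ⟨b, hb⟩, c, Subtype.ext ?_⟩
  rw [hc, Subalgebra.coe_add, Subalgebra.coe_add, coe_chartIncl, coe_chartIncl,
    AddSubmonoidClass.coe_finsetSum]
  rfl

/-! ### The Cech complex -/

/-- The submodule `S0 + S1` of `S01`. -/
def chartSum : Submodule (Zl ℓ) ↥(chartAlgMid N ℓ) :=
  LinearMap.range (inclFin N ℓ).toLinearMap ⊔ LinearMap.range (inclInf N ℓ).toLinearMap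

theorem mem_chartSum_iff (x : ↥(chartAlgMid N ℓ)) :
    x ∈ chartSum ℓ N ↔ ∃ (a : ↥(chartAlgFin N ℓ)) (b : ↥(chartAlgInf N ℓ)),
      x = inclFin N ℓ a + inclInf N ℓ b := by
  unfold chartSum
  rw [Submodule.mem_sup]
  constructor
  · rintro ⟨y, ⟨a, rfl⟩, z, ⟨b, rfl⟩, rfl⟩
    exact ⟨a, b, rfl⟩
  · rintro ⟨a, b, rfl⟩
    exact ⟨_, ⟨a, rfl⟩, _, ⟨b, rfl⟩, rfl⟩

theorem finite_quotient_chartSum (hin : Spec.Stmt_CoreInput N ℓ) :
    Module.Finite (Zl ℓ) (↥(chartAlgMid N ℓ) ⧸ chartSum ℓ N) := by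
  obtain ⟨ι, _, ζ, hζ⟩ := exists_span_mid ℓ N hin
  refine Module.Finite.of_surjective
    ((chartSum ℓ N).mkQ ∘ₗ Fintype.linearCombination (Zl ℓ) ζ) ?_
  intro h
  obtain ⟨x, rfl⟩ := (chartSum ℓ N).mkQ_surjective h
  obtain ⟨a, b, c, hx⟩ := hζ x
  refine ⟨c, ?_⟩
  rw [LinearMap.comp_apply, Fintype.linearCombination_apply, Submodule.mkQ_apply,
    Submodule.mkQ_apply, Submodule.Quotient.eq, hx]
  have h1 : ∑ q, c q • ζ q - (inclFin N ℓ a + inclInf N ℓ b + ∑ q, c q • ζ q) =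
      inclFin N ℓ (-a) + inclInf N ℓ (-b) := by
    rw [map_neg, map_neg]; abel
  rw [h1]
  exact (mem_chartSum_iff ℓ N _).mpr ⟨_, _, rfl⟩

theorem chartSum_saturated (hin : Spec.Stmt_CoreInput N ℓ) (r : Zl ℓ)
    (x : ↥(chartAlgMid N ℓ)) (hr : r ≠ 0) (h : r • x ∈ chartSum ℓ N) : x ∈ chartSum ℓ N := by
  refine saturated_of_uniformiser (chartSum ℓ N) (ℓ : Zl ℓ) (helper508.irreducible_ell ℓ)
    (fun y hy => ?_) r x hr h
  obtain ⟨a, b, hab⟩ := (mem_chartSum_iff ℓ N _).mp hy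
  obtain ⟨a', b', h'⟩ := sat_key ℓ N hin a b y hab.symm
  exact (mem_chartSum_iff ℓ N _).mpr ⟨a', b', h'⟩

/-- **H1FREE, coordinate form**: `S01 / (S0 + S1)` is a free `ℤ_(ℓ)`-module of finite rank `g`:
there is a surjective linear map `π : S01 → ℤ_(ℓ)^g` with kernel `S0 + S1`. -/
theorem exists_coords (hin : Spec.Stmt_CoreInput N ℓ) :
    ∃ (g : ℕ) (π : ↥(chartAlgMid N ℓ) →ₗ[Zl ℓ] (Fin g → Zl ℓ)),
      Function.Surjective π ∧ LinearMap.ker π = chartSum ℓ N :=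
  exists_coords_quotient (chartSum ℓ N) (finite_quotient_chartSum ℓ N hin)
    (chartSum_saturated ℓ N hin)

/-- **H1FREE, basis form**: the Cech complex `0 → R → S0 × S1 → S01 → R^g → 0` is exact:
`S01 = S0 + S1 + ⨁ R η i`, the `η i` are `R`-independent modulo `S0 + S1`, and
`S0 ∩ S1 = R`. -/
theorem h1free (hin : Spec.Stmt_CoreInput N ℓ) :
    ∃ (g : ℕ) (η : Fin g → ↥(chartAlgMid N ℓ)),
      (∀ x : ↥(chartAlgMid N ℓ), ∃ (a : ↥(chartAlgFin N ℓ)) (b : ↥(chartAlgInf N ℓ))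
        (r : Fin g → Zl ℓ), x = inclFin N ℓ a + inclInf N ℓ b + ∑ i, r i • η i) ∧
      (∀ (a : ↥(chartAlgFin N ℓ)) (b : ↥(chartAlgInf N ℓ)) (r : Fin g → Zl ℓ),
        inclFin N ℓ a + inclInf N ℓ b + ∑ i, r i • η i = 0 →
        r = 0 ∧ ∃ c : Zl ℓ, a = algebraMap (Zl ℓ) ↥(chartAlgFin N ℓ) c ∧
          b = - algebraMap (Zl ℓ) ↥(chartAlgInf N ℓ) c) := by
  obtain ⟨g, π, hsurj, hker⟩ := exists_coords ℓ N hin
  choose η hη using fun i : Fin g => hsurj (Pi.single i 1)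
  have hπsum : ∀ r : Fin g → Zl ℓ, π (∑ i, r i • η i) = r := by
    intro r
    rw [map_sum]
    simp only [map_smul, hη]
    funext j
    simp [Finset.sum_apply, Pi.single_apply]
  have hπ0 : ∀ (a : ↥(chartAlgFin N ℓ)) (b : ↥(chartAlgInf N ℓ)),
      π (inclFin N ℓ a + inclInf N ℓ b) = 0 := by
    intro a b
    rw [← LinearMap.mem_ker, hker]
    exact (mem_chartSum_iff ℓ N _).mpr ⟨a, b, rfl⟩
  refine ⟨g, η, fun x => ?_, fun a b r h => ?_⟩
  · have hx : x - ∑ i, π x i • η i ∈ chartSum ℓ N := by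
      rw [← hker, LinearMap.mem_ker, map_sub, hπsum, sub_self]
    obtain ⟨a, b, hab⟩ := (mem_chartSum_iff ℓ N _).mp hx
    exact ⟨a, b, π x, by rw [← hab]; abel⟩
  · have h1 := congrArg π h
    rw [map_add, hπ0, hπsum, zero_add, map_zero] at h1
    refine ⟨h1, ?_⟩
    subst h1
    have h2 : inclFin N ℓ a = inclInf N ℓ (-b) := by
      have h3 : inclFin N ℓ a + inclInf N ℓ b = 0 := by
        simpa using h
      rw [map_neg]
      exact eq_neg_of_add_eq_zero_left h3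
    obtain ⟨c, hc1, hc2⟩ := fin_inter_inf ℓ N a (-b) h2
    exact ⟨c, hc1, by rw [← hc2, neg_neg]⟩

/-! ### Flatness of the charts, and the five facts of a Cech datum -/

theorem algebraMap_Zl_injective :
    Function.Injective (algebraMap (Zl ℓ) ↥(modularFunctionFieldFull N)) := by
  rw [injective_iff_map_eq_zero]
  intro r h
  have h3 : algebraMap ℚ ↥(modularFunctionFieldFull N) (algebraMap (Zl ℓ) ℚ r) = 0 := by
    rw [← IsScalarTower.algebraMap_apply]; exact h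
  have h4 : algebraMap (Zl ℓ) ℚ r = 0 :=
    (map_eq_zero_iff _ (algebraMap ℚ ↥(modularFunctionFieldFull N)).injective).mp h3
  exact Subtype.ext h4

/-- Every chart algebra is torsion-free over `ℤ_(ℓ)`. -/
theorem isTorsionFree_chartAlg (S : Set ↥(modularFunctionFieldFull N)) :
    Module.IsTorsionFree (Zl ℓ) ↥(chartAlg N ℓ S) := by
  refine Module.IsTorsionFree.of_smul_eq_zero (fun r x h => ?_)
  by_cases hr : r = 0
  · exact Or.inl hr
  right
  have h1 := congrArg Subtype.val h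
  rw [Subalgebra.coe_smul, Algebra.smul_def] at h1
  rcases mul_eq_zero.mp h1 with h2 | h2
  · exact absurd (algebraMap_Zl_injective ℓ N (h2.trans (map_zero _).symm)) hr
  · exact Subtype.ext h2

/-- Every chart algebra is flat over `ℤ_(ℓ)`. -/
theorem flat_chartAlg (S : Set ↥(modularFunctionFieldFull N)) :
    Module.Flat (Zl ℓ) ↥(chartAlg N ℓ S) := by
  have := isTorsionFree_chartAlg ℓ N S
  infer_instance

theorem algebraMap_chartAlg_injective (S : Set ↥(modularFunctionFieldFull N)) :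
    Function.Injective (algebraMap (Zl ℓ) ↥(chartAlg N ℓ S)) := by
  intro r r' h
  have h1 := congrArg Subtype.val h
  rw [Subalgebra.coe_algebraMap, Subalgebra.coe_algebraMap] at h1
  exact algebraMap_Zl_injective ℓ N h1

/-- **S19-H1FREE, Cech-datum form**: the five fields of `helper2972.IsCechDatum` for the Igusa
charts (`span`, `indep`, `inter`, `inj`, `flat`), verbatim. -/
theorem exists_cechDatum_fields (hin : Spec.Stmt_CoreInput N ℓ) :
    ∃ (g : ℕ) (η : Fin g → ↥(chartAlgMid N ℓ)),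
      (∀ x : ↥(chartAlgMid N ℓ), ∃ (x0 : ↥(chartAlgFin N ℓ)) (x1 : ↥(chartAlgInf N ℓ))
        (c : Fin g → Zl ℓ), x = inclFin N ℓ x0 + inclInf N ℓ x1 + ∑ i, c i • η i) ∧
      (∀ (x0 : ↥(chartAlgFin N ℓ)) (x1 : ↥(chartAlgInf N ℓ)) (c : Fin g → Zl ℓ),
        inclFin N ℓ x0 + inclInf N ℓ x1 + ∑ i, c i • η i = 0 → c = 0) ∧
      (∀ (x0 : ↥(chartAlgFin N ℓ)) (x1 : ↥(chartAlgInf N ℓ)), inclFin N ℓ x0 = inclInf N ℓ x1 →
        ∃ r : Zl ℓ, x0 = algebraMap (Zl ℓ) ↥(chartAlgFin N ℓ) r ∧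
          x1 = algebraMap (Zl ℓ) ↥(chartAlgInf N ℓ) r) ∧
      (∀ r : Zl ℓ, algebraMap (Zl ℓ) ↥(chartAlgFin N ℓ) r = 0 →
        algebraMap (Zl ℓ) ↥(chartAlgInf N ℓ) r = 0 → r = 0) ∧
      Module.Flat (Zl ℓ) ↥(chartAlgMid N ℓ) := by
  obtain ⟨g, η, hspan, hindep⟩ := h1free ℓ N hin
  exact ⟨g, η, hspan, fun x0 x1 c h => (hindep x0 x1 c h).1, fin_inter_inf ℓ N,
    fun r h _ => algebraMap_chartAlg_injective ℓ N _ (h.trans (map_zero _).symm),
    flat_chartAlg ℓ N _⟩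

/-! ### Finiteness over the polynomial rings, `RingHom.Finite` form -/

theorem finite_aeval_of_generators (s : ↥(modularFunctionFieldFull N))
    (hs : s ∈ chartAlg N ℓ {s})
    (h : ∃ (m : ℕ) (ω : Fin m → ↥(modularFunctionFieldFull N)),
      (∀ i, ω i ∈ chartAlg N ℓ {s}) ∧
      ∀ x ∈ chartAlg N ℓ {s}, ∃ p : Fin m → Polynomial (Zl ℓ),
        x = ∑ i, Polynomial.aeval s (p i) * ω i) :
    (Polynomial.aeval (R := Zl ℓ) (⟨s, hs⟩ : ↥(chartAlg N ℓ {s}))).toRingHom.Finite := by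
  obtain ⟨m, ω, hω, hgen⟩ := h
  let _ : Algebra (Polynomial (Zl ℓ)) ↥(chartAlg N ℓ {s}) :=
    (Polynomial.aeval (R := Zl ℓ) (⟨s, hs⟩ : ↥(chartAlg N ℓ {s}))).toRingHom.toAlgebra
  show Module.Finite (Polynomial (Zl ℓ)) ↥(chartAlg N ℓ {s})
  refine Module.Finite.of_surjective (Fintype.linearCombination (Polynomial (Zl ℓ))
    (fun i => (⟨ω i, hω i⟩ : ↥(chartAlg N ℓ {s})))) ?_
  intro x
  obtain ⟨p, hp⟩ := hgen x x.2
  refine ⟨p, Subtype.ext ?_⟩
  rw [Fintype.linearCombination_apply, hp, AddSubmonoidClass.coe_finsetSum]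
  refine Finset.sum_congr rfl (fun i _ => ?_)
  rw [Algebra.smul_def, Subalgebra.coe_mul, RingHom.algebraMap_toAlgebra,
    AlgHom.toRingHom_eq_coe, RingHom.coe_coe, Polynomial.aeval_subalgebra_coe]

/-- `chartAlgFin N ℓ` is a finite module over `ℤ_(ℓ)[X]`, `X ↦ j`. -/
theorem finite_aeval_jChartFin (hin : Spec.Stmt_CoreInput N ℓ) :
    (Polynomial.aeval (R := Zl ℓ) (jChartFin N ℓ)).toRingHom.Finite :=
  finite_aeval_of_generators ℓ N (jFull N) (subset_chartAlg N ℓ _ rfl)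
    (exists_generators_fin ℓ N hin)

/-- `chartAlgInf N ℓ` is a finite module over `ℤ_(ℓ)[X]`, `X ↦ j⁻¹`. -/
theorem finite_aeval_jInvChartInf (hin : Spec.Stmt_CoreInput N ℓ) :
    (Polynomial.aeval (R := Zl ℓ) (jInvChartInf N ℓ)).toRingHom.Finite :=
  finite_aeval_of_generators ℓ N (jFull N)⁻¹ (subset_chartAlg N ℓ _ rfl)
    (exists_generators_inf ℓ N hin)

end Fermat.Agent.S19.helper2052
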