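import Fermat.Agent.S19.helper2052_H1FreeMain

/-!
# The Cech complex of the two Igusa charts, for EVERY level and EVERY prime

`R = ℤ_(ℓ)`, `S0 = chartAlgFin N ℓ`, `S1 = chartAlgInf N ℓ`, `S01 = chartAlgMid N ℓ`; here `ℓ` is
an arbitrary prime (`ℓ ∣ N` allowed).

* finiteness (no hypothesis): `exists_generators_fin_all`, `exists_generators_inf_all`,
  `exists_span_mid_all`, `finite_quotient_chartSum_all`, `finite_aeval_jChartFin_all`,
  `finite_aeval_jInvChartInf_all`, `exists_bounded_torsion_all`;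
* hypothesis-passing freeness: if `S0 + S1` is `ℓ`-saturated in `S01` (`hsat`), then
  `S01 / (S0 + S1)` is free of finite rank: `exists_coords_of_sat`, `h1free_of_sat`,
  `exists_cechDatum_fields_of_sat` (the five fields of a Cech datum, verbatim as in
  `exists_cechDatum_fields`).

The only modular input is the degree bound `[F_N : ℚ(j)] ≤ ψ(N)` of S28, which holds for every `N`.
-/

set_option autoImplicit false
set_option linter.unusedSectionVars false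

noncomputable section

open ModularCurve ModularCurve.IgusaScheme Polynomial

namespace Fermat.Agent.S19.helper2052

open Fermat.Agent.S28 Fermat.Agent.S28.helper1588

variable (ℓ : ℕ) [Fact ℓ.Prime] (N : ℕ) [NeZero N]

/-- `[F_N : ℚ(j)] ≤ ψ(N)` in the elementary form of S28, for every level. -/
theorem degLE_all : Spec.DegLE (modularFunctionFieldFull N) (dedekindPsi N) :=
  Fermat.Agent.S28.helper559.degLE_of_formalPrime N
    (fun p _ _ => Fermat.Agent.S28.helper508.stmt_FormalPrime p)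

/-! ### Finiteness -/

/-- `S0` is a finitely generated module over `ℤ_(ℓ)[j]` (any `N`, any prime `ℓ`). -/
theorem exists_generators_fin_all :
    ∃ (m : ℕ) (ω : Fin m → ↥(modularFunctionFieldFull N)),
      (∀ i, ω i ∈ chartAlg N ℓ {jFull N}) ∧
      ∀ x ∈ chartAlg N ℓ {jFull N}, ∃ p : Fin m → Polynomial (Zl ℓ),
        x = ∑ i, Polynomial.aeval (jFull N) (p i) * ω i := by
  have hdeg := degLE_all N
  refine exists_generators_of_dep ℓ N (jFull N)
    (by rw [coe_jFull, ← jqModC_rat]; exact helper3292.aeval_jqModC_injective ℚ)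
    (dedekindPsi N) ?_
  intro x
  obtain ⟨c', hc'0, hc'⟩ := hdeg (fun i => ((x i : ↥(modularFunctionFieldFull N)) :
    LaurentSeries ℚ)) (fun i => (x i).2)
  refine ⟨fun i => (c' i).map (Int.castRingHom (Zl ℓ)), ?_, coeF_injective N ?_⟩
  · intro h0
    apply hc'0
    funext i
    have h1 := congrFun h0 i
    simp only [Pi.zero_apply] at h1 ⊢
    exact map_intCast_poly_injective ℓ (h1.trans (Polynomial.map_zero _).symm)
  · rw [map_sum, map_zero, ← hc']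
    refine Finset.sum_congr rfl (fun i _ => ?_)
    rw [map_mul, ← RingHom.comp_apply, coeF_comp_evalF, coe_jFull, evalS_map_int, coeF_apply]

/-- `S1` is a finitely generated module over `ℤ_(ℓ)[j⁻¹]` (any `N`, any prime `ℓ`). -/
theorem exists_generators_inf_all :
    ∃ (m : ℕ) (ω : Fin m → ↥(modularFunctionFieldFull N)),
      (∀ i, ω i ∈ chartAlg N ℓ {(jFull N)⁻¹}) ∧
      ∀ x ∈ chartAlg N ℓ {(jFull N)⁻¹}, ∃ p : Fin m → Polynomial (Zl ℓ),
        x = ∑ i, Polynomial.aeval (jFull N)⁻¹ (p i) * ω i := by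
  have hdeg := degLE_all N
  refine exists_generators_of_dep ℓ N (jFull N)⁻¹
    (by rw [coe_jFull_inv]; exact helper3292.aeval_jq_inv_injective) (dedekindPsi N) ?_
  intro x
  obtain ⟨c', hc'0, hc'⟩ := hdeg (fun i => ((x i : ↥(modularFunctionFieldFull N)) :
    LaurentSeries ℚ)) (fun i => (x i).2)
  obtain ⟨D, hD⟩ : ∃ D : ℕ, ∀ i, (c' i).natDegree ≤ D :=
    ⟨Finset.univ.sup (fun i => (c' i).natDegree),
      fun i => Finset.le_sup (f := fun i => (c' i).natDegree) (Finset.mem_univ i)⟩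
  refine ⟨fun i => ((c' i).reflect D).map (Int.castRingHom (Zl ℓ)), ?_, coeF_injective N ?_⟩
  · intro h0
    apply hc'0
    funext i
    have h1 := congrFun h0 i
    simp only [Pi.zero_apply] at h1 ⊢
    have h2 : (c' i).reflect D = 0 :=
      map_intCast_poly_injective ℓ (h1.trans (Polynomial.map_zero _).symm)
    exact (Polynomial.reflect_eq_zero_iff).mp h2
  · rw [map_sum, map_zero]
    have h3 : (∑ i, coeF N (evalF ℓ N (jFull N)⁻¹
        (((c' i).reflect D).map (Int.castRingHom (Zl ℓ))) * x i)) * jq ^ D = 0 := by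
      rw [Finset.sum_mul, ← hc']
      refine Finset.sum_congr rfl (fun i _ => ?_)
      rw [map_mul, ← RingHom.comp_apply, coeF_comp_evalF, coe_jFull_inv, evalS_map_int,
        coeF_apply, mul_right_comm, aeval_jq_inv_reflect D (c' i) (hD i)]
    exact (mul_eq_zero.mp h3).resolve_right (pow_ne_zero _ jq_ne_zero)

/-- `S01 = S0 + S1 + (a finitely generated ℤ_(ℓ)-module)` (any `N`, any prime `ℓ`). -/
theorem exists_span_mid_all :
    ∃ (ι : Type) (_ : Fintype ι) (ζ : ι → ↥(chartAlgMid N ℓ)),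
      ∀ x : ↥(chartAlgMid N ℓ), ∃ (a : ↥(chartAlgFin N ℓ)) (b : ↥(chartAlgInf N ℓ))
        (c : ι → Zl ℓ), x = inclFin N ℓ a + inclInf N ℓ b + ∑ q, c q • ζ q := by
  obtain ⟨m, ω, hω, hgen⟩ := exists_generators_fin_all ℓ N
  have hj0 : jFull N ∈ chartAlgFin N ℓ := subset_chartAlg N ℓ _ rfl
  have hj1 : (jFull N)⁻¹ ∈ chartAlgInf N ℓ := subset_chartAlg N ℓ _ rfl
  have hjm : (jFull N)⁻¹ ∈ chartAlgMid N ℓ := subset_chartAlg N ℓ _ (by simp)
  have hloc0 : ∀ x ∈ chartAlgMid N ℓ, ∃ n : ℕ, jFull N ^ n * x ∈ chartAlgFin N ℓ := by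
    intro x hx
    have hz : x ∈ chartAlg N ℓ (insert (jFull N)⁻¹ {jFull N}) := by
      rw [show insert (jFull N)⁻¹ ({jFull N} : Set ↥(modularFunctionFieldFull N)) =
        {jFull N, (jFull N)⁻¹} from Set.pair_comm _ _]
      exact hx
    exact exists_pow_mul_mem_chartAlg (Set.mem_singleton _) (jFull_ne_zero N) hz
  have hloc1 : ∀ x ∈ chartAlgFin N ℓ, ∃ n : ℕ, (jFull N)⁻¹ ^ n * x ∈ chartAlgInf N ℓ := by
    intro x hx
    have hz : x ∈ chartAlg N ℓ (insert (jFull N)⁻¹⁻¹ {(jFull N)⁻¹}) := by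
      rw [inv_inv]; exact chartAlg_mono N ℓ (sFin_subset N) hx
    exact exists_pow_mul_mem_chartAlg (Set.mem_singleton _) (inv_ne_zero (jFull_ne_zero N)) hz
  obtain ⟨K, hK⟩ := two_chart_span (chartAlgFin N ℓ) (chartAlgInf N ℓ) (chartAlgMid N ℓ)
    (jFull N) (jFull_ne_zero N) hj0 hj1 hloc0 hloc1 m ω hω hgen
  have hζ : ∀ q : Fin m × Fin K, (jFull N)⁻¹ ^ (q.2 : ℕ) * ω q.1 ∈ chartAlgMid N ℓ := fun q =>
    mul_mem (pow_mem hjm _) (chartAlg_mono N ℓ (sFin_subset N) (hω q.1))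
  refine ⟨Fin m × Fin K, inferInstance, fun q => ⟨_, hζ q⟩, fun x => ?_⟩
  obtain ⟨a, ha, b, hb, c, hc⟩ := hK x x.2
  refine ⟨⟨a, ha⟩, ⟨b, hb⟩, c, Subtype.ext ?_⟩
  rw [hc, Subalgebra.coe_add, Subalgebra.coe_add, coe_chartIncl, coe_chartIncl,
    AddSubmonoidClass.coe_finsetSum]
  rfl

/-- `H^1 = S01 / (S0 + S1)` is a finitely generated `ℤ_(ℓ)`-module (any `N`, any prime `ℓ`). -/
theorem finite_quotient_chartSum_all :
    Module.Finite (Zl ℓ) (↥(chartAlgMid N ℓ) ⧸ chartSum ℓ N) := by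
  obtain ⟨ι, _, ζ, hζ⟩ := exists_span_mid_all ℓ N
  refine Module.Finite.of_surjective
    ((chartSum ℓ N).mkQ ∘ₗ Fintype.linearCombination (Zl ℓ) ζ) ?_
  intro h
  obtain ⟨x, rfl⟩ := (chartSum ℓ N).mkQ_surjective h
  obtain ⟨a, b, c, hx⟩ := hζ x
  refine ⟨c, ?_⟩
  rw [LinearMap.comp_apply, Fintype.linearCombination_apply, Submodule.mkQ_apply,
    Submodule.mkQ_apply, Submodule.Quotient.eq, hx]
  have h1 : ∑ q, c q • ζ q - (inclFin N ℓ a + inclInf N ℓ b + ∑ q, c q • ζ q) =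
      inclFin N ℓ (-a) + inclInf N ℓ (-b) := by
    rw [map_neg, map_neg]; abel
  rw [h1]
  exact (mem_chartSum_iff ℓ N _).mpr ⟨_, _, rfl⟩

/-- `chartAlgFin N ℓ` is a finite module over `ℤ_(ℓ)[X]`, `X ↦ j` (any `N`, any prime `ℓ`). -/
theorem finite_aeval_jChartFin_all :
    (Polynomial.aeval (R := Zl ℓ) (jChartFin N ℓ)).toRingHom.Finite :=
  finite_aeval_of_generators ℓ N (jFull N) (subset_chartAlg N ℓ _ rfl)
    (exists_generators_fin_all ℓ N)

/-- `chartAlgInf N ℓ` is a finite module over `ℤ_(ℓ)[X]`, `X ↦ j⁻¹` (any `N`, any prime `ℓ`). -/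
theorem finite_aeval_jInvChartInf_all :
    (Polynomial.aeval (R := Zl ℓ) (jInvChartInf N ℓ)).toRingHom.Finite :=
  finite_aeval_of_generators ℓ N (jFull N)⁻¹ (subset_chartAlg N ℓ _ rfl)
    (exists_generators_inf_all ℓ N)

/-- **Bounded torsion of `H^1`** (any `N`, any prime `ℓ`): one exponent `k` such that every
`x ∈ S01` with `ℓ ^ m • x ∈ S0 + S1` for some `m` already has `ℓ ^ k • x ∈ S0 + S1`. -/
theorem exists_bounded_torsion_all :
    ∃ k : ℕ, ∀ (m : ℕ) (x : ↥(chartAlgMid N ℓ)),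
      ((ℓ : Zl ℓ) ^ m) • x ∈ chartSum ℓ N → ((ℓ : Zl ℓ) ^ k) • x ∈ chartSum ℓ N := by
  have hfin := finite_quotient_chartSum_all ℓ N
  have hnoeth : IsNoetherianRing (Zl ℓ) := by
    have := helper508.irreducible_ell ℓ
    infer_instance
  have hN : IsNoetherian (Zl ℓ) (↥(chartAlgMid N ℓ) ⧸ chartSum ℓ N) :=
    isNoetherian_of_isNoetherianRing_of_finite _ _
  let f : ℕ →o Submodule (Zl ℓ) (↥(chartAlgMid N ℓ) ⧸ chartSum ℓ N) :=
    ⟨fun n => LinearMap.ker (LinearMap.lsmul (Zl ℓ) _ ((ℓ : Zl ℓ) ^ n)), by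
      intro n m hnm z hz
      simp only [LinearMap.mem_ker, LinearMap.lsmul_apply] at hz ⊢
      obtain ⟨d, rfl⟩ := Nat.exists_eq_add_of_le hnm
      rw [pow_add, mul_comm, mul_smul, hz, smul_zero]⟩
  obtain ⟨k, hk⟩ := monotone_stabilizes_iff_noetherian.mpr hN f
  refine ⟨k, fun m x hx => ?_⟩
  have hz : (chartSum ℓ N).mkQ x ∈ f m := by
    show (chartSum ℓ N).mkQ x ∈ LinearMap.ker (LinearMap.lsmul (Zl ℓ) _ ((ℓ : Zl ℓ) ^ m))
    rw [LinearMap.mem_ker, LinearMap.lsmul_apply, ← map_smul, Submodule.mkQ_apply,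
      Submodule.Quotient.mk_eq_zero]
    exact hx
  have hz' : (chartSum ℓ N).mkQ x ∈ f (max k m) := f.monotone (le_max_right k m) hz
  rw [← hk (max k m) (le_max_left k m)] at hz'
  have hz'' : (chartSum ℓ N).mkQ x ∈
      LinearMap.ker (LinearMap.lsmul (Zl ℓ) _ ((ℓ : Zl ℓ) ^ k)) := hz'
  rw [LinearMap.mem_ker, LinearMap.lsmul_apply, ← map_smul, Submodule.mkQ_apply,
    Submodule.Quotient.mk_eq_zero] at hz''
  exact hz''

/-! ### Freeness from saturation (hypothesis-passing) -/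

/-- `S0 + S1` is saturated in `S01` as soon as it is `ℓ`-saturated. -/
theorem chartSum_saturated_of_sat
    (hsat : ∀ (a : ↥(chartAlgFin N ℓ)) (b : ↥(chartAlgInf N ℓ)) (x : ↥(chartAlgMid N ℓ)),
      inclFin N ℓ a + inclInf N ℓ b = (ℓ : Zl ℓ) • x →
      ∃ (a' : ↥(chartAlgFin N ℓ)) (b' : ↥(chartAlgInf N ℓ)),
        x = inclFin N ℓ a' + inclInf N ℓ b')
    (r : Zl ℓ) (x : ↥(chartAlgMid N ℓ)) (hr : r ≠ 0) (h : r • x ∈ chartSum ℓ N) :
    x ∈ chartSum ℓ N := by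
  refine saturated_of_uniformiser (chartSum ℓ N) (ℓ : Zl ℓ) (helper508.irreducible_ell ℓ)
    (fun y hy => ?_) r x hr h
  obtain ⟨a, b, hab⟩ := (mem_chartSum_iff ℓ N _).mp hy
  obtain ⟨a', b', h'⟩ := hsat a b y hab.symm
  exact (mem_chartSum_iff ℓ N _).mpr ⟨a', b', h'⟩

/-- **Coordinate form**: if `S0 + S1` is `ℓ`-saturated in `S01`, then `S01 / (S0 + S1)` is a free
`ℤ_(ℓ)`-module of finite rank. -/
theorem exists_coords_of_sat
    (hsat : ∀ (a : ↥(chartAlgFin N ℓ)) (b : ↥(chartAlgInf N ℓ)) (x : ↥(chartAlgMid N ℓ)),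
      inclFin N ℓ a + inclInf N ℓ b = (ℓ : Zl ℓ) • x →
      ∃ (a' : ↥(chartAlgFin N ℓ)) (b' : ↥(chartAlgInf N ℓ)),
        x = inclFin N ℓ a' + inclInf N ℓ b') :
    ∃ (g : ℕ) (π : ↥(chartAlgMid N ℓ) →ₗ[Zl ℓ] (Fin g → Zl ℓ)),
      Function.Surjective π ∧ LinearMap.ker π = chartSum ℓ N :=
  exists_coords_quotient (chartSum ℓ N) (finite_quotient_chartSum_all ℓ N)
    (chartSum_saturated_of_sat ℓ N hsat)

/-- **Basis form**: if `S0 + S1` is `ℓ`-saturated in `S01`, the Cech complex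
`0 → R → S0 × S1 → S01 → R^g → 0` is exact. -/
theorem h1free_of_sat
    (hsat : ∀ (a : ↥(chartAlgFin N ℓ)) (b : ↥(chartAlgInf N ℓ)) (x : ↥(chartAlgMid N ℓ)),
      inclFin N ℓ a + inclInf N ℓ b = (ℓ : Zl ℓ) • x →
      ∃ (a' : ↥(chartAlgFin N ℓ)) (b' : ↥(chartAlgInf N ℓ)),
        x = inclFin N ℓ a' + inclInf N ℓ b') :
    ∃ (g : ℕ) (η : Fin g → ↥(chartAlgMid N ℓ)),
      (∀ x : ↥(chartAlgMid N ℓ), ∃ (a : ↥(chartAlgFin N ℓ)) (b : ↥(chartAlgInf N ℓ))
        (r : Fin g → Zl ℓ), x = inclFin N ℓ a + inclInf N ℓ b + ∑ i, r i • η i) ∧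
      (∀ (a : ↥(chartAlgFin N ℓ)) (b : ↥(chartAlgInf N ℓ)) (r : Fin g → Zl ℓ),
        inclFin N ℓ a + inclInf N ℓ b + ∑ i, r i • η i = 0 →
        r = 0 ∧ ∃ c : Zl ℓ, a = algebraMap (Zl ℓ) ↥(chartAlgFin N ℓ) c ∧
          b = - algebraMap (Zl ℓ) ↥(chartAlgInf N ℓ) c) := by
  obtain ⟨g, π, hsurj, hker⟩ := exists_coords_of_sat ℓ N hsat
  choose η hη using fun i : Fin g => hsurj (Pi.single i 1)
  have hπsum : ∀ r : Fin g → Zl ℓ, π (∑ i, r i • η i) = r := by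
    intro r
    rw [map_sum]
    simp only [map_smul, hη]
    funext j
    simp [Finset.sum_apply, Pi.single_apply]
  have hπ0 : ∀ (a : ↥(chartAlgFin N ℓ)) (b : ↥(chartAlgInf N ℓ)),
      π (inclFin N ℓ a + inclInf N ℓ b) = 0 := by
    intro a b
    rw [← LinearMap.mem_ker, hker]
    exact (mem_chartSum_iff ℓ N _).mpr ⟨a, b, rfl⟩
  refine ⟨g, η, fun x => ?_, fun a b r h => ?_⟩
  · have hx : x - ∑ i, π x i • η i ∈ chartSum ℓ N := by
      rw [← hker, LinearMap.mem_ker, map_sub, hπsum, sub_self]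
    obtain ⟨a, b, hab⟩ := (mem_chartSum_iff ℓ N _).mp hx
    exact ⟨a, b, π x, by rw [← hab]; abel⟩
  · have h1 := congrArg π h
    rw [map_add, hπ0, hπsum, zero_add, map_zero] at h1
    refine ⟨h1, ?_⟩
    subst h1
    have h2 : inclFin N ℓ a = inclInf N ℓ (-b) := by
      have h3 : inclFin N ℓ a + inclInf N ℓ b = 0 := by
        simpa using h
      rw [map_neg]
      exact eq_neg_of_add_eq_zero_left h3
    obtain ⟨c, hc1, hc2⟩ := fin_inter_inf ℓ N a (-b) h2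
    exact ⟨c, hc1, by rw [← hc2, neg_neg]⟩

/-- **Cech-datum form** (any `N`, any prime `ℓ`): if `S0 + S1` is `ℓ`-saturated in `S01`, the five
fields `span`, `indep`, `inter`, `inj`, `flat` of a Cech datum hold for the Igusa charts, verbatim
as in `exists_cechDatum_fields`. -/
theorem exists_cechDatum_fields_of_sat
    (hsat : ∀ (a : ↥(chartAlgFin N ℓ)) (b : ↥(chartAlgInf N ℓ)) (x : ↥(chartAlgMid N ℓ)),
      inclFin N ℓ a + inclInf N ℓ b = (ℓ : Zl ℓ) • x →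
      ∃ (a' : ↥(chartAlgFin N ℓ)) (b' : ↥(chartAlgInf N ℓ)),
        x = inclFin N ℓ a' + inclInf N ℓ b') :
    ∃ (g : ℕ) (η : Fin g → ↥(chartAlgMid N ℓ)),
      (∀ x : ↥(chartAlgMid N ℓ), ∃ (x0 : ↥(chartAlgFin N ℓ)) (x1 : ↥(chartAlgInf N ℓ))
        (c : Fin g → Zl ℓ), x = inclFin N ℓ x0 + inclInf N ℓ x1 + ∑ i, c i • η i) ∧
      (∀ (x0 : ↥(chartAlgFin N ℓ)) (x1 : ↥(chartAlgInf N ℓ)) (c : Fin g → Zl ℓ),
        inclFin N ℓ x0 + inclInf N ℓ x1 + ∑ i, c i • η i = 0 → c = 0) ∧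
      (∀ (x0 : ↥(chartAlgFin N ℓ)) (x1 : ↥(chartAlgInf N ℓ)), inclFin N ℓ x0 = inclInf N ℓ x1 →
        ∃ r : Zl ℓ, x0 = algebraMap (Zl ℓ) ↥(chartAlgFin N ℓ) r ∧
          x1 = algebraMap (Zl ℓ) ↥(chartAlgInf N ℓ) r) ∧
      (∀ r : Zl ℓ, algebraMap (Zl ℓ) ↥(chartAlgFin N ℓ) r = 0 →
        algebraMap (Zl ℓ) ↥(chartAlgInf N ℓ) r = 0 → r = 0) ∧
      Module.Flat (Zl ℓ) ↥(chartAlgMid N ℓ) := by
  obtain ⟨g, η, hspan, hindep⟩ := h1free_of_sat ℓ N hsat
  exact ⟨g, η, hspan, fun x0 x1 c h => (hindep x0 x1 c h).1, fin_inter_inf ℓ N,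
    fun r h _ => algebraMap_chartAlg_injective ℓ N _ (h.trans (map_zero _).symm),
    flat_chartAlg ℓ N _⟩

end Fermat.Agent.S19.helper2052
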