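import Fermat.Agent.S19.helper2052_H1Free
import Fermat.Agent.S28.helper508_FormalPrime
import Fermat.Agent.S28.helper1595_RouteP

/-!
# S19-H1FREE, unconditional form (`ℓ ∤ N`)

The statements of `helper2052_H1Free` with the S28 modular input discharged by the landed S28
library (`helper1595.stmt_CoreInput_routeP`, `helper508.stmt_FormalPrime`).
-/

set_option autoImplicit false

noncomputable section

open ModularCurve ModularCurve.IgusaScheme Polynomial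

namespace Fermat.Agent.S19.helper2052

open Fermat.Agent.S28 Fermat.Agent.S28.helper1588

variable (N : ℕ) [NeZero N] (ℓ : ℕ) [Fact ℓ.Prime]

/-- The S28 modular input, for `ℓ ∤ N`. -/
theorem stmt_CoreInput (hℓN : ¬ ℓ ∣ N) : Spec.Stmt_CoreInput N ℓ :=
  Fermat.Agent.S28.helper1595.stmt_CoreInput_routeP N ℓ hℓN
    (fun p _ _ => Fermat.Agent.S28.helper508.stmt_FormalPrime p)

/-- **S19-H1FREE** for `ℓ ∤ N`, Cech-datum form: the five fields of `helper2972.IsCechDatum`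
for `(inclFin N ℓ, inclInf N ℓ, η)`. -/
theorem exists_cechDatum_fields_of_not_dvd (hℓN : ¬ ℓ ∣ N) :
    ∃ (g : ℕ) (η : Fin g → ↥(chartAlgMid N ℓ)),
      (∀ x : ↥(chartAlgMid N ℓ), ∃ (x0 : ↥(chartAlgFin N ℓ)) (x1 : ↥(chartAlgInf N ℓ))
        (c : Fin g → Zl ℓ), x = inclFin N ℓ x0 + inclInf N ℓ x1 + ∑ i, c i • η i) ∧
      (∀ (x0 : ↥(chartAlgFin N ℓ)) (x1 : ↥(chartAlgInf N ℓ)) (c : Fin g → Zl ℓ),
        inclFin N ℓ x0 + inclInf N ℓ x1 + ∑ i, c i • η i = 0 → c = 0) ∧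
      (∀ (x0 : ↥(chartAlgFin N ℓ)) (x1 : ↥(chartAlgInf N ℓ)), inclFin N ℓ x0 = inclInf N ℓ x1 →
        ∃ r : Zl ℓ, x0 = algebraMap (Zl ℓ) ↥(chartAlgFin N ℓ) r ∧
          x1 = algebraMap (Zl ℓ) ↥(chartAlgInf N ℓ) r) ∧
      (∀ r : Zl ℓ, algebraMap (Zl ℓ) ↥(chartAlgFin N ℓ) r = 0 →
        algebraMap (Zl ℓ) ↥(chartAlgInf N ℓ) r = 0 → r = 0) ∧
      Module.Flat (Zl ℓ) ↥(chartAlgMid N ℓ) :=
  exists_cechDatum_fields ℓ N (stmt_CoreInput N ℓ hℓN)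

/-- `S01 / (S0 + S1)` is free of finite rank over `ℤ_(ℓ)`, for `ℓ ∤ N`. -/
theorem exists_coords_of_not_dvd (hℓN : ¬ ℓ ∣ N) :
    ∃ (g : ℕ) (π : ↥(chartAlgMid N ℓ) →ₗ[Zl ℓ] (Fin g → Zl ℓ)),
      Function.Surjective π ∧ LinearMap.ker π = chartSum ℓ N :=
  exists_coords ℓ N (stmt_CoreInput N ℓ hℓN)

/-- `chartAlgFin N ℓ` is finite over `ℤ_(ℓ)[X]`, `X ↦ j`, for `ℓ ∤ N`. -/
theorem finite_aeval_jChartFin_of_not_dvd (hℓN : ¬ ℓ ∣ N) :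
    (Polynomial.aeval (R := Zl ℓ) (jChartFin N ℓ)).toRingHom.Finite :=
  finite_aeval_jChartFin ℓ N (stmt_CoreInput N ℓ hℓN)

/-- `chartAlgInf N ℓ` is finite over `ℤ_(ℓ)[X]`, `X ↦ j⁻¹`, for `ℓ ∤ N`. -/
theorem finite_aeval_jInvChartInf_of_not_dvd (hℓN : ¬ ℓ ∣ N) :
    (Polynomial.aeval (R := Zl ℓ) (jInvChartInf N ℓ)).toRingHom.Finite :=
  finite_aeval_jInvChartInf ℓ N (stmt_CoreInput N ℓ hℓN)

end Fermat.Agent.S19.helper2052
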