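import Fermat.Agent.S19.helper9190_SpecC
import Fermat.Agent.S19.helper2052_H1FreeMain

/-!
# S19 CORE-C leaf (C1): `helper9190.Stmt_H1Free`

Discharge of the leaf Prop `Fermat.Agent.S19.helper9190.Stmt_H1Free N ℓ` of the CORE-C Spec
(`helper9190_SpecC`) from the landed H1FREE files.
-/

set_option autoImplicit false

noncomputable section

open ModularCurve ModularCurve.IgusaScheme

namespace Fermat.Agent.S19.helper2052

variable (N : ℕ) [NeZero N] (ℓ : ℕ) [Fact ℓ.Prime]

/-- `Stmt_H1Free` from the S28 modular input. -/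
theorem stmt_H1Free_of_coreInput (hin : Fermat.Agent.S28.Spec.Stmt_CoreInput N ℓ) :
    Fermat.Agent.S19.helper9190.Stmt_H1Free N ℓ :=
  exists_cechDatum_fields ℓ N hin

/-- **C1 = H1FREE**: `Stmt_H1Free N ℓ` for `ℓ ∤ N`. -/
theorem stmt_H1Free (hℓN : ¬ ℓ ∣ N) : Fermat.Agent.S19.helper9190.Stmt_H1Free N ℓ :=
  exists_cechDatum_fields_of_not_dvd N ℓ hℓN

end Fermat.Agent.S19.helper2052
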