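import Mathlib

set_option autoImplicit false

namespace Fermat.Agent.S19.helper2055

open Finset

variable {𝒪 F : Type*} [CommRing 𝒪] [CommRing F] [Algebra 𝒪 F]

/-- `pp π k L = π ^ k • L`, as a submodule. -/
def pp (π : 𝒪) (k : ℕ) (L : Submodule 𝒪 F) : Submodule 𝒪 F :=
  L.map (LinearMap.lsmul 𝒪 F (π ^ k))

theorem mem_pp {π : 𝒪} {k : ℕ} {L : Submodule 𝒪 F} {x : F} :
    x ∈ pp π k L ↔ ∃ y ∈ L, π ^ k • y = x := by
  simp [pp, Submodule.mem_map]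

theorem smul_mem_pp {π : 𝒪} {k : ℕ} {L : Submodule 𝒪 F} {y : F} (hy : y ∈ L) :
    π ^ k • y ∈ pp π k L :=
  mem_pp.2 ⟨y, hy, rfl⟩

theorem pp_zero (π : 𝒪) (L : Submodule 𝒪 F) : pp π 0 L = L := by
  ext x; simp [mem_pp]

theorem pp_le (π : 𝒪) (k : ℕ) (L : Submodule 𝒪 F) : pp π k L ≤ L := by
  intro x hx
  obtain ⟨y, hy, rfl⟩ := mem_pp.1 hx
  exact L.smul_mem _ hy

theorem pp_mono {π : 𝒪} {k : ℕ} {L L' : Submodule 𝒪 F} (h : L ≤ L') : pp π k L ≤ pp π k L' :=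
  Submodule.map_mono h

theorem pp_anti {π : 𝒪} {k j : ℕ} (h : j ≤ k) (L : Submodule 𝒪 F) : pp π k L ≤ pp π j L := by
  intro x hx
  obtain ⟨y, hy, rfl⟩ := mem_pp.1 hx
  obtain ⟨d, rfl⟩ := Nat.exists_eq_add_of_le h
  refine mem_pp.2 ⟨π ^ d • y, L.smul_mem _ hy, ?_⟩
  rw [smul_smul, ← pow_add]

theorem mul_mem_pp {π : 𝒪} {k : ℕ} {L M : Submodule 𝒪 F} {s x : F}
    (hs : ∀ y ∈ L, s * y ∈ M) (hx : x ∈ pp π k L) : s * x ∈ pp π k M := by
  obtain ⟨y, hy, rfl⟩ := mem_pp.1 hx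
  exact mem_pp.2 ⟨s * y, hs y hy, by rw [mul_smul_comm]⟩


theorem iter_gen {π : 𝒪} {S : Subalgebra 𝒪 F} {L : Submodule 𝒪 F} {e : F}
    (h : ∀ x ∈ L, ∃ s ∈ S, x - s * e ∈ pp π 1 L) (m : ℕ) :
    ∀ x ∈ L, ∃ s ∈ S, x - s * e ∈ pp π m L := by
  induction m with
  | zero =>
    intro x hx
    exact ⟨0, S.zero_mem, by simpa [pp_zero] using hx⟩
  | succ m ih =>
    intro x hx
    obtain ⟨s, hs, hxs⟩ := ih x hx
    obtain ⟨y, hy, hyx⟩ := mem_pp.1 hxs
    obtain ⟨s', hs', hys⟩ := h y hy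
    obtain ⟨y', hy', hy'y⟩ := mem_pp.1 hys
    refine ⟨s + π ^ m • s', S.add_mem hs (S.smul_mem hs' _), mem_pp.2 ⟨y', hy', ?_⟩⟩
    have h1 : π ^ (m + 1) • y' = π ^ m • (π ^ 1 • y') := by rw [smul_smul, ← pow_add]
    rw [h1, hy'y, smul_sub, hyx, add_mul, smul_mul_assoc]
    abel

/-! ### One-units of a chart -/

/-- `a` is a one-unit of the chart `S`: `a ∈ S` and `a - 1 ∈ π S`. -/
def OneUnit (π : 𝒪) (S : Subalgebra 𝒪 F) (a : F) : Prop :=
  a ∈ S ∧ a - 1 ∈ pp π 1 (Subalgebra.toSubmodule S)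

theorem OneUnit.one (π : 𝒪) (S : Subalgebra 𝒪 F) : OneUnit π S 1 :=
  ⟨S.one_mem, by simp⟩

theorem OneUnit.mul {π : 𝒪} {S : Subalgebra 𝒪 F} {a a' : F} (h : OneUnit π S a)
    (h' : OneUnit π S a') : OneUnit π S (a * a') := by
  refine ⟨S.mul_mem h.1 h'.1, ?_⟩
  have e : a * a' - 1 = a' * (a - 1) + (a' - 1) := by ring
  rw [e]
  exact Submodule.add_mem _
    (mul_mem_pp (L := Subalgebra.toSubmodule S) (fun y hy => S.mul_mem h'.1 hy) h.2) h'.2

theorem OneUnit.mono {π : 𝒪} {S S' : Subalgebra 𝒪 F} (hle : S ≤ S') {a : F}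
    (h : OneUnit π S a) : OneUnit π S' a :=
  ⟨hle h.1, pp_mono (L := Subalgebra.toSubmodule S) (L' := Subalgebra.toSubmodule S')
    (fun _ hx => hle hx) h.2⟩

theorem OneUnit.exists_inv {π : 𝒪} {S : Subalgebra 𝒪 F} {a : F} (h : OneUnit π S a) (m : ℕ) :
    ∃ a', OneUnit π S a' ∧ a * a' - 1 ∈ pp π m (Subalgebra.toSubmodule S) := by
  obtain ⟨t, ht, hta⟩ := mem_pp.1 h.2
  rw [pow_one] at hta
  have htS : t ∈ S := ht
  set x : F := π • (-t) with hx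
  have hxS : x ∈ S := S.smul_mem (S.neg_mem htS) π
  have ha : a = 1 - x := by
    rw [hx, smul_neg, sub_neg_eq_add, hta]; ring
  refine ⟨∑ i ∈ Finset.range (m + 1), x ^ i, ⟨sum_mem (fun i _ => S.pow_mem hxS i), ?_⟩, ?_⟩
  · rw [Finset.sum_range_succ', pow_zero, add_sub_cancel_right]
    have e : ∑ i ∈ Finset.range m, x ^ (i + 1) = π ^ 1 • ((-t) * ∑ i ∈ Finset.range m, x ^ i) := by
      rw [pow_one, ← smul_mul_assoc, ← hx, Finset.mul_sum]
      exact Finset.sum_congr rfl (fun i _ => by rw [pow_succ'])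
    rw [e]
    exact smul_mem_pp (L := Subalgebra.toSubmodule S)
      (S.mul_mem (S.neg_mem htS) (sum_mem (fun i _ => S.pow_mem hxS i)))
  · rw [ha, mul_neg_geom_sum]
    have e : (1 : F) - x ^ (m + 1) - 1 = π ^ (m + 1) • (-((-t) ^ (m + 1))) := by
      rw [hx, smul_pow, smul_neg]; ring
    rw [e]
    exact pp_anti (Nat.le_succ m) _ (smul_mem_pp (L := Subalgebra.toSubmodule S)
      (S.neg_mem (S.pow_mem (S.neg_mem htS) _)))

/-! ### The products `∏ (1 + b_i η_i)` -/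

/-- `prodEta η b = ∏ i, (1 + b i • η i)`. -/
def prodEta {g : ℕ} (η : Fin g → F) (b : Fin g → 𝒪) : F := ∏ i, (1 + b i • η i)

theorem prodEta_zero {g : ℕ} (η : Fin g → F) : prodEta η (0 : Fin g → 𝒪) = 1 := by
  simp [prodEta]

theorem prodEta_mem {S01 : Subalgebra 𝒪 F} {g : ℕ} {η : Fin g → F} (hη : ∀ i, η i ∈ S01)
    (b : Fin g → 𝒪) : prodEta η b ∈ S01 :=
  prod_mem (fun i _ => S01.add_mem S01.one_mem (S01.smul_mem (hη i) _))

theorem prodEta_congr {π : 𝒪} {S01 : Subalgebra 𝒪 F} {g : ℕ} {η : Fin g → F}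
    (hη : ∀ i, η i ∈ S01) {m : ℕ} {b b' : Fin g → 𝒪}
    (h : ∀ i, b i - b' i ∈ Ideal.span {π ^ m}) :
    prodEta η b - prodEta η b' ∈ pp π m (Subalgebra.toSubmodule S01) := by
  have key : ∀ s : Finset (Fin g), (∏ i ∈ s, (1 + b i • η i)) - (∏ i ∈ s, (1 + b' i • η i))
      ∈ pp π m (Subalgebra.toSubmodule S01) := by
    intro s
    induction s using Finset.induction_on with
    | empty => simp
    | insert a s ha ih =>
      rw [Finset.prod_insert ha, Finset.prod_insert ha]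
      have e : (1 + b a • η a) * ∏ i ∈ s, (1 + b i • η i)
            - (1 + b' a • η a) * ∏ i ∈ s, (1 + b' i • η i)
          = (∏ i ∈ s, (1 + b i • η i)) * ((b a - b' a) • η a)
            + (1 + b' a • η a)
              * ((∏ i ∈ s, (1 + b i • η i)) - ∏ i ∈ s, (1 + b' i • η i)) := by
        rw [sub_smul]; ring
      rw [e]
      refine Submodule.add_mem _ ?_ (mul_mem_pp (L := Subalgebra.toSubmodule S01)
        (fun y hy => S01.mul_mem (S01.add_mem S01.one_mem (S01.smul_mem (hη a) _)) hy) ih)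
      obtain ⟨c, hc⟩ := Ideal.mem_span_singleton'.1 (h a)
      rw [← hc]
      refine mul_mem_pp (L := Subalgebra.toSubmodule S01) (fun y hy => S01.mul_mem
        (prod_mem (fun i _ => S01.add_mem S01.one_mem (S01.smul_mem (hη i) _))) hy) ?_
      exact mem_pp.2 ⟨c • η a, S01.smul_mem (hη a) c, by rw [smul_smul, mul_comm]⟩
  exact key Finset.univ

/-- `b` has all entries in `(π)`. -/
def Small (π : 𝒪) {g : ℕ} (b : Fin g → 𝒪) : Prop := ∀ i, b i ∈ Ideal.span {π}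

theorem Small.zero (π : 𝒪) {g : ℕ} : Small π (0 : Fin g → 𝒪) := fun _ => Submodule.zero_mem _


/-! ### Charts, bundles, trivialisations mod `π` -/

/-- Two-chart hypotheses (first layer of the `H^1`-free package):
`sat0` : `S0 ∩ π S01 = π S0`; `const` : the only relations between the two charts mod `π`
are the constants; `unit` : a constant that is invertible in `S0/π` is a unit of `𝒪`. -/
structure Charts (π : 𝒪) (S0 S1 S01 : Subalgebra 𝒪 F) : Prop where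
  le0 : S0 ≤ S01
  le1 : S1 ≤ S01
  sat0 : ∀ s ∈ S0, s ∈ pp π 1 (Subalgebra.toSubmodule S01) →
    s ∈ pp π 1 (Subalgebra.toSubmodule S0)
  const : ∀ s0 ∈ S0, ∀ s1 ∈ S1, s0 - s1 ∈ pp π 1 (Subalgebra.toSubmodule S01) →
    ∃ a : 𝒪, s0 - algebraMap 𝒪 F a ∈ pp π 1 (Subalgebra.toSubmodule S0) ∧
      s1 - algebraMap 𝒪 F a ∈ pp π 1 (Subalgebra.toSubmodule S1)
  unit : ∀ a : 𝒪, (∃ s ∈ S0, algebraMap 𝒪 F a * s - 1 ∈ pp π 1 (Subalgebra.toSubmodule S0)) →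
    IsUnit a

/-- A two-chart bundle: fractional modules `L0`, `L1 ≤ L01` over the charts `S0`, `S1`, `S01`. -/
structure Bundle (S0 S1 S01 : Subalgebra 𝒪 F) where
  L0 : Submodule 𝒪 F
  L1 : Submodule 𝒪 F
  L01 : Submodule 𝒪 F
  le0 : L0 ≤ L01
  le1 : L1 ≤ L01
  mul0 : ∀ s ∈ S0, ∀ x ∈ L0, s * x ∈ L0
  mul1 : ∀ s ∈ S1, ∀ x ∈ L1, s * x ∈ L1
  mul01 : ∀ s ∈ S01, ∀ x ∈ L01, s * x ∈ L01

/-- A trivialisation mod `π` of a two-chart bundle: `e0`, `e1` generate `L0`, `L1` mod `π`,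
agree mod `π` on the overlap, and `e0` is a free generator of `L01` mod every `π ^ k`. -/
structure Triv (π : 𝒪) {S0 S1 S01 : Subalgebra 𝒪 F} (B : Bundle S0 S1 S01) (e0 e1 : F) :
    Prop where
  mem0 : e0 ∈ B.L0
  mem1 : e1 ∈ B.L1
  gen0 : ∀ x ∈ B.L0, ∃ s ∈ S0, x - s * e0 ∈ pp π 1 B.L0
  gen1 : ∀ x ∈ B.L1, ∃ s ∈ S1, x - s * e1 ∈ pp π 1 B.L1
  gen01 : ∀ x ∈ B.L01, ∃ s ∈ S01, x - s * e0 ∈ pp π 1 B.L01
  congr : e1 - e0 ∈ pp π 1 B.L01
  free : ∀ k : ℕ, ∀ s ∈ S01, s * e0 ∈ pp π k B.L01 → s ∈ pp π k (Subalgebra.toSubmodule S01)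

/-- Unit factorisation mod `π ^ m` (existence), element form. -/
def Fac (π : 𝒪) (S0 S1 S01 : Subalgebra 𝒪 F) {g : ℕ} (η : Fin g → F) (m : ℕ) : Prop :=
  ∀ u ∈ S01, u - 1 ∈ pp π 1 (Subalgebra.toSubmodule S01) →
    ∃ (a0 a1 : F) (b : Fin g → 𝒪), OneUnit π S0 a0 ∧ OneUnit π S1 a1 ∧ Small π b ∧
      u - a0 * prodEta η b * a1 ∈ pp π m (Subalgebra.toSubmodule S01)

/-- Unit factorisation mod `π ^ m` (uniqueness of the `η`-coordinates), element form. -/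
def Uni (π : 𝒪) (S0 S1 S01 : Subalgebra 𝒪 F) {g : ℕ} (η : Fin g → F) (m : ℕ) : Prop :=
  ∀ (a0 a0' a1 a1' : F) (b b' : Fin g → 𝒪), OneUnit π S0 a0 → OneUnit π S0 a0' →
    OneUnit π S1 a1 → OneUnit π S1 a1' → Small π b → Small π b' →
    a0 * prodEta η b * a1 - a0' * prodEta η b' * a1' ∈ pp π m (Subalgebra.toSubmodule S01) →
    ∀ i, b i - b' i ∈ Ideal.span {π ^ m}

/-- The addition law mod `π ^ m`, element form: `Φ b b'` are the coordinates of
`∏ (1 + b_i η_i) * ∏ (1 + b'_i η_i)`. -/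
def Law (π : 𝒪) (S0 S1 S01 : Subalgebra 𝒪 F) {g : ℕ} (η : Fin g → F) (m : ℕ)
    (Φ : (Fin g → 𝒪) → (Fin g → 𝒪) → Fin g → 𝒪) : Prop :=
  ∀ b b' : Fin g → 𝒪, Small π b → Small π b' → Small π (Φ b b') ∧
    ∃ c0 c1 : F, OneUnit π S0 c0 ∧ OneUnit π S1 c1 ∧
      prodEta η b * prodEta η b' - c0 * prodEta η (Φ b b') * c1
        ∈ pp π m (Subalgebra.toSubmodule S01)

/-- `b` is a vector of Čech coordinates mod `π ^ m` of the bundle `B` trivialised by `(e0, e1)`: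
`e1 = a0 * ∏ (1 + b_i η_i) * a1 * e0` mod `π ^ m L01` with one-units `a0`, `a1` of the charts. -/
def IsCoord (π : 𝒪) {S0 S1 S01 : Subalgebra 𝒪 F} {g : ℕ} (η : Fin g → F)
    (B : Bundle S0 S1 S01) (e0 e1 : F) (m : ℕ) (b : Fin g → 𝒪) : Prop :=
  Small π b ∧ ∃ a0 a1 : F, OneUnit π S0 a0 ∧ OneUnit π S1 a1 ∧
    e1 - a0 * prodEta η b * a1 * e0 ∈ pp π m B.L01

section Coord

variable {π : 𝒪} {S0 S1 S01 : Subalgebra 𝒪 F} {g : ℕ} {η : Fin g → F}

/-- (P1, existence) Čech coordinates mod `π ^ m` exist. -/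
theorem exists_isCoord {B : Bundle S0 S1 S01} {e0 e1 : F} (hT : Triv π B e0 e1) {m : ℕ}
    (hF : Fac π S0 S1 S01 η m) : ∃ b, IsCoord π η B e0 e1 m b := by
  rcases Nat.eq_zero_or_pos m with rfl | hm
  · refine ⟨0, Small.zero π, 1, 1, OneUnit.one _ _, OneUnit.one _ _, ?_⟩
    rw [pp_zero, prodEta_zero]
    simpa using B.L01.sub_mem (B.le1 hT.mem1) (B.le0 hT.mem0)
  · obtain ⟨u, hu, hue⟩ := iter_gen hT.gen01 m e1 (B.le1 hT.mem1)
    have hu1 : u - 1 ∈ pp π 1 (Subalgebra.toSubmodule S01) := by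
      apply hT.free 1 (u - 1) (S01.sub_mem hu S01.one_mem)
      have e : (u - 1) * e0 = (e1 - e0) - (e1 - u * e0) := by ring
      rw [e]
      exact Submodule.sub_mem _ hT.congr (pp_anti hm _ hue)
    obtain ⟨a0, a1, b, h0, h1, hb, hfac⟩ := hF u hu hu1
    refine ⟨b, hb, a0, a1, h0, h1, ?_⟩
    have e : e1 - a0 * prodEta η b * a1 * e0
        = (e1 - u * e0) + e0 * (u - a0 * prodEta η b * a1) := by ring
    rw [e]
    refine Submodule.add_mem _ hue ?_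
    exact mul_mem_pp (L := Subalgebra.toSubmodule S01)
      (fun y hy => by rw [mul_comm]; exact B.mul01 y hy e0 (B.le0 hT.mem0)) hfac

/-- (P1, uniqueness) Čech coordinates mod `π ^ m` are unique mod `π ^ m`. -/
theorem IsCoord.unique (hη : ∀ i, η i ∈ S01) (hC : Charts π S0 S1 S01)
    {B : Bundle S0 S1 S01} {e0 e1 : F} (hT : Triv π B e0 e1) {m : ℕ}
    (hU : Uni π S0 S1 S01 η m) {b b' : Fin g → 𝒪} (h : IsCoord π η B e0 e1 m b)
    (h' : IsCoord π η B e0 e1 m b') : ∀ i, b i - b' i ∈ Ideal.span {π ^ m} := by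
  obtain ⟨hb, a0, a1, h0, h1, hc⟩ := h
  obtain ⟨hb', a0', a1', h0', h1', hc'⟩ := h'
  apply hU a0 a0' a1 a1' b b' h0 h0' h1 h1' hb hb'
  apply hT.free m
  · exact S01.sub_mem
      (S01.mul_mem (S01.mul_mem (hC.le0 h0.1) (prodEta_mem hη b)) (hC.le1 h1.1))
      (S01.mul_mem (S01.mul_mem (hC.le0 h0'.1) (prodEta_mem hη b')) (hC.le1 h1'.1))
  · have e : (a0 * prodEta η b * a1 - a0' * prodEta η b' * a1') * e0
        = (e1 - a0' * prodEta η b' * a1' * e0) - (e1 - a0 * prodEta η b * a1 * e0) := by ring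
    rw [e]
    exact Submodule.sub_mem _ hc' hc

theorem IsCoord.of_le {B : Bundle S0 S1 S01} {e0 e1 : F} {m k : ℕ} (hkm : k ≤ m)
    {b : Fin g → 𝒪} (h : IsCoord π η B e0 e1 m b) : IsCoord π η B e0 e1 k b := by
  obtain ⟨hb, a0, a1, h0, h1, hc⟩ := h
  exact ⟨hb, a0, a1, h0, h1, pp_anti hkm _ hc⟩

/-- Coordinates may be changed mod `π ^ m`. -/
theorem IsCoord.congr (hη : ∀ i, η i ∈ S01) (hC : Charts π S0 S1 S01)
    {B : Bundle S0 S1 S01} {e0 e1 : F} (hT : Triv π B e0 e1) {m : ℕ} {b b' : Fin g → 𝒪}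
    (h : IsCoord π η B e0 e1 m b) (hb' : Small π b')
    (hbb' : ∀ i, b i - b' i ∈ Ideal.span {π ^ m}) : IsCoord π η B e0 e1 m b' := by
  obtain ⟨hb, a0, a1, h0, h1, hc⟩ := h
  refine ⟨hb', a0, a1, h0, h1, ?_⟩
  have e : e1 - a0 * prodEta η b' * a1 * e0
      = (e1 - a0 * prodEta η b * a1 * e0)
        + (a0 * a1 * e0) * (prodEta η b - prodEta η b') := by ring
  rw [e]
  refine Submodule.add_mem _ hc (mul_mem_pp (L := Subalgebra.toSubmodule S01) (M := B.L01)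
    (fun y hy => ?_) (prodEta_congr hη hbb'))
  have e2 : a0 * a1 * e0 * y = (a0 * a1 * y) * e0 := by ring
  rw [e2]
  exact B.mul01 _ (S01.mul_mem (S01.mul_mem (hC.le0 h0.1) (hC.le1 h1.1)) hy) _ (B.le0 hT.mem0)


/-- (P2) The Čech coordinates do not depend on the trivialisation. -/
theorem IsCoord.indep (hη : ∀ i, η i ∈ S01) (hC : Charts π S0 S1 S01)
    {B : Bundle S0 S1 S01} {e0 e1 e0' e1' : F} (hT : Triv π B e0 e1) (hT' : Triv π B e0' e1')
    {m : ℕ} {b : Fin g → 𝒪} (h : IsCoord π η B e0 e1 m b) : IsCoord π η B e0' e1' m b := by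
  rcases Nat.eq_zero_or_pos m with rfl | hm
  · refine ⟨h.1, 1, 1, OneUnit.one _ _, OneUnit.one _ _, ?_⟩
    rw [pp_zero]
    refine B.L01.sub_mem (B.le1 hT'.mem1) ?_
    exact B.mul01 _ (S01.mul_mem (S01.mul_mem S01.one_mem (prodEta_mem hη b)) S01.one_mem) _
      (B.le0 hT'.mem0)
  obtain ⟨hb, a0, a1, h0, h1, hc⟩ := h
  obtain ⟨v0, hv0, hv0e⟩ := iter_gen hT.gen0 m e0' hT'.mem0
  obtain ⟨w0, hw0, hw0e⟩ := iter_gen hT'.gen0 m e0 hT.mem0
  obtain ⟨v1, hv1, hv1e⟩ := iter_gen hT.gen1 m e1' hT'.mem1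
  -- memberships in `π L01`
  have hv0e1 : e0' - v0 * e0 ∈ pp π 1 B.L01 := pp_mono B.le0 (pp_anti hm _ hv0e)
  have hw0e1 : e0 - w0 * e0' ∈ pp π 1 B.L01 := pp_mono B.le0 (pp_anti hm _ hw0e)
  have hv1e1 : e1' - v1 * e1 ∈ pp π 1 B.L01 := pp_mono B.le1 (pp_anti hm _ hv1e)
  -- Step A : `1 - w0 * v0 ∈ π S0`
  have hA : 1 - w0 * v0 ∈ pp π 1 (Subalgebra.toSubmodule S0) := by
    apply hC.sat0 _ (S0.sub_mem S0.one_mem (S0.mul_mem hw0 hv0))
    apply hT.free 1 _ (S01.sub_mem S01.one_mem (S01.mul_mem (hC.le0 hw0) (hC.le0 hv0)))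
    have e : (1 - w0 * v0) * e0 = (e0 - w0 * e0') + w0 * (e0' - v0 * e0) := by ring
    rw [e]
    exact Submodule.add_mem _ hw0e1
      (mul_mem_pp (fun y hy => B.mul01 _ (hC.le0 hw0) y hy) hv0e1)
  -- Step B : `v0 - v1 ∈ π S01`, hence a common constant `a`
  have hB : v0 - v1 ∈ pp π 1 (Subalgebra.toSubmodule S01) := by
    apply hT.free 1 _ (S01.sub_mem (hC.le0 hv0) (hC.le1 hv1))
    have e : (v0 - v1) * e0
        = (e1' - v1 * e1) + v1 * (e1 - e0) - (e1' - e0') - (e0' - v0 * e0) := by ring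
    rw [e]
    exact Submodule.sub_mem _ (Submodule.sub_mem _ (Submodule.add_mem _ hv1e1
      (mul_mem_pp (fun y hy => B.mul01 _ (hC.le1 hv1) y hy) hT.congr)) hT'.congr) hv0e1
  obtain ⟨a, ha0, ha1⟩ := hC.const v0 hv0 v1 hv1 hB
  -- Step C : `a` is a unit
  have hCu : algebraMap 𝒪 F a * w0 - 1 ∈ pp π 1 (Subalgebra.toSubmodule S0) := by
    have e : algebraMap 𝒪 F a * w0 - 1
        = -(w0 * (v0 - algebraMap 𝒪 F a)) - (1 - w0 * v0) := by ring
    rw [e]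
    exact Submodule.sub_mem _ (Submodule.neg_mem _
      (mul_mem_pp (L := Subalgebra.toSubmodule S0) (fun y hy => S0.mul_mem hw0 hy) ha0)) hA
  obtain ⟨a', haa'⟩ := (hC.unit a ⟨w0, hw0, hCu⟩).exists_right_inv
  have hαα' : algebraMap 𝒪 F a * algebraMap 𝒪 F a' = 1 := by
    rw [← map_mul, haa', map_one]
  -- Step D : the new one-units
  have hu0 : OneUnit π S0 (algebraMap 𝒪 F a * w0) :=
    ⟨S0.mul_mem (S0.algebraMap_mem a) hw0, hCu⟩
  have hu1 : OneUnit π S1 (algebraMap 𝒪 F a' * v1) := by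
    refine ⟨S1.mul_mem (S1.algebraMap_mem a') hv1, ?_⟩
    have e : algebraMap 𝒪 F a' * v1 - 1
        = algebraMap 𝒪 F a' * (v1 - algebraMap 𝒪 F a)
          - (1 - algebraMap 𝒪 F a * algebraMap 𝒪 F a') := by ring
    rw [e, hαα', sub_self, sub_zero]
    exact mul_mem_pp (L := Subalgebra.toSubmodule S1)
      (fun y hy => S1.mul_mem (S1.algebraMap_mem a') hy) ha1
  refine ⟨hb, algebraMap 𝒪 F a * w0 * a0, algebraMap 𝒪 F a' * v1 * a1, hu0.mul h0, hu1.mul h1, ?_⟩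
  -- Step E
  have e : e1' - algebraMap 𝒪 F a * w0 * a0 * prodEta η b * (algebraMap 𝒪 F a' * v1 * a1) * e0'
      = (e1' - v1 * e1) + v1 * (e1 - a0 * prodEta η b * a1 * e0)
        + (v1 * a0 * prodEta η b * a1) * (e0 - w0 * e0')
        + (1 - algebraMap 𝒪 F a * algebraMap 𝒪 F a')
          * (w0 * a0 * prodEta η b * v1 * a1 * e0') := by ring
  rw [e, hαα', sub_self, zero_mul, add_zero]
  have hQ : v1 * a0 * prodEta η b * a1 ∈ S01 :=
    S01.mul_mem (S01.mul_mem (S01.mul_mem (hC.le1 hv1) (hC.le0 h0.1)) (prodEta_mem hη b))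
      (hC.le1 h1.1)
  exact Submodule.add_mem _ (Submodule.add_mem _ (pp_mono B.le1 hv1e)
    (mul_mem_pp (fun y hy => B.mul01 _ (hC.le1 hv1) y hy) hc))
    (mul_mem_pp (fun y hy => B.mul01 _ hQ y hy) (pp_mono B.le0 hw0e))

/-- (P3) Additivity: the coordinates of a product bundle are given by the law. -/
theorem IsCoord.mul (hη : ∀ i, η i ∈ S01) (hC : Charts π S0 S1 S01)
    {B B' B'' : Bundle S0 S1 S01} {e0 e1 e0' e1' : F}
    (he0 : e0 ∈ B.L01) (he0' : e0' ∈ B'.L01) (he1' : e1' ∈ B'.L01)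
    (hprod : ∀ x ∈ B.L01, ∀ y ∈ B'.L01, x * y ∈ B''.L01)
    {m : ℕ} {Φ : (Fin g → 𝒪) → (Fin g → 𝒪) → Fin g → 𝒪} (hL : Law π S0 S1 S01 η m Φ)
    {b b' : Fin g → 𝒪} (h : IsCoord π η B e0 e1 m b) (h' : IsCoord π η B' e0' e1' m b') :
    IsCoord π η B'' (e0 * e0') (e1 * e1') m (Φ b b') := by
  obtain ⟨hb, a0, a1, h0, h1, hc⟩ := h
  obtain ⟨hb', a0', a1', h0', h1', hc'⟩ := h'
  obtain ⟨hsmall, c0, c1, hc0, hc1, hlaw⟩ := hL b b' hb hb'
  refine ⟨hsmall, a0 * a0' * c0, a1 * a1' * c1, (h0.mul h0').mul hc0, (h1.mul h1').mul hc1, ?_⟩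
  have e : e1 * e1' - a0 * a0' * c0 * prodEta η (Φ b b') * (a1 * a1' * c1) * (e0 * e0')
      = e1' * (e1 - a0 * prodEta η b * a1 * e0)
        + (a0 * prodEta η b * a1 * e0) * (e1' - a0' * prodEta η b' * a1' * e0')
        + (a0 * a1 * a0' * a1' * e0 * e0')
          * (prodEta η b * prodEta η b' - c0 * prodEta η (Φ b b') * c1) := by ring
  rw [e]
  have hQ : a0 * prodEta η b * a1 ∈ S01 :=
    S01.mul_mem (S01.mul_mem (hC.le0 h0.1) (prodEta_mem hη b)) (hC.le1 h1.1)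
  refine Submodule.add_mem _ (Submodule.add_mem _ ?_ ?_) ?_
  · exact mul_mem_pp (fun y hy => by rw [mul_comm]; exact hprod y hy e1' he1') hc
  · exact mul_mem_pp (fun y hy => hprod _ (B.mul01 _ hQ _ he0) y hy) hc'
  · refine mul_mem_pp (L := Subalgebra.toSubmodule S01) (fun y hy => ?_) hlaw
    have e2 : a0 * a1 * a0' * a1' * e0 * e0' * y = (a0 * a1 * y * e0) * (a0' * a1' * e0') := by
      ring
    rw [e2]
    exact hprod _ (B.mul01 _ (S01.mul_mem (S01.mul_mem (hC.le0 h0.1) (hC.le1 h1.1)) hy) _ he0)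
      _ (B'.mul01 _ (S01.mul_mem (hC.le0 h0'.1) (hC.le1 h1'.1)) _ he0')

/-- (P0) A bundle with a global generator mod `π` has coordinates `0`. -/
theorem isCoord_zero_of_global (hη : ∀ i, η i ∈ S01) (hC : Charts π S0 S1 S01)
    {B : Bundle S0 S1 S01} {e0 e1 s : F} (hT : Triv π B e0 e1) (hs : Triv π B s s) (m : ℕ) :
    IsCoord π η B e0 e1 m 0 := by
  refine IsCoord.indep hη hC hs hT ⟨Small.zero π, 1, 1, OneUnit.one _ _, OneUnit.one _ _, ?_⟩
  rw [prodEta_zero]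
  simp

/-- (P4) Injectivity: if the Čech `H^1` of the bundle has `π`-torsion bounded by `π ^ c`
(in the weak form below) and `0` is a vector of coordinates mod `π ^ (c + 1)`, then the bundle has
a global section generating both charts mod `π`. -/
theorem exists_global_of_isCoord_zero (hC : Charts π S0 S1 S01)
    {B : Bundle S0 S1 S01} {e0 e1 : F} (hT : Triv π B e0 e1) {c : ℕ}
    (htors : ∀ h ∈ B.L01, π ^ (c + 1) • h ∈ B.L0 ⊔ B.L1 → π ^ c • h ∈ B.L0 ⊔ B.L1)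
    (h0 : IsCoord π η B e0 e1 (c + 1) 0) :
    ∃ s, s ∈ B.L0 ∧ s ∈ B.L1 ∧ s - e0 ∈ pp π 1 B.L0 ∧ s - e1 ∈ pp π 1 B.L1 := by
  obtain ⟨-, a0, a1, h0u, h1u, hc⟩ := h0
  rw [prodEta_zero, mul_one] at hc
  obtain ⟨a1', h1u', hinv⟩ := h1u.exists_inv (c + 1)
  have hs0 : a0 * e0 ∈ B.L0 := B.mul0 _ h0u.1 _ hT.mem0
  have hs1 : a1' * e1 ∈ B.L1 := B.mul1 _ h1u'.1 _ hT.mem1
  have hdiff : a1' * e1 - a0 * e0 ∈ pp π (c + 1) B.L01 := by
    have e : a1' * e1 - a0 * e0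
        = a1' * (e1 - a0 * a1 * e0) + (a0 * e0) * (a1 * a1' - 1) := by ring
    rw [e]
    refine Submodule.add_mem _ (mul_mem_pp (fun y hy => B.mul01 _ (hC.le1 h1u'.1) y hy) hc)
      (mul_mem_pp (L := Subalgebra.toSubmodule S1) (fun y hy => ?_) hinv)
    rw [mul_comm]
    exact B.mul01 _ (hC.le1 hy) _ (B.le0 hs0)
  obtain ⟨h, hh, hhe⟩ := mem_pp.1 hdiff
  have hsup : π ^ (c + 1) • h ∈ B.L0 ⊔ B.L1 := by
    rw [hhe]
    exact Submodule.sub_mem _ (Submodule.mem_sup_right hs1) (Submodule.mem_sup_left hs0)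
  obtain ⟨t0, ht0, t1, ht1, ht⟩ := Submodule.mem_sup.1 (htors h hh hsup)
  have hkey : a1' * e1 - a0 * e0 = π • t0 + π • t1 := by
    rw [← hhe, pow_succ', mul_smul, ← ht, smul_add]
  refine ⟨a0 * e0 + π • t0, B.L0.add_mem hs0 (B.L0.smul_mem _ ht0), ?_, ?_, ?_⟩
  · have e : a0 * e0 + π • t0 = a1' * e1 - π • t1 := by
      rw [eq_sub_iff_add_eq, add_assoc, ← hkey]; ring
    rw [e]
    exact B.L1.sub_mem hs1 (B.L1.smul_mem _ ht1)
  · have e : a0 * e0 + π • t0 - e0 = e0 * (a0 - 1) + π ^ 1 • t0 := by rw [pow_one]; ring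
    rw [e]
    exact Submodule.add_mem _ (mul_mem_pp (L := Subalgebra.toSubmodule S0)
      (fun y hy => by rw [mul_comm]; exact B.mul0 _ hy _ hT.mem0) h0u.2) (smul_mem_pp ht0)
  · have e : a0 * e0 + π • t0 - e1 = e1 * (a1' - 1) - π ^ 1 • t1 := by
      rw [pow_one]
      have : a0 * e0 + π • t0 = a1' * e1 - π • t1 := by
        rw [eq_sub_iff_add_eq, add_assoc, ← hkey]; ring
      rw [this]; ring
    rw [e]
    exact Submodule.sub_mem _ (mul_mem_pp (L := Subalgebra.toSubmodule S1)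
      (fun y hy => by rw [mul_comm]; exact B.mul1 _ hy _ hT.mem1) h1u'.2) (smul_mem_pp ht1)


/-- A global section generating both charts mod `π` is a trivialisation `(s, s)`. -/
theorem Triv.of_global {B : Bundle S0 S1 S01} {e0 e1 s : F} (hT : Triv π B e0 e1)
    (hs0 : s ∈ B.L0) (hs1 : s ∈ B.L1) (hse0 : s - e0 ∈ pp π 1 B.L0)
    (hse1 : s - e1 ∈ pp π 1 B.L1) : Triv π B s s := by
  refine ⟨hs0, hs1, ?_, ?_, ?_, by simp, ?_⟩
  · intro x hx
    obtain ⟨t, ht, hxt⟩ := hT.gen0 x hx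
    refine ⟨t, ht, ?_⟩
    have e : x - t * s = (x - t * e0) - t * (s - e0) := by ring
    rw [e]
    exact Submodule.sub_mem _ hxt (mul_mem_pp (fun y hy => B.mul0 _ ht y hy) hse0)
  · intro x hx
    obtain ⟨t, ht, hxt⟩ := hT.gen1 x hx
    refine ⟨t, ht, ?_⟩
    have e : x - t * s = (x - t * e1) - t * (s - e1) := by ring
    rw [e]
    exact Submodule.sub_mem _ hxt (mul_mem_pp (fun y hy => B.mul1 _ ht y hy) hse1)
  · intro x hx
    obtain ⟨t, ht, hxt⟩ := hT.gen01 x hx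
    refine ⟨t, ht, ?_⟩
    have e : x - t * s = (x - t * e0) - t * (s - e0) := by ring
    rw [e]
    exact Submodule.sub_mem _ hxt
      (mul_mem_pp (fun y hy => B.mul01 _ ht y hy) (pp_mono B.le0 hse0))
  · intro k t ht hts
    -- `s = u * e0` mod `π ^ k L01` with `u` a one-unit of `S01`
    obtain ⟨u, hu, hue⟩ := iter_gen hT.gen01 (k + 1) s (B.le0 hs0)
    have hu1 : OneUnit π S01 u := by
      refine ⟨hu, hT.free 1 (u - 1) (S01.sub_mem hu S01.one_mem) ?_⟩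
      have e : (u - 1) * e0 = (s - e0) - (s - u * e0) := by ring
      rw [e]
      exact Submodule.sub_mem _ (pp_mono B.le0 hse0) (pp_anti (Nat.succ_le_succ (Nat.zero_le k)) _ hue)
    obtain ⟨u', hu', hinv⟩ := hu1.exists_inv k
    have h1 : t * u ∈ pp π k (Subalgebra.toSubmodule S01) := by
      apply hT.free k _ (S01.mul_mem ht hu)
      have e : t * u * e0 = t * s - t * (s - u * e0) := by ring
      rw [e]
      exact Submodule.sub_mem _ hts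
        (mul_mem_pp (fun y hy => B.mul01 _ ht y hy) (pp_anti (Nat.le_succ k) _ hue))
    have e : t = u' * (t * u) - t * (u * u' - 1) := by ring
    rw [e]
    exact Submodule.sub_mem _
      (mul_mem_pp (L := Subalgebra.toSubmodule S01) (fun y hy => S01.mul_mem hu'.1 hy) h1)
      (mul_mem_pp (L := Subalgebra.toSubmodule S01) (fun y hy => S01.mul_mem ht hy) hinv)

/-- (P0)+(P4) together: under bounded torsion, the bundle has a global generator mod `π`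
if and only if `0` is a vector of Čech coordinates mod `π ^ (c + 1)`. -/
theorem isCoord_zero_iff_global (hη : ∀ i, η i ∈ S01) (hC : Charts π S0 S1 S01)
    {B : Bundle S0 S1 S01} {e0 e1 : F} (hT : Triv π B e0 e1) {c : ℕ}
    (htors : ∀ h ∈ B.L01, π ^ (c + 1) • h ∈ B.L0 ⊔ B.L1 → π ^ c • h ∈ B.L0 ⊔ B.L1) :
    IsCoord π η B e0 e1 (c + 1) 0 ↔ ∃ s, Triv π B s s := by
  constructor
  · intro h0
    obtain ⟨s, hs0, hs1, hse0, hse1⟩ := exists_global_of_isCoord_zero hC hT htors h0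
    exact ⟨s, hT.of_global hs0 hs1 hse0 hse1⟩
  · rintro ⟨s, hs⟩
    exact isCoord_zero_of_global hη hC hT hs (c + 1)

end Coord

/-! ### Rescaling and the trivial bundle -/

section Scale

variable {π : 𝒪} {S0 S1 S01 : Subalgebra 𝒪 F} {g : ℕ} {η : Fin g → F}

/-- Multiplying a bundle and its trivialisation by a function `f` does not change the
coordinates (linearly equivalent divisors have the same coordinates). -/
theorem IsCoord.scale {B B' : Bundle S0 S1 S01} {e0 e1 f : F}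
    (hf : ∀ x ∈ B.L01, f * x ∈ B'.L01) {m : ℕ} {b : Fin g → 𝒪}
    (h : IsCoord π η B e0 e1 m b) : IsCoord π η B' (f * e0) (f * e1) m b := by
  obtain ⟨hb, a0, a1, h0, h1, hc⟩ := h
  refine ⟨hb, a0, a1, h0, h1, ?_⟩
  have e : f * e1 - a0 * prodEta η b * a1 * (f * e0)
      = f * (e1 - a0 * prodEta η b * a1 * e0) := by ring
  rw [e]
  exact mul_mem_pp hf hc

/-- The trivial bundle `(S0, S1, S01)`. -/
def Bundle.trivial (h0 : S0 ≤ S01) (h1 : S1 ≤ S01) : Bundle S0 S1 S01 where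
  L0 := Subalgebra.toSubmodule S0
  L1 := Subalgebra.toSubmodule S1
  L01 := Subalgebra.toSubmodule S01
  le0 := fun _ hx => h0 hx
  le1 := fun _ hx => h1 hx
  mul0 := fun _ hs _ hx => S0.mul_mem hs hx
  mul1 := fun _ hs _ hx => S1.mul_mem hs hx
  mul01 := fun _ hs _ hx => S01.mul_mem hs hx

/-- The trivial bundle is trivialised by `(1, 1)`. -/
theorem Triv.trivial (π : 𝒪) (h0 : S0 ≤ S01) (h1 : S1 ≤ S01) :
    Triv π (Bundle.trivial h0 h1) 1 1 := by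
  refine ⟨S0.one_mem, S1.one_mem, ?_, ?_, ?_, by simp, ?_⟩
  · intro x hx
    exact ⟨x, hx, by simp⟩
  · intro x hx
    exact ⟨x, hx, by simp⟩
  · intro x hx
    exact ⟨x, hx, by simp⟩
  · intro k s _ hs
    rw [mul_one] at hs
    exact hs

end Scale

/-! ### Functoriality (Galois equivariance, change of base ring) -/

section Map

variable {𝒪' F' : Type*} [CommRing 𝒪'] [CommRing F'] [Algebra 𝒪' F']

theorem map_mem_pp {π : 𝒪} {π' : 𝒪'} (τ : 𝒪 →+* 𝒪') (σ : F →+* F')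
    (hστ : ∀ a, σ (algebraMap 𝒪 F a) = algebraMap 𝒪' F' (τ a)) {c : 𝒪'} {e : ℕ}
    (hπ : τ π = c * π' ^ e) {L : Submodule 𝒪 F} {L' : Submodule 𝒪' F'}
    (hL : ∀ y ∈ L, σ y ∈ L') {k : ℕ} {x : F} (hx : x ∈ pp π k L) :
    σ x ∈ pp π' (e * k) L' := by
  obtain ⟨y, hy, rfl⟩ := mem_pp.1 hx
  refine mem_pp.2 ⟨c ^ k • σ y, L'.smul_mem _ (hL y hy), ?_⟩
  have hσ : σ (π ^ k • y) = (π' ^ (e * k) * c ^ k) • σ y := by
    rw [Algebra.smul_def, map_mul, hστ, map_pow, hπ, mul_pow, ← pow_mul, mul_comm (c ^ k),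
      Algebra.smul_def]
  rw [hσ, mul_smul]

/-- (P5) Functoriality of the Čech coordinates: a map of data `(τ, σ)` with
`τ π = c * π' ^ e`, `e ≥ 1`, sends coordinates mod `π ^ m` to coordinates mod `π' ^ (e * m)`.
For `F' = F`, `σ` a (semilinear) automorphism and `e = 1` this is Galois equivariance. -/
theorem IsCoord.map {π : 𝒪} {π' : 𝒪'} {S0 S1 S01 : Subalgebra 𝒪 F}
    {S0' S1' S01' : Subalgebra 𝒪' F'} {g : ℕ} {η : Fin g → F} {η' : Fin g → F'}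
    {B : Bundle S0 S1 S01} {B' : Bundle S0' S1' S01'}
    (τ : 𝒪 →+* 𝒪') (σ : F →+* F')
    (hστ : ∀ a, σ (algebraMap 𝒪 F a) = algebraMap 𝒪' F' (τ a)) {c : 𝒪'} {e : ℕ} (he : 1 ≤ e)
    (hπ : τ π = c * π' ^ e) (h0 : ∀ s ∈ S0, σ s ∈ S0') (h1 : ∀ s ∈ S1, σ s ∈ S1')
    (hη : ∀ i, σ (η i) = η' i) (hL : ∀ x ∈ B.L01, σ x ∈ B'.L01)
    {e0 e1 : F} {m : ℕ} {b : Fin g → 𝒪} (h : IsCoord π η B e0 e1 m b) :
    IsCoord π' η' B' (σ e0) (σ e1) (e * m) (fun i => τ (b i)) := by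
  obtain ⟨hb, a0, a1, hu0, hu1, hc⟩ := h
  have hprod : σ (prodEta η b) = prodEta η' (fun i => τ (b i)) := by
    unfold prodEta
    rw [map_prod]
    refine Finset.prod_congr rfl (fun i _ => ?_)
    rw [map_add, map_one, Algebra.smul_def, map_mul, hστ, hη, Algebra.smul_def]
  have hone : ∀ {S : Subalgebra 𝒪 F} {S' : Subalgebra 𝒪' F'}, (∀ s ∈ S, σ s ∈ S') →
      ∀ {a : F}, OneUnit π S a → OneUnit π' S' (σ a) := by
    intro S S' hS a ha
    refine ⟨hS a ha.1, ?_⟩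
    have h2 := map_mem_pp τ σ hστ hπ (L := Subalgebra.toSubmodule S)
      (L' := Subalgebra.toSubmodule S') (fun y hy => hS y hy) ha.2
    rw [map_sub, map_one] at h2
    exact pp_anti (by simpa using he) _ h2
  refine ⟨fun i => ?_, σ a0, σ a1, hone h0 hu0, hone h1 hu1, ?_⟩
  · obtain ⟨d, hd⟩ := Ideal.mem_span_singleton'.1 (hb i)
    obtain ⟨e', rfl⟩ := Nat.exists_eq_add_of_le he
    refine Ideal.mem_span_singleton'.2 ⟨τ d * c * π' ^ e', ?_⟩
    show _ = τ (b i)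
    rw [← hd, map_mul, hπ, pow_add, pow_one]; ring
  · have h2 := map_mem_pp τ σ hστ hπ hL hc
    rwa [map_sub, map_mul, map_mul, map_mul, hprod] at h2

end Map

/-- The `unit` clause of `Charts` for a local base ring whose non-units are multiples of `π`
(e.g. a discrete valuation ring with uniformiser `π`), when `S0 / π S0 ≠ 0`. -/
theorem unit_of_local {π : 𝒪} {S0 : Subalgebra 𝒪 F}
    (hmax : ∀ a : 𝒪, ¬ IsUnit a → a ∈ Ideal.span {π})
    (h1 : (1 : F) ∉ pp π 1 (Subalgebra.toSubmodule S0)) (a : 𝒪)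
    (ha : ∃ s ∈ S0, algebraMap 𝒪 F a * s - 1 ∈ pp π 1 (Subalgebra.toSubmodule S0)) :
    IsUnit a := by
  by_contra hau
  obtain ⟨s, hs, hsa⟩ := ha
  obtain ⟨d, hd⟩ := Ideal.mem_span_singleton'.1 (hmax a hau)
  apply h1
  have e : (1 : F) = π ^ 1 • (d • s) - (algebraMap 𝒪 F a * s - 1) := by
    rw [pow_one, smul_smul, mul_comm π d, hd, Algebra.smul_def]; ring
  rw [e]
  exact Submodule.sub_mem _ (smul_mem_pp (L := Subalgebra.toSubmodule S0) (S0.smul_mem hs d)) hsa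

end Fermat.Agent.S19.helper2055
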