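/-
S19-CLOSURE, part 2 (helper2765): the closure principle with coefficients in `A`.

Captain ruling R4 (team_s19_chat #78): the approximate addition law delivered by the geometric
core has coefficients in the valuation ring `A`, not in the inertia-fixed ring `R₀ = A^I`.
This file proves the purity statement that absorbs this: an inertia-equivariant function which is
congruent, modulo one fixed power of `ℓ`, to an `A`-linear combination of elements of an
`R₀`-lattice `Λ` of equivariant functions lies in `Λ` (max-volume basis + Cramer + the inertia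
field is unramified).
-/
import Mathlib
import Fermat.Prelude.Def_FLTPrelim_Ramification
import Fermat.Agent.S19.helper2765_Closure
import Fermat.Agent.S58.helper6024_Unram

set_option autoImplicit false

namespace Fermat.Agent.S19.helper2765

noncomputable section

section Good

local notation "Qb" => AlgebraicClosure ℚ
local notation "G" => (AlgebraicClosure ℚ ≃ₐ[ℚ] AlgebraicClosure ℚ)

variable {X : Type*}

/-- The determinant of an `A`-valued family of functions lies in `A`. -/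
theorem det_mem [Fintype X] [DecidableEq X] (A : ValuationSubring Qb) (e : X → X → Qb)
    (he : ∀ i x, e i x ∈ A) : (Pi.basisFun Qb X).det e ∈ A := by
  rw [Pi.basisFun_det_apply, Matrix.det_apply']
  refine sum_mem fun σ _ => mul_mem (intCast_mem A _) (prod_mem fun i _ => ?_)
  simpa using he _ _

/-- One step of the max-volume procedure: either the basis `e ⊆ Λ` already has all coordinates of
all elements of `Λ` in `A`, or one vector can be exchanged so that the determinant is multiplied by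
an inertia-fixed element outside `A`. -/
theorem good_or_step [Fintype X] [DecidableEq X] [MulAction G X] (A : ValuationSubring Qb)
    (Λ : AddSubgroup (X → Qb))
    (hI : ∀ f ∈ Λ, ∀ s ∈ A.inertiaSubgroupIn ℚ, ∀ x, f (s • x) = s (f x))
    (e : X → X → Qb) (he : ∀ i, e i ∈ Λ) (hdet : (Pi.basisFun Qb X).det e ≠ 0) :
    (∃ b : Module.Basis X Qb (X → Qb), (∀ i, b i ∈ Λ) ∧ ∀ f ∈ Λ, ∀ i, b.repr f i ∈ A) ∨
    (∃ e' : X → X → Qb, (∀ i, e' i ∈ Λ) ∧ ∃ c : Qb, c ∉ A ∧
      (∀ s ∈ A.inertiaSubgroupIn ℚ, s c = c) ∧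
        (Pi.basisFun Qb X).det e' = (Pi.basisFun Qb X).det e * c) := by
  have hunit : IsUnit ((Pi.basisFun Qb X).det e) := isUnit_iff_ne_zero.mpr hdet
  obtain ⟨hli, hsp⟩ := ((Pi.basisFun Qb X).is_basis_iff_det).mpr hunit
  let b : Module.Basis X Qb (X → Qb) := Module.Basis.mk hli hsp.ge
  have hb : ∀ i, b i = e i := fun i => by simp [b]
  by_cases hgood : ∀ f ∈ Λ, ∀ i, b.repr f i ∈ A
  · exact Or.inl ⟨b, fun i => by rw [hb]; exact he i, hgood⟩
  · push Not at hgood
    obtain ⟨f, hf, i, hc⟩ := hgood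
    refine Or.inr ⟨Function.update e i f, ?_, b.repr f i, hc, ?_, ?_⟩
    · intro j
      by_cases h : j = i
      · subst h; simpa using hf
      · simpa [Function.update_of_ne h] using he j
    · intro s hs
      exact repr_fixed b (s : Qb ≃+* Qb) (fun x => s • x) (MulAction.surjective s)
        (fun k x => by rw [hb]; exact hI _ (he k) s hs x) f (fun x => hI f hf s hs x) i
    · have h1 := Module.Basis.det_smul_mk_coord_eq_det_update (Pi.basisFun Qb X) hli hsp.ge i
      have h2 := LinearMap.congr_fun h1 f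
      simp only [LinearMap.smul_apply, smul_eq_mul, MultilinearMap.toLinearMap_apply] at h2
      exact h2.symm

/-- **Max-volume basis.**  An additive group `Λ` of `A`-valued inertia-equivariant functions on a
finite set which spans the space of all functions contains a basis in which all elements of `Λ`
have coordinates in `A`. -/
theorem exists_good_basis {ℓ : ℕ} (hℓ : ℓ.Prime) (A : ValuationSubring Qb)
    (hA : A.LiesOverPrime ℓ) [Finite X] [MulAction G X] (Λ : AddSubgroup (X → Qb))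
    (hval : ∀ f ∈ Λ, ∀ x, f x ∈ A)
    (hI : ∀ f ∈ Λ, ∀ s ∈ A.inertiaSubgroupIn ℚ, ∀ x, f (s • x) = s (f x))
    (hspan : Submodule.span Qb (Λ : Set (X → Qb)) = ⊤) :
    ∃ b : Module.Basis X Qb (X → Qb), (∀ i, b i ∈ Λ) ∧ ∀ f ∈ Λ, ∀ i, b.repr f i ∈ A := by
  classical
  cases nonempty_fintype X
  have hℓ0 : (ℓ : Qb) ≠ 0 := Nat.cast_ne_zero.mpr hℓ.ne_zero
  have key : ∀ n : ℕ, ∀ e : X → X → Qb, (∀ i, e i ∈ Λ) → (Pi.basisFun Qb X).det e ≠ 0 →
      (ℓ : Qb) ^ n * ((Pi.basisFun Qb X).det e)⁻¹ ∈ A →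
      ∃ b : Module.Basis X Qb (X → Qb), (∀ i, b i ∈ Λ) ∧ ∀ f ∈ Λ, ∀ i, b.repr f i ∈ A := by
    intro n
    induction n with
    | zero =>
      intro e he hdet hn
      rcases good_or_step A Λ hI e he hdet with h | ⟨e', he', c, hc, -, hdet'⟩
      · exact h
      · exfalso
        apply hc
        have h1 : (Pi.basisFun Qb X).det e' ∈ A := det_mem A e' fun i x => hval _ (he' i) x
        have h2 : c = ((ℓ : Qb) ^ 0 * ((Pi.basisFun Qb X).det e)⁻¹) *
            (Pi.basisFun Qb X).det e' := by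
          rw [hdet']; field_simp
        rw [h2]
        exact A.mul_mem _ _ hn h1
    | succ k ih =>
      intro e he hdet hn
      rcases good_or_step A Λ hI e he hdet with h | ⟨e', he', c, hc, hcI, hdet'⟩
      · exact h
      · have hc0 : c ≠ 0 := fun h0 => hc (h0 ▸ A.zero_mem)
        have hdet0 : (Pi.basisFun Qb X).det e' ≠ 0 := by
          rw [hdet']; exact mul_ne_zero hdet hc0
        refine ih e' he' hdet0 ?_
        -- `c⁻¹` is inertia-fixed of valuation `< 1`, hence divisible by `ℓ` in `A`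
        have hv : A.valuation c⁻¹ < 1 := by
          have h1 : ¬ A.valuation c ≤ 1 := fun h => hc ((A.valuation_le_one_iff c).mp h)
          rw [map_inv₀]
          exact (inv_lt_one₀ (lt_of_le_of_ne zero_le (Ne.symm (by simpa using hc0)))).mpr
            (not_le.mp h1)
        have hfix : ∀ σ ∈ A.inertiaSubgroupIn ℚ, σ c⁻¹ = c⁻¹ := fun σ hσ => by
          rw [map_inv₀, hcI σ hσ]
        have hu := Fermat.Agent.S58.helper6024.unram hℓ A hA c⁻¹ hfix hv
        have hu' : c⁻¹ / (ℓ : Qb) ∈ A := (A.valuation_le_one_iff _).mp hu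
        have h2 : (ℓ : Qb) ^ k * ((Pi.basisFun Qb X).det e')⁻¹ =
            ((ℓ : Qb) ^ (k + 1) * ((Pi.basisFun Qb X).det e)⁻¹) * (c⁻¹ / (ℓ : Qb)) := by
          rw [hdet', pow_succ]; field_simp
        rw [h2]
        exact A.mul_mem _ _ hn hu'
  -- an initial basis inside `Λ`
  obtain ⟨B, hBfin, b1, hBΛ, hb1⟩ := exists_basis_subset (Λ : Set (X → Qb)) hspan
  let eq : B ≃ X := b1.indexEquiv (Pi.basisFun Qb X)
  let b2 : Module.Basis X Qb (X → Qb) := b1.reindex eq
  have hdet : (Pi.basisFun Qb X).det b2 ≠ 0 := ((Pi.basisFun Qb X).isUnit_det b2).ne_zero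
  obtain ⟨n, hn⟩ := exists_pow_mul_mem hℓ A hA ((Pi.basisFun Qb X).det b2)⁻¹
  refine key n (fun i => b2 i) (fun i => ?_) hdet hn
  have : b2 i = b1 (eq.symm i) := by simp [b2]
  rw [this, hb1]
  exact hBΛ (eq.symm i).2

/-- **Purity.**  Let `Λ` be an additive group of `A`-valued inertia-equivariant functions on a
finite set, stable under multiplication by `A^I`-constants and spanning all functions.  There is
`r` such that every inertia-equivariant `Ψ` which is congruent modulo `ℓ^r A` to an `A`-linear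
combination of elements of `Λ` lies in `Λ`. -/
theorem exists_purity_bound {ℓ : ℕ} (hℓ : ℓ.Prime) (A : ValuationSubring Qb)
    (hA : A.LiesOverPrime ℓ) [Finite X] [MulAction G X] (Λ : AddSubgroup (X → Qb))
    (hval : ∀ f ∈ Λ, ∀ x, f x ∈ A)
    (hI : ∀ f ∈ Λ, ∀ s ∈ A.inertiaSubgroupIn ℚ, ∀ x, f (s • x) = s (f x))
    (hR0 : ∀ c ∈ A, (∀ s ∈ A.inertiaSubgroupIn ℚ, s c = c) → ∀ f ∈ Λ, (fun x => c * f x) ∈ Λ)
    (hspan : Submodule.span Qb (Λ : Set (X → Qb)) = ⊤) :
    ∃ r : ℕ, ∀ Ψ : X → Qb, (∀ s ∈ A.inertiaSubgroupIn ℚ, ∀ x, Ψ (s • x) = s (Ψ x)) →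
      (∃ (n : ℕ) (c : Fin n → Qb) (f : Fin n → X → Qb), (∀ k, c k ∈ A) ∧ (∀ k, f k ∈ Λ) ∧
        ∀ x, ∃ w ∈ A, Ψ x - ∑ k, c k * f k x = (ℓ : Qb) ^ r * w) → Ψ ∈ Λ := by
  classical
  cases nonempty_fintype X
  obtain ⟨b, hbΛ, hbA⟩ := exists_good_basis hℓ A hA Λ hval hI hspan
  have hℓA : (ℓ : Qb) ∈ A := natCast_mem A ℓ
  obtain ⟨r, hr⟩ := exists_bound A (ℓ : Qb) hℓA (exists_pow_mul_mem hℓ A hA) b
  refine ⟨r, fun Ψ hΨ ⟨n, c, f, hc, hf, hw⟩ => ?_⟩
  have hℓ0 : ((ℓ : Qb) ^ r) ≠ 0 := pow_ne_zero _ (Nat.cast_ne_zero.mpr hℓ.ne_zero)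
  let w : X → Qb := fun x => (Ψ x - ∑ k, c k * f k x) / (ℓ : Qb) ^ r
  have hwA : ∀ x, w x ∈ A := by
    intro x
    obtain ⟨w', hw'A, hw'⟩ := hw x
    have : w x = w' := by
      simp only [w]
      rw [hw', mul_div_cancel_left₀ _ hℓ0]
    rw [this]; exact hw'A
  have hΨeq : Ψ = ∑ k, c k • f k + (ℓ : Qb) ^ r • w := by
    funext x
    simp only [Pi.add_apply, Finset.sum_apply, Pi.smul_apply, smul_eq_mul, w]
    rw [mul_div_cancel₀ _ hℓ0]
    ring
  have hcoordA : ∀ i, b.repr Ψ i ∈ A := by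
    intro i
    rw [hΨeq]
    simp only [map_add, map_sum, map_smul, Finsupp.coe_add, Finsupp.coe_finsetSum,
      Finsupp.coe_smul, Pi.add_apply, Finset.sum_apply, Pi.smul_apply, smul_eq_mul]
    exact A.add_mem _ _ (sum_mem fun k _ => A.mul_mem _ _ (hc k) (hbA _ (hf k) i)) (hr w hwA i)
  have hcoordI : ∀ i, ∀ s ∈ A.inertiaSubgroupIn ℚ, s (b.repr Ψ i) = b.repr Ψ i := by
    intro i s hs
    exact repr_fixed b (s : Qb ≃+* Qb) (fun x => s • x) (MulAction.surjective s)
      (fun k x => hI _ (hbΛ k) s hs x) Ψ (fun x => hΨ s hs x) i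
  have hsum : Ψ = ∑ i, (fun x => b.repr Ψ i * b i x) := by
    conv_lhs => rw [← b.sum_repr Ψ]
    funext x
    simp [Finset.sum_apply]
  rw [hsum]
  exact sum_mem fun i _ => hR0 _ (hcoordA i) (hcoordI i) _ (hbΛ i)

end Good

/-! ### The law with coefficients in `A` -/

section LawA

local notation "Qb" => AlgebraicClosure ℚ
local notation "G" => (AlgebraicClosure ℚ ≃ₐ[ℚ] AlgebraicClosure ℚ)

variable {M : Type*}

/-- The `A`-span of `H ⊗ H`: functions `(m, m') ↦ ∑ i, c i * (a i m * b i m')` with `c i ∈ A`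
and `a i, b i ∈ H`.  It is a subring of `M → M → ℚ̄` containing `tens H` and the `A`-constants. -/
def tensA (A : ValuationSubring Qb) (H : Subring (M → Qb)) : Subring (M → M → Qb) where
  carrier := {F | ∃ (n : ℕ) (c : Fin n → Qb) (a b : Fin n → M → Qb), (∀ i, c i ∈ A) ∧
    (∀ i, a i ∈ H) ∧ (∀ i, b i ∈ H) ∧ ∀ m m', F m m' = ∑ i, c i * (a i m * b i m')}
  zero_mem' := ⟨0, Fin.elim0, Fin.elim0, Fin.elim0, fun i => i.elim0, fun i => i.elim0,
    fun i => i.elim0, fun m m' => by simp⟩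
  one_mem' := ⟨1, fun _ => 1, fun _ => 1, fun _ => 1, fun _ => A.one_mem, fun _ => H.one_mem,
    fun _ => H.one_mem, fun m m' => by simp⟩
  add_mem' := by
    rintro F F' ⟨n, c, a, b, hc, ha, hb, h⟩ ⟨n', c', a', b', hc', ha', hb', h'⟩
    refine ⟨n + n', Fin.append c c', Fin.append a a', Fin.append b b', ?_, ?_, ?_, ?_⟩
    · intro i; refine Fin.addCases (fun j => ?_) (fun j => ?_) i <;> simp [hc, hc']
    · intro i; refine Fin.addCases (fun j => ?_) (fun j => ?_) i <;> simp [ha, ha']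
    · intro i; refine Fin.addCases (fun j => ?_) (fun j => ?_) i <;> simp [hb, hb']
    · intro m m'
      rw [Pi.add_apply, Pi.add_apply, h, h', Fin.sum_univ_add]
      simp
  neg_mem' := by
    rintro F ⟨n, c, a, b, hc, ha, hb, h⟩
    exact ⟨n, c, fun i => -a i, b, hc, fun i => H.neg_mem (ha i), hb, fun m m' => by
      simp [h, Finset.sum_neg_distrib]⟩
  mul_mem' := by
    rintro F F' ⟨n, c, a, b, hc, ha, hb, h⟩ ⟨n', c', a', b', hc', ha', hb', h'⟩
    let e : Fin n × Fin n' ≃ Fin (n * n') := finProdFinEquiv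
    refine ⟨n * n', fun k => c (e.symm k).1 * c' (e.symm k).2,
      fun k => a (e.symm k).1 * a' (e.symm k).2, fun k => b (e.symm k).1 * b' (e.symm k).2,
      fun k => A.mul_mem _ _ (hc _) (hc' _), fun k => H.mul_mem (ha _) (ha' _),
      fun k => H.mul_mem (hb _) (hb' _), ?_⟩
    intro m m'
    rw [Pi.mul_apply, Pi.mul_apply, h, h', Finset.sum_mul_sum, ← Fintype.sum_prod_type',
      ← e.symm.sum_comp]
    refine Finset.sum_congr rfl fun k _ => ?_
    simp only [Pi.mul_apply]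
    ring

theorem mem_tensA {A : ValuationSubring Qb} {H : Subring (M → Qb)} {F : M → M → Qb} :
    F ∈ tensA A H ↔ ∃ (n : ℕ) (c : Fin n → Qb) (a b : Fin n → M → Qb), (∀ i, c i ∈ A) ∧
      (∀ i, a i ∈ H) ∧ (∀ i, b i ∈ H) ∧ ∀ m m', F m m' = ∑ i, c i * (a i m * b i m') := Iff.rfl

theorem const_mem_tensA {A : ValuationSubring Qb} {H : Subring (M → Qb)} {c : Qb} (hc : c ∈ A) :
    (fun _ _ => c : M → M → Qb) ∈ tensA A H :=
  ⟨1, fun _ => c, fun _ => 1, fun _ => 1, fun _ => hc, fun _ => H.one_mem, fun _ => H.one_mem,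
    fun m m' => by simp⟩

theorem left_mem_tensA {A : ValuationSubring Qb} {H : Subring (M → Qb)} {a : M → Qb}
    (ha : a ∈ H) : (fun m _ => a m : M → M → Qb) ∈ tensA A H :=
  ⟨1, fun _ => 1, fun _ => a, fun _ => 1, fun _ => A.one_mem, fun _ => ha, fun _ => H.one_mem,
    fun m m' => by simp⟩

theorem right_mem_tensA {A : ValuationSubring Qb} {H : Subring (M → Qb)} {b : M → Qb}
    (hb : b ∈ H) : (fun _ m' => b m' : M → M → Qb) ∈ tensA A H :=
  ⟨1, fun _ => 1, fun _ => 1, fun _ => b, fun _ => A.one_mem, fun _ => H.one_mem, fun _ => hb,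
    fun m m' => by simp⟩

theorem tens_le_tensA (A : ValuationSubring Qb) (H : Subring (M → Qb)) : tens H ≤ tensA A H := by
  rintro F ⟨n, a, b, ha, hb, h⟩
  exact ⟨n, fun _ => 1, a, b, fun _ => A.one_mem, ha, hb, fun m m' => by simp [h]⟩

/-- `tens H`, viewed as an additive group of functions on `M × M`. -/
def tensX (H : Subring (M → Qb)) : AddSubgroup (M × M → Qb) where
  carrier := {f | (fun m m' => f (m, m')) ∈ tens H}
  zero_mem' := (tens H).zero_mem
  add_mem' := fun hf hg => (tens H).add_mem hf hg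
  neg_mem' := fun hf => (tens H).neg_mem hf

theorem mem_tensX {H : Subring (M → Qb)} {f : M × M → Qb} :
    f ∈ tensX H ↔ (fun m m' => f (m, m')) ∈ tens H := Iff.rfl

/-- The pure tensors span all functions on `M × M` as soon as `H` separates the points. -/
theorem span_tensX_eq_top [Finite M] (H : Subring (M → Qb))
    (hsep : ∀ m m', m ≠ m' → ∃ φ ∈ H, φ m ≠ φ m') :
    Submodule.span Qb (tensX H : Set (M × M → Qb)) = ⊤ := by
  classical
  let T : Submonoid (M × M → Qb) :=
    { carrier := {f | ∃ a ∈ H, ∃ b ∈ H, f = fun p => a p.1 * b p.2}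
      one_mem' := ⟨1, H.one_mem, 1, H.one_mem, by funext p; simp⟩
      mul_mem' := by
        rintro _ _ ⟨a, ha, b, hb, rfl⟩ ⟨a', ha', b', hb', rfl⟩
        refine ⟨a * a', H.mul_mem ha ha', b * b', H.mul_mem hb hb', ?_⟩
        funext p; simp only [Pi.mul_apply]; ring }
  have hTsep : ∀ x y : M × M, x ≠ y → ∃ f ∈ T, f x ≠ f y := by
    rintro ⟨x1, x2⟩ ⟨y1, y2⟩ hxy
    by_cases h1 : x1 = y1
    · have h2 : x2 ≠ y2 := fun h2 => hxy (by rw [h1, h2])
      obtain ⟨φ, hφ, hne⟩ := hsep x2 y2 h2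
      exact ⟨fun p => (1 : M → Qb) p.1 * φ p.2, ⟨1, H.one_mem, φ, hφ, rfl⟩, by simpa using hne⟩
    · obtain ⟨φ, hφ, hne⟩ := hsep x1 y1 h1
      exact ⟨fun p => φ p.1 * (1 : M → Qb) p.2, ⟨φ, hφ, 1, H.one_mem, rfl⟩, by simpa using hne⟩
  have hspan := span_eq_top_of_separates T hTsep
  refine top_le_iff.mp (hspan ▸ Submodule.span_mono ?_)
  rintro f ⟨a, ha, b, hb, rfl⟩
  exact mul_mem_tens ha hb

/-- **`ℓ`-adic closure principle, coefficients in `A`.**  Let `H` be a ring of `A`-valued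
inertia-equivariant functions on the finite group `M`, stable under `A^I`-constants and separating
points.  There is `r` such that every inertia-equivariant `φ` whose addition law holds modulo
`ℓ^r` with approximants in the `A`-span of `H ⊗ H` satisfies the exact addition law with
coefficients in `H`. -/
theorem exists_closure_bound_A {ℓ : ℕ} (hℓ : ℓ.Prime) (A : ValuationSubring Qb)
    (hA : A.LiesOverPrime ℓ) [AddMonoid M] [Finite M] [DistribMulAction G M]
    (H : Subring (M → Qb))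
    (hval : ∀ φ ∈ H, ∀ m, φ m ∈ A)
    (hI : ∀ φ ∈ H, ∀ s ∈ A.inertiaSubgroupIn ℚ, ∀ m, φ (s • m) = s (φ m))
    (hR0 : ∀ c ∈ A, (∀ s ∈ A.inertiaSubgroupIn ℚ, s c = c) → ∀ φ ∈ H, (fun m => c * φ m) ∈ H)
    (hsep : ∀ m m', m ≠ m' → ∃ φ ∈ H, φ m ≠ φ m') :
    ∃ r : ℕ, ∀ φ : M → Qb,
      (∀ s ∈ A.inertiaSubgroupIn ℚ, ∀ m, φ (s • m) = s (φ m)) →
      (∃ F ∈ tensA A H, ∀ m m', ∃ w ∈ A, φ (m + m') - F m m' = (ℓ : Qb) ^ r * w) →
      HasLaw H φ := by
  classical
  have hvalX : ∀ f ∈ tensX H, ∀ x, f x ∈ A := by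
    rintro f ⟨n, a, b, ha, hb, h⟩ ⟨m, m'⟩
    have h' : f (m, m') = ∑ i, a i m * b i m' := h m m'
    rw [h']
    exact sum_mem fun i _ => A.mul_mem _ _ (hval _ (ha i) m) (hval _ (hb i) m')
  have hIX : ∀ f ∈ tensX H, ∀ s ∈ A.inertiaSubgroupIn ℚ, ∀ x, f (s • x) = s (f x) := by
    rintro f ⟨n, a, b, ha, hb, h⟩ s hs ⟨m, m'⟩
    have h1 : f (s • (m, m')) = ∑ i, a i (s • m) * b i (s • m') := h (s • m) (s • m')
    have h2 : f (m, m') = ∑ i, a i m * b i m' := h m m'
    rw [h1, h2, map_sum]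
    refine Finset.sum_congr rfl fun i _ => ?_
    rw [hI _ (ha i) s hs, hI _ (hb i) s hs, map_mul]
  have hR0X : ∀ c ∈ A, (∀ s ∈ A.inertiaSubgroupIn ℚ, s c = c) → ∀ f ∈ tensX H,
      (fun x => c * f x) ∈ tensX H := by
    rintro c hc hcI f ⟨n, a, b, ha, hb, h⟩
    refine ⟨n, fun i => fun m => c * a i m, b, fun i => hR0 c hc hcI _ (ha i), hb, fun m m' => ?_⟩
    have h2 : f (m, m') = ∑ i, a i m * b i m' := h m m'
    show c * f (m, m') = ∑ i, (c * a i m) * b i m'
    rw [h2, Finset.mul_sum]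
    exact Finset.sum_congr rfl fun i _ => by ring
  obtain ⟨r, hr⟩ := exists_purity_bound hℓ A hA (tensX H) hvalX hIX hR0X
    (span_tensX_eq_top H hsep)
  refine ⟨r, fun φ hφI ⟨F, ⟨n, c, a, b, hc, ha, hb, hF⟩, hw⟩ => ?_⟩
  have key : (fun p : M × M => φ (p.1 + p.2)) ∈ tensX H := by
    refine hr _ ?_ ⟨n, c, fun i => fun p => a i p.1 * b i p.2, hc,
      fun i => mul_mem_tens (ha i) (hb i), ?_⟩
    · rintro s hs ⟨m, m'⟩
      have : (s • (m, m') : M × M) = (s • m, s • m') := rfl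
      rw [this]
      simp only
      rw [← smul_add, hφI s hs]
    · rintro ⟨m, m'⟩
      obtain ⟨w, hwA, hweq⟩ := hw m m'
      exact ⟨w, hwA, by rw [← hweq, hF]⟩
  exact key

end LawA

/-! ### The generated order, law with coefficients in `A` -/

section SpecA

local notation "Qb" => AlgebraicClosure ℚ
local notation "G" => (AlgebraicClosure ℚ ≃ₐ[ℚ] AlgebraicClosure ℚ)

variable {M : Type*}

/-- The addition law propagates from the generators to the whole generated order. -/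
theorem genOrder_law_of_gens (A : ValuationSubring Qb) [AddMonoid M] [DistribMulAction G M]
    (Φ : Set (M → Qb)) (hΦ : ∀ φ ∈ Φ, HasLaw (genOrder A Φ) φ) :
    ∀ φ ∈ genOrder A Φ, HasLaw (genOrder A Φ) φ := by
  have hD := genOrder_decomp A Φ
  intro φ hφ
  induction hφ using Subring.closure_induction with
  | mem f hf =>
    rcases hf with ⟨c, hc, hcI, rfl⟩ | ⟨s, hs, ψ, hψ, rfl⟩
    · exact hasLaw_const (const_mem_genOrder A Φ hc hcI)
    · exact hasLaw_conj (hΦ ψ hψ) s (fun f hf => hD f hf s hs)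
  | zero => exact hasLaw_const (c := 0) (genOrder A Φ).zero_mem
  | one => exact hasLaw_const (c := 1) (genOrder A Φ).one_mem
  | add f g _ _ hf hg => exact hf.add hg
  | neg f _ hf => exact hf.neg
  | mul f g _ _ hf hg => exact hf.mul hg

/-- **S19-CLOSURE with `A`-coefficients** (captain ruling R4).  Same as `genOrder_spec'`, but the
approximants of the addition law are only required to lie in the `A`-span `tensA A H` of
`H ⊗ H`, `H = genOrder A Φ` (e.g. polynomials with coefficients in `A` in the coordinates). -/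
theorem genOrder_spec_A (ℓ : ℕ) [Fact ℓ.Prime] (A : ValuationSubring Qb) (hA : A.LiesOverPrime ℓ)
    [AddCommGroup M] [Finite M] [DistribMulAction G M] (Φ : Set (M → Qb))
    (gval : ∀ φ ∈ Φ, ∀ m, φ m ∈ A)
    (gI : ∀ φ ∈ Φ, ∀ s ∈ A.inertiaSubgroupIn ℚ, ∀ m, φ (s • m) = s (φ m))
    (gsep : ∀ m m', m ≠ m' → ∃ φ ∈ Φ, φ m ≠ φ m')
    (gadd : ∀ φ ∈ Φ, ∀ j : ℕ, ∃ F ∈ tensA A (genOrder A Φ),
        ∀ m m', ∃ w ∈ A, φ (m + m') - F m m' = (ℓ : Qb) ^ j * w) :
    (∀ φ ∈ genOrder A Φ, ∀ m, φ m ∈ A) ∧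
    (∀ φ ∈ genOrder A Φ, ∀ s ∈ A.inertiaSubgroupIn ℚ, ∀ m, φ (s • m) = s (φ m)) ∧
    (∀ φ ∈ genOrder A Φ, ∀ s ∈ A.decompositionSubgroup ℚ,
      (fun m => s (φ (s⁻¹ • m))) ∈ genOrder A Φ) ∧
    (∀ c ∈ A, (∀ s ∈ A.inertiaSubgroupIn ℚ, s c = c) → ∀ φ ∈ genOrder A Φ,
      (fun m => c * φ m) ∈ genOrder A Φ) ∧
    (∀ m m', m ≠ m' → ∃ φ ∈ genOrder A Φ, φ m ≠ φ m') ∧
    (∀ φ ∈ genOrder A Φ, ∃ (n : ℕ) (a b : Fin n → M → Qb),
      (∀ i, a i ∈ genOrder A Φ) ∧ (∀ i, b i ∈ genOrder A Φ) ∧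
        ∀ m m', φ (m + m') = ∑ i, a i m * b i m') := by
  have hval := genOrder_val A Φ gval
  have hI := genOrder_inertia A Φ gI
  have hR0 := genOrder_smul A Φ
  have hsep := genOrder_sep A Φ gsep
  obtain ⟨r, hr⟩ := exists_closure_bound_A (Fact.out : ℓ.Prime) A hA (genOrder A Φ) hval hI hR0
    hsep
  exact ⟨hval, hI, genOrder_decomp A Φ, hR0, hsep,
    genOrder_law_of_gens A Φ fun φ hφ => hr φ (gI φ hφ) (gadd φ hφ r)⟩

/-- A polynomial with coefficients in `A`, evaluated at coordinates `x i m`, `x i m'` with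
`x i ∈ H`, lies in the `A`-span of `H ⊗ H`. -/
theorem poly_mem_tensA {κ : Type*} (A : ValuationSubring Qb) (H : Subring (M → Qb))
    (x : κ → M → Qb) (hx : ∀ i, x i ∈ H) (P : MvPolynomial (κ ⊕ κ) Qb)
    (hP : ∀ d, P.coeff d ∈ A) :
    (fun m m' => MvPolynomial.eval (Sum.elim (fun i => x i m) (fun i => x i m')) P) ∈
      tensA A H := by
  classical
  let cf : κ ⊕ κ → M → M → Qb := Sum.elim (fun i m _ => x i m) (fun i _ m' => x i m')
  have hcf : ∀ i, cf i ∈ tensA A H := by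
    rintro (i | i)
    · exact left_mem_tensA (hx i)
    · exact right_mem_tensA (hx i)
  have heq : (fun m m' => MvPolynomial.eval (Sum.elim (fun i => x i m) (fun i => x i m')) P)
      = ∑ d ∈ P.support, (fun _ _ => P.coeff d) * ∏ i ∈ d.support, cf i ^ d i := by
    funext m m'
    rw [MvPolynomial.eval_eq]
    simp only [Finset.sum_apply, Pi.mul_apply, Finset.prod_apply, Pi.pow_apply]
    refine Finset.sum_congr rfl fun d _ => ?_
    congr 1
    refine Finset.prod_congr rfl fun i _ => ?_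
    rcases i with i | i <;> rfl
  rw [heq]
  exact sum_mem fun d _ => mul_mem (const_mem_tensA (hP d))
    (prod_mem fun i _ => pow_mem (hcf i) _)

open Classical in
/-- The indicator function of a class. -/
def ind {C : Type*} (cls : M → C) (c : C) : M → Qb := fun m => if cls m = c then 1 else 0

/-- Coordinates together with the indicators of the classes. -/
def coordSet {κ C : Type*} (Ξ : κ → M → Qb) (cls : M → C) : Set (M → Qb) :=
  Set.range Ξ ∪ Set.range (ind cls)

/-- **ORDER from coordinates with centres** (exact-coordinate input, approximate law with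
coefficients in `A`; shape of captain ruling R4).  `cls : M → C` is the class map (`M` modulo the
kernel of reduction), `Ξ` are `A`-valued inertia-equivariant coordinates, injective on every
class, whose addition law on each pair of classes is given, modulo every power of `ℓ`, by a
polynomial with coefficients in `A`.  Then the order generated by the coordinates and the class
indicators satisfies the six hypotheses of the lattice descent. -/
theorem order_of_coords (ℓ : ℕ) [Fact ℓ.Prime] (A : ValuationSubring Qb) (hA : A.LiesOverPrime ℓ)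
    [AddCommGroup M] [Finite M] [DistribMulAction G M] {κ C : Type*} (cls : M → C)
    (Ξ : κ → M → Qb)
    (clsI : ∀ s ∈ A.inertiaSubgroupIn ℚ, ∀ m, cls (s • m) = cls m)
    (clsadd : ∀ m₁ m₂ m₁' m₂', cls m₁ = cls m₂ → cls m₁' = cls m₂' →
      cls (m₁ + m₁') = cls (m₂ + m₂'))
    (xval : ∀ k m, Ξ k m ∈ A)
    (xI : ∀ k, ∀ s ∈ A.inertiaSubgroupIn ℚ, ∀ m, Ξ k (s • m) = s (Ξ k m))
    (xinj : ∀ m m', cls m = cls m' → (∀ k, Ξ k m = Ξ k m') → m = m')
    (xlaw : ∀ (j : ℕ) (c c' : C) (k : κ), ∃ P : MvPolynomial (κ ⊕ κ) Qb,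
      (∀ d, P.coeff d ∈ A) ∧ ∀ m m', cls m = c → cls m' = c' → ∃ w ∈ A,
        Ξ k (m + m') - MvPolynomial.eval (Sum.elim (fun i => Ξ i m) (fun i => Ξ i m')) P
          = (ℓ : Qb) ^ j * w) :
    (∀ φ ∈ genOrder A (coordSet Ξ cls), ∀ m, φ m ∈ A) ∧
    (∀ φ ∈ genOrder A (coordSet Ξ cls), ∀ s ∈ A.inertiaSubgroupIn ℚ, ∀ m,
      φ (s • m) = s (φ m)) ∧
    (∀ φ ∈ genOrder A (coordSet Ξ cls), ∀ s ∈ A.decompositionSubgroup ℚ,
      (fun m => s (φ (s⁻¹ • m))) ∈ genOrder A (coordSet Ξ cls)) ∧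
    (∀ c ∈ A, (∀ s ∈ A.inertiaSubgroupIn ℚ, s c = c) → ∀ φ ∈ genOrder A (coordSet Ξ cls),
      (fun m => c * φ m) ∈ genOrder A (coordSet Ξ cls)) ∧
    (∀ m m', m ≠ m' → ∃ φ ∈ genOrder A (coordSet Ξ cls), φ m ≠ φ m') ∧
    (∀ φ ∈ genOrder A (coordSet Ξ cls), ∃ (n : ℕ) (a b : Fin n → M → Qb),
      (∀ i, a i ∈ genOrder A (coordSet Ξ cls)) ∧ (∀ i, b i ∈ genOrder A (coordSet Ξ cls)) ∧
        ∀ m m', φ (m + m') = ∑ i, a i m * b i m') := by
  classical
  cases nonempty_fintype M
  set H := genOrder A (coordSet Ξ cls) with hH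
  have hΞH : ∀ k, Ξ k ∈ H := fun k => subset_genOrder A _ (Or.inl ⟨k, rfl⟩)
  have hindH : ∀ c, ind cls c ∈ H := fun c => subset_genOrder A _ (Or.inr ⟨c, rfl⟩)
  -- the finite set of classes
  let S : Finset C := Finset.univ.image cls
  have hS : ∀ m, cls m ∈ S := fun m => Finset.mem_image_of_mem _ (Finset.mem_univ m)
  -- evaluation of a sum over pairs of classes weighted by indicators
  have hsum : ∀ (f : C → C → Qb) (m m' : M),
      ∑ c ∈ S, ∑ c' ∈ S, (ind cls c m * ind cls c' m') * f c c' = f (cls m) (cls m') := by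
    intro f m m'
    rw [Finset.sum_eq_single (cls m), Finset.sum_eq_single (cls m')]
    · simp [ind]
    · intro c' _ hc'
      have : ind cls c' m' = 0 := by simp [ind, Ne.symm hc']
      rw [this]; ring
    · intro h; exact absurd (hS m') h
    · intro c _ hc
      have : ind cls c m = 0 := by simp [ind, Ne.symm hc]
      refine Finset.sum_eq_zero fun c' _ => ?_
      rw [this]; ring
    · intro h; exact absurd (hS m) h
  refine genOrder_spec_A ℓ A hA (coordSet Ξ cls) ?_ ?_ ?_ ?_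
  · -- gval
    rintro φ (⟨k, rfl⟩ | ⟨c, rfl⟩) m
    · exact xval k m
    · simp only [ind]
      split_ifs
      · exact A.one_mem
      · exact A.zero_mem
  · -- gI
    rintro φ (⟨k, rfl⟩ | ⟨c, rfl⟩) s hs m
    · exact xI k s hs m
    · simp only [ind, clsI s hs m]
      split_ifs <;> simp
  · -- gsep
    intro m m' hne
    by_cases hc : cls m = cls m'
    · have : ∃ k, Ξ k m ≠ Ξ k m' := by
        by_contra hcon
        push Not at hcon
        exact hne (xinj m m' hc hcon)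
      obtain ⟨k, hk⟩ := this
      exact ⟨Ξ k, Or.inl ⟨k, rfl⟩, hk⟩
    · refine ⟨ind cls (cls m), Or.inr ⟨_, rfl⟩, ?_⟩
      simp [ind, Ne.symm hc]
  · -- gadd
    rintro φ (⟨k, rfl⟩ | ⟨c0, rfl⟩) j
    · choose P hPA hP using fun c c' => xlaw j c c' k
      refine ⟨∑ c ∈ S, ∑ c' ∈ S, ((fun m _ => ind cls c m) * (fun _ m' => ind cls c' m')) *
        (fun m m' => MvPolynomial.eval (Sum.elim (fun i => Ξ i m) (fun i => Ξ i m')) (P c c')),
        ?_, ?_⟩
      · exact sum_mem fun c _ => sum_mem fun c' _ => mul_mem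
          (mul_mem (left_mem_tensA (hindH c)) (right_mem_tensA (hindH c')))
          (poly_mem_tensA A H Ξ hΞH (P c c') (hPA c c'))
      · intro m m'
        obtain ⟨w, hwA, hw⟩ := hP (cls m) (cls m') m m' rfl rfl
        refine ⟨w, hwA, ?_⟩
        rw [← hw]
        congr 1
        simp only [Finset.sum_apply, Pi.mul_apply]
        exact hsum (fun c c' =>
          MvPolynomial.eval (Sum.elim (fun i => Ξ i m) (fun i => Ξ i m')) (P c c')) m m'
    · refine ⟨∑ c ∈ S, ∑ c' ∈ S, ((fun m _ => ind cls c m) * (fun _ m' => ind cls c' m')) *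
        (fun _ _ => if ∃ m m', cls m = c ∧ cls m' = c' ∧ cls (m + m') = c0 then (1 : Qb) else 0),
        ?_, ?_⟩
      · refine sum_mem fun c _ => sum_mem fun c' _ => mul_mem
          (mul_mem (left_mem_tensA (hindH c)) (right_mem_tensA (hindH c'))) (const_mem_tensA ?_)
        split_ifs
        · exact A.one_mem
        · exact A.zero_mem
      · intro m m'
        refine ⟨0, A.zero_mem, ?_⟩
        rw [mul_zero, sub_eq_zero]
        simp only [Finset.sum_apply, Pi.mul_apply]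
        rw [hsum (fun c c' =>
          if ∃ m m', cls m = c ∧ cls m' = c' ∧ cls (m + m') = c0 then (1 : Qb) else 0) m m']
        simp only [ind]
        by_cases h0 : cls (m + m') = c0
        · rw [if_pos h0, if_pos ⟨m, m', rfl, rfl, h0⟩]
        · rw [if_neg h0, if_neg]
          rintro ⟨m₂, m₂', h1, h2, h3⟩
          exact h0 ((clsadd m m₂ m' m₂' h1.symm h2.symm).trans h3)

end SpecA

end

end Fermat.Agent.S19.helper2765
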