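import Fermat.Agent.S19.helper2111_Top
import Fermat.Agent.S19.helper1908_Centres
import Fermat.Agent.S19.helper2765_ClosureA
import Fermat.Agent.S29.helper8527_FiniteLevel

set_option autoImplicit false

/-!
# S19: the spine assembled (captain's glue)

`Stmt_SpineAll ℓ` from one remaining Prop, DESCENT:

`IsCoordSystem`  --(helper1908 `centres_of_isCoordSystem`)-->  class-wise coordinates on the
torsion with a class-wise approximate addition law  --(helper2765 `order_of_coords`)-->  an order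
`H0` of `A`-valued inertia-equivariant functions, stable under the decomposition group and under
inertia-fixed constants, separating points, closed under the addition law
--(`Stmt_Descent`)-->  a function model over `ℤ_(ℓ)`.

Finiteness of the torsion is helper4778 `stmt_Fin`; open stabilisers are S29 helper8527
`exists_finiteLevel_of_finite`.
-/

namespace Fermat.Agent.S19.helper2111

open ModularCurve

/-- DESCENT (route independent; owners helper1312 / helper1254): an order `H0` of `A`-valued,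
inertia-equivariant functions on a finite Galois module (additive action) with open stabilisers,
stable under the
decomposition group and under the inertia-fixed constants of `A`, separating points and closed
under the addition law, contains a function model over `ℤ_(ℓ)`. -/
def Stmt_Descent (ℓ : ℕ) : Prop :=
  ∀ (A : ValuationSubring Qb), A.LiesOverPrime ℓ →
    ∀ (M : Type) [AddCommGroup M] [Finite M] [DistribMulAction GQ M],
      (∃ E : IntermediateField ℚ Qb, FiniteDimensional ℚ E ∧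
        ∀ s ∈ E.fixingSubgroup, ∀ m : M, s • m = m) →
      ∀ H0 : Subring (M → Qb),
        (∀ φ ∈ H0, ∀ m, φ m ∈ A) →
        (∀ φ ∈ H0, ∀ s ∈ A.inertiaSubgroupIn ℚ, ∀ m, φ (s • m) = s (φ m)) →
        (∀ φ ∈ H0, ∀ s ∈ A.decompositionSubgroup ℚ, (fun m => s (φ (s⁻¹ • m))) ∈ H0) →
        (∀ c ∈ A, (∀ s ∈ A.inertiaSubgroupIn ℚ, s c = c) →
          ∀ φ ∈ H0, (fun m => c * φ m) ∈ H0) →
        (∀ m m' : M, m ≠ m' → ∃ φ ∈ H0, φ m ≠ φ m') →
        (∀ φ ∈ H0, ∃ (n : ℕ) (a b : Fin n → M → Qb), (∀ i, a i ∈ H0) ∧ (∀ i, b i ∈ H0) ∧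
          ∀ m m' : M, φ (m + m') = ∑ i, a i m * b i m') →
        ∃ H : Subalgebra (Rl ℓ) (M → Qb), Module.Finite (Rl ℓ) H ∧ (∀ φ ∈ H, φ ∈ H0) ∧
          (∀ φ ∈ H, ∀ (s : GQ) (m : M), φ (s • m) = s (φ m)) ∧
          (∀ m m' : M, m ≠ m' → ∃ φ ∈ H, φ m ≠ φ m') ∧
          (∀ φ ∈ H, ∃ (n : ℕ) (a b : Fin n → M → Qb), (∀ i, a i ∈ H) ∧ (∀ i, b i ∈ H) ∧
            ∀ m m' : M, φ (m + m') = ∑ i, a i m * b i m')

/-- The Galois action on the torsion as a `DistribMulAction` (a definition, not an instance). -/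
@[reducible]
noncomputable def torsDistribMulAction (N ℓ k : ℕ) : DistribMulAction GQ (Tors N ℓ k) where
  smul σ m := torsAct N ℓ k σ m
  one_smul m := Subtype.ext (one_smul GQ (m : JZero N))
  mul_smul σ τ m := Subtype.ext (mul_smul σ τ (m : JZero N))
  smul_zero σ := torsAct_zero N ℓ k σ
  smul_add σ m m' := Subtype.ext (smul_add σ (m : JZero N) (m' : JZero N))

/-- **The spine at level `N`**, from DESCENT. -/
theorem stmt_Spine_of_descent (ℓ : ℕ) [Fact ℓ.Prime] (hD : Stmt_Descent ℓ) (N : ℕ) (hN : N ≠ 0) :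
    Stmt_Spine ℓ N := by
  rintro ⟨A, hA, g, J1, b, hcs⟩ k
  have : NeZero N := ⟨hN⟩
  have hℓ : ℓ.Prime := Fact.out
  have : Finite (Tors N ℓ k) := Fermat.Agent.S19.helper4778.stmt_Fin N ℓ hℓ.ne_zero k
  letI : DistribMulAction GQ (Tors N ℓ k) := torsDistribMulAction N ℓ k
  obtain ⟨cls, Ξ, hclsI, hΞA, hΞI, hΞsep, -, hlaw⟩ :=
    Fermat.Agent.S19.helper1908.centres_of_isCoordSystem hcs k
  have hclsI' : ∀ s ∈ A.inertiaSubgroupIn ℚ, ∀ m : Tors N ℓ k, cls (s • m) = cls m := hclsI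
  have hΞI' : ∀ (i : Fin g), ∀ s ∈ A.inertiaSubgroupIn ℚ, ∀ m : Tors N ℓ k,
      Ξ i (s • m) = s (Ξ i m) := fun i s hs m => hΞI s hs i m
  have hclsadd : ∀ m₁ m₂ m₁' m₂' : Tors N ℓ k, cls m₁ = cls m₂ → cls m₁' = cls m₂' →
      cls (m₁ + m₁') = cls (m₂ + m₂') := by
    intro m₁ m₂ m₁' m₂' h h'
    exact (cls.map_add m₁ m₁').trans ((congrArg₂ (· + ·) h h').trans (cls.map_add m₂ m₂').symm)
  have h6 := Fermat.Agent.S19.helper2765.order_of_coords ℓ A hA (M := Tors N ℓ k)
    (fun m => cls m) Ξ hclsI' hclsadd hΞA hΞI' hΞsep hlaw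
  obtain ⟨h1, h2, h3, h4, h5, h6⟩ := h6
  obtain ⟨L, hL, hσ⟩ := Fermat.Agent.S29.helper8527.exists_finiteLevel_of_finite N
    (S := Set.range (fun m : Tors N ℓ k => (m : JZero N))) (Set.finite_range _)
  have hopen : ∃ E : IntermediateField ℚ Qb, FiniteDimensional ℚ E ∧
      ∀ s ∈ E.fixingSubgroup, ∀ m : Tors N ℓ k, s • m = m :=
    ⟨L, hL, fun s hs m => Subtype.ext (hσ s
      (fun y hy => (IntermediateField.mem_fixingSubgroup_iff L s).mp hs y hy) _ ⟨m, rfl⟩)⟩
  obtain ⟨H, hfin, -, heqv, hsep, hcomul⟩ := hD A hA (Tors N ℓ k) hopen _ h1 h2 h3 h4 h5 h6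
  exact ⟨H, ⟨hfin, fun φ hφ σ m => heqv φ hφ σ m, hsep, hcomul⟩⟩

/-- **The spine at every level**, from DESCENT. -/
theorem stmt_SpineAll_of_descent (ℓ : ℕ) [Fact ℓ.Prime] (hD : Stmt_Descent ℓ) :
    Stmt_SpineAll ℓ :=
  fun N hN => stmt_Spine_of_descent ℓ hD N hN

end Fermat.Agent.S19.helper2111
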