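import Fermat.Agent.S19.helper2111_SpecCore
import Fermat.Agent.S19.helper1852_FuncModel
import Fermat.Agent.S19.helper4778_Fin
import Fermat.Agent.S19.helper2289_Level

set_option autoImplicit false

/-!
# S19: the root of the chain with everything landed plugged in (captain's Spec, part 3)

`result_of_spine_coords` : the frozen statement S19 from the two remaining Props

* `Stmt_SpineAll ℓ`  : `Stmt_Spine ℓ N` for every level `N ≠ 0` (pure algebra: centres, order,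
  closure, descent),
* `Stmt_CoordsAux ℓ` : `Stmt_Coords ℓ N` for every level `N ≠ 0` prime to `ℓ` and divisible by the
  auxiliary prime `auxPrime ℓ` (`= 3` if `ℓ = 2`, `= 2` otherwise): the geometric core on the
  place layer at the auxiliary level.

FUNCMODEL (helper1852), FIN (helper4778, from S29 helper288) and the level map (helper2289) are
plugged in.
-/

namespace Fermat.Agent.S19.helper2111

open ModularCurve

/-- The auxiliary prime `r` (the gate is available at level `lcm(N, r)`): `3` if `ℓ = 2`, else `2`. -/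
def auxPrime (ℓ : ℕ) : ℕ := if ℓ = 2 then 3 else 2

theorem auxPrime_prime (ℓ : ℕ) : (auxPrime ℓ).Prime := by
  unfold auxPrime
  split_ifs
  · exact Nat.prime_three
  · exact Nat.prime_two

theorem auxPrime_ne (ℓ : ℕ) : auxPrime ℓ ≠ ℓ := by
  unfold auxPrime
  split_ifs with h
  · omega
  · exact fun h' => h h'.symm

theorem not_dvd_lcm_auxPrime {ℓ p : ℕ} (hℓ : ℓ.Prime) (h : ¬ ℓ ∣ p) :
    ¬ ℓ ∣ p.lcm (auxPrime ℓ) := by
  intro hd
  have h1 : ℓ ∣ p * auxPrime ℓ := dvd_trans hd (Nat.lcm_dvd_mul p (auxPrime ℓ))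
  rcases (Nat.Prime.dvd_mul hℓ).mp h1 with h2 | h2
  · exact h h2
  · have := (Nat.prime_dvd_prime_iff_eq hℓ (auxPrime_prime ℓ)).mp h2
    exact auxPrime_ne ℓ this.symm

/-- SPINE at every level. -/
def Stmt_SpineAll (ℓ : ℕ) : Prop := ∀ N : ℕ, N ≠ 0 → Stmt_Spine ℓ N

/-- CORE at every level prime to `ℓ` and divisible by the auxiliary prime. -/
def Stmt_CoordsAux (ℓ : ℕ) : Prop :=
  ∀ N : ℕ, N ≠ 0 → auxPrime ℓ ∣ N → ¬ ℓ ∣ N → Stmt_Coords ℓ N

/-- **Root of the chain**: the frozen statement S19 from the spine and the core. -/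
theorem result_of_spine_coords (p : ℕ) [NeZero p] (ℓ : ℕ) [Fact ℓ.Prime] (hℓp : ¬ ℓ ∣ p) (k : ℕ)
    (hspine : Stmt_SpineAll ℓ) (hcore : Stmt_CoordsAux ℓ) :
    ∃ (H : Type) (_ : CommRing H) (_ : HopfAlgebra (GaloisRep.ratLocalizedAt ℓ) H),
      Module.Finite (GaloisRep.ratLocalizedAt ℓ) H ∧ Module.Flat (GaloisRep.ratLocalizedAt ℓ) H ∧
      Coalgebra.IsCocomm (GaloisRep.ratLocalizedAt ℓ) H ∧
      ∃ e : WithConv (H →ₐ[GaloisRep.ratLocalizedAt ℓ] AlgebraicClosure ℚ) ≃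
          ↥(Submodule.torsionBy ℤ (JZero p) ((ℓ : ℤ) ^ k)),
        (∀ f g, e (f * g) = e f + e g) ∧
        ∀ (σ : AlgebraicClosure ℚ ≃ₐ[ℚ] AlgebraicClosure ℚ)
          (f g : WithConv (H →ₐ[GaloisRep.ratLocalizedAt ℓ] AlgebraicClosure ℚ)),
          (∀ h : H, g h = σ (f h)) → ((e g : JZero p)) = σ • (e f : JZero p) := by
  have hℓ : ℓ.Prime := Fact.out
  obtain ⟨φ, hφ, hgal⟩ := Fermat.Agent.S19.helper2289.exists_lcm p (auxPrime ℓ) (auxPrime_prime ℓ)
  have hN0 : p.lcm (auxPrime ℓ) ≠ 0 :=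
    Nat.lcm_ne_zero (NeZero.ne p) (auxPrime_prime ℓ).ne_zero
  exact result_of_coords p ℓ k (p.lcm (auxPrime ℓ))
    (Fermat.Agent.S19.helper1852.stmt_FuncModel ℓ)
    (Fermat.Agent.S19.helper4778.stmt_Fin p ℓ hℓ.ne_zero k)
    φ hφ hgal (hspine _ hN0)
    (hcore _ hN0 (Nat.dvd_lcm_right p (auxPrime ℓ)) (not_dvd_lcm_auxPrime hℓ hℓp))

end Fermat.Agent.S19.helper2111
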