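/-
S19 CORE-C Spec (helper9190, architect of CORE-C = route C "Cech units", truncated form).

Everything here is a DEFINITION of a `Prop` (no proofs, no sorry): the exact Lean shapes of
* the output of CORE-C, `Stmt_TruncCoords` (consumed by TRUNC / the spine), and
* the leaves of CORE-C: `Stmt_H1Free` (C1), `Stmt_CechElt` (C2+C3, element form over `(ℚ̄, A)`),
  `Stmt_GaussVal` + `Stmt_ChartInt` (Gauss valuation dictionary), `Stmt_SmallCentres` (C6+C7),
  `Stmt_BoundedTorsion` (C5: geometry), `Stmt_PrincipalOfSection` (degree dictionary),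
* and the assembly `Stmt_CoreAssembly` : leaves → `Stmt_TruncCoords`.

All objects live inside the field `FK = ℚ̄(X₀(N))` (`modularFunctionFieldBar N`) of the Prelude:
no tensor products, no completions, no schemes.
-/
import Mathlib
import Fermat.Prelude.Def_ModularCurve_ArithmeticGalois
import Fermat.Prelude.Def_ModularCurve_IgusaScheme
import Fermat.Prelude.Def_FLTPrelim_Ramification

set_option autoImplicit false

namespace Fermat.Agent.S19.helper9190

open ModularCurve ModularCurve.IgusaScheme AlgebraicCurve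

noncomputable section

local notation "Qb" => AlgebraicClosure ℚ
local notation "GQ" => (AlgebraicClosure ℚ ≃ₐ[ℚ] AlgebraicClosure ℚ)

/-! ## 0. The output of CORE-C -/

/-- `x ≡ y` modulo `ℓ ^ r • A`. -/
def Cong (A : ValuationSubring Qb) (ℓ r : ℕ) (x y : Qb) : Prop :=
  ∃ w ∈ A, x - y = (ℓ : Qb) ^ r * w

/-- **Output of CORE-C** (truncated coordinates on a "kernel of reduction" `J1`).
`β r x i` is a representative in `ℚ̄` of the `i`-th coordinate of `x` modulo `ℓ ^ r`. -/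
def Stmt_TruncCoords (N : ℕ) [NeZero N] (ℓ : ℕ) [Fact ℓ.Prime] (A : ValuationSubring Qb) : Prop :=
  ∃ (g : ℕ) (J1 : AddSubgroup (JZero N))
    (F : ℕ → Fin g → MvPolynomial (Fin g ⊕ Fin g) (GaloisRep.ratLocalizedAt ℓ))
    (β : ℕ → JZero N → Fin g → Qb),
    -- (stab) `J1` is stable under the decomposition group
    (∀ s ∈ A.decompositionSubgroup ℚ, ∀ x ∈ J1, s • x ∈ J1) ∧
    -- (nil) the coordinates lie in the maximal ideal of `A`
    (∀ r, ∀ x ∈ J1, ∀ i, β r x i ∈ A.nonunits) ∧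
    -- (compat)
    (∀ r, ∀ x ∈ J1, ∀ i, Cong A ℓ r (β (r + 1) x i) (β r x i)) ∧
    -- (eqv) equivariance under the decomposition group
    (∀ r, ∀ s ∈ A.decompositionSubgroup ℚ, ∀ x ∈ J1, ∀ i,
      Cong A ℓ r (β r (s • x) i) (s (β r x i))) ∧
    -- (law) ONE polynomial law `F n` (coefficients in `ℤ_(ℓ)`) for all points whose coordinates
    -- are nilpotent of index `n` modulo `ℓ ^ r`
    (∀ r n, ∀ x ∈ J1, ∀ y ∈ J1, (∀ i, Cong A ℓ r (β r x i ^ n) 0) →
      (∀ i, Cong A ℓ r (β r y i ^ n) 0) →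
      ∀ i, Cong A ℓ r (β r (x + y) i)
        (MvPolynomial.aeval (Sum.elim (β r x) (β r y)) (F n i))) ∧
    -- (inj) the coordinates separate the points of `J1`
    (∀ x ∈ J1, ∀ y ∈ J1, (∀ r i, Cong A ℓ r (β r x i) (β r y i)) → x = y) ∧
    -- (rat) all truncations of a point are computed at one finite level
    (∀ x ∈ J1, ∃ E : IntermediateField ℚ Qb, FiniteDimensional ℚ E ∧ ∀ r i, β r x i ∈ E) ∧
    -- (cen) inertia-fixed centres
    (∀ x : JZero N, ∃ y : JZero N,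
      (∀ s ∈ A.inertiaSubgroupIn ℚ, s • y = y) ∧ x - y ∈ J1)

/-! ## 1. The chart language inside `FK` -/

section Charts

variable (N : ℕ) [NeZero N] (ℓ : ℕ) [Fact ℓ.Prime]

/-- The function field `ℚ(X₀(N))` of the Prelude. -/
abbrev FQ : Type := ↥(modularFunctionFieldFull N)

/-- The function field `ℚ̄(X₀(N))` of the Prelude. -/
abbrev FK : Type := ↥(modularFunctionFieldBar N)

/-- The embedding `ℚ(X₀(N)) → ℚ̄(X₀(N))` (coefficientwise on `q`-expansions). -/
def emb : FQ N →+* FK N :=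
  ((coeffEmb Qb).comp (modularFunctionFieldFull N).toSubring.subtype).codRestrict
    (modularFunctionFieldBar N).toSubring
    (fun x => coeffEmb_mem_laurentBaseChange Qb x.2)

/-- `j` as an element of `FK`. -/
def jK : FK N := emb N (jFull N)

/-- The constants of `FK`. -/
abbrev cst (c : Qb) : FK N := algebraMap Qb (FK N) c

/-- The three chart algebras (over `ℤ_(ℓ)`) as subsets of `FQ`: index `0` = `chartAlgFin`
(`j` finite), `1` = `chartAlgInf` (`1/j` finite), anything else = `chartAlgMid` (overlap). -/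
def chartSet (i : ℕ) : Set (FQ N) :=
  if i = 0 then (chartAlgFin N ℓ : Set (FQ N))
  else if i = 1 then (chartAlgInf N ℓ : Set (FQ N))
  else (chartAlgMid N ℓ : Set (FQ N))

variable (A : ValuationSubring Qb)

/-- The chart ring at level `E`: the subring of `FK` generated by the constants of `A ∩ E` and
the chart `i`.  For `E = ⊤` this is `S_{i,A} = A · S_i`. -/
def chartRing (E : IntermediateField ℚ Qb) (i : ℕ) : Subring (FK N) :=
  Subring.closure ((fun c : Qb => cst N c) '' {c | c ∈ A ∧ c ∈ E} ∪ (emb N) '' chartSet N ℓ i)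

/-- `𝔪_A · S_{i,A}` (elements `c * s`, `c` a nonunit of `A`, `s ∈ S_{i,A}`). -/
def chartMax (i : ℕ) : Set (FK N) :=
  {f | ∃ c ∈ A.nonunits, ∃ s ∈ chartRing N ℓ A ⊤ i, f = cst N c * s}

/-- `I · S_{i, A ∩ E}` for the ideal `I = {c ∈ A ∩ E | c ^ n ∈ ℓ ^ r A}`. -/
def chartNil (E : IntermediateField ℚ Qb) (n r : ℕ) (i : ℕ) : Set (FK N) :=
  {f | ∃ c : Qb, c ∈ A ∧ c ∈ E ∧ Cong A ℓ r (c ^ n) 0 ∧
    ∃ s ∈ chartRing N ℓ A E i, f = cst N c * s}

/-- The Gauss valuation ring of `FK` attached to `A` (as a set): `f` is Gauss-integral when some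
`Q(j)`, `Q ∈ A[X]` with a unit coefficient, multiplies `f` into the `q`-series with coefficients
in `A`.  (Same content as `Fermat.Agent.S18.helper508.IsGaussIntegral`, whose landed theorems
make it a `ValuationSubring` for `ℓ ∤ N`.) -/
def gaussRing : Set (FK N) :=
  {f | ∃ Q : Polynomial Qb, (∀ n, Q.coeff n ∈ A) ∧ (∃ n, Q.coeff n ∉ A.nonunits) ∧
    ∀ n : ℤ, ((Polynomial.aeval (jK N) Q * f : FK N) : LaurentSeries Qb).coeff n ∈ A}

/-- The maximal ideal `𝔪_A · W` of the Gauss valuation ring. -/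
def gaussMax : Set (FK N) :=
  {f | ∃ c ∈ A.nonunits, ∃ w ∈ gaussRing N A, f = cst N c * w}

/-- The places of `FK` on the generic fibre of chart `i`. -/
def chartReg (i : ℕ) (P : Place Qb (FK N)) : Prop :=
  if i = 0 then jK N ∈ P.toValuationSubring
  else if i = 1 then (jK N)⁻¹ ∈ P.toValuationSubring
  else jK N ∈ P.toValuationSubring ∧ (jK N)⁻¹ ∈ P.toValuationSubring

/-- `L_i(D)`: sections over chart `i` (over `A`) of the line bundle of the closure of `D`:
Gauss-integral functions with `ord_P f ≥ -D(P)` at the places of chart `i`. -/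
def Lsec (i : ℕ) (D : Divisor Qb (FK N)) : Set (FK N) :=
  {f | f ∈ gaussRing N A ∧ (f ≠ 0 → ∀ P : Place Qb (FK N), chartReg N i P → -(D P) ≤ P.ord f)}

/-- Sections of `L_i(D)` with Gauss reduction `1`. -/
def TrivSec (i : ℕ) (D : Divisor Qb (FK N)) : Set (FK N) :=
  {e | e ∈ Lsec N A i D ∧ e - 1 ∈ gaussMax N A}

/-- `D` is *small*: `L_i(D)` and `L_i(-D)` contain sections of Gauss reduction `1` on both charts
(the closure of `D` is trivial on the special fibre, chart by chart). -/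
def SmallDiv (D : Divisor Qb (FK N)) : Prop :=
  (TrivSec N A 0 D).Nonempty ∧ (TrivSec N A 0 (-D)).Nonempty ∧
  (TrivSec N A 1 D).Nonempty ∧ (TrivSec N A 1 (-D)).Nonempty

/-- The classes of small divisors of degree `0` (this is the `J1` of `Stmt_TruncCoords`). -/
def smallClasses : Set (JZero N) :=
  {x | ∃ D : Divisor.degZero (K := Qb) (F := FK N),
    Pic0.mk D = x ∧ SmallDiv N A (D : Divisor Qb (FK N))}

/-- The subfield of `FK` generated by `FQ` and `E`. -/
def levelField (E : IntermediateField ℚ Qb) : Subfield (FK N) :=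
  Subfield.closure ((fun c : Qb => cst N c) '' (E : Set Qb) ∪ Set.range (emb N))

end Charts

/-! ## 2. The leaves -/

section Leaves

variable (N : ℕ) [NeZero N] (ℓ : ℕ) [Fact ℓ.Prime]

/-- **C1 = H1FREE** (from the landed S28): the Cech datum of the Igusa model over `ℤ_(ℓ)`.
(The five fields of `helper2972.IsCechDatum (inclFin N ℓ) (inclInf N ℓ) η`, verbatim.) -/
def Stmt_H1Free : Prop :=
  ∃ (g : ℕ) (η : Fin g → chartAlgMid N ℓ),
    (∀ x : chartAlgMid N ℓ, ∃ (x0 : chartAlgFin N ℓ) (x1 : chartAlgInf N ℓ)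
      (c : Fin g → GaloisRep.ratLocalizedAt ℓ),
      x = inclFin N ℓ x0 + inclInf N ℓ x1 + ∑ i, c i • η i) ∧
    (∀ (x0 : chartAlgFin N ℓ) (x1 : chartAlgInf N ℓ) (c : Fin g → GaloisRep.ratLocalizedAt ℓ),
      inclFin N ℓ x0 + inclInf N ℓ x1 + ∑ i, c i • η i = 0 → c = 0) ∧
    (∀ (x0 : chartAlgFin N ℓ) (x1 : chartAlgInf N ℓ), inclFin N ℓ x0 = inclInf N ℓ x1 →
      ∃ r : GaloisRep.ratLocalizedAt ℓ,
        x0 = algebraMap _ (chartAlgFin N ℓ) r ∧ x1 = algebraMap _ (chartAlgInf N ℓ) r) ∧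
    (∀ r : GaloisRep.ratLocalizedAt ℓ, algebraMap _ (chartAlgFin N ℓ) r = 0 →
      algebraMap _ (chartAlgInf N ℓ) r = 0 → r = 0) ∧
    Module.Flat (GaloisRep.ratLocalizedAt ℓ) (chartAlgMid N ℓ)

variable (A : ValuationSubring Qb)

/-- The normal form `a0 * ∏ (1 + b_i η_i) * a1`. -/
def normalForm {g : ℕ} (η : Fin g → FQ N) (a0 a1 : FK N) (b : Fin g → Qb) : FK N :=
  a0 * (∏ i, (1 + cst N (b i) * emb N (η i))) * a1

/-- `b` is a vector of elements of `A` that are nilpotent of index `n` modulo `ℓ ^ r`. -/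
def NilVec {g : ℕ} (n r : ℕ) (b : Fin g → Qb) : Prop :=
  ∀ i, b i ∈ A ∧ Cong A ℓ r (b i ^ n) 0

/-- **C2 + C3 = CECH-ELEMENT**: the unit factorisation, its uniqueness and the polynomial law,
in element form inside `FK` (levels `A ∩ E`), plus "`S̄₀ ∩ S̄₁` = constants" modulo `𝔪_A`. -/
def Stmt_CechElt : Prop :=
  ∃ (g : ℕ) (η : Fin g → FQ N)
    (F : ℕ → Fin g → MvPolynomial (Fin g ⊕ Fin g) (GaloisRep.ratLocalizedAt ℓ)),
    (∀ i, η i ∈ chartSet N ℓ 2) ∧
    -- (FAC) factorisation at every level `E`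
    (∀ (E : IntermediateField ℚ Qb) (r n : ℕ) (v : FK N), v ∈ chartRing N ℓ A E 2 →
      v - 1 ∈ chartNil N ℓ A E n r 2 →
      ∃ (a0 a1 : FK N) (b : Fin g → Qb),
        a0 ∈ chartRing N ℓ A E 0 ∧ a0 - 1 ∈ chartNil N ℓ A E n r 0 ∧
        a1 ∈ chartRing N ℓ A E 1 ∧ a1 - 1 ∈ chartNil N ℓ A E n r 1 ∧
        NilVec ℓ A n r b ∧ (∀ i, b i ∈ E) ∧
        ∃ z ∈ chartRing N ℓ A E 2, v - normalForm N η a0 a1 b = cst N ((ℓ : Qb) ^ r) * z) ∧
    -- (UNI) uniqueness of the coordinates modulo `ℓ ^ r`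
    (∀ (r n : ℕ) (a0 a1 a0' a1' : FK N) (b b' : Fin g → Qb),
      a0 - 1 ∈ chartNil N ℓ A ⊤ n r 0 → a1 - 1 ∈ chartNil N ℓ A ⊤ n r 1 →
      a0' - 1 ∈ chartNil N ℓ A ⊤ n r 0 → a1' - 1 ∈ chartNil N ℓ A ⊤ n r 1 →
      NilVec ℓ A n r b → NilVec ℓ A n r b' →
      (∃ z ∈ chartRing N ℓ A ⊤ 2,
        normalForm N η a0 a1 b - normalForm N η a0' a1' b' = cst N ((ℓ : Qb) ^ r) * z) →
      ∀ i, Cong A ℓ r (b i) (b' i)) ∧
    -- (LAW) the coordinates of a product
    (∀ (r n : ℕ) (a0 a1 : FK N) (b b' b'' : Fin g → Qb),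
      a0 - 1 ∈ chartNil N ℓ A ⊤ n r 0 → a1 - 1 ∈ chartNil N ℓ A ⊤ n r 1 →
      NilVec ℓ A n r b → NilVec ℓ A n r b' → NilVec ℓ A n r b'' →
      (∃ z ∈ chartRing N ℓ A ⊤ 2,
        normalForm N η 1 1 b * normalForm N η 1 1 b' - normalForm N η a0 a1 b''
          = cst N ((ℓ : Qb) ^ r) * z) →
      ∀ i, Cong A ℓ r (b'' i) (MvPolynomial.aeval (Sum.elim b b') (F n i))) ∧
    -- (INTER) `S̄₀ ∩ S̄₁` = constants, modulo `𝔪_A`
    (∀ s0 ∈ chartRing N ℓ A ⊤ 0, ∀ s1 ∈ chartRing N ℓ A ⊤ 1, s0 - s1 ∈ chartMax N ℓ A 2 →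
      ∃ c ∈ A, s0 - cst N c ∈ chartMax N ℓ A 0 ∧ s1 - cst N c ∈ chartMax N ℓ A 1)

/-- **GAUSSVAL** (landed in S18 for `ℓ ∤ N`: `helper508.gaussValuationSubring`): the Gauss-integral
functions form a valuation subring `W` of `FK` with `W ∩ ℚ̄ = A` and the value group of `A`. -/
def Stmt_GaussVal : Prop :=
  ∃ W : ValuationSubring (FK N),
    (∀ f, f ∈ W ↔ f ∈ gaussRing N A) ∧
    (∀ c : Qb, cst N c ∈ W ↔ c ∈ A) ∧
    (∀ h : FK N, h ≠ 0 → ∃ c : Qb, c ≠ 0 ∧ cst N c * h ∈ W ∧ (cst N c * h)⁻¹ ∈ W)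

/-- **CHARTINT** (DICT-INT + DICT-PTS): `L_i(0) = S_{i,A}` for the three charts (a Gauss-integral
function regular on the generic chart `i` lies in `A · S_i`, and conversely), and
`𝔪_W ∩ S_{i,A} = 𝔪_A S_{i,A}` (uses S28: the special fibre charts are domains). -/
def Stmt_ChartInt : Prop :=
  (∀ i f, f ∈ Lsec N A i 0 ↔ f ∈ chartRing N ℓ A ⊤ i) ∧
  (∀ i, ∀ f ∈ chartRing N ℓ A ⊤ i, f ∈ gaussMax N A → f ∈ chartMax N ℓ A i)

/-- **PT + CEN (C6 + C7)**: every place has an inertia-fixed place in its residue disc, and the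
difference of two places in one residue disc is a small divisor (good reduction enters HERE:
invertible point ideals on the regular special fibre + Hensel over `A^I`). -/
def Stmt_SmallCentres : Prop :=
  ∀ P : Place Qb (FK N), ∃ Q : Place Qb (FK N), Q.deg = P.deg ∧
    (∀ s ∈ A.inertiaSubgroupIn ℚ, arithmeticGalois (modularFunctionFieldFull N) s • Q = Q) ∧
    SmallDiv N A (Finsupp.single P 1 - Finsupp.single Q 1)

/-- **BT (C5, geometric part)**: bounded `ℓ`-power torsion of the Cech `H¹` of `L(D)` at every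
finite level (finiteness of `H¹` by the `ℙ¹`-argument over the DVR `A ∩ E`). -/
def Stmt_BoundedTorsion : Prop :=
  ∀ D : Divisor Qb (FK N), SmallDiv N A D →
    ∀ E : IntermediateField ℚ Qb, FiniteDimensional ℚ E →
    ∃ c : Qb, c ≠ 0 ∧ c ∈ A ∧ ∀ (r : ℕ) (f f0 f1 : FK N),
      f ∈ Lsec N A 2 D → f0 ∈ Lsec N A 0 D → f1 ∈ Lsec N A 1 D →
      f0 ∈ levelField N E → f1 ∈ levelField N E →
      cst N ((ℓ : Qb) ^ r) * f = f0 + f1 →
      ∃ g0 ∈ Lsec N A 0 D, ∃ g1 ∈ Lsec N A 1 D, cst N c * f = g0 + g1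

/-- **DEG0** (dictionary): a divisor of degree `0` with a nonzero global section is principal. -/
def Stmt_PrincipalOfSection : Prop :=
  ∀ D : Divisor Qb (FK N), Divisor.degree D = 0 → ∀ s : FK N, s ≠ 0 →
    (∀ P : Place Qb (FK N), -(D P) ≤ P.ord s) → D ∈ Divisor.principal (K := Qb) (F := FK N)

/-- **ASSEMBLY of CORE-C** (pure algebra): the leaves give the truncated coordinates. -/
def Stmt_CoreAssembly : Prop :=
  A.LiesOverPrime ℓ → Stmt_CechElt N ℓ A → Stmt_GaussVal N A → Stmt_ChartInt N ℓ A →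
    Stmt_SmallCentres N A → Stmt_BoundedTorsion N ℓ A → Stmt_PrincipalOfSection N →
    Stmt_TruncCoords N ℓ A

end Leaves

end

end Fermat.Agent.S19.helper9190
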