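import Mathlib
import Fermat.Prelude.Def_ModularCurve_IgusaScheme
import Fermat.Prelude.Def_ModularCurve_ArithmeticGalois
import Fermat.Agent.S29.helper8527_FiniteLevel
import Fermat.Agent.S27.helper4586_Ev
import Fermat.Agent.S27.helper440_PlaceTop
import Fermat.Agent.S29.helper6961_CoeffDescent
import Fermat.Agent.S19.helper9190_SpecC

/-!
# S19-DICT-PTS (helper2258): regular functions on the generic charts of the Prelude Igusa model

Notation: `Ff N = ℚ(X₀(N))`, `Fb N = ℚ̄(X₀(N))`, `iota N : Ff N →+* Fb N` the coefficientwise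
embedding, `BS N S = ℚ̄[iota S]`, `chartAlg N ℓ S` = the Prelude chart algebra (integral closure of
`ℤ_(ℓ)[S]` in `Ff N`).

Main results (no hypothesis on `N`, `ℓ`):

* `exists_iota_eq_of_fixed`: Galois-fixed elements of `Fb N` come from `Ff N`.
* `exists_sum_smul_iota`: every element of `Fb N` is a finite sum `∑ c i • iota (e i)`.
* `sum_mul_map_eq_zero`, `eq_zero_of_sum_smul_iota_eq_zero`: linear disjointness of `ℚ̄` and
  `Ff N` inside `Fb N`.
* `exists_pow_mul_mem_chartAlg_of_isIntegral_iota`, `isIntegral_iota_of_mem_chartAlg`: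
  integrality over `ℚ̄[S]` versus the chart algebra.
* `mem_span_iff_isIntegral` (normality): the integral closure of `ℚ̄[S]` in `Fb N` is the
  `ℚ̄`-span of `iota (chartAlg N ℓ S)`.
* `mem_span_chartAlg_iff_forall_place` (PT0): that span is the set of functions regular at every
  place at which all elements of `S` are regular.
* `mem_span_chartSet_iff`, `exists_sum_of_regular`, `exists_coe_eq_sum_of_regular`: PT0 in the
  vocabulary of `helper9190_SpecC` (`chartReg`, `chartSet`, `emb`), for the three charts.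
-/

set_option autoImplicit false

open ModularCurve AlgebraicCurve IntermediateField HahnSeries
open ModularCurve.IgusaScheme

namespace Fermat.Agent.S19.helper2258

noncomputable section

/-- `ℚ̄`. -/
abbrev Qb : Type := AlgebraicClosure ℚ

/-- The absolute Galois group of `ℚ`. -/
abbrev Gal : Type := Qb ≃ₐ[ℚ] Qb

theorem isAlgClosure_Qb : IsAlgClosure ℚ Qb := ⟨inferInstance, AlgebraicClosure.isAlgebraic ℚ⟩

theorem isGalois_Qb : IsGalois ℚ Qb :=
  haveI := isAlgClosure_Qb
  inferInstance

/-- The function field of `X₀(N)` over `ℚ̄` (as a type). -/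
abbrev Fb (N : ℕ) : Type := ↥(modularFunctionFieldBar N)

/-- The function field of `X₀(N)` over `ℚ` (as a type). -/
abbrev Ff (N : ℕ) : Type := ↥(modularFunctionFieldFull N)

/-- The coefficient embedding `ℚ(X₀(N)) → ℚ̄(X₀(N))`. -/
def iota (N : ℕ) : Ff N →+* Fb N where
  toFun x := ⟨coeffEmb Qb (x : LaurentSeries ℚ), coeffEmb_mem_laurentBaseChange Qb x.2⟩
  map_one' := Subtype.ext (map_one _)
  map_mul' _ _ := Subtype.ext (map_mul _ _ _)
  map_zero' := Subtype.ext (map_zero _)
  map_add' _ _ := Subtype.ext (map_add _ _ _)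

@[simp] theorem coe_iota (N : ℕ) (x : Ff N) :
    ((iota N x : Fb N) : LaurentSeries Qb) = coeffEmb Qb (x : LaurentSeries ℚ) := rfl

theorem iota_injective (N : ℕ) : Function.Injective (iota N) :=
  (iota N).injective

/-- The coefficientwise Galois action on the function field. -/
abbrev gal (N : ℕ) (σ : Gal) : Fb N ≃+* Fb N :=
  arithmeticRingAut (modularFunctionFieldFull N) σ

theorem gal_iota (N : ℕ) (σ : Gal) (x : Ff N) : gal N σ (iota N x) = iota N x :=
  Subtype.ext (coeffMap_coeffEmb σ _)

theorem gal_algebraMap (N : ℕ) (σ : Gal) (c : Qb) :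
    gal N σ (algebraMap Qb (Fb N) c) = algebraMap Qb (Fb N) (σ c) :=
  arithmeticRingAut_algebraMap _ σ c

theorem gal_smul (N : ℕ) (σ : Gal) (c : Qb) (f : Fb N) :
    gal N σ (c • f) = σ c • gal N σ f := by
  rw [Algebra.smul_def, map_mul, gal_algebraMap, ← Algebra.smul_def]

theorem gal_one (N : ℕ) (f : Fb N) : gal N 1 f = f := by
  apply Subtype.ext
  show coeffMap ((1 : Gal) : Qb →+* Qb) (f : LaurentSeries Qb) = f
  rw [show ((1 : Gal) : Qb →+* Qb) = RingHom.id Qb from RingHom.ext fun _ => rfl, coeffMap_id]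

theorem gal_mul (N : ℕ) (σ τ : Gal) (f : Fb N) : gal N (σ * τ) f = gal N σ (gal N τ f) := by
  apply Subtype.ext
  show coeffMap ((σ * τ : Gal) : Qb →+* Qb) (f : LaurentSeries Qb)
      = coeffMap (σ : Qb →+* Qb) (coeffMap (τ : Qb →+* Qb) (f : LaurentSeries Qb))
  rw [coeffMap_coeffMap]
  exact coeffMap_congr (RingHom.ext fun _ => rfl) _

/-- `laurentBaseChange ℚ F₀ = F₀`. -/
theorem laurentBaseChange_rat_le (F₀ : IntermediateField ℚ (LaurentSeries ℚ)) :
    laurentBaseChange ℚ F₀ ≤ F₀ := by
  rw [laurentBaseChange, IntermediateField.adjoin_le_iff]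
  rintro _ ⟨y, hy, rfl⟩
  have : coeffEmb ℚ y = y := by
    ext k
    simp
  rw [this]
  exact hy

/-- **Galois descent of elements**: an element of `ℚ̄(X₀(N))` fixed by the whole Galois group
comes from `ℚ(X₀(N))`. -/
theorem exists_iota_eq_of_fixed (N : ℕ) (f : Fb N) (hf : ∀ σ : Gal, gal N σ f = f) :
    ∃ e : Ff N, iota N e = f := by
  have := isGalois_Qb
  have hcoeff : ∀ n, (f : LaurentSeries Qb).coeff n ∈ Set.range (algebraMap ℚ Qb) := by
    intro n
    rw [InfiniteGalois.mem_range_algebraMap_iff_fixed]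
    intro σ
    have h := congrArg (fun g : Fb N => (g : LaurentSeries Qb).coeff n) (hf σ)
    simpa using h
  obtain ⟨y, hy, hyf⟩ := Fermat.Agent.S29.helper6961.exists_mem_laurentBaseChange_coeffMap_eq
    (modularFunctionFieldFull N) (algebraMap ℚ Qb) f.2 hcoeff
  exact ⟨⟨y, laurentBaseChange_rat_le _ hy⟩, Subtype.ext hyf⟩

/-! ## The function field is spanned over `ℚ̄` by the rational function field -/

/-- A subfield of `ℚ̄(X₀(N))` containing the constants and the rational functions is everything. -/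
theorem mem_subfield_of_generators (N : ℕ) (A : Subfield (Fb N))
    (hc : ∀ c : Qb, algebraMap Qb (Fb N) c ∈ A) (he : ∀ e : Ff N, iota N e ∈ A) (f : Fb N) :
    f ∈ A := by
  have hle : Subfield.closure (Set.range (algebraMap Qb (LaurentSeries Qb)) ∪
      (⇑(coeffEmb Qb) '' ((modularFunctionFieldFull N : IntermediateField ℚ (LaurentSeries ℚ)) :
        Set (LaurentSeries ℚ)))) ≤ A.map (modularFunctionFieldBar N).val.toRingHom := by
    rw [Subfield.closure_le]
    rintro y (⟨a, rfl⟩ | ⟨z, hz, rfl⟩)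
    · exact ⟨algebraMap Qb (Fb N) a, hc a, rfl⟩
    · exact ⟨iota N ⟨z, hz⟩, he ⟨z, hz⟩, rfl⟩
  obtain ⟨g, hg, hgf⟩ := hle (mem_laurentBaseChange_iff.mp f.2)
  have : g = f := Subtype.ext hgf
  rwa [← this]

theorem iota_mul_mem_span (N : ℕ) (e : Ff N) {x : Fb N}
    (hx : x ∈ Submodule.span Qb (Set.range (iota N))) :
    iota N e * x ∈ Submodule.span Qb (Set.range (iota N)) := by
  induction hx using Submodule.span_induction with
  | mem y hy =>
      obtain ⟨e', rfl⟩ := hy
      rw [← map_mul]
      exact Submodule.subset_span ⟨_, rfl⟩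
  | zero => rw [mul_zero]; exact zero_mem _
  | add y z _ _ hy hz => rw [mul_add]; exact add_mem hy hz
  | smul c y _ hy => rw [mul_smul_comm]; exact Submodule.smul_mem _ c hy

/-- **Every element of `ℚ̄(X₀(N))` is a `ℚ̄`-linear combination of rational functions.** -/
theorem mem_span_range_iota (N : ℕ) (f : Fb N) :
    f ∈ Submodule.span Qb (Set.range (iota N)) := by
  letI : Algebra (Ff N) (Fb N) := (iota N).toAlgebra
  have htower : IsScalarTower ℚ (Ff N) (Fb N) :=
    IsScalarTower.of_algebraMap_eq' (RingHom.ext_rat _ _)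
  have halg : ∀ x ∈ Set.range (algebraMap Qb (Fb N)), IsAlgebraic (Ff N) x := by
    rintro _ ⟨c, rfl⟩
    have hc : IsAlgebraic ℚ c := (AlgebraicClosure.isAlgebraic ℚ).isAlgebraic c
    have h1 : IsAlgebraic ℚ (algebraMap Qb (Fb N) c) := hc.algebraMap
    exact h1.tower_top _
  have h := IntermediateField.adjoin_toSubalgebra_of_isAlgebraic halg
  have hf : f ∈ (IntermediateField.adjoin (Ff N) (Set.range (algebraMap Qb (Fb N)))).toSubfield :=
    mem_subfield_of_generators N _
      (fun c => IntermediateField.subset_adjoin (Ff N) _ (Set.mem_range_self c))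
      (fun e => (IntermediateField.adjoin (Ff N) (Set.range (algebraMap Qb (Fb N)))).algebraMap_mem e) f
  have hf' : f ∈ (IntermediateField.adjoin (Ff N)
      (Set.range (algebraMap Qb (Fb N)))).toSubalgebra := hf
  rw [h, ← Subalgebra.mem_toSubmodule, Algebra.adjoin_eq_span] at hf'
  have hcl : ∀ y ∈ Submonoid.closure (Set.range (algebraMap Qb (Fb N))),
      y ∈ Set.range (algebraMap Qb (Fb N)) := by
    intro y hy
    induction hy using Submonoid.closure_induction with
    | mem y hy => exact hy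
    | one => exact ⟨1, map_one _⟩
    | mul y z _ _ hy hz =>
        obtain ⟨a, rfl⟩ := hy
        obtain ⟨b, rfl⟩ := hz
        exact ⟨a * b, map_mul _ _ _⟩
  have key : ∀ y ∈ Submodule.span (Ff N)
      (Submonoid.closure (Set.range (algebraMap Qb (Fb N))) : Set (Fb N)),
      y ∈ Submodule.span Qb (Set.range (iota N)) := by
    intro y hy
    induction hy using Submodule.span_induction with
    | mem y hy =>
        obtain ⟨c, rfl⟩ := hcl y hy
        have : algebraMap Qb (Fb N) c = c • iota N 1 := by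
          rw [map_one, Algebra.smul_def, mul_one]
        rw [this]
        exact Submodule.smul_mem _ c (Submodule.subset_span ⟨1, rfl⟩)
    | zero => exact zero_mem _
    | add y z _ _ hy hz => exact add_mem hy hz
    | smul e y _ hy =>
        have : e • y = iota N e * y := rfl
        rw [this]
        exact iota_mul_mem_span N e hy
  exact key f hf'

/-- Explicit form: every element is a finite sum `∑ c i • iota (e i)`. -/
theorem exists_sum_smul_iota (N : ℕ) (f : Fb N) :
    ∃ (n : ℕ) (c : Fin n → Qb) (e : Fin n → Ff N), f = ∑ i, c i • iota N (e i) := by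
  have h := mem_span_range_iota N f
  induction h using Submodule.span_induction with
  | mem y hy =>
      obtain ⟨e, rfl⟩ := hy
      exact ⟨1, fun _ => 1, fun _ => e, by simp⟩
  | zero => exact ⟨0, Fin.elim0, Fin.elim0, by simp⟩
  | add y z _ _ hy hz =>
      obtain ⟨n, c, e, rfl⟩ := hy
      obtain ⟨m, c', e', rfl⟩ := hz
      refine ⟨n + m, Fin.append c c', Fin.append e e', ?_⟩
      rw [Fin.sum_univ_add]
      simp
  | smul a y _ hy =>
      obtain ⟨n, c, e, rfl⟩ := hy
      refine ⟨n, fun i => a * c i, e, ?_⟩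
      rw [Finset.smul_sum]
      exact Finset.sum_congr rfl fun i _ => (smul_smul a (c i) (iota N (e i)))

/-! ## Abstract linear algebra: rational relations -/

/-- Clearing denominators of finitely many rationals. -/
theorem exists_nat_mul_eq_int {n : ℕ} (q : Fin n → ℚ) :
    ∃ m : ℕ, 0 < m ∧ ∀ i, ∃ z : ℤ, (m : ℚ) * q i = z := by
  refine ⟨∏ i, (q i).den, Finset.prod_pos fun i _ => (q i).den_pos, fun i => ?_⟩
  obtain ⟨d, hd⟩ := Finset.dvd_prod_of_mem (fun i => (q i).den) (Finset.mem_univ i)
  refine ⟨d * (q i).num, ?_⟩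
  rw [hd]
  push_cast
  rw [mul_comm ((q i).den : ℚ) (d : ℚ), mul_assoc, Rat.den_mul_eq_num]

/-- A rational relation between elements of an additive subgroup is respected by additive maps
into `ℚ`-vector spaces. -/
theorem sum_smul_map_eq_zero {E V : Type*} [AddCommGroup E] [Module ℚ E] [AddCommGroup V]
    [Module ℚ V] {σ : Type*} [SetLike σ E] [AddSubgroupClass σ E] (S : σ) (x : S →+ V) {n : ℕ}
    (q : Fin n → ℚ) (u : Fin n → S)
    (h : ∑ i, q i • (u i : E) = 0) : ∑ i, q i • x (u i) = 0 := by
  obtain ⟨m, hm, hz⟩ := exists_nat_mul_eq_int q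
  choose z hz using hz
  have h1 : ∑ i, z i • u i = 0 := by
    apply Subtype.ext
    rw [ZeroMemClass.coe_zero, AddSubmonoidClass.coe_finsetSum]
    have : ∀ i, ((z i • u i : S) : E) = (m : ℚ) • (q i • (u i : E)) := by
      intro i
      rw [AddSubgroupClass.coe_zsmul, smul_smul, hz i, Int.cast_smul_eq_zsmul]
    rw [Finset.sum_congr rfl fun i _ => this i, ← Finset.smul_sum, h, smul_zero]
  have h2 : ∑ i, z i • x (u i) = 0 := by
    have := congrArg x h1
    rwa [map_sum, map_zero, Finset.sum_congr rfl fun i _ => map_zsmul x (z i) (u i)] at this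
  have h3 : (m : ℚ) • ∑ i, q i • x (u i) = 0 := by
    rw [Finset.smul_sum, ← h2]
    refine Finset.sum_congr rfl fun i _ => ?_
    rw [smul_smul, hz i, Int.cast_smul_eq_zsmul]
  exact (smul_eq_zero.mp h3).resolve_left (by exact_mod_cast hm.ne')

/-- If all rational functionals kill a "tensor", it is zero. -/
theorem sum_mul_eq_zero_of_forall_functional {Ω : Type*} [Field Ω] [Algebra ℚ Ω] {n : ℕ}
    (c y : Fin n → Ω) (h : ∀ π : Ω →ₗ[ℚ] ℚ, ∑ i, π (c i) • y i = 0) :
    ∑ i, c i * y i = 0 := by
  classical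
  set W : Submodule ℚ Ω := Submodule.span ℚ (Set.range c) with hW
  have hfin : Module.Finite ℚ W := FiniteDimensional.span_of_finite ℚ (Set.finite_range c)
  let b := Module.finBasis ℚ W
  have hπ : ∀ k, ∃ π : Ω →ₗ[ℚ] ℚ, ∀ w : W, π (w : Ω) = b.coord k w := by
    intro k
    obtain ⟨g, hg⟩ := LinearMap.exists_extend (b.coord k)
    exact ⟨g, fun w => by rw [← hg]; rfl⟩
  choose π hπ using hπ
  have hc : ∀ i, c i = ∑ k, π k (c i) • (b k : Ω) := by
    intro i
    have hmem : c i ∈ W := Submodule.subset_span ⟨i, rfl⟩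
    have h1 := b.sum_repr ⟨c i, hmem⟩
    have h2 := congrArg (fun w : W => (w : Ω)) h1
    simp only [Submodule.coe_sum, Submodule.coe_smul] at h2
    have h3 : ∀ k, π k (c i) = b.repr ⟨c i, hmem⟩ k := fun k => hπ k ⟨c i, hmem⟩
    rw [Finset.sum_congr rfl fun k _ => by rw [h3 k]]
    exact h2.symm
  calc ∑ i, c i * y i = ∑ i, (∑ k, π k (c i) • (b k : Ω)) * y i :=
        Finset.sum_congr rfl fun i _ => by rw [← hc i]
    _ = ∑ k, (b k : Ω) * ∑ i, π k (c i) • y i := by
        simp_rw [Finset.sum_mul, Finset.mul_sum]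
        rw [Finset.sum_comm]
        refine Finset.sum_congr rfl fun k _ => Finset.sum_congr rfl fun i _ => ?_
        rw [smul_mul_assoc, mul_smul_comm]
    _ = 0 := by simp [h]

/-! ## Linear disjointness of `ℚ̄` and `ℚ(X₀(N))` -/

theorem coeff_sum_smul_iota (N : ℕ) {n : ℕ} (c : Fin n → Qb) (e : Fin n → Ff N) (k : ℤ) :
    ((∑ i, c i • iota N (e i) : Fb N) : LaurentSeries Qb).coeff k
      = ∑ i, c i * algebraMap ℚ Qb ((e i : LaurentSeries ℚ).coeff k) := by
  rw [AddSubmonoidClass.coe_finsetSum, HahnSeries.coeff_sum]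
  refine Finset.sum_congr rfl fun i _ => ?_
  rw [IntermediateField.coe_smul, Algebra.smul_def, algebraMap_laurentSeries_eq_single,
    HahnSeries.coeff_single_zero_mul, coe_iota, coeffEmb_coeff]

theorem coeff_sum_smul (N : ℕ) {n : ℕ} (q : Fin n → ℚ) (e : Fin n → Ff N) (k : ℤ) :
    ((∑ i, q i • e i : Ff N) : LaurentSeries ℚ).coeff k
      = ∑ i, q i * (e i : LaurentSeries ℚ).coeff k := by
  rw [AddSubmonoidClass.coe_finsetSum, HahnSeries.coeff_sum]
  refine Finset.sum_congr rfl fun i _ => ?_
  show (q i • (e i : LaurentSeries ℚ)).coeff k = _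
  rw [HahnSeries.coeff_smul, smul_eq_mul]

/-- Pushing a rational functional through a `ℚ̄`-linear relation between rational functions. -/
theorem sum_functional_smul_eq_zero (N : ℕ) (π : Qb →ₗ[ℚ] ℚ) {n : ℕ} (c : Fin n → Qb)
    (e : Fin n → Ff N) (h : ∑ i, c i • iota N (e i) = 0) : ∑ i, π (c i) • e i = 0 := by
  apply Subtype.ext
  ext k
  rw [coeff_sum_smul]
  have hk := congrArg (fun f : Fb N => (f : LaurentSeries Qb).coeff k) h
  simp only [coeff_sum_smul_iota] at hk
  have h2 := congrArg π hk
  rw [map_sum] at h2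
  have h3 : ∀ i, π (c i * algebraMap ℚ Qb ((e i : LaurentSeries ℚ).coeff k))
      = π (c i) * (e i : LaurentSeries ℚ).coeff k := by
    intro i
    rw [mul_comm (c i), ← Algebra.smul_def, map_smul, smul_eq_mul, mul_comm]
  rw [Finset.sum_congr rfl fun i _ => h3 i] at h2
  rw [h2]
  simp

/-- **Linear disjointness, consumer form.**  A `ℚ̄`-linear relation between the images of elements
of an additive subgroup `S` of `ℚ(X₀(N))` is respected by every additive map from `S` to `ℚ̄`
(in particular by every ring homomorphism from a chart algebra). -/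
theorem sum_mul_map_eq_zero (N : ℕ) {σ : Type*} [SetLike σ (Ff N)] [AddSubgroupClass σ (Ff N)]
    (S : σ) (x : S →+ Qb) {n : ℕ} (c : Fin n → Qb) (u : Fin n → S)
    (h : ∑ i, c i • iota N (u i : Ff N) = 0) : ∑ i, c i * x (u i) = 0 := by
  refine sum_mul_eq_zero_of_forall_functional c (fun i => x (u i)) fun π => ?_
  exact sum_smul_map_eq_zero S x (fun i => π (c i)) u
    (sum_functional_smul_eq_zero N π c (fun i => (u i : Ff N)) h)

/-- Linear independence form: rationally independent constants stay independent over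
`ℚ(X₀(N))`. -/
theorem eq_zero_of_sum_smul_iota_eq_zero (N : ℕ) {n : ℕ} (c : Fin n → Qb)
    (hc : LinearIndependent ℚ c) (e : Fin n → Ff N)
    (h : ∑ i, c i • iota N (e i) = 0) : ∀ i, e i = 0 := by
  classical
  intro i
  -- a functional with `π (c j) = δ_ij`
  obtain ⟨π, hπ⟩ : ∃ π : Qb →ₗ[ℚ] ℚ, ∀ j, π (c j) = if j = i then 1 else 0 := by
    let b := Module.Basis.span hc
    obtain ⟨g, hg⟩ := LinearMap.exists_extend (b.coord i)
    refine ⟨g, fun j => ?_⟩
    have hmem : c j ∈ Submodule.span ℚ (Set.range c) := Submodule.subset_span ⟨j, rfl⟩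
    have h1 : g (c j) = b.coord i ⟨c j, hmem⟩ := by rw [← hg]; rfl
    have h2 : (⟨c j, hmem⟩ : Submodule.span ℚ (Set.range c)) = b j :=
      Subtype.ext (by rw [Module.Basis.span_apply])
    rw [h1, h2, Module.Basis.coord_apply, Module.Basis.repr_self, Finsupp.single_apply]
  have h1 := sum_functional_smul_eq_zero N π c e h
  simp only [hπ] at h1
  have h2 : ∑ x, (if x = i then (1 : ℚ) else 0) • e x = e i := by
    rw [Finset.sum_eq_single i]
    · simp
    · intro j _ hj
      simp [hj]
    · intro hi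
      exact absurd (Finset.mem_univ i) hi
  rw [h2] at h1
  exact h1

/-! ## Integrality: descent from `ℚ̄[S]` to `ℤ_(ℓ)[S]` -/

section Integrality

variable (N : ℕ) [NeZero N] (ℓ : ℕ) [Fact ℓ.Prime]

/-- The `ℚ̄`-algebra generated by the image of a set `S` of rational functions. -/
abbrev BS (S : Set (Ff N)) : Subalgebra Qb (Fb N) := Algebra.adjoin Qb (iota N '' S)

omit [NeZero N] in
theorem isIntegral_const (S : Set (Ff N)) (c : Qb) :
    IsIntegral (BS N S) (algebraMap Qb (Fb N) c) := by
  have : algebraMap Qb (Fb N) c = algebraMap (BS N S) (Fb N) (algebraMap Qb (BS N S) c) := rfl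
  rw [this]
  exact isIntegral_algebraMap

omit [NeZero N] in
theorem isIntegral_smul (S : Set (Ff N)) (c : Qb) {f : Fb N} (hf : IsIntegral (BS N S) f) :
    IsIntegral (BS N S) (c • f) := by
  rw [Algebra.smul_def]
  exact (isIntegral_const N S c).mul hf

omit [NeZero N] in
theorem gal_mem_BS (S : Set (Ff N)) (σ : Gal) {x : Fb N} (hx : x ∈ BS N S) :
    gal N σ x ∈ BS N S := by
  induction hx using Algebra.adjoin_induction with
  | mem y hy =>
      obtain ⟨s, hs, rfl⟩ := hy
      rw [gal_iota]
      exact Algebra.subset_adjoin ⟨s, hs, rfl⟩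
  | algebraMap c =>
      rw [gal_algebraMap]
      exact Subalgebra.algebraMap_mem _ _
  | add y z _ _ hy hz => rw [map_add]; exact add_mem hy hz
  | mul y z _ _ hy hz => rw [map_mul]; exact mul_mem hy hz

omit [NeZero N] in
/-- The Galois action preserves integrality over `ℚ̄[S]`. -/
theorem isIntegral_gal (S : Set (Ff N)) (σ : Gal) {f : Fb N} (hf : IsIntegral (BS N S) f) :
    IsIntegral (BS N S) (gal N σ f) := by
  let φ : BS N S →+* BS N S :=
    ((gal N σ).toRingHom.comp (algebraMap (BS N S) (Fb N))).codRestrict (BS N S)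
      (fun x => gal_mem_BS N S σ x.2)
  exact hf.map_of_comp_eq φ (gal N σ).toRingHom (RingHom.ext fun _ => rfl)

/-- A rational number times a power of `ℓ` lies in `ℤ_(ℓ)`. -/
theorem exists_pow_mul_mem_ratLocalizedAt (q : ℚ) :
    ∃ a : ℕ, (ℓ : ℚ) ^ a * q ∈ GaloisRep.ratLocalizedAt ℓ := by
  have hℓ : ℓ.Prime := Fact.out
  obtain ⟨a, m, hm, hden⟩ := Nat.exists_eq_pow_mul_and_not_dvd q.den_ne_zero ℓ hℓ.ne_one
  refine ⟨a, ?_⟩
  have hm0 : (m : ℚ) ≠ 0 := by
    intro h0
    have : m = 0 := by exact_mod_cast h0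
    rw [this, mul_zero] at hden
    exact q.den_ne_zero hden
  have hq : (ℓ : ℚ) ^ a * q = (q.num : ℚ) / (m : ℚ) := by
    have h1 : q = (q.num : ℚ) / (q.den : ℚ) := (Rat.num_div_den q).symm
    have hℓ0 : (ℓ : ℚ) ≠ 0 := by exact_mod_cast hℓ.ne_zero
    conv_lhs => rw [h1, hden]
    push_cast
    field_simp
  show ((ℓ : ℚ) ^ a * q).den.Coprime ℓ
  rw [hq]
  have hdvd : ((q.num : ℚ) / (m : ℚ)).den ∣ m := by
    have := Rat.den_dvd q.num (m : ℤ)
    exact_mod_cast this
  exact Nat.Coprime.coprime_dvd_left hdvd ((Nat.Prime.coprime_iff_not_dvd hℓ).mpr hm).symm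

omit [NeZero N] [Fact (Nat.Prime ℓ)] in
theorem natCast_mem_adjoin (S : Set (Ff N)) :
    ((ℓ : ℕ) : Ff N) ∈ Algebra.adjoin ↥(GaloisRep.ratLocalizedAt ℓ) S := by
  have : ((ℓ : ℕ) : Ff N) = algebraMap ↥(GaloisRep.ratLocalizedAt ℓ) (Ff N) (ℓ : ℕ) := by
    rw [map_natCast]
  rw [this]
  exact Subalgebra.algebraMap_mem _ _

omit [NeZero N] in
/-- Elements of `ℚ[S]` become elements of `ℤ_(ℓ)[S]` after multiplication by a power of `ℓ`. -/
theorem exists_pow_mul_mem_adjoin_of_mem {S : Set (Ff N)} {y : Ff N}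
    (hy : y ∈ Algebra.adjoin ℚ S) :
    ∃ n : ℕ, ((ℓ : ℕ) : Ff N) ^ n * y ∈ Algebra.adjoin ↥(GaloisRep.ratLocalizedAt ℓ) S := by
  have hℓA := natCast_mem_adjoin N ℓ S
  induction hy using Algebra.adjoin_induction with
  | mem y hy => exact ⟨0, by rw [pow_zero, one_mul]; exact Algebra.subset_adjoin hy⟩
  | algebraMap q =>
      obtain ⟨a, ha⟩ := exists_pow_mul_mem_ratLocalizedAt ℓ q
      refine ⟨a, ?_⟩
      have : ((ℓ : ℕ) : Ff N) ^ a * algebraMap ℚ (Ff N) q
          = algebraMap ↥(GaloisRep.ratLocalizedAt ℓ) (Ff N) ⟨(ℓ : ℚ) ^ a * q, ha⟩ := by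
        show _ = algebraMap ℚ (Ff N) ((ℓ : ℚ) ^ a * q)
        rw [map_mul, map_pow, map_natCast]
      rw [this]
      exact Subalgebra.algebraMap_mem _ _
  | add y z _ _ hy hz =>
      obtain ⟨m, hm⟩ := hy
      obtain ⟨n, hn⟩ := hz
      refine ⟨m + n, ?_⟩
      have : ((ℓ : ℕ) : Ff N) ^ (m + n) * (y + z)
          = ((ℓ : ℕ) : Ff N) ^ n * (((ℓ : ℕ) : Ff N) ^ m * y)
            + ((ℓ : ℕ) : Ff N) ^ m * (((ℓ : ℕ) : Ff N) ^ n * z) := by ring
      rw [this]
      exact add_mem (mul_mem (pow_mem hℓA n) hm) (mul_mem (pow_mem hℓA m) hn)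
  | mul y z _ _ hy hz =>
      obtain ⟨m, hm⟩ := hy
      obtain ⟨n, hn⟩ := hz
      refine ⟨m + n, ?_⟩
      have : ((ℓ : ℕ) : Ff N) ^ (m + n) * (y * z)
          = (((ℓ : ℕ) : Ff N) ^ m * y) * (((ℓ : ℕ) : Ff N) ^ n * z) := by ring
      rw [this]
      exact mul_mem hm hn

/-- An element integral over `ℚ[S]` lands in the Prelude chart algebra `chartAlg N ℓ S` after
multiplication by a power of `ℓ`. -/
theorem exists_pow_mul_mem_chartAlg_of_isIntegral_rat {S : Set (Ff N)} {x : Ff N}
    (hx : IsIntegral (Algebra.adjoin ℚ S) x) :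
    ∃ n : ℕ, ((ℓ : ℕ) : Ff N) ^ n * x ∈ chartAlg N ℓ S := by
  classical
  obtain ⟨p, hmonic, hroot⟩ := hx
  have hcoeff : ∀ i, ∃ n : ℕ, ((ℓ : ℕ) : Ff N) ^ n * (p.coeff i : Ff N)
      ∈ Algebra.adjoin ↥(GaloisRep.ratLocalizedAt ℓ) S :=
    fun i => exists_pow_mul_mem_adjoin_of_mem N ℓ (p.coeff i).2
  choose n hn using hcoeff
  set M : ℕ := ∑ i ∈ Finset.range (p.natDegree + 1), n i with hM
  have hnM : ∀ i ≤ p.natDegree, n i ≤ M := fun i hi =>
    Finset.single_le_sum (f := n) (fun _ _ => Nat.zero_le _)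
      (Finset.mem_range.mpr (Nat.lt_succ_of_le hi))
  set q : Polynomial (Ff N) :=
    (p.map (algebraMap (Algebra.adjoin ℚ S) (Ff N))).scaleRoots (((ℓ : ℕ) : Ff N) ^ M) with hq
  have hqmonic : q.Monic := (Polynomial.monic_scaleRoots_iff _).mpr (hmonic.map _)
  have hqroot : q.eval (((ℓ : ℕ) : Ff N) ^ M * x) = 0 := by
    rw [hq, Polynomial.scaleRoots_eval_mul, Polynomial.eval_map, hroot, mul_zero]
  have hqcoeff : ∀ i, q.coeff i ∈ Algebra.adjoin ↥(GaloisRep.ratLocalizedAt ℓ) S := by
    intro i
    rw [hq, Polynomial.coeff_scaleRoots, Polynomial.coeff_map, hmonic.natDegree_map]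
    by_cases hi : i < p.natDegree
    · have hle : n i ≤ M * (p.natDegree - i) := by
        calc n i ≤ M := hnM i hi.le
          _ = M * 1 := (mul_one M).symm
          _ ≤ M * (p.natDegree - i) :=
            Nat.mul_le_mul_left M (Nat.one_le_iff_ne_zero.mpr (by omega))
      obtain ⟨k, hk⟩ := Nat.exists_eq_add_of_le hle
      have : (((ℓ : ℕ) : Ff N) ^ M) ^ (p.natDegree - i)
          = ((ℓ : ℕ) : Ff N) ^ k * ((ℓ : ℕ) : Ff N) ^ n i := by
        rw [← pow_mul, hk, _root_.pow_add, mul_comm]
      rw [this, Subalgebra.algebraMap_def, Algebra.algebraMap_self_apply,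
        show (p.coeff i : Ff N) * (((ℓ : ℕ) : Ff N) ^ k * ((ℓ : ℕ) : Ff N) ^ n i)
          = ((ℓ : ℕ) : Ff N) ^ k * (((ℓ : ℕ) : Ff N) ^ n i * (p.coeff i : Ff N)) by ring]
      exact mul_mem (pow_mem (natCast_mem_adjoin N ℓ S) k) (hn i)
    · rcases (not_lt.mp hi).lt_or_eq with hlt | heq
      · rw [Polynomial.coeff_eq_zero_of_natDegree_lt hlt, map_zero, zero_mul]
        exact zero_mem _
      · rw [← heq, hmonic.coeff_natDegree, map_one, one_mul, Nat.sub_self, pow_zero]
        exact one_mem _
  have hlifts : q ∈ Polynomial.lifts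
      (algebraMap (Algebra.adjoin ↥(GaloisRep.ratLocalizedAt ℓ) S) (Ff N)) :=
    (Polynomial.lifts_iff_coeff_lifts q).mpr fun i => ⟨⟨q.coeff i, hqcoeff i⟩, rfl⟩
  obtain ⟨q', hq'q, -, hq'monic⟩ := Polynomial.lifts_and_natDegree_eq_and_monic hlifts hqmonic
  refine ⟨M, (mem_chartAlg_iff N ℓ).mpr ⟨q', hq'monic, ?_⟩⟩
  rw [Polynomial.eval₂_eq_eval_map, hq'q, hqroot]

omit [NeZero N] in
/-- **Integrality descent.**  If the image of a rational function `h` is integral over
`ℚ̄[S]`, then `h` is integral over `ℚ[S]`. -/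
theorem isIntegral_rat_of_isIntegral_iota {S : Set (Ff N)} {h : Ff N}
    (hint : IsIntegral (BS N S) (iota N h)) : IsIntegral (Algebra.adjoin ℚ S) h := by
  letI : Algebra (Algebra.adjoin ℚ S) (Fb N) :=
    ((iota N).comp (algebraMap (Algebra.adjoin ℚ S) (Ff N))).toAlgebra
  have tower1 : IsScalarTower ℚ (Algebra.adjoin ℚ S) (Fb N) :=
    IsScalarTower.of_algebraMap_eq' (RingHom.ext_rat _ _)
  let B1 : Subalgebra (Algebra.adjoin ℚ S) (Fb N) :=
    Algebra.adjoin (Algebra.adjoin ℚ S) (Set.range (algebraMap Qb (Fb N)))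
  have int1 : Algebra.IsIntegral (Algebra.adjoin ℚ S) B1 := by
    refine Algebra.IsIntegral.adjoin ?_
    rintro _ ⟨c, rfl⟩
    have hc : IsIntegral ℚ c := ((AlgebraicClosure.isAlgebraic ℚ).isAlgebraic c).isIntegral
    have h1 : IsIntegral ℚ (algebraMap Qb (Fb N) c) := hc.algebraMap
    exact h1.tower_top
  have hB0B1 : ∀ b ∈ BS N S, b ∈ B1 := by
    intro b hb
    induction hb using Algebra.adjoin_induction with
    | mem y hy =>
        obtain ⟨s, hs, rfl⟩ := hy
        have : iota N s = algebraMap (Algebra.adjoin ℚ S) (Fb N) ⟨s, Algebra.subset_adjoin hs⟩ :=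
          rfl
        rw [this]
        exact Subalgebra.algebraMap_mem _ _
    | algebraMap c => exact Algebra.subset_adjoin ⟨c, rfl⟩
    | add y z _ _ hy hz => exact add_mem hy hz
    | mul y z _ _ hy hz => exact mul_mem hy hz
  let φ : BS N S →+* B1 := (algebraMap (BS N S) (Fb N)).codRestrict B1 (fun b => hB0B1 b b.2)
  have h2 : IsIntegral B1 (iota N h) :=
    hint.map_of_comp_eq φ (RingHom.id (Fb N)) (RingHom.ext fun _ => rfl)
  have h3 : IsIntegral (Algebra.adjoin ℚ S) (iota N h) := isIntegral_trans (iota N h) h2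
  let ia : Ff N →ₐ[Algebra.adjoin ℚ S] Fb N := { iota N with commutes' := fun _ => rfl }
  exact (isIntegral_algHom_iff ia (iota N).injective).mp h3

/-- **Integrality descent to the chart.**  If the image of a rational function `h` is integral
over `ℚ̄[S]`, then `ℓ ^ a * h` lies in the Prelude chart algebra `chartAlg N ℓ S` for some `a`. -/
theorem exists_pow_mul_mem_chartAlg_of_isIntegral_iota {S : Set (Ff N)} {h : Ff N}
    (hint : IsIntegral (BS N S) (iota N h)) :
    ∃ a : ℕ, ((ℓ : ℕ) : Ff N) ^ a * h ∈ chartAlg N ℓ S :=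
  exists_pow_mul_mem_chartAlg_of_isIntegral_rat N ℓ (isIntegral_rat_of_isIntegral_iota N hint)

/-- Conversely, images of elements of the chart algebra are integral over `ℚ̄[S]`. -/
theorem isIntegral_iota_of_mem_chartAlg {S : Set (Ff N)} {s : Ff N} (hs : s ∈ chartAlg N ℓ S) :
    IsIntegral (BS N S) (iota N s) := by
  have hmem : ∀ y ∈ Algebra.adjoin ↥(GaloisRep.ratLocalizedAt ℓ) S, iota N y ∈ BS N S := by
    intro y hy
    induction hy using Algebra.adjoin_induction with
    | mem y hy => exact Algebra.subset_adjoin ⟨y, hy, rfl⟩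
    | algebraMap r =>
        have : iota N (algebraMap ↥(GaloisRep.ratLocalizedAt ℓ) (Ff N) r)
            = algebraMap Qb (Fb N) (algebraMap ℚ Qb (r : ℚ)) := by
          apply Subtype.ext
          have h0 : algebraMap ↥(GaloisRep.ratLocalizedAt ℓ) (Ff N) r
              = algebraMap ℚ (Ff N) (r : ℚ) := rfl
          have h1 : ((algebraMap ↥(GaloisRep.ratLocalizedAt ℓ) (Ff N) r : Ff N) : LaurentSeries ℚ)
              = algebraMap ℚ (LaurentSeries ℚ) (r : ℚ) := by
            rw [h0, eq_ratCast, eq_ratCast, SubfieldClass.coe_ratCast]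
          have h2 : ((algebraMap Qb (Fb N) (algebraMap ℚ Qb (r : ℚ)) : Fb N) : LaurentSeries Qb)
              = algebraMap Qb (LaurentSeries Qb) (algebraMap ℚ Qb (r : ℚ)) := rfl
          rw [coe_iota, h1, h2, algebraMap_laurentSeries_eq_single,
            algebraMap_laurentSeries_eq_single, coeffEmb, coeffMap_single]
        rw [this]
        exact Subalgebra.algebraMap_mem _ _
    | add y z _ _ hy hz => rw [map_add]; exact add_mem hy hz
    | mul y z _ _ hy hz => rw [map_mul]; exact mul_mem hy hz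
  let φ : Algebra.adjoin ↥(GaloisRep.ratLocalizedAt ℓ) S →+* BS N S :=
    ((iota N).comp (algebraMap (Algebra.adjoin ↥(GaloisRep.ratLocalizedAt ℓ) S) (Ff N))).codRestrict
      (BS N S) (fun y => hmem y y.2)
  exact ((mem_chartAlg_iff N ℓ).mp hs).map_of_comp_eq φ (iota N) (RingHom.ext fun _ => rfl)

end Integrality

/-! ## Normality: the integral closure of `ℚ̄[S]` is spanned by the chart algebra -/

section Normality

variable (N : ℕ) [NeZero N] (ℓ : ℕ) [Fact ℓ.Prime]

omit [NeZero N] in
theorem gal_sum_smul_iota {n : ℕ} (σ : Gal) (c : Fin n → Qb) (e : Fin n → Ff N) :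
    gal N σ (∑ i, c i • iota N (e i)) = ∑ i, σ (c i) • iota N (e i) := by
  rw [map_sum]
  exact Finset.sum_congr rfl fun i _ => by rw [gal_smul, gal_iota]

omit [NeZero N] in
/-- The Galois orbit of an element of `ℚ̄(X₀(N))` is finite. -/
theorem finite_range_gal_sum {n : ℕ} (c : Fin n → Qb) (e : Fin n → Ff N) :
    (Set.range fun σ : Gal => gal N σ (∑ i, c i • iota N (e i))).Finite := by
  have hfin : (Set.pi Set.univ fun i : Fin n => (minpoly ℚ (c i)).rootSet Qb).Finite :=
    Set.Finite.pi fun i => Polynomial.rootSet_finite _ _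
  refine (hfin.image fun d : Fin n → Qb => ∑ i, d i • iota N (e i)).subset ?_
  rintro _ ⟨σ, rfl⟩
  refine ⟨fun i => σ (c i), ?_, (gal_sum_smul_iota N σ c e).symm⟩
  intro i _
  have hint : IsIntegral ℚ (c i) :=
    ((AlgebraicClosure.isAlgebraic ℚ).isAlgebraic (c i)).isIntegral
  rw [Polynomial.mem_rootSet_of_ne (minpoly.ne_zero hint)]
  have h := Polynomial.aeval_algHom_apply (σ : Qb →ₐ[ℚ] Qb) (c i) (minpoly ℚ (c i))
  rw [minpoly.aeval, map_zero] at h
  exact h

/-- **Normality (sum form).**  A sum `∑ c i • iota (e i)` that is integral over `ℚ̄[S]` lies in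
the `ℚ̄`-span of the image of the Prelude chart algebra `chartAlg N ℓ S`. -/
theorem sum_mem_span_of_isIntegral (S : Set (Ff N)) :
    ∀ (n : ℕ) (c : Fin n → Qb) (e : Fin n → Ff N),
      IsIntegral (BS N S) (∑ i, c i • iota N (e i)) →
      ∑ i, c i • iota N (e i) ∈
        Submodule.span Qb (iota N '' (chartAlg N ℓ S : Set (Ff N))) := by
  classical
  intro n
  induction n with
  | zero =>
      intro c e _
      simp
  | succ n ih =>
      intro c e hint
      by_cases hc : c (Fin.last n) = 0
      · have h1 : ∑ i, c i • iota N (e i)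
            = ∑ i : Fin n, c i.castSucc • iota N (e i.castSucc) := by
          rw [Fin.sum_univ_castSucc, hc, zero_smul, add_zero]
        rw [h1] at hint ⊢
        exact ih _ _ hint
      · -- normalise the last coefficient to `1`
        let c' : Fin (n + 1) → Qb := fun i => (c (Fin.last n))⁻¹ * c i
        let f' : Fb N := ∑ i, c' i • iota N (e i)
        have hlast : c' (Fin.last n) = 1 := inv_mul_cancel₀ hc
        have hff' : ∑ i, c i • iota N (e i) = c (Fin.last n) • f' := by
          show _ = c (Fin.last n) • ∑ i, c' i • iota N (e i)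
          rw [Finset.smul_sum]
          refine Finset.sum_congr rfl fun i _ => ?_
          rw [smul_smul]
          show _ = (c (Fin.last n) * ((c (Fin.last n))⁻¹ * c i)) • _
          rw [mul_inv_cancel_left₀ hc]
        have hint' : IsIntegral (BS N S) f' := by
          have : f' = (c (Fin.last n))⁻¹ • ∑ i, c i • iota N (e i) := by
            rw [hff', smul_smul, inv_mul_cancel₀ hc, one_smul]
          rw [this]
          exact isIntegral_smul N S _ hint
        rw [hff']
        refine Submodule.smul_mem _ _ ?_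
        -- the differences `f' - σ f'` have one term less
        have hdiff : ∀ σ : Gal, f' - gal N σ f' ∈
            Submodule.span Qb (iota N '' (chartAlg N ℓ S : Set (Ff N))) := by
          intro σ
          have h1 : f' - gal N σ f' = ∑ i : Fin n,
              (c' i.castSucc - σ (c' i.castSucc)) • iota N (e i.castSucc) := by
            show (∑ i, c' i • iota N (e i)) - gal N σ (∑ i, c' i • iota N (e i)) = _
            rw [gal_sum_smul_iota, ← Finset.sum_sub_distrib, Fin.sum_univ_castSucc, hlast,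
              map_one, sub_self, add_zero]
            refine Finset.sum_congr rfl fun i _ => ?_
            rw [sub_smul]
          have h2 : IsIntegral (BS N S) (f' - gal N σ f') :=
            hint'.sub (isIntegral_gal N S σ hint')
          rw [h1] at h2 ⊢
          exact ih _ _ h2
        -- the orbit of `f'`
        have hfin := finite_range_gal_sum N c' e
        let O : Finset (Fb N) := hfin.toFinset
        have hmemO : ∀ g, g ∈ O ↔ ∃ σ : Gal, gal N σ f' = g := by
          intro g
          show g ∈ hfin.toFinset ↔ _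
          rw [Set.Finite.mem_toFinset]
          rfl
        have hf'O : f' ∈ O := (hmemO f').mpr ⟨1, gal_one N f'⟩
        let T : Fb N := ∑ g ∈ O, g
        have hTfix : ∀ τ : Gal, gal N τ T = T := by
          intro τ
          show gal N τ (∑ g ∈ O, g) = ∑ g ∈ O, g
          rw [map_sum]
          refine Finset.sum_bij (fun g _ => gal N τ g) ?_ ?_ ?_ ?_
          · intro g hg
            obtain ⟨σ, rfl⟩ := (hmemO g).mp hg
            exact (hmemO _).mpr ⟨τ * σ, gal_mul N τ σ f'⟩
          · intro g _ g' _ h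
            exact (gal N τ).injective h
          · intro g hg
            obtain ⟨σ, rfl⟩ := (hmemO g).mp hg
            refine ⟨gal N (τ⁻¹ * σ) f', (hmemO _).mpr ⟨_, rfl⟩, ?_⟩
            rw [← gal_mul, mul_inv_cancel_left]
          · intro g _
            rfl
        have hTint : IsIntegral (BS N S) T := by
          refine IsIntegral.sum (s := O) _ fun g hg => ?_
          obtain ⟨σ, rfl⟩ := (hmemO g).mp hg
          exact isIntegral_gal N S σ hint'
        obtain ⟨h, hh⟩ := exists_iota_eq_of_fixed N T hTfix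
        rw [← hh] at hTint
        obtain ⟨a, ha⟩ := exists_pow_mul_mem_chartAlg_of_isIntegral_iota N ℓ hTint
        have hTspan : T ∈ Submodule.span Qb (iota N '' (chartAlg N ℓ S : Set (Ff N))) := by
          have hℓ0 : ((ℓ : Qb) ^ a) ≠ 0 := pow_ne_zero _ (Nat.cast_ne_zero.mpr (Fact.out : ℓ.Prime).ne_zero)
          have h1 : iota N (((ℓ : ℕ) : Ff N) ^ a * h) = ((ℓ : Qb) ^ a) • iota N h := by
            rw [map_mul, map_pow, map_natCast, Algebra.smul_def, map_pow, map_natCast]
          have h2 : T = ((ℓ : Qb) ^ a)⁻¹ • iota N (((ℓ : ℕ) : Ff N) ^ a * h) := by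
            rw [h1, smul_smul, inv_mul_cancel₀ hℓ0, one_smul, hh]
          rw [h2]
          exact Submodule.smul_mem _ _ (Submodule.subset_span ⟨_, ha, rfl⟩)
        have hcard : (O.card : Qb) ≠ 0 :=
          Nat.cast_ne_zero.mpr (Finset.card_ne_zero.mpr ⟨f', hf'O⟩)
        have hsum : (O.card : Qb) • f' = T + ∑ g ∈ O, (f' - g) := by
          rw [Finset.sum_sub_distrib, Finset.sum_const]
          show _ = (∑ g ∈ O, g) + (O.card • f' - ∑ g ∈ O, g)
          rw [add_sub_cancel, Nat.cast_smul_eq_nsmul]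
        have hf' : f' = (O.card : Qb)⁻¹ • (T + ∑ g ∈ O, (f' - g)) := by
          rw [← hsum, smul_smul, inv_mul_cancel₀ hcard, one_smul]
        rw [hf']
        refine Submodule.smul_mem _ _ (Submodule.add_mem _ hTspan (Submodule.sum_mem _ ?_))
        intro g hg
        obtain ⟨σ, rfl⟩ := (hmemO g).mp hg
        exact hdiff σ

/-- **Normality.**  An element of `ℚ̄(X₀(N))` that is integral over `ℚ̄[S]` lies in the
`ℚ̄`-span of the image of the Prelude chart algebra `chartAlg N ℓ S` (the integral closure of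
`ℤ_(ℓ)[S]` in `ℚ(X₀(N))`). -/
theorem mem_span_of_isIntegral (S : Set (Ff N)) {f : Fb N} (hf : IsIntegral (BS N S) f) :
    f ∈ Submodule.span Qb (iota N '' (chartAlg N ℓ S : Set (Ff N))) := by
  obtain ⟨n, c, e, rfl⟩ := exists_sum_smul_iota N f
  exact sum_mem_span_of_isIntegral N ℓ S n c e hf

/-- Conversely the span of the chart algebra is integral over `ℚ̄[S]`. -/
theorem isIntegral_of_mem_span (S : Set (Ff N)) {f : Fb N}
    (hf : f ∈ Submodule.span Qb (iota N '' (chartAlg N ℓ S : Set (Ff N)))) :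
    IsIntegral (BS N S) f := by
  induction hf using Submodule.span_induction with
  | mem y hy =>
      obtain ⟨s, hs, rfl⟩ := hy
      exact isIntegral_iota_of_mem_chartAlg N ℓ hs
  | zero => exact isIntegral_zero
  | add y z _ _ hy hz => exact hy.add hz
  | smul a y _ hy => exact isIntegral_smul N S a hy

theorem mem_span_iff_isIntegral (S : Set (Ff N)) (f : Fb N) :
    f ∈ Submodule.span Qb (iota N '' (chartAlg N ℓ S : Set (Ff N))) ↔ IsIntegral (BS N S) f :=
  ⟨isIntegral_of_mem_span N ℓ S, mem_span_of_isIntegral N ℓ S⟩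

end Normality

/-! ## Places: regular on a chart = integral over the chart generators -/

section Places

variable (N : ℕ) [NeZero N] (ℓ : ℕ) [Fact ℓ.Prime]

/-- `j` as an element of `ℚ̄(X₀(N))`. -/
abbrev jb : Fb N := iota N (jFull N)

theorem jb_eq_jBar : jb N = Fermat.Agent.S24.helper24.jBar N :=
  Subtype.ext (by rw [coe_iota, coe_jFull, Fermat.Agent.S24.helper24.coe_jBar])

theorem finiteDimensional_jb : FiniteDimensional Qb⟮jb N⟯ (Fb N) := by
  rw [jb_eq_jBar]
  exact (Fermat.Agent.S29.helper8527.stmt_JFinrank N).1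

/-- **Regular ⟹ integral.**  A function that is regular at every place at which all elements of
`S` are regular is integral over `ℚ̄[S]`. -/
theorem isIntegral_of_forall_place (S : Set (Ff N)) (f : Fb N)
    (hf : ∀ P : Place Qb (Fb N), (∀ s ∈ S, iota N s ∈ P.toValuationSubring) →
      f ∈ P.toValuationSubring) :
    IsIntegral (BS N S) f := by
  have := finiteDimensional_jb N
  have key : f ∈ (⨅ V : {V : ValuationSubring (Fb N) //
      (BS N S : Set (Fb N)) ⊆ V.toSubring}, V.1.toSubring) := by
    rw [Subring.mem_iInf]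
    rintro ⟨V, hV⟩
    by_cases hVtop : V = ⊤
    · show f ∈ V
      rw [hVtop]
      exact ValuationSubring.mem_top f
    · have hK : ∀ a : Qb, algebraMap Qb (Fb N) a ∈ V :=
        fun a => hV (Subalgebra.algebraMap_mem (BS N S) a)
      obtain ⟨P, hP⟩ :=
        Fermat.Agent.S27.helper440.exists_place_of_valuationSubring (jb N) V hK hVtop
      have h1 := hf P (fun s hs => by
        rw [hP]
        exact hV (Algebra.subset_adjoin ⟨s, hs, rfl⟩))
      rw [hP] at h1
      exact h1
  rw [iInf_valuationSubring_superset] at key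
  have h1 : IsIntegral (Subring.closure (BS N S : Set (Fb N))) f := key
  have hle : ∀ x ∈ Subring.closure (BS N S : Set (Fb N)), x ∈ BS N S := by
    intro x hx
    exact (Subring.closure_le (t := (BS N S).toSubring)).mpr (fun y hy => hy) hx
  let φ : Subring.closure (BS N S : Set (Fb N)) →+* BS N S :=
    (Subring.subtype _).codRestrict (BS N S) (fun x => hle x x.2)
  exact h1.map_of_comp_eq φ (RingHom.id _) (RingHom.ext fun _ => rfl)

omit [NeZero N] in
/-- **Integral ⟹ regular.** -/
theorem mem_place_of_isIntegral (S : Set (Ff N)) {f : Fb N} (hf : IsIntegral (BS N S) f)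
    (P : Place Qb (Fb N)) (hP : ∀ s ∈ S, iota N s ∈ P.toValuationSubring) :
    f ∈ P.toValuationSubring := by
  refine Fermat.Agent.S24.helper204.mem_of_isIntegral_of_le P.toValuationSubring (BS N S) ?_ hf
  intro b hb
  induction hb using Algebra.adjoin_induction with
  | mem y hy =>
      obtain ⟨s, hs, rfl⟩ := hy
      exact hP s hs
  | algebraMap c => exact P.algebraMap_mem' c
  | add y z _ _ hy hz => exact add_mem hy hz
  | mul y z _ _ hy hz => exact mul_mem hy hz

/-- **PT0 (general chart).**  The functions regular at all places at which `S` is regular are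
exactly the `ℚ̄`-span of the Prelude chart algebra `chartAlg N ℓ S`. -/
theorem mem_span_chartAlg_iff_forall_place (S : Set (Ff N)) (f : Fb N) :
    f ∈ Submodule.span Qb (iota N '' (chartAlg N ℓ S : Set (Ff N))) ↔
      ∀ P : Place Qb (Fb N), (∀ s ∈ S, iota N s ∈ P.toValuationSubring) →
        f ∈ P.toValuationSubring :=
  ⟨fun h P hP => mem_place_of_isIntegral N S (isIntegral_of_mem_span N ℓ S h) P hP,
    fun h => mem_span_of_isIntegral N ℓ S (isIntegral_of_forall_place N S f h)⟩

end Places

/-! ## The statements in the vocabulary of `helper9190_SpecC` -/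

section SpecC

open Fermat.Agent.S19.helper9190

variable (N : ℕ) [NeZero N] (ℓ : ℕ) [Fact ℓ.Prime]

omit [NeZero N] in
theorem emb_eq_iota : emb N = iota N := RingHom.ext fun _ => rfl

theorem jK_eq_jb : jK N = jb N := rfl

/-- The generating set of the chart `i`. -/
def genSet (i : ℕ) : Set (Ff N) :=
  if i = 0 then {jFull N} else if i = 1 then {(jFull N)⁻¹} else {jFull N, (jFull N)⁻¹}

omit [Fact ℓ.Prime] in
theorem chartSet_eq (i : ℕ) : chartSet N ℓ i = (chartAlg N ℓ (genSet N i) : Set (Ff N)) := by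
  delta chartSet genSet
  by_cases h0 : i = 0
  · rw [if_pos h0, if_pos h0]
  · by_cases h1 : i = 1
    · rw [if_neg h0, if_neg h0, if_pos h1, if_pos h1]
    · rw [if_neg h0, if_neg h0, if_neg h1, if_neg h1]

theorem chartReg_iff (i : ℕ) (P : Place Qb (Fb N)) :
    chartReg N i P ↔ ∀ s ∈ genSet N i, iota N s ∈ P.toValuationSubring := by
  have hj : jK N = iota N (jFull N) := rfl
  have hinv : iota N (jFull N)⁻¹ = (jK N)⁻¹ := by rw [map_inv₀, hj]
  delta chartReg genSet
  by_cases h0 : i = 0
  · rw [if_pos h0, if_pos h0]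
    constructor
    · intro h s hs
      rw [Set.mem_singleton_iff.mp hs, ← hj]
      exact h
    · intro h
      rw [hj]
      exact h _ rfl
  · by_cases h1 : i = 1
    · rw [if_neg h0, if_neg h0, if_pos h1, if_pos h1]
      constructor
      · intro h s hs
        rw [Set.mem_singleton_iff.mp hs, hinv]
        exact h
      · intro h
        rw [← hinv]
        exact h _ rfl
    · rw [if_neg h0, if_neg h0, if_neg h1, if_neg h1]
      constructor
      · rintro ⟨ha, hb⟩ s hs
        rcases hs with rfl | hs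
        · rw [← hj]
          exact ha
        · rw [Set.mem_singleton_iff.mp hs, hinv]
          exact hb
      · intro h
        refine ⟨?_, ?_⟩
        · rw [hj]
          exact h _ (Set.mem_insert _ _)
        · rw [← hinv]
          exact h _ (Set.mem_insert_of_mem _ rfl)

/-- **PT0 in the vocabulary of the C-ideal Spec**: a function is regular at all places of the
generic chart `i` iff it lies in the `ℚ̄`-span of (the image of) the chart algebra `i`. -/
theorem mem_span_chartSet_iff (i : ℕ) (f : FK N) :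
    f ∈ Submodule.span Qb (emb N '' chartSet N ℓ i) ↔
      ∀ P : Place Qb (FK N), chartReg N i P → 0 ≤ P.ord f := by
  rw [emb_eq_iota, chartSet_eq, mem_span_chartAlg_iff_forall_place]
  refine forall_congr' fun P => ?_
  rw [chartReg_iff, Fermat.Agent.S27.helper4586.ord_nonneg_iff_mem]

/-- Explicit form of `mem_span_chartSet_iff`: finite sums. -/
theorem exists_sum_of_regular (i : ℕ) (f : FK N)
    (hf : ∀ P : Place Qb (FK N), chartReg N i P → 0 ≤ P.ord f) :
    ∃ (n : ℕ) (a : Fin n → Qb) (s : Fin n → FQ N), (∀ p, s p ∈ chartSet N ℓ i) ∧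
      f = ∑ p, cst N (a p) * emb N (s p) := by
  have h := (mem_span_chartSet_iff N ℓ i f).mpr hf
  clear hf
  induction h using Submodule.span_induction with
  | mem y hy =>
      obtain ⟨e, he, rfl⟩ := hy
      exact ⟨1, fun _ => 1, fun _ => e, fun _ => he, by simp⟩
  | zero => exact ⟨0, Fin.elim0, Fin.elim0, fun p => p.elim0, by simp⟩
  | add y z _ _ hy hz =>
      obtain ⟨n, c, e, he, rfl⟩ := hy
      obtain ⟨m, c', e', he', rfl⟩ := hz
      refine ⟨n + m, Fin.append c c', Fin.append e e', ?_, ?_⟩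
      · intro p
        refine Fin.addCases (fun q => ?_) (fun q => ?_) p
        · rw [Fin.append_left]; exact he q
        · rw [Fin.append_right]; exact he' q
      · rw [Fin.sum_univ_add]
        simp
  | smul a y _ hy =>
      obtain ⟨n, c, e, he, rfl⟩ := hy
      refine ⟨n, fun i => a * c i, e, he, ?_⟩
      rw [Finset.smul_sum]
      refine Finset.sum_congr rfl fun i _ => ?_
      rw [Algebra.smul_def]
      show algebraMap Qb (FK N) a * (algebraMap Qb (FK N) (c i) * emb N (e i))
        = algebraMap Qb (FK N) (a * c i) * emb N (e i)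
      rw [map_mul, mul_assoc]

/-- The same on `q`-expansions. -/
theorem exists_coe_eq_sum_of_regular (i : ℕ) (f : FK N)
    (hf : ∀ P : Place Qb (FK N), chartReg N i P → 0 ≤ P.ord f) :
    ∃ (n : ℕ) (a : Fin n → Qb) (s : Fin n → FQ N), (∀ p, s p ∈ chartSet N ℓ i) ∧
      (f : LaurentSeries Qb) = ∑ p, HahnSeries.C (a p) * coeffEmb Qb (s p : LaurentSeries ℚ) := by
  obtain ⟨n, a, s, hs, rfl⟩ := exists_sum_of_regular N ℓ i f hf
  refine ⟨n, a, s, hs, ?_⟩
  have h : ∀ x : FK N, (x : LaurentSeries Qb)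
      = (modularFunctionFieldBar N).toSubring.subtype x := fun _ => rfl
  rw [h, map_sum]
  refine Finset.sum_congr rfl fun p _ => ?_
  rw [map_mul]
  show algebraMap Qb (LaurentSeries Qb) (a p) * coeffEmb Qb (s p : LaurentSeries ℚ) = _
  rw [algebraMap_laurentSeries_eq_single]
  rfl

end SpecC

end

end Fermat.Agent.S19.helper2258
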