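import Mathlib

/-!
# S19-TRUNC (helper2287): from truncated coordinates to exact coordinates

Abstract, Mathlib-only.  `Ω` is a field (`AlgebraicClosure ℚ` in the application), `A` a valuation
subring, `ℓ ∈ A` a nonzero element fixed by a group `Γ` of automorphisms of `Ω` preserving `A`
(`Γ` = inertia in the application).  `Cong A ℓ r x y` means `x ≡ y mod ℓ^r A`.

* `exists_equivariant_lift` (T1): a function on a `Γ`-set which is `Γ`-equivariant modulo
  `ℓ^(r+c)` and whose values have at most `n` conjugates (`n ∣ ℓ^c` in `A` for the relevant `n`)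
  is congruent modulo `ℓ^r` to an exactly `Γ`-equivariant function (trace average).
* `exists_poly_of_equivariant` (T2): for exactly equivariant coordinates `X` on a finite `Γ`-set
  `T`, separating the points of `T` modulo `ℓ^r₁`, `ℓ^c₀ •` (every equivariant `A`-valued function)
  is a polynomial in the coordinates with `Γ`-fixed coefficients in `A`.
* `exists_exact_coords` (T3): a compatible system of approximate coordinates with an approximate
  addition law gives exact equivariant coordinates with an exact addition law.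
-/

set_option autoImplicit false

namespace Fermat.Agent.S19.helper2287

open MvPolynomial

section Cong

variable {Ω : Type*} [Field Ω]

/-- `x ≡ y` modulo `ℓ ^ r • A`. -/
def Cong (A : ValuationSubring Ω) (ℓ : Ω) (r : ℕ) (x y : Ω) : Prop :=
  ∃ z ∈ A, x - y = ℓ ^ r * z

variable {A : ValuationSubring Ω} {ℓ : Ω} {r : ℕ}

theorem Cong.refl (x : Ω) : Cong A ℓ r x x := ⟨0, A.zero_mem, by simp⟩

theorem Cong.of_eq {x y : Ω} (h : x = y) : Cong A ℓ r x y := h ▸ Cong.refl x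

theorem Cong.symm {x y : Ω} (h : Cong A ℓ r x y) : Cong A ℓ r y x := by
  obtain ⟨z, hz, h⟩ := h
  exact ⟨-z, A.neg_mem _ hz, by rw [mul_neg, ← h]; ring⟩

theorem Cong.trans {x y w : Ω} (h : Cong A ℓ r x y) (h' : Cong A ℓ r y w) : Cong A ℓ r x w := by
  obtain ⟨z, hz, h⟩ := h
  obtain ⟨z', hz', h'⟩ := h'
  exact ⟨z + z', A.add_mem _ _ hz hz', by rw [mul_add, ← h, ← h']; ring⟩

theorem Cong.add {x y x' y' : Ω} (h : Cong A ℓ r x y) (h' : Cong A ℓ r x' y') :
    Cong A ℓ r (x + x') (y + y') := by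
  obtain ⟨z, hz, h⟩ := h
  obtain ⟨z', hz', h'⟩ := h'
  exact ⟨z + z', A.add_mem _ _ hz hz', by rw [mul_add, ← h, ← h']; ring⟩

theorem Cong.neg {x y : Ω} (h : Cong A ℓ r x y) : Cong A ℓ r (-x) (-y) := by
  obtain ⟨z, hz, h⟩ := h
  exact ⟨-z, A.neg_mem _ hz, by rw [mul_neg, ← h]; ring⟩

theorem Cong.sub {x y x' y' : Ω} (h : Cong A ℓ r x y) (h' : Cong A ℓ r x' y') :
    Cong A ℓ r (x - x') (y - y') := by
  rw [sub_eq_add_neg, sub_eq_add_neg]
  exact h.add h'.neg

theorem Cong.mul_left {x y : Ω} (a : Ω) (ha : a ∈ A) (h : Cong A ℓ r x y) :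
    Cong A ℓ r (a * x) (a * y) := by
  obtain ⟨z, hz, h⟩ := h
  exact ⟨a * z, A.mul_mem _ _ ha hz, by rw [← mul_sub, h]; ring⟩

theorem Cong.mul {x y x' y' : Ω} (h : Cong A ℓ r x y) (h' : Cong A ℓ r x' y') (hx' : x' ∈ A)
    (hy : y ∈ A) : Cong A ℓ r (x * x') (y * y') := by
  obtain ⟨z, hz, h⟩ := h
  obtain ⟨z', hz', h'⟩ := h'
  refine ⟨z * x' + y * z', A.add_mem _ _ (A.mul_mem _ _ hz hx') (A.mul_mem _ _ hy hz'), ?_⟩
  have : x * x' - y * y' = (x - y) * x' + y * (x' - y') := by ring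
  rw [this, h, h']; ring

theorem Cong.mono (hℓ : ℓ ∈ A) {r' : ℕ} (hr : r' ≤ r) {x y : Ω} (h : Cong A ℓ r x y) :
    Cong A ℓ r' x y := by
  obtain ⟨z, hz, h⟩ := h
  refine ⟨ℓ ^ (r - r') * z, A.mul_mem _ _ (pow_mem hℓ _) hz, ?_⟩
  rw [h, ← mul_assoc, ← pow_add, Nat.add_sub_cancel' hr]

theorem Cong.mem (hℓ : ℓ ∈ A) {x y : Ω} (h : Cong A ℓ r x y) (hy : y ∈ A) : x ∈ A := by
  obtain ⟨z, hz, h⟩ := h
  have : x = y + ℓ ^ r * z := by rw [← h]; ring
  rw [this]
  exact A.add_mem _ _ hy (A.mul_mem _ _ (pow_mem hℓ _) hz)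

theorem Cong.pow {x y : Ω} (h : Cong A ℓ r x y) (hx : x ∈ A) (hy : y ∈ A) (n : ℕ) :
    Cong A ℓ r (x ^ n) (y ^ n) := by
  induction n with
  | zero => simp only [pow_zero]; exact Cong.refl _
  | succ n ih =>
    rw [pow_succ, pow_succ]
    exact ih.mul h hx (pow_mem hy n)

theorem Cong.finset_sum {ι : Type*} (s : Finset ι) {f g : ι → Ω}
    (h : ∀ i ∈ s, Cong A ℓ r (f i) (g i)) : Cong A ℓ r (∑ i ∈ s, f i) (∑ i ∈ s, g i) := by
  classical
  induction s using Finset.induction_on with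
  | empty => simp only [Finset.sum_empty]; exact Cong.refl _
  | insert a s ha ih =>
    rw [Finset.sum_insert ha, Finset.sum_insert ha]
    exact (h a (Finset.mem_insert_self a s)).add
      (ih fun i hi => h i (Finset.mem_insert_of_mem hi))

theorem Cong.finset_prod {ι : Type*} (s : Finset ι) {f g : ι → Ω}
    (h : ∀ i ∈ s, Cong A ℓ r (f i) (g i)) (hf : ∀ i ∈ s, f i ∈ A) (hg : ∀ i ∈ s, g i ∈ A) :
    Cong A ℓ r (∏ i ∈ s, f i) (∏ i ∈ s, g i) := by
  classical
  induction s using Finset.induction_on with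
  | empty => simp only [Finset.prod_empty]; exact Cong.refl _
  | insert a s ha ih =>
    rw [Finset.prod_insert ha, Finset.prod_insert ha]
    refine (h a (Finset.mem_insert_self a s)).mul
      (ih (fun i hi => h i (Finset.mem_insert_of_mem hi))
        (fun i hi => hf i (Finset.mem_insert_of_mem hi))
        (fun i hi => hg i (Finset.mem_insert_of_mem hi)))
      (prod_mem fun i hi => hf i (Finset.mem_insert_of_mem hi))
      (hg a (Finset.mem_insert_self a s))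

/-- Evaluation of a polynomial with coefficients in `A` respects congruences. -/
theorem Cong.eval {ι : Type*} [Fintype ι] (P : MvPolynomial ι Ω) (hP : ∀ d, P.coeff d ∈ A)
    {x y : ι → Ω} (h : ∀ i, Cong A ℓ r (x i) (y i)) (hx : ∀ i, x i ∈ A) (hy : ∀ i, y i ∈ A) :
    Cong A ℓ r (MvPolynomial.eval x P) (MvPolynomial.eval y P) := by
  rw [MvPolynomial.eval_eq', MvPolynomial.eval_eq']
  refine Cong.finset_sum _ fun d _ => Cong.mul_left _ (hP d) ?_
  exact Cong.finset_prod _ (fun i _ => (h i).pow (hx i) (hy i) _)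
    (fun i _ => pow_mem (hx i) _) (fun i _ => pow_mem (hy i) _)

/-- The value of a polynomial with coefficients in `A` at a point of `A` lies in `A`. -/
theorem eval_mem {ι : Type*} [Fintype ι] (P : MvPolynomial ι Ω) (hP : ∀ d, P.coeff d ∈ A)
    {x : ι → Ω} (hx : ∀ i, x i ∈ A) : MvPolynomial.eval x P ∈ A := by
  rw [MvPolynomial.eval_eq']
  exact sum_mem fun d _ => A.mul_mem _ _ (hP d) (prod_mem fun i _ => pow_mem (hx i) _)

/-- In a valuation ring, an element which is not divisible by `ℓ ^ r` divides `ℓ ^ r`. -/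
theorem exists_mul_eq_pow_of_not_cong (hℓ0 : ℓ ≠ 0) {x y : Ω} (h : ¬ Cong A ℓ r x y) :
    ∃ w ∈ A, (x - y) * w = ℓ ^ r := by
  have hne : x - y ≠ 0 := fun h0 => h ⟨0, A.zero_mem, by rw [h0]; simp⟩
  rcases A.mem_or_inv_mem (ℓ ^ r / (x - y)) with hq | hq
  · exact ⟨ℓ ^ r / (x - y), hq, by field_simp⟩
  · exact absurd ⟨(ℓ ^ r / (x - y))⁻¹, hq, by
      have := pow_ne_zero r hℓ0
      field_simp⟩ h

end Cong

section Action

variable {Ω : Type*} [Field Ω] {Γ : Type*} [Group Γ] [MulSemiringAction Γ Ω]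
variable {A : ValuationSubring Ω} {ℓ : Ω}

theorem Cong.smul (hA : ∀ (σ : Γ) (a : Ω), a ∈ A → σ • a ∈ A) (hℓΓ : ∀ σ : Γ, σ • ℓ = ℓ)
    {r : ℕ} {x y : Ω} (σ : Γ) (h : Cong A ℓ r x y) : Cong A ℓ r (σ • x) (σ • y) := by
  obtain ⟨z, hz, h⟩ := h
  refine ⟨σ • z, hA σ z hz, ?_⟩
  rw [← smul_sub, h, smul_mul', smul_pow', hℓΓ]

theorem Cong.smul_iff (hA : ∀ (σ : Γ) (a : Ω), a ∈ A → σ • a ∈ A) (hℓΓ : ∀ σ : Γ, σ • ℓ = ℓ)
    {r : ℕ} {x y : Ω} (σ : Γ) : Cong A ℓ r (σ • x) (σ • y) ↔ Cong A ℓ r x y := by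
  refine ⟨fun h => ?_, fun h => h.smul hA hℓΓ σ⟩
  have := h.smul hA hℓΓ σ⁻¹
  rwa [inv_smul_smul, inv_smul_smul] at this

/-- Trace average over the stabiliser: the local step of (T1). -/
theorem exists_fixed_approx [CharZero Ω] {T : Type*} [MulAction Γ T]
    (hℓA : ℓ ∈ A) (r c n : ℕ) (hc : ∀ k : ℕ, 1 ≤ k → k ≤ n → ∃ z ∈ A, (k : Ω) * z = ℓ ^ c)
    (x : T → Ω) (hxA : ∀ t, x t ∈ A)
    (hx : ∀ (σ : Γ) (t : T), Cong A ℓ (r + c) (x (σ • t)) (σ • x t))
    (hfin : ∀ t, (MulAction.orbit Γ (x t)).Finite ∧ (MulAction.orbit Γ (x t)).ncard ≤ n)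
    (t : T) :
    ∃ y : Ω, y ∈ A ∧ (∀ σ : Γ, σ • t = t → σ • y = y) ∧ Cong A ℓ r y (x t) := by
  classical
  set O : Set Ω := (fun s : Γ => s • x t) '' {s : Γ | s • t = t} with hO
  have hOsub : O ⊆ MulAction.orbit Γ (x t) := by
    rintro _ ⟨s, -, rfl⟩
    exact ⟨s, rfl⟩
  have hOfin : O.Finite := (hfin t).1.subset hOsub
  have hxO : x t ∈ O := ⟨1, by simp, by simp⟩
  set Of : Finset Ω := hOfin.toFinset with hOf
  have hmem : ∀ a, a ∈ Of ↔ a ∈ O := fun a => hOfin.mem_toFinset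
  have hk1 : 1 ≤ Of.card := Finset.card_pos.mpr ⟨x t, (hmem _).2 hxO⟩
  have hkn : Of.card ≤ n := by
    have h1 : Of.card = O.ncard := (Set.ncard_eq_toFinset_card O hOfin).symm
    rw [h1]
    exact (Set.ncard_le_ncard hOsub (hfin t).1).trans (hfin t).2
  obtain ⟨w, hwA, hw⟩ := hc Of.card hk1 hkn
  have hk0 : (Of.card : Ω) ≠ 0 := by
    have : Of.card ≠ 0 := by omega
    exact_mod_cast this
  -- the sum of the conjugates is congruent to `card • x t`
  have hsum : Cong A ℓ (r + c) (∑ a ∈ Of, a) (∑ _a ∈ Of, x t) := by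
    refine Cong.finset_sum _ fun a ha => ?_
    obtain ⟨s, hs, rfl⟩ := (hmem a).1 ha
    have := hx s t
    rw [show s • t = t from hs] at this
    exact this.symm
  obtain ⟨z, hzA, hz⟩ := hsum
  rw [Finset.sum_const, nsmul_eq_mul] at hz
  refine ⟨(∑ a ∈ Of, a) / Of.card, ?_, ?_, ?_⟩
  · have hcong : Cong A ℓ r ((∑ a ∈ Of, a) / Of.card) (x t) := by
      refine ⟨w * z, A.mul_mem _ _ hwA hzA, ?_⟩
      have h1 : (∑ a ∈ Of, a) / (Of.card : Ω) - x t
          = ((∑ a ∈ Of, a) - (Of.card : Ω) * x t) / (Of.card : Ω) := by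
        field_simp
      rw [h1, hz, pow_add, ← hw]
      field_simp
    exact hcong.mem hℓA (hxA t)
  · intro σ hσ
    have hnat : σ • (Of.card : Ω) = Of.card :=
      map_natCast (MulSemiringAction.toRingHom Γ Ω σ) _
    rw [smul_div₀', hnat, Finset.smul_sum]
    congr 1
    refine Finset.sum_nbij' (fun a => σ • a) (fun a => σ⁻¹ • a) ?_ ?_ ?_ ?_ ?_
    · intro a ha
      obtain ⟨s, hs, rfl⟩ := (hmem a).1 ha
      refine (hmem _).2 ⟨σ * s, ?_, by simp [mul_smul]⟩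
      show (σ * s) • t = t
      rw [mul_smul, show s • t = t from hs, hσ]
    · intro a ha
      obtain ⟨s, hs, rfl⟩ := (hmem a).1 ha
      refine (hmem _).2 ⟨σ⁻¹ * s, ?_, by simp [mul_smul]⟩
      show (σ⁻¹ * s) • t = t
      rw [mul_smul, show s • t = t from hs, inv_smul_eq_iff, hσ]
    · intro a _; simp
    · intro a _; simp
    · intro a _; rfl
  · refine ⟨w * z, A.mul_mem _ _ hwA hzA, ?_⟩
    have h1 : (∑ a ∈ Of, a) / (Of.card : Ω) - x t
        = ((∑ a ∈ Of, a) - (Of.card : Ω) * x t) / (Of.card : Ω) := by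
      field_simp
    rw [h1, hz, pow_add, ← hw]
    field_simp

/-- (T1) EQUIVARIANT LIFTING: a function which is `Γ`-equivariant modulo `ℓ ^ (r + c)` and whose
values have at most `n` conjugates, `n`-th integers dividing `ℓ ^ c` in `A`, is congruent modulo
`ℓ ^ r` to an exactly `Γ`-equivariant `A`-valued function. -/
theorem exists_equivariant_lift [CharZero Ω] {T : Type*} [MulAction Γ T]
    (hA : ∀ (σ : Γ) (a : Ω), a ∈ A → σ • a ∈ A) (hℓA : ℓ ∈ A) (hℓΓ : ∀ σ : Γ, σ • ℓ = ℓ)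
    (r c n : ℕ) (hc : ∀ k : ℕ, 1 ≤ k → k ≤ n → ∃ z ∈ A, (k : Ω) * z = ℓ ^ c)
    (x : T → Ω) (hxA : ∀ t, x t ∈ A)
    (hx : ∀ (σ : Γ) (t : T), Cong A ℓ (r + c) (x (σ • t)) (σ • x t))
    (hfin : ∀ t, (MulAction.orbit Γ (x t)).Finite ∧ (MulAction.orbit Γ (x t)).ncard ≤ n) :
    ∃ ξ : T → Ω, (∀ t, ξ t ∈ A) ∧ (∀ (σ : Γ) (t : T), ξ (σ • t) = σ • ξ t) ∧
      ∀ t, Cong A ℓ r (ξ t) (x t) := by
  classical
  choose y hyA hyfix hycong using exists_fixed_approx hℓA r c n hc x hxA hx hfin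
  -- orbit representatives
  let rep : T → T := fun t => (Quotient.mk (MulAction.orbitRel Γ T) t).out
  have hrep : ∀ t, ∃ τ : Γ, τ • rep t = t := by
    intro t
    have h : (MulAction.orbitRel Γ T).r (rep t) t := Quotient.mk_out (s := MulAction.orbitRel Γ T) t
    have h' : rep t ∈ MulAction.orbit Γ t := (MulAction.orbitRel_apply).1 h
    obtain ⟨g, hg⟩ := h'
    exact ⟨g⁻¹, by rw [← hg, inv_smul_smul]⟩
  choose τ hτ using hrep
  have hrepσ : ∀ (σ : Γ) (t : T), rep (σ • t) = rep t := by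
    intro σ t
    have : Quotient.mk (MulAction.orbitRel Γ T) (σ • t) = Quotient.mk (MulAction.orbitRel Γ T) t :=
      Quotient.sound ((MulAction.orbitRel_apply).2 ⟨σ, rfl⟩)
    show (Quotient.mk (MulAction.orbitRel Γ T) (σ • t)).out = _
    rw [this]
  refine ⟨fun t => τ t • y (rep t), fun t => hA _ _ (hyA _), fun σ t => ?_, fun t => ?_⟩
  · show τ (σ • t) • y (rep (σ • t)) = σ • τ t • y (rep t)
    rw [hrepσ σ t]
    have hstab : ((σ * τ t)⁻¹ * τ (σ • t)) • rep t = rep t := by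
      rw [mul_smul]
      have h1 : τ (σ • t) • rep t = σ • t := by
        have := hτ (σ • t)
        rwa [hrepσ σ t] at this
      rw [h1, inv_smul_eq_iff, mul_smul, hτ t]
    have := hyfix (rep t) _ hstab
    rw [mul_smul, inv_smul_eq_iff, mul_smul] at this
    exact this
  · show Cong A ℓ r (τ t • y (rep t)) (x t)
    have h1 : Cong A ℓ r (τ t • y (rep t)) (τ t • x (rep t)) :=
      (hycong (rep t)).smul hA hℓΓ (τ t)
    have h2 : Cong A ℓ (r + c) (x t) (τ t • x (rep t)) := by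
      have := hx (τ t) (rep t)
      rwa [hτ t] at this
    exact h1.trans (h2.mono hℓA (Nat.le_add_right r c)).symm

end Action

section Lagrange

variable {Ω : Type*} [Field Ω] {Γ : Type*} [Group Γ] [MulSemiringAction Γ Ω]
variable {A : ValuationSubring Ω} {ℓ : Ω}

/-- polynomials with coefficients in `A`, as a subring. -/
theorem coeff_mem_of_mem_range {ι : Type*} {Q : MvPolynomial ι Ω}
    (hQ : Q ∈ (MvPolynomial.map (σ := ι) A.subtype).range) (d : ι →₀ ℕ) : Q.coeff d ∈ A := by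
  obtain ⟨p, rfl⟩ := hQ
  rw [MvPolynomial.coeff_map]
  exact (p.coeff d).2

theorem C_mem_range {ι : Type*} {a : Ω} (ha : a ∈ A) :
    (MvPolynomial.C a : MvPolynomial ι Ω) ∈ (MvPolynomial.map (σ := ι) A.subtype).range :=
  ⟨MvPolynomial.C ⟨a, ha⟩, by rw [MvPolynomial.map_C]; rfl⟩

theorem X_mem_range {ι : Type*} (i : ι) :
    (MvPolynomial.X i : MvPolynomial ι Ω) ∈ (MvPolynomial.map (σ := ι) A.subtype).range :=
  ⟨MvPolynomial.X i, by rw [MvPolynomial.map_X]⟩

/-- (T2) LAGRANGE INTERPOLATION WITH FIXED COEFFICIENTS.  `X` exactly equivariant `A`-valued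
coordinates on a finite `Γ`-set `T`, separating the points of `T` modulo `ℓ ^ r₁`.  Then for every
equivariant `A`-valued `ε` on `T`, `ℓ ^ (r₁ * (|T| * |ι|)) * ε` is a polynomial in the coordinates
whose coefficients lie in `A` and are fixed by `Γ`. -/
theorem exists_poly_of_equivariant {T : Type*} [Fintype T] [MulAction Γ T] {ι : Type*} [Fintype ι]
    (hA : ∀ (σ : Γ) (a : Ω), a ∈ A → σ • a ∈ A) (hℓA : ℓ ∈ A) (hℓ0 : ℓ ≠ 0)
    (hℓΓ : ∀ σ : Γ, σ • ℓ = ℓ) (r₁ : ℕ)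
    (X : T → ι → Ω) (hXA : ∀ t i, X t i ∈ A) (hX : ∀ (σ : Γ) t i, X (σ • t) i = σ • X t i)
    (hsep : ∀ t t', t ≠ t' → ∃ i, ¬ Cong A ℓ r₁ (X t i) (X t' i))
    (ε : T → Ω) (hεA : ∀ t, ε t ∈ A) (hε : ∀ (σ : Γ) t, ε (σ • t) = σ • ε t) :
    ∃ Q : MvPolynomial ι Ω, (∀ d, Q.coeff d ∈ A) ∧ (∀ (σ : Γ) d, σ • Q.coeff d = Q.coeff d) ∧
      ∀ t, ℓ ^ (r₁ * (Fintype.card T * Fintype.card ι)) * ε t = MvPolynomial.eval (X t) Q := by
  classical
  set c₀ : ℕ := r₁ * (Fintype.card T * Fintype.card ι) with hc₀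
  -- separating coordinates
  let S : T → T → Finset ι := fun t t0 =>
    Finset.univ.filter fun i => ¬ Cong A ℓ r₁ (X t i) (X t0 i)
  have hSσ : ∀ (σ : Γ) t t0, S (σ • t) (σ • t0) = S t t0 := by
    intro σ t t0
    ext i
    simp only [S, Finset.mem_filter, Finset.mem_univ, true_and]
    rw [hX, hX, Cong.smul_iff hA hℓΓ]
  let L : T → MvPolynomial ι Ω := fun t0 =>
    ∏ t ∈ Finset.univ.erase t0, ∏ i ∈ S t t0, (MvPolynomial.X i - MvPolynomial.C (X t i))
  let dd : T → Ω := fun t0 => ∏ t ∈ Finset.univ.erase t0, ∏ i ∈ S t t0, (X t0 i - X t i)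
  -- evaluation of the Lagrange polynomials
  have hLeval : ∀ t1 t0, MvPolynomial.eval (X t1) (L t0) = if t1 = t0 then dd t0 else 0 := by
    intro t1 t0
    simp only [L, map_prod, map_sub, MvPolynomial.eval_X, MvPolynomial.eval_C]
    split_ifs with h
    · subst h; rfl
    · refine Finset.prod_eq_zero (Finset.mem_erase.2 ⟨h, Finset.mem_univ t1⟩) ?_
      obtain ⟨i, hi⟩ := hsep t1 t0 h
      exact Finset.prod_eq_zero (i := i)
        (by simp only [S, Finset.mem_filter, Finset.mem_univ, true_and]; exact hi) (sub_self _)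
  -- the denominators divide `ℓ ^ c₀`
  have hdiv : ∀ t0, ∃ w ∈ A, dd t0 * w = ℓ ^ c₀ := by
    intro t0
    have hw : ∀ t i, ∃ w : Ω, i ∈ S t t0 → (w ∈ A ∧ (X t0 i - X t i) * w = ℓ ^ r₁) := by
      intro t i
      by_cases hi : i ∈ S t t0
      · have hi' : ¬ Cong A ℓ r₁ (X t0 i) (X t i) := by
          simp only [S, Finset.mem_filter, Finset.mem_univ, true_and] at hi
          exact fun h => hi h.symm
        obtain ⟨w, hwA, hw⟩ := exists_mul_eq_pow_of_not_cong hℓ0 hi'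
        exact ⟨w, fun _ => ⟨hwA, hw⟩⟩
      · exact ⟨0, fun h => absurd h hi⟩
    choose w hw using hw
    set k : ℕ := ∑ t ∈ Finset.univ.erase t0, (S t t0).card with hk
    have hkle : k ≤ Fintype.card T * Fintype.card ι := by
      calc k ≤ ∑ _t ∈ Finset.univ.erase t0, Fintype.card ι :=
            Finset.sum_le_sum fun t _ => Finset.card_le_univ _
        _ = (Finset.univ.erase t0).card * Fintype.card ι := by
            rw [Finset.sum_const, smul_eq_mul]
        _ ≤ Fintype.card T * Fintype.card ι :=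
            Nat.mul_le_mul_right _ (Finset.card_le_univ _)
    have hprod : dd t0 * (∏ t ∈ Finset.univ.erase t0, ∏ i ∈ S t t0, w t i) = ℓ ^ (r₁ * k) := by
      simp only [dd]
      rw [← Finset.prod_mul_distrib]
      have : ∀ t ∈ Finset.univ.erase t0,
          (∏ i ∈ S t t0, (X t0 i - X t i)) * ∏ i ∈ S t t0, w t i = ℓ ^ (r₁ * (S t t0).card) := by
        intro t _
        rw [← Finset.prod_mul_distrib, Finset.prod_congr rfl fun i hi => (hw t i hi).2,
          Finset.prod_const, ← pow_mul]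
      rw [Finset.prod_congr rfl this, Finset.prod_pow_eq_pow_sum, hk, Finset.mul_sum]
    refine ⟨(∏ t ∈ Finset.univ.erase t0, ∏ i ∈ S t t0, w t i) *
        ℓ ^ (r₁ * (Fintype.card T * Fintype.card ι - k)), ?_, ?_⟩
    · exact A.mul_mem _ _
        (prod_mem fun t _ => prod_mem fun i hi => (hw t i hi).1) (pow_mem hℓA _)
    · rw [← mul_assoc, hprod, ← pow_add, hc₀, ← Nat.mul_add, Nat.add_sub_cancel' hkle]
  have hdd0 : ∀ t0, dd t0 ≠ 0 := by
    intro t0 h0
    obtain ⟨w, -, hw⟩ := hdiv t0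
    rw [h0, zero_mul] at hw
    exact pow_ne_zero _ hℓ0 hw.symm
  let e : T → Ω := fun t0 => ℓ ^ c₀ * ε t0 / dd t0
  have heA : ∀ t0, e t0 ∈ A := by
    intro t0
    obtain ⟨w, hwA, hw⟩ := hdiv t0
    have : e t0 = ε t0 * w := by
      simp only [e]
      rw [← hw]
      field_simp [hdd0 t0]
    rw [this]
    exact A.mul_mem _ _ (hεA t0) hwA
  -- equivariance of the data
  have hddσ : ∀ (σ : Γ) t0, σ • dd t0 = dd (σ • t0) := by
    intro σ t0
    simp only [dd]
    rw [show σ • (∏ t ∈ Finset.univ.erase t0, ∏ i ∈ S t t0, (X t0 i - X t i))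
        = MulSemiringAction.toRingHom Γ Ω σ (∏ t ∈ Finset.univ.erase t0, ∏ i ∈ S t t0,
          (X t0 i - X t i)) from rfl, map_prod]
    refine Finset.prod_equiv (MulAction.toPerm σ) ?_ ?_
    · intro t
      simp only [Finset.mem_erase, Finset.mem_univ, and_true, MulAction.toPerm_apply, ne_eq,
        smul_left_cancel_iff]
    · intro t _
      rw [map_prod, MulAction.toPerm_apply, hSσ]
      refine Finset.prod_congr rfl fun i _ => ?_
      rw [map_sub, MulSemiringAction.toRingHom_apply, MulSemiringAction.toRingHom_apply, hX, hX]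
  have heσ : ∀ (σ : Γ) t0, σ • e t0 = e (σ • t0) := by
    intro σ t0
    simp only [e]
    rw [smul_div₀', smul_mul', smul_pow', hℓΓ, hddσ, hε]
  have hLσ : ∀ (σ : Γ) t0,
      MvPolynomial.map (MulSemiringAction.toRingHom Γ Ω σ) (L t0) = L (σ • t0) := by
    intro σ t0
    simp only [L]
    rw [map_prod]
    refine Finset.prod_equiv (MulAction.toPerm σ) ?_ ?_
    · intro t
      simp only [Finset.mem_erase, Finset.mem_univ, and_true, MulAction.toPerm_apply, ne_eq,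
        smul_left_cancel_iff]
    · intro t _
      rw [map_prod, MulAction.toPerm_apply, hSσ]
      refine Finset.prod_congr rfl fun i _ => ?_
      rw [map_sub, MvPolynomial.map_X, MvPolynomial.map_C, MulSemiringAction.toRingHom_apply, hX]
  refine ⟨∑ t0, MvPolynomial.C (e t0) * L t0, ?_, ?_, ?_⟩
  · refine coeff_mem_of_mem_range ?_
    refine sum_mem fun t0 _ => mul_mem (C_mem_range (heA t0)) ?_
    refine prod_mem fun t _ => prod_mem fun i _ => sub_mem (X_mem_range i) (C_mem_range (hXA t i))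
  · intro σ d
    have hmap : MvPolynomial.map (MulSemiringAction.toRingHom Γ Ω σ)
        (∑ t0, MvPolynomial.C (e t0) * L t0) = ∑ t0, MvPolynomial.C (e t0) * L t0 := by
      rw [map_sum]
      refine Fintype.sum_equiv (MulAction.toPerm σ) _ _ fun t0 => ?_
      rw [map_mul, MvPolynomial.map_C, hLσ, MulSemiringAction.toRingHom_apply, heσ,
        MulAction.toPerm_apply]
    have := congrArg (MvPolynomial.coeff d) hmap
    rw [MvPolynomial.coeff_map, MulSemiringAction.toRingHom_apply] at this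
    exact this
  · intro t
    rw [map_sum]
    simp only [map_mul, MvPolynomial.eval_C, hLeval]
    rw [Finset.sum_eq_single t]
    · rw [if_pos rfl]
      simp only [e]
      field_simp [hdd0 t]
    · intro t0 _ h
      rw [if_neg (Ne.symm h), mul_zero]
    · intro h; exact absurd (Finset.mem_univ t) h

end Lagrange

section Exact

variable {Ω : Type*} [Field Ω] {Γ : Type*} [Group Γ] [MulSemiringAction Γ Ω]
variable {A : ValuationSubring Ω} {ℓ : Ω}

/-- Evaluation of a polynomial with `Γ`-fixed coefficients is `Γ`-equivariant. -/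
theorem smul_eval {ι : Type*} (P : MvPolynomial ι Ω) (hP : ∀ (σ : Γ) d, σ • P.coeff d = P.coeff d)
    (σ : Γ) (x : ι → Ω) :
    σ • MvPolynomial.eval x P = MvPolynomial.eval (fun j => σ • x j) P := by
  have hmap : MvPolynomial.map (MulSemiringAction.toRingHom Γ Ω σ) P = P := by
    ext d
    rw [MvPolynomial.coeff_map, MulSemiringAction.toRingHom_apply, hP]
  have h1 : σ • MvPolynomial.eval x P
      = MulSemiringAction.toRingHom Γ Ω σ (MvPolynomial.eval x P) := rfl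
  rw [h1, MvPolynomial.eval₂_comp, ← MvPolynomial.eval_map, hmap]
  rfl

theorem Cong.iterate (hℓA : ℓ ∈ A) {M ι : Type*} (β : ℕ → M → ι → Ω)
    (hcompat : ∀ r m i, Cong A ℓ r (β (r + 1) m i) (β r m i)) {r r' : ℕ} (h : r ≤ r') (m : M)
    (i : ι) : Cong A ℓ r (β r' m i) (β r m i) := by
  obtain ⟨s, rfl⟩ := Nat.exists_eq_add_of_le h
  induction s with
  | zero => exact Cong.refl _
  | succ s ih =>
    have h1 : Cong A ℓ r (β (r + s + 1) m i) (β (r + s) m i) :=
      (hcompat (r + s) m i).mono hℓA (Nat.le_add_right r s)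
    exact h1.trans (ih (Nat.le_add_right r s))

/-- (T3) EXACT COORDINATES FROM TRUNCATED COORDINATES.

`β r : M → ι → Ω` are representatives in `A` of coordinates known modulo `ℓ ^ r` only
(compatible in `r`, `Γ`-equivariant modulo `ℓ ^ r`, separating every class of `M / M₁` at some
level, with an addition law modulo `ℓ ^ r` on every pair of classes given by a polynomial with
`Γ`-fixed coefficients in `A`), and all the representatives have at most `n` conjugates (finite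
level, uniform in `r`).  Then there are EXACTLY `Γ`-equivariant `A`-valued coordinates `Ξ`,
congruent to `β r` modulo `ℓ ^ r` for some `r ≥ r₀`, separating every class modulo `ℓ ^ r₁`, with
an EXACT addition law on every pair of classes. -/
theorem exists_exact_coords [CharZero Ω] {M : Type*} [AddCommGroup M] [Finite M]
    [DistribMulAction Γ M] {ι : Type*} [Fintype ι]
    (hA : ∀ (σ : Γ) (a : Ω), a ∈ A → σ • a ∈ A) (hℓA : ℓ ∈ A) (hℓ0 : ℓ ≠ 0)
    (hℓΓ : ∀ σ : Γ, σ • ℓ = ℓ)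
    (hdiv : ∀ n : ℕ, ∃ c : ℕ, ∀ k : ℕ, 1 ≤ k → k ≤ n → ∃ z ∈ A, (k : Ω) * z = ℓ ^ c)
    (M₁ : AddSubgroup M) (hcls : ∀ (σ : Γ) (m : M), σ • m - m ∈ M₁)
    (β : ℕ → M → ι → Ω)
    (hβA : ∀ r m i, β r m i ∈ A)
    (hcompat : ∀ r m i, Cong A ℓ r (β (r + 1) m i) (β r m i))
    (heqv : ∀ r (σ : Γ) m i, Cong A ℓ r (β r (σ • m) i) (σ • β r m i))
    (hsep : ∀ m m', m - m' ∈ M₁ → m ≠ m' → ∃ r i, ¬ Cong A ℓ r (β r m i) (β r m' i))
    (hfin : ∃ n : ℕ, ∀ r m i, (MulAction.orbit Γ (β r m i)).Finite ∧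
        (MulAction.orbit Γ (β r m i)).ncard ≤ n)
    (hlaw : ∀ (r : ℕ) (c c' : M) (i : ι), ∃ P : MvPolynomial (ι ⊕ ι) Ω,
        (∀ d, P.coeff d ∈ A) ∧ (∀ (σ : Γ) d, σ • P.coeff d = P.coeff d) ∧
        ∀ m m', m - c ∈ M₁ → m' - c' ∈ M₁ →
          Cong A ℓ r (β r (m + m') i) (MvPolynomial.eval (Sum.elim (β r m) (β r m')) P))
    (r₀ : ℕ) :
    ∃ (r₁ r : ℕ) (Ξ : M → ι → Ω), r₀ ≤ r ∧
      (∀ m i, Ξ m i ∈ A) ∧
      (∀ (σ : Γ) m i, Ξ (σ • m) i = σ • Ξ m i) ∧
      (∀ m i, Cong A ℓ r (Ξ m i) (β r m i)) ∧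
      (∀ m m', m - m' ∈ M₁ → m ≠ m' → ∃ i, ¬ Cong A ℓ r₁ (Ξ m i) (Ξ m' i)) ∧
      ∀ (c c' : M) (i : ι), ∃ P : MvPolynomial (ι ⊕ ι) Ω,
        (∀ d, P.coeff d ∈ A) ∧ (∀ (σ : Γ) d, σ • P.coeff d = P.coeff d) ∧
        ∀ m m', m - c ∈ M₁ → m' - c' ∈ M₁ →
          Ξ (m + m') i = MvPolynomial.eval (Sum.elim (Ξ m) (Ξ m')) P := by
  classical
  cases nonempty_fintype M
  -- the separation level
  have hρ : ∀ p : M × M, ∃ ρ : ℕ, p.1 - p.2 ∈ M₁ → p.1 ≠ p.2 →
      ∃ i, ¬ Cong A ℓ ρ (β ρ p.1 i) (β ρ p.2 i) := by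
    intro p
    by_cases h : p.1 - p.2 ∈ M₁ ∧ p.1 ≠ p.2
    · obtain ⟨ρ, i, hi⟩ := hsep p.1 p.2 h.1 h.2
      exact ⟨ρ, fun _ _ => ⟨i, hi⟩⟩
    · exact ⟨0, fun h1 h2 => absurd ⟨h1, h2⟩ h⟩
  choose ρ hρ using hρ
  set r₁ : ℕ := Finset.univ.sup ρ with hr₁
  have hρle : ∀ p, ρ p ≤ r₁ := fun p => Finset.le_sup (Finset.mem_univ p)
  have hsep' : ∀ r, r₁ ≤ r → ∀ m m', m - m' ∈ M₁ → m ≠ m' →
      ∃ i, ¬ Cong A ℓ r₁ (β r m i) (β r m' i) := by
    intro r hr m m' h1 h2
    obtain ⟨i, hi⟩ := hρ (m, m') h1 h2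
    refine ⟨i, fun hc => hi ?_⟩
    have hle : ρ (m, m') ≤ r := (hρle _).trans hr
    have e1 : Cong A ℓ (ρ (m, m')) (β r m i) (β (ρ (m, m')) m i) :=
      Cong.iterate hℓA β hcompat hle m i
    have e2 : Cong A ℓ (ρ (m, m')) (β r m' i) (β (ρ (m, m')) m' i) :=
      Cong.iterate hℓA β hcompat hle m' i
    exact e1.symm.trans ((hc.mono hℓA (hρle _)).trans e2)
  -- the levels
  obtain ⟨n, hn⟩ := hfin
  obtain ⟨c, hc⟩ := hdiv n
  set r : ℕ := max r₀ (max r₁ (r₁ * (Fintype.card (M × M) * Fintype.card (ι ⊕ ι)))) with hr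
  have hr₀ : r₀ ≤ r := le_max_left _ _
  have hr₁r : r₁ ≤ r := (le_max_left _ _).trans (le_max_right _ _)
  have hcr : r₁ * (Fintype.card (M × M) * Fintype.card (ι ⊕ ι)) ≤ r :=
    (le_max_right _ _).trans (le_max_right _ _)
  -- (T1): exact equivariant lifts, coordinate by coordinate
  have hlift : ∀ i : ι, ∃ ξ : M → Ω, (∀ m, ξ m ∈ A) ∧ (∀ (σ : Γ) (m : M), ξ (σ • m) = σ • ξ m) ∧
      ∀ m, Cong A ℓ r (ξ m) (β (r + c) m i) := fun i =>
    exists_equivariant_lift hA hℓA hℓΓ r c n hc (fun m => β (r + c) m i)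
      (fun m => hβA _ m i) (fun σ m => heqv (r + c) σ m i) (fun m => hn (r + c) m i)
  choose ξ hξA hξσ hξc using hlift
  have hΞβ : ∀ m i, Cong A ℓ r (ξ i m) (β r m i) := fun m i =>
    (hξc i m).trans (Cong.iterate hℓA β hcompat (Nat.le_add_right r c) m i)
  have hΞsep : ∀ m m', m - m' ∈ M₁ → m ≠ m' → ∃ i, ¬ Cong A ℓ r₁ (ξ i m) (ξ i m') := by
    intro m m' h1 h2
    obtain ⟨i, hi⟩ := hsep' r hr₁r m m' h1 h2
    refine ⟨i, fun hc' => hi ?_⟩
    exact ((hΞβ m i).mono hℓA hr₁r).symm.trans (hc'.trans ((hΞβ m' i).mono hℓA hr₁r))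
  refine ⟨r₁, r, fun m i => ξ i m, hr₀, fun m i => hξA i m, fun σ m i => hξσ i σ m, hΞβ, hΞsep, ?_⟩
  -- the exact law on a pair of classes
  intro c₁ c₂ i
  obtain ⟨P0, hP0A, hP0Γ, hP0⟩ := hlaw r c₁ c₂ i
  let T : SubMulAction Γ (M × M) :=
    { carrier := {p | p.1 - c₁ ∈ M₁ ∧ p.2 - c₂ ∈ M₁}
      smul_mem' := by
        rintro σ ⟨m, m'⟩ ⟨h1, h2⟩
        refine ⟨?_, ?_⟩
        · show σ • m - c₁ ∈ M₁
          have : σ • m - c₁ = (σ • m - m) + (m - c₁) := by abel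
          rw [this]
          exact M₁.add_mem (hcls σ m) h1
        · show σ • m' - c₂ ∈ M₁
          have : σ • m' - c₂ = (σ • m' - m') + (m' - c₂) := by abel
          rw [this]
          exact M₁.add_mem (hcls σ m') h2 }
  have : Fintype T := Fintype.ofFinite T
  let X : T → (ι ⊕ ι) → Ω := fun p => Sum.elim (fun j => ξ j p.1.1) (fun j => ξ j p.1.2)
  have hXA : ∀ p j, X p j ∈ A := by
    rintro p (j | j)
    · exact hξA j _
    · exact hξA j _
  have hXσ : ∀ (σ : Γ) p j, X (σ • p) j = σ • X p j := by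
    rintro σ p (j | j)
    · exact hξσ j σ p.1.1
    · exact hξσ j σ p.1.2
  have hXsep : ∀ p p' : T, p ≠ p' → ∃ j, ¬ Cong A ℓ r₁ (X p j) (X p' j) := by
    intro p p' hne
    have hne' : p.1 ≠ p'.1 := fun h => hne (Subtype.ext h)
    by_cases h1 : p.1.1 = p'.1.1
    · have h2 : p.1.2 ≠ p'.1.2 := fun h2 => hne' (Prod.ext h1 h2)
      have hmem : p.1.2 - p'.1.2 ∈ M₁ := by
        have : p.1.2 - p'.1.2 = (p.1.2 - c₂) - (p'.1.2 - c₂) := by abel
        rw [this]
        exact M₁.sub_mem p.2.2 p'.2.2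
      obtain ⟨j, hj⟩ := hΞsep _ _ hmem h2
      exact ⟨Sum.inr j, hj⟩
    · have hmem : p.1.1 - p'.1.1 ∈ M₁ := by
        have : p.1.1 - p'.1.1 = (p.1.1 - c₁) - (p'.1.1 - c₁) := by abel
        rw [this]
        exact M₁.sub_mem p.2.1 p'.2.1
      obtain ⟨j, hj⟩ := hΞsep _ _ hmem h1
      exact ⟨Sum.inl j, hj⟩
  -- the error term
  have hcong : ∀ p : T, Cong A ℓ r (ξ i (p.1.1 + p.1.2)) (MvPolynomial.eval (X p) P0) := by
    intro p
    have e1 := hΞβ (p.1.1 + p.1.2) i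
    have e2 := hP0 p.1.1 p.1.2 p.2.1 p.2.2
    have e3 : Cong A ℓ r (MvPolynomial.eval (X p) P0)
        (MvPolynomial.eval (Sum.elim (β r p.1.1) (β r p.1.2)) P0) := by
      refine Cong.eval P0 hP0A ?_ (hXA p) ?_
      · rintro (j | j)
        · exact hΞβ _ j
        · exact hΞβ _ j
      · rintro (j | j)
        · exact hβA _ _ j
        · exact hβA _ _ j
    exact e1.trans (e2.trans e3.symm)
  have hℓr : ℓ ^ r ≠ 0 := pow_ne_zero r hℓ0
  let ε : T → Ω := fun p => (ξ i (p.1.1 + p.1.2) - MvPolynomial.eval (X p) P0) / ℓ ^ r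
  have hεA : ∀ p, ε p ∈ A := by
    intro p
    obtain ⟨z, hzA, hz⟩ := hcong p
    have : ε p = z := by
      simp only [ε]
      rw [hz]
      field_simp
    rw [this]
    exact hzA
  have hεσ : ∀ (σ : Γ) p, ε (σ • p) = σ • ε p := by
    intro σ p
    have hX' : X (σ • p) = fun j => σ • X p j := funext (hXσ σ p)
    have h1 : ((σ • p : T) : M × M).1 + ((σ • p : T) : M × M).2 = σ • (p.1.1 + p.1.2) := by
      rw [smul_add]
      rfl
    simp only [ε]
    rw [smul_div₀', smul_pow', hℓΓ, smul_sub, smul_eval P0 hP0Γ σ (X p), ← hX', h1, hξσ i σ]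
  obtain ⟨Q, hQA, hQΓ, hQ⟩ := exists_poly_of_equivariant hA hℓA hℓ0 hℓΓ r₁ X hXA hXσ hXsep ε hεA hεσ
  set cT : ℕ := r₁ * (Fintype.card T * Fintype.card (ι ⊕ ι)) with hcT
  have hcTr : cT ≤ r := by
    refine le_trans ?_ hcr
    refine Nat.mul_le_mul_left _ (Nat.mul_le_mul_right _ ?_)
    exact Fintype.card_le_of_injective (fun p : T => (p : M × M)) Subtype.val_injective
  refine ⟨P0 + MvPolynomial.C (ℓ ^ (r - cT)) * Q, ?_, ?_, ?_⟩
  · intro d
    rw [MvPolynomial.coeff_add, MvPolynomial.coeff_C_mul]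
    exact A.add_mem _ _ (hP0A d) (A.mul_mem _ _ (pow_mem hℓA _) (hQA d))
  · intro σ d
    rw [MvPolynomial.coeff_add, MvPolynomial.coeff_C_mul, smul_add, smul_mul', smul_pow', hℓΓ,
      hP0Γ, hQΓ]
  · intro m m' hm hm'
    let p : T := ⟨(m, m'), hm, hm'⟩
    have h1 : MvPolynomial.eval (Sum.elim (fun j => ξ j m) (fun j => ξ j m')) Q = ℓ ^ cT * ε p :=
      (hQ p).symm
    have h2 : ℓ ^ r * ε p = ξ i (m + m') -
        MvPolynomial.eval (Sum.elim (fun j => ξ j m) (fun j => ξ j m')) P0 := by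
      simp only [ε]
      field_simp
      rfl
    show ξ i (m + m') = MvPolynomial.eval (Sum.elim (fun j => ξ j m) (fun j => ξ j m'))
      (P0 + MvPolynomial.C (ℓ ^ (r - cT)) * Q)
    rw [map_add, map_mul, MvPolynomial.eval_C, h1, ← mul_assoc, ← pow_add,
      Nat.sub_add_cancel hcTr, h2]
    ring

end Exact

end Fermat.Agent.S19.helper2287
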