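import Mathlib

/-!
# S19-H1FG (helper2306): bounded torsion of the Čech `H¹` of a two-chart bundle

Route C ("Čech units") of S19 proves injectivity of the truncated Čech coordinates by a
"formal functions" argument: a compatible system of sections modulo `π ^ m` of a two-chart
bundle `(L0, L1 ≤ L01)` is congruent to an honest global section as soon as the torsion of the
Čech cokernel `L01 / (L0 + L1)` is *bounded*:

> `π ^ m • h ∈ L0 + L1  →  π ^ c • h ∈ L0 + L1`  for one `c` and all `m`, `h ∈ L01`.

This file supplies that hypothesis, in Mathlib-only, hypothesis-passing form.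

* `exists_finset_le_sup_span` (FG): if ONE chart module `L0` is finitely generated over `A₀[j]`
  and `L01 = ⋃ j⁻ⁿ L0`, while every generator is pushed into `L1` by a power of `j⁻¹`, then
  `L01 ≤ L0 + L1 + span Z` for a finite set `Z` (the Čech cokernel is a finitely generated
  `A₀`-module).  Nothing is asked of `L1` beyond stability under `j⁻¹`.
* `exists_ne_zero_forall_smul_eq_zero` : the torsion of a finitely generated module over a domain
  is killed by ONE nonzero element (no noetherian hypothesis, no structure theorem).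
* `exists_ne_zero_forall_smul_mem` (BT): relative form.
* `exists_pow_forall_smul_mem` (BT-π): bounded `π`-power torsion when every nonzero element
  divides a power of `π` (discrete valuation rings, rank-one valuation rings).
* `exists_finset_gens_of_le_span` (NOE): over a noetherian base, a `j`-stable submodule of a
  finitely generated `A₀[j]`-module is finitely generated over `A₀[j]`.
* `bounded_torsion_of_le_span` : the three combined = the hypothesis of the injectivity lemma.
-/

set_option autoImplicit false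

namespace Fermat.Agent.S19.helper2306

open Submodule

section Torsion

variable {R M : Type*} [CommRing R] [IsDomain R] [AddCommGroup M] [Module R M]

/-- **Bounded torsion.** The torsion elements of a finitely generated module over a domain are
killed by one nonzero scalar.  (Span form; no finiteness of the torsion submodule is used.) -/
theorem exists_ne_zero_forall_smul_eq_zero (Z : Finset M) :
    ∃ a : R, a ≠ 0 ∧ ∀ t ∈ span R (Z : Set M), (∃ b : R, b ≠ 0 ∧ b • t = 0) → a • t = 0 := by
  classical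
  induction' hn : Z.card using Nat.strong_induction_on with n ih generalizing Z
  by_cases htf : ∀ t ∈ span R (Z : Set M), (∃ b : R, b ≠ 0 ∧ b • t = 0) → t = 0
  · exact ⟨1, one_ne_zero, fun t ht hb => by rw [htf t ht hb, smul_zero]⟩
  · push Not at htf
    obtain ⟨t, ht, ⟨b, hb0, hbt⟩, ht0⟩ := htf
    obtain ⟨c, rfl⟩ := (Submodule.mem_span_finset (s := Z)).mp ht |>.imp fun c hc => hc.2.symm
    -- some coefficient is nonzero
    obtain ⟨k, hkZ, hck⟩ : ∃ k ∈ Z, c k • k ≠ 0 := by
      by_contra hcon
      push Not at hcon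
      exact ht0 (Finset.sum_eq_zero hcon)
    have hck0 : c k ≠ 0 := fun h => hck (by rw [h, zero_smul])
    set d : R := b * c k with hd
    have hd0 : d ≠ 0 := mul_ne_zero hb0 hck0
    -- `d • k` lies in the span of the other generators
    have hdk : d • k ∈ span R ((Z.erase k : Finset M) : Set M) := by
      have hsum : ∑ z ∈ Z, (b * c z) • z = 0 := by
        have := hbt
        rw [Finset.smul_sum] at this
        simpa [mul_smul] using this
      rw [← Finset.add_sum_erase Z _ hkZ] at hsum
      have : d • k = -∑ z ∈ Z.erase k, (b * c z) • z := eq_neg_of_add_eq_zero_left hsum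
      rw [this]
      refine Submodule.neg_mem _ (Submodule.sum_mem _ fun z hz => ?_)
      exact Submodule.smul_mem _ _ (Submodule.subset_span (by exact_mod_cast hz))
    have hcard : (Z.erase k).card < n := by
      rw [← hn]; exact Finset.card_erase_lt_of_mem hkZ
    obtain ⟨a', ha'0, ha'⟩ := ih _ hcard (Z.erase k) rfl
    refine ⟨a' * d, mul_ne_zero ha'0 hd0, fun s hs ⟨b', hb'0, hb's⟩ => ?_⟩
    -- `d • s` lies in the smaller span and is torsion
    have hds : d • s ∈ span R ((Z.erase k : Finset M) : Set M) := by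
      refine Submodule.span_induction (p := fun x _ => d • x ∈ span R ((Z.erase k : Finset M) : Set M))
        ?_ ?_ ?_ ?_ hs
      · intro x hx
        by_cases hxk : x = k
        · rw [hxk]; exact hdk
        · exact Submodule.smul_mem _ _ (Submodule.subset_span
            (by exact_mod_cast Finset.mem_erase.mpr ⟨hxk, by exact_mod_cast hx⟩))
      · simp
      · intro x y _ _ hx hy; rw [smul_add]; exact Submodule.add_mem _ hx hy
      · intro r x _ hx; rw [smul_comm]; exact Submodule.smul_mem _ _ hx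
    have := ha' (d • s) hds ⟨b', hb'0, by rw [smul_comm, hb's, smul_zero]⟩
    rw [mul_smul]; exact this

/-- **(BT), relative form.** If `M' ≤ N + span Z` with `Z` finite, the elements of `M'` that are
torsion modulo `N` are pushed into `N` by one nonzero scalar. -/
theorem exists_ne_zero_forall_smul_mem (N M' : Submodule R M) (Z : Finset M)
    (hZ : M' ≤ N ⊔ span R (Z : Set M)) :
    ∃ a : R, a ≠ 0 ∧ ∀ h ∈ M', (∃ b : R, b ≠ 0 ∧ b • h ∈ N) → a • h ∈ N := by
  classical
  obtain ⟨a, ha0, ha⟩ := exists_ne_zero_forall_smul_eq_zero (R := R) (Z.image N.mkQ)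
  refine ⟨a, ha0, fun h hh ⟨b, hb0, hbh⟩ => ?_⟩
  have hmem : N.mkQ h ∈ span R ((Z.image N.mkQ : Finset (M ⧸ N)) : Set (M ⧸ N)) := by
    obtain ⟨x, hx, y, hy, rfl⟩ := Submodule.mem_sup.mp (hZ hh)
    have hx0 : N.mkQ x = 0 := (Submodule.Quotient.mk_eq_zero N).mpr hx
    rw [map_add, hx0, zero_add, Finset.coe_image, ← Submodule.map_span]
    exact Submodule.mem_map_of_mem hy
  have h0 : a • N.mkQ h = 0 :=
    ha _ hmem ⟨b, hb0, by rw [← map_smul]; exact (Submodule.Quotient.mk_eq_zero N).mpr hbh⟩
  rw [← map_smul] at h0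
  exact (Submodule.Quotient.mk_eq_zero N).mp h0

/-- **(BT-π).** Bounded `π`-power torsion modulo `N`, when every nonzero scalar divides a power
of `π` (e.g. a discrete valuation ring, or a rank-one valuation ring with `π` in the maximal
ideal). -/
theorem exists_pow_forall_smul_mem (N M' : Submodule R M) (Z : Finset M)
    (hZ : M' ≤ N ⊔ span R (Z : Set M)) (π : R) (hπ : π ≠ 0)
    (harch : ∀ d : R, d ≠ 0 → ∃ r : ℕ, d ∣ π ^ r) :
    ∃ c : ℕ, ∀ (m : ℕ) (h : M), h ∈ M' → π ^ m • h ∈ N → π ^ c • h ∈ N := by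
  obtain ⟨a, ha0, ha⟩ := exists_ne_zero_forall_smul_mem N M' Z hZ
  obtain ⟨c, e, he⟩ := harch a ha0
  refine ⟨c, fun m h hh hm => ?_⟩
  have := ha h hh ⟨π ^ m, pow_ne_zero m hπ, hm⟩
  rw [he, mul_comm, mul_smul]
  exact N.smul_mem e this

end Torsion

section Cech

variable {A₀ F : Type*} [CommRing A₀] [CommRing F] [Algebra A₀ F]

/-- The `A₀`-span of the `j`-power multiples of a set `G`: the `A₀[j]`-module generated by `G`,
written without polynomials. -/
def jSpan (A₀ : Type*) {F : Type*} [CommRing A₀] [CommRing F] [Algebra A₀ F] (j : F)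
    (G : Set F) : Submodule A₀ F :=
  span A₀ {y | ∃ g ∈ G, ∃ n : ℕ, y = j ^ n * g}

theorem pow_mul_mem_jSpan (j : F) {G : Set F} {g : F} (hg : g ∈ G) (n : ℕ) :
    j ^ n * g ∈ jSpan A₀ j G :=
  subset_span ⟨g, hg, n, rfl⟩

theorem jSpan_mono (j : F) {G G' : Set F} (h : G ⊆ G') : jSpan A₀ j G ≤ jSpan A₀ j G' :=
  span_mono fun _ ⟨g, hg, n, hy⟩ => ⟨g, h hg, n, hy⟩

theorem mul_mem_jSpan (j : F) {G : Set F} {x : F} (hx : x ∈ jSpan A₀ j G) :
    j * x ∈ jSpan A₀ j G := by
  refine Submodule.span_induction (p := fun x _ => j * x ∈ jSpan A₀ j G) ?_ ?_ ?_ ?_ hx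
  · rintro _ ⟨g, hg, n, rfl⟩
    rw [← mul_assoc, ← pow_succ']
    exact pow_mul_mem_jSpan j hg (n + 1)
  · simp
  · intro x y _ _ hx hy; rw [mul_add]; exact Submodule.add_mem _ hx hy
  · intro r x _ hx; rw [mul_smul_comm]; exact Submodule.smul_mem _ _ hx

/-- A `j`-stable submodule containing `G` contains the `A₀[j]`-module generated by `G`. -/
theorem jSpan_le (j : F) {G : Set F} {L : Submodule A₀ F} (hG : G ⊆ L)
    (hj : ∀ x ∈ L, j * x ∈ L) : jSpan A₀ j G ≤ L := by
  refine span_le.mpr ?_
  rintro _ ⟨g, hg, n, rfl⟩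
  induction n with
  | zero => simpa using hG hg
  | succ n ih => rw [pow_succ', mul_assoc]; exact hj _ ih

/-- **(FG) The Čech cokernel of a two-chart bundle is finitely generated.**

`L0`, `L1 ≤ L01` are `A₀`-submodules of a ring `F`, `j` a unit of `F` with inverse `jinv`;
`L0` is stable under `j` and generated over `A₀[j]` by a finite set `G`; `L1` is stable under
`jinv`; every element of `L01` is pushed into `L0` by a power of `j` and every generator of `L0`
is pushed into `L1` by a power of `jinv`.  Then `L01 ≤ L0 + L1 + span Z` for a finite `Z`. -/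
theorem exists_finset_le_sup_span (j jinv : F) (hj : j * jinv = 1)
    (L0 L1 L01 : Submodule A₀ F)
    (hj0 : ∀ x ∈ L0, j * x ∈ L0) (hj1 : ∀ x ∈ L1, jinv * x ∈ L1)
    (G : Finset F) (hGL0 : ∀ g ∈ G, g ∈ L0) (hG : L0 ≤ jSpan A₀ j (G : Set F))
    (glue0 : ∀ h ∈ L01, ∃ n : ℕ, j ^ n * h ∈ L0)
    (glue1 : ∀ g ∈ G, ∃ k : ℕ, jinv ^ k * g ∈ L1) :
    ∃ Z : Finset F, L01 ≤ L0 ⊔ L1 ⊔ span A₀ (Z : Set F) := by
  classical
  choose! κ hκ using glue1
  -- the finite window
  let Z : Finset F := G.biUnion fun g => (Finset.range (κ g)).image fun i => jinv ^ i * g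
  refine ⟨Z, fun h hh => ?_⟩
  obtain ⟨n, hn⟩ := glue0 h hh
  have hjn : jinv ^ n * j ^ n = 1 := by rw [← mul_pow, mul_comm, hj, one_pow]
  have hh' : h = jinv ^ n * (j ^ n * h) := by rw [← mul_assoc, hjn, one_mul]
  rw [hh']
  -- it suffices to treat the generators of the `A₀`-span
  have key : ∀ y ∈ jSpan A₀ j (G : Set F), jinv ^ n * y ∈ L0 ⊔ L1 ⊔ span A₀ (Z : Set F) := by
    intro y hy
    refine Submodule.span_induction
      (p := fun y _ => jinv ^ n * y ∈ L0 ⊔ L1 ⊔ span A₀ (Z : Set F)) ?_ ?_ ?_ ?_ hy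
    · rintro _ ⟨g, hg, m, rfl⟩
      have hg' : g ∈ G := by exact_mod_cast hg
      rcases le_or_gt n m with hnm | hnm
      · -- `j ^ (m - n) * g ∈ L0`
        have : jinv ^ n * (j ^ m * g) = j ^ (m - n) * g := by
          obtain ⟨e, rfl⟩ := Nat.exists_eq_add_of_le hnm
          rw [pow_add, ← mul_assoc, ← mul_assoc, hjn, one_mul, Nat.add_sub_cancel_left]
        rw [this]
        refine mem_sup_left (mem_sup_left ?_)
        exact jSpan_le (A₀ := A₀) j (G := {g}) (by simpa using hGL0 g hg') hj0
          (pow_mul_mem_jSpan j (Set.mem_singleton g) _)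
      · -- `jinv ^ (n - m) * g`
        have : jinv ^ n * (j ^ m * g) = jinv ^ (n - m) * g := by
          obtain ⟨e, rfl⟩ := Nat.exists_eq_add_of_le hnm.le
          have hjm : jinv ^ m * j ^ m = 1 := by rw [← mul_pow, mul_comm, hj, one_pow]
          rw [Nat.add_sub_cancel_left, pow_add, mul_comm (jinv ^ m), mul_assoc, ← mul_assoc (jinv ^ m),
            hjm, one_mul]
        rw [this]
        rcases lt_or_ge (n - m) (κ g) with hlt | hge
        · refine mem_sup_right (subset_span ?_)
          simp only [Z, Finset.coe_biUnion, Finset.coe_image, Set.mem_iUnion, Set.mem_image,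
            Finset.mem_coe, Finset.mem_range]
          exact ⟨g, hg', n - m, hlt, rfl⟩
        · refine mem_sup_left (mem_sup_right ?_)
          obtain ⟨e, he⟩ := Nat.exists_eq_add_of_le hge
          rw [he, add_comm, pow_add, mul_assoc]
          have hbase := hκ g hg'
          clear he
          induction e with
          | zero => simpa using hbase
          | succ e ih => rw [pow_succ', mul_assoc]; exact hj1 _ ih
    · simp
    · intro x y _ _ hx hy; rw [mul_add]; exact Submodule.add_mem _ hx hy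
    · intro r x _ hx; rw [mul_smul_comm]; exact Submodule.smul_mem _ _ hx
  exact key _ (hG hn)

/-- **(NOE)** Over a noetherian base ring, a `j`-stable submodule of a finitely generated
`A₀[j]`-module is itself finitely generated over `A₀[j]`, with generators inside it. -/
theorem exists_finset_gens_of_le_span [IsNoetherianRing A₀] (j : F) (L0 : Submodule A₀ F)
    (hj0 : ∀ x ∈ L0, j * x ∈ L0) (G0 : Finset F) (hG0 : L0 ≤ jSpan A₀ j (G0 : Set F)) :
    ∃ G : Finset F, (∀ g ∈ G, g ∈ L0) ∧ L0 ≤ jSpan A₀ j (G : Set F) := by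
  classical
  -- the ring `B = A₀[j] ⊆ F`
  let B : Subalgebra A₀ F := Algebra.adjoin A₀ {j}
  have hBfin : B.FG := ⟨{j}, by simp [B]⟩
  have : Algebra.FiniteType A₀ B := (Subalgebra.fg_iff_finiteType B).mp hBfin
  have : IsNoetherianRing B := Algebra.FiniteType.isNoetherianRing A₀ B
  -- `jSpan` as a `B`-span
  have hjB : j ∈ B := Algebra.subset_adjoin (Set.mem_singleton j)
  have hBstab : ∀ (L : Submodule A₀ F), (∀ x ∈ L, j * x ∈ L) → ∀ b ∈ B, ∀ x ∈ L, b * x ∈ L := by
    intro L hL b hb
    refine Algebra.adjoin_induction (p := fun b _ => ∀ x ∈ L, b * x ∈ L) ?_ ?_ ?_ ?_ hb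
    · intro y hy x hx
      rw [Set.mem_singleton_iff.mp hy]; exact hL x hx
    · intro r x hx
      rw [← Algebra.smul_def]; exact L.smul_mem r hx
    · intro y z _ _ hy hz x hx
      rw [add_mul]; exact L.add_mem (hy x hx) (hz x hx)
    · intro y z _ _ hy hz x hx
      rw [mul_assoc]; exact hy _ (hz x hx)
  -- `L0` and the ambient module as `B`-submodules of `F`
  let toB : ∀ (L : Submodule A₀ F), (∀ x ∈ L, j * x ∈ L) → Submodule B F := fun L hL =>
    { carrier := L
      add_mem' := L.add_mem
      zero_mem' := L.zero_mem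
      smul_mem' := fun b x hx => hBstab L hL b b.2 x hx }
  let N : Submodule B F := span B (G0 : Set F)
  have hNle : ∀ x ∈ jSpan A₀ j (G0 : Set F), x ∈ N := by
    intro x hx
    refine Submodule.span_induction (p := fun x _ => x ∈ N) ?_ ?_ ?_ ?_ hx
    · rintro _ ⟨g, hg, n, rfl⟩
      have : j ^ n * g = (⟨j ^ n, B.pow_mem hjB n⟩ : B) • g := rfl
      rw [this]
      exact Submodule.smul_mem _ _ (subset_span hg)
    · exact N.zero_mem
    · intro x y _ _ hx hy; exact N.add_mem hx hy
    · intro r x _ hx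
      have : r • x = (algebraMap A₀ B r) • x := by
        rw [Algebra.smul_def]; rfl
      rw [this]; exact N.smul_mem _ hx
  have : IsNoetherian B N := isNoetherian_of_fg_of_noetherian N ⟨G0, rfl⟩
  let L0B : Submodule B F := toB L0 hj0
  have hL0N : L0B ≤ N := fun x hx => hNle x (hG0 hx)
  have hfg : L0B.FG := by
    have h1 : (Submodule.comap N.subtype L0B).FG := IsNoetherian.noetherian _
    have h2 := h1.map N.subtype
    rwa [Submodule.map_comap_subtype, inf_eq_right.mpr hL0N] at h2
  obtain ⟨G, hGspan⟩ := hfg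
  refine ⟨G, fun g hg => ?_, fun x hx => ?_⟩
  · have : g ∈ L0B := by rw [← hGspan]; exact subset_span hg
    exact this
  · have hx' : x ∈ span B (G : Set F) := by rw [hGspan]; exact hx
    refine Submodule.span_induction (p := fun x _ => x ∈ jSpan A₀ j (G : Set F)) ?_ ?_ ?_ ?_ hx'
    · intro g hg
      have := pow_mul_mem_jSpan (A₀ := A₀) j hg 0
      simpa using this
    · exact Submodule.zero_mem _
    · intro x y _ _ hx hy; exact Submodule.add_mem _ hx hy
    · intro b x _ hx
      exact hBstab (jSpan A₀ j (G : Set F)) (fun y hy => mul_mem_jSpan j hy) b b.2 x hx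

/-- **Bounded torsion of the Čech cokernel** (the hypothesis of the injectivity lemma of
route C), from: a noetherian domain `A₀` in which every nonzero element divides a power of `π`;
`L0` stable under `j` and contained in a finitely generated `A₀[j]`-module; `L1` stable under
`j⁻¹`; `L01 = ⋃ j⁻ⁿ L0`; every element of `L0` pushed into `L1` by a power of `j⁻¹`. -/
theorem bounded_torsion_of_le_span [IsDomain A₀] [IsNoetherianRing A₀]
    (j jinv : F) (hj : j * jinv = 1) (L0 L1 L01 : Submodule A₀ F)
    (hj0 : ∀ x ∈ L0, j * x ∈ L0) (hj1 : ∀ x ∈ L1, jinv * x ∈ L1)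
    (G0 : Finset F) (hG0 : L0 ≤ jSpan A₀ j (G0 : Set F))
    (glue0 : ∀ h ∈ L01, ∃ n : ℕ, j ^ n * h ∈ L0)
    (glue1 : ∀ g ∈ L0, ∃ k : ℕ, jinv ^ k * g ∈ L1)
    (π : A₀) (hπ : π ≠ 0) (harch : ∀ d : A₀, d ≠ 0 → ∃ r : ℕ, d ∣ π ^ r) :
    ∃ c : ℕ, ∀ (m : ℕ) (h : F), h ∈ L01 → π ^ m • h ∈ L0 ⊔ L1 → π ^ c • h ∈ L0 ⊔ L1 := by
  obtain ⟨G, hGL0, hG⟩ := exists_finset_gens_of_le_span j L0 hj0 G0 hG0
  obtain ⟨Z, hZ⟩ := exists_finset_le_sup_span j jinv hj L0 L1 L01 hj0 hj1 G hGL0 hG glue0
    (fun g hg => glue1 g (hGL0 g hg))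
  exact exists_pow_forall_smul_mem (L0 ⊔ L1) L01 Z hZ π hπ harch

end Cech

end Fermat.Agent.S19.helper2306
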