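import Mathlib
import Fermat.Prelude.Def_FLTPrelim_Ramification

set_option autoImplicit false

/-!
# S19-ORDER: the coordinate order (closure principle)

Route-independent brick of S19 (board #1645).

* `span_eq_top_of_separates`: a subring of functions on a finite set which separates points
  spans all functions (Lagrange interpolation).
* `mem_of_approx` (LATTICE CLOSURE): an equivariant function which is congruent modulo `ℓ ^ n`,
  for every `n`, to an element of a point-separating ring `Λ` of equivariant functions containing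
  the fixed integral constants, lies in `Λ`.
-/

namespace Fermat.Agent.S19.helper2532

section LatticeClosure

variable {Ω : Type*} [Field Ω]
variable {T : Type*} [Finite T]

/-- Lagrange interpolation: a subring of functions on a finite set separating points spans all
functions over the field. -/
theorem span_eq_top_of_separates (Λ : Subring (T → Ω))
    (hsep : ∀ t t' : T, t ≠ t' → ∃ φ ∈ Λ, φ t ≠ φ t') :
    Submodule.span Ω (Λ : Set (T → Ω)) = ⊤ := by
  classical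
  cases nonempty_fintype T
  have hspan : Subalgebra.toSubmodule (Algebra.adjoin Ω (Λ : Set (T → Ω))) =
      Submodule.span Ω (Λ : Set (T → Ω)) := by
    rw [Algebra.adjoin_eq_span]
    congr 1
    exact congrArg _ (Submonoid.closure_eq Λ.toSubmonoid)
  rw [← hspan, eq_top_iff]
  intro G _
  have hδ : ∀ t : T, (Pi.single t (1 : Ω) : T → Ω) ∈ Algebra.adjoin Ω (Λ : Set (T → Ω)) := by
    intro t
    choose! φ hφ using hsep t
    have hprod : (∏ t' ∈ Finset.univ.erase t,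
        ((φ t' t - φ t' t')⁻¹ • (φ t' - algebraMap Ω (T → Ω) (φ t' t')))) =
          Pi.single t (1 : Ω) := by
      funext u
      rw [Finset.prod_apply]
      by_cases hu : u = t
      · subst hu
        rw [Pi.single_eq_same]
        apply Finset.prod_eq_one
        intro t' ht'
        have hne : u ≠ t' := (Finset.ne_of_mem_erase ht').symm
        have h2 := (hφ t' hne).2
        simp only [Pi.smul_apply, Pi.sub_apply, Pi.algebraMap_apply, Algebra.algebraMap_self,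
          RingHom.id_apply, smul_eq_mul]
        exact inv_mul_cancel₀ (sub_ne_zero.mpr h2)
      · rw [Pi.single_eq_of_ne hu]
        apply Finset.prod_eq_zero (Finset.mem_erase.mpr ⟨hu, Finset.mem_univ u⟩)
        simp
    rw [← hprod]
    apply Subalgebra.prod_mem
    intro t' ht'
    have hne : t ≠ t' := (Finset.ne_of_mem_erase ht').symm
    exact Subalgebra.smul_mem _ (Subalgebra.sub_mem _ (Algebra.subset_adjoin (hφ t' hne).1)
      (Subalgebra.algebraMap_mem _ _)) _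
  have hG : G = ∑ t, G t • (Pi.single t (1 : Ω) : T → Ω) := by
    funext u
    simp [Finset.sum_apply, Pi.single_apply]
  rw [hG]
  exact Subalgebra.sum_mem _ (fun t _ => Subalgebra.smul_mem _ (hδ t) _)

/-- In a valuation ring with the archimedean property for `ℓ`, every element of the field is
`ℓ`-power bounded. -/
theorem exists_pow_mul_mem (A : ValuationSubring Ω) (ℓ : Ω) (hℓA : ℓ ∈ A)
    (harch : ∀ d ∈ A, d ≠ 0 → ∃ r : ℕ, ℓ ^ r * d⁻¹ ∈ A) (w : Ω) :
    ∃ r : ℕ, ∀ r' : ℕ, r ≤ r' → ℓ ^ r' * w ∈ A := by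
  have key : ∃ r : ℕ, ℓ ^ r * w ∈ A := by
    rcases A.mem_or_inv_mem w with hw | hw
    · exact ⟨0, by simpa using hw⟩
    · by_cases hw0 : w = 0
      · exact ⟨0, by simp [hw0, A.zero_mem]⟩
      · obtain ⟨r, hr⟩ := harch w⁻¹ hw (inv_ne_zero hw0)
        exact ⟨r, by simpa using hr⟩
  obtain ⟨r, hr⟩ := key
  refine ⟨r, fun r' hr' => ?_⟩
  obtain ⟨k, rfl⟩ := Nat.exists_eq_add_of_le hr'
  rw [pow_add, mul_comm (ℓ ^ r), mul_assoc]
  exact A.mul_mem _ _ (A.pow_mem hℓA k) hr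

variable {Γ : Type*} [Group Γ] [MulSemiringAction Γ Ω] [MulAction Γ T]

/-- LATTICE CLOSURE.  Let `Λ` be a ring of `Γ`-equivariant functions on a finite `Γ`-set `T`
which contains the `Γ`-fixed constants of the valuation ring `A` and separates points.  If an
equivariant function `F` is congruent modulo `ℓ ^ n` (pointwise, in `A`) to an element of `Λ`
for every `n`, then `F ∈ Λ`. -/
theorem mem_of_approx (A : ValuationSubring Ω) (ℓ : Ω) (hℓ0 : ℓ ≠ 0) (hℓA : ℓ ∈ A)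
    (harch : ∀ d ∈ A, d ≠ 0 → ∃ r : ℕ, ℓ ^ r * d⁻¹ ∈ A)
    (hℓΓ : ∀ s : Γ, s • ℓ = ℓ)
    (Λ : Subring (T → Ω))
    (hΛΓ : ∀ φ ∈ Λ, ∀ (s : Γ) (t : T), φ (s • t) = s • φ t)
    (hΛc : ∀ c ∈ A, (∀ s : Γ, s • c = c) → (fun _ : T => c) ∈ Λ)
    (hΛsep : ∀ t t' : T, t ≠ t' → ∃ φ ∈ Λ, φ t ≠ φ t')
    (F : T → Ω) (hFΓ : ∀ (s : Γ) (t : T), F (s • t) = s • F t)
    (hF : ∀ n : ℕ, ∃ φ ∈ Λ, ∀ t, ∃ a ∈ A, F t - φ t = ℓ ^ n * a) :
    F ∈ Λ := by
  classical
  cases nonempty_fintype T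
  have hs : ⊤ ≤ Submodule.span Ω (Λ : Set (T → Ω)) := (span_eq_top_of_separates Λ hΛsep).ge
  let b := Module.Basis.ofSpan hs
  have : Finite ((linearIndepOn_empty Ω id).extend (Set.empty_subset (Λ : Set (T → Ω)))) :=
    Module.Finite.finite_basis b
  cases nonempty_fintype ((linearIndepOn_empty Ω id).extend (Set.empty_subset (Λ : Set (T → Ω))))
  have hbΛ : ∀ i, b i ∈ Λ := fun i => Module.Basis.ofSpan_subset hs (Set.mem_range_self i)
  -- a uniform exponent for the change-of-basis matrix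
  choose R hR using fun p : ((linearIndepOn_empty Ω id).extend
      (Set.empty_subset (Λ : Set (T → Ω)))) × T =>
    exists_pow_mul_mem A ℓ hℓA harch (b.equivFun (Pi.single p.2 (1 : Ω)) p.1)
  let r := Finset.univ.sup R
  obtain ⟨φ, hφΛ, hφ⟩ := hF r
  choose a haA ha using hφ
  have hpow0 : ℓ ^ r ≠ 0 := pow_ne_zero r hℓ0
  -- `a` is equivariant
  have haΓ : ∀ (s : Γ) (t : T), a (s • t) = s • a t := by
    intro s t
    have h1 := ha (s • t)
    rw [hFΓ, hΛΓ φ hφΛ, ← smul_sub, ha t, smul_mul', smul_pow', hℓΓ] at h1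
    exact (mul_left_cancel₀ hpow0 h1).symm
  -- coefficients of `a` in the basis
  have hc_sum : ∑ i, b.equivFun a i • b i = a := b.sum_equivFun a
  -- the coefficients are `Γ`-fixed
  have hcΓ : ∀ (s : Γ) i, s • b.equivFun a i = b.equivFun a i := by
    intro s
    have h2 : ∑ i, (s • b.equivFun a i) • b i = a := by
      funext t
      have h3 : a t = s • a (s⁻¹ • t) := by rw [← haΓ, smul_inv_smul]
      rw [h3]
      conv_rhs => rw [← hc_sum]
      simp only [Finset.sum_apply, Pi.smul_apply, smul_eq_mul, Finset.smul_sum, smul_mul']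
      refine Finset.sum_congr rfl fun i _ => ?_
      rw [← hΛΓ (b i) (hbΛ i), smul_inv_smul]
    have h4 := congrArg b.equivFun h2
    rw [← b.equivFun_symm_apply, LinearEquiv.apply_symm_apply] at h4
    intro i
    exact congrFun h4 i
  -- integrality of `ℓ ^ r * c i`
  have hcA : ∀ i, ℓ ^ r * b.equivFun a i ∈ A := by
    intro i
    have ha' : a = ∑ t, a t • (Pi.single t (1 : Ω) : T → Ω) := by
      funext u
      simp [Finset.sum_apply, Pi.single_apply]
    have h5 : b.equivFun a i = ∑ t, a t * b.equivFun (Pi.single t (1 : Ω)) i := by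
      conv_lhs => rw [ha']
      simp [map_sum, Finset.sum_apply]
    rw [h5, Finset.mul_sum]
    refine A.sum_mem fun t _ => ?_
    have h6 := hR (i, t) r (Finset.le_sup (f := R) (Finset.mem_univ (i, t)))
    have h7 : ℓ ^ r * (a t * b.equivFun (Pi.single t (1 : Ω)) i) =
        a t * (ℓ ^ r * b.equivFun (Pi.single t (1 : Ω)) i) := by ring
    rw [h7]
    exact A.mul_mem _ _ (haA t) h6
  have hFeq : F = φ + ∑ i, (fun _ : T => ℓ ^ r * b.equivFun a i) * b i := by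
    funext t
    have h8 := ha t
    have h9 : a t = ∑ i, b.equivFun a i * b i t := by
      conv_lhs => rw [← hc_sum]
      simp [Finset.sum_apply]
    simp only [Pi.add_apply, Finset.sum_apply, Pi.mul_apply]
    rw [sub_eq_iff_eq_add'] at h8
    rw [h8, h9, Finset.mul_sum]
    congr 1
    exact Finset.sum_congr rfl fun i _ => by ring
  rw [hFeq]
  refine Λ.add_mem hφΛ (Λ.sum_mem fun i _ => Λ.mul_mem (hΛc _ (hcA i) fun s => ?_) (hbΛ i))
  rw [smul_mul', smul_pow', hℓΓ, hcΓ]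

end LatticeClosure

section Widening

variable {Ω : Type*} [Field Ω]

/-- The determinant of a matrix with entries in a valuation ring lies in it. -/
theorem det_mem_of_entries {T : Type*} [Fintype T] [DecidableEq T] (A : ValuationSubring Ω)
    (E : Matrix T T Ω) (hE : ∀ i j, E i j ∈ A) : E.det ∈ A := by
  rw [Matrix.det_apply]
  refine A.sum_mem fun σ _ => ?_
  have h : (∏ i, E (σ i) i) ∈ A := A.prod_mem fun i _ => hE _ _
  rcases Int.units_eq_one_or (Equiv.Perm.sign σ) with h1 | h1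
  · rw [h1, one_smul]; exact h
  · rw [h1, Units.neg_smul, one_smul]; exact A.neg_mem _ h

/-- Cramer's rule for rows. -/
theorem sum_det_updateRow_smul {T : Type*} [Fintype T] [DecidableEq T] (E : Matrix T T Ω)
    (φ : T → Ω) : ∑ j, (E.updateRow j φ).det • E j = E.det • φ := by
  have h := Matrix.mulVec_cramer E.transpose φ
  rw [Matrix.det_transpose] at h
  rw [← h]
  funext t
  simp only [Finset.sum_apply, Pi.smul_apply, smul_eq_mul, Matrix.mulVec, dotProduct,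
    Matrix.transpose_apply, Matrix.cramer_transpose_apply]
  exact Finset.sum_congr rfl fun j _ => mul_comm _ _

/-- Uniqueness of Cramer coefficients. -/
theorem det_updateRow_sum_smul {T : Type*} [Fintype T] [DecidableEq T] (E : Matrix T T Ω)
    (d : T → Ω) (j : T) : (E.updateRow j (∑ k, d k • E k)).det = d j * E.det := by
  exact Matrix.det_updateRow_sum E j d

/-- A point-separating ring of functions on a finite set contains the rows of an invertible
square matrix. -/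
theorem exists_matrix_of_separates {T : Type*} [Fintype T] [DecidableEq T]
    (Λ : Subring (T → Ω)) (hsep : ∀ t t' : T, t ≠ t' → ∃ φ ∈ Λ, φ t ≠ φ t') :
    ∃ E : Matrix T T Ω, (∀ j, E j ∈ Λ) ∧ E.det ≠ 0 := by
  have hs : ⊤ ≤ Submodule.span Ω (Λ : Set (T → Ω)) := (span_eq_top_of_separates Λ hsep).ge
  let b := Module.Basis.ofSpan hs
  have hfin : Finite ((linearIndepOn_empty Ω id).extend (Set.empty_subset (Λ : Set (T → Ω)))) :=
    Module.Finite.finite_basis b
  cases nonempty_fintype ((linearIndepOn_empty Ω id).extend (Set.empty_subset (Λ : Set (T → Ω))))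
  have hbΛ : ∀ i, b i ∈ Λ := fun i => Module.Basis.ofSpan_subset hs (Set.mem_range_self i)
  have hcard : Fintype.card T =
      Fintype.card ((linearIndepOn_empty Ω id).extend (Set.empty_subset (Λ : Set (T → Ω)))) := by
    rw [← Module.finrank_eq_card_basis b, Module.finrank_fintype_fun_eq_card]
  let e := Fintype.equivOfCardEq hcard
  refine ⟨Matrix.of fun j => b (e j), fun j => hbΛ (e j), ?_⟩
  have hli : LinearIndependent Ω (Matrix.of fun j => b (e j)).row :=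
    b.linearIndependent.comp e e.injective
  exact ((Matrix.isUnit_iff_isUnit_det _).mp (Matrix.linearIndependent_rows_iff_isUnit.mp hli)).ne_zero

/-- Cramer coordinates of a function with respect to the rows of a square matrix. -/
noncomputable def rowCoord {T : Type*} [Fintype T] [DecidableEq T] (E : Matrix T T Ω) :
    (T → Ω) →ₗ[Ω] (T → Ω) :=
  (E.det)⁻¹ • Matrix.cramer E.transpose

theorem rowCoord_apply {T : Type*} [Fintype T] [DecidableEq T] (E : Matrix T T Ω) (φ : T → Ω)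
    (j : T) : rowCoord E φ j = (E.det)⁻¹ * (E.updateRow j φ).det := by
  simp [rowCoord, Matrix.cramer_transpose_apply]

theorem sum_rowCoord_smul {T : Type*} [Fintype T] [DecidableEq T] (E : Matrix T T Ω)
    (hE : E.det ≠ 0) (φ : T → Ω) : ∑ j, rowCoord E φ j • E j = φ := by
  have h := sum_det_updateRow_smul E φ
  simp_rw [rowCoord_apply, mul_smul]
  rw [← Finset.smul_sum, h, smul_smul, inv_mul_cancel₀ hE, one_smul]

theorem rowCoord_sum_smul {T : Type*} [Fintype T] [DecidableEq T] (E : Matrix T T Ω)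
    (hE : E.det ≠ 0) (d : T → Ω) : rowCoord E (∑ k, d k • E k) = d := by
  funext j
  rw [rowCoord_apply, det_updateRow_sum_smul, mul_comm (d j), ← mul_assoc, inv_mul_cancel₀ hE,
    one_mul]

/-- Cramer coordinates of an equivariant function with respect to equivariant rows are fixed. -/
theorem smul_rowCoord {T : Type*} [Fintype T] [DecidableEq T] {Γ : Type*} [Group Γ]
    [MulSemiringAction Γ Ω] [MulAction Γ T] (E : Matrix T T Ω) (hE : E.det ≠ 0)
    (hEΓ : ∀ (j : T) (s : Γ) (t : T), E j (s • t) = s • E j t) (φ : T → Ω)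
    (hφ : ∀ (s : Γ) (t : T), φ (s • t) = s • φ t) (s : Γ) (j : T) :
    s • rowCoord E φ j = rowCoord E φ j := by
  have h2 : ∑ k, (s • rowCoord E φ k) • E k = φ := by
    funext t
    have h3 : φ t = s • φ (s⁻¹ • t) := by rw [← hφ, smul_inv_smul]
    rw [h3]
    conv_rhs => rw [← sum_rowCoord_smul E hE φ]
    simp only [Finset.sum_apply, Pi.smul_apply, smul_eq_mul, Finset.smul_sum, smul_mul']
    refine Finset.sum_congr rfl fun k _ => ?_
    rw [← hEΓ k, smul_inv_smul]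
  have h4 := rowCoord_sum_smul E hE (fun k => s • rowCoord E φ k)
  rw [h2] at h4
  exact (congrFun h4 j).symm

/-- REDUCED BASIS.  Let `Λ` be a point-separating ring of `A`-valued `Γ`-equivariant functions
on a finite `Γ`-set, and assume that every `Γ`-fixed non-unit of `A` is divisible by `ℓ`
(the fixed field is unramified).  Then `Λ` contains the rows of an invertible matrix `E` with
respect to which every element of `Λ` has Cramer coordinates in `A`. -/
theorem exists_reduced_matrix {T : Type*} [Fintype T] [DecidableEq T] (A : ValuationSubring Ω)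
    (ℓ : Ω) (hℓ0 : ℓ ≠ 0)
    (harch : ∀ d ∈ A, d ≠ 0 → ∃ r : ℕ, ℓ ^ r * d⁻¹ ∈ A)
    {Γ : Type*} [Group Γ] [MulSemiringAction Γ Ω] [MulAction Γ T]
    (hunr : ∀ x ∈ A, (∀ s : Γ, s • x = x) → x⁻¹ ∉ A → ∃ y ∈ A, x = ℓ * y)
    (Λ : Subring (T → Ω))
    (hΛA : ∀ φ ∈ Λ, ∀ t, φ t ∈ A)
    (hΛΓ : ∀ φ ∈ Λ, ∀ (s : Γ) (t : T), φ (s • t) = s • φ t)
    (hΛsep : ∀ t t' : T, t ≠ t' → ∃ φ ∈ Λ, φ t ≠ φ t') :
    ∃ E : Matrix T T Ω, (∀ j, E j ∈ Λ) ∧ E.det ≠ 0 ∧ ∀ φ ∈ Λ, ∀ j, rowCoord E φ j ∈ A := by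
  have hP : ∃ n : ℕ, ∃ E : Matrix T T Ω, (∀ j, E j ∈ Λ) ∧ ∃ u ∈ A, E.det * u = ℓ ^ n := by
    obtain ⟨E, hE, hdet⟩ := exists_matrix_of_separates Λ hΛsep
    have hdetA : E.det ∈ A := det_mem_of_entries A E fun i j => hΛA _ (hE i) j
    obtain ⟨r, hr⟩ := harch _ hdetA hdet
    exact ⟨r, E, hE, _, hr, by field_simp⟩
  classical
  obtain ⟨E, hE, u, hu, hdet⟩ := Nat.find_spec hP
  have hpow0 : ℓ ^ Nat.find hP ≠ 0 := pow_ne_zero _ hℓ0
  have hdet0 : E.det ≠ 0 := fun h => hpow0 (by rw [← hdet, h, zero_mul])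
  refine ⟨E, hE, hdet0, fun φ hφ j => ?_⟩
  by_contra hc
  set c := rowCoord E φ j with hcdef
  have hc0 : c ≠ 0 := fun h => hc (h ▸ A.zero_mem)
  have hcinv : c⁻¹ ∈ A := (A.mem_or_inv_mem c).resolve_left hc
  have hcΓ : ∀ s : Γ, s • c⁻¹ = c⁻¹ := by
    intro s
    rw [smul_inv'', smul_rowCoord E hdet0 (fun k => hΛΓ _ (hE k)) φ (hΛΓ φ hφ) s j]
  obtain ⟨y, hy, hcy⟩ := hunr c⁻¹ hcinv hcΓ (by rwa [inv_inv])
  -- the exchanged matrix
  have hE' : ∀ k, (E.updateRow j φ) k ∈ Λ := by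
    intro k
    by_cases hk : k = j
    · subst hk
      rw [Matrix.updateRow_self]
      exact hφ
    · rw [Matrix.updateRow_ne hk]
      exact hE k
  have hdet' : (E.updateRow j φ).det = c * E.det := by
    rw [hcdef, rowCoord_apply]
    field_simp
  rcases Nat.eq_zero_or_pos (Nat.find hP) with h0 | hpos
  · rw [h0, pow_zero] at hdet
    have h1 : c = u * (E.updateRow j φ).det := by
      rw [hcdef, rowCoord_apply, eq_inv_of_mul_eq_one_right hdet]
    apply hc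
    rw [h1]
    exact A.mul_mem _ _ hu (det_mem_of_entries A _ fun i k => hΛA _ (hE' i) k)
  · obtain ⟨n', hn'⟩ := Nat.exists_eq_succ_of_ne_zero hpos.ne'
    have h2 : ∃ E : Matrix T T Ω, (∀ j, E j ∈ Λ) ∧ ∃ u ∈ A, E.det * u = ℓ ^ n' := by
      refine ⟨E.updateRow j φ, hE', u * y, A.mul_mem _ _ hu hy, ?_⟩
      have h3 : ℓ ^ n' * ℓ = E.det * u := by rw [hdet, hn', pow_succ]
      have h4 : c * (ℓ * y) = 1 := by rw [← hcy, mul_inv_cancel₀ hc0]
      calc (E.updateRow j φ).det * (u * y) = (E.det * u) * (c * y) := by rw [hdet']; ring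
        _ = ℓ ^ n' * (c * (ℓ * y)) := by rw [← h3]; ring
        _ = ℓ ^ n' := by rw [h4, mul_one]
    have h5 := Nat.find_min' hP h2
    omega

/-- WIDENED LATTICE CLOSURE.  In the situation of `exists_reduced_matrix`, a `Γ`-equivariant
function which is congruent modulo `ℓ ^ n`, for every `n`, to an `A`-linear combination of
elements of `Λ` (an element of the `A`-algebra generated by `Λ`), lies in `Λ`. -/
theorem mem_of_approx_adjoin {T : Type*} [Finite T] (A : ValuationSubring Ω) (ℓ : Ω)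
    (hℓ0 : ℓ ≠ 0) (hℓA : ℓ ∈ A)
    (harch : ∀ d ∈ A, d ≠ 0 → ∃ r : ℕ, ℓ ^ r * d⁻¹ ∈ A)
    {Γ : Type*} [Group Γ] [MulSemiringAction Γ Ω] [MulAction Γ T]
    (hunr : ∀ x ∈ A, (∀ s : Γ, s • x = x) → x⁻¹ ∉ A → ∃ y ∈ A, x = ℓ * y)
    (Λ : Subring (T → Ω))
    (hΛA : ∀ φ ∈ Λ, ∀ t, φ t ∈ A)
    (hΛΓ : ∀ φ ∈ Λ, ∀ (s : Γ) (t : T), φ (s • t) = s • φ t)
    (hΛc : ∀ c ∈ A, (∀ s : Γ, s • c = c) → (fun _ : T => c) ∈ Λ)
    (hΛsep : ∀ t t' : T, t ≠ t' → ∃ φ ∈ Λ, φ t ≠ φ t')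
    (F : T → Ω) (hFΓ : ∀ (s : Γ) (t : T), F (s • t) = s • F t)
    (hF : ∀ n : ℕ, ∃ φ ∈ Algebra.adjoin A (Λ : Set (T → Ω)),
      ∀ t, ∃ a ∈ A, F t - φ t = ℓ ^ n * a) :
    F ∈ Λ := by
  classical
  cases nonempty_fintype T
  obtain ⟨E, hE, hdet0, hcoord⟩ := exists_reduced_matrix A ℓ hℓ0 harch hunr Λ hΛA hΛΓ hΛsep
  -- coordinates of the `A`-span of `Λ`
  have hspan' : ∀ φ ∈ Submodule.span A (Λ : Set (T → Ω)), ∀ j, rowCoord E φ j ∈ A := by
    intro φ h1
    induction h1 using Submodule.span_induction with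
    | mem x hx => exact hcoord x hx
    | zero =>
      intro j
      rw [map_zero]
      exact A.zero_mem
    | add x y _ _ hx hy =>
      intro j
      rw [map_add]
      exact A.add_mem _ _ (hx j) (hy j)
    | smul a x _ hx =>
      intro j
      have h3 : (a • x : T → Ω) = (a : Ω) • x := rfl
      rw [h3, map_smul]
      exact A.mul_mem _ _ a.2 (hx j)
  have hspan : ∀ φ ∈ Algebra.adjoin A (Λ : Set (T → Ω)), ∀ j, rowCoord E φ j ∈ A := by
    intro φ hφ
    have h2 : Subalgebra.toSubmodule (Algebra.adjoin A (Λ : Set (T → Ω))) =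
        Submodule.span A (Λ : Set (T → Ω)) := by
      rw [Algebra.adjoin_eq_span]
      congr 1
      exact congrArg _ (Submonoid.closure_eq Λ.toSubmonoid)
    refine hspan' φ ?_
    rw [← h2]
    exact hφ
  -- a uniform exponent for the coordinates of the indicator functions
  choose R hR using fun p : T × T =>
    exists_pow_mul_mem A ℓ hℓA harch (rowCoord E (Pi.single p.2 (1 : Ω)) p.1)
  let r := Finset.univ.sup R
  obtain ⟨φ, hφ, hφF⟩ := hF r
  choose a haA ha using hφF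
  have hFcoord : ∀ j, rowCoord E F j ∈ A := by
    intro j
    have h1 : F = φ + ℓ ^ r • a := by
      funext t
      simp only [Pi.add_apply, Pi.smul_apply, smul_eq_mul, ← ha t]
      ring
    have h2 : a = ∑ t, a t • (Pi.single t (1 : Ω) : T → Ω) := by
      funext u
      simp [Finset.sum_apply, Pi.single_apply]
    rw [h1, map_add, map_smul]
    refine A.add_mem _ _ (hspan φ hφ j) ?_
    rw [h2, map_sum]
    simp only [map_smul, Pi.smul_apply, Finset.sum_apply, smul_eq_mul, Finset.mul_sum]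
    refine A.sum_mem fun t _ => ?_
    have h6 := hR (j, t) r (Finset.le_sup (f := R) (Finset.mem_univ (j, t)))
    have h7 : ℓ ^ r * (a t * rowCoord E (Pi.single t (1 : Ω)) j) =
        a t * (ℓ ^ r * rowCoord E (Pi.single t (1 : Ω)) j) := by ring
    rw [h7]
    exact A.mul_mem _ _ (haA t) h6
  have hFfix : ∀ (s : Γ) (j : T), s • rowCoord E F j = rowCoord E F j :=
    fun s j => smul_rowCoord E hdet0 (fun k => hΛΓ _ (hE k)) F hFΓ s j
  rw [← sum_rowCoord_smul E hdet0 F]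
  refine Λ.sum_mem fun j _ => ?_
  have h8 : rowCoord E F j • E j = (fun _ : T => rowCoord E F j) * E j := by
    funext t
    simp
  rw [h8]
  exact Λ.mul_mem (hΛc _ (hFcoord j) (fun s => hFfix s j)) (hE j)

end Widening

section CoordOrder

variable {Ω : Type*} [Field Ω]

/-- Functions with values in the valuation ring `A`. -/
def valuedSubring (A : ValuationSubring Ω) (T : Type*) : Subring (T → Ω) where
  carrier := {φ | ∀ t, φ t ∈ A}
  mul_mem' ha hb t := A.mul_mem _ _ (ha t) (hb t)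
  one_mem' _ := A.one_mem
  add_mem' ha hb t := A.add_mem _ _ (ha t) (hb t)
  zero_mem' _ := A.zero_mem
  neg_mem' ha t := A.neg_mem _ (ha t)

/-- `Γ`-equivariant functions on a `Γ`-set. -/
def equivariantSubring (Γ : Type*) [Group Γ] [MulSemiringAction Γ Ω] (T : Type*)
    [MulAction Γ T] : Subring (T → Ω) where
  carrier := {φ | ∀ (s : Γ) (t : T), φ (s • t) = s • φ t}
  mul_mem' ha hb s t := by simp only [Pi.mul_apply, ha s t, hb s t, smul_mul']
  one_mem' s t := by simp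
  add_mem' ha hb s t := by simp only [Pi.add_apply, ha s t, hb s t, smul_add]
  zero_mem' s t := by simp
  neg_mem' ha s t := by simp only [Pi.neg_apply, ha s t, smul_neg]

/-- Functions on `M × M` which are finite sums of products `a(m) * b(m')` with `a, b ∈ H`. -/
def tensorSubring {M : Type*} (H : Subring (M → Ω)) : Subring (M × M → Ω) where
  carrier := {Φ | ∃ (ι : Type) (_ : Fintype ι) (a b : ι → M → Ω), (∀ i, a i ∈ H) ∧
    (∀ i, b i ∈ H) ∧ ∀ p : M × M, Φ p = ∑ i, a i p.1 * b i p.2}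
  mul_mem' := by
    rintro Φ Ψ ⟨ι₁, _, a₁, b₁, ha₁, hb₁, h₁⟩ ⟨ι₂, _, a₂, b₂, ha₂, hb₂, h₂⟩
    refine ⟨ι₁ × ι₂, inferInstance, fun i => a₁ i.1 * a₂ i.2, fun i => b₁ i.1 * b₂ i.2,
      fun i => H.mul_mem (ha₁ _) (ha₂ _), fun i => H.mul_mem (hb₁ _) (hb₂ _), fun p => ?_⟩
    rw [Pi.mul_apply, h₁ p, h₂ p, Finset.sum_mul_sum, Fintype.sum_prod_type]
    refine Finset.sum_congr rfl fun i _ => Finset.sum_congr rfl fun j _ => ?_
    simp only [Pi.mul_apply]
    ring
  one_mem' := ⟨Unit, inferInstance, fun _ => 1, fun _ => 1, fun _ => H.one_mem,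
    fun _ => H.one_mem, fun p => by simp⟩
  add_mem' := by
    rintro Φ Ψ ⟨ι₁, _, a₁, b₁, ha₁, hb₁, h₁⟩ ⟨ι₂, _, a₂, b₂, ha₂, hb₂, h₂⟩
    refine ⟨ι₁ ⊕ ι₂, inferInstance, Sum.elim a₁ a₂, Sum.elim b₁ b₂, ?_, ?_, fun p => ?_⟩
    · rintro (i | i)
      · exact ha₁ i
      · exact ha₂ i
    · rintro (i | i)
      · exact hb₁ i
      · exact hb₂ i
    · rw [Pi.add_apply, h₁ p, h₂ p, Fintype.sum_sum_type]
      simp
  zero_mem' := ⟨Empty, inferInstance, fun i => i.elim, fun i => i.elim, fun i => i.elim,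
    fun i => i.elim, fun p => by simp⟩
  neg_mem' := by
    rintro Φ ⟨ι₁, _, a₁, b₁, ha₁, hb₁, h₁⟩
    refine ⟨ι₁, inferInstance, fun i => -a₁ i, b₁, fun i => H.neg_mem (ha₁ i), hb₁, fun p => ?_⟩
    rw [Pi.neg_apply, h₁ p, ← Finset.sum_neg_distrib]
    refine Finset.sum_congr rfl fun i _ => ?_
    simp

theorem fst_mem_tensorSubring {M : Type*} (H : Subring (M → Ω)) {a : M → Ω} (ha : a ∈ H) :
    (fun p : M × M => a p.1) ∈ tensorSubring H :=
  ⟨Unit, inferInstance, fun _ => a, fun _ => 1, fun _ => ha, fun _ => H.one_mem,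
    fun p => by simp⟩

theorem snd_mem_tensorSubring {M : Type*} (H : Subring (M → Ω)) {b : M → Ω} (hb : b ∈ H) :
    (fun p : M × M => b p.2) ∈ tensorSubring H :=
  ⟨Unit, inferInstance, fun _ => 1, fun _ => b, fun _ => H.one_mem, fun _ => hb,
    fun p => by simp⟩

theorem exists_fin_of_mem_tensorSubring {M : Type*} (H : Subring (M → Ω)) {Φ : M × M → Ω}
    (hΦ : Φ ∈ tensorSubring H) :
    ∃ (n : ℕ) (a b : Fin n → M → Ω), (∀ i, a i ∈ H) ∧ (∀ i, b i ∈ H) ∧
      ∀ m m', Φ (m, m') = ∑ i, a i m * b i m' := by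
  obtain ⟨ι, _, a, b, ha, hb, h⟩ := hΦ
  refine ⟨Fintype.card ι, fun i => a ((Fintype.equivFin ι).symm i),
    fun i => b ((Fintype.equivFin ι).symm i), fun i => ha _, fun i => hb _, fun m m' => ?_⟩
  rw [h (m, m')]
  exact (Equiv.sum_comp (Fintype.equivFin ι).symm (fun i => a i m * b i m')).symm

/-- THE COORDINATE ORDER, core construction.

`M` a finite additive group with an additive action of `Γ`, embedded equivariantly in `J`;
`J1 ≤ J` a `Γ`-stable subgroup ("kernel of reduction") with a coordinate system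
`X : J1 → A ^ g` which is `Γ`-equivariant and injective; every element of `M` is congruent
modulo `J1` to a `Γ`-fixed centre; and the addition law is, for every `n`, given modulo `ℓ ^ n`
by a polynomial whose coefficients satisfy a predicate `C`.  The closure principle for the
coefficient class `C` is a hypothesis (`hclose`); the two instances are `mem_of_approx`
(`Γ`-fixed coefficients in `A`) and `mem_of_approx_adjoin` (arbitrary coefficients in `A`).
Then there is a subring `H0` of `M → Ω` of `A`-valued, `Γ`-equivariant functions, stable under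
the `Γ`-fixed constants of `A`, separating the points of `M` and closed under the addition law
(comultiplication). -/
theorem exists_coordinate_order_core (A : ValuationSubring Ω) (ℓ : Ω)
    {Γ : Type*} [Group Γ] [MulSemiringAction Γ Ω]
    {M : Type*} [AddCommGroup M] [Finite M] [DistribMulAction Γ M]
    {J : Type*} [AddCommGroup J] [DistribMulAction Γ J]
    (C : Ω → Prop)
    (hclose : ∀ Λ₂ : Subring (M × M → Ω), (∀ Φ ∈ Λ₂, ∀ p, Φ p ∈ A) →
      (∀ Φ ∈ Λ₂, ∀ (s : Γ) (p : M × M), Φ (s • p) = s • Φ p) →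
      (∀ c ∈ A, (∀ s : Γ, s • c = c) → (fun _ : M × M => c) ∈ Λ₂) →
      (∀ p p' : M × M, p ≠ p' → ∃ Φ ∈ Λ₂, Φ p ≠ Φ p') →
      ∀ F : M × M → Ω, (∀ (s : Γ) (p : M × M), F (s • p) = s • F p) →
        (∀ n : ℕ, ∃ Φ ∈ Subring.closure
            ((Λ₂ : Set (M × M → Ω)) ∪ {Φ | ∃ c, C c ∧ Φ = fun _ => c}),
          ∀ p, ∃ a ∈ A, F p - Φ p = ℓ ^ n * a) → F ∈ Λ₂)
    (ι : M →+ J) (hιinj : Function.Injective ι) (hι : ∀ (s : Γ) (m : M), ι (s • m) = s • ι m)
    (J1 : AddSubgroup J) (hJ1 : ∀ (s : Γ) (x : J), x ∈ J1 → s • x ∈ J1)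
    {g : ℕ} (X : J → Fin g → Ω)
    (hXval : ∀ x ∈ J1, ∀ i, X x i ∈ A)
    (hXeq : ∀ (s : Γ), ∀ x ∈ J1, ∀ i, X (s • x) i = s • X x i)
    (hXinj : ∀ x ∈ J1, ∀ x' ∈ J1, X x = X x' → x = x')
    (hcentre : ∀ m : M, ∃ y : J, (∀ s : Γ, s • y = y) ∧ ι m - y ∈ J1)
    (hlaw : ∀ y y' y'' : J, (∀ s : Γ, s • y = y) → (∀ s : Γ, s • y' = y') →
      (∀ s : Γ, s • y'' = y'') → y + y' - y'' ∈ J1 → ∀ (i : Fin g) (n : ℕ),
      ∃ P : MvPolynomial (Fin g ⊕ Fin g) Ω,
        (∀ d, C (P.coeff d)) ∧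
        ∀ m m' : M, ι m - y ∈ J1 → ι m' - y' ∈ J1 →
          ∃ a ∈ A, X (ι (m + m') - y'') i -
            MvPolynomial.eval (Sum.elim (X (ι m - y)) (X (ι m' - y'))) P = ℓ ^ n * a) :
    ∃ H0 : Subring (M → Ω),
      (∀ φ ∈ H0, ∀ m, φ m ∈ A) ∧
      (∀ φ ∈ H0, ∀ (s : Γ) (m : M), φ (s • m) = s • φ m) ∧
      (∀ c ∈ A, (∀ s : Γ, s • c = c) → ∀ φ ∈ H0, (fun m => c * φ m) ∈ H0) ∧
      (∀ m m' : M, m ≠ m' → ∃ φ ∈ H0, φ m ≠ φ m') ∧
      (∀ φ ∈ H0, ∃ (n : ℕ) (a b : Fin n → M → Ω), (∀ i, a i ∈ H0) ∧ (∀ i, b i ∈ H0) ∧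
        ∀ m m', φ (m + m') = ∑ i, a i m * b i m') := by
  classical
  cases nonempty_fintype M
  set K : AddSubgroup M := J1.comap ι with hK
  have : Fintype (M ⧸ K) := Fintype.ofFinite _
  -- `Γ` acts trivially on the cosets
  have hmk_smul : ∀ (s : Γ) (m : M), (QuotientAddGroup.mk (s • m) : M ⧸ K) =
      QuotientAddGroup.mk m := by
    intro s m
    obtain ⟨y, hy, hmy⟩ := hcentre m
    rw [QuotientAddGroup.eq, hK, AddSubgroup.mem_comap]
    have h1 : s • (ι m - y) ∈ J1 := hJ1 s _ hmy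
    rw [smul_sub, hy s, ← hι] at h1
    have h2 : ι (-(s • m) + m) = (ι m - y) - (ι (s • m) - y) := by
      rw [map_add, map_neg]; abel
    rw [h2]
    exact J1.sub_mem hmy h1
  -- centres of the cosets
  have hcentreQ : ∀ κ : M ⧸ K, ∃ y : J, (∀ s : Γ, s • y = y) ∧
      ∀ m : M, (QuotientAddGroup.mk m : M ⧸ K) = κ → ι m - y ∈ J1 := by
    intro κ
    obtain ⟨m0, rfl⟩ := QuotientAddGroup.mk_surjective κ
    obtain ⟨y, hy, hmy⟩ := hcentre m0
    refine ⟨y, hy, fun m hm => ?_⟩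
    have h1 : -m0 + m ∈ K := QuotientAddGroup.eq.mp hm.symm
    have h2 : ι (-m0 + m) ∈ J1 := h1
    have h3 : ι m - y = ι (-m0 + m) + (ι m0 - y) := by
      rw [map_add, map_neg]; abel
    rw [h3]
    exact J1.add_mem h2 hmy
  choose y hyfix hy using hcentreQ
  -- generators
  set ind : M ⧸ K → M → Ω := fun κ m => if (QuotientAddGroup.mk m : M ⧸ K) = κ then 1 else 0
    with hind
  set Xi : M ⧸ K → Fin g → M → Ω :=
    fun κ i m => if (QuotientAddGroup.mk m : M ⧸ K) = κ then X (ι m - y κ) i else 0 with hXi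
  set gens : Set (M → Ω) := {φ | ∃ c ∈ A, (∀ s : Γ, s • c = c) ∧ φ = fun _ => c} ∪
    {φ | ∃ κ, φ = ind κ} ∪ {φ | ∃ κ i, φ = Xi κ i} with hgens
  set H0 : Subring (M → Ω) := Subring.closure gens with hH0
  have hconst : ∀ c ∈ A, (∀ s : Γ, s • c = c) → (fun _ : M => c) ∈ H0 := fun c hc hcs =>
    Subring.subset_closure (Or.inl (Or.inl ⟨c, hc, hcs, rfl⟩))
  have hindmem : ∀ κ, ind κ ∈ H0 := fun κ =>
    Subring.subset_closure (Or.inl (Or.inr ⟨κ, rfl⟩))
  have hXimem : ∀ κ i, Xi κ i ∈ H0 := fun κ i =>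
    Subring.subset_closure (Or.inr ⟨κ, i, rfl⟩)
  -- integrality
  have hval : H0 ≤ valuedSubring A M := by
    rw [hH0, Subring.closure_le]
    rintro φ ((⟨c, hc, -, rfl⟩ | ⟨κ, rfl⟩) | ⟨κ, i, rfl⟩)
    · exact fun _ => hc
    · intro m
      show (if (QuotientAddGroup.mk m : M ⧸ K) = κ then (1 : Ω) else 0) ∈ A
      split_ifs
      · exact A.one_mem
      · exact A.zero_mem
    · intro m
      show (if (QuotientAddGroup.mk m : M ⧸ K) = κ then X (ι m - y κ) i else 0) ∈ A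
      split_ifs with h
      · exact hXval _ (hy κ m h) i
      · exact A.zero_mem
  -- equivariance
  have hequi : H0 ≤ equivariantSubring (Ω := Ω) Γ M := by
    rw [hH0, Subring.closure_le]
    rintro φ ((⟨c, hc, hcs, rfl⟩ | ⟨κ, rfl⟩) | ⟨κ, i, rfl⟩)
    · exact fun s _ => (hcs s).symm
    · intro s m
      show (if (QuotientAddGroup.mk (s • m) : M ⧸ K) = κ then (1 : Ω) else 0) =
        s • (if (QuotientAddGroup.mk m : M ⧸ K) = κ then (1 : Ω) else 0)
      rw [hmk_smul]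
      split_ifs
      · rw [smul_one]
      · rw [smul_zero]
    · intro s m
      show (if (QuotientAddGroup.mk (s • m) : M ⧸ K) = κ then X (ι (s • m) - y κ) i else 0) =
        s • (if (QuotientAddGroup.mk m : M ⧸ K) = κ then X (ι m - y κ) i else 0)
      rw [hmk_smul]
      split_ifs with h
      · rw [← hXeq s _ (hy κ m h) i, smul_sub, hyfix κ s, hι]
      · rw [smul_zero]
  -- separation
  have hsep : ∀ m m' : M, m ≠ m' → ∃ φ ∈ H0, φ m ≠ φ m' := by
    intro m m' hmm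
    by_cases hκ : (QuotientAddGroup.mk m : M ⧸ K) = QuotientAddGroup.mk m'
    · have hx : ι m - y (QuotientAddGroup.mk m) ≠ ι m' - y (QuotientAddGroup.mk m) := by
        intro h
        exact hmm (hιinj (sub_left_injective h))
      have hX : X (ι m - y (QuotientAddGroup.mk m)) ≠ X (ι m' - y (QuotientAddGroup.mk m)) :=
        fun h => hx (hXinj _ (hy _ m rfl) _ (hy _ m' hκ.symm) h)
      obtain ⟨i, hi⟩ := Function.ne_iff.mp hX
      refine ⟨Xi (QuotientAddGroup.mk m) i, hXimem _ i, ?_⟩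
      show (if (QuotientAddGroup.mk m : M ⧸ K) = QuotientAddGroup.mk m then
          X (ι m - y (QuotientAddGroup.mk m)) i else 0) ≠
        (if (QuotientAddGroup.mk m' : M ⧸ K) = QuotientAddGroup.mk m then
          X (ι m' - y (QuotientAddGroup.mk m)) i else 0)
      rw [if_pos rfl, if_pos hκ.symm]
      exact hi
    · refine ⟨ind (QuotientAddGroup.mk m), hindmem _, ?_⟩
      show (if (QuotientAddGroup.mk m : M ⧸ K) = QuotientAddGroup.mk m then (1 : Ω) else 0) ≠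
        (if (QuotientAddGroup.mk m' : M ⧸ K) = QuotientAddGroup.mk m then (1 : Ω) else 0)
      rw [if_pos rfl, if_neg (Ne.symm hκ)]
      exact one_ne_zero
  -- the tensor square
  set Λ₂ : Subring (M × M → Ω) := tensorSubring H0 with hΛ₂
  let addPull : (M → Ω) →+* (M × M → Ω) :=
    RingHom.pi fun p : M × M => Pi.evalRingHom (fun _ : M => Ω) (p.1 + p.2)
  have haddPull : ∀ (φ : M → Ω) (p : M × M), addPull φ p = φ (p.1 + p.2) := fun _ _ => rfl
  have hΛ₂equi : Λ₂ ≤ equivariantSubring (Ω := Ω) Γ (M × M) := by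
    rintro Φ ⟨ι₁, _, a, b, ha, hb, h⟩ s p
    rw [h, h, Finset.smul_sum]
    refine Finset.sum_congr rfl fun i _ => ?_
    rw [smul_mul', Prod.smul_fst, Prod.smul_snd, hequi (ha i) s p.1, hequi (hb i) s p.2]
  have hΛ₂const : ∀ c ∈ A, (∀ s : Γ, s • c = c) → (fun _ : M × M => c) ∈ Λ₂ :=
    fun c hc hcs => fst_mem_tensorSubring H0 (hconst c hc hcs)
  have hΛ₂val : Λ₂ ≤ valuedSubring A (M × M) := by
    rintro Φ ⟨ι₁, _, a, b, ha, hb, h⟩ p
    rw [h]
    exact A.sum_mem fun i _ => A.mul_mem _ _ (hval (ha i) p.1) (hval (hb i) p.2)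
  have hΛ₂sep : ∀ p p' : M × M, p ≠ p' → ∃ Φ ∈ Λ₂, Φ p ≠ Φ p' := by
    intro p p' hpp
    by_cases h1 : p.1 = p'.1
    · have h2 : p.2 ≠ p'.2 := fun h2 => hpp (Prod.ext h1 h2)
      obtain ⟨φ, hφ, hφne⟩ := hsep _ _ h2
      exact ⟨_, snd_mem_tensorSubring H0 hφ, hφne⟩
    · obtain ⟨φ, hφ, hφne⟩ := hsep _ _ h1
      exact ⟨_, fst_mem_tensorSubring H0 hφ, hφne⟩
  -- comultiplication
  have hcomul : H0 ≤ Λ₂.comap addPull := by
    rw [hH0, Subring.closure_le]
    rintro φ ((⟨c, hc, hcs, rfl⟩ | ⟨κ, rfl⟩) | ⟨κ, i, rfl⟩)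
    · exact hΛ₂const c hc hcs
    · -- indicators
      show addPull (ind κ) ∈ Λ₂
      have h1 : addPull (ind κ) = ∑ κ₁ : M ⧸ K,
          (fun p : M × M => ind κ₁ p.1) * (fun p : M × M => ind (κ - κ₁) p.2) := by
        funext p
        rw [haddPull, Finset.sum_apply]
        rw [Finset.sum_eq_single (QuotientAddGroup.mk p.1 : M ⧸ K)]
        · simp only [hind, Pi.mul_apply, if_true, one_mul, QuotientAddGroup.mk_add]
          congr 1
          rw [eq_iff_iff]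
          exact ⟨fun h => by rw [← h]; abel, fun h => by rw [h]; abel⟩
        · intro κ₁ _ hκ₁
          simp only [hind, Pi.mul_apply]
          rw [if_neg (Ne.symm hκ₁), zero_mul]
        · intro h
          exact absurd (Finset.mem_univ _) h
      rw [h1]
      exact Λ₂.sum_mem fun κ₁ _ => Λ₂.mul_mem (fst_mem_tensorSubring H0 (hindmem κ₁))
        (snd_mem_tensorSubring H0 (hindmem _))
    · -- coordinates: closure principle
      show addPull (Xi κ i) ∈ Λ₂
      refine hclose Λ₂ (fun Φ hΦ => hΛ₂val hΦ) (fun Φ hΦ => hΛ₂equi hΦ)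
        hΛ₂const hΛ₂sep (addPull (Xi κ i)) ?_ ?_
      · intro s p
        rw [haddPull, haddPull, Prod.smul_fst, Prod.smul_snd, ← smul_add]
        exact hequi (hXimem κ i) s _
      · intro n
        set S₂ : Subring (M × M → Ω) := Subring.closure
          ((Λ₂ : Set (M × M → Ω)) ∪ {Φ | ∃ c, C c ∧ Φ = fun _ => c}) with hS₂
        have hΛS : ∀ Φ ∈ Λ₂, Φ ∈ S₂ := fun Φ hΦ => Subring.subset_closure (Or.inl hΦ)
        have hCS : ∀ c, C c → (fun _ : M × M => c) ∈ S₂ :=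
          fun c hc => Subring.subset_closure (Or.inr ⟨c, hc, rfl⟩)
        -- the centres of the cosets `κ₁`, `κ - κ₁`, `κ`
        have hyy : ∀ κ₁ : M ⧸ K, y κ₁ + y (κ - κ₁) - y κ ∈ J1 := by
          intro κ₁
          obtain ⟨m₁, hm₁⟩ := QuotientAddGroup.mk_surjective κ₁
          obtain ⟨m₂, hm₂⟩ := QuotientAddGroup.mk_surjective (κ - κ₁)
          have h3 : (QuotientAddGroup.mk (m₁ + m₂) : M ⧸ K) = κ := by
            rw [QuotientAddGroup.mk_add, hm₁, hm₂]; abel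
          have h4 : y κ₁ + y (κ - κ₁) - y κ =
              (ι (m₁ + m₂) - y κ) - (ι m₁ - y κ₁) - (ι m₂ - y (κ - κ₁)) := by
            rw [map_add]; abel
          rw [h4]
          exact J1.sub_mem (J1.sub_mem (hy _ _ h3) (hy _ _ hm₁)) (hy _ _ hm₂)
        choose P hPcoef hPlaw using fun κ₁ : M ⧸ K =>
          hlaw (y κ₁) (y (κ - κ₁)) (y κ) (hyfix _) (hyfix _) (hyfix _) (hyy κ₁) i n
        let E : M ⧸ K → M × M → Ω := fun κ₁ p =>
          MvPolynomial.eval (Sum.elim (fun k => Xi κ₁ k p.1) (fun k => Xi (κ - κ₁) k p.2)) (P κ₁)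
        have hE : ∀ κ₁, E κ₁ ∈ S₂ := by
          intro κ₁
          have h5 : E κ₁ = ∑ d ∈ (P κ₁).support, (fun _ : M × M => (P κ₁).coeff d) *
              ∏ v : Fin g ⊕ Fin g, (fun p : M × M =>
                Sum.elim (fun k => Xi κ₁ k p.1) (fun k => Xi (κ - κ₁) k p.2) v) ^ (d v) := by
            funext p
            simp only [E, MvPolynomial.eval_eq', Finset.sum_apply, Pi.mul_apply,
              Finset.prod_apply, Pi.pow_apply]
          rw [h5]
          refine S₂.sum_mem fun d _ => S₂.mul_mem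
            (hCS _ (hPcoef κ₁ d)) (S₂.prod_mem fun v _ => S₂.pow_mem ?_ _)
          rcases v with k | k
          · exact hΛS _ (fst_mem_tensorSubring H0 (hXimem κ₁ k))
          · exact hΛS _ (snd_mem_tensorSubring H0 (hXimem (κ - κ₁) k))
        refine ⟨∑ κ₁ : M ⧸ K, (fun p : M × M => ind κ₁ p.1) *
          (fun p : M × M => ind (κ - κ₁) p.2) * E κ₁, ?_, ?_⟩
        · exact S₂.sum_mem fun κ₁ _ => S₂.mul_mem (S₂.mul_mem
            (hΛS _ (fst_mem_tensorSubring H0 (hindmem κ₁)))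
            (hΛS _ (snd_mem_tensorSubring H0 (hindmem _)))) (hE κ₁)
        · rintro ⟨m, m'⟩
          have h6 : (∑ κ₁ : M ⧸ K, (fun p : M × M => ind κ₁ p.1) *
              (fun p : M × M => ind (κ - κ₁) p.2) * E κ₁) (m, m') =
              ind (κ - QuotientAddGroup.mk m) m' * E (QuotientAddGroup.mk m) (m, m') := by
            rw [Finset.sum_apply, Finset.sum_eq_single (QuotientAddGroup.mk m : M ⧸ K)]
            · simp only [hind, Pi.mul_apply, if_true, one_mul]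
            · intro κ₁ _ hκ₁
              simp only [hind, Pi.mul_apply]
              rw [if_neg (Ne.symm hκ₁), zero_mul, zero_mul]
            · intro h
              exact absurd (Finset.mem_univ _) h
          rw [h6, haddPull]
          by_cases hκ : (QuotientAddGroup.mk m' : M ⧸ K) = κ - QuotientAddGroup.mk m
          · have hκ' : (QuotientAddGroup.mk (m + m') : M ⧸ K) = κ := by
              rw [QuotientAddGroup.mk_add, hκ]; abel
            obtain ⟨a, haA, ha⟩ := hPlaw (QuotientAddGroup.mk m) m m' (hy _ m rfl) (hy _ m' hκ)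
            refine ⟨a, haA, ?_⟩
            rw [← ha]
            simp only [hind, hXi, E, if_pos hκ, if_pos hκ', one_mul, if_true]
          · have hκ' : (QuotientAddGroup.mk (m + m') : M ⧸ K) ≠ κ := by
              intro h
              apply hκ
              rw [← h, QuotientAddGroup.mk_add]; abel
            refine ⟨0, A.zero_mem, ?_⟩
            simp only [hind, hXi, if_neg hκ, if_neg hκ', zero_mul, sub_zero, mul_zero]
  refine ⟨H0, fun φ hφ => hval hφ, fun φ hφ => hequi hφ, fun c hc hcs φ hφ => ?_, hsep,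
    fun φ hφ => ?_⟩
  · exact H0.mul_mem (hconst c hc hcs) hφ
  · obtain ⟨n, a, b, ha, hb, h⟩ := exists_fin_of_mem_tensorSubring H0 (hcomul hφ)
    exact ⟨n, a, b, ha, hb, fun m m' => by rw [← h m m', haddPull]⟩

/-- THE COORDINATE ORDER (closure principle), law with `Γ`-fixed coefficients.

Same data as `exists_coordinate_order_core`; the addition law is, for every `n`, given modulo
`ℓ ^ n` by a polynomial with `Γ`-fixed coefficients in `A`.  No hypothesis on the fixed field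
beyond the archimedean property of `ℓ` in `A`. -/
theorem exists_coordinate_order (A : ValuationSubring Ω) (ℓ : Ω)
    {Γ : Type*} [Group Γ] [MulSemiringAction Γ Ω]
    {M : Type*} [AddCommGroup M] [Finite M] [DistribMulAction Γ M]
    {J : Type*} [AddCommGroup J] [DistribMulAction Γ J]
    (hℓ0 : ℓ ≠ 0) (hℓA : ℓ ∈ A)
    (harch : ∀ d ∈ A, d ≠ 0 → ∃ r : ℕ, ℓ ^ r * d⁻¹ ∈ A)
    (hℓΓ : ∀ s : Γ, s • ℓ = ℓ)
    (ι : M →+ J) (hιinj : Function.Injective ι) (hι : ∀ (s : Γ) (m : M), ι (s • m) = s • ι m)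
    (J1 : AddSubgroup J) (hJ1 : ∀ (s : Γ) (x : J), x ∈ J1 → s • x ∈ J1)
    {g : ℕ} (X : J → Fin g → Ω)
    (hXval : ∀ x ∈ J1, ∀ i, X x i ∈ A)
    (hXeq : ∀ (s : Γ), ∀ x ∈ J1, ∀ i, X (s • x) i = s • X x i)
    (hXinj : ∀ x ∈ J1, ∀ x' ∈ J1, X x = X x' → x = x')
    (hcentre : ∀ m : M, ∃ y : J, (∀ s : Γ, s • y = y) ∧ ι m - y ∈ J1)
    (hlaw : ∀ y y' y'' : J, (∀ s : Γ, s • y = y) → (∀ s : Γ, s • y' = y') →
      (∀ s : Γ, s • y'' = y'') → y + y' - y'' ∈ J1 → ∀ (i : Fin g) (n : ℕ),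
      ∃ P : MvPolynomial (Fin g ⊕ Fin g) Ω,
        (∀ d, P.coeff d ∈ A ∧ ∀ s : Γ, s • P.coeff d = P.coeff d) ∧
        ∀ m m' : M, ι m - y ∈ J1 → ι m' - y' ∈ J1 →
          ∃ a ∈ A, X (ι (m + m') - y'') i -
            MvPolynomial.eval (Sum.elim (X (ι m - y)) (X (ι m' - y'))) P = ℓ ^ n * a) :
    ∃ H0 : Subring (M → Ω),
      (∀ φ ∈ H0, ∀ m, φ m ∈ A) ∧
      (∀ φ ∈ H0, ∀ (s : Γ) (m : M), φ (s • m) = s • φ m) ∧
      (∀ c ∈ A, (∀ s : Γ, s • c = c) → ∀ φ ∈ H0, (fun m => c * φ m) ∈ H0) ∧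
      (∀ m m' : M, m ≠ m' → ∃ φ ∈ H0, φ m ≠ φ m') ∧
      (∀ φ ∈ H0, ∃ (n : ℕ) (a b : Fin n → M → Ω), (∀ i, a i ∈ H0) ∧ (∀ i, b i ∈ H0) ∧
        ∀ m m', φ (m + m') = ∑ i, a i m * b i m') := by
  refine exists_coordinate_order_core A ℓ (fun c => c ∈ A ∧ ∀ s : Γ, s • c = c) ?_
    ι hιinj hι J1 hJ1 X hXval hXeq hXinj hcentre hlaw
  intro Λ₂ _ hequi hconst hsep F hF happ
  refine mem_of_approx (Γ := Γ) A ℓ hℓ0 hℓA harch hℓΓ Λ₂ hequi hconst hsep F hF fun n => ?_
  obtain ⟨Φ, hΦ, h⟩ := happ n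
  refine ⟨Φ, ?_, h⟩
  have hle : Subring.closure ((Λ₂ : Set (M × M → Ω)) ∪
      {Φ | ∃ c, (c ∈ A ∧ ∀ s : Γ, s • c = c) ∧ Φ = fun _ => c}) ≤ Λ₂ := by
    rw [Subring.closure_le]
    rintro Ψ (hΨ | ⟨c, ⟨hc, hcs⟩, rfl⟩)
    · exact hΨ
    · exact hconst c hc hcs
  exact hle hΦ

/-- THE COORDINATE ORDER (closure principle), law with arbitrary coefficients in `A`.

Same data as `exists_coordinate_order_core`; the addition law is, for every `n`, given modulo
`ℓ ^ n` by a polynomial with coefficients in `A` (not necessarily `Γ`-fixed).  The extra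
hypothesis `hunr` says that the fixed field is unramified: every `Γ`-fixed non-unit of `A` is
divisible by `ℓ` in `A`. -/
theorem exists_coordinate_order_int (A : ValuationSubring Ω) (ℓ : Ω)
    {Γ : Type*} [Group Γ] [MulSemiringAction Γ Ω]
    {M : Type*} [AddCommGroup M] [Finite M] [DistribMulAction Γ M]
    {J : Type*} [AddCommGroup J] [DistribMulAction Γ J]
    (hℓ0 : ℓ ≠ 0) (hℓA : ℓ ∈ A)
    (harch : ∀ d ∈ A, d ≠ 0 → ∃ r : ℕ, ℓ ^ r * d⁻¹ ∈ A)
    (hunr : ∀ x ∈ A, (∀ s : Γ, s • x = x) → x⁻¹ ∉ A → ∃ y ∈ A, x = ℓ * y)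
    (ι : M →+ J) (hιinj : Function.Injective ι) (hι : ∀ (s : Γ) (m : M), ι (s • m) = s • ι m)
    (J1 : AddSubgroup J) (hJ1 : ∀ (s : Γ) (x : J), x ∈ J1 → s • x ∈ J1)
    {g : ℕ} (X : J → Fin g → Ω)
    (hXval : ∀ x ∈ J1, ∀ i, X x i ∈ A)
    (hXeq : ∀ (s : Γ), ∀ x ∈ J1, ∀ i, X (s • x) i = s • X x i)
    (hXinj : ∀ x ∈ J1, ∀ x' ∈ J1, X x = X x' → x = x')
    (hcentre : ∀ m : M, ∃ y : J, (∀ s : Γ, s • y = y) ∧ ι m - y ∈ J1)
    (hlaw : ∀ y y' y'' : J, (∀ s : Γ, s • y = y) → (∀ s : Γ, s • y' = y') →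
      (∀ s : Γ, s • y'' = y'') → y + y' - y'' ∈ J1 → ∀ (i : Fin g) (n : ℕ),
      ∃ P : MvPolynomial (Fin g ⊕ Fin g) Ω,
        (∀ d, P.coeff d ∈ A) ∧
        ∀ m m' : M, ι m - y ∈ J1 → ι m' - y' ∈ J1 →
          ∃ a ∈ A, X (ι (m + m') - y'') i -
            MvPolynomial.eval (Sum.elim (X (ι m - y)) (X (ι m' - y'))) P = ℓ ^ n * a) :
    ∃ H0 : Subring (M → Ω),
      (∀ φ ∈ H0, ∀ m, φ m ∈ A) ∧
      (∀ φ ∈ H0, ∀ (s : Γ) (m : M), φ (s • m) = s • φ m) ∧
      (∀ c ∈ A, (∀ s : Γ, s • c = c) → ∀ φ ∈ H0, (fun m => c * φ m) ∈ H0) ∧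
      (∀ m m' : M, m ≠ m' → ∃ φ ∈ H0, φ m ≠ φ m') ∧
      (∀ φ ∈ H0, ∃ (n : ℕ) (a b : Fin n → M → Ω), (∀ i, a i ∈ H0) ∧ (∀ i, b i ∈ H0) ∧
        ∀ m m', φ (m + m') = ∑ i, a i m * b i m') := by
  refine exists_coordinate_order_core A ℓ (fun c => c ∈ A) ?_
    ι hιinj hι J1 hJ1 X hXval hXeq hXinj hcentre hlaw
  intro Λ₂ hval hequi hconst hsep F hF happ
  refine mem_of_approx_adjoin (Γ := Γ) A ℓ hℓ0 hℓA harch hunr Λ₂ hval hequi hconst hsep F hF
    fun n => ?_
  obtain ⟨Φ, hΦ, h⟩ := happ n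
  refine ⟨Φ, ?_, h⟩
  have hle : Subring.closure ((Λ₂ : Set (M × M → Ω)) ∪ {Φ | ∃ c, c ∈ A ∧ Φ = fun _ => c}) ≤
      (Algebra.adjoin A (Λ₂ : Set (M × M → Ω))).toSubring := by
    rw [Subring.closure_le]
    rintro Ψ (hΨ | ⟨c, hc, rfl⟩)
    · exact Algebra.subset_adjoin hΨ
    · exact (Algebra.adjoin A (Λ₂ : Set (M × M → Ω))).algebraMap_mem ⟨c, hc⟩
  exact hle hΦ

end CoordOrder

section FinsetLaw

variable {Ω : Type*} [Field Ω]

/-- Pairs of elements of `A` which are congruent modulo `c`. -/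
def congSubring (A : ValuationSubring Ω) (c : Ω) : Subring (Ω × Ω) where
  carrier := {p | p.1 ∈ A ∧ p.2 ∈ A ∧ ∃ a ∈ A, p.1 - p.2 = c * a}
  mul_mem' := by
    rintro x y ⟨hx1, hx2, a, ha, hxa⟩ ⟨hy1, hy2, b, hb, hyb⟩
    refine ⟨A.mul_mem _ _ hx1 hy1, A.mul_mem _ _ hx2 hy2, a * y.1 + x.2 * b,
      A.add_mem _ _ (A.mul_mem _ _ ha hy1) (A.mul_mem _ _ hx2 hb), ?_⟩
    simp only [Prod.fst_mul, Prod.snd_mul]
    have h : x.1 * y.1 - x.2 * y.2 = (x.1 - x.2) * y.1 + x.2 * (y.1 - y.2) := by ring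
    rw [h, hxa, hyb]
    ring
  one_mem' := ⟨A.one_mem, A.one_mem, 0, A.zero_mem, by simp⟩
  add_mem' := by
    rintro x y ⟨hx1, hx2, a, ha, hxa⟩ ⟨hy1, hy2, b, hb, hyb⟩
    refine ⟨A.add_mem _ _ hx1 hy1, A.add_mem _ _ hx2 hy2, a + b, A.add_mem _ _ ha hb, ?_⟩
    simp only [Prod.fst_add, Prod.snd_add]
    have h : x.1 + y.1 - (x.2 + y.2) = (x.1 - x.2) + (y.1 - y.2) := by ring
    rw [h, hxa, hyb]
    ring
  zero_mem' := ⟨A.zero_mem, A.zero_mem, 0, A.zero_mem, by simp⟩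
  neg_mem' := by
    rintro x ⟨hx1, hx2, a, ha, hxa⟩
    refine ⟨A.neg_mem _ hx1, A.neg_mem _ hx2, -a, A.neg_mem _ ha, ?_⟩
    simp only [Prod.fst_neg, Prod.snd_neg]
    have h : -x.1 - -x.2 = -(x.1 - x.2) := by ring
    rw [h, hxa]
    ring

/-- A polynomial with coefficients in `A` takes congruent values at congruent points of `A`. -/
theorem eval_sub_eval_mem {σ : Type*} (A : ValuationSubring Ω) (c : Ω)
    (P : MvPolynomial σ Ω) (hP : ∀ d, P.coeff d ∈ A) (u v : σ → Ω)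
    (huv : ∀ k, u k ∈ A ∧ v k ∈ A ∧ ∃ a ∈ A, u k - v k = c * a) :
    ∃ a ∈ A, MvPolynomial.eval u P - MvPolynomial.eval v P = c * a := by
  have h : (∑ d ∈ P.support, ((P.coeff d, P.coeff d) : Ω × Ω) *
      ∏ k ∈ d.support, ((u k, v k) : Ω × Ω) ^ d k) ∈ congSubring A c := by
    refine Subring.sum_mem _ fun d _ => Subring.mul_mem _ ?_ (Subring.prod_mem _ fun k _ =>
      Subring.pow_mem _ (huv k) _)
    exact ⟨hP d, hP d, 0, A.zero_mem, by simp⟩
  have h1 : (∑ d ∈ P.support, ((P.coeff d, P.coeff d) : Ω × Ω) *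
      ∏ k ∈ d.support, ((u k, v k) : Ω × Ω) ^ d k).1 = MvPolynomial.eval u P := by
    rw [MvPolynomial.eval_eq, Prod.fst_sum]
    refine Finset.sum_congr rfl fun d _ => ?_
    rw [Prod.fst_mul, Prod.fst_prod]
    simp
  have h2 : (∑ d ∈ P.support, ((P.coeff d, P.coeff d) : Ω × Ω) *
      ∏ k ∈ d.support, ((u k, v k) : Ω × Ω) ^ d k).2 = MvPolynomial.eval v P := by
    rw [MvPolynomial.eval_eq, Prod.snd_sum]
    refine Finset.sum_congr rfl fun d _ => ?_
    rw [Prod.snd_mul, Prod.snd_prod]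
    simp
  obtain ⟨-, -, a, ha, h3⟩ := h
  rw [h1, h2] at h3
  exact ⟨a, ha, h3⟩

/-- Composition of polynomial laws with coefficients in `A`. -/
theorem exists_comp_poly {g : ℕ} (A : ValuationSubring Ω)
    (P : Fin g → MvPolynomial (Fin g ⊕ Fin g) Ω) (hP : ∀ i d, (P i).coeff d ∈ A)
    (w : Fin g → Ω) (hw : ∀ k, w k ∈ A) (i : Fin g) :
    ∃ Q : MvPolynomial (Fin g ⊕ Fin g) Ω, (∀ d, Q.coeff d ∈ A) ∧
      ∀ u v : Fin g → Ω, MvPolynomial.eval (Sum.elim u v) Q =
        MvPolynomial.eval (Sum.elim (fun k => MvPolynomial.eval (Sum.elim u v) (P k)) w) (P i) := by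
  have hlift : ∀ k, ∃ P' : MvPolynomial (Fin g ⊕ Fin g) A, MvPolynomial.map A.subtype P' = P k := by
    intro k
    have h1 : P k ∈ Set.range (MvPolynomial.map A.subtype) := by
      rw [MvPolynomial.mem_range_map_iff_coeffs_subset]
      intro c hc
      obtain ⟨d, -, rfl⟩ := MvPolynomial.mem_coeffs_iff.mp hc
      exact ⟨⟨_, hP k d⟩, rfl⟩
    exact h1
  choose P' hP' using hlift
  let h' : Fin g ⊕ Fin g → MvPolynomial (Fin g ⊕ Fin g) A :=
    Sum.elim P' (fun k => MvPolynomial.C ⟨w k, hw k⟩)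
  refine ⟨MvPolynomial.map A.subtype (MvPolynomial.bind₁ h' (P' i)), fun d => ?_, fun u v => ?_⟩
  · rw [MvPolynomial.coeff_map]
    exact Subtype.property _
  · rw [MvPolynomial.map_bind₁, hP' i]
    have h2 := MvPolynomial.eval₂Hom_bind₁ (RingHom.id Ω) (Sum.elim u v)
      (fun j => MvPolynomial.map A.subtype (h' j)) (P i)
    have h3 : (fun j => MvPolynomial.eval₂Hom (RingHom.id Ω) (Sum.elim u v)
        (MvPolynomial.map A.subtype (h' j))) =
        Sum.elim (fun k => MvPolynomial.eval (Sum.elim u v) (P k)) w := by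
      funext j
      rcases j with k | k
      · simp only [h', Sum.elim_inl, hP' k]
        rfl
      · simp only [h', Sum.elim_inr, MvPolynomial.map_C]
        simp
    rw [h3] at h2
    exact h2

/-- CENTRES ADAPTER for the law.  If the addition law of a coordinate system `X` on `J1` holds
modulo `c` on every finite subset of `J1`, with polynomials over `A`, then it holds modulo `c`
in centre form: for centres `y, y', y''` with `y + y' - y'' ∈ J1` the coordinates of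
`ι (m + m') - y''` are polynomial over `A` in those of `ι m - y` and `ι m' - y'`. -/
theorem centre_law_of_finset_law (A : ValuationSubring Ω) (c : Ω)
    {M : Type*} [AddCommGroup M] [Finite M] {J : Type*} [AddCommGroup J]
    (ι : M →+ J) (J1 : AddSubgroup J) {g : ℕ} (X : J → Fin g → Ω)
    (hXval : ∀ x ∈ J1, ∀ i, X x i ∈ A)
    (hfin : ∀ T : Finset J, (∀ x ∈ T, x ∈ J1) →
      ∃ P : Fin g → MvPolynomial (Fin g ⊕ Fin g) Ω, (∀ i d, (P i).coeff d ∈ A) ∧
        ∀ x ∈ T, ∀ y ∈ T, ∀ i, ∃ w ∈ A,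
          X (x + y) i - MvPolynomial.eval (Sum.elim (X x) (X y)) (P i) = c * w)
    (y y' y'' : J) (hyy : y + y' - y'' ∈ J1) (i : Fin g) :
    ∃ Q : MvPolynomial (Fin g ⊕ Fin g) Ω, (∀ d, Q.coeff d ∈ A) ∧
      ∀ m m' : M, ι m - y ∈ J1 → ι m' - y' ∈ J1 →
        ∃ a ∈ A, X (ι (m + m') - y'') i -
          MvPolynomial.eval (Sum.elim (X (ι m - y)) (X (ι m' - y'))) Q = c * a := by
  classical
  cases nonempty_fintype M
  set w0 : J := y + y' - y'' with hw0
  let S : Finset J := Finset.univ.image (fun m : M => ι m - y) ∪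
    Finset.univ.image (fun m : M => ι m - y') ∪
    Finset.univ.image (fun p : M × M => (ι p.1 - y) + (ι p.2 - y')) ∪ {w0}
  obtain ⟨P, hP, hlawP⟩ := hfin (S.filter (· ∈ J1)) (fun x hx => (Finset.mem_filter.mp hx).2)
  obtain ⟨Q, hQ, hQeval⟩ := exists_comp_poly A P hP (X w0) (hXval w0 hyy) i
  refine ⟨Q, hQ, fun m m' hm hm' => ?_⟩
  have hz : (ι m - y) + (ι m' - y') ∈ J1 := J1.add_mem hm hm'
  have hxT : ι m - y ∈ S.filter (· ∈ J1) := by
    refine Finset.mem_filter.mpr ⟨?_, hm⟩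
    simp only [S, Finset.mem_union, Finset.mem_image, Finset.mem_univ, true_and,
      Finset.mem_singleton]
    exact Or.inl (Or.inl (Or.inl ⟨m, rfl⟩))
  have hx'T : ι m' - y' ∈ S.filter (· ∈ J1) := by
    refine Finset.mem_filter.mpr ⟨?_, hm'⟩
    simp only [S, Finset.mem_union, Finset.mem_image, Finset.mem_univ, true_and,
      Finset.mem_singleton]
    exact Or.inl (Or.inl (Or.inr ⟨m', rfl⟩))
  have hzT : (ι m - y) + (ι m' - y') ∈ S.filter (· ∈ J1) := by
    refine Finset.mem_filter.mpr ⟨?_, hz⟩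
    simp only [S, Finset.mem_union, Finset.mem_image, Finset.mem_univ, true_and,
      Finset.mem_singleton]
    exact Or.inl (Or.inr ⟨(m, m'), rfl⟩)
  have hwT : w0 ∈ S.filter (· ∈ J1) := by
    refine Finset.mem_filter.mpr ⟨?_, hyy⟩
    simp only [S, Finset.mem_union, Finset.mem_image, Finset.mem_univ, true_and,
      Finset.mem_singleton]
    exact Or.inr trivial
  have hsum : ι (m + m') - y'' = ((ι m - y) + (ι m' - y')) + w0 := by
    rw [hw0, map_add]
    abel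
  -- first application of the law
  have h1 : ∀ k, X ((ι m - y) + (ι m' - y')) k ∈ A ∧
      MvPolynomial.eval (Sum.elim (X (ι m - y)) (X (ι m' - y'))) (P k) ∈ A ∧
      ∃ a ∈ A, X ((ι m - y) + (ι m' - y')) k -
        MvPolynomial.eval (Sum.elim (X (ι m - y)) (X (ι m' - y'))) (P k) = c * a := by
    intro k
    obtain ⟨a, ha, hak⟩ := hlawP _ hxT _ hx'T k
    refine ⟨hXval _ hz k, ?_, a, ha, hak⟩
    rw [MvPolynomial.eval_eq]
    refine A.sum_mem fun d _ => A.mul_mem _ _ (hP k d) (A.prod_mem fun v _ => A.pow_mem ?_ _)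
    rcases v with v | v
    · exact hXval _ hm v
    · exact hXval _ hm' v
  -- second application of the law
  obtain ⟨a2, ha2, h2⟩ := hlawP _ hzT _ hwT i
  -- substitution
  obtain ⟨a3, ha3, h3⟩ := eval_sub_eval_mem A c (P i) (hP i)
    (Sum.elim (X ((ι m - y) + (ι m' - y'))) (X w0))
    (Sum.elim (fun k => MvPolynomial.eval (Sum.elim (X (ι m - y)) (X (ι m' - y'))) (P k)) (X w0))
    (by
      rintro (k | k)
      · exact h1 k
      · exact ⟨hXval _ hyy k, hXval _ hyy k, 0, A.zero_mem, by simp⟩)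
  refine ⟨a2 + a3, A.add_mem _ _ ha2 ha3, ?_⟩
  rw [hsum, hQeval, mul_add, ← h2, ← h3]
  ring


/-- THE COORDINATE ORDER from a coordinate system whose addition law is given on finite subsets
of the kernel of reduction (the shape delivered by a geometric core): `X` is an `A`-valued,
`Γ`-equivariant, injective coordinate system on the `Γ`-stable subgroup `J1 ≤ J`, every element
of the finite module `M ⊆ J` has a `Γ`-fixed centre modulo `J1`, and for every `n` and every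
finite `T ⊆ J1` the coordinates of `x + y` (`x, y ∈ T`) are, modulo `ℓ ^ n`, polynomials with
coefficients in `A` in the coordinates of `x` and `y`. -/
theorem exists_coordinate_order_of_finset_law (A : ValuationSubring Ω) (ℓ : Ω)
    {Γ : Type*} [Group Γ] [MulSemiringAction Γ Ω]
    {M : Type*} [AddCommGroup M] [Finite M] [DistribMulAction Γ M]
    {J : Type*} [AddCommGroup J] [DistribMulAction Γ J]
    (hℓ0 : ℓ ≠ 0) (hℓA : ℓ ∈ A)
    (harch : ∀ d ∈ A, d ≠ 0 → ∃ r : ℕ, ℓ ^ r * d⁻¹ ∈ A)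
    (hunr : ∀ x ∈ A, (∀ s : Γ, s • x = x) → x⁻¹ ∉ A → ∃ y ∈ A, x = ℓ * y)
    (ι : M →+ J) (hιinj : Function.Injective ι) (hι : ∀ (s : Γ) (m : M), ι (s • m) = s • ι m)
    (J1 : AddSubgroup J) (hJ1 : ∀ (s : Γ) (x : J), x ∈ J1 → s • x ∈ J1)
    {g : ℕ} (X : J → Fin g → Ω)
    (hXval : ∀ x ∈ J1, ∀ i, X x i ∈ A)
    (hXeq : ∀ (s : Γ), ∀ x ∈ J1, ∀ i, X (s • x) i = s • X x i)
    (hXinj : ∀ x ∈ J1, ∀ x' ∈ J1, X x = X x' → x = x')
    (hcentre : ∀ m : M, ∃ y : J, (∀ s : Γ, s • y = y) ∧ ι m - y ∈ J1)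
    (hlaw : ∀ (n : ℕ) (T : Finset J), (∀ x ∈ T, x ∈ J1) →
      ∃ P : Fin g → MvPolynomial (Fin g ⊕ Fin g) Ω, (∀ i d, (P i).coeff d ∈ A) ∧
        ∀ x ∈ T, ∀ y ∈ T, ∀ i, ∃ w ∈ A,
          X (x + y) i - MvPolynomial.eval (Sum.elim (X x) (X y)) (P i) = ℓ ^ n * w) :
    ∃ H0 : Subring (M → Ω),
      (∀ φ ∈ H0, ∀ m, φ m ∈ A) ∧
      (∀ φ ∈ H0, ∀ (s : Γ) (m : M), φ (s • m) = s • φ m) ∧
      (∀ c ∈ A, (∀ s : Γ, s • c = c) → ∀ φ ∈ H0, (fun m => c * φ m) ∈ H0) ∧
      (∀ m m' : M, m ≠ m' → ∃ φ ∈ H0, φ m ≠ φ m') ∧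
      (∀ φ ∈ H0, ∃ (n : ℕ) (a b : Fin n → M → Ω), (∀ i, a i ∈ H0) ∧ (∀ i, b i ∈ H0) ∧
        ∀ m m', φ (m + m') = ∑ i, a i m * b i m') :=
  exists_coordinate_order_int A ℓ hℓ0 hℓA harch hunr ι hιinj hι J1 hJ1 X hXval hXeq hXinj hcentre
    (fun y y' y'' _ _ _ hyy i n =>
      centre_law_of_finset_law A (ℓ ^ n) ι J1 X hXval (hlaw n) y y' y'' hyy i)

end FinsetLaw

section Concrete

/-- The archimedean property used by `mem_of_approx`, for a valuation ring of a field of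
characteristic zero all of whose elements are algebraic over `ℤ`, lying over a prime `l`. -/
theorem exists_pow_mul_inv_mem_of_isAlgebraic {Ω : Type*} [Field Ω]
    (halg : ∀ x : Ω, IsAlgebraic ℤ x)
    (A : ValuationSubring Ω) (l : ℕ) (hl : l.Prime) (hlA : (l : Ω) ∈ A.nonunits)
    (d : Ω) : ∃ r : ℕ, (l : Ω) ^ r * d⁻¹ ∈ A := by
  obtain ⟨n, hn0, hn⟩ := (halg d⁻¹).exists_integral_multiple
  have hmem : n • d⁻¹ ∈ A := by
    have h1 : IsIntegral A (n • d⁻¹) := hn.tower_top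
    obtain ⟨y, hy⟩ := IsIntegrallyClosed.isIntegral_iff.mp h1
    rw [← hy]
    exact y.2
  obtain ⟨e, n', hn', hnn⟩ :=
    Nat.exists_eq_pow_mul_and_not_dvd (Int.natAbs_ne_zero.mpr hn0) l hl.ne_one
  -- `n'` is a unit of `A`
  have hunit : IsUnit ((n' : ℕ) : A) := by
    by_contra hnu
    have h1 : ((n' : ℕ) : A) ∈ IsLocalRing.maximalIdeal A :=
      (IsLocalRing.mem_maximalIdeal _).mpr hnu
    have h2 : ((l : ℕ) : A) ∈ IsLocalRing.maximalIdeal A := by
      obtain ⟨ha, hmem'⟩ := ValuationSubring.mem_nonunits_iff_exists_mem_maximalIdeal.mp hlA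
      have h3 : ((l : ℕ) : A) = ⟨(l : Ω), ha⟩ := Subtype.ext (by simp)
      rw [h3]
      exact hmem'
    have hcop : IsCoprime (n' : ℤ) (l : ℤ) :=
      Nat.isCoprime_iff_coprime.mpr ((Nat.Prime.coprime_iff_not_dvd hl).mpr hn').symm
    obtain ⟨u, w, huw⟩ := hcop
    have h4 : (1 : A) = (u : A) * ((n' : ℕ) : A) + (w : A) * ((l : ℕ) : A) := by
      have h5 := congrArg (Int.cast : ℤ → A) huw
      push_cast at h5
      exact h5.symm
    have h6 : (1 : A) ∈ IsLocalRing.maximalIdeal A := by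
      rw [h4]
      exact Ideal.add_mem _ (Ideal.mul_mem_left _ _ h1) (Ideal.mul_mem_left _ _ h2)
    exact (Ideal.ne_top_iff_one _).mp (IsLocalRing.maximalIdeal.isMaximal A).ne_top h6
  obtain ⟨v, hv⟩ := hunit
  have hn'inv : ((n' : Ω))⁻¹ ∈ A := by
    have h7 : ((↑(v⁻¹ : Aˣ) : A) : Ω) = ((n' : Ω))⁻¹ := by
      have h8 : (((n' : ℕ) : A) : Ω) * ((↑(v⁻¹ : Aˣ) : A) : Ω) = 1 := by
        rw [← hv]
        have h9 : ((v : A) * (↑(v⁻¹ : Aˣ) : A)) = 1 := Units.mul_inv v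
        exact_mod_cast congrArg (fun x : A => (x : Ω)) h9
      have h10 : (((n' : ℕ) : A) : Ω) = (n' : Ω) := by simp
      rw [h10] at h8
      exact eq_inv_of_mul_eq_one_right h8
    rw [← h7]
    exact (↑(v⁻¹ : Aˣ) : A).2
  refine ⟨e, ?_⟩
  have hnabs : ((n.natAbs : ℕ) : Ω) = (l : Ω) ^ e * (n' : Ω) := by
    rw [hnn]; push_cast; ring
  have hn'0 : (n' : Ω) ≠ 0 := by
    intro h
    rw [h, inv_zero] at hn'inv
    -- then `n' = 0` in a field where ... use that `n'` is a unit of `A`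
    have h11 : (((n' : ℕ) : A) : Ω) = 0 := by simpa using h
    have h12 : ((n' : ℕ) : A) = 0 := Subtype.ext (by simpa using h11)
    rw [← hv] at h12
    exact v.ne_zero h12
  rw [zsmul_eq_mul] at hmem
  rcases Int.natAbs_eq n with h | h
  · have h13 : (l : Ω) ^ e * d⁻¹ = ((n' : Ω))⁻¹ * ((n : Ω) * d⁻¹) := by
      have h14 : (n : Ω) = (l : Ω) ^ e * (n' : Ω) := by
        rw [← hnabs]
        have h15 : ((n : ℤ) : Ω) = (((n.natAbs : ℕ) : ℤ) : Ω) := congrArg (Int.cast : ℤ → Ω) h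
        rw [h15, Int.cast_natCast]
      rw [h14]
      field_simp
    rw [h13]
    exact A.mul_mem _ _ hn'inv hmem
  · have h13 : (l : Ω) ^ e * d⁻¹ = -(((n' : Ω))⁻¹ * ((n : Ω) * d⁻¹)) := by
      have h14 : (n : Ω) = -((l : Ω) ^ e * (n' : Ω)) := by
        rw [← hnabs]
        have h15 : ((n : ℤ) : Ω) = ((-((n.natAbs : ℕ) : ℤ) : ℤ) : Ω) :=
          congrArg (Int.cast : ℤ → Ω) h
        rw [h15, Int.cast_neg, Int.cast_natCast]
      rw [h14]
      field_simp
    rw [h13]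
    exact A.neg_mem _ (A.mul_mem _ _ hn'inv hmem)

/-! ### The instance `Ω = ℚ̄`, `Γ =` inertia, and closure under the decomposition group -/

open scoped Pointwise

local notation "Qb" => AlgebraicClosure ℚ
local notation "G" => (AlgebraicClosure ℚ ≃ₐ[ℚ] AlgebraicClosure ℚ)

theorem isAlgebraic_int_Qb (x : Qb) : IsAlgebraic ℤ x :=
  (IsFractionRing.isAlgebraic_iff ℤ ℚ Qb).mpr ((AlgebraicClosure.isAlgebraic ℚ).isAlgebraic x)

/-- The decomposition group preserves the valuation ring. -/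
theorem decomp_apply_mem (A : ValuationSubring Qb) {s : G}
    (hs : s ∈ A.decompositionSubgroup ℚ) {a : Qb} (ha : a ∈ A) : s a ∈ A := by
  have h : s • A = A := hs
  have h2 := ValuationSubring.smul_mem_pointwise_smul s a A ha
  rw [h] at h2
  exact h2

/-- Inertia is contained in the decomposition group. -/
theorem inertia_mem_decomp (A : ValuationSubring Qb) {t : G}
    (ht : t ∈ A.inertiaSubgroupIn ℚ) : t ∈ A.decompositionSubgroup ℚ := by
  obtain ⟨t', -, rfl⟩ := ht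
  exact t'.2

/-- Inertia is normal in the decomposition group. -/
theorem inertia_conj_mem (A : ValuationSubring Qb) {s t : G}
    (hs : s ∈ A.decompositionSubgroup ℚ) (ht : t ∈ A.inertiaSubgroupIn ℚ) :
    s⁻¹ * t * s ∈ A.inertiaSubgroupIn ℚ := by
  obtain ⟨t', ht', rfl⟩ := ht
  have hn : (A.inertiaSubgroup ℚ).Normal := MonoidHom.normal_ker _
  have h1 := hn.conj_mem t' ht' (⟨s, hs⟩ : A.decompositionSubgroup ℚ)⁻¹
  refine ⟨_, h1, ?_⟩
  simp

variable {M : Type*}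

/-- Conjugation of functions by a Galois element, as a ring homomorphism. -/
noncomputable def conjFun [MulAction G M] (s : G) : (M → Qb) →+* (M → Qb) where
  toFun φ := fun m => s (φ (s⁻¹ • m))
  map_one' := by funext m; simp
  map_mul' φ ψ := by funext m; simp
  map_zero' := by funext m; simp
  map_add' φ ψ := by funext m; simp

theorem conjFun_apply [MulAction G M] (s : G) (φ : M → Qb) (m : M) :
    conjFun s φ m = s (φ (s⁻¹ • m)) := rfl

/-- CLOSURE UNDER THE DECOMPOSITION GROUP.  A ring `H0` of `A`-valued, inertia-equivariant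
functions on a Galois module `M`, stable under the inertia-fixed constants of `A`, separating
points and closed under the addition law, is contained in one which is moreover stable under
the decomposition group. -/
theorem exists_decomp_closure (A : ValuationSubring Qb) [AddCommGroup M] [DistribMulAction G M]
    (H0 : Subring (M → Qb))
    (hval : ∀ φ ∈ H0, ∀ m, φ m ∈ A)
    (hI : ∀ φ ∈ H0, ∀ s ∈ A.inertiaSubgroupIn ℚ, ∀ m, φ (s • m) = s (φ m))
    (hR0 : ∀ c ∈ A, (∀ s ∈ A.inertiaSubgroupIn ℚ, s c = c) → ∀ φ ∈ H0, (fun m => c * φ m) ∈ H0)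
    (hsep : ∀ m m', m ≠ m' → ∃ φ ∈ H0, φ m ≠ φ m')
    (hadd : ∀ φ ∈ H0, ∃ (n : ℕ) (a b : Fin n → M → Qb), (∀ i, a i ∈ H0) ∧ (∀ i, b i ∈ H0) ∧
      ∀ m m', φ (m + m') = ∑ i, a i m * b i m') :
    ∃ H1 : Subring (M → Qb), H0 ≤ H1 ∧
      (∀ φ ∈ H1, ∀ m, φ m ∈ A) ∧
      (∀ φ ∈ H1, ∀ s ∈ A.inertiaSubgroupIn ℚ, ∀ m, φ (s • m) = s (φ m)) ∧
      (∀ φ ∈ H1, ∀ s ∈ A.decompositionSubgroup ℚ, (fun m => s (φ (s⁻¹ • m))) ∈ H1) ∧
      (∀ c ∈ A, (∀ s ∈ A.inertiaSubgroupIn ℚ, s c = c) → ∀ φ ∈ H1, (fun m => c * φ m) ∈ H1) ∧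
      (∀ m m', m ≠ m' → ∃ φ ∈ H1, φ m ≠ φ m') ∧
      (∀ φ ∈ H1, ∃ (n : ℕ) (a b : Fin n → M → Qb), (∀ i, a i ∈ H1) ∧ (∀ i, b i ∈ H1) ∧
        ∀ m m', φ (m + m') = ∑ i, a i m * b i m') := by
  classical
  set gens : Set (M → Qb) :=
    {ψ | ∃ s ∈ A.decompositionSubgroup ℚ, ∃ φ ∈ H0, ψ = conjFun s φ} with hgens
  set H1 : Subring (M → Qb) := Subring.closure gens with hH1
  have hgen : ∀ s ∈ A.decompositionSubgroup ℚ, ∀ φ ∈ H0, conjFun s φ ∈ H1 :=
    fun s hs φ hφ => Subring.subset_closure ⟨s, hs, φ, hφ, rfl⟩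
  have hle : H0 ≤ H1 := by
    intro φ hφ
    have h1 : conjFun (1 : G) φ = φ := by
      funext m
      simp [conjFun_apply]
    rw [← h1]
    exact hgen 1 (Subgroup.one_mem _) φ hφ
  have hval1 : ∀ φ ∈ H1, ∀ m, φ m ∈ A := by
    have h1 : H1 ≤ valuedSubring A M := by
      rw [hH1, Subring.closure_le]
      rintro ψ ⟨s, hs, φ, hφ, rfl⟩ m
      exact decomp_apply_mem A hs (hval φ hφ _)
    exact fun φ hφ => h1 hφ
  have hI1 : ∀ φ ∈ H1, ∀ s ∈ A.inertiaSubgroupIn ℚ, ∀ m, φ (s • m) = s (φ m) := by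
    intro φ hφ
    induction hφ using Subring.closure_induction with
    | mem ψ hψ =>
      obtain ⟨s, hs, φ, hφ, rfl⟩ := hψ
      intro t ht m
      have h1 := hI φ hφ _ (inertia_conj_mem A hs ht) (s⁻¹ • m)
      rw [conjFun_apply, conjFun_apply]
      have h2 : s⁻¹ • t • m = (s⁻¹ * t * s) • s⁻¹ • m := by
        rw [← mul_smul, ← mul_smul, mul_assoc, mul_assoc, mul_inv_cancel, mul_one]
      rw [h2, h1]
      simp
    | zero => intro t _ m; simp
    | one => intro t _ m; simp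
    | add f g _ _ hf hg => intro t ht m; simp [hf t ht m, hg t ht m]
    | neg f _ hf => intro t ht m; simp [hf t ht m]
    | mul f g _ _ hf hg => intro t ht m; simp [hf t ht m, hg t ht m]
  have hD1 : ∀ φ ∈ H1, ∀ s ∈ A.decompositionSubgroup ℚ, (fun m => s (φ (s⁻¹ • m))) ∈ H1 := by
    intro φ hφ s hs
    have h1 : H1.map (conjFun s) ≤ H1 := by
      rw [hH1, RingHom.map_closure, Subring.closure_le]
      rintro _ ⟨ψ, ⟨s', hs', φ', hφ', rfl⟩, rfl⟩
      have h2 : conjFun s (conjFun s' φ') = conjFun (s * s') φ' := by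
        funext m
        simp [conjFun_apply, mul_smul]
      rw [h2]
      exact Subring.subset_closure ⟨s * s', Subgroup.mul_mem _ hs hs', φ', hφ', rfl⟩
    exact h1 (Subring.mem_map.mpr ⟨φ, hφ, rfl⟩)
  have hconst : ∀ c ∈ A, (∀ s ∈ A.inertiaSubgroupIn ℚ, s c = c) → (fun _ : M => c) ∈ H1 := by
    intro c hc hcs
    have h1 := hR0 c hc hcs 1 H0.one_mem
    have h2 : (fun m : M => c * (1 : M → Qb) m) = fun _ => c := by
      funext m
      simp
    rw [h2] at h1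
    exact hle h1
  have hadd1 : H1 ≤ (tensorSubring H1).comap
      (RingHom.pi fun p : M × M => Pi.evalRingHom (fun _ : M => Qb) (p.1 + p.2)) := by
    rw [hH1, Subring.closure_le]
    rintro ψ ⟨s, hs, φ, hφ, rfl⟩
    obtain ⟨n, a, b, ha, hb, h⟩ := hadd φ hφ
    refine ⟨Fin n, inferInstance, fun i => conjFun s (a i), fun i => conjFun s (b i),
      fun i => hgen s hs _ (ha i), fun i => hgen s hs _ (hb i), fun p => ?_⟩
    show conjFun s φ (p.1 + p.2) = _
    rw [conjFun_apply, smul_add, h, map_sum]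
    refine Finset.sum_congr rfl fun i _ => ?_
    rw [map_mul]
    rfl
  refine ⟨H1, hle, hval1, hI1, hD1, fun c hc hcs φ hφ => ?_, fun m m' hmm => ?_, fun φ hφ => ?_⟩
  · exact H1.mul_mem (hconst c hc hcs) hφ
  · obtain ⟨φ, hφ, hne⟩ := hsep m m' hmm
    exact ⟨φ, hle hφ, hne⟩
  · obtain ⟨n, a, b, ha, hb, h⟩ := exists_fin_of_mem_tensorSubring H1 (hadd1 hφ)
    exact ⟨n, a, b, ha, hb, fun m m' => (h m m').symm ▸ rfl⟩

/-- THE COORDINATE ORDER over `ℚ̄` (closure principle, centres form), in the input shape of the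
lattice descent: `Γ` = inertia group of a valuation ring `A` of `ℚ̄` over `ℓ`; the output ring
is moreover stable under the decomposition group. -/
theorem exists_coordinate_order_rat (ℓ : ℕ) (hℓ : ℓ.Prime) (A : ValuationSubring Qb)
    (hA : A.LiesOverPrime ℓ)
    [AddCommGroup M] [Finite M] [DistribMulAction G M]
    {J : Type*} [AddCommGroup J] [DistribMulAction G J]
    (ι : M →+ J) (hιinj : Function.Injective ι)
    (hι : ∀ s ∈ A.inertiaSubgroupIn ℚ, ∀ m : M, ι (s • m) = s • ι m)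
    (J1 : AddSubgroup J) (hJ1 : ∀ s ∈ A.inertiaSubgroupIn ℚ, ∀ x ∈ J1, s • x ∈ J1)
    {g : ℕ} (X : J → Fin g → Qb)
    (hXval : ∀ x ∈ J1, ∀ i, X x i ∈ A)
    (hXeq : ∀ s ∈ A.inertiaSubgroupIn ℚ, ∀ x ∈ J1, ∀ i, X (s • x) i = s (X x i))
    (hXinj : ∀ x ∈ J1, ∀ x' ∈ J1, X x = X x' → x = x')
    (hcentre : ∀ m : M, ∃ y : J, (∀ s ∈ A.inertiaSubgroupIn ℚ, s • y = y) ∧ ι m - y ∈ J1)
    (hlaw : ∀ y y' y'' : J, (∀ s ∈ A.inertiaSubgroupIn ℚ, s • y = y) →
      (∀ s ∈ A.inertiaSubgroupIn ℚ, s • y' = y') →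
      (∀ s ∈ A.inertiaSubgroupIn ℚ, s • y'' = y'') →
      y + y' - y'' ∈ J1 → ∀ (i : Fin g) (n : ℕ),
      ∃ P : MvPolynomial (Fin g ⊕ Fin g) Qb,
        (∀ d, P.coeff d ∈ A ∧ ∀ s ∈ A.inertiaSubgroupIn ℚ, s (P.coeff d) = P.coeff d) ∧
        ∀ m m' : M, ι m - y ∈ J1 → ι m' - y' ∈ J1 →
          ∃ a ∈ A, X (ι (m + m') - y'') i -
            MvPolynomial.eval (Sum.elim (X (ι m - y)) (X (ι m' - y'))) P = (ℓ : Qb) ^ n * a) :
    ∃ H0 : Subring (M → Qb),
      (∀ φ ∈ H0, ∀ m, φ m ∈ A) ∧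
      (∀ φ ∈ H0, ∀ s ∈ A.inertiaSubgroupIn ℚ, ∀ m, φ (s • m) = s (φ m)) ∧
      (∀ φ ∈ H0, ∀ s ∈ A.decompositionSubgroup ℚ, (fun m => s (φ (s⁻¹ • m))) ∈ H0) ∧
      (∀ c ∈ A, (∀ s ∈ A.inertiaSubgroupIn ℚ, s c = c) → ∀ φ ∈ H0, (fun m => c * φ m) ∈ H0) ∧
      (∀ m m', m ≠ m' → ∃ φ ∈ H0, φ m ≠ φ m') ∧
      (∀ φ ∈ H0, ∃ (n : ℕ) (a b : Fin n → M → Qb), (∀ i, a i ∈ H0) ∧ (∀ i, b i ∈ H0) ∧
        ∀ m m', φ (m + m') = ∑ i, a i m * b i m') := by
  have hℓA : (ℓ : Qb) ∈ A := natCast_mem A ℓ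
  obtain ⟨H0, hval, hI, hR0, hsep, hadd⟩ :=
    exists_coordinate_order (Γ := ↥(A.inertiaSubgroupIn ℚ)) A (ℓ : Qb)
      (Nat.cast_ne_zero.mpr hℓ.ne_zero) hℓA
      (fun d _ _ => exists_pow_mul_inv_mem_of_isAlgebraic isAlgebraic_int_Qb A ℓ hℓ hA d)
      (fun s => map_natCast (s : G) ℓ)
      ι hιinj (fun s m => hι s s.2 m) J1 (fun s x hx => hJ1 s s.2 x hx) X hXval
      (fun s x hx i => hXeq s s.2 x hx i) hXinj
      (fun m => by
        obtain ⟨y, hy, hmy⟩ := hcentre m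
        exact ⟨y, fun s => hy s s.2, hmy⟩)
      (fun y y' y'' hy hy' hy'' hyy i n => by
        obtain ⟨P, hP, hlawP⟩ := hlaw y y' y'' (fun s hs => hy ⟨s, hs⟩)
          (fun s hs => hy' ⟨s, hs⟩) (fun s hs => hy'' ⟨s, hs⟩) hyy i n
        exact ⟨P, fun d => ⟨(hP d).1, fun s => (hP d).2 s s.2⟩, hlawP⟩)
  obtain ⟨H1, -, h⟩ := exists_decomp_closure A H0 hval
    (fun φ hφ s hs m => hI φ hφ ⟨s, hs⟩ m)
    (fun c hc hcs φ hφ => hR0 c hc (fun s => hcs s s.2) φ hφ) hsep hadd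
  exact ⟨H1, h⟩

end Concrete

end Fermat.Agent.S19.helper2532
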