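import Mathlib
import Fermat.Agent.S19.helper2570_CAlgKeyLaw

/-!
# S19, C-alg main line: the addition law from an adapted system with elementwise (E)

The key lemma `key_law` of `helper2570_CAlgKeyLaw` consumes the Cech decomposition (E) as an
inclusion of submodules `B₁₂ ≤ B₁ + B₂ + ∑ R₀ e i`.  Here (E) is taken in its elementwise form
(the field `hE` of `helper6256.IsAdaptedCover`, the conclusion of `helper1458.cover_E`): every
Gauss-integral function regular off `Pinf` and the `R i` is `f₁ + f₂ + ∑ a i * e i` with `f₁`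
regular off `Pinf`, `f₂` regular off the `R i` and integral constants `a i`.

* `key_law_sys`: the (KEY) shape (law modulo `c ^ d`).
* `law_sys`: the field `law` of `helper6256.IsAbsCoordSystem` / `helper2111.IsCoordSystem`
  verbatim, for the coordinates `helper5161.coord sp R t`.
-/

set_option autoImplicit false

namespace Fermat.Agent.S19.helper2570

open AlgebraicCurve Fermat.Agent.S37.helper126 Fermat.Agent.S19.helper2007

section Sys

variable {K F k Fk : Type*} [Field K] [Field F] [Algebra K F] [Field k] [Field Fk] [Algebra k Fk]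
variable {O : ValuationSubring F} {red : O →+* Fk} {sp : Place K F → Place k Fk}
variable {ι : Type*} [Fintype ι]

/-- The ring of integral constants of a valued function field. -/
def constRing (O : ValuationSubring F) : Subring K := O.toSubring.comap (algebraMap K F)

theorem mem_constRing {a : K} : a ∈ constRing (K := K) O ↔ algebraMap K F a ∈ O := Iff.rfl

/-- The Gauss-integral functions which are regular outside a set `S` of places, as an algebra
over the ring of integral constants. -/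
def regAlg (O : ValuationSubring F) (S : Set (Place K F)) :
    Subalgebra (constRing (K := K) O) F where
  carrier := {f | f ∈ O ∧ ∀ P : Place K F, P ∉ S → f ∈ P.toValuationSubring}
  mul_mem' := fun ha hb => ⟨mul_mem ha.1 hb.1, fun P hP => mul_mem (ha.2 P hP) (hb.2 P hP)⟩
  add_mem' := fun ha hb => ⟨add_mem ha.1 hb.1, fun P hP => add_mem (ha.2 P hP) (hb.2 P hP)⟩
  algebraMap_mem' := fun r => ⟨r.2, fun P _ => P.algebraMap_mem' (r : K)⟩

theorem mem_regAlg {S : Set (Place K F)} {f : F} :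
    f ∈ regAlg (K := K) O S ↔ f ∈ O ∧ ∀ P : Place K F, P ∉ S → f ∈ P.toValuationSubring :=
  Iff.rfl

/-- **Key lemma (T5), end form, elementwise (E).**  Same conclusion as `key_law`, with (E) in the
elementwise shape and `e i` regular off `Pinf` and `R i`. -/
theorem key_law_sys [HasPrincipalDivisors K F] {R : ι → Place K F} {t : ι → F}
    (hS : helper5161.IsAdapted O red sp R t)
    (Pinf : Place K F) (hPinf : ∀ i, sp Pinf ≠ sp (R i))
    (e : ι → F) (het : ∀ i, e i = -(t i)⁻¹)
    (hereg : ∀ (i : ι) (P : Place K F), P ≠ Pinf → P ≠ R i → e i ∈ P.toValuationSubring)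
    (hE : ∀ f ∈ O, (∀ P : Place K F, P ≠ Pinf → (∀ i, P ≠ R i) → f ∈ P.toValuationSubring) →
      ∃ (f₁ f₂ : F) (a : ι → K), f₁ ∈ O ∧ f₂ ∈ O ∧ (∀ i, algebraMap K F (a i) ∈ O) ∧
        (∀ P : Place K F, P ≠ Pinf → f₁ ∈ P.toValuationSubring) ∧
        (∀ P : Place K F, (∀ i, P ≠ R i) → f₂ ∈ P.toValuationSubring) ∧
        f = f₁ + f₂ + ∑ i, algebraMap K F (a i) * e i)
    (d : ℕ) :
    ∃ Fd : ι → MvPolynomial (ι ⊕ ι) K, (∀ i m, algebraMap K F ((Fd i).coeff m) ∈ O) ∧
      ∀ c : K, algebraMap K F c ∈ O.nonunits →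
        ∀ x ∈ specKernel sp, ∀ y ∈ specKernel sp,
        (∀ i, ∃ a : K, algebraMap K F a ∈ O ∧ helper5161.coord sp R t x i = c * a) →
        (∀ i, ∃ a : K, algebraMap K F a ∈ O ∧ helper5161.coord sp R t y i = c * a) →
        ∀ i, ∃ a : K, algebraMap K F a ∈ O ∧
          helper5161.coord sp R t (x + y) i
            - MvPolynomial.eval (Sum.elim (helper5161.coord sp R t x)
                (helper5161.coord sp R t y)) (Fd i) = c ^ d * a := by
  have heO : ∀ i, e i ∈ O := fun i => by
    rw [het i]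
    exact neg_mem ((hS.coord i).inv_mem hS.ker)
  refine key_law hS Pinf hPinf e het (fun j P h1 h2 => hereg j P ?_ ?_)
    (R₀ := constRing (K := K) O) (fun r => r.2)
    (regAlg O {Pinf}) (regAlg O (Set.range R)) (regAlg O ({Pinf} ∪ Set.range R))
    ?_ ?_ ?_ ?_ ?_ ?_ ?_ d
  · rintro rfl
    exact h1 rfl
  · rintro rfl
    exact h2 rfl
  · intro f hf
    exact ⟨hf.1, fun P hP => hf.2 P fun h => hP (Or.inl h)⟩
  · intro f hf
    exact ⟨hf.1, fun P hP => hf.2 P fun h => hP (Or.inr h)⟩
  · intro i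
    exact ⟨heO i, fun P hP => hereg i P (fun h => hP (Or.inl h))
      (fun h => hP (Or.inr ⟨i, h.symm⟩))⟩
  · intro f hf
    obtain ⟨f₁, f₂, a, hf₁, hf₂, ha, hr₁, hr₂, rfl⟩ := hE f hf.1 (fun P h1 h2 => hf.2 P (by
      rintro (h | ⟨i, h⟩)
      · exact h1 h
      · exact h2 i h.symm))
    refine Submodule.add_mem _ (Submodule.add_mem _
      (Submodule.mem_sup_left (Submodule.mem_sup_left ?_))
      (Submodule.mem_sup_left (Submodule.mem_sup_right ?_))) (Submodule.mem_sup_right ?_)
    · exact ⟨hf₁, fun P hP => hr₁ P hP⟩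
    · exact ⟨hf₂, fun P hP => hr₂ P fun i h => hP ⟨i, h.symm⟩⟩
    · refine Submodule.sum_mem _ fun i _ => ?_
      have e1 : algebraMap K F (a i) * e i = (⟨a i, ha i⟩ : constRing (K := K) O) • e i := by
        rw [Algebra.smul_def]
        rfl
      rw [e1]
      exact Submodule.smul_mem _ _ (Submodule.subset_span ⟨i, rfl⟩)
  · exact fun f hf => hf.1
  · intro f hf P hP
    exact hf.2 P fun h => hP (by rw [Set.mem_singleton_iff] at h; rw [h])
  · intro f hf P hP
    exact hf.2 P (by
      rintro ⟨i, rfl⟩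
      exact hP i rfl)

/-- **The field `law`** of `helper6256.IsAbsCoordSystem` / `helper2111.IsCoordSystem` for the
coordinates `helper5161.coord sp R t` of an adapted system with elementwise (E): for every `j`
and every finite set `T` of classes of the kernel of reduction there are polynomials `P i` with
coefficients in `A` such that `coord (x + y) i ≡ P i (coord x, coord y)` modulo `π ^ j A` for
all `x`, `y` in `T`. -/
theorem law_sys [HasPrincipalDivisors K F] {R : ι → Place K F} {t : ι → F}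
    (hS : helper5161.IsAdapted O red sp R t)
    (Pinf : Place K F) (hPinf : ∀ i, sp Pinf ≠ sp (R i))
    (e : ι → F) (het : ∀ i, e i = -(t i)⁻¹)
    (hereg : ∀ (i : ι) (P : Place K F), P ≠ Pinf → P ≠ R i → e i ∈ P.toValuationSubring)
    (A : ValuationSubring K) (hA : ∀ a : K, algebraMap K F a ∈ O ↔ a ∈ A)
    (hE : ∀ f ∈ O, (∀ P : Place K F, P ≠ Pinf → (∀ i, P ≠ R i) → f ∈ P.toValuationSubring) →
      ∃ (f₁ f₂ : F) (a : ι → K), f₁ ∈ O ∧ f₂ ∈ O ∧ (∀ i, a i ∈ A) ∧
        (∀ P : Place K F, P ≠ Pinf → f₁ ∈ P.toValuationSubring) ∧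
        (∀ P : Place K F, (∀ i, P ≠ R i) → f₂ ∈ P.toValuationSubring) ∧
        f = f₁ + f₂ + ∑ i, algebraMap K F (a i) * e i)
    (π : K) (hrank : ∀ a ∈ A.nonunits, ∃ n : ℕ, ∃ w ∈ A, a ^ n = π * w)
    (j : ℕ) (T : Finset (Pic0 K F)) (hT : ∀ x ∈ T, x ∈ specKernel sp) :
    ∃ P : ι → MvPolynomial (ι ⊕ ι) K, (∀ i d, (P i).coeff d ∈ A) ∧
      ∀ x ∈ T, ∀ y ∈ T, ∀ i, ∃ w ∈ A,
        helper5161.coord sp R t (x + y) i
          - MvPolynomial.eval (Sum.elim (helper5161.coord sp R t x)
              (helper5161.coord sp R t y)) (P i) = π ^ j * w := by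
  have hnu : ∀ c : K, algebraMap K F c ∈ O.nonunits → c ∈ A.nonunits := by
    intro c hc
    by_contra h
    rw [A.mem_nonunits_iff, not_lt] at h
    have hc0 : c ≠ 0 := by
      rintro rfl
      rw [map_zero] at h
      exact not_le.mpr zero_lt_one h
    have hinv : c⁻¹ ∈ A := by
      rw [← A.valuation_le_one_iff, map_inv₀]
      exact inv_le_one_of_one_le₀ h
    have h1 := (hA c⁻¹).mpr hinv
    rw [map_inv₀] at h1
    exact notMem_nonunits_of_inv_mem O ((map_ne_zero _).mpr hc0) h1 hc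
  have hE' : ∀ f ∈ O, (∀ P : Place K F, P ≠ Pinf → (∀ i, P ≠ R i) →
      f ∈ P.toValuationSubring) →
      ∃ (f₁ f₂ : F) (a : ι → K), f₁ ∈ O ∧ f₂ ∈ O ∧ (∀ i, algebraMap K F (a i) ∈ O) ∧
        (∀ P : Place K F, P ≠ Pinf → f₁ ∈ P.toValuationSubring) ∧
        (∀ P : Place K F, (∀ i, P ≠ R i) → f₂ ∈ P.toValuationSubring) ∧
        f = f₁ + f₂ + ∑ i, algebraMap K F (a i) * e i := by
    intro f hf hreg
    obtain ⟨f₁, f₂, a, hf₁, hf₂, ha, hr₁, hr₂, h⟩ := hE f hf hreg
    exact ⟨f₁, f₂, a, hf₁, hf₂, fun i => (hA _).mpr (ha i), hr₁, hr₂, h⟩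
  obtain ⟨P, hP, h⟩ := approx_law_of_key (O := O) (helper5161.coord sp R t)
    (specKernel sp : Set (Pic0 K F)) (fun _ hx i => helper5161.coord_mem_nonunits hS hx i)
    (fun d => key_law_sys hS Pinf hPinf e het hereg hE' d) π
    (fun c hc => by
      obtain ⟨n, w, hw, h⟩ := hrank c (hnu c hc)
      exact ⟨n, w, (hA w).mpr hw, h⟩) j T hT
  refine ⟨P, fun i d => (hA _).mp (hP i d), fun x hx y hy i => ?_⟩
  obtain ⟨w, hw, h'⟩ := h x hx y hy i
  exact ⟨w, (hA w).mp hw, h'⟩

end Sys

end Fermat.Agent.S19.helper2570
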