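import Fermat.Agent.S19.helper2111_SpecCore
import Fermat.Agent.S19.helper2007_Discs

set_option autoImplicit false

/-!
# S19, main line "C-alg": Spec of the adapted two-chart cover (architect's file)

Chain of the main line (findings #2887, captain's ruling R3 of update 2, deputy rulings
(V)/(J1)/(SYS)/(KEY) of chat #148):

* `CAlgCoverAt ℓ M A`   : an adapted cover exists at level `M` for the valuation ring `A`
                          (cover side: INST + Galois side + BOOT + RAT + COVER + GENPOS + gate);
* `Stmt_CAlgAbs`        : abstract core, an adapted cover gives coordinates on the specialisation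
                          kernel (T1 + LAW + COORD + KEY + CEN; END-WIRE (W1));
* `isCoordSystem_of_calg : Stmt_CAlgAbs → CAlgCoverAt ℓ M A →
      ∃ g J1 b, helper2111.IsCoordSystem ℓ M A g J1 b`                      (proved here);
* `stmt_Coords_of_calg : Stmt_CAlgAbs → Stmt_CAlgCover ℓ M → helper2111.Stmt_Coords ℓ M`
                                                                            (proved here).

Vocabulary of record: the valued function field of `Fermat.Agent.S37.helper126` (`O`, `red`,
`sp`, `rd`, `RedKer`, `RedConst`, `ValueGroupConst`, `Conservation`, `ResidueTrivial`) and the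
discs of `Fermat.Agent.S19.helper2007` (`IsValue`, `IsCoord`, `specKernel`, `HasFixedLift`).

* `IsAbsCoordSystem A π Gam g J1 b` : `helper2111.IsCoordSystem` for an abstract function field
  and an abstract set `Gam` of semilinear automorphisms ("inertia").
* `IsAdaptedCover A π Gam O red sp g R e Poo` : the input of the abstract core, a reduced
  non-special divisor `∑ sp (R i)` of the special fibre with `Gam`-fixed lifts `R i`, `Gam`-fixed
  Gauss-integral functions `e i` with poles only at `Poo` and a simple pole at `R i` (simple pole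
  of the reduction at `sp (R i)`), the Cech spanning property `(E)` with coefficients in `A`,
  and a `Gam`-fixed place in every residue disc.  The disc coordinates are `t i = -(e i)⁻¹`,
  the normalisation place is `Poo`.
-/

namespace Fermat.Agent.S19.helper6256

open AlgebraicCurve ModularCurve
open Fermat.Agent.S37.helper126 Fermat.Agent.S19.helper2111

section Abstract

variable {K F k Fk : Type} [Field K] [Field F] [Algebra K F] [Field k] [Field Fk] [Algebra k Fk]

/-- The output of the core for an abstract function field `F / K`, a valuation ring `A` of the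
constants, a topologically nilpotent `π` and a set `Gam` of semilinear automorphisms. -/
structure IsAbsCoordSystem (A : ValuationSubring K) (π : K) (Gam : Set (SemilinearAut K F))
    (g : ℕ) (J1 : AddSubgroup (Pic0 K F)) (b : Pic0 K F → Fin g → K) : Prop where
  stable : ∀ γ ∈ Gam, ∀ x ∈ J1, γ • x ∈ J1
  val : ∀ x ∈ J1, ∀ i, b x i ∈ A
  eqv : ∀ γ ∈ Gam, ∀ x ∈ J1, ∀ i, b (γ • x) i = SemilinearAut.baseAut γ (b x i)
  inj : ∀ x ∈ J1, ∀ y ∈ J1, b x = b y → x = y
  cen : ∀ x : Pic0 K F, ∃ y : Pic0 K F, (∀ γ ∈ Gam, γ • y = y) ∧ x - y ∈ J1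
  law : ∀ (j : ℕ) (T : Finset (Pic0 K F)), (∀ x ∈ T, x ∈ J1) →
    ∃ P : Fin g → MvPolynomial (Fin g ⊕ Fin g) K, (∀ i d, (P i).coeff d ∈ A) ∧
      ∀ x ∈ T, ∀ y ∈ T, ∀ i, ∃ w ∈ A,
        b (x + y) i - MvPolynomial.eval (Sum.elim (b x) (b y)) (P i) = π ^ j * w

/-- **The adapted cover** (input of the abstract core).  `R i` are the lifts of the points of a
reduced non-special divisor of the special fibre, `e i` has a simple pole at `R i`, `Poo` carries
all the other poles (and is the normalisation place). -/
structure IsAdaptedCover (A : ValuationSubring K) (π : K) (Gam : Set (SemilinearAut K F))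
    (O : ValuationSubring F) (red : O →+* Fk) (sp : Place K F → Place k Fk)
    (g : ℕ) (R : Fin g → Place K F) (e : Fin g → F) (Poo : Place K F) : Prop where
  /-- principal divisors exist on the generic fibre and its places have degree one -/
  hPD : HasPrincipalDivisors K F
  hdeg : ∀ P : Place K F, P.deg = 1
  hdeg1 : ResidueTrivial K F
  /-- the valued function field (vocabulary of `S37.helper126`) -/
  hker : RedKer O red
  hconst : RedConst K k O red
  hvg : ValueGroupConst K O
  hcons : Conservation O red sp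
  /-- `A` is the valuation ring of constants -/
  hA : ∀ a : K, algebraMap K F a ∈ O ↔ a ∈ A
  /-- `π` is topologically nilpotent and `A` has rank one -/
  hπ : π ∈ A.nonunits
  hπ0 : π ≠ 0
  hrank : ∀ a ∈ A.nonunits, ∃ n : ℕ, ∃ w ∈ A, a ^ n = π * w
  /-- the residue discs of the `R i` and of `Poo` are pairwise distinct -/
  hinj : Function.Injective fun i => sp (R i)
  hoo : ∀ i, sp Poo ≠ sp (R i)
  /-- `∑ sp (R i)` is non-special on the special fibre: `L(∑ sp (R i)) = k` -/
  hNS : ∀ w : Fk, w ≠ 0 → (∀ s, (∀ i, s ≠ sp (R i)) → 0 ≤ s.ord w) →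
    (∀ i, -1 ≤ (sp (R i)).ord w) → w ∈ Set.range (algebraMap k Fk)
  /-- Riemann's inequality on the generic fibre: `l(D + ∑ R i) ≥ 1` for `deg D = 0` -/
  hRR : ∀ D : Divisor K F, Divisor.degree D = 0 → ∃ h : F, h ≠ 0 ∧
    ∀ P, 0 ≤ P.ord h + D P + (∑ i, Finsupp.single (R i) (1 : ℤ)) P
  /-- `e i` is Gauss-integral, regular off `{Poo, R i}`, with at most a simple pole at `R i`
  and its reduction has a simple pole at `sp (R i)` -/
  he_mem : ∀ i, e i ∈ O
  he_reg : ∀ i P, P ≠ Poo → P ≠ R i → e i ∈ P.toValuationSubring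
  he_pole : ∀ i, -1 ≤ (R i).ord (e i)
  he_red : ∀ i, (sp (R i)).ord (rd O red (e i)) = -1
  /-- `(E)`: Gauss-integral functions with poles only at `Poo` and the `R i` are sums of one with
  poles only at `Poo`, one with poles only at the `R i`, and an `A`-combination of the `e i` -/
  hE : ∀ f ∈ O, (∀ P, P ≠ Poo → (∀ i, P ≠ R i) → f ∈ P.toValuationSubring) →
    ∃ (f₁ f₂ : F) (a : Fin g → K), f₁ ∈ O ∧ f₂ ∈ O ∧ (∀ i, a i ∈ A) ∧
      (∀ P, P ≠ Poo → f₁ ∈ P.toValuationSubring) ∧
      (∀ P, (∀ i, P ≠ R i) → f₂ ∈ P.toValuationSubring) ∧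
      f = f₁ + f₂ + ∑ i, algebraMap K F (a i) * e i
  /-- inertia: residue discs are stable, the `R i` and the `e i` are fixed, and every residue
  disc contains a fixed place -/
  hGam_sp : ∀ γ ∈ Gam, ∀ P, sp (γ • P) = sp P
  hGam_R : ∀ γ ∈ Gam, ∀ i, γ • R i = R i
  hGam_e : ∀ γ ∈ Gam, ∀ i, γ • e i = e i
  hcen : ∀ P : Place K F, helper2007.HasFixedLift sp Gam (sp P)

end Abstract

/-- **ABSTRACT CORE** (leaves CALG-T1, CALG-LAW, CALG-COORD, CALG-KEY, CALG-CEN; END-WIRE (W1)):
an adapted cover gives a coordinate system on the specialisation kernel. -/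
def Stmt_CAlgAbs : Prop :=
  ∀ (K F k Fk : Type) [Field K] [Field F] [Algebra K F] [Field k] [Field Fk] [Algebra k Fk]
    (A : ValuationSubring K) (π : K) (Gam : Set (SemilinearAut K F))
    (O : ValuationSubring F) (red : O →+* Fk) (sp : Place K F → Place k Fk)
    (g : ℕ) (R : Fin g → Place K F) (e : Fin g → F) (Poo : Place K F),
    IsAdaptedCover A π Gam O red sp g R e Poo →
    ∃ b : Pic0 K F → Fin g → K, IsAbsCoordSystem A π Gam g (helper2007.specKernel sp) b

/-- The image of the inertia group of `A` in the semilinear automorphisms of the function field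
of `X₀(M)` over `Qbar`. -/
def inertiaImage (A : ValuationSubring Qb) (M : ℕ) :
    Set (SemilinearAut Qb (modularFunctionFieldBar M)) :=
  {γ | ∃ σ ∈ A.inertiaSubgroupIn ℚ, arithmeticGalois (modularFunctionFieldFull M) σ = γ}

theorem mem_inertiaImage {A : ValuationSubring Qb} {M : ℕ}
    {σ : Qb ≃ₐ[ℚ] Qb} (hσ : σ ∈ A.inertiaSubgroupIn ℚ) :
    arithmeticGalois (modularFunctionFieldFull M) σ ∈ inertiaImage A M :=
  ⟨σ, hσ, rfl⟩

/-- **COVER AT `(M, A)`** (cover side: CALG-INST, Galois side, CALG-BOOT, CALG-RAT, CALG-COVER,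
GENPOS, from the gate): an adapted cover exists for the function field of `X₀(M)` over `Qbar`,
the valuation ring `A`, `π = ℓ` and `Gam` = the inertia group of `A`. -/
def CAlgCoverAt (ℓ M : ℕ) (A : ValuationSubring Qb) : Prop :=
  ∃ (k Fk : Type) (_ : Field k) (_ : Field Fk) (_ : Algebra k Fk)
    (O : ValuationSubring (modularFunctionFieldBar M)) (red : O →+* Fk)
    (sp : Place Qb (modularFunctionFieldBar M) → Place k Fk) (g : ℕ)
    (R : Fin g → Place Qb (modularFunctionFieldBar M)) (e : Fin g → modularFunctionFieldBar M)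
    (Poo : Place Qb (modularFunctionFieldBar M)),
    IsAdaptedCover A (ℓ : Qb) (inertiaImage A M) O red sp g R e Poo

/-- An adapted cover exists at level `M` for some valuation ring over `ℓ`. -/
def Stmt_CAlgCover (ℓ M : ℕ) : Prop :=
  ∃ A : ValuationSubring Qb, A.LiesOverPrime ℓ ∧ CAlgCoverAt ℓ M A

/-- **Main line C-alg at `(M, A)`**: the abstract core and an adapted cover give the captain's
coordinate system (the conclusion of `helper3573.Stmt_CoreAt`). -/
theorem isCoordSystem_of_calg {ℓ M : ℕ} {A : ValuationSubring Qb} (habs : Stmt_CAlgAbs)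
    (hcov : CAlgCoverAt ℓ M A) :
    ∃ (g : ℕ) (J1 : AddSubgroup (JZero M)) (b : JZero M → Fin g → Qb),
      IsCoordSystem ℓ M A g J1 b := by
  obtain ⟨k, Fk, _, _, _, O, red, sp, g, R, e, Poo, h⟩ := hcov
  obtain ⟨b, hb⟩ := habs Qb (modularFunctionFieldBar M) k Fk A (ℓ : Qb) (inertiaImage A M)
    O red sp g R e Poo h
  refine ⟨g, helper2007.specKernel sp, b, ?_, hb.val, ?_, hb.inj, ?_, hb.law⟩
  · intro σ hσ x hx
    exact hb.stable _ (mem_inertiaImage hσ) x hx
  · intro σ hσ x hx i
    exact hb.eqv _ (mem_inertiaImage hσ) x hx i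
  · intro x
    obtain ⟨y, hy, hxy⟩ := hb.cen x
    exact ⟨y, fun σ hσ => hy _ (mem_inertiaImage hσ), hxy⟩

/-- **Main line C-alg**: the abstract core and an adapted cover at level `M` give the captain's
`Stmt_Coords ℓ M`. -/
theorem stmt_Coords_of_calg {ℓ M : ℕ} (habs : Stmt_CAlgAbs) (hcov : Stmt_CAlgCover ℓ M) :
    Stmt_Coords ℓ M := by
  obtain ⟨A, hA, h⟩ := hcov
  obtain ⟨g, J1, b, hb⟩ := isCoordSystem_of_calg habs h
  exact ⟨A, hA, g, J1, b, hb⟩

end Fermat.Agent.S19.helper6256
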