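import Mathlib
import Fermat.Prelude.Def_AlgebraicCurve_DivisorClassGroup
import Fermat.Prelude.Def_AlgebraicCurve_BaseChangeGalois
import Fermat.Prelude.Def_AlgebraicCurve_Repartitions
import Fermat.Agent.S37.helper126_TorsionCore
import Fermat.Agent.S19.helper2007_Discs

set_option autoImplicit false

/-!
# S19, C-alg main line: from the raw adapted system (SYS) to disc coordinates (TCOORD)

The adapted cover (CALG-COVER) delivers functions `e i` with a simple pole at `R i`.  The
coordinate leaves (DISCS, CALG-COORD, CALG-KEY) work with the disc coordinates `t i = -1 / e i`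
in the vocabulary of `helper2007` (`IsCoord`, `discRing`).  This file is the adapter:

* `isCoord_of_pole` : a Gauss-integral function `e` whose only pole over `sp R` is an (at most)
  simple pole at `R`, and whose reduction has a simple pole at `sp R`, has *no zero* over `sp R`
  and exactly a simple pole at `R` (conservation law); hence `-1 / e` is a disc coordinate at
  `sp R` vanishing at `R`.
* `sys_adapter` : the family form, with the regularity of `e j` on the other tubes.
* `isCoord_of_mem_rr`, `sys_adapter_rr` : the same with the pole conditions given as a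
  membership `e ∈ L(n • Q + R)` in a Riemann-Roch space (the shape delivered by the cover).
-/

namespace Fermat.Agent.S19.helper9477

open AlgebraicCurve
open Fermat.Agent.S37.helper126
open Fermat.Agent.S19.helper2007

section Sys

variable {K F k Fk : Type*} [Field K] [Field F] [Algebra K F] [Field k] [Field Fk] [Algebra k Fk]
variable {O : ValuationSubring F} {red : O →+* Fk} {sp : Place K F → Place k Fk}

theorem sys_ord_neg (v : Place K F) (f : F) : v.ord (-f) = v.ord f := by
  rw [show -f = (-1 : F) * f by ring]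
  by_cases hf : f = 0
  · simp [hf]
  · rw [v.ord_mul (neg_ne_zero.mpr one_ne_zero) hf]
    have h1 : v.ord (-1 : F) = 0 := by
      have h2 := v.ord_mul (neg_ne_zero.mpr (one_ne_zero (α := F))) (neg_ne_zero.mpr one_ne_zero)
      rw [show (-1 : F) * -1 = 1 by ring, Place.ord_one] at h2
      omega
    rw [h1, zero_add]

theorem sys_rd_ne_zero {s : Place k Fk} {e : F} (hred : s.ord (rd O red e) = -1) :
    rd O red e ≠ 0 := by
  intro h0
  rw [h0, Place.ord_zero] at hred
  omega

theorem sys_ne_zero {s : Place k Fk} {e : F} (hred : s.ord (rd O red e) = -1) : e ≠ 0 := by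
  intro h0
  exact sys_rd_ne_zero hred (by rw [h0]; exact rd_zero O red)

theorem sys_inv_mem (hker : RedKer O red) {s : Place k Fk} {e : F} (heO : e ∈ O)
    (hred : s.ord (rd O red e) = -1) : e⁻¹ ∈ O :=
  inv_mem_of_notMem_nonunits O heO
    (fun hn => sys_rd_ne_zero hred ((rd_eq_zero_iff hker heO).mpr hn))

theorem sys_rd_neg_inv (hker : RedKer O red) {s : Place k Fk} {e : F} (heO : e ∈ O)
    (hred : s.ord (rd O red e) = -1) : s.ord (rd O red (-e⁻¹)) = 1 := by
  have hinv := sys_inv_mem hker heO hred
  have h1 : rd O red (-e⁻¹) = -(rd O red e)⁻¹ := by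
    have e1 : -e⁻¹ = 0 - e⁻¹ := by ring
    rw [e1, rd_sub O red (zero_mem O) hinv, rd_zero, rd_inv heO hinv (sys_ne_zero hred), zero_sub]
  rw [h1, sys_ord_neg, Place.ord_inv, hred]
  norm_num

variable [HasPrincipalDivisors K F]

open Classical in
/-- **Conservation on the tube of a simple pole.**  A Gauss-integral function whose only pole
over `sp R` is an at most simple pole at `R`, and whose reduction has a simple pole at `sp R`,
has order exactly `-1` at `R` and order `0` at every other place over `sp R`. -/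
theorem sys_ord_tube (hcons : Conservation O red sp) {R : Place K F} {e : F} (heO : e ∈ O)
    (hreg : ∀ P, sp P = sp R → P ≠ R → e ∈ P.toValuationSubring) (hpole : -1 ≤ R.ord e)
    (hred : (sp R).ord (rd O red e) = -1) (P : Place K F) (hP : sp P = sp R) :
    P.ord e = if P = R then -1 else 0 := by
  classical
  obtain ⟨H, hH, -⟩ := HasPrincipalDivisors.exists_divisor (K := K) e (sys_ne_zero hred)
  have hred0 : red ⟨e, heO⟩ ≠ 0 := by
    rw [← rd_of_mem O red heO]
    exact sys_rd_ne_zero hred
  have hc := hcons ⟨e, heO⟩ hred0 H hH (sp R)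
  rw [← rd_of_mem O red heO, hred] at hc
  set H' : Divisor K F := H + Finsupp.single R 1 with hH'
  have hnn : ∀ P', sp P' = sp R → 0 ≤ H' P' := fun P' hP' => by
    rw [hH', Finsupp.add_apply, hH P', Finsupp.single_apply]
    split_ifs with hPR
    · subst hPR
      omega
    · have := ord_nonneg_of_mem P' (hreg P' hP' (Ne.symm hPR))
      omega
  have hmap : Finsupp.mapDomain sp H' (sp R) = 0 := by
    rw [hH', Finsupp.mapDomain_add, Finsupp.add_apply, hc, Finsupp.mapDomain_single,
      Finsupp.single_eq_same]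
    norm_num
  have h1 := le_mapDomain_apply sp H' (sp R) hnn P hP
  have h2 := hnn P hP
  rw [hmap] at h1
  have h3 : H' P = 0 := le_antisymm h1 h2
  rw [hH', Finsupp.add_apply, hH P, Finsupp.single_apply] at h3
  by_cases hPR : P = R
  · rw [if_pos hPR]
    rw [if_pos hPR.symm] at h3
    omega
  · rw [if_neg hPR]
    rw [if_neg (Ne.symm hPR)] at h3
    omega

/-- **(SYS) ⟹ disc coordinate, one place.**  If `e` is Gauss-integral, its only pole over `sp R`
is an at most simple pole at `R`, and its reduction has a simple pole at `sp R`, then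
`t = -1 / e` is a disc coordinate at `sp R` (in the sense of `helper2007.IsCoord`) which
vanishes at `R`; moreover the pole of `e` at `R` is exactly simple. -/
theorem isCoord_of_pole (hker : RedKer O red) (hcons : Conservation O red sp) {R : Place K F}
    {e : F} (heO : e ∈ O) (hreg : ∀ P, sp P = sp R → P ≠ R → e ∈ P.toValuationSubring)
    (hpole : -1 ≤ R.ord e) (hred : (sp R).ord (rd O red e) = -1) :
    IsCoord O red sp (sp R) (-e⁻¹) ∧ -e⁻¹ ∈ R.toValuationSubring.nonunits ∧ R.ord e = -1 := by
  classical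
  have hne : e ≠ 0 := sys_ne_zero hred
  have htne : -e⁻¹ ≠ 0 := neg_ne_zero.mpr (inv_ne_zero hne)
  have hord : ∀ P, sp P = sp R → P.ord (-e⁻¹) = if P = R then 1 else 0 := fun P hP => by
    rw [sys_ord_neg, P.ord_inv, sys_ord_tube hcons heO hreg hpole hred P hP]
    split_ifs <;> norm_num
  refine ⟨⟨neg_mem (sys_inv_mem hker heO hred), fun P hP => ?_, sys_rd_neg_inv hker heO hred⟩,
    ?_, ?_⟩
  · apply mem_of_ord_nonneg
    rw [hord P hP]
    split_ifs <;> norm_num
  · rw [← one_le_ord_iff R htne, hord R rfl, if_pos rfl]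
  · rw [sys_ord_tube hcons heO hreg hpole hred R rfl, if_pos rfl]

/-- **(SYS) ⟹ the inputs of the coordinate leaves, family form.**  For an adapted system
`(R, Pinf, e)` in the raw shape delivered by the cover (each `e i` Gauss-integral, regular at
every place other than `Pinf` and `R i`, with an at most simple pole at `R i`, and with a
reduction having a simple pole at `sp (R i)`), the functions `t i = -1 / e i` are disc
coordinates at the `sp (R i)` vanishing at `R i`, each `(t j)⁻¹ = -e j` lies in the disc ring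
of every other tube, and `Pinf` is a base place outside the tubes. -/
theorem sys_adapter {ι : Type*} (hker : RedKer O red) (hcons : Conservation O red sp)
    (R : ι → Place K F) (Pinf : Place K F) (e : ι → F)
    (hinj : Function.Injective fun i => sp (R i)) (hPinf : ∀ i, sp Pinf ≠ sp (R i))
    (heO : ∀ i, e i ∈ O)
    (hreg : ∀ i (P : Place K F), P ≠ Pinf → P ≠ R i → e i ∈ P.toValuationSubring)
    (hpole : ∀ i, -1 ≤ (R i).ord (e i))
    (hred : ∀ i, (sp (R i)).ord (rd O red (e i)) = -1) :
    (∀ i, IsCoord O red sp (sp (R i)) (-(e i)⁻¹)) ∧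
    (∀ i, -(e i)⁻¹ ∈ (R i).toValuationSubring.nonunits) ∧
    (∀ i, (R i).ord (e i) = -1) ∧
    (∀ i j, i ≠ j → (-(e j)⁻¹)⁻¹ ∈ discRing O sp (sp (R i))) ∧
    (∀ i j, i ≠ j → e j ∈ discRing O sp (sp (R i))) ∧
    ∃ Q₀ : Place K F, ∀ i, sp Q₀ ≠ sp (R i) := by
  have hne : ∀ i (P : Place K F), sp P = sp (R i) → P ≠ Pinf := fun i P hP hPi =>
    hPinf i (by rw [← hPi, hP])
  have key : ∀ i, IsCoord O red sp (sp (R i)) (-(e i)⁻¹) ∧
      -(e i)⁻¹ ∈ (R i).toValuationSubring.nonunits ∧ (R i).ord (e i) = -1 := fun i =>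
    isCoord_of_pole hker hcons (heO i) (fun P hP hPR => hreg i P (hne i P hP) hPR) (hpole i)
      (hred i)
  have hdisc : ∀ i j, i ≠ j → e j ∈ discRing O sp (sp (R i)) := fun i j hij =>
    ⟨heO j, fun P hP => hreg j P (hne i P hP) (fun hPR => hij (hinj (by
      show sp (R i) = sp (R j)
      rw [← hP, hPR]))) ⟩
  refine ⟨fun i => (key i).1, fun i => (key i).2.1, fun i => (key i).2.2, fun i j hij => ?_,
    hdisc, ⟨Pinf, hPinf⟩⟩
  have h1 : (-(e j)⁻¹)⁻¹ = -(e j) := by
    rw [inv_neg, inv_inv]
  rw [h1]
  exact neg_mem (hdisc i j hij)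

omit [HasPrincipalDivisors K F] in
/-- An element of `L(n • Q + R)` is regular at every place other than `Q` and `R`. -/
theorem mem_of_mem_rr_single_add {Q R : Place K F} {e : F} {n : ℤ}
    (hrr : e ∈ riemannRochSpace (Finsupp.single Q n + Finsupp.single R 1)) (P : Place K F)
    (hPQ : P ≠ Q) (hPR : P ≠ R) : e ∈ P.toValuationSubring := by
  classical
  apply mem_of_ord_nonneg
  rcases (mem_riemannRochSpace_iff.mp hrr) P with h0 | h
  · rw [h0, Place.ord_zero]
  · rw [Finsupp.add_apply, Finsupp.single_apply, Finsupp.single_apply, if_neg (Ne.symm hPQ),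
      if_neg (Ne.symm hPR)] at h
    omega

omit [HasPrincipalDivisors K F] in
/-- An element of `L(n • Q + R)` with `R ≠ Q` has at most a simple pole at `R`. -/
theorem neg_one_le_ord_of_mem_rr_single_add {Q R : Place K F} {e : F} {n : ℤ}
    (hrr : e ∈ riemannRochSpace (Finsupp.single Q n + Finsupp.single R 1)) (hRQ : R ≠ Q) :
    -1 ≤ R.ord e := by
  classical
  rcases (mem_riemannRochSpace_iff.mp hrr) R with h0 | h
  · rw [h0, Place.ord_zero]
    omega
  · rw [Finsupp.add_apply, Finsupp.single_apply, Finsupp.single_apply, if_neg (Ne.symm hRQ),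
      if_pos rfl] at h
    omega

/-- **(SYS) ⟹ disc coordinate, Riemann-Roch form.**  If `e ∈ O ∩ L(n • Q + R)`, the residue
discs of `Q` and `R` are distinct and the reduction of `e` has a simple pole at `sp R`, then
`t = -1 / e` is a disc coordinate at `sp R` vanishing at `R`, and the pole of `e` at `R` is
exactly simple. -/
theorem isCoord_of_mem_rr (hker : RedKer O red) (hcons : Conservation O red sp)
    {Q R : Place K F} {e : F} {n : ℤ} (heO : e ∈ O)
    (hrr : e ∈ riemannRochSpace (Finsupp.single Q n + Finsupp.single R 1))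
    (hQR : sp Q ≠ sp R) (hred : (sp R).ord (rd O red e) = -1) :
    IsCoord O red sp (sp R) (-e⁻¹) ∧ -e⁻¹ ∈ R.toValuationSubring.nonunits ∧ R.ord e = -1 :=
  isCoord_of_pole hker hcons heO
    (fun P hP hPR => mem_of_mem_rr_single_add hrr P (fun hPQ => hQR (by rw [← hPQ, hP])) hPR)
    (neg_one_le_ord_of_mem_rr_single_add hrr (fun hRQ => hQR (by rw [hRQ]))) hred

/-- **(SYS) ⟹ the inputs of the coordinate leaves, Riemann-Roch form.**  The family version of
`isCoord_of_mem_rr`: for `e i ∈ O ∩ L(n • Q + R i)` with reductions having simple poles at the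
pairwise distinct `sp (R i) ≠ sp Q`, all the conclusions of `sys_adapter` hold, together with the
regularity of the `e i` off `Q` and `R i`. -/
theorem sys_adapter_rr {ι : Type*} (hker : RedKer O red) (hcons : Conservation O red sp)
    (R : ι → Place K F) (Q : Place K F) (e : ι → F) (n : ℤ)
    (hinj : Function.Injective fun i => sp (R i)) (hQ : ∀ i, sp Q ≠ sp (R i))
    (heO : ∀ i, e i ∈ O)
    (hrr : ∀ i, e i ∈ riemannRochSpace (Finsupp.single Q n + Finsupp.single (R i) 1))
    (hred : ∀ i, (sp (R i)).ord (rd O red (e i)) = -1) :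
    (∀ i, IsCoord O red sp (sp (R i)) (-(e i)⁻¹)) ∧
    (∀ i, -(e i)⁻¹ ∈ (R i).toValuationSubring.nonunits) ∧
    (∀ i, (R i).ord (e i) = -1) ∧
    (∀ i j, i ≠ j → (-(e j)⁻¹)⁻¹ ∈ discRing O sp (sp (R i))) ∧
    (∀ i j, i ≠ j → e j ∈ discRing O sp (sp (R i))) ∧
    (∀ i (P : Place K F), P ≠ Q → P ≠ R i → e i ∈ P.toValuationSubring) ∧
    (∀ i, -1 ≤ (R i).ord (e i)) ∧
    ∃ Q₀ : Place K F, ∀ i, sp Q₀ ≠ sp (R i) := by
  have hreg : ∀ i (P : Place K F), P ≠ Q → P ≠ R i → e i ∈ P.toValuationSubring :=
    fun i P hPQ hPR => mem_of_mem_rr_single_add (hrr i) P hPQ hPR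
  have hpole : ∀ i, -1 ≤ (R i).ord (e i) := fun i =>
    neg_one_le_ord_of_mem_rr_single_add (hrr i) (fun hRQ => hQ i (by rw [hRQ]))
  obtain ⟨h1, h2, h3, h4, h5, h6⟩ := sys_adapter hker hcons R Q e hinj hQ heO hreg hpole hred
  exact ⟨h1, h2, h3, h4, h5, hreg, hpole, h6⟩

end Sys

end Fermat.Agent.S19.helper9477
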