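import Mathlib
import Fermat.Agent.S19.helper2570_CAlgKeySys
import Fermat.Agent.S19.helper6256_SpecCAlg
import Fermat.Agent.S19.helper9477_TCoord

/-!
# S19, C-alg main line: the abstract core `helper6256.Stmt_CAlgAbs`

An adapted cover (`helper6256.IsAdaptedCover`) gives a coordinate system on the specialisation
kernel (`helper6256.IsAbsCoordSystem`), with coordinates `helper5161.coord sp R t`,
`t i = -(e i)⁻¹`:

* `isAdapted_of_cover`: the adapted system of `helper5161` from the fields of the cover
  (`helper9477.sys_adapter`);
* `stable`, `val`, `eqv`, `inj`: `helper5161.coordSystem_core`;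
* `cen`: `helper2007.exists_fixed_centre`;
* `law`: `law_sys` (the key lemma (T5)).
-/

set_option autoImplicit false

namespace Fermat.Agent.S19.helper2570

open AlgebraicCurve Fermat.Agent.S37.helper126 Fermat.Agent.S19.helper2007

section Abs

variable {K F k Fk : Type} [Field K] [Field F] [Algebra K F] [Field k] [Field Fk] [Algebra k Fk]
variable {A : ValuationSubring K} {π : K} {Gam : Set (SemilinearAut K F)}
variable {O : ValuationSubring F} {red : O →+* Fk} {sp : Place K F → Place k Fk}
variable {g : ℕ} {R : Fin g → Place K F} {e : Fin g → F} {Poo : Place K F}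

/-- The adapted system of `helper5161` underlying an adapted cover, with disc coordinates
`t i = -(e i)⁻¹`. -/
theorem isAdapted_of_cover (h : helper6256.IsAdaptedCover A π Gam O red sp g R e Poo) :
    helper5161.IsAdapted O red sp R (fun i => -(e i)⁻¹) := by
  have := h.hPD
  obtain ⟨hcoord, hzero, -, -, -, hbase⟩ := helper9477.sys_adapter h.hker h.hcons R Poo e
    h.hinj h.hoo h.he_mem h.he_reg h.he_pole h.he_red
  exact
    { ker := h.hker
      const := h.hconst
      vg := h.hvg
      cons := h.hcons
      deg1 := h.hdeg1
      inj := h.hinj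
      coord := hcoord
      zero := hzero
      ns := h.hNS
      rr := h.hRR
      base := hbase }

/-- An adapted cover gives a coordinate system on the specialisation kernel, with the explicit
coordinates `helper5161.coord sp R t`, `t i = -(e i)⁻¹`. -/
theorem isAbsCoordSystem_of_cover (h : helper6256.IsAdaptedCover A π Gam O red sp g R e Poo) :
    helper6256.IsAbsCoordSystem A π Gam g (specKernel sp)
      (helper5161.coord sp R (fun i => -(e i)⁻¹)) := by
  have := h.hPD
  have hS := isAdapted_of_cover h
  have hGt : ∀ γ ∈ Gam, ∀ i, γ • (-(e i)⁻¹) = -(e i)⁻¹ := fun γ hγ i => by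
    rw [smul_neg, smul_inv'', h.hGam_e γ hγ i]
  obtain ⟨hst, hval, heqv, hinj⟩ := helper5161.coordSystem_core hS Gam h.hGam_sp hGt
  exact
    { stable := hst
      val := fun x hx i => (h.hA _).mp (mem_of_mem_nonunits O (hval x hx i))
      eqv := heqv
      inj := hinj
      cen := exists_fixed_centre Gam h.hdeg h.hcen
      law := fun j T hT =>
        law_sys hS Poo h.hoo e (fun i => by rw [inv_neg, inv_inv, neg_neg]) h.he_reg A h.hA h.hE π
          h.hrank j T hT }

end Abs

/-- **The abstract core of the main line C-alg** (`helper6256.Stmt_CAlgAbs`): an adapted cover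
gives a coordinate system on the specialisation kernel. -/
theorem stmt_CAlgAbs : helper6256.Stmt_CAlgAbs := by
  intro K F k Fk _ _ _ _ _ _ A π Gam O red sp g R e Poo h
  exact ⟨_, isAbsCoordSystem_of_cover h⟩

/-- The captain's `Stmt_Coords ℓ M` from an adapted cover at level `M`. -/
theorem stmt_Coords_of_cover {ℓ M : ℕ} (hcov : helper6256.Stmt_CAlgCover ℓ M) :
    helper2111.Stmt_Coords ℓ M :=
  helper6256.stmt_Coords_of_calg stmt_CAlgAbs hcov

/-- The captain's coordinate system at `(M, A)` from an adapted cover at `(M, A)`. -/
theorem isCoordSystem_of_cover {ℓ M : ℕ} {A : ValuationSubring helper2111.Qb}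
    (hcov : helper6256.CAlgCoverAt ℓ M A) :
    ∃ (g : ℕ) (J1 : AddSubgroup (ModularCurve.JZero M))
      (b : ModularCurve.JZero M → Fin g → helper2111.Qb),
      helper2111.IsCoordSystem ℓ M A g J1 b :=
  helper6256.isCoordSystem_of_calg stmt_CAlgAbs hcov

end Fermat.Agent.S19.helper2570
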