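import Mathlib
import Fermat.Prelude.Def_ModularCurve_IgusaScheme
import Fermat.Agent.S19.helper2790_SpecW

set_option autoImplicit false

/-!
# S19, route W: reduction vocabulary and the W3/W4 interface (architect helper2790)

`A` is a valuation subring of `Qbar` above `ℓ`, `F0 = modularFunctionFieldFull N`,
`F = modularFunctionFieldBar N`, `iotaQ N : F0 →+* F` the coefficientwise embedding.

* `InChart N A S P`      : every function of `S ⊆ F0` has a value in `A` at the place `P`
                           (`S = chartAlgFin N ℓ`: the point `P` has `j(P) ∈ A`;
                            `S = chartAlgInf N ℓ`: `j(P)⁻¹ ∈ A`, cusps included).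
* `SameRedIn N A S P Q`  : `P`, `Q` lie in the chart `S` and no function of `S` separates their
                           reductions modulo the maximal ideal of `A`.
* `SameRed N ℓ A P Q`    : same reduction in the chart `chartAlgFin` or in the chart `chartAlgInf`
                           (= same closed point of the special fibre of the Igusa model).
* `Stmt_Moving N ℓ A`    : W4, the moving lemma over `A`: every divisor class of degree zero has a
                           representative whose points do not reduce onto a given finite set of
                           reductions.  This is the ONLY statement of route W which uses good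
                           reduction (NORMAL / invertible point ideals).
-/

namespace Fermat.Agent.S19.helper2790

open AlgebraicCurve ModularCurve ModularCurve.IgusaScheme Fermat.Agent.S19.helper2111

noncomputable section

/-- The coefficientwise embedding of the rational function field `F0` into `F = Qbar · F0`. -/
def iotaQ (N : ℕ) : ↥(modularFunctionFieldFull N) →+* ↥(modularFunctionFieldBar N) where
  toFun x := ⟨coeffEmb Qb (x : LaurentSeries ℚ), coeffEmb_mem_laurentBaseChange Qb x.2⟩
  map_one' := Subtype.ext (map_one (coeffEmb Qb))
  map_mul' x y := Subtype.ext (map_mul (coeffEmb Qb) (x : LaurentSeries ℚ) (y : LaurentSeries ℚ))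
  map_zero' := Subtype.ext (map_zero (coeffEmb Qb))
  map_add' x y := Subtype.ext (map_add (coeffEmb Qb) (x : LaurentSeries ℚ) (y : LaurentSeries ℚ))

@[simp]
theorem coe_iotaQ (N : ℕ) (x : ↥(modularFunctionFieldFull N)) :
    ((iotaQ N x : ↥(modularFunctionFieldBar N)) : LaurentSeries Qb)
      = coeffEmb Qb (x : LaurentSeries ℚ) := rfl

/-- Galois acts trivially on rational functions. -/
theorem arithmeticGalois_smul_iotaQ (N : ℕ) (σ : GQ) (x : ↥(modularFunctionFieldFull N)) :
    arithmeticGalois (modularFunctionFieldFull N) σ • iotaQ N x = iotaQ N x := by
  apply Subtype.ext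
  rw [coe_arithmeticGalois_smul, coe_iotaQ]
  exact coeffMap_coeffEmb σ _

variable (N : ℕ) (A : ValuationSubring Qb)

/-- Every function of `S` has a value in `A` at the place `P`. -/
def InChart (S : Set ↥(modularFunctionFieldFull N))
    (P : Place Qb ↥(modularFunctionFieldBar N)) : Prop :=
  ∀ s ∈ S, ∃ c : Qb, c ∈ A ∧ HasValue P (iotaQ N s) c

/-- `P` and `Q` lie in the chart `S` and have the same reduction there. -/
def SameRedIn (S : Set ↥(modularFunctionFieldFull N))
    (P Q : Place Qb ↥(modularFunctionFieldBar N)) : Prop :=
  InChart N A S P ∧ InChart N A S Q ∧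
    ∀ s ∈ S, ∀ c d : Qb, HasValue P (iotaQ N s) c → HasValue Q (iotaQ N s) d →
      c - d ∈ A.nonunits

/-- `P` and `Q` have the same reduction at `A` (in one of the two charts of the Igusa model). -/
def SameRed (ℓ : ℕ) [NeZero N] [Fact ℓ.Prime]
    (P Q : Place Qb ↥(modularFunctionFieldBar N)) : Prop :=
  SameRedIn N A (chartAlgFin N ℓ : Set ↥(modularFunctionFieldFull N)) P Q ∨
    SameRedIn N A (chartAlgInf N ℓ : Set ↥(modularFunctionFieldFull N)) P Q

/-- W4. **Moving lemma over `A`**: every degree-zero divisor is linearly equivalent to one whose
points do not reduce onto the reduction of any point of a given finite set `T`. -/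
def Stmt_Moving (ℓ : ℕ) [NeZero N] [Fact ℓ.Prime] : Prop :=
  ∀ (D : Divisor.degZero (K := Qb) (F := ↥(modularFunctionFieldBar N)))
    (T : Finset (Place Qb ↥(modularFunctionFieldBar N))),
    ∃ D' : Divisor.degZero (K := Qb) (F := ↥(modularFunctionFieldBar N)),
      Pic0.mk D' = Pic0.mk D ∧
      ∀ P ∈ (D' : Divisor Qb ↥(modularFunctionFieldBar N)).support, ∀ Q ∈ T,
        ¬ SameRed N A ℓ P Q

end

end Fermat.Agent.S19.helper2790
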