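import Fermat.Agent.S19.helper2790_SpecW
import Fermat.Agent.S19.helper1527_WeilPairing
import Fermat.Agent.S19.helper2289_Level
import Fermat.Agent.S19.helper4778_Fin
import Fermat.Agent.S19.helper1852_FuncModel
import Fermat.Agent.S29.helper8527_FiniteLevel
import Fermat.Agent.S37.helper5162_HeckeInputsModular

set_option autoImplicit false

/-!
# S19, route W: the root of the chain (helper2790)

`result_of_weil` : the frozen statement S19 at level `p` from THREE Props at the single auxiliary
level `M = helper2289.auxLevel p ℓ`: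

* `Reciprocity ℚ̄ F̄_M`      : Weil reciprocity on the generic fibre (W1b);
* `WeilND ℚ̄ F̄_M (ℓ ^ k)`   : nondegeneracy of the Weil pairing on `ℓ ^ k`-torsion (W2);
* `Stmt_WeilInt M ℓ k`       : integrality of the pairing at one place over `ℓ` (W3).

Everything else is landed: the pairing (helper1527: existence, uniqueness, bilinearity and
semilinearity from reciprocity), the criterion (`galModel_of_pairing`), finiteness of the
torsion (helper4778), open stabilisers (S29 helper8527), the level change (helper2289), the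
function model (helper1852), and the place theory of `F̄_M` (S37 helper5162).
-/

noncomputable section

namespace Fermat.Agent.S19.helper2790

open ModularCurve AlgebraicCurve
open Fermat.Agent.S19.helper2111

/-- Every place of the modular function field over `ℚ̄` has values. -/
theorem hasValues_bar (N : ℕ) [NeZero N] (P : Place Qb (modularFunctionFieldBar N)) :
    Fermat.Agent.S27.helper4586.HasValues P :=
  Fermat.Agent.S27.helper4586.hasValues_of_residue_surjective P
    (Fermat.Agent.S37.helper5162.residueField_surjective N P)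

/-- The torsion has open stabilisers (S29 helper8527). -/
theorem tors_open (N : ℕ) [NeZero N] (ℓ k : ℕ) [Fact ℓ.Prime] :
    ∃ L : IntermediateField ℚ Qb, FiniteDimensional ℚ L ∧
      ∀ σ : GQ, (∀ y ∈ L, σ y = y) → ∀ x : Tors N ℓ k, torsAct N ℓ k σ x = x := by
  have hℓ : ℓ.Prime := Fact.out
  have : Finite (Tors N ℓ k) := Fermat.Agent.S19.helper4778.stmt_Fin N ℓ hℓ.ne_zero k
  obtain ⟨L, hL, hσ⟩ := Fermat.Agent.S29.helper8527.exists_finiteLevel_of_finite N
    (S := Set.range (fun m : Tors N ℓ k => (m : JZero N))) (Set.finite_range _)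
  exact ⟨L, hL, fun σ hs m => Subtype.ext (hσ σ hs _ ⟨m, rfl⟩)⟩

/-- **MODEL at level `N` from reciprocity, nondegeneracy and integrality** (the pairing is
helper1527's; no further input). -/
theorem stmt_Model_of_recip (N : ℕ) [NeZero N] (ℓ k : ℕ) [Fact ℓ.Prime]
    (hR : Reciprocity Qb (modularFunctionFieldBar N))
    (hND : WeilND Qb (modularFunctionFieldBar N) (ℓ ^ k))
    (hI : Stmt_WeilInt N ℓ k) : Stmt_Model N ℓ k := by
  have : HasPrincipalDivisors Qb (modularFunctionFieldBar N) :=
    Fermat.Agent.S37.helper5162.hasPrincipalDivisors_FN N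
  have hV := hasValues_bar N
  exact stmt_Model_of_weil N ℓ k (Fermat.Agent.S19.helper4778.stmt_Fin_prime N ℓ k)
    (tors_open N ℓ k)
    (Fermat.Agent.S19.helper1527.weilExists hV _)
    (Fermat.Agent.S19.helper1527.weilUnique hV hR _)
    (Fermat.Agent.S19.helper1527.weilMul hV hR _)
    (Fermat.Agent.S19.helper1527.weilSemilinear _)
    hND hI

/-- **Root of route W**: the frozen statement S19 from reciprocity, nondegeneracy and
integrality of the Weil pairing at the auxiliary level `auxLevel p ℓ`. -/
theorem result_of_weil (p : ℕ) [NeZero p] (ℓ : ℕ) [Fact ℓ.Prime] (k : ℕ)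
    (hR : Reciprocity Qb (modularFunctionFieldBar (Fermat.Agent.S19.helper2289.auxLevel p ℓ)))
    (hND : WeilND Qb (modularFunctionFieldBar (Fermat.Agent.S19.helper2289.auxLevel p ℓ))
      (ℓ ^ k))
    (hI : Stmt_WeilInt (Fermat.Agent.S19.helper2289.auxLevel p ℓ) ℓ k) :
    ∃ (H : Type) (_ : CommRing H) (_ : HopfAlgebra (GaloisRep.ratLocalizedAt ℓ) H),
      Module.Finite (GaloisRep.ratLocalizedAt ℓ) H ∧ Module.Flat (GaloisRep.ratLocalizedAt ℓ) H ∧
      Coalgebra.IsCocomm (GaloisRep.ratLocalizedAt ℓ) H ∧
      ∃ e : WithConv (H →ₐ[GaloisRep.ratLocalizedAt ℓ] AlgebraicClosure ℚ) ≃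
          ↥(Submodule.torsionBy ℤ (JZero p) ((ℓ : ℤ) ^ k)),
        (∀ f g, e (f * g) = e f + e g) ∧
        ∀ (σ : AlgebraicClosure ℚ ≃ₐ[ℚ] AlgebraicClosure ℚ)
          (f g : WithConv (H →ₐ[GaloisRep.ratLocalizedAt ℓ] AlgebraicClosure ℚ)),
          (∀ h : H, g h = σ (f h)) → ((e g : JZero p)) = σ • (e f : JZero p) := by
  have hmodel : Stmt_Model p ℓ k :=
    Fermat.Agent.S19.helper2289.stmt_Model_of_aux p ℓ k
      (stmt_Model_of_recip (Fermat.Agent.S19.helper2289.auxLevel p ℓ) ℓ k hR hND hI)
  exact result_of p ℓ k (Fermat.Agent.S19.helper1852.stmt_FuncModel ℓ)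
    (Fermat.Agent.S19.helper4778.stmt_Fin_prime p ℓ k) hmodel

end Fermat.Agent.S19.helper2790

end
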