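import Mathlib
import Fermat.Prelude.Def_AlgebraicCurve_Repartitions
import Fermat.Agent.S18.helper981_Riemann

/-!
# S19-GENPOS: general position from Riemann's theorem alone

Field-level "general position" statements for a function field `F / K` all of whose places
have degree one, in the Prelude vocabulary (`Place`, `Divisor`, `riemannRochSpace`, `H1`),
on top of the landed S18 brick `helper981_Riemann` (weak Riemann-Roch with `h¹`,
`l(D) - h¹(D) = deg D + 1 - g`, and vanishing of `H1` in large degree).  No duality, no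
differentials, any characteristic.

* `finite_setOf_not_le` (GP0): if `H1 D ≠ 0`, all but finitely many places `P` satisfy
  `L(D + P) = L(D)` (and then `h¹(D + P) = h¹(D) - 1`).
* `exists_sumDiv_subsingleton_H1` (GP1): for every finite set `T` of places there is a reduced
  effective divisor `∑_{P ∈ S} P` with `S` disjoint from `T`, `|S| = h¹(D)`,
  `H1 (D + ∑ S) = 0` and `L(D + ∑ S) = L(D)`.  `exists_nonspecial` is the case `D = 0`
  (`|S| = genusFF`, `L = constants`).
* `exists_mem_forall_val_eq` (GP2): over an infinite constant field, a section of `L(D)` with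
  exact order `D P` at finitely many prescribed places which are not base points;
  `exists_pair_generating`: two sections generating `L(D)` everywhere.
* `exists_interpolating` (GP3): interpolation at finitely many distinct places when
  `H1 (D - ∑ S) = 0`; `finrank_sub_sumDiv`.
* `exists_local_parameter`: a uniformiser at `Q`, regular away from `P∞`, a unit at the
  places of a prescribed finite set.
-/

namespace Fermat.Agent.S19.helper2893

open AlgebraicCurve WithZero Module
open Fermat.Agent.S18.helper981

variable {K F : Type*} [Field K] [Field F] [Algebra K F]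

/-- The reduced effective divisor `∑_{P ∈ S} P`. -/
noncomputable def sumDiv (S : Finset (Place K F)) : Divisor K F :=
  ∑ P ∈ S, Finsupp.single P (1 : ℤ)

@[simp] theorem sumDiv_empty : sumDiv (∅ : Finset (Place K F)) = 0 := by
  simp [sumDiv]

theorem sumDiv_insert [DecidableEq (Place K F)] {S : Finset (Place K F)} {P : Place K F}
    (hP : P ∉ S) : sumDiv (insert P S) = sumDiv S + Finsupp.single P 1 := by
  unfold sumDiv
  rw [Finset.sum_insert hP, add_comm]

theorem sumDiv_apply [DecidableEq (Place K F)] (S : Finset (Place K F)) (v : Place K F) :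
    sumDiv S v = if v ∈ S then 1 else 0 := by
  unfold sumDiv
  rw [Finsupp.finsetSum_apply]
  simp [Finsupp.single_apply]

theorem sumDiv_apply_of_mem {S : Finset (Place K F)} {v : Place K F} (hv : v ∈ S) :
    sumDiv S v = 1 := by
  classical
  rw [sumDiv_apply, if_pos hv]

theorem sumDiv_apply_of_notMem {S : Finset (Place K F)} {v : Place K F} (hv : v ∉ S) :
    sumDiv S v = 0 := by
  classical
  rw [sumDiv_apply, if_neg hv]

theorem sumDiv_nonneg (S : Finset (Place K F)) : 0 ≤ sumDiv S := by
  classical
  rw [Finsupp.le_def]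
  intro v
  rw [sumDiv_apply]
  split_ifs <;> simp

theorem sumDiv_mono {S S' : Finset (Place K F)} (h : S ⊆ S') : sumDiv S ≤ sumDiv S' := by
  classical
  rw [Finsupp.le_def]
  intro v
  rw [sumDiv_apply, sumDiv_apply]
  by_cases hv : v ∈ S
  · rw [if_pos hv, if_pos (h hv)]
  · rw [if_neg hv]
    split_ifs <;> simp

theorem degree_sumDiv (hdeg : ∀ v : Place K F, v.deg = 1) (S : Finset (Place K F)) :
    Divisor.degree (sumDiv S) = S.card := by
  unfold sumDiv
  rw [map_sum]
  simp [degree_single_one hdeg]

theorem le_add_sumDiv (D : Divisor K F) (S : Finset (Place K F)) : D ≤ D + sumDiv S :=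
  le_add_of_nonneg_right (sumDiv_nonneg S)

theorem sub_sumDiv_le (D : Divisor K F) (S : Finset (Place K F)) : D - sumDiv S ≤ D :=
  sub_le_self D (sumDiv_nonneg S)

/-! ## The one-step dichotomy -/

section OneStep

variable [HasPrincipalDivisors K F]

/-- Adding one place either keeps `l` and lowers `h¹` by one, or raises `l` by one and keeps
`h¹`. -/
theorem succ_dichotomy (hdeg : ∀ v : Place K F, v.deg = 1) (P₀ : Place K F)
    (h : HasRiemannBound K F) (D : Divisor K F) (P : Place K F) :
    (finrank K (riemannRochSpace (D + Finsupp.single P 1)) = finrank K (riemannRochSpace D) ∧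
        finrank K (H1 (D + Finsupp.single P 1)) + 1 = finrank K (H1 D)) ∨
      (finrank K (riemannRochSpace (D + Finsupp.single P 1)) =
          finrank K (riemannRochSpace D) + 1 ∧
        finrank K (H1 (D + Finsupp.single P 1)) = finrank K (H1 D)) := by
  have h1 := finrank_sub_finrank_H1 hdeg P₀ h D
  have h2 := finrank_sub_finrank_H1 hdeg P₀ h (D + Finsupp.single P 1)
  rw [map_add, degree_single_one hdeg] at h2
  have h3 := finrank_mono hdeg P₀ (le_add_single D P)
  have h4 := (finite_succ hdeg D P (finite_riemannRochSpace hdeg P₀ D)).2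
  have h5 := finrank_H1_le_of_le hdeg P₀ h (le_add_single D P)
  omega

/-- `L(D + P) = L(D)` iff the dimensions agree. -/
theorem succ_le_iff_finrank_eq (hdeg : ∀ v : Place K F, v.deg = 1) (P₀ : Place K F)
    (D : Divisor K F) (P : Place K F) :
    riemannRochSpace (D + Finsupp.single P 1) ≤ riemannRochSpace D ↔
      finrank K (riemannRochSpace (D + Finsupp.single P 1)) = finrank K (riemannRochSpace D) := by
  have hfin := finite_riemannRochSpace hdeg P₀ (D + Finsupp.single P 1)
  have hmono := riemannRochSpace_mono (le_add_single D P)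
  constructor
  · intro hle
    rw [le_antisymm hle hmono]
  · intro heq
    exact (Submodule.eq_of_le_of_finrank_eq hmono heq.symm).ge

/-- If `L(D + P) = L(D)` then `h¹(D + P) = h¹(D) - 1`. -/
theorem finrank_H1_succ_of_le (hdeg : ∀ v : Place K F, v.deg = 1) (P₀ : Place K F)
    (h : HasRiemannBound K F) (D : Divisor K F) (P : Place K F)
    (hle : riemannRochSpace (D + Finsupp.single P 1) ≤ riemannRochSpace D) :
    finrank K (H1 (D + Finsupp.single P 1)) + 1 = finrank K (H1 D) := by
  have heq := (succ_le_iff_finrank_eq hdeg P₀ D P).mp hle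
  rcases succ_dichotomy hdeg P₀ h D P with h1 | h1
  · exact h1.2
  · omega

/-- If `L(D + P) ≠ L(D)` then `l(D + P) = l(D) + 1` and `h¹(D + P) = h¹(D)`. -/
theorem finrank_succ_of_not_le (hdeg : ∀ v : Place K F, v.deg = 1) (P₀ : Place K F)
    (h : HasRiemannBound K F) (D : Divisor K F) (P : Place K F)
    (hle : ¬ riemannRochSpace (D + Finsupp.single P 1) ≤ riemannRochSpace D) :
    finrank K (riemannRochSpace (D + Finsupp.single P 1)) = finrank K (riemannRochSpace D) + 1 ∧
      finrank K (H1 (D + Finsupp.single P 1)) = finrank K (H1 D) := by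
  rcases succ_dichotomy hdeg P₀ h D P with h1 | h1
  · exact absurd ((succ_le_iff_finrank_eq hdeg P₀ D P).mpr h1.1) hle
  · exact h1

/-- If `H1 E = 0`, then `L(E + P) ≠ L(E)` for every place `P`: there is a function with exact
order `E P + 1` at `P`. -/
theorem exists_mem_succ_not_mem (hdeg : ∀ v : Place K F, v.deg = 1) (P₀ : Place K F)
    (h : HasRiemannBound K F) (E : Divisor K F) (P : Place K F) (hE : Subsingleton (H1 E)) :
    ∃ f ∈ riemannRochSpace (E + Finsupp.single P 1),
      f ∉ riemannRochSpace E ∧ P.adicValuation f = exp (E P + 1) := by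
  have h0 : finrank K (H1 E) = 0 := Module.finrank_zero_of_subsingleton
  have hnot : ¬ riemannRochSpace (E + Finsupp.single P 1) ≤ riemannRochSpace E := by
    intro hle
    have := finrank_H1_succ_of_le hdeg P₀ h E P hle
    omega
  obtain ⟨f, hf, hf'⟩ := SetLike.not_le_iff_exists.mp hnot
  exact ⟨f, hf, hf', val_eq_of_mem_succ_of_not_mem E P hf hf'⟩

/-- If `H1 (D - P) = 0`, then `P` is not a base point of `L(D)`. -/
theorem not_le_sub_single (hdeg : ∀ v : Place K F, v.deg = 1) (P₀ : Place K F)
    (h : HasRiemannBound K F) (D : Divisor K F) (P : Place K F)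
    (hD : Subsingleton (H1 (D - Finsupp.single P 1))) :
    ¬ riemannRochSpace D ≤ riemannRochSpace (D - Finsupp.single P 1) := by
  obtain ⟨f, hf, hf', -⟩ :=
    exists_mem_succ_not_mem hdeg P₀ h (D - Finsupp.single P 1) P hD
  rw [sub_add_cancel] at hf
  exact fun hle => hf' (hle hf)

omit [HasPrincipalDivisors K F] in
/-- Exact order at `P` of a section of `L(D)` which is not in `L(D - P)`. -/
theorem val_eq_of_mem_of_not_mem_sub (D : Divisor K F) (P : Place K F) {f : F}
    (hf : f ∈ riemannRochSpace D) (hf' : f ∉ riemannRochSpace (D - Finsupp.single P 1)) :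
    P.adicValuation f = exp (D P) := by
  have hf2 : f ∈ riemannRochSpace (D - Finsupp.single P 1 + Finsupp.single P 1) := by
    rwa [sub_add_cancel]
  have := val_eq_of_mem_succ_of_not_mem (D - Finsupp.single P 1) P hf2 hf'
  rwa [Finsupp.sub_apply, Finsupp.single_eq_same, sub_add_cancel] at this

/-- `H1` vanishes above a divisor where it vanishes. -/
theorem subsingleton_H1_of_le (hdeg : ∀ v : Place K F, v.deg = 1) (P₀ : Place K F)
    (h : HasRiemannBound K F) {D E : Divisor K F} (hDE : D ≤ E) (hD : Subsingleton (H1 D)) :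
    Subsingleton (H1 E) := by
  have h0 : finrank K (H1 D) = 0 := Module.finrank_zero_of_subsingleton
  have h1 := finrank_H1_le_of_le hdeg P₀ h hDE
  have hfin := finite_H1 hdeg P₀ h E
  have h2 : finrank K (H1 E) = 0 := by omega
  exact Module.finrank_zero_iff.mp h2

end OneStep

/-! ## GP0 and GP1: lowering `h¹` by general places -/

section GP1

variable [HasPrincipalDivisors K F]

/-- Adding the places of a finite set of "jump" places of `D` raises `l` by its cardinality. -/
theorem finrank_add_card_le (hdeg : ∀ v : Place K F, v.deg = 1) (P₀ : Place K F)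
    (h : HasRiemannBound K F) (D : Divisor K F) (S : Finset (Place K F))
    (hS : ∀ P ∈ S, ¬ riemannRochSpace (D + Finsupp.single P 1) ≤ riemannRochSpace D) :
    finrank K (riemannRochSpace D) + S.card ≤ finrank K (riemannRochSpace (D + sumDiv S)) := by
  classical
  induction S using Finset.induction_on with
  | empty => rw [sumDiv_empty, add_zero, Finset.card_empty, add_zero]
  | insert Q S' hQ ih =>
    have ih' := ih fun P hP => hS P (Finset.mem_insert_of_mem hP)
    obtain ⟨f, hf, hf'⟩ := SetLike.not_le_iff_exists.mp (hS Q (Finset.mem_insert_self Q S'))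
    have hval := val_eq_of_mem_succ_of_not_mem D Q hf hf'
    have hfmem : f ∈ riemannRochSpace (D + sumDiv S' + Finsupp.single Q 1) :=
      riemannRochSpace_mono (add_le_add_left (le_add_sumDiv D S') _) hf
    have hfnot : f ∉ riemannRochSpace (D + sumDiv S') := by
      intro hmem
      have := hmem Q
      rw [Finsupp.add_apply, sumDiv_apply_of_notMem hQ, add_zero, hval, exp_le_exp] at this
      omega
    have hnot : ¬ riemannRochSpace (D + sumDiv S' + Finsupp.single Q 1) ≤
        riemannRochSpace (D + sumDiv S') := fun hle => hfnot (hle hfmem)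
    have := (finrank_succ_of_not_le hdeg P₀ h (D + sumDiv S') Q hnot).1
    rw [sumDiv_insert hQ, ← add_assoc, this, Finset.card_insert_of_notMem hQ]
    omega

/-- **GP0.** If `H1 D ≠ 0`, then `L(D + P) = L(D)` for all but finitely many places `P`. -/
theorem finite_setOf_not_le (hdeg : ∀ v : Place K F, v.deg = 1) (P₀ : Place K F)
    (h : HasRiemannBound K F) (D : Divisor K F) (hD : 0 < finrank K (H1 D)) :
    {P : Place K F |
      ¬ riemannRochSpace (D + Finsupp.single P 1) ≤ riemannRochSpace D}.Finite := by
  by_contra hinf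
  obtain ⟨c, hc⟩ := exists_forall_subsingleton_H1 hdeg P₀ h
  obtain ⟨S, hS, hcard⟩ :=
    (Set.not_finite.mp hinf).exists_subset_card_eq (c - Divisor.degree D).toNat
  have key := finrank_add_card_le hdeg P₀ h D S fun P hP => hS hP
  have hdegS : c ≤ Divisor.degree (D + sumDiv S) := by
    rw [map_add, degree_sumDiv hdeg, hcard]
    have := Int.self_le_toNat (c - Divisor.degree D)
    omega
  have hsub := hc _ hdegS
  have h0 : finrank K (H1 (D + sumDiv S)) = 0 := Module.finrank_zero_of_subsingleton
  have h1 := finrank_sub_finrank_H1 hdeg P₀ h D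
  have h2 := finrank_sub_finrank_H1 hdeg P₀ h (D + sumDiv S)
  rw [map_add, degree_sumDiv hdeg, h0] at h2
  push_cast at h2
  omega

/-- **GP1.** For every finite set `T` of places there is a reduced effective divisor
`∑_{P ∈ S} P`, with `S` disjoint from `T` and `|S| = h¹(D)`, such that
`H1 (D + ∑ S) = 0` and `L(D + ∑ S) = L(D)`. -/
theorem exists_sumDiv_subsingleton_H1 [Infinite (Place K F)]
    (hdeg : ∀ v : Place K F, v.deg = 1) (P₀ : Place K F) (h : HasRiemannBound K F)
    (D : Divisor K F) (T : Finset (Place K F)) :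
    ∃ S : Finset (Place K F), Disjoint S T ∧ S.card = finrank K (H1 D) ∧
      Subsingleton (H1 (D + sumDiv S)) ∧
      riemannRochSpace (D + sumDiv S) = riemannRochSpace D := by
  classical
  suffices H : ∀ (n : ℕ) (D : Divisor K F) (T : Finset (Place K F)), finrank K (H1 D) = n →
      ∃ S : Finset (Place K F), Disjoint S T ∧ S.card = n ∧
        Subsingleton (H1 (D + sumDiv S)) ∧
        riemannRochSpace (D + sumDiv S) = riemannRochSpace D by
    obtain ⟨S, h1, h2, h3, h4⟩ := H _ D T rfl
    exact ⟨S, h1, h2, h3, h4⟩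
  intro n
  induction n with
  | zero =>
    intro D T hn
    have hfin := finite_H1 hdeg P₀ h D
    refine ⟨∅, Finset.disjoint_empty_left T, rfl, ?_, ?_⟩
    · rw [sumDiv_empty, add_zero]
      exact Module.finrank_zero_iff.mp hn
    · rw [sumDiv_empty, add_zero]
  | succ n ih =>
    intro D T hn
    have hbad := finite_setOf_not_le hdeg P₀ h D (by omega)
    obtain ⟨P, hP⟩ := (hbad.union T.finite_toSet).exists_notMem
    rw [Set.mem_union, not_or, Set.mem_ofPred_eq, not_not, Finset.mem_coe] at hP
    obtain ⟨hle, hPT⟩ := hP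
    have hstep := finrank_H1_succ_of_le hdeg P₀ h D P hle
    obtain ⟨S', hdisj, hcard, hsub, hL⟩ := ih (D + Finsupp.single P 1) (insert P T) (by omega)
    have hPS' : P ∉ S' := fun hmem =>
      Finset.disjoint_left.mp hdisj hmem (Finset.mem_insert_self P T)
    have hrw : D + sumDiv (insert P S') = D + Finsupp.single P 1 + sumDiv S' := by
      rw [sumDiv_insert hPS']; abel
    refine ⟨insert P S', ?_, ?_, ?_, ?_⟩
    · rw [Finset.disjoint_insert_left]
      exact ⟨hPT, hdisj.mono_right (Finset.subset_insert P T)⟩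
    · rw [Finset.card_insert_of_notMem hPS', hcard]
    · rw [hrw]; exact hsub
    · rw [hrw, hL]
      exact le_antisymm hle (riemannRochSpace_mono (le_add_single D P))

omit [HasPrincipalDivisors K F] in
/-- Stepwise form of GP1: every sub-sum of a system as in GP1 still has `L = L(D)`. -/
theorem riemannRochSpace_add_sumDiv_eq_of_subset {D : Divisor K F} {S S' : Finset (Place K F)}
    (hS : riemannRochSpace (D + sumDiv S) = riemannRochSpace D) (hsub : S' ⊆ S) :
    riemannRochSpace (D + sumDiv S') = riemannRochSpace D :=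
  le_antisymm
    (hS ▸ riemannRochSpace_mono (add_le_add_right (sumDiv_mono hsub) D))
    (riemannRochSpace_mono (le_add_sumDiv D S'))

/-- If `L(D + ∑ S) = L(D)` then `h¹(D + ∑ S) = h¹(D) - |S|`. -/
theorem finrank_H1_add_sumDiv (hdeg : ∀ v : Place K F, v.deg = 1) (P₀ : Place K F)
    (h : HasRiemannBound K F) (D : Divisor K F) (S : Finset (Place K F))
    (hS : riemannRochSpace (D + sumDiv S) = riemannRochSpace D) :
    finrank K (H1 (D + sumDiv S)) + S.card = finrank K (H1 D) := by
  have h1 := finrank_sub_finrank_H1 hdeg P₀ h D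
  have h2 := finrank_sub_finrank_H1 hdeg P₀ h (D + sumDiv S)
  rw [hS, map_add, degree_sumDiv hdeg] at h2
  omega

/-- `L(0)` consists of constants. -/
theorem exists_algebraMap_eq_of_mem_zero (hdeg : ∀ v : Place K F, v.deg = 1) (P₀ : Place K F)
    {f : F} (hf : f ∈ riemannRochSpace (0 : Divisor K F)) : ∃ c : K, f = algebraMap K F c := by
  have h1 := finrank_zero (K := K) (F := F) hdeg P₀
  have hne : (⟨1, one_mem_riemannRochSpace_zero⟩ : riemannRochSpace (0 : Divisor K F)) ≠ 0 :=
    fun h0 => one_ne_zero (congrArg Subtype.val h0)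
  obtain ⟨c, hc⟩ := (finrank_eq_one_iff_of_nonzero' _ hne).mp h1 ⟨f, hf⟩
  refine ⟨c, ?_⟩
  have := congrArg Subtype.val hc
  simp only [Submodule.coe_smul] at this
  rw [← this, Algebra.smul_def, mul_one]

/-- **GP1 for `D = 0`**: a non-special reduced effective divisor of degree `g = genusFF`
avoiding a prescribed finite set of places: `H1 = 0` and `L = constants`. -/
theorem exists_nonspecial [Infinite (Place K F)]
    (hdeg : ∀ v : Place K F, v.deg = 1) (P₀ : Place K F) (h : HasRiemannBound K F)
    (T : Finset (Place K F)) :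
    ∃ S : Finset (Place K F), Disjoint S T ∧ S.card = genusFF K F ∧
      Subsingleton (H1 (sumDiv S)) ∧
      riemannRochSpace (sumDiv S) = riemannRochSpace (0 : Divisor K F) ∧
      finrank K (riemannRochSpace (sumDiv S)) = 1 ∧
      ∀ f ∈ riemannRochSpace (sumDiv S), ∃ c : K, f = algebraMap K F c := by
  obtain ⟨S, h1, h2, h3, h4⟩ := exists_sumDiv_subsingleton_H1 hdeg P₀ h (0 : Divisor K F) T
  rw [zero_add] at h3 h4
  refine ⟨S, h1, h2, h3, h4, ?_, ?_⟩
  · rw [h4]; exact finrank_zero hdeg P₀
  · intro f hf
    rw [h4] at hf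
    exact exists_algebraMap_eq_of_mem_zero hdeg P₀ hf

end GP1

/-! ## GP2: sections avoiding finitely many places -/

section GP2

variable [HasPrincipalDivisors K F]

omit [HasPrincipalDivisors K F] in
/-- **GP2.** Over an infinite constant field: if none of the places of the finite set `T` is a
base point of `L(D) ≠ 0`, some nonzero section of `L(D)` has exact order `D P` at every
`P ∈ T`. -/
theorem exists_mem_forall_val_eq [Infinite K] (D : Divisor K F) (T : Finset (Place K F))
    (hD : riemannRochSpace D ≠ ⊥)
    (hT : ∀ P ∈ T, ¬ riemannRochSpace D ≤ riemannRochSpace (D - Finsupp.single P 1)) :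
    ∃ f ∈ riemannRochSpace D, f ≠ 0 ∧ ∀ P ∈ T, P.adicValuation f = exp (D P) := by
  classical
  let V := riemannRochSpace D
  let p : Option T → Subspace K V := fun o =>
    match o with
    | none => ⊥
    | some P => (riemannRochSpace (D - Finsupp.single P.1 1)).comap V.subtype
  have hne : ⋃ i, (p i : Set V) ≠ Set.univ := by
    intro hcov
    obtain ⟨i, hi⟩ := Subspace.exists_eq_top_of_iUnion_eq_univ hcov
    rcases i with _ | P
    · apply hD
      rw [eq_bot_iff]
      intro x hx
      have : (⟨x, hx⟩ : V) ∈ (⊥ : Subspace K V) := by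
        have h1 : p none = ⊥ := rfl
        rw [← h1, hi]; trivial
      rw [Submodule.mem_bot] at this ⊢
      exact congrArg Subtype.val this
    · apply hT P.1 P.2
      intro x hx
      have : (⟨x, hx⟩ : V) ∈ p (some P) := by rw [hi]; trivial
      exact this
  obtain ⟨x, hx⟩ := (Set.ne_univ_iff_exists_notMem _).mp hne
  rw [Set.mem_iUnion, not_exists] at hx
  refine ⟨x.1, x.2, ?_, ?_⟩
  · intro h0
    apply hx none
    show x ∈ (⊥ : Subspace K V)
    rw [Submodule.mem_bot]
    exact Subtype.ext h0
  · intro P hP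
    have := hx (some ⟨P, hP⟩)
    exact val_eq_of_mem_of_not_mem_sub D P x.2 this

/-- GP2 with the base-point hypotheses supplied by vanishing of `H1`. -/
theorem exists_mem_forall_val_eq_of_H1 [Infinite K] (hdeg : ∀ v : Place K F, v.deg = 1)
    (P₀ : Place K F) (h : HasRiemannBound K F) (D : Divisor K F) (T : Finset (Place K F))
    (hP₀ : Subsingleton (H1 (D - Finsupp.single P₀ 1)))
    (hT : ∀ P ∈ T, Subsingleton (H1 (D - Finsupp.single P 1))) :
    ∃ f ∈ riemannRochSpace D, f ≠ 0 ∧ ∀ P ∈ T, P.adicValuation f = exp (D P) := by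
  have hD : riemannRochSpace D ≠ ⊥ := by
    intro hbot
    refine not_le_sub_single hdeg P₀ h D P₀ hP₀ ?_
    rw [hbot]; exact bot_le
  exact exists_mem_forall_val_eq D T hD fun P hP =>
    not_le_sub_single hdeg P₀ h D P (hT P hP)

/-- A nonzero section of `L(D)` has exact order `D P` at all but finitely many places. -/
theorem finite_setOf_val_ne (D : Divisor K F) {f : F} (hf0 : f ≠ 0) :
    {P : Place K F | P.adicValuation f ≠ exp (D P)}.Finite := by
  obtain ⟨Z, hZ, -⟩ := HasPrincipalDivisors.exists_divisor (K := K) f hf0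
  refine (Z.support.finite_toSet.union D.support.finite_toSet).subset fun P hP => ?_
  by_contra hcon
  rw [Set.mem_union, not_or, Finset.mem_coe, Finset.mem_coe, Finsupp.notMem_support_iff,
    Finsupp.notMem_support_iff] at hcon
  apply hP
  rw [P.adicValuation_eq_exp_neg_ord hf0, ← hZ P, hcon.1, hcon.2, neg_zero]

/-- Two sections of `L(D)` generating it at every place (in particular with disjoint residual
divisors), when `H1 (D - P) = 0` for every place `P`. -/
theorem exists_pair_generating [Infinite K] (hdeg : ∀ v : Place K F, v.deg = 1)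
    (P₀ : Place K F) (h : HasRiemannBound K F) (D : Divisor K F)
    (hD : ∀ P : Place K F, Subsingleton (H1 (D - Finsupp.single P 1))) :
    ∃ f₁ ∈ riemannRochSpace D, ∃ f₂ ∈ riemannRochSpace D, f₁ ≠ 0 ∧ f₂ ≠ 0 ∧
      ∀ P : Place K F, P.adicValuation f₁ = exp (D P) ∨ P.adicValuation f₂ = exp (D P) := by
  classical
  obtain ⟨f₁, hf₁, hf₁0, -⟩ :=
    exists_mem_forall_val_eq_of_H1 hdeg P₀ h D ∅ (hD P₀) fun P _ => hD P
  have hfin := finite_setOf_val_ne D hf₁0
  obtain ⟨f₂, hf₂, hf₂0, hval⟩ :=
    exists_mem_forall_val_eq_of_H1 hdeg P₀ h D hfin.toFinset (hD P₀) fun P _ => hD P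
  refine ⟨f₁, hf₁, f₂, hf₂, hf₁0, hf₂0, fun P => ?_⟩
  by_cases hP : P.adicValuation f₁ = exp (D P)
  · exact Or.inl hP
  · exact Or.inr (hval P (hfin.mem_toFinset.mpr hP))

/-- In large degree every `H1 (D - P)` vanishes. -/
theorem exists_forall_subsingleton_H1_sub_single (hdeg : ∀ v : Place K F, v.deg = 1)
    (P₀ : Place K F) (h : HasRiemannBound K F) :
    ∃ c : ℤ, ∀ D : Divisor K F, c ≤ Divisor.degree D →
      ∀ P : Place K F, Subsingleton (H1 (D - Finsupp.single P 1)) := by
  obtain ⟨c, hc⟩ := exists_forall_subsingleton_H1 hdeg P₀ h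
  refine ⟨c + 1, fun D hD P => hc _ ?_⟩
  rw [degree_sub_single hdeg]
  omega

end GP2

/-! ## GP3: interpolation -/

section GP3

variable [HasPrincipalDivisors K F]

/-- **GP3.** If `H1 (D - ∑ S) = 0`, then for each `P ∈ S` some section of `L(D)` has exact
order `D P` at `P` and vanishes to order one more than required at the other places of `S`. -/
theorem exists_interpolating (hdeg : ∀ v : Place K F, v.deg = 1) (P₀ : Place K F)
    (h : HasRiemannBound K F) (D : Divisor K F) (S : Finset (Place K F))
    (hS : Subsingleton (H1 (D - sumDiv S))) {P : Place K F} (hP : P ∈ S) :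
    ∃ f ∈ riemannRochSpace D, P.adicValuation f = exp (D P) ∧
      ∀ Q ∈ S, Q ≠ P → Q.adicValuation f ≤ exp (D Q - 1) := by
  classical
  obtain ⟨f, hf, -, hval⟩ := exists_mem_succ_not_mem hdeg P₀ h (D - sumDiv S) P hS
  have hle : D - sumDiv S + Finsupp.single P 1 ≤ D := by
    rw [Finsupp.le_def]
    intro v
    rw [Finsupp.add_apply, Finsupp.sub_apply, Finsupp.single_apply]
    split_ifs with hv
    · subst hv
      rw [sumDiv_apply_of_mem hP]; omega
    · have := Finsupp.le_def.mp (sumDiv_nonneg S) v
      simp only [Finsupp.coe_zero, Pi.zero_apply] at this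
      omega
  refine ⟨f, riemannRochSpace_mono hle hf, ?_, ?_⟩
  · rw [hval, Finsupp.sub_apply, sumDiv_apply_of_mem hP, sub_add_cancel]
  · intro Q hQ hne
    have := hf Q
    rwa [Finsupp.add_apply, Finsupp.sub_apply, sumDiv_apply_of_mem hQ,
      Finsupp.single_eq_of_ne hne, add_zero] at this

/-- Dimension count for interpolation: `l(D - ∑ S) = l(D) - |S|` when `H1 (D - ∑ S) = 0`. -/
theorem finrank_sub_sumDiv (hdeg : ∀ v : Place K F, v.deg = 1) (P₀ : Place K F)
    (h : HasRiemannBound K F) (D : Divisor K F) (S : Finset (Place K F))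
    (hS : Subsingleton (H1 (D - sumDiv S))) :
    finrank K (riemannRochSpace (D - sumDiv S)) + S.card = finrank K (riemannRochSpace D) := by
  have hD := subsingleton_H1_of_le hdeg P₀ h (sub_sumDiv_le D S) hS
  have h0 : finrank K (H1 (D - sumDiv S)) = 0 := Module.finrank_zero_of_subsingleton
  have h0' : finrank K (H1 D) = 0 := Module.finrank_zero_of_subsingleton
  have h1 := finrank_sub_finrank_H1 hdeg P₀ h D
  have h2 := finrank_sub_finrank_H1 hdeg P₀ h (D - sumDiv S)
  rw [map_sub, degree_sumDiv hdeg, h0] at h2
  rw [h0'] at h1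
  push_cast at h1 h2
  omega

/-- A uniformiser at `Q`, regular away from `P∞`, and a unit at the places of a prescribed
finite set `T` (other than `Q` and `P∞`). -/
theorem exists_local_parameter [Infinite K] (hdeg : ∀ v : Place K F, v.deg = 1)
    (h : HasRiemannBound K F) (Pinf Q : Place K F) (hne : Q ≠ Pinf) (T : Finset (Place K F)) :
    ∃ t : F, Q.adicValuation t = exp (-1 : ℤ) ∧
      (∀ v : Place K F, v ≠ Pinf → v.adicValuation t ≤ 1) ∧
      ∀ v ∈ T, v ≠ Q → v ≠ Pinf → v.adicValuation t = 1 := by
  classical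
  obtain ⟨c, hc⟩ := exists_forall_subsingleton_H1_sub_single hdeg Pinf h
  set D : Divisor K F := Finsupp.single Pinf (c + 1) - Finsupp.single Q 1 with hDdef
  have hDdeg : c ≤ Divisor.degree D := by
    rw [hDdef, degree_sub_single hdeg, Divisor.degree_single, hdeg]
    simp
  have hDQ : D Q = -1 := by
    rw [hDdef, Finsupp.sub_apply, Finsupp.single_eq_of_ne hne, Finsupp.single_eq_same]
    simp
  have hDv : ∀ v : Place K F, v ≠ Pinf → v ≠ Q → D v = 0 := by
    intro v h1 h2
    rw [hDdef, Finsupp.sub_apply, Finsupp.single_eq_of_ne h1, Finsupp.single_eq_of_ne h2]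
    simp
  obtain ⟨t, ht, -, hval⟩ := exists_mem_forall_val_eq_of_H1 hdeg Pinf h D (insert Q T)
    (hc D hDdeg Pinf) fun P _ => hc D hDdeg P
  refine ⟨t, ?_, ?_, ?_⟩
  · rw [hval Q (Finset.mem_insert_self Q T), hDQ]
  · intro v hv
    have := ht v
    by_cases hvQ : v = Q
    · subst hvQ
      rw [hDQ] at this
      exact this.trans (by rw [← exp_zero, exp_le_exp]; omega)
    · rwa [hDv v hv hvQ, exp_zero] at this
  · intro v hvT hvQ hv
    rw [hval v (Finset.mem_insert_of_mem hvT), hDv v hv hvQ, exp_zero]

end GP3

end Fermat.Agent.S19.helper2893
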