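import Mathlib

/-!
# Čech units for a two-chart datum (S19, route C, steps (C2)+(C3))

Mathlib-only, brick-independent.

* `IsCechDatum ι0 ι1 η` : the two-chart datum over a base ring `R`
  (`0 → R → S0 × S1 → S01 → R^g → 0` exact, `S01` flat); fields `span`, `indep`, `inter`,
  `inj`, `flat`.
* `IsCechDatum.baseChange` : stability under an arbitrary base change `R → B`
  (`baseMap B ι0`, `baseMap B ι1`, `baseEta B η` on `B ⊗[R] S_j`); ideal forms `dec`, `ker_mem`,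
  `pure`.
* `IsCechDatum.exists_factorization`, `IsCechDatum.factorization_unique` (step (C2)): for a
  nilpotent ideal `I` of the base ring, every `u ∈ 1 + I·S01` is
  `ι0 a0 * ∏ (1 + b i • η i) * ι1 a1` with `a_j ∈ 1 + I·S_j`, `b ∈ I^g`, and `b` is unique
  (`a0`, `a1` unique up to a constant in `1 + I`).
* `cechBeta ι0 ι1 η I u` : the coordinate vector `β u`; `IsCechDatum.cechBeta_spec`,
  `cechBeta_eq`, `cechBeta_factor`, `cechBeta_prod`, `cechBeta_one`, `cechBeta_chart_mul`,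
  `cechBeta_mul`, `cechBeta_eq_iff`, `cechBeta_eq_zero_iff`.
* `IsCechDatum.cechBeta_map`, `IsCechDatum.cechBeta_baseChange_map` : naturality of `β`.
* `IsCechCoordModJ ι0 ι1 η I J u b` : the quotient-free truncated calculus modulo an ARBITRARY
  ideal `J` (chart factors in `1 + I·S_j`, coordinates in `I`): `mono`, `congr`, `chart_mul`,
  `coord_congr`, `mul`, `map`; `IsCechDatum.isCechCoordModJ_unique` (uniqueness modulo `J`
  as soon as `I ^ n ≤ J`; element form `IsCechDatum.factorization_unique_mod_ideal`).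
* `IsCechCoordMod ι0 ι1 η I m u b` : the case `J = I ^ m`, for ANY ideal `I`:
  `exists_isCechCoordMod_of_span` (existence, from `span` alone),
  `IsCechDatum.isCechCoordMod_unique` (uniqueness modulo `I^m`), `IsCechCoordMod.mono`, `congr`,
  `chart_mul`, `coord_congr`, `mul`, `map`, `baseChange_map`, `isCechCoord`, `isCechCoordModJ`.
* `lawPoly ι0 ι1 η m` (step (C3)): the `m`-truncated addition law over `R`;
  `IsCechCoordMod.mul_lawPoly` (frames `B ⊗[R] S_j`), `IsCechCoordMod.mul_lawPoly_self` (the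
  datum itself), `IsCechCoordMod.mul_lawPoly_of_map` (any target frame), all from `span`
  alone; `IsCechDatum.cechBeta_mul_eq_lawPoly` : `β (u * u') = F_m (β u, β u')` whenever
  `I ^ m = ⊥`; `IsCechDatum.lawPoly_sub_mem` (compatibility in `m`).
-/

namespace Fermat.Agent.S19.helper2972

open scoped TensorProduct

universe uR u0 u1 u01

/-- A two-chart Čech datum over `R`: `R`-algebra maps `ι0 : S0 → S01`, `ι1 : S1 → S01` and
elements `η 0, …, η (g-1)` of `S01` such that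
`0 → R → S0 × S1 → S01 → R^g → 0` is exact (`span`, `indep`, `inter`, `inj`)
and `S01` is flat over `R`. -/
structure IsCechDatum {R : Type uR} {S0 : Type u0} {S1 : Type u1} {S01 : Type u01}
    [CommRing R] [CommRing S0] [CommRing S1] [CommRing S01]
    [Algebra R S0] [Algebra R S1] [Algebra R S01] {g : ℕ}
    (ι0 : S0 →ₐ[R] S01) (ι1 : S1 →ₐ[R] S01) (η : Fin g → S01) : Prop where
  /-- `S01 = S0 + S1 + ∑ R η_i`. -/
  span : ∀ x : S01, ∃ (x0 : S0) (x1 : S1) (c : Fin g → R),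
    x = ι0 x0 + ι1 x1 + ∑ i, c i • η i
  /-- the `η`-coefficients are unique: the classes of the `η i` are independent modulo
  `S0 + S1`. -/
  indep : ∀ (x0 : S0) (x1 : S1) (c : Fin g → R),
    ι0 x0 + ι1 x1 + ∑ i, c i • η i = 0 → c = 0
  /-- `S0 ∩ S1 = R` inside `S01`. -/
  inter : ∀ (x0 : S0) (x1 : S1), ι0 x0 = ι1 x1 →
    ∃ r : R, x0 = algebraMap R S0 r ∧ x1 = algebraMap R S1 r
  /-- `R → S0 × S1` is injective. -/
  inj : ∀ r : R, algebraMap R S0 r = 0 → algebraMap R S1 r = 0 → r = 0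
  /-- `S01` is flat over `R`. -/
  flat : Module.Flat R S01

/-! ### Generalities on ideals -/

section Generalities

variable {R : Type*} [CommRing R]

theorem algHom_mem_map {S S' : Type*} [CommRing S] [CommRing S'] [Algebra R S] [Algebra R S']
    (f : S →ₐ[R] S') (J : Ideal R) {x : S} (hx : x ∈ J.map (algebraMap R S)) :
    f x ∈ J.map (algebraMap R S') := by
  have h1 := Ideal.mem_map_of_mem (f : S →+* S') hx
  rwa [Ideal.map_map, AlgHom.comp_algebraMap] at h1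

theorem smul_mem_map {S : Type*} [CommRing S] [Algebra R S] {J : Ideal R} {c : R} (hc : c ∈ J)
    (t : S) : c • t ∈ J.map (algebraMap R S) := by
  rw [Algebra.smul_def]
  exact Ideal.mul_mem_right _ _ (Ideal.mem_map_of_mem _ hc)

theorem mul_sub_one_mem {A : Type*} [CommRing A] (𝔞 : Ideal A) {x y : A} (hx : x - 1 ∈ 𝔞)
    (hy : y - 1 ∈ 𝔞) : x * y - 1 ∈ 𝔞 := by
  have : x * y - 1 = (x - 1) * y + (y - 1) := by ring
  rw [this]
  exact 𝔞.add_mem (𝔞.mul_mem_right _ hx) hy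

theorem prod_one_add_sub_one_mem {A : Type*} [CommRing A] {ι : Type*} (𝔞 : Ideal A) (x : ι → A)
    (s : Finset ι) (hx : ∀ i ∈ s, x i ∈ 𝔞) : ∏ i ∈ s, (1 + x i) - 1 ∈ 𝔞 := by
  classical
  induction s using Finset.induction_on with
  | empty => simp
  | insert a s ha ih =>
    rw [Finset.prod_insert ha]
    have h1 : ∏ i ∈ s, (1 + x i) - 1 ∈ 𝔞 := ih fun i hi => hx i (Finset.mem_insert_of_mem hi)
    have h2 : (1 + x a) - 1 ∈ 𝔞 := by simpa using hx a (Finset.mem_insert_self a s)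
    exact mul_sub_one_mem 𝔞 h2 h1

theorem prod_one_add_sub_mem {A : Type*} [CommRing A] {ι : Type*} (𝔞 𝔠 𝔟 : Ideal A)
    (h1 : 𝔞 * 𝔠 ≤ 𝔟) (x y : ι → A) (s : Finset ι) (hx : ∀ i ∈ s, x i ∈ 𝔞)
    (hxy : ∀ i ∈ s, x i + y i ∈ 𝔞) (hy : ∀ i ∈ s, y i ∈ 𝔠) :
    ∏ i ∈ s, (1 + (x i + y i)) - ∏ i ∈ s, (1 + x i) - ∑ i ∈ s, y i ∈ 𝔟 := by
  classical
  induction s using Finset.induction_on with
  | empty => simp
  | insert a s ha ih =>
    rw [Finset.prod_insert ha, Finset.prod_insert ha, Finset.sum_insert ha]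
    have hxs : ∀ i ∈ s, x i ∈ 𝔞 := fun i hi => hx i (Finset.mem_insert_of_mem hi)
    have hxys : ∀ i ∈ s, x i + y i ∈ 𝔞 := fun i hi => hxy i (Finset.mem_insert_of_mem hi)
    have hys : ∀ i ∈ s, y i ∈ 𝔠 := fun i hi => hy i (Finset.mem_insert_of_mem hi)
    have hD := ih hxs hxys hys
    have hxa : x a ∈ 𝔞 := hx a (Finset.mem_insert_self a s)
    have hya : y a ∈ 𝔠 := hy a (Finset.mem_insert_self a s)
    have hS : ∑ i ∈ s, y i ∈ 𝔠 := 𝔠.sum_mem hys
    have hQ : ∏ i ∈ s, (1 + (x i + y i)) - 1 ∈ 𝔞 :=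
      prod_one_add_sub_one_mem 𝔞 (fun i => x i + y i) s hxys
    have key : (1 + (x a + y a)) * ∏ i ∈ s, (1 + (x i + y i)) - (1 + x a) * ∏ i ∈ s, (1 + x i) -
        (y a + ∑ i ∈ s, y i) =
        (1 + x a) * (∏ i ∈ s, (1 + (x i + y i)) - ∏ i ∈ s, (1 + x i) - ∑ i ∈ s, y i) +
          x a * ∑ i ∈ s, y i + (∏ i ∈ s, (1 + (x i + y i)) - 1) * y a := by ring
    rw [key]
    exact 𝔟.add_mem (𝔟.add_mem (𝔟.mul_mem_left _ hD) (h1 (Ideal.mul_mem_mul hxa hS)))
      (h1 (Ideal.mul_mem_mul hQ hya))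

theorem ring_id1 {A : Type*} [CommRing A] (u A0 A1 Pb Pb' X0 X1 C : A)
    (hx : u - A0 * Pb * A1 = X0 + X1 + C) :
    u - (A0 + X0) * Pb' * (A1 + X1) =
      -((A0 * Pb - 1) * X1 + (A0 * A1 - 1) * C + (Pb * A1 - 1) * X0 + A0 * (C * X1) +
        Pb * (X0 * X1) + (X0 * C) * (A1 + X1) +
        (Pb' - Pb - C) * ((A0 + X0) * (A1 + X1))) := by
  linear_combination hx

theorem ring_id2 {A : Type*} [CommRing A] (r A0 A1 Pb Pb' A0' A1' X0 X1 C : A)
    (h0 : A0' = r * A0 + X0) (h1 : r * A1' = A1 + X1) :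
    X0 + X1 + C =
      -((r * A0 * Pb - 1) * X1 + (r * A0 * A1 - 1) * C + (Pb * A1 - 1) * X0 +
        (r * A0) * (C * X1) + Pb * (X0 * X1) + (X0 * C) * (A1 + X1) +
        (Pb' - Pb - C) * ((r * A0 + X0) * (A1 + X1))) -
      r * (A0 * Pb * A1 - A0' * Pb' * A1') := by
  linear_combination - (A0' * Pb') * h1 - (Pb' * (A1 + X1)) * h0

theorem prod_sub_prod_mem {A : Type*} [CommRing A] {ι : Type*} (𝔟 : Ideal A) (x y : ι → A)
    (s : Finset ι) (hxy : ∀ i ∈ s, x i - y i ∈ 𝔟) : ∏ i ∈ s, x i - ∏ i ∈ s, y i ∈ 𝔟 := by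
  classical
  induction s using Finset.induction_on with
  | empty => simp
  | insert a s ha ih =>
    rw [Finset.prod_insert ha, Finset.prod_insert ha]
    have h1 := ih fun i hi => hxy i (Finset.mem_insert_of_mem hi)
    have h2 := hxy a (Finset.mem_insert_self a s)
    have key : x a * ∏ i ∈ s, x i - y a * ∏ i ∈ s, y i =
        (x a - y a) * ∏ i ∈ s, x i + y a * (∏ i ∈ s, x i - ∏ i ∈ s, y i) := by ring
    rw [key]
    exact 𝔟.add_mem (𝔟.mul_mem_right _ h2) (𝔟.mul_mem_left _ h1)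

theorem isUnit_of_sub_one_mem_map {S : Type*} [CommRing S] [Algebra R S] {I : Ideal R}
    (hI : IsNilpotent I) {x : S} (hx : x - 1 ∈ I.map (algebraMap R S)) : IsUnit x := by
  obtain ⟨n, hn⟩ := hI
  have h1 : (x - 1) ^ n = 0 := by
    have h2 : (x - 1) ^ n ∈ (I.map (algebraMap R S)) ^ n := Ideal.pow_mem_pow hx n
    rw [← Ideal.map_pow, hn, Ideal.zero_eq_bot, Ideal.map_bot, Ideal.mem_bot] at h2
    exact h2
  have h3 : IsNilpotent (x - 1) := ⟨n, h1⟩
  have := h3.isUnit_add_one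
  simpa using this

theorem inv_sub_one_mem {A : Type*} [CommRing A] (𝔞 : Ideal A) {x e : A} (hx : x - 1 ∈ 𝔞)
    (hex : e * x = 1) : e - 1 ∈ 𝔞 := by
  have h1 : e - 1 = -(e * (x - 1)) := by
    have h2 : e * (x - 1) = 1 - e := by rw [mul_sub, hex, mul_one]
    rw [h2]
    ring
  rw [h1]
  exact neg_mem (Ideal.mul_mem_left _ _ hx)

theorem map_mem_of_compat {R' : Type*} [CommRing R'] {S S' : Type*} [CommRing S]
    [CommRing S'] [Algebra R S] [Algebra R' S'] {J : Ideal R} {J' : Ideal R'} (φ : R →+* R')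
    (hφ : ∀ x ∈ J, φ x ∈ J') (ψ : S →+* S')
    (hψ : ∀ r, ψ (algebraMap R S r) = algebraMap R' S' (φ r)) {x : S}
    (hx : x ∈ J.map (algebraMap R S)) : ψ x ∈ J'.map (algebraMap R' S') := by
  have h1 := Ideal.mem_map_of_mem ψ hx
  rw [Ideal.map_map] at h1
  have h2 : ψ.comp (algebraMap R S) = (algebraMap R' S').comp φ := RingHom.ext hψ
  rw [h2, ← Ideal.map_map] at h1
  exact Ideal.map_mono (Ideal.map_le_iff_le_comap.mpr hφ) h1

theorem map_sub_one_mem_of_compat {R' : Type*} [CommRing R'] {S S' : Type*} [CommRing S]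
    [CommRing S'] [Algebra R S] [Algebra R' S'] {I : Ideal R} {I' : Ideal R'} (φ : R →+* R')
    (hφ : ∀ x ∈ I, φ x ∈ I') (ψ : S →+* S')
    (hψ : ∀ r, ψ (algebraMap R S r) = algebraMap R' S' (φ r)) {x : S}
    (hx : x - 1 ∈ I.map (algebraMap R S)) : ψ x - 1 ∈ I'.map (algebraMap R' S') := by
  have h1 := map_mem_of_compat φ hφ ψ hψ hx
  rwa [map_sub, map_one] at h1

theorem map_pow_mem_of_mem {R' : Type*} [CommRing R'] {I : Ideal R} {I' : Ideal R'}
    (φ : R →+* R') (hφ : ∀ x ∈ I, φ x ∈ I') (m : ℕ) : ∀ x ∈ I ^ m, φ x ∈ I' ^ m := by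
  intro x hx
  have h1 := Ideal.mem_map_of_mem φ hx
  rw [Ideal.map_pow] at h1
  exact Ideal.pow_right_mono (Ideal.map_le_iff_le_comap.mpr hφ) m h1

end Generalities

namespace IsCechDatum

variable {R : Type uR} {S0 : Type u0} {S1 : Type u1} {S01 : Type u01}
    [CommRing R] [CommRing S0] [CommRing S1] [CommRing S01]
    [Algebra R S0] [Algebra R S1] [Algebra R S01] {g : ℕ}
    {ι0 : S0 →ₐ[R] S01} {ι1 : S1 →ₐ[R] S01} {η : Fin g → S01}

/-! ### The exact sequence in linear-map form -/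

/-- The map `S0 × S1 × R^g → S01`, `(x0, x1, c) ↦ ι0 x0 + ι1 x1 + ∑ c i • η i`. -/
noncomputable def psi (ι0 : S0 →ₐ[R] S01) (ι1 : S1 →ₐ[R] S01) (η : Fin g → S01) :
    S0 × S1 × (Fin g → R) →ₗ[R] S01 :=
  ι0.toLinearMap.coprod (ι1.toLinearMap.coprod (Fintype.linearCombination R η))

theorem psi_apply (x : S0 × S1 × (Fin g → R)) :
    psi ι0 ι1 η x = ι0 x.1 + ι1 x.2.1 + ∑ i, x.2.2 i • η i := by
  simp [psi, Fintype.linearCombination_apply, add_assoc]

/-- The map `R → S0 × S1 × R^g`, `r ↦ (r, -r, 0)`. -/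
noncomputable def phi (R : Type uR) (S0 : Type u0) (S1 : Type u1) [CommRing R] [CommRing S0]
    [CommRing S1] [Algebra R S0] [Algebra R S1] (g : ℕ) : R →ₗ[R] S0 × S1 × (Fin g → R) :=
  (Algebra.linearMap R S0).prod ((-(Algebra.linearMap R S1)).prod 0)

theorem phi_apply (r : R) :
    phi R S0 S1 g r = (algebraMap R S0 r, -algebraMap R S1 r, 0) := rfl

/-! ### Ideal-theoretic helpers and the existence half (from `span` alone) -/

theorem prod_eta_sub_one_mem (J : Ideal R) {b : Fin g → R} (hb : ∀ i, b i ∈ J) :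
    ∏ i, (1 + b i • η i) - 1 ∈ J.map (algebraMap R S01) :=
  prod_one_add_sub_one_mem _ (fun i => b i • η i) Finset.univ fun i _ => smul_mem_map (hb i) _

theorem sum_eta_mem (J : Ideal R) {c : Fin g → R} (hc : ∀ i, c i ∈ J) :
    ∑ i, c i • η i ∈ J.map (algebraMap R S01) :=
  Ideal.sum_mem _ fun i _ => smul_mem_map (hc i) _

theorem map_pow_succ_le (I : Ideal R) (S : Type*) [CommRing S] [Algebra R S] (k : ℕ) :
    (I ^ (k + 1)).map (algebraMap R S) ≤ I.map (algebraMap R S) :=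
  Ideal.map_mono (Ideal.pow_le_self (Nat.succ_ne_zero k))

theorem map_mul_map_le (I : Ideal R) (S : Type*) [CommRing S] [Algebra R S] (k : ℕ) :
    I.map (algebraMap R S) * (I ^ (k + 1)).map (algebraMap R S) ≤
      (I ^ (k + 2)).map (algebraMap R S) := by
  rw [← Ideal.map_mul, ← pow_succ']

theorem map_mul_sup_le (I J : Ideal R) (S : Type*) [CommRing S] [Algebra R S] (k : ℕ) :
    I.map (algebraMap R S) * (I ^ (k + 1) ⊔ J).map (algebraMap R S) ≤
      (I ^ (k + 2) ⊔ J).map (algebraMap R S) := by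
  rw [← Ideal.map_mul]
  refine Ideal.map_mono ?_
  rw [Ideal.mul_sup, ← pow_succ']
  exact sup_le_sup le_rfl Ideal.mul_le_right

theorem map_sup_mul_sup_le (I J : Ideal R) (S : Type*) [CommRing S] [Algebra R S] (k : ℕ) :
    (I ^ (k + 1) ⊔ J).map (algebraMap R S) * (I ^ (k + 1) ⊔ J).map (algebraMap R S) ≤
      (I ^ (k + 2) ⊔ J).map (algebraMap R S) := by
  rw [← Ideal.map_mul]
  refine Ideal.map_mono ?_
  rw [Ideal.sup_mul, Ideal.mul_sup]
  refine sup_le (sup_le ?_ (le_sup_of_le_right Ideal.mul_le_right))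
    (le_sup_of_le_right Ideal.mul_le_left)
  rw [← pow_add]
  exact le_sup_of_le_left (Ideal.pow_le_pow_right (by omega))

theorem map_sup_succ_le (I J : Ideal R) (S : Type*) [CommRing S] [Algebra R S] (k : ℕ) :
    (I ^ (k + 2) ⊔ J).map (algebraMap R S) ≤ (I ^ (k + 1) ⊔ J).map (algebraMap R S) :=
  Ideal.map_mono (sup_le_sup (Ideal.pow_le_pow_right (Nat.le_succ _)) le_rfl)

/-- Linearisation of the product `∏ (1 + b i • η i)`. -/
theorem prod_eta_add_sub_mem_of_le (I K K' : Ideal R)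
    (hIK : I.map (algebraMap R S01) * K.map (algebraMap R S01) ≤ K'.map (algebraMap R S01))
    {b c : Fin g → R} (hb : ∀ i, b i ∈ I) (hbc : ∀ i, b i + c i ∈ I) (hc : ∀ i, c i ∈ K) :
    ∏ i, (1 + (b + c) i • η i) - ∏ i, (1 + b i • η i) - ∑ i, c i • η i ∈
      K'.map (algebraMap R S01) := by
  have := prod_one_add_sub_mem (I.map (algebraMap R S01)) (K.map (algebraMap R S01))
    (K'.map (algebraMap R S01)) hIK
    (fun i => b i • η i) (fun i => c i • η i) Finset.univ (fun i _ => smul_mem_map (hb i) _)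
    (fun i _ => by rw [← add_smul]; exact smul_mem_map (hbc i) _)
    (fun i _ => smul_mem_map (hc i) _)
  simpa only [Pi.add_apply, add_smul] using this

theorem prod_eta_add_sub_mem (I : Ideal R) (k : ℕ) {b c : Fin g → R} (hb : ∀ i, b i ∈ I)
    (hc : ∀ i, c i ∈ I ^ (k + 1)) :
    ∏ i, (1 + (b + c) i • η i) - ∏ i, (1 + b i • η i) - ∑ i, c i • η i ∈
      (I ^ (k + 2)).map (algebraMap R S01) :=
  prod_eta_add_sub_mem_of_le I (I ^ (k + 1)) (I ^ (k + 2)) (map_mul_map_le I S01 k) hb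
    (fun i => I.add_mem (hb i) (Ideal.pow_le_self (Nat.succ_ne_zero k) (hc i))) hc

/-- Decomposition inside `J·S01`, from the spanning hypothesis alone. -/
theorem dec_of_span
    (hspan : ∀ x : S01, ∃ (x0 : S0) (x1 : S1) (c : Fin g → R),
      x = ι0 x0 + ι1 x1 + ∑ i, c i • η i)
    (J : Ideal R) {x : S01} (hx : x ∈ J.map (algebraMap R S01)) :
    ∃ (x0 : S0) (x1 : S1) (c : Fin g → R), x0 ∈ J.map (algebraMap R S0) ∧
      x1 ∈ J.map (algebraMap R S1) ∧ (∀ i, c i ∈ J) ∧ x = ι0 x0 + ι1 x1 + ∑ i, c i • η i := by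
  have hx' : x ∈ J • (⊤ : Submodule R S01) := by
    rw [Ideal.smul_top_eq_map]
    exact hx
  refine Submodule.smul_induction_on hx' ?_ ?_
  · intro r hr n _
    obtain ⟨n0, n1, c, rfl⟩ := hspan n
    refine ⟨r • n0, r • n1, fun i => r * c i, smul_mem_map hr _, smul_mem_map hr _,
      fun i => J.mul_mem_right _ hr, ?_⟩
    simp only [smul_add, Finset.smul_sum, mul_smul, map_smul]
  · rintro x y ⟨x0, x1, c, h0, h1, hc, rfl⟩ ⟨y0, y1, d, k0, k1, hd, rfl⟩
    refine ⟨x0 + y0, x1 + y1, c + d, Ideal.add_mem _ h0 k0, Ideal.add_mem _ h1 k1,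
      fun i => J.add_mem (hc i) (hd i), ?_⟩
    simp only [map_add, Pi.add_apply, add_smul, Finset.sum_add_distrib]
    ring

/-- Approximate factorisation modulo `I^(k+1)`, for ANY ideal `I`, from the spanning
hypothesis alone. -/
theorem exists_factorization_mod_of_span
    (hspan : ∀ x : S01, ∃ (x0 : S0) (x1 : S1) (c : Fin g → R),
      x = ι0 x0 + ι1 x1 + ∑ i, c i • η i)
    (I : Ideal R) {u : S01}
    (hu : u - 1 ∈ I.map (algebraMap R S01)) (k : ℕ) :
    ∃ (a0 : S0) (a1 : S1) (b : Fin g → R), a0 - 1 ∈ I.map (algebraMap R S0) ∧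
      a1 - 1 ∈ I.map (algebraMap R S1) ∧ (∀ i, b i ∈ I) ∧
      u - ι0 a0 * (∏ i, (1 + b i • η i)) * ι1 a1 ∈ (I ^ (k + 1)).map (algebraMap R S01) := by
  induction k with
  | zero =>
    refine ⟨1, 1, 0, by simp, by simp, fun _ => I.zero_mem, ?_⟩
    simpa using hu
  | succ k ih =>
    obtain ⟨a0, a1, b, ha0, ha1, hb, hk⟩ := ih
    obtain ⟨x0, x1, c, hx0, hx1, hc, hx⟩ := dec_of_span hspan (I ^ (k + 1)) hk
    refine ⟨a0 + x0, a1 + x1, b + c, ?_, ?_, ?_, ?_⟩
    · have : a0 + x0 - 1 = (a0 - 1) + x0 := by ring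
      rw [this]
      exact Ideal.add_mem _ ha0 (map_pow_succ_le I S0 k hx0)
    · have : a1 + x1 - 1 = (a1 - 1) + x1 := by ring
      rw [this]
      exact Ideal.add_mem _ ha1 (map_pow_succ_le I S1 k hx1)
    · intro i
      exact I.add_mem (hb i) (Ideal.pow_le_self (Nat.succ_ne_zero k) (hc i))
    · -- the main computation
      have hA0 : ι0 a0 - 1 ∈ I.map (algebraMap R S01) := by
        simpa using algHom_mem_map ι0 I ha0
      have hA1 : ι1 a1 - 1 ∈ I.map (algebraMap R S01) := by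
        simpa using algHom_mem_map ι1 I ha1
      have hP : ∏ i, (1 + b i • η i) - 1 ∈ I.map (algebraMap R S01) := prod_eta_sub_one_mem I hb
      have hX0 : ι0 x0 ∈ (I ^ (k + 1)).map (algebraMap R S01) := algHom_mem_map ι0 _ hx0
      have hX1 : ι1 x1 ∈ (I ^ (k + 1)).map (algebraMap R S01) := algHom_mem_map ι1 _ hx1
      have hC : ∑ i, c i • η i ∈ (I ^ (k + 1)).map (algebraMap R S01) := sum_eta_mem _ hc
      have hE := prod_eta_add_sub_mem (η := η) I k hb hc
      have hmul : ∀ {x y : S01}, x ∈ I.map (algebraMap R S01) →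
          y ∈ (I ^ (k + 1)).map (algebraMap R S01) →
          x * y ∈ (I ^ (k + 2)).map (algebraMap R S01) :=
        fun hx hy => map_mul_map_le I S01 k (Ideal.mul_mem_mul hx hy)
      have hle := map_pow_succ_le I S01 k
      rw [map_add, map_add, ring_id1 u (ι0 a0) (ι1 a1) (∏ i, (1 + b i • η i))
        (∏ i, (1 + (b + c) i • η i)) (ι0 x0) (ι1 x1) (∑ i, c i • η i) hx]
      refine neg_mem (Ideal.add_mem _ (Ideal.add_mem _ (Ideal.add_mem _ (Ideal.add_mem _
        (Ideal.add_mem _ (Ideal.add_mem _ ?_ ?_) ?_) ?_) ?_) ?_) ?_)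
      · exact hmul (mul_sub_one_mem _ hA0 hP) hX1
      · exact hmul (mul_sub_one_mem _ hA0 hA1) hC
      · exact hmul (mul_sub_one_mem _ hP hA1) hX0
      · exact Ideal.mul_mem_left _ _ (hmul (hle hC) hX1)
      · exact Ideal.mul_mem_left _ _ (hmul (hle hX0) hX1)
      · exact Ideal.mul_mem_right _ _ (hmul (hle hX0) hC)
      · exact Ideal.mul_mem_right _ _ hE

section Core

variable (h : IsCechDatum ι0 ι1 η)
include h

theorem psi_surjective : Function.Surjective (psi ι0 ι1 η) := by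
  intro x
  obtain ⟨x0, x1, c, rfl⟩ := h.span x
  exact ⟨(x0, x1, c), by rw [psi_apply]⟩

theorem phi_injective : Function.Injective (phi R S0 S1 g) := by
  rw [injective_iff_map_eq_zero]
  intro r hr
  rw [phi_apply] at hr
  have h0 : algebraMap R S0 r = 0 := congrArg Prod.fst hr
  have h1 : -algebraMap R S1 r = 0 := congrArg (fun z => z.2.1) hr
  exact h.inj r h0 (neg_eq_zero.mp h1)

/-- Combined form of `indep` and `inter`. -/
theorem ker_eq {x0 : S0} {x1 : S1} {c : Fin g → R}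
    (hx : ι0 x0 + ι1 x1 + ∑ i, c i • η i = 0) :
    c = 0 ∧ ∃ r : R, x0 = algebraMap R S0 r ∧ x1 = -algebraMap R S1 r := by
  have hc := h.indep x0 x1 c hx
  subst hc
  have hx' : ι0 x0 = ι1 (-x1) := by
    simp only [Pi.zero_apply, zero_smul, Finset.sum_const_zero, add_zero] at hx
    rw [map_neg]
    linear_combination hx
  obtain ⟨r, hr0, hr1⟩ := h.inter _ _ hx'
  exact ⟨rfl, r, hr0, by rw [← hr1, neg_neg]⟩

theorem exact_phi_psi : Function.Exact (phi R S0 S1 g) (psi ι0 ι1 η) := by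
  intro x
  constructor
  · intro hx
    rw [psi_apply] at hx
    obtain ⟨hc, r, hr0, hr1⟩ := h.ker_eq hx
    refine ⟨r, ?_⟩
    rw [phi_apply]
    ext1
    · exact hr0.symm
    · ext1
      · exact hr1.symm
      · exact hc.symm
  · rintro ⟨r, rfl⟩
    rw [psi_apply, phi_apply]
    simp

theorem lTensor_phi_injective (A : Type*) [AddCommGroup A] [Module R A] :
    Function.Injective ((phi R S0 S1 g).lTensor A) :=
  haveI := h.flat
  LinearMap.lTensor_injective_of_exact_of_flat (psi ι0 ι1 η) h.psi_surjective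
    (phi R S0 S1 g) h.phi_injective h.exact_phi_psi A

omit h in
theorem tmul_eq_zero_of_mem_map {S : Type*} [CommRing S] [Algebra R S] (J : Ideal R) {x : S}
    (hx : x ∈ J.map (algebraMap R S)) : ((1 : R ⧸ J) ⊗ₜ[R] x) = 0 := by
  have hx' : x ∈ J • (⊤ : Submodule R S) := by
    rw [Ideal.smul_top_eq_map]
    exact hx
  refine Submodule.smul_induction_on hx' ?_ ?_
  · intro r hr n _
    have h0 : (r • (1 : R ⧸ J)) = 0 := by
      rw [Algebra.smul_def, mul_one]
      exact Ideal.Quotient.eq_zero_iff_mem.mpr hr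
    rw [← TensorProduct.smul_tmul, h0, TensorProduct.zero_tmul]
  · intro x y hx hy
    rw [TensorProduct.tmul_add, hx, hy, add_zero]

/-- `R → S0 × S1` is universally injective (purity), here for the quotients `R ⧸ J`. -/
theorem pure (J : Ideal R) {r : R} (h0 : algebraMap R S0 r ∈ J.map (algebraMap R S0))
    (h1 : algebraMap R S1 r ∈ J.map (algebraMap R S1)) : r ∈ J := by
  have e : (phi R S0 S1 g).lTensor (R ⧸ J) ((Ideal.Quotient.mk J r) ⊗ₜ[R] (1 : R)) =
      (LinearMap.inl R S0 (S1 × (Fin g → R))).lTensor (R ⧸ J)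
        ((1 : R ⧸ J) ⊗ₜ[R] algebraMap R S0 r) -
      ((LinearMap.inr R S0 (S1 × (Fin g → R))).comp
        (LinearMap.inl R S1 (Fin g → R))).lTensor (R ⧸ J)
        ((1 : R ⧸ J) ⊗ₜ[R] algebraMap R S1 r) := by
    simp only [LinearMap.lTensor_tmul]
    rw [← TensorProduct.tmul_sub]
    have h2 : (Ideal.Quotient.mk J r : R ⧸ J) = r • (1 : R ⧸ J) := by
      rw [Algebra.smul_def, mul_one]
      rfl
    rw [h2, TensorProduct.smul_tmul]
    congr 1
    rw [phi_apply]
    ext <;> simp [Algebra.smul_def]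
  rw [tmul_eq_zero_of_mem_map J h0, tmul_eq_zero_of_mem_map J h1, map_zero, map_zero,
    sub_zero] at e
  have h3 : (Ideal.Quotient.mk J r) ⊗ₜ[R] (1 : R) = (0 : (R ⧸ J) ⊗[R] R) :=
    h.lTensor_phi_injective (R ⧸ J) (by rw [e, map_zero])
  have h4 := congrArg (TensorProduct.rid R (R ⧸ J)) h3
  rw [TensorProduct.rid_tmul, one_smul, map_zero] at h4
  exact Ideal.Quotient.eq_zero_iff_mem.mp h4

/-- Decomposition inside `J·S01`. -/
theorem dec (J : Ideal R) {x : S01} (hx : x ∈ J.map (algebraMap R S01)) :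
    ∃ (x0 : S0) (x1 : S1) (c : Fin g → R), x0 ∈ J.map (algebraMap R S0) ∧
      x1 ∈ J.map (algebraMap R S1) ∧ (∀ i, c i ∈ J) ∧ x = ι0 x0 + ι1 x1 + ∑ i, c i • η i :=
  dec_of_span h.span J hx

/-- Relations modulo `J·S01`. -/
theorem ker_mem (J : Ideal R) {x0 : S0} {x1 : S1} {c : Fin g → R}
    (hx : ι0 x0 + ι1 x1 + ∑ i, c i • η i ∈ J.map (algebraMap R S01)) :
    (∀ i, c i ∈ J) ∧ ∃ r : R, x0 - algebraMap R S0 r ∈ J.map (algebraMap R S0) ∧
      x1 + algebraMap R S1 r ∈ J.map (algebraMap R S1) := by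
  obtain ⟨y0, y1, d, h0, h1, hd, he⟩ := h.dec J hx
  have hz : ι0 (x0 - y0) + ι1 (x1 - y1) + ∑ i, (c - d) i • η i = 0 := by
    simp only [map_sub, Pi.sub_apply, sub_smul, Finset.sum_sub_distrib]
    linear_combination he
  obtain ⟨hcd, r, hr0, hr1⟩ := h.ker_eq hz
  have hcd' : c = d := sub_eq_zero.mp hcd
  refine ⟨fun i => hcd' ▸ hd i, r, ?_, ?_⟩
  · have : x0 - algebraMap R S0 r = y0 := by rw [← hr0]; ring
    rw [this]
    exact h0
  · have : x1 + algebraMap R S1 r = y1 := by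
      have := hr1
      linear_combination this
    rw [this]
    exact h1

/-! ### Unit factorisation: existence -/

/-- Approximate factorisation modulo `I^(k+1)`, for ANY ideal `I`. -/
theorem exists_factorization_mod (I : Ideal R) {u : S01}
    (hu : u - 1 ∈ I.map (algebraMap R S01)) (k : ℕ) :
    ∃ (a0 : S0) (a1 : S1) (b : Fin g → R), a0 - 1 ∈ I.map (algebraMap R S0) ∧
      a1 - 1 ∈ I.map (algebraMap R S1) ∧ (∀ i, b i ∈ I) ∧
      u - ι0 a0 * (∏ i, (1 + b i • η i)) * ι1 a1 ∈ (I ^ (k + 1)).map (algebraMap R S01) :=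
  exists_factorization_mod_of_span h.span I hu k

/-- **Unit factorisation, existence** (step (C2)): for a nilpotent ideal `I` of the base ring,
every `u ∈ 1 + I·S01` is `ι0 a0 * ∏ (1 + b i • η i) * ι1 a1` with `a_j ∈ 1 + I·S_j` and
`b ∈ I^g`. -/
theorem exists_factorization (I : Ideal R) (hI : IsNilpotent I) {u : S01}
    (hu : u - 1 ∈ I.map (algebraMap R S01)) :
    ∃ (a0 : S0) (a1 : S1) (b : Fin g → R), a0 - 1 ∈ I.map (algebraMap R S0) ∧
      a1 - 1 ∈ I.map (algebraMap R S1) ∧ (∀ i, b i ∈ I) ∧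
      u = ι0 a0 * (∏ i, (1 + b i • η i)) * ι1 a1 := by
  obtain ⟨n, hn⟩ := hI
  obtain ⟨a0, a1, b, h0, h1, hb, hk⟩ := h.exists_factorization_mod I hu n
  refine ⟨a0, a1, b, h0, h1, hb, ?_⟩
  have h2 : I ^ (n + 1) = ⊥ := by
    rw [pow_succ, hn, Ideal.zero_eq_bot, Ideal.bot_mul]
  rw [h2, Ideal.map_bot, Ideal.mem_bot, sub_eq_zero] at hk
  exact hk

/-! ### Unit factorisation: uniqueness -/

/-- Approximate uniqueness modulo an ARBITRARY ideal `J`: two factorisations (with chart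
factors in `1 + I·S_j` and coordinates in `I`) which agree modulo `J·S01` have the same
`η`-coordinates modulo `I^(k+1) + J` for every `k` (and chart factors which agree up to a
constant `r ∈ 1 + I`). -/
theorem factorization_unique_mod_sup (I J : Ideal R) {a0 a0' : S0} {a1 a1' : S1}
    {b b' : Fin g → R}
    (ha0 : a0 - 1 ∈ I.map (algebraMap R S0)) (ha0' : a0' - 1 ∈ I.map (algebraMap R S0))
    (ha1 : a1 - 1 ∈ I.map (algebraMap R S1)) (ha1' : a1' - 1 ∈ I.map (algebraMap R S1))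
    (hb : ∀ i, b i ∈ I) (hb' : ∀ i, b' i ∈ I)
    (hd : ι0 a0 * (∏ i, (1 + b i • η i)) * ι1 a1 - ι0 a0' * (∏ i, (1 + b' i • η i)) * ι1 a1' ∈
      J.map (algebraMap R S01))
    (k : ℕ) :
    ∃ r : R, r - 1 ∈ I ∧ (∀ i, b' i - b i ∈ I ^ (k + 1) ⊔ J) ∧
      a0' - r • a0 ∈ (I ^ (k + 1) ⊔ J).map (algebraMap R S0) ∧
      r • a1' - a1 ∈ (I ^ (k + 1) ⊔ J).map (algebraMap R S1) := by
  induction k with
  | zero =>
    have hle : I ≤ I ^ (0 + 1) ⊔ J := by
      rw [zero_add, pow_one]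
      exact le_sup_left
    refine ⟨1, by simp, fun i => hle ?_, Ideal.map_mono hle ?_, Ideal.map_mono hle ?_⟩
    · exact I.sub_mem (hb' i) (hb i)
    · have : a0' - (1 : R) • a0 = (a0' - 1) - (a0 - 1) := by rw [one_smul]; ring
      rw [this]
      exact Ideal.sub_mem _ ha0' ha0
    · have : (1 : R) • a1' - a1 = (a1' - 1) - (a1 - 1) := by rw [one_smul]; ring
      rw [this]
      exact Ideal.sub_mem _ ha1' ha1
  | succ k ih =>
    obtain ⟨r, hr, hc, hx0, hx1⟩ := ih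
    -- notation
    have hA0 : ι0 a0 - 1 ∈ I.map (algebraMap R S01) := by
      simpa using algHom_mem_map ι0 I ha0
    have hA1 : ι1 a1 - 1 ∈ I.map (algebraMap R S01) := by
      simpa using algHom_mem_map ι1 I ha1
    have hrA0 : algebraMap R S01 r * ι0 a0 - 1 ∈ I.map (algebraMap R S01) := by
      refine mul_sub_one_mem _ ?_ hA0
      have : algebraMap R S01 r - 1 = algebraMap R S01 (r - 1) := by simp
      rw [this]
      exact Ideal.mem_map_of_mem _ hr
    have hP : ∏ i, (1 + b i • η i) - 1 ∈ I.map (algebraMap R S01) := prod_eta_sub_one_mem I hb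
    have hX0 : ι0 (a0' - r • a0) ∈ (I ^ (k + 1) ⊔ J).map (algebraMap R S01) :=
      algHom_mem_map ι0 _ hx0
    have hX1 : ι1 (r • a1' - a1) ∈ (I ^ (k + 1) ⊔ J).map (algebraMap R S01) :=
      algHom_mem_map ι1 _ hx1
    have hC : ∑ i, (b' - b) i • η i ∈ (I ^ (k + 1) ⊔ J).map (algebraMap R S01) :=
      sum_eta_mem _ hc
    have hE := prod_eta_add_sub_mem_of_le (η := η) I (I ^ (k + 1) ⊔ J) (I ^ (k + 2) ⊔ J)
      (map_mul_sup_le I J S01 k) hb (c := b' - b)
      (fun i => by rw [Pi.sub_apply, add_sub_cancel]; exact hb' i) hc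
    rw [add_sub_cancel] at hE
    have hmul : ∀ {x y : S01}, x ∈ I.map (algebraMap R S01) →
        y ∈ (I ^ (k + 1) ⊔ J).map (algebraMap R S01) →
        x * y ∈ (I ^ (k + 2) ⊔ J).map (algebraMap R S01) :=
      fun hx hy => map_mul_sup_le I J S01 k (Ideal.mul_mem_mul hx hy)
    have hsq : ∀ {x y : S01}, x ∈ (I ^ (k + 1) ⊔ J).map (algebraMap R S01) →
        y ∈ (I ^ (k + 1) ⊔ J).map (algebraMap R S01) →
        x * y ∈ (I ^ (k + 2) ⊔ J).map (algebraMap R S01) :=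
      fun hx hy => map_sup_mul_sup_le I J S01 k (Ideal.mul_mem_mul hx hy)
    have hd' : ι0 a0 * (∏ i, (1 + b i • η i)) * ι1 a1 -
        ι0 a0' * (∏ i, (1 + b' i • η i)) * ι1 a1' ∈
        (I ^ (k + 2) ⊔ J).map (algebraMap R S01) :=
      Ideal.map_mono le_sup_right hd
    have key := ring_id2 (algebraMap R S01 r) (ι0 a0) (ι1 a1) (∏ i, (1 + b i • η i))
      (∏ i, (1 + b' i • η i)) (ι0 a0') (ι1 a1') (ι0 (a0' - r • a0)) (ι1 (r • a1' - a1))
      (∑ i, (b' - b) i • η i)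
      (by rw [map_sub, map_smul, Algebra.smul_def]; ring)
      (by rw [map_sub, map_smul, Algebra.smul_def]; ring)
    have hrel : ι0 (a0' - r • a0) + ι1 (r • a1' - a1) + ∑ i, (b' - b) i • η i ∈
        (I ^ (k + 2) ⊔ J).map (algebraMap R S01) := by
      rw [key]
      refine Ideal.sub_mem _ (neg_mem (Ideal.add_mem _ (Ideal.add_mem _ (Ideal.add_mem _
        (Ideal.add_mem _ (Ideal.add_mem _ (Ideal.add_mem _ ?_ ?_) ?_) ?_) ?_) ?_) ?_))
        (Ideal.mul_mem_left _ _ hd')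
      · exact hmul (mul_sub_one_mem _ hrA0 hP) hX1
      · exact hmul (mul_sub_one_mem _ hrA0 hA1) hC
      · exact hmul (mul_sub_one_mem _ hP hA1) hX0
      · exact Ideal.mul_mem_left _ _ (hsq hC hX1)
      · exact Ideal.mul_mem_left _ _ (hsq hX0 hX1)
      · exact Ideal.mul_mem_right _ _ (hsq hX0 hC)
      · exact Ideal.mul_mem_right _ _ hE
    obtain ⟨hc', ρ, hρ0, hρ1⟩ := h.ker_mem (I ^ (k + 2) ⊔ J) hrel
    have hρ : ρ ∈ I ^ (k + 1) ⊔ J := by
      refine h.pure (I ^ (k + 1) ⊔ J) ?_ ?_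
      · have : algebraMap R S0 ρ = (a0' - r • a0) - ((a0' - r • a0) - algebraMap R S0 ρ) := by
          ring
        rw [this]
        exact Ideal.sub_mem _ hx0 (map_sup_succ_le I J S0 k hρ0)
      · have : algebraMap R S1 ρ = ((r • a1' - a1) + algebraMap R S1 ρ) - (r • a1' - a1) := by
          ring
        rw [this]
        exact Ideal.sub_mem _ (map_sup_succ_le I J S1 k hρ1) hx1
    obtain ⟨ρI, hρI, ρJ, hρJ, hρeq⟩ := Submodule.mem_sup.mp hρ
    refine ⟨r + ρI, ?_, hc', ?_, ?_⟩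
    · have : r + ρI - 1 = (r - 1) + ρI := by ring
      rw [this]
      exact I.add_mem hr (Ideal.pow_le_self (Nat.succ_ne_zero k) hρI)
    · have : a0' - (r + ρI) • a0 =
          ((a0' - r • a0) - algebraMap R S0 ρ) - algebraMap R S0 ρ * (a0 - 1) + ρJ • a0 := by
        rw [← hρeq, add_smul, Algebra.smul_def ρI a0, Algebra.smul_def ρJ a0, map_add]
        ring
      rw [this]
      refine Ideal.add_mem _ (Ideal.sub_mem _ hρ0 ?_)
        (Ideal.map_mono le_sup_right (smul_mem_map hρJ _))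
      rw [mul_comm]
      exact map_mul_sup_le I J S0 k (Ideal.mul_mem_mul ha0 (Ideal.mem_map_of_mem _ hρ))
    · have : (r + ρI) • a1' - a1 =
          ((r • a1' - a1) + algebraMap R S1 ρ) + algebraMap R S1 ρ * (a1' - 1) - ρJ • a1' := by
        rw [← hρeq, add_smul, Algebra.smul_def ρI a1', Algebra.smul_def ρJ a1', map_add]
        ring
      rw [this]
      refine Ideal.sub_mem _ (Ideal.add_mem _ hρ1 ?_)
        (Ideal.map_mono le_sup_right (smul_mem_map hρJ _))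
      rw [mul_comm]
      exact map_mul_sup_le I J S1 k (Ideal.mul_mem_mul ha1' (Ideal.mem_map_of_mem _ hρ))

/-- **Uniqueness modulo an arbitrary ideal `J`** such that `I ^ n ≤ J`: two factorisations
which agree modulo `J·S01` have the same `η`-coordinates modulo `J`. -/
theorem factorization_unique_mod_ideal (I J : Ideal R) {n : ℕ} (hIJ : I ^ n ≤ J) {a0 a0' : S0}
    {a1 a1' : S1} {b b' : Fin g → R}
    (ha0 : a0 - 1 ∈ I.map (algebraMap R S0)) (ha0' : a0' - 1 ∈ I.map (algebraMap R S0))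
    (ha1 : a1 - 1 ∈ I.map (algebraMap R S1)) (ha1' : a1' - 1 ∈ I.map (algebraMap R S1))
    (hb : ∀ i, b i ∈ I) (hb' : ∀ i, b' i ∈ I)
    (hd : ι0 a0 * (∏ i, (1 + b i • η i)) * ι1 a1 - ι0 a0' * (∏ i, (1 + b' i • η i)) * ι1 a1' ∈
      J.map (algebraMap R S01)) :
    ∃ r : R, r - 1 ∈ I ∧ (∀ i, b' i - b i ∈ J) ∧
      a0' - r • a0 ∈ J.map (algebraMap R S0) ∧ r • a1' - a1 ∈ J.map (algebraMap R S1) := by
  have hJ : I ^ (n + 1) ⊔ J = J :=
    sup_eq_right.mpr ((Ideal.pow_le_pow_right (Nat.le_succ n)).trans hIJ)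
  have := h.factorization_unique_mod_sup I J ha0 ha0' ha1 ha1' hb hb' hd n
  rwa [hJ] at this

/-- Approximate uniqueness, for ANY ideal `I`: two factorisations which agree modulo
`I^N·S01` have the same `η`-coordinates modulo `I^N` (and chart factors which agree up to a
constant `r ∈ 1 + I`). -/
theorem factorization_unique_mod_of_mem (I : Ideal R) {a0 a0' : S0} {a1 a1' : S1}
    {b b' : Fin g → R}
    (ha0 : a0 - 1 ∈ I.map (algebraMap R S0)) (ha0' : a0' - 1 ∈ I.map (algebraMap R S0))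
    (ha1 : a1 - 1 ∈ I.map (algebraMap R S1)) (ha1' : a1' - 1 ∈ I.map (algebraMap R S1))
    (hb : ∀ i, b i ∈ I) (hb' : ∀ i, b' i ∈ I) (N : ℕ)
    (hd : ι0 a0 * (∏ i, (1 + b i • η i)) * ι1 a1 - ι0 a0' * (∏ i, (1 + b' i • η i)) * ι1 a1' ∈
      (I ^ N).map (algebraMap R S01))
    (k : ℕ) (hkN : k + 1 ≤ N) :
    ∃ r : R, r - 1 ∈ I ∧ (∀ i, b' i - b i ∈ I ^ (k + 1)) ∧
      a0' - r • a0 ∈ (I ^ (k + 1)).map (algebraMap R S0) ∧
      r • a1' - a1 ∈ (I ^ (k + 1)).map (algebraMap R S1) := by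
  have hJ : I ^ (k + 1) ⊔ I ^ N = I ^ (k + 1) := sup_eq_left.mpr (Ideal.pow_le_pow_right hkN)
  have := h.factorization_unique_mod_sup I (I ^ N) ha0 ha0' ha1 ha1' hb hb' hd k
  rwa [hJ] at this

/-- Approximate uniqueness modulo `I^(k+1)` for two factorisations of the same element. -/
theorem factorization_unique_mod (I : Ideal R) {a0 a0' : S0} {a1 a1' : S1} {b b' : Fin g → R}
    (ha0 : a0 - 1 ∈ I.map (algebraMap R S0)) (ha0' : a0' - 1 ∈ I.map (algebraMap R S0))
    (ha1 : a1 - 1 ∈ I.map (algebraMap R S1)) (ha1' : a1' - 1 ∈ I.map (algebraMap R S1))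
    (hb : ∀ i, b i ∈ I) (hb' : ∀ i, b' i ∈ I)
    (heq : ι0 a0 * (∏ i, (1 + b i • η i)) * ι1 a1 = ι0 a0' * (∏ i, (1 + b' i • η i)) * ι1 a1')
    (k : ℕ) :
    ∃ r : R, r - 1 ∈ I ∧ (∀ i, b' i - b i ∈ I ^ (k + 1)) ∧
      a0' - r • a0 ∈ (I ^ (k + 1)).map (algebraMap R S0) ∧
      r • a1' - a1 ∈ (I ^ (k + 1)).map (algebraMap R S1) :=
  h.factorization_unique_mod_of_mem I ha0 ha0' ha1 ha1' hb hb' (k + 1)
    (by rw [heq, sub_self]; exact Ideal.zero_mem _) k le_rfl

/-- **Unit factorisation, uniqueness** (step (C2)): `b` is unique, and `a0`, `a1` are unique up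
to a constant `r ∈ 1 + I`. -/
theorem factorization_unique (I : Ideal R) (hI : IsNilpotent I) {a0 a0' : S0} {a1 a1' : S1}
    {b b' : Fin g → R}
    (ha0 : a0 - 1 ∈ I.map (algebraMap R S0)) (ha0' : a0' - 1 ∈ I.map (algebraMap R S0))
    (ha1 : a1 - 1 ∈ I.map (algebraMap R S1)) (ha1' : a1' - 1 ∈ I.map (algebraMap R S1))
    (hb : ∀ i, b i ∈ I) (hb' : ∀ i, b' i ∈ I)
    (heq : ι0 a0 * (∏ i, (1 + b i • η i)) * ι1 a1 =
      ι0 a0' * (∏ i, (1 + b' i • η i)) * ι1 a1') :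
    b = b' ∧ ∃ r : R, r - 1 ∈ I ∧ a0' = r • a0 ∧ a1 = r • a1' := by
  obtain ⟨n, hn⟩ := hI
  obtain ⟨r, hr, hc, h0, h1⟩ := h.factorization_unique_mod I ha0 ha0' ha1 ha1' hb hb' heq n
  have h2 : I ^ (n + 1) = ⊥ := by
    rw [pow_succ, hn, Ideal.zero_eq_bot, Ideal.bot_mul]
  rw [h2, Ideal.map_bot, Ideal.mem_bot, sub_eq_zero] at h0 h1
  refine ⟨?_, r, hr, h0, h1.symm⟩
  funext i
  have := hc i
  rw [h2, Ideal.mem_bot, sub_eq_zero] at this
  exact this.symm

end Core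

end IsCechDatum

/-! ### The coordinate map `β` -/

section Beta

variable {R : Type uR} {S0 : Type u0} {S1 : Type u1} {S01 : Type u01}
    [CommRing R] [CommRing S0] [CommRing S1] [CommRing S01]
    [Algebra R S0] [Algebra R S1] [Algebra R S01] {g : ℕ}

/-- `b` is the `η`-coordinate vector of a factorisation
`u = ι0 a0 * ∏ (1 + b i • η i) * ι1 a1` with `a_j ∈ 1 + I·S_j`, `b ∈ I^g`. -/
def IsCechCoord (ι0 : S0 →ₐ[R] S01) (ι1 : S1 →ₐ[R] S01) (η : Fin g → S01) (I : Ideal R)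
    (u : S01) (b : Fin g → R) : Prop :=
  (∀ i, b i ∈ I) ∧ ∃ (a0 : S0) (a1 : S1), a0 - 1 ∈ I.map (algebraMap R S0) ∧
    a1 - 1 ∈ I.map (algebraMap R S1) ∧ u = ι0 a0 * (∏ i, (1 + b i • η i)) * ι1 a1

open Classical in
/-- The coordinate map `β : 1 + I·S01 → I^g` of step (C2) (junk value `0` outside its domain). -/
noncomputable def cechBeta (ι0 : S0 →ₐ[R] S01) (ι1 : S1 →ₐ[R] S01) (η : Fin g → S01)
    (I : Ideal R) (u : S01) : Fin g → R :=
  if hu : ∃ b, IsCechCoord ι0 ι1 η I u b then hu.choose else 0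

variable {ι0 : S0 →ₐ[R] S01} {ι1 : S1 →ₐ[R] S01} {η : Fin g → S01} {I : Ideal R}

theorem cechBeta_mem (ι0 : S0 →ₐ[R] S01) (ι1 : S1 →ₐ[R] S01) (η : Fin g → S01) (I : Ideal R)
    (u : S01) (i : Fin g) : cechBeta ι0 ι1 η I u i ∈ I := by
  unfold cechBeta
  split_ifs with hu
  · exact hu.choose_spec.1 i
  · exact I.zero_mem

theorem IsCechCoord.sub_one_mem {u : S01} {b : Fin g → R} (hb : IsCechCoord ι0 ι1 η I u b) :
    u - 1 ∈ I.map (algebraMap R S01) := by
  obtain ⟨hb, a0, a1, h0, h1, rfl⟩ := hb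
  have hA0 : ι0 a0 - 1 ∈ I.map (algebraMap R S01) := by
    simpa using algHom_mem_map ι0 I h0
  have hA1 : ι1 a1 - 1 ∈ I.map (algebraMap R S01) := by
    simpa using algHom_mem_map ι1 I h1
  exact mul_sub_one_mem _ (mul_sub_one_mem _ hA0 (IsCechDatum.prod_eta_sub_one_mem I hb)) hA1

theorem isCechCoord_of_eq {a0 : S0} {a1 : S1} {b : Fin g → R}
    (ha0 : a0 - 1 ∈ I.map (algebraMap R S0)) (ha1 : a1 - 1 ∈ I.map (algebraMap R S1))
    (hb : ∀ i, b i ∈ I) :
    IsCechCoord ι0 ι1 η I (ι0 a0 * (∏ i, (1 + b i • η i)) * ι1 a1) b :=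
  ⟨hb, a0, a1, ha0, ha1, rfl⟩

namespace IsCechDatum

variable (h : IsCechDatum ι0 ι1 η)
include h

theorem isCechCoord_unique (hI : IsNilpotent I) {u : S01} {b b' : Fin g → R}
    (hb : IsCechCoord ι0 ι1 η I u b) (hb' : IsCechCoord ι0 ι1 η I u b') : b = b' := by
  obtain ⟨hb, a0, a1, h0, h1, rfl⟩ := hb
  obtain ⟨hb', a0', a1', h0', h1', heq⟩ := hb'
  exact (h.factorization_unique I hI h0 h0' h1 h1' hb hb' heq).1

theorem exists_isCechCoord (hI : IsNilpotent I) {u : S01}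
    (hu : u - 1 ∈ I.map (algebraMap R S01)) : ∃ b, IsCechCoord ι0 ι1 η I u b := by
  obtain ⟨a0, a1, b, h0, h1, hb, rfl⟩ := h.exists_factorization I hI hu
  exact ⟨b, isCechCoord_of_eq h0 h1 hb⟩

/-- `β u` is a coordinate vector of `u`. -/
theorem isCechCoord_cechBeta (hI : IsNilpotent I) {u : S01}
    (hu : u - 1 ∈ I.map (algebraMap R S01)) :
    IsCechCoord ι0 ι1 η I u (cechBeta ι0 ι1 η I u) := by
  have hex := h.exists_isCechCoord hI hu
  unfold cechBeta
  rw [dif_pos hex]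
  exact hex.choose_spec

/-- `β u` is the only coordinate vector of `u`. -/
theorem cechBeta_eq (hI : IsNilpotent I) {u : S01} {b : Fin g → R}
    (hb : IsCechCoord ι0 ι1 η I u b) : cechBeta ι0 ι1 η I u = b :=
  h.isCechCoord_unique hI (h.isCechCoord_cechBeta hI hb.sub_one_mem) hb

/-- The factorisation of `u` with `η`-coordinates `β u`. -/
theorem cechBeta_spec (hI : IsNilpotent I) {u : S01}
    (hu : u - 1 ∈ I.map (algebraMap R S01)) :
    ∃ (a0 : S0) (a1 : S1), a0 - 1 ∈ I.map (algebraMap R S0) ∧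
      a1 - 1 ∈ I.map (algebraMap R S1) ∧
      u = ι0 a0 * (∏ i, (1 + cechBeta ι0 ι1 η I u i • η i)) * ι1 a1 :=
  (h.isCechCoord_cechBeta hI hu).2

theorem cechBeta_factor (hI : IsNilpotent I) {a0 : S0} {a1 : S1} {b : Fin g → R}
    (ha0 : a0 - 1 ∈ I.map (algebraMap R S0)) (ha1 : a1 - 1 ∈ I.map (algebraMap R S1))
    (hb : ∀ i, b i ∈ I) :
    cechBeta ι0 ι1 η I (ι0 a0 * (∏ i, (1 + b i • η i)) * ι1 a1) = b :=
  h.cechBeta_eq hI (isCechCoord_of_eq ha0 ha1 hb)

theorem cechBeta_prod (hI : IsNilpotent I) {b : Fin g → R} (hb : ∀ i, b i ∈ I) :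
    cechBeta ι0 ι1 η I (∏ i, (1 + b i • η i)) = b := by
  have := h.cechBeta_factor hI (a0 := 1) (a1 := 1) (by simp) (by simp) hb
  simpa using this

theorem cechBeta_one (hI : IsNilpotent I) : cechBeta ι0 ι1 η I 1 = 0 := by
  have := h.cechBeta_prod hI (b := 0) (fun _ => I.zero_mem)
  simpa using this

/-- `β` is invariant under multiplication by units of the two charts. -/
theorem cechBeta_chart_mul (hI : IsNilpotent I) {a0 : S0} {a1 : S1} {u : S01}
    (ha0 : a0 - 1 ∈ I.map (algebraMap R S0)) (ha1 : a1 - 1 ∈ I.map (algebraMap R S1))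
    (hu : u - 1 ∈ I.map (algebraMap R S01)) :
    cechBeta ι0 ι1 η I (ι0 a0 * u * ι1 a1) = cechBeta ι0 ι1 η I u := by
  obtain ⟨c0, c1, hc0, hc1, hc⟩ := h.cechBeta_spec hI hu
  refine h.cechBeta_eq hI ⟨cechBeta_mem ι0 ι1 η I u, a0 * c0, c1 * a1,
    mul_sub_one_mem _ ha0 hc0, mul_sub_one_mem _ hc1 ha1, ?_⟩
  conv_lhs => rw [hc]
  rw [map_mul, map_mul]
  ring

/-- `β (u * u')` only depends on `β u` and `β u'`. -/
theorem cechBeta_mul (hI : IsNilpotent I) {u u' : S01}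
    (hu : u - 1 ∈ I.map (algebraMap R S01)) (hu' : u' - 1 ∈ I.map (algebraMap R S01)) :
    cechBeta ι0 ι1 η I (u * u') =
      cechBeta ι0 ι1 η I ((∏ i, (1 + cechBeta ι0 ι1 η I u i • η i)) *
        ∏ i, (1 + cechBeta ι0 ι1 η I u' i • η i)) := by
  obtain ⟨c0, c1, hc0, hc1, hc⟩ := h.cechBeta_spec hI hu
  obtain ⟨d0, d1, hd0, hd1, hd⟩ := h.cechBeta_spec hI hu'
  have hP : (∏ i, (1 + cechBeta ι0 ι1 η I u i • η i)) *
      (∏ i, (1 + cechBeta ι0 ι1 η I u' i • η i)) - 1 ∈ I.map (algebraMap R S01) :=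
    mul_sub_one_mem _ (prod_eta_sub_one_mem I (cechBeta_mem ι0 ι1 η I u))
      (prod_eta_sub_one_mem I (cechBeta_mem ι0 ι1 η I u'))
  rw [← h.cechBeta_chart_mul hI (mul_sub_one_mem _ hc0 hd0) (mul_sub_one_mem _ hc1 hd1) hP]
  congr 1
  conv_lhs => rw [hc, hd]
  rw [map_mul, map_mul]
  ring

/-- `β u = β u'` iff `u` and `u'` differ by units of the two charts. -/
theorem cechBeta_eq_iff (hI : IsNilpotent I) {u u' : S01}
    (hu : u - 1 ∈ I.map (algebraMap R S01)) (hu' : u' - 1 ∈ I.map (algebraMap R S01)) :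
    cechBeta ι0 ι1 η I u = cechBeta ι0 ι1 η I u' ↔
      ∃ (a0 : S0) (a1 : S1), a0 - 1 ∈ I.map (algebraMap R S0) ∧
        a1 - 1 ∈ I.map (algebraMap R S1) ∧ u' = ι0 a0 * u * ι1 a1 := by
  constructor
  · intro hβ
    obtain ⟨c0, c1, hc0, hc1, hc⟩ := h.cechBeta_spec hI hu
    obtain ⟨d0, d1, hd0, hd1, hd⟩ := h.cechBeta_spec hI hu'
    obtain ⟨e0, he0⟩ := (isUnit_of_sub_one_mem_map hI hc0).exists_left_inv
    obtain ⟨e1, he1⟩ := (isUnit_of_sub_one_mem_map hI hc1).exists_left_inv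
    refine ⟨d0 * e0, e1 * d1, mul_sub_one_mem _ hd0 (inv_sub_one_mem _ hc0 he0),
      mul_sub_one_mem _ (inv_sub_one_mem _ hc1 he1) hd1, ?_⟩
    conv_lhs => rw [hd]
    conv_rhs => rw [hc]
    rw [← hβ, map_mul, map_mul]
    have h0 : ι0 e0 * ι0 c0 = 1 := by rw [← map_mul, he0, map_one]
    have h1 : ι1 e1 * ι1 c1 = 1 := by rw [← map_mul, he1, map_one]
    linear_combination (-(ι0 d0 * (∏ i, (1 + cechBeta ι0 ι1 η I u i • η i)) * ι1 d1)) *
      (ι0 e0 * ι0 c0 * h1 + h0)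
  · rintro ⟨a0, a1, ha0, ha1, rfl⟩
    exact (h.cechBeta_chart_mul hI ha0 ha1 hu).symm

/-- `β u = 0` iff `u` is a product of units of the two charts (used for injectivity, (C5)). -/
theorem cechBeta_eq_zero_iff (hI : IsNilpotent I) {u : S01}
    (hu : u - 1 ∈ I.map (algebraMap R S01)) :
    cechBeta ι0 ι1 η I u = 0 ↔
      ∃ (a0 : S0) (a1 : S1), a0 - 1 ∈ I.map (algebraMap R S0) ∧
        a1 - 1 ∈ I.map (algebraMap R S1) ∧ u = ι0 a0 * ι1 a1 := by
  have h1 : (1 : S01) - 1 ∈ I.map (algebraMap R S01) := by simp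
  rw [← h.cechBeta_one hI, eq_comm, h.cechBeta_eq_iff hI h1 hu]
  simp only [mul_one]

/-- **Naturality of `β`** with respect to a morphism of two-chart data. -/
theorem cechBeta_map {R' : Type*} {S0' : Type*} {S1' : Type*} {S01' : Type*}
    [CommRing R'] [CommRing S0'] [CommRing S1'] [CommRing S01']
    [Algebra R' S0'] [Algebra R' S1'] [Algebra R' S01']
    {ι0' : S0' →ₐ[R'] S01'} {ι1' : S1' →ₐ[R'] S01'} {η' : Fin g → S01'}
    (h' : IsCechDatum ι0' ι1' η') {I' : Ideal R'} (hI : IsNilpotent I) (hI' : IsNilpotent I')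
    (φ : R →+* R') (φ0 : S0 →+* S0') (φ1 : S1 →+* S1') (φ01 : S01 →+* S01')
    (c0 : ∀ r, φ0 (algebraMap R S0 r) = algebraMap R' S0' (φ r))
    (c1 : ∀ r, φ1 (algebraMap R S1 r) = algebraMap R' S1' (φ r))
    (c01 : ∀ r, φ01 (algebraMap R S01 r) = algebraMap R' S01' (φ r))
    (d0 : ∀ x, φ01 (ι0 x) = ι0' (φ0 x)) (d1 : ∀ x, φ01 (ι1 x) = ι1' (φ1 x))
    (e : ∀ i, φ01 (η i) = η' i) (hφ : ∀ x ∈ I, φ x ∈ I')
    {u : S01} (hu : u - 1 ∈ I.map (algebraMap R S01)) :
    cechBeta ι0' ι1' η' I' (φ01 u) = fun i => φ (cechBeta ι0 ι1 η I u i) := by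
  obtain ⟨a0, a1, ha0, ha1, hc⟩ := h.cechBeta_spec hI hu
  refine h'.cechBeta_eq hI' ⟨fun i => hφ _ (cechBeta_mem ι0 ι1 η I u i), φ0 a0, φ1 a1,
    map_sub_one_mem_of_compat φ hφ φ0 c0 ha0, map_sub_one_mem_of_compat φ hφ φ1 c1 ha1, ?_⟩
  conv_lhs => rw [hc]
  rw [map_mul, map_mul, d0, d1, map_prod]
  congr 2
  refine Finset.prod_congr rfl fun i _ => ?_
  rw [map_add, map_one, Algebra.smul_def, map_mul, c01, e, ← Algebra.smul_def]

end IsCechDatum

end Beta

/-! ### Truncated coordinates (any ideals: no nilpotency, no quotient rings) -/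

section Trunc

variable {R : Type uR} {S0 : Type u0} {S1 : Type u1} {S01 : Type u01}
    [CommRing R] [CommRing S0] [CommRing S1] [CommRing S01]
    [Algebra R S0] [Algebra R S1] [Algebra R S01] {g : ℕ}

/-- `b` is an `η`-coordinate vector of `u` modulo the ideal `J`, with chart factors in
`1 + I·S_j`: `b ∈ I^g` and `u ≡ ι0 a0 * ∏ (1 + b i • η i) * ι1 a1` modulo `J·S01` for some
`a_j ∈ 1 + I·S_j`.  Here `I` and `J` are ANY ideals of the base ring. -/
def IsCechCoordModJ (ι0 : S0 →ₐ[R] S01) (ι1 : S1 →ₐ[R] S01) (η : Fin g → S01) (I J : Ideal R)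
    (u : S01) (b : Fin g → R) : Prop :=
  (∀ i, b i ∈ I) ∧ ∃ (a0 : S0) (a1 : S1), a0 - 1 ∈ I.map (algebraMap R S0) ∧
    a1 - 1 ∈ I.map (algebraMap R S1) ∧
    u - ι0 a0 * (∏ i, (1 + b i • η i)) * ι1 a1 ∈ J.map (algebraMap R S01)

/-- `b` is an `η`-coordinate vector of `u` modulo `I^m`: `b ∈ I^g` and
`u ≡ ι0 a0 * ∏ (1 + b i • η i) * ι1 a1` modulo `I^m·S01` for some `a_j ∈ 1 + I·S_j`.
Here `I` is ANY ideal of the base ring. -/
def IsCechCoordMod (ι0 : S0 →ₐ[R] S01) (ι1 : S1 →ₐ[R] S01) (η : Fin g → S01) (I : Ideal R)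
    (m : ℕ) (u : S01) (b : Fin g → R) : Prop :=
  IsCechCoordModJ ι0 ι1 η I (I ^ m) u b

variable {ι0 : S0 →ₐ[R] S01} {ι1 : S1 →ₐ[R] S01} {η : Fin g → S01} {I J : Ideal R} {m : ℕ}

theorem isCechCoordMod_iff {u : S01} {b : Fin g → R} :
    IsCechCoordMod ι0 ι1 η I m u b ↔ (∀ i, b i ∈ I) ∧ ∃ (a0 : S0) (a1 : S1),
      a0 - 1 ∈ I.map (algebraMap R S0) ∧ a1 - 1 ∈ I.map (algebraMap R S1) ∧
      u - ι0 a0 * (∏ i, (1 + b i • η i)) * ι1 a1 ∈ (I ^ m).map (algebraMap R S01) :=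
  Iff.rfl

namespace IsCechCoordModJ

theorem mem {u : S01} {b : Fin g → R} (hb : IsCechCoordModJ ι0 ι1 η I J u b) (i : Fin g) :
    b i ∈ I :=
  hb.1 i

/-- Coordinates modulo `J` are coordinates modulo any larger ideal. -/
theorem mono {u : S01} {b : Fin g → R} {J' : Ideal R} (hJ : J ≤ J')
    (hb : IsCechCoordModJ ι0 ι1 η I J u b) : IsCechCoordModJ ι0 ι1 η I J' u b := by
  obtain ⟨hb, a0, a1, h0, h1, hu⟩ := hb
  exact ⟨hb, a0, a1, h0, h1, Ideal.map_mono hJ hu⟩

/-- Coordinates modulo `J` only depend on `u` modulo `J·S01`. -/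
theorem congr {u u' : S01} {b : Fin g → R}
    (huu' : u - u' ∈ J.map (algebraMap R S01)) (hb : IsCechCoordModJ ι0 ι1 η I J u b) :
    IsCechCoordModJ ι0 ι1 η I J u' b := by
  obtain ⟨hb, a0, a1, h0, h1, hu⟩ := hb
  refine ⟨hb, a0, a1, h0, h1, ?_⟩
  have : u' - ι0 a0 * (∏ i, (1 + b i • η i)) * ι1 a1 =
      (u - ι0 a0 * (∏ i, (1 + b i • η i)) * ι1 a1) - (u - u') := by ring
  rw [this]
  exact Ideal.sub_mem _ hu huu'

theorem sub_one_mem {u : S01} {b : Fin g → R} (hJ : J ≤ I)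
    (hb : IsCechCoordModJ ι0 ι1 η I J u b) : u - 1 ∈ I.map (algebraMap R S01) := by
  obtain ⟨hb, a0, a1, h0, h1, hu⟩ := hb
  have hA0 : ι0 a0 - 1 ∈ I.map (algebraMap R S01) := by
    simpa using algHom_mem_map ι0 I h0
  have hA1 : ι1 a1 - 1 ∈ I.map (algebraMap R S01) := by
    simpa using algHom_mem_map ι1 I h1
  have hX := mul_sub_one_mem _
    (mul_sub_one_mem _ hA0 (IsCechDatum.prod_eta_sub_one_mem (η := η) I hb)) hA1
  have : u - 1 = (u - ι0 a0 * (∏ i, (1 + b i • η i)) * ι1 a1) +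
      (ι0 a0 * (∏ i, (1 + b i • η i)) * ι1 a1 - 1) := by ring
  rw [this]
  exact Ideal.add_mem _ (Ideal.map_mono hJ hu) hX

/-- Coordinates modulo `J` are invariant under multiplication by units of the two charts. -/
theorem chart_mul {u : S01} {b : Fin g → R} {c0 : S0} {c1 : S1}
    (hc0 : c0 - 1 ∈ I.map (algebraMap R S0)) (hc1 : c1 - 1 ∈ I.map (algebraMap R S1))
    (hb : IsCechCoordModJ ι0 ι1 η I J u b) :
    IsCechCoordModJ ι0 ι1 η I J (ι0 c0 * u * ι1 c1) b := by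
  obtain ⟨hb, a0, a1, h0, h1, hu⟩ := hb
  refine ⟨hb, c0 * a0, a1 * c1, mul_sub_one_mem _ hc0 h0, mul_sub_one_mem _ h1 hc1, ?_⟩
  have : ι0 c0 * u * ι1 c1 - ι0 (c0 * a0) * (∏ i, (1 + b i • η i)) * ι1 (a1 * c1) =
      ι0 c0 * (u - ι0 a0 * (∏ i, (1 + b i • η i)) * ι1 a1) * ι1 c1 := by
    rw [map_mul, map_mul]
    ring
  rw [this]
  exact Ideal.mul_mem_right _ _ (Ideal.mul_mem_left _ _ hu)

/-- The coordinate vector may be changed modulo `J`. -/
theorem coord_congr {u : S01} {b b' : Fin g → R} (hb' : ∀ i, b' i ∈ I)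
    (hbb' : ∀ i, b' i - b i ∈ J) (hb : IsCechCoordModJ ι0 ι1 η I J u b) :
    IsCechCoordModJ ι0 ι1 η I J u b' := by
  obtain ⟨hb, a0, a1, h0, h1, hu⟩ := hb
  refine ⟨hb', a0, a1, h0, h1, ?_⟩
  have hP : ∏ i, (1 + b i • η i) - ∏ i, (1 + b' i • η i) ∈ J.map (algebraMap R S01) := by
    refine prod_sub_prod_mem _ _ _ _ fun i _ => ?_
    have : (1 + b i • η i) - (1 + b' i • η i) = -((b' i - b i) • η i) := by
      rw [sub_smul]
      ring
    rw [this]
    exact neg_mem (smul_mem_map (hbb' i) _)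
  have : u - ι0 a0 * (∏ i, (1 + b' i • η i)) * ι1 a1 =
      (u - ι0 a0 * (∏ i, (1 + b i • η i)) * ι1 a1) +
        ι0 a0 * (∏ i, (1 + b i • η i) - ∏ i, (1 + b' i • η i)) * ι1 a1 := by ring
  rw [this]
  exact Ideal.add_mem _ hu (Ideal.mul_mem_right _ _ (Ideal.mul_mem_left _ _ hP))

/-- Coordinates of a product are coordinates of the product of the normal forms. -/
theorem mul {u u' : S01} {b b' b'' : Fin g → R} (hb : IsCechCoordModJ ι0 ι1 η I J u b)
    (hb' : IsCechCoordModJ ι0 ι1 η I J u' b')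
    (hP : IsCechCoordModJ ι0 ι1 η I J
      ((∏ i, (1 + b i • η i)) * ∏ i, (1 + b' i • η i)) b'') :
    IsCechCoordModJ ι0 ι1 η I J (u * u') b'' := by
  obtain ⟨hb, a0, a1, h0, h1, hu⟩ := hb
  obtain ⟨hb', a0', a1', h0', h1', hu'⟩ := hb'
  have h2 := hP.chart_mul (mul_sub_one_mem _ h0 h0') (mul_sub_one_mem _ h1 h1')
  refine h2.congr ?_
  have : ι0 (a0 * a0') * ((∏ i, (1 + b i • η i)) * ∏ i, (1 + b' i • η i)) * ι1 (a1 * a1') -
      u * u' = -((u - ι0 a0 * (∏ i, (1 + b i • η i)) * ι1 a1) * u' +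
        ι0 a0 * (∏ i, (1 + b i • η i)) * ι1 a1 *
          (u' - ι0 a0' * (∏ i, (1 + b' i • η i)) * ι1 a1')) := by
    rw [map_mul, map_mul]
    ring
  rw [this]
  exact neg_mem (Ideal.add_mem _ (Ideal.mul_mem_right _ _ hu) (Ideal.mul_mem_left _ _ hu'))

/-- Coordinates modulo `J` are transported by any morphism of two-chart frames. -/
theorem map {R' : Type*} {S0' : Type*} {S1' : Type*} {S01' : Type*}
    [CommRing R'] [CommRing S0'] [CommRing S1'] [CommRing S01']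
    [Algebra R' S0'] [Algebra R' S1'] [Algebra R' S01']
    {ι0' : S0' →ₐ[R'] S01'} {ι1' : S1' →ₐ[R'] S01'} {η' : Fin g → S01'} {I' J' : Ideal R'}
    (φ : R →+* R') (φ0 : S0 →+* S0') (φ1 : S1 →+* S1') (φ01 : S01 →+* S01')
    (c0 : ∀ r, φ0 (algebraMap R S0 r) = algebraMap R' S0' (φ r))
    (c1 : ∀ r, φ1 (algebraMap R S1 r) = algebraMap R' S1' (φ r))
    (c01 : ∀ r, φ01 (algebraMap R S01 r) = algebraMap R' S01' (φ r))
    (d0 : ∀ x, φ01 (ι0 x) = ι0' (φ0 x)) (d1 : ∀ x, φ01 (ι1 x) = ι1' (φ1 x))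
    (e : ∀ i, φ01 (η i) = η' i) (hφ : ∀ x ∈ I, φ x ∈ I') (hφJ : ∀ x ∈ J, φ x ∈ J')
    {u : S01} {b : Fin g → R} (hb : IsCechCoordModJ ι0 ι1 η I J u b) :
    IsCechCoordModJ ι0' ι1' η' I' J' (φ01 u) (fun i => φ (b i)) := by
  obtain ⟨hb, a0, a1, h0, h1, hu⟩ := hb
  refine ⟨fun i => hφ _ (hb i), φ0 a0, φ1 a1, map_sub_one_mem_of_compat φ hφ φ0 c0 h0,
    map_sub_one_mem_of_compat φ hφ φ1 c1 h1, ?_⟩
  have h2 := map_mem_of_compat φ hφJ φ01 c01 hu
  have h3 : φ01 (u - ι0 a0 * (∏ i, (1 + b i • η i)) * ι1 a1) =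
      φ01 u - ι0' (φ0 a0) * (∏ i, (1 + φ (b i) • η' i)) * ι1' (φ1 a1) := by
    rw [map_sub, map_mul, map_mul, d0, d1, map_prod]
    congr 3
    refine Finset.prod_congr rfl fun i _ => ?_
    rw [map_add, map_one, Algebra.smul_def, map_mul, c01, e, ← Algebra.smul_def]
  rwa [h3] at h2

/-- If `J = ⊥`, coordinates modulo `J` are exact coordinates. -/
theorem isCechCoord {u : S01} {b : Fin g → R} (hb : IsCechCoordModJ ι0 ι1 η I ⊥ u b) :
    IsCechCoord ι0 ι1 η I u b := by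
  obtain ⟨hb, a0, a1, h0, h1, hu⟩ := hb
  rw [Ideal.map_bot, Ideal.mem_bot, sub_eq_zero] at hu
  exact ⟨hb, a0, a1, h0, h1, hu⟩

end IsCechCoordModJ

/-- Exact coordinates are coordinates modulo every ideal. -/
theorem IsCechCoord.isCechCoordModJ {u : S01} {b : Fin g → R}
    (hb : IsCechCoord ι0 ι1 η I u b) (J : Ideal R) : IsCechCoordModJ ι0 ι1 η I J u b := by
  obtain ⟨hb, a0, a1, h0, h1, rfl⟩ := hb
  exact ⟨hb, a0, a1, h0, h1, by rw [sub_self]; exact Ideal.zero_mem _⟩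

/-- The normal form `∏ (1 + b i • η i)` has coordinates `b` modulo every ideal. -/
theorem isCechCoordModJ_prod (J : Ideal R) {b : Fin g → R} (hb : ∀ i, b i ∈ I) :
    IsCechCoordModJ ι0 ι1 η I J (∏ i, (1 + b i • η i)) b :=
  ⟨hb, 1, 1, by simp, by simp, by simp⟩

namespace IsCechDatum

/-- **Uniqueness modulo an arbitrary ideal `J`** with `I ^ n ≤ J`: two `η`-coordinate vectors
of `u` modulo `J` are congruent modulo `J`. -/
theorem isCechCoordModJ_unique (h : IsCechDatum ι0 ι1 η) {n : ℕ} (hIJ : I ^ n ≤ J) {u : S01}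
    {b b' : Fin g → R} (hb : IsCechCoordModJ ι0 ι1 η I J u b)
    (hb' : IsCechCoordModJ ι0 ι1 η I J u b') : ∀ i, b' i - b i ∈ J := by
  obtain ⟨hb, a0, a1, h0, h1, hu⟩ := hb
  obtain ⟨hb', a0', a1', h0', h1', hu'⟩ := hb'
  have hd : ι0 a0 * (∏ i, (1 + b i • η i)) * ι1 a1 -
      ι0 a0' * (∏ i, (1 + b' i • η i)) * ι1 a1' ∈ J.map (algebraMap R S01) := by
    have : ι0 a0 * (∏ i, (1 + b i • η i)) * ι1 a1 -
        ι0 a0' * (∏ i, (1 + b' i • η i)) * ι1 a1' =
        (u - ι0 a0' * (∏ i, (1 + b' i • η i)) * ι1 a1') -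
          (u - ι0 a0 * (∏ i, (1 + b i • η i)) * ι1 a1) := by ring
    rw [this]
    exact Ideal.sub_mem _ hu' hu
  obtain ⟨r, -, hc, -, -⟩ :=
    h.factorization_unique_mod_ideal I J hIJ h0 h0' h1 h1' hb hb' hd
  exact hc

/-- Uniqueness modulo `J`, for two elements congruent modulo `J·S01`. -/
theorem isCechCoordModJ_unique_of_congr (h : IsCechDatum ι0 ι1 η) {n : ℕ} (hIJ : I ^ n ≤ J)
    {u u' : S01} {b b' : Fin g → R} (huu' : u - u' ∈ J.map (algebraMap R S01))
    (hb : IsCechCoordModJ ι0 ι1 η I J u b) (hb' : IsCechCoordModJ ι0 ι1 η I J u' b') :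
    ∀ i, b' i - b i ∈ J :=
  h.isCechCoordModJ_unique hIJ (hb.congr huu') hb'

end IsCechDatum

namespace IsCechCoordMod

theorem mem {u : S01} {b : Fin g → R} (hb : IsCechCoordMod ι0 ι1 η I m u b) (i : Fin g) :
    b i ∈ I :=
  hb.1 i

/-- Coordinates modulo `I^m` are coordinates modulo any `J ⊇ I^m`. -/
theorem isCechCoordModJ {u : S01} {b : Fin g → R} (hIJ : I ^ m ≤ J)
    (hb : IsCechCoordMod ι0 ι1 η I m u b) : IsCechCoordModJ ι0 ι1 η I J u b :=
  IsCechCoordModJ.mono hIJ hb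

/-- Truncated coordinates modulo `I^m` are truncated coordinates modulo `I^m'`, `m' ≤ m`. -/
theorem mono {u : S01} {b : Fin g → R} {m' : ℕ} (hm : m' ≤ m)
    (hb : IsCechCoordMod ι0 ι1 η I m u b) : IsCechCoordMod ι0 ι1 η I m' u b :=
  IsCechCoordModJ.mono (Ideal.pow_le_pow_right hm) hb

/-- Truncated coordinates only depend on `u` modulo `I^m·S01`. -/
theorem congr {u u' : S01} {b : Fin g → R}
    (huu' : u - u' ∈ (I ^ m).map (algebraMap R S01)) (hb : IsCechCoordMod ι0 ι1 η I m u b) :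
    IsCechCoordMod ι0 ι1 η I m u' b :=
  IsCechCoordModJ.congr huu' hb

theorem sub_one_mem {u : S01} {b : Fin g → R} (hm : m ≠ 0)
    (hb : IsCechCoordMod ι0 ι1 η I m u b) : u - 1 ∈ I.map (algebraMap R S01) :=
  IsCechCoordModJ.sub_one_mem (Ideal.pow_le_self hm) hb

/-- Truncated coordinates are invariant under multiplication by units of the two charts. -/
theorem chart_mul {u : S01} {b : Fin g → R} {c0 : S0} {c1 : S1}
    (hc0 : c0 - 1 ∈ I.map (algebraMap R S0)) (hc1 : c1 - 1 ∈ I.map (algebraMap R S1))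
    (hb : IsCechCoordMod ι0 ι1 η I m u b) :
    IsCechCoordMod ι0 ι1 η I m (ι0 c0 * u * ι1 c1) b :=
  IsCechCoordModJ.chart_mul hc0 hc1 hb

/-- The coordinate vector may be changed modulo `I^m`. -/
theorem coord_congr {u : S01} {b b' : Fin g → R} (hb' : ∀ i, b' i ∈ I)
    (hbb' : ∀ i, b' i - b i ∈ I ^ m) (hb : IsCechCoordMod ι0 ι1 η I m u b) :
    IsCechCoordMod ι0 ι1 η I m u b' :=
  IsCechCoordModJ.coord_congr hb' hbb' hb

/-- Coordinates of a product are coordinates of the product of the normal forms. -/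
theorem mul {u u' : S01} {b b' b'' : Fin g → R} (hb : IsCechCoordMod ι0 ι1 η I m u b)
    (hb' : IsCechCoordMod ι0 ι1 η I m u' b')
    (hP : IsCechCoordMod ι0 ι1 η I m
      ((∏ i, (1 + b i • η i)) * ∏ i, (1 + b' i • η i)) b'') :
    IsCechCoordMod ι0 ι1 η I m (u * u') b'' :=
  IsCechCoordModJ.mul hb hb' hP

/-- Truncated coordinates are transported by any morphism of two-chart frames. -/
theorem map {R' : Type*} {S0' : Type*} {S1' : Type*} {S01' : Type*}
    [CommRing R'] [CommRing S0'] [CommRing S1'] [CommRing S01']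
    [Algebra R' S0'] [Algebra R' S1'] [Algebra R' S01']
    {ι0' : S0' →ₐ[R'] S01'} {ι1' : S1' →ₐ[R'] S01'} {η' : Fin g → S01'} {I' : Ideal R'}
    (φ : R →+* R') (φ0 : S0 →+* S0') (φ1 : S1 →+* S1') (φ01 : S01 →+* S01')
    (c0 : ∀ r, φ0 (algebraMap R S0 r) = algebraMap R' S0' (φ r))
    (c1 : ∀ r, φ1 (algebraMap R S1 r) = algebraMap R' S1' (φ r))
    (c01 : ∀ r, φ01 (algebraMap R S01 r) = algebraMap R' S01' (φ r))
    (d0 : ∀ x, φ01 (ι0 x) = ι0' (φ0 x)) (d1 : ∀ x, φ01 (ι1 x) = ι1' (φ1 x))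
    (e : ∀ i, φ01 (η i) = η' i) (hφ : ∀ x ∈ I, φ x ∈ I')
    {u : S01} {b : Fin g → R} (hb : IsCechCoordMod ι0 ι1 η I m u b) :
    IsCechCoordMod ι0' ι1' η' I' m (φ01 u) (fun i => φ (b i)) :=
  IsCechCoordModJ.map φ φ0 φ1 φ01 c0 c1 c01 d0 d1 e hφ (map_pow_mem_of_mem φ hφ m) hb

/-- If `I ^ m = ⊥`, truncated coordinates are exact coordinates. -/
theorem isCechCoord {u : S01} {b : Fin g → R} (hI : I ^ m = ⊥)
    (hb : IsCechCoordMod ι0 ι1 η I m u b) : IsCechCoord ι0 ι1 η I u b := by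
  have hb' : IsCechCoordModJ ι0 ι1 η I ⊥ u b := by
    have := hb
    unfold IsCechCoordMod at this
    rwa [hI] at this
  exact hb'.isCechCoord

end IsCechCoordMod

theorem isCechCoordMod_zero {u : S01} {b : Fin g → R} (hb : ∀ i, b i ∈ I) :
    IsCechCoordMod ι0 ι1 η I 0 u b := by
  refine ⟨hb, 1, 1, by simp, by simp, ?_⟩
  rw [pow_zero, Ideal.one_eq_top, Ideal.map_top]
  trivial

/-- Exact coordinates are truncated coordinates for every `m`. -/
theorem IsCechCoord.isCechCoordMod {u : S01} {b : Fin g → R}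
    (hb : IsCechCoord ι0 ι1 η I u b) (m : ℕ) : IsCechCoordMod ι0 ι1 η I m u b :=
  hb.isCechCoordModJ (I ^ m)

/-- **Truncated existence** (from the spanning hypothesis alone, any ideal `I`): every
`u ∈ 1 + I·S01` has an `η`-coordinate vector modulo `I^m`. -/
theorem exists_isCechCoordMod_of_span
    (hspan : ∀ x : S01, ∃ (x0 : S0) (x1 : S1) (c : Fin g → R),
      x = ι0 x0 + ι1 x1 + ∑ i, c i • η i)
    (I : Ideal R) (m : ℕ) {u : S01} (hu : u - 1 ∈ I.map (algebraMap R S01)) :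
    ∃ b, IsCechCoordMod ι0 ι1 η I m u b := by
  rcases m with _ | k
  · exact ⟨0, isCechCoordMod_zero fun _ => I.zero_mem⟩
  · obtain ⟨a0, a1, b, h0, h1, hb, hk⟩ :=
      IsCechDatum.exists_factorization_mod_of_span hspan I hu k
    exact ⟨b, hb, a0, a1, h0, h1, hk⟩

namespace IsCechDatum

/-- **Truncated uniqueness** (any ideal `I`): two `η`-coordinate vectors of `u` modulo `I^m`
are congruent modulo `I^m`. -/
theorem isCechCoordMod_unique (h : IsCechDatum ι0 ι1 η) {u : S01} {b b' : Fin g → R}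
    (hb : IsCechCoordMod ι0 ι1 η I m u b) (hb' : IsCechCoordMod ι0 ι1 η I m u b') :
    ∀ i, b' i - b i ∈ I ^ m :=
  h.isCechCoordModJ_unique (n := m) le_rfl hb hb'

/-- Truncated uniqueness, for two elements congruent modulo `I^m·S01`. -/
theorem isCechCoordMod_unique_of_congr (h : IsCechDatum ι0 ι1 η) {u u' : S01}
    {b b' : Fin g → R} (huu' : u - u' ∈ (I ^ m).map (algebraMap R S01))
    (hb : IsCechCoordMod ι0 ι1 η I m u b) (hb' : IsCechCoordMod ι0 ι1 η I m u' b') :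
    ∀ i, b' i - b i ∈ I ^ m :=
  h.isCechCoordMod_unique (hb.congr huu') hb'

/-- For a nilpotent ideal, truncated coordinates are congruent to `β u`. -/
theorem sub_cechBeta_mem (h : IsCechDatum ι0 ι1 η) (hI : IsNilpotent I) {u : S01}
    {b : Fin g → R} (hu : u - 1 ∈ I.map (algebraMap R S01))
    (hb : IsCechCoordMod ι0 ι1 η I m u b) : ∀ i, b i - cechBeta ι0 ι1 η I u i ∈ I ^ m :=
  h.isCechCoordMod_unique ((h.isCechCoord_cechBeta hI hu).isCechCoordMod m) hb

end IsCechDatum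

end Trunc

/-! ### Base change -/

section BaseChange

variable {R : Type uR} {S0 : Type u0} {S1 : Type u1} {S01 : Type u01}
    [CommRing R] [CommRing S0] [CommRing S1] [CommRing S01]
    [Algebra R S0] [Algebra R S1] [Algebra R S01] {g : ℕ}

/-- The base change `B ⊗ S → B ⊗ S'` of a chart map. -/
noncomputable abbrev baseMap (B : Type*) [CommRing B] [Algebra R B] {S S' : Type*} [CommRing S]
    [CommRing S'] [Algebra R S] [Algebra R S'] (f : S →ₐ[R] S') : B ⊗[R] S →ₐ[B] B ⊗[R] S' :=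
  Algebra.TensorProduct.map (AlgHom.id B B) f

/-- The base change of the family `η`. -/
abbrev baseEta (B : Type*) [CommRing B] [Algebra R B] (η : Fin g → S01) :
    Fin g → B ⊗[R] S01 :=
  fun i => (1 : B) ⊗ₜ[R] η i

theorem baseMap_eq_lTensor (B : Type*) [CommRing B] [Algebra R B] {S S' : Type*} [CommRing S]
    [CommRing S'] [Algebra R S] [Algebra R S'] (f : S →ₐ[R] S') (x : B ⊗[R] S) :
    baseMap B f x = f.toLinearMap.lTensor B x := by
  induction x using TensorProduct.induction_on with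
  | zero => simp
  | tmul b s => simp
  | add x y hx hy => rw [map_add, map_add, hx, hy]

variable {ι0 : S0 →ₐ[R] S01} {ι1 : S1 →ₐ[R] S01} {η : Fin g → S01}

namespace IsCechDatum

open IsCechDatum

/-- Exactness in the middle of the base-changed sequence. -/
theorem baseChange_ker (h : IsCechDatum ι0 ι1 η) (B : Type*) [CommRing B] [Algebra R B]
    {x0 : B ⊗[R] S0} {x1 : B ⊗[R] S1} {c : Fin g → B}
    (hx : baseMap B ι0 x0 + baseMap B ι1 x1 + ∑ i, c i • baseEta B η i = 0) :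
    c = 0 ∧ ∃ ρ : B, x0 = ρ ⊗ₜ[R] (1 : S0) ∧ x1 = -(ρ ⊗ₜ[R] (1 : S1)) := by
  classical
  let j0 : S0 →ₗ[R] S0 × S1 × (Fin g → R) := LinearMap.inl R S0 (S1 × (Fin g → R))
  let j1 : S1 →ₗ[R] S0 × S1 × (Fin g → R) :=
    (LinearMap.inr R S0 (S1 × (Fin g → R))).comp (LinearMap.inl R S1 (Fin g → R))
  let j2 : (Fin g → R) →ₗ[R] S0 × S1 × (Fin g → R) :=
    (LinearMap.inr R S0 (S1 × (Fin g → R))).comp (LinearMap.inr R S1 (Fin g → R))
  let p0 : S0 × S1 × (Fin g → R) →ₗ[R] S0 := LinearMap.fst R S0 (S1 × (Fin g → R))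
  let p1 : S0 × S1 × (Fin g → R) →ₗ[R] S1 :=
    (LinearMap.fst R S1 (Fin g → R)).comp (LinearMap.snd R S0 (S1 × (Fin g → R)))
  let p2 : S0 × S1 × (Fin g → R) →ₗ[R] (Fin g → R) :=
    (LinearMap.snd R S1 (Fin g → R)).comp (LinearMap.snd R S0 (S1 × (Fin g → R)))
  obtain ⟨w, hw_def⟩ : ∃ w : B ⊗[R] (S0 × S1 × (Fin g → R)),
      w = j0.lTensor B x0 + j1.lTensor B x1 + ∑ i, c i ⊗ₜ[R] j2 (Pi.single i 1) := ⟨_, rfl⟩
  have hw : (psi ι0 ι1 η).lTensor B w = 0 := by
    have e0 : (psi ι0 ι1 η).comp j0 = ι0.toLinearMap := by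
      ext x; simp [psi, j0]
    have e1 : (psi ι0 ι1 η).comp j1 = ι1.toLinearMap := by
      ext x; simp [psi, j1]
    have e2 : ∀ i, psi ι0 ι1 η (j2 (Pi.single i 1)) = η i := by
      intro i; simp [psi, j2]
    rw [hw_def, map_add, map_add, map_sum, ← LinearMap.lTensor_comp_apply,
      ← LinearMap.lTensor_comp_apply, e0, e1, ← baseMap_eq_lTensor, ← baseMap_eq_lTensor, ← hx]
    congr 1
    refine Finset.sum_congr rfl fun i _ => ?_
    rw [LinearMap.lTensor_tmul, e2, TensorProduct.smul_tmul', smul_eq_mul, mul_one]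
  obtain ⟨v, hv⟩ := (lTensor_exact B h.exact_phi_psi h.psi_surjective w).mp hw
  obtain ⟨ρ, rfl⟩ : ∃ ρ : B, v = ρ ⊗ₜ[R] (1 : R) :=
    ⟨TensorProduct.rid R B v, by
      rw [← TensorProduct.rid_symm_apply, LinearEquiv.symm_apply_apply]⟩
  rw [LinearMap.lTensor_tmul, phi_apply, hw_def] at hv
  refine ⟨?_, ρ, ?_, ?_⟩
  · funext i
    have key := congrArg (fun z => TensorProduct.rid R B
      ((((LinearMap.proj i : (Fin g → R) →ₗ[R] R).comp p2).lTensor B) z)) hv
    have f0 : ((LinearMap.proj i : (Fin g → R) →ₗ[R] R).comp p2).comp j0 = 0 := by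
      ext x; simp [p2, j0]
    have f1 : ((LinearMap.proj i : (Fin g → R) →ₗ[R] R).comp p2).comp j1 = 0 := by
      ext x; simp [p2, j1]
    simp only [map_add, map_sum, ← LinearMap.lTensor_comp_apply, f0, f1, LinearMap.lTensor_zero,
      LinearMap.zero_apply, zero_add, LinearMap.lTensor_tmul, TensorProduct.rid_tmul] at key
    simp only [LinearMap.coe_comp, LinearMap.coe_proj, Function.comp_apply, Function.eval, p2, j2,
      LinearMap.snd_apply, LinearMap.inr_apply, Pi.zero_apply, zero_smul, Pi.single_apply,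
      ite_smul, one_smul, Finset.sum_ite_eq, Finset.mem_univ, if_true] at key
    exact key.symm
  · have key := congrArg (p0.lTensor B) hv
    have f0 : p0.comp j0 = LinearMap.id := by
      ext x; simp [p0, j0]
    have f1 : p0.comp j1 = 0 := by
      ext x; simp [p0, j1]
    simp only [map_add, map_sum, ← LinearMap.lTensor_comp_apply, f0, f1, LinearMap.lTensor_zero,
      LinearMap.zero_apply, add_zero, LinearMap.lTensor_tmul, LinearMap.lTensor_id,
      LinearMap.id_apply] at key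
    simp only [p0, j2, LinearMap.fst_apply, LinearMap.coe_comp, Function.comp_apply,
      LinearMap.inr_apply, TensorProduct.tmul_zero, Finset.sum_const_zero, add_zero,
      map_one] at key
    exact key.symm
  · have key := congrArg (p1.lTensor B) hv
    have f0 : p1.comp j0 = 0 := by
      ext x; simp [p1, j0]
    have f1 : p1.comp j1 = LinearMap.id := by
      ext x; simp [p1, j1]
    simp only [map_add, map_sum, ← LinearMap.lTensor_comp_apply, f0, f1, LinearMap.lTensor_zero,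
      LinearMap.zero_apply, zero_add, LinearMap.lTensor_tmul, LinearMap.lTensor_id,
      LinearMap.id_apply] at key
    simp only [p1, j2, LinearMap.fst_apply, LinearMap.snd_apply, LinearMap.coe_comp,
      Function.comp_apply, LinearMap.inr_apply, TensorProduct.tmul_zero, Finset.sum_const_zero,
      add_zero, map_one, TensorProduct.tmul_neg] at key
    exact key.symm

/-- The spanning property is stable under base change. -/
theorem baseChange_span
    (hspan : ∀ x : S01, ∃ (x0 : S0) (x1 : S1) (c : Fin g → R),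
      x = ι0 x0 + ι1 x1 + ∑ i, c i • η i)
    (B : Type*) [CommRing B] [Algebra R B] (x : B ⊗[R] S01) :
    ∃ (x0 : B ⊗[R] S0) (x1 : B ⊗[R] S1) (c : Fin g → B),
      x = baseMap B ι0 x0 + baseMap B ι1 x1 + ∑ i, c i • baseEta B η i := by
  induction x using TensorProduct.induction_on with
  | zero => exact ⟨0, 0, 0, by simp⟩
  | tmul b s =>
    obtain ⟨s0, s1, c, rfl⟩ := hspan s
    refine ⟨b ⊗ₜ s0, b ⊗ₜ s1, fun i => c i • b, ?_⟩
    simp only [baseMap, Algebra.TensorProduct.map_tmul, AlgHom.coe_id, id_eq,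
      TensorProduct.tmul_add, TensorProduct.tmul_sum, baseEta]
    congr 1
    refine Finset.sum_congr rfl fun i _ => ?_
    rw [TensorProduct.smul_tmul', smul_eq_mul, mul_one, TensorProduct.smul_tmul]
  | add x y hx hy =>
    obtain ⟨x0, x1, c, rfl⟩ := hx
    obtain ⟨y0, y1, d, rfl⟩ := hy
    refine ⟨x0 + y0, x1 + y1, c + d, ?_⟩
    simp only [map_add, Pi.add_apply, add_smul, Finset.sum_add_distrib]
    ring

/-- **Base change** of a two-chart datum along an arbitrary `R`-algebra `B`. -/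
theorem baseChange (h : IsCechDatum ι0 ι1 η) (B : Type*) [CommRing B] [Algebra R B] :
    IsCechDatum (baseMap B ι0) (baseMap B ι1) (baseEta B η) where
  span := baseChange_span h.span B
  indep := fun x0 x1 c hx => (h.baseChange_ker B hx).1
  inter := by
    intro x0 x1 hx
    have hx' : baseMap B ι0 x0 + baseMap B ι1 (-x1) +
        ∑ i, (0 : Fin g → B) i • baseEta B η i = 0 := by
      simp [hx]
    obtain ⟨-, ρ, h0, h1⟩ := h.baseChange_ker B hx'
    rw [neg_inj] at h1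
    refine ⟨ρ, ?_, ?_⟩
    · rw [h0, Algebra.TensorProduct.algebraMap_apply]
      rfl
    · rw [h1, Algebra.TensorProduct.algebraMap_apply]
      rfl
  inj := by
    intro ρ h0 h1
    have h0' : ρ ⊗ₜ[R] (1 : S0) = 0 := by
      rw [Algebra.TensorProduct.algebraMap_apply] at h0
      exact h0
    have h1' : ρ ⊗ₜ[R] (1 : S1) = 0 := by
      rw [Algebra.TensorProduct.algebraMap_apply] at h1
      exact h1
    have e : (phi R S0 S1 g).lTensor B (ρ ⊗ₜ[R] (1 : R)) =
        (LinearMap.inl R S0 (S1 × (Fin g → R))).lTensor B (ρ ⊗ₜ[R] (1 : S0)) -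
        ((LinearMap.inr R S0 (S1 × (Fin g → R))).comp
          (LinearMap.inl R S1 (Fin g → R))).lTensor B (ρ ⊗ₜ[R] (1 : S1)) := by
      simp only [LinearMap.lTensor_tmul]
      rw [← TensorProduct.tmul_sub]
      congr 1
      rw [phi_apply]
      ext <;> simp
    rw [h0', h1', map_zero, map_zero, sub_zero] at e
    have h3 : ρ ⊗ₜ[R] (1 : R) = (0 : B ⊗[R] R) :=
      h.lTensor_phi_injective B (by rw [e, map_zero])
    have h4 := congrArg (TensorProduct.rid R B) h3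
    rw [TensorProduct.rid_tmul, one_smul, map_zero] at h4
    exact h4
  flat := by
    have := h.flat
    infer_instance

end IsCechDatum

/-- The map `B ⊗ S → B' ⊗ S` induced by `φ : B →ₐ[R] B'`. -/
noncomputable abbrev changeMap {B B' : Type*} [CommRing B] [CommRing B'] [Algebra R B]
    [Algebra R B'] (φ : B →ₐ[R] B') (S : Type*) [CommRing S] [Algebra R S] :
    B ⊗[R] S →ₐ[R] B' ⊗[R] S :=
  Algebra.TensorProduct.map φ (AlgHom.id R S)

theorem changeMap_algebraMap {B B' : Type*} [CommRing B] [CommRing B'] [Algebra R B]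
    [Algebra R B'] (φ : B →ₐ[R] B') (S : Type*) [CommRing S] [Algebra R S] (r : B) :
    changeMap φ S (algebraMap B (B ⊗[R] S) r) = algebraMap B' (B' ⊗[R] S) (φ r) := by
  simp [Algebra.TensorProduct.algebraMap_apply]

theorem changeMap_baseMap {B B' : Type*} [CommRing B] [CommRing B'] [Algebra R B]
    [Algebra R B'] (φ : B →ₐ[R] B') {S S' : Type*} [CommRing S] [CommRing S'] [Algebra R S]
    [Algebra R S'] (f : S →ₐ[R] S') (x : B ⊗[R] S) :
    changeMap φ S' (baseMap B f x) = baseMap B' f (changeMap φ S x) := by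
  induction x using TensorProduct.induction_on with
  | zero => simp
  | tmul b s => simp
  | add x y hx hy => simp only [map_add, hx, hy]

theorem changeMap_baseEta {B B' : Type*} [CommRing B] [CommRing B'] [Algebra R B]
    [Algebra R B'] (φ : B →ₐ[R] B') (η : Fin g → S01) (i : Fin g) :
    changeMap φ S01 (baseEta B η i) = baseEta B' η i := by
  simp

/-- Truncated coordinates are natural in the base ring. -/
theorem IsCechCoordMod.baseChange_map {B B' : Type*} [CommRing B] [CommRing B'] [Algebra R B]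
    [Algebra R B'] (φ : B →ₐ[R] B') {I : Ideal B} {I' : Ideal B'} (hφ : ∀ x ∈ I, φ x ∈ I')
    {m : ℕ} {u : B ⊗[R] S01} {b : Fin g → B}
    (hb : IsCechCoordMod (baseMap B ι0) (baseMap B ι1) (baseEta B η) I m u b) :
    IsCechCoordMod (baseMap B' ι0) (baseMap B' ι1) (baseEta B' η) I' m (changeMap φ S01 u)
      (fun i => φ (b i)) :=
  hb.map (φ : B →+* B') (changeMap φ S0 : B ⊗[R] S0 →+* B' ⊗[R] S0)
    (changeMap φ S1 : B ⊗[R] S1 →+* B' ⊗[R] S1) (changeMap φ S01 : B ⊗[R] S01 →+* B' ⊗[R] S01)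
    (changeMap_algebraMap φ S0) (changeMap_algebraMap φ S1) (changeMap_algebraMap φ S01)
    (changeMap_baseMap φ ι0) (changeMap_baseMap φ ι1) (changeMap_baseEta φ η) hφ

namespace IsCechDatum

/-- **Naturality of `β` in the base ring**: for `φ : B →ₐ[R] B'` with `φ I ⊆ I'`,
`β_{B'} (φ_* u) = φ (β_B u)`. -/
theorem cechBeta_baseChange_map (h : IsCechDatum ι0 ι1 η) {B B' : Type*} [CommRing B]
    [CommRing B'] [Algebra R B] [Algebra R B'] (φ : B →ₐ[R] B') {I : Ideal B} {I' : Ideal B'}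
    (hI : IsNilpotent I) (hI' : IsNilpotent I') (hφ : ∀ x ∈ I, φ x ∈ I') {u : B ⊗[R] S01}
    (hu : u - 1 ∈ I.map (algebraMap B (B ⊗[R] S01))) :
    cechBeta (baseMap B' ι0) (baseMap B' ι1) (baseEta B' η) I' (changeMap φ S01 u) =
      fun i => φ (cechBeta (baseMap B ι0) (baseMap B ι1) (baseEta B η) I u i) :=
  (h.baseChange B).cechBeta_map (h.baseChange B') hI hI' (φ : B →+* B')
    (changeMap φ S0 : B ⊗[R] S0 →+* B' ⊗[R] S0) (changeMap φ S1 : B ⊗[R] S1 →+* B' ⊗[R] S1)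
    (changeMap φ S01 : B ⊗[R] S01 →+* B' ⊗[R] S01)
    (changeMap_algebraMap φ S0) (changeMap_algebraMap φ S1) (changeMap_algebraMap φ S01)
    (changeMap_baseMap φ ι0) (changeMap_baseMap φ ι1) (changeMap_baseEta φ η) hφ hu

end IsCechDatum

end BaseChange

/-! ### The addition law (step (C3)) -/

section Law

/-- The ideal of the variables in `R[X_1..X_g, Y_1..Y_g]`. -/
noncomputable def lawVarIdeal (R : Type uR) [CommRing R] (g : ℕ) :
    Ideal (MvPolynomial (Fin g ⊕ Fin g) R) :=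
  Ideal.span (Set.range MvPolynomial.X)

theorem X_mem_lawVarIdeal (R : Type uR) [CommRing R] (g : ℕ) (j : Fin g ⊕ Fin g) :
    (MvPolynomial.X j : MvPolynomial (Fin g ⊕ Fin g) R) ∈ lawVarIdeal R g :=
  Ideal.subset_span ⟨j, rfl⟩

variable {R : Type uR} {S0 : Type u0} {S1 : Type u1} {S01 : Type u01}
    [CommRing R] [CommRing S0] [CommRing S1] [CommRing S01]
    [Algebra R S0] [Algebra R S1] [Algebra R S01] {g : ℕ}

/-- The universal unit `∏ (1 + X_i η_i) * ∏ (1 + Y_i η_i)` over `R[X, Y]`. -/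
noncomputable def lawUnit (R : Type uR) {S01 : Type u01} [CommRing R] [CommRing S01]
    [Algebra R S01] {g : ℕ} (η : Fin g → S01) : MvPolynomial (Fin g ⊕ Fin g) R ⊗[R] S01 :=
  (∏ i, (1 + (MvPolynomial.X (Sum.inl i) : MvPolynomial (Fin g ⊕ Fin g) R) •
      baseEta (MvPolynomial (Fin g ⊕ Fin g) R) η i)) *
    ∏ i, (1 + (MvPolynomial.X (Sum.inr i) : MvPolynomial (Fin g ⊕ Fin g) R) •
      baseEta (MvPolynomial (Fin g ⊕ Fin g) R) η i)

theorem lawUnit_sub_one_mem (η : Fin g → S01) :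
    lawUnit R η - 1 ∈ (lawVarIdeal R g).map
      (algebraMap (MvPolynomial (Fin g ⊕ Fin g) R) (MvPolynomial (Fin g ⊕ Fin g) R ⊗[R] S01)) :=
  mul_sub_one_mem _
    (IsCechDatum.prod_eta_sub_one_mem (η := baseEta (MvPolynomial (Fin g ⊕ Fin g) R) η)
      (lawVarIdeal R g) fun i => X_mem_lawVarIdeal R g (Sum.inl i))
    (IsCechDatum.prod_eta_sub_one_mem (η := baseEta (MvPolynomial (Fin g ⊕ Fin g) R) η)
      (lawVarIdeal R g) fun i => X_mem_lawVarIdeal R g (Sum.inr i))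

open Classical in
/-- The `m`-truncated addition law of the two-chart datum: polynomials `F_1, …, F_g` in
`X_1..X_g, Y_1..Y_g` over `R` (a choice of `η`-coordinates modulo `(X, Y)^m` of the universal
unit; junk value `0` if there are none, which does not happen under `span`). -/
noncomputable def lawPoly (ι0 : S0 →ₐ[R] S01) (ι1 : S1 →ₐ[R] S01) (η : Fin g → S01) (m : ℕ) :
    Fin g → MvPolynomial (Fin g ⊕ Fin g) R :=
  if h : ∃ F, IsCechCoordMod (baseMap (MvPolynomial (Fin g ⊕ Fin g) R) ι0)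
      (baseMap (MvPolynomial (Fin g ⊕ Fin g) R) ι1)
      (baseEta (MvPolynomial (Fin g ⊕ Fin g) R) η) (lawVarIdeal R g) m (lawUnit R η) F
  then h.choose else 0

/-- The law has no constant term. -/
theorem lawPoly_mem (ι0 : S0 →ₐ[R] S01) (ι1 : S1 →ₐ[R] S01) (η : Fin g → S01) (m : ℕ)
    (i : Fin g) : lawPoly ι0 ι1 η m i ∈ lawVarIdeal R g := by
  unfold lawPoly
  split_ifs with h
  · exact h.choose_spec.1 i
  · exact Ideal.zero_mem _

variable {ι0 : S0 →ₐ[R] S01} {ι1 : S1 →ₐ[R] S01} {η : Fin g → S01}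

/-- The defining property of `lawPoly`: it is an `η`-coordinate vector of the universal unit
modulo `(X, Y)^m` (from the spanning hypothesis alone). -/
theorem isCechCoordMod_lawPoly
    (hspan : ∀ x : S01, ∃ (x0 : S0) (x1 : S1) (c : Fin g → R),
      x = ι0 x0 + ι1 x1 + ∑ i, c i • η i) (m : ℕ) :
    IsCechCoordMod (baseMap (MvPolynomial (Fin g ⊕ Fin g) R) ι0)
      (baseMap (MvPolynomial (Fin g ⊕ Fin g) R) ι1)
      (baseEta (MvPolynomial (Fin g ⊕ Fin g) R) η) (lawVarIdeal R g) m (lawUnit R η)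
      (lawPoly ι0 ι1 η m) := by
  have hex := exists_isCechCoordMod_of_span
    (IsCechDatum.baseChange_span hspan (MvPolynomial (Fin g ⊕ Fin g) R)) (lawVarIdeal R g) m
    (lawUnit_sub_one_mem η)
  unfold lawPoly
  rw [dif_pos hex]
  exact hex.choose_spec

/-- **The truncated law, general target** (from the spanning hypothesis alone): for ANY
two-chart frame receiving ring homomorphisms from the universal frame over `R[X, Y]` which
send `(X, Y)` to `(b, b')`, the product of elements with coordinates `b`, `b'` modulo `I'^m`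
has coordinates `F_m (b, b')` modulo `I'^m`. -/
theorem IsCechCoordMod.mul_lawPoly_of_map
    (hspan : ∀ x : S01, ∃ (x0 : S0) (x1 : S1) (c : Fin g → R),
      x = ι0 x0 + ι1 x1 + ∑ i, c i • η i)
    {R' : Type*} {S0' : Type*} {S1' : Type*} {S01' : Type*}
    [CommRing R'] [CommRing S0'] [CommRing S1'] [CommRing S01']
    [Algebra R' S0'] [Algebra R' S1'] [Algebra R' S01']
    {ι0' : S0' →ₐ[R'] S01'} {ι1' : S1' →ₐ[R'] S01'} {η' : Fin g → S01'} {I' : Ideal R'}
    {m : ℕ} (φ : MvPolynomial (Fin g ⊕ Fin g) R →+* R')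
    (φ0 : MvPolynomial (Fin g ⊕ Fin g) R ⊗[R] S0 →+* S0')
    (φ1 : MvPolynomial (Fin g ⊕ Fin g) R ⊗[R] S1 →+* S1')
    (φ01 : MvPolynomial (Fin g ⊕ Fin g) R ⊗[R] S01 →+* S01')
    (c0 : ∀ r, φ0 (algebraMap _ _ r) = algebraMap R' S0' (φ r))
    (c1 : ∀ r, φ1 (algebraMap _ _ r) = algebraMap R' S1' (φ r))
    (c01 : ∀ r, φ01 (algebraMap _ _ r) = algebraMap R' S01' (φ r))
    (d0 : ∀ x, φ01 (baseMap (MvPolynomial (Fin g ⊕ Fin g) R) ι0 x) = ι0' (φ0 x))
    (d1 : ∀ x, φ01 (baseMap (MvPolynomial (Fin g ⊕ Fin g) R) ι1 x) = ι1' (φ1 x))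
    (e : ∀ i, φ01 (baseEta (MvPolynomial (Fin g ⊕ Fin g) R) η i) = η' i)
    {u u' : S01'} {b b' : Fin g → R'} (hX : ∀ j, φ (MvPolynomial.X j) = Sum.elim b b' j)
    (hu : IsCechCoordMod ι0' ι1' η' I' m u b) (hu' : IsCechCoordMod ι0' ι1' η' I' m u' b') :
    IsCechCoordMod ι0' ι1' η' I' m (u * u') (fun i => φ (lawPoly ι0 ι1 η m i)) := by
  have hφ : ∀ x ∈ lawVarIdeal R g, φ x ∈ I' := by
    have hle : lawVarIdeal R g ≤ I'.comap φ := by
      refine Ideal.span_le.mpr ?_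
      rintro _ ⟨j, rfl⟩
      change φ (MvPolynomial.X j) ∈ I'
      rw [hX]
      rcases j with j | j
      · exact hu.1 j
      · exact hu'.1 j
    exact fun x hx => hle hx
  have hmap := (isCechCoordMod_lawPoly hspan m).map φ φ0 φ1 φ01 c0 c1 c01 d0 d1 e hφ
  have hU : φ01 (lawUnit R η) = (∏ i, (1 + b i • η' i)) * ∏ i, (1 + b' i • η' i) := by
    have hterm : ∀ (j : Fin g ⊕ Fin g) (i : Fin g),
        φ01 (1 + (MvPolynomial.X j : MvPolynomial (Fin g ⊕ Fin g) R) •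
          baseEta (MvPolynomial (Fin g ⊕ Fin g) R) η i) = 1 + Sum.elim b b' j • η' i := by
      intro j i
      rw [map_add, map_one, Algebra.smul_def, map_mul, c01, e, hX, ← Algebra.smul_def]
    rw [lawUnit, map_mul, map_prod, map_prod]
    congr 1
    · exact Finset.prod_congr rfl fun i _ => hterm (Sum.inl i) i
    · exact Finset.prod_congr rfl fun i _ => hterm (Sum.inr i) i
  rw [hU] at hmap
  exact hu.mul hu' hmap

/-- Auxiliary form of `IsCechCoordMod.mul_lawPoly` for an arbitrary `φ : R[X, Y] →ₐ[R] B`. -/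
theorem IsCechCoordMod.mul_lawPoly_algHom
    (hspan : ∀ x : S01, ∃ (x0 : S0) (x1 : S1) (c : Fin g → R),
      x = ι0 x0 + ι1 x1 + ∑ i, c i • η i)
    {B : Type*} [CommRing B] [Algebra R B] {I : Ideal B} {m : ℕ} {u u' : B ⊗[R] S01}
    {b b' : Fin g → B} (φ : MvPolynomial (Fin g ⊕ Fin g) R →ₐ[R] B)
    (hX : ∀ j, φ (MvPolynomial.X j) = Sum.elim b b' j)
    (hu : IsCechCoordMod (baseMap B ι0) (baseMap B ι1) (baseEta B η) I m u b)
    (hu' : IsCechCoordMod (baseMap B ι0) (baseMap B ι1) (baseEta B η) I m u' b') :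
    IsCechCoordMod (baseMap B ι0) (baseMap B ι1) (baseEta B η) I m (u * u')
      (fun i => φ (lawPoly ι0 ι1 η m i)) :=
  IsCechCoordMod.mul_lawPoly_of_map hspan (φ : MvPolynomial (Fin g ⊕ Fin g) R →+* B)
    (changeMap φ S0 : MvPolynomial (Fin g ⊕ Fin g) R ⊗[R] S0 →+* B ⊗[R] S0)
    (changeMap φ S1 : MvPolynomial (Fin g ⊕ Fin g) R ⊗[R] S1 →+* B ⊗[R] S1)
    (changeMap φ S01 : MvPolynomial (Fin g ⊕ Fin g) R ⊗[R] S01 →+* B ⊗[R] S01)
    (changeMap_algebraMap φ S0) (changeMap_algebraMap φ S1) (changeMap_algebraMap φ S01)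
    (changeMap_baseMap φ ι0) (changeMap_baseMap φ ι1) (changeMap_baseEta φ η) hX hu hu'

/-- **The truncated law over a base change** (from the spanning hypothesis alone; any
`R`-algebra `B`, any ideal `I` of `B`, any `m`): coordinates of a product modulo `I^m` are
given by the polynomials `lawPoly ι0 ι1 η m` over `R`. -/
theorem IsCechCoordMod.mul_lawPoly
    (hspan : ∀ x : S01, ∃ (x0 : S0) (x1 : S1) (c : Fin g → R),
      x = ι0 x0 + ι1 x1 + ∑ i, c i • η i)
    {B : Type*} [CommRing B] [Algebra R B] {I : Ideal B} {m : ℕ} {u u' : B ⊗[R] S01}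
    {b b' : Fin g → B}
    (hu : IsCechCoordMod (baseMap B ι0) (baseMap B ι1) (baseEta B η) I m u b)
    (hu' : IsCechCoordMod (baseMap B ι0) (baseMap B ι1) (baseEta B η) I m u' b') :
    IsCechCoordMod (baseMap B ι0) (baseMap B ι1) (baseEta B η) I m (u * u')
      (fun i => MvPolynomial.aeval (Sum.elim b b') (lawPoly ι0 ι1 η m i)) :=
  IsCechCoordMod.mul_lawPoly_algHom hspan (MvPolynomial.aeval (Sum.elim b b'))
    (fun j => MvPolynomial.aeval_X _ j) hu hu'

/-- The map `R[X, Y] ⊗ S → S` evaluating the variables in the base ring. -/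
noncomputable def evalMap (S : Type*) [CommRing S] [Algebra R S] (v : Fin g ⊕ Fin g → R) :
    MvPolynomial (Fin g ⊕ Fin g) R ⊗[R] S →ₐ[R] S :=
  Algebra.TensorProduct.productMap ((Algebra.ofId R S).comp (MvPolynomial.aeval v))
    (AlgHom.id R S)

theorem evalMap_tmul (S : Type*) [CommRing S] [Algebra R S] (v : Fin g ⊕ Fin g → R)
    (p : MvPolynomial (Fin g ⊕ Fin g) R) (s : S) :
    evalMap S v (p ⊗ₜ[R] s) = algebraMap R S (MvPolynomial.aeval v p) * s := by
  simp [evalMap, Algebra.ofId_apply]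

/-- **The truncated law over the base ring itself** (from the spanning hypothesis alone; any
ideal `I` of `R`, any `m`; no tensor products in the statement). -/
theorem IsCechCoordMod.mul_lawPoly_self
    (hspan : ∀ x : S01, ∃ (x0 : S0) (x1 : S1) (c : Fin g → R),
      x = ι0 x0 + ι1 x1 + ∑ i, c i • η i)
    {I : Ideal R} {m : ℕ} {u u' : S01} {b b' : Fin g → R}
    (hu : IsCechCoordMod ι0 ι1 η I m u b) (hu' : IsCechCoordMod ι0 ι1 η I m u' b') :
    IsCechCoordMod ι0 ι1 η I m (u * u')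
      (fun i => MvPolynomial.aeval (Sum.elim b b') (lawPoly ι0 ι1 η m i)) := by
  refine IsCechCoordMod.mul_lawPoly_of_map hspan
    ((MvPolynomial.aeval (Sum.elim b b') : MvPolynomial (Fin g ⊕ Fin g) R →ₐ[R] R) :
      MvPolynomial (Fin g ⊕ Fin g) R →+* R)
    (evalMap S0 (Sum.elim b b') : MvPolynomial (Fin g ⊕ Fin g) R ⊗[R] S0 →+* S0)
    (evalMap S1 (Sum.elim b b') : MvPolynomial (Fin g ⊕ Fin g) R ⊗[R] S1 →+* S1)
    (evalMap S01 (Sum.elim b b') : MvPolynomial (Fin g ⊕ Fin g) R ⊗[R] S01 →+* S01)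
    ?_ ?_ ?_ ?_ ?_ ?_
    (fun j => MvPolynomial.aeval_X _ j) hu hu'
  · intro r
    rw [Algebra.TensorProduct.algebraMap_apply]
    simp [evalMap_tmul]
  · intro r
    rw [Algebra.TensorProduct.algebraMap_apply]
    simp [evalMap_tmul]
  · intro r
    rw [Algebra.TensorProduct.algebraMap_apply]
    simp [evalMap_tmul]
  · intro x
    induction x using TensorProduct.induction_on with
    | zero => simp
    | tmul p s => simp [evalMap_tmul]
    | add x y hx hy => simp only [map_add, hx, hy]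
  · intro x
    induction x using TensorProduct.induction_on with
    | zero => simp
    | tmul p s => simp [evalMap_tmul]
    | add x y hx hy => simp only [map_add, hx, hy]
  · intro i
    simp [evalMap_tmul]

namespace IsCechDatum

/-- The laws for different truncation levels are compatible. -/
theorem lawPoly_sub_mem (h : IsCechDatum ι0 ι1 η) {m m' : ℕ} (hmm' : m ≤ m') (i : Fin g) :
    lawPoly ι0 ι1 η m' i - lawPoly ι0 ι1 η m i ∈ lawVarIdeal R g ^ m :=
  (h.baseChange (MvPolynomial (Fin g ⊕ Fin g) R)).isCechCoordMod_unique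
    (isCechCoordMod_lawPoly h.span m) ((isCechCoordMod_lawPoly h.span m').mono hmm') i

/-- **The addition law** (step (C3)): if `I ^ m = ⊥` then for all `u, u' ∈ 1 + I·(B ⊗ S01)`:
`β (u * u') = F_m (β u, β u')`. -/
theorem cechBeta_mul_eq_lawPoly (h : IsCechDatum ι0 ι1 η) (m : ℕ) {B : Type*} [CommRing B]
    [Algebra R B] {I : Ideal B} (hI : I ^ m = ⊥) {u u' : B ⊗[R] S01}
    (hu : u - 1 ∈ I.map (algebraMap B (B ⊗[R] S01)))
    (hu' : u' - 1 ∈ I.map (algebraMap B (B ⊗[R] S01))) :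
    cechBeta (baseMap B ι0) (baseMap B ι1) (baseEta B η) I (u * u') =
      fun i => MvPolynomial.aeval
        (Sum.elim (cechBeta (baseMap B ι0) (baseMap B ι1) (baseEta B η) I u)
          (cechBeta (baseMap B ι0) (baseMap B ι1) (baseEta B η) I u'))
        (lawPoly ι0 ι1 η m i) := by
  have hB := h.baseChange B
  have hnil : IsNilpotent I := ⟨m, hI⟩
  exact hB.cechBeta_eq hnil
    ((IsCechCoordMod.mul_lawPoly h.span ((hB.isCechCoord_cechBeta hnil hu).isCechCoordMod m)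
      ((hB.isCechCoord_cechBeta hnil hu').isCechCoordMod m)).isCechCoord hI)

/-- **The law on pure products**: if `I ^ m = ⊥` and `b, c ∈ I^g` then
`β (∏ (1 + b_i η_i) * ∏ (1 + c_i η_i)) = F_m (b, c)`. -/
theorem cechBeta_prod_mul_prod (h : IsCechDatum ι0 ι1 η) (m : ℕ) {B : Type*} [CommRing B]
    [Algebra R B] {I : Ideal B} (hI : I ^ m = ⊥) {b c : Fin g → B} (hb : ∀ i, b i ∈ I)
    (hc : ∀ i, c i ∈ I) :
    cechBeta (baseMap B ι0) (baseMap B ι1) (baseEta B η) I
        ((∏ i, (1 + b i • baseEta B η i)) * ∏ i, (1 + c i • baseEta B η i)) =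
      fun i => MvPolynomial.aeval (Sum.elim b c) (lawPoly ι0 ι1 η m i) := by
  have hB := h.baseChange B
  have hnil : IsNilpotent I := ⟨m, hI⟩
  have h1 := h.cechBeta_mul_eq_lawPoly m hI
    (IsCechDatum.prod_eta_sub_one_mem (η := baseEta B η) I hb)
    (IsCechDatum.prod_eta_sub_one_mem (η := baseEta B η) I hc)
  rw [hB.cechBeta_prod hnil hb, hB.cechBeta_prod hnil hc] at h1
  exact h1

end IsCechDatum

end Law

end Fermat.Agent.S19.helper2972
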