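import Mathlib
import Fermat.Agent.S19.helper2972_CechUnits

/-!
# The image of a base-changed two-chart frame in a big ring (S19, route C, CECH-ELEMENT core)

Mathlib-only (on top of `helper2972_CechUnits`).

* `tensorHom κ e h : B ⊗[R] S →+* Ω`, `b ⊗ s ↦ κ b * e s`; `range_tensorHom`.
* `tensor_eq_zero_of_coeff` : injectivity of `B ⊗[R] T → Ω` from coefficient functionals
  (the "basis trick" over a principal ideal domain `R` with fraction field `Q`).
* `exists_of_tensorHom`, `unique_of_tensorHom`, `law_of_tensorHom`, `inter_of_tensorHom` :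
  the element forms inside `Ω` of the unit factorisation, of its uniqueness modulo an
  arbitrary ideal, of the truncated law and of `S0 ∩ S1 = constants` modulo an ideal.
-/

namespace Fermat.Agent.S19.helper2972

open scoped TensorProduct

section TensorHom

variable {R B S Ω : Type*} [CommRing R] [CommRing B] [CommRing S] [CommRing Ω]
    [Algebra R B] [Algebra R S]

/-- The ring homomorphism `B ⊗[R] S → Ω`, `b ⊗ s ↦ κ b * e s`. -/
noncomputable def tensorHom (κ : B →+* Ω) (e : S →+* Ω)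
    (h : ∀ r : R, κ (algebraMap R B r) = e (algebraMap R S r)) : B ⊗[R] S →+* Ω :=
  letI : Algebra R Ω := (κ.comp (algebraMap R B)).toAlgebra
  (Algebra.TensorProduct.productMap
    ({ toRingHom := κ, commutes' := fun _ => rfl } : B →ₐ[R] Ω)
    ({ toRingHom := e, commutes' := fun r => (h r).symm } : S →ₐ[R] Ω)).toRingHom

variable (κ : B →+* Ω) (e : S →+* Ω) (h : ∀ r : R, κ (algebraMap R B r) = e (algebraMap R S r))

@[simp]
theorem tensorHom_tmul (b : B) (s : S) : tensorHom κ e h (b ⊗ₜ[R] s) = κ b * e s := by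
  let _ : Algebra R Ω := (κ.comp (algebraMap R B)).toAlgebra
  exact Algebra.TensorProduct.productMap_apply_tmul _ _ b s

@[simp]
theorem tensorHom_algebraMap (b : B) : tensorHom κ e h (algebraMap B (B ⊗[R] S) b) = κ b := by
  rw [Algebra.TensorProduct.algebraMap_apply, tensorHom_tmul]
  simp

@[simp]
theorem tensorHom_smul (b : B) (x : B ⊗[R] S) :
    tensorHom κ e h (b • x) = κ b * tensorHom κ e h x := by
  rw [Algebra.smul_def, map_mul, tensorHom_algebraMap]

theorem range_tensorHom :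
    (tensorHom κ e h).range = Subring.closure (Set.range κ ∪ Set.range e) := by
  apply le_antisymm
  · rintro _ ⟨x, rfl⟩
    induction x using TensorProduct.induction_on with
    | zero => rw [map_zero]; exact zero_mem _
    | tmul b s =>
      rw [tensorHom_tmul]
      exact mul_mem (Subring.subset_closure (Or.inl ⟨b, rfl⟩))
        (Subring.subset_closure (Or.inr ⟨s, rfl⟩))
    | add x y hx hy => rw [map_add]; exact add_mem hx hy
  · rw [Subring.closure_le]
    rintro _ (⟨b, rfl⟩ | ⟨s, rfl⟩)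
    · exact ⟨b ⊗ₜ[R] 1, by simp⟩
    · exact ⟨1 ⊗ₜ[R] s, by simp⟩

theorem tensorHom_baseMap {S' : Type*} [CommRing S'] [Algebra R S'] (f : S →ₐ[R] S')
    (e' : S' →+* Ω) (h' : ∀ r : R, κ (algebraMap R B r) = e' (algebraMap R S' r))
    (hf : ∀ s, e' (f s) = e s) (x : B ⊗[R] S) :
    tensorHom κ e' h' (baseMap B f x) = tensorHom κ e h x := by
  induction x using TensorProduct.induction_on with
  | zero => simp
  | tmul b s => simp [hf]
  | add x y hx hy => simp only [map_add, hx, hy]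

end TensorHom

theorem exists_smul_of_mem_map_span_singleton {B T : Type*} [CommRing B] [CommRing T]
    [Algebra B T] (c : B) {x : T} (hx : x ∈ (Ideal.span {c}).map (algebraMap B T)) :
    ∃ y : T, x = c • y := by
  rw [Ideal.map_span, Set.image_singleton, Ideal.mem_span_singleton'] at hx
  obtain ⟨y, rfl⟩ := hx
  exact ⟨y, by rw [Algebra.smul_def, mul_comm]⟩

/-- **The basis trick**: let `R` be a principal ideal domain with fraction field `Q`, `L` a field
extension of `Q`, `B` an `R`-submodule (subalgebra) of `L` and `T` an `R`-module with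
"coefficient functions" `c x : T → Q` which are jointly injective at `0`.  If the additive maps
`P x : B ⊗[R] T → L` satisfy `P x (b ⊗ t) = b * c x t`, then they are jointly injective at `0`. -/
theorem tensor_eq_zero_of_coeff
    {R Q L T X : Type*} [CommRing R] [IsDomain R] [IsPrincipalIdealRing R]
    [Field Q] [Algebra R Q] [IsFractionRing R Q]
    [Field L] [Algebra R L] [Algebra Q L] [IsScalarTower R Q L]
    [AddCommGroup T] [Module R T]
    (B : Subalgebra R L)
    (c : X → T → Q) (hc : ∀ t, (∀ x, c x t = 0) → t = 0)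
    (P : X → (↥B ⊗[R] T →+ L))
    (hP : ∀ x (b : B) (t : T), P x (b ⊗ₜ[R] t) = (b : L) * algebraMap Q L (c x t))
    (z : ↥B ⊗[R] T) (hz : ∀ x, P x z = 0) : z = 0 := by
  classical
  have hinjRL : Function.Injective (algebraMap R L) := by
    rw [IsScalarTower.algebraMap_eq R Q L]
    exact (algebraMap Q L).injective.comp (IsFractionRing.injective R Q)
  have : Module.IsTorsionFree R L := by
    refine Module.IsTorsionFree.of_smul_eq_zero fun r m hrm => ?_
    rw [Algebra.smul_def, mul_eq_zero] at hrm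
    rcases hrm with hr | hm
    · exact Or.inl (hinjRL (by rw [hr, map_zero]))
    · exact Or.inr hm
  obtain ⟨M, hfin, hzM⟩ :=
    TensorProduct.exists_finite_submodule_left_of_setFinite {z} (Set.finite_singleton z)
  obtain ⟨z', rfl⟩ := hzM (Set.mem_singleton z)
  let f : M →ₗ[R] L := (B.val.toLinearMap).comp M.subtype
  have hf : Function.Injective f := fun x y hxy => Subtype.ext (Subtype.ext hxy)
  have : Module.IsTorsionFree R M :=
    Function.Injective.moduleIsTorsionFree f hf (fun r m => map_smul f r m)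
  obtain ⟨n, ω⟩ := Module.basisOfFiniteTypeTorsionFree' (R := R) (M := M)
  obtain ⟨cc, rfl⟩ := TensorProduct.eq_repr_basis_left ω z'
  have hli : LinearIndependent Q (fun j => f (ω j)) := by
    rw [← LinearIndependent.iff_fractionRing R Q]
    exact ω.linearIndependent.map' f (LinearMap.ker_eq_bot.mpr hf)
  have hcc : cc = 0 := by
    ext j
    refine hc _ fun x => ?_
    have h1 := hz x
    rw [Finsupp.sum_fintype _ _ (fun i => by simp), map_sum, map_sum] at h1
    have h2 : ∑ i, c x (cc i) • f (ω i) = 0 := by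
      rw [← h1]
      refine Finset.sum_congr rfl fun i _ => ?_
      rw [LinearMap.rTensor_tmul, hP, Algebra.smul_def, mul_comm]
      rfl
    exact Fintype.linearIndependent_iff.mp hli (fun i => c x (cc i)) h2 j
  rw [hcc]
  simp


theorem one_add_smul_sub_one_mem {B T : Type*} [CommRing B] [CommRing T] [Algebra B T]
    {I : Ideal B} {c : B} (hc : c ∈ I) (y : T) : (1 + c • y) - 1 ∈ I.map (algebraMap B T) := by
  rw [add_sub_cancel_left]
  exact smul_mem_map hc y

/-! ### Element forms inside `Ω` -/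

section ElementForms

variable {R : Type*} {S0 : Type*} {S1 : Type*} {S01 : Type*}
    [CommRing R] [CommRing S0] [CommRing S1] [CommRing S01]
    [Algebra R S0] [Algebra R S1] [Algebra R S01] {g : ℕ}
    {ι0 : S0 →ₐ[R] S01} {ι1 : S1 →ₐ[R] S01} {η : Fin g → S01}
    {B : Type*} [CommRing B] [Algebra R B] {Ω : Type*} [CommRing Ω]
    (κ : B →+* Ω) (e0 : S0 →+* Ω) (e1 : S1 →+* Ω) (e : S01 →+* Ω)
    (h0 : ∀ r : R, κ (algebraMap R B r) = e0 (algebraMap R S0 r))
    (h1 : ∀ r : R, κ (algebraMap R B r) = e1 (algebraMap R S1 r))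
    (h01 : ∀ r : R, κ (algebraMap R B r) = e (algebraMap R S01 r))
    (hι0 : ∀ s, e (ι0 s) = e0 s) (hι1 : ∀ s, e (ι1 s) = e1 s)

include hι0 hι1 in
/-- The image in `Ω` of a normal form of the base-changed frame. -/
theorem tensorHom_normalForm (a0 : B ⊗[R] S0) (a1 : B ⊗[R] S1) (b : Fin g → B) :
    tensorHom κ e h01 (baseMap B ι0 a0 * (∏ i, (1 + b i • baseEta B η i)) * baseMap B ι1 a1) =
      tensorHom κ e0 h0 a0 * (∏ i, (1 + κ (b i) * e (η i))) * tensorHom κ e1 h1 a1 := by
  rw [map_mul, map_mul, tensorHom_baseMap κ e0 h0 ι0 e h01 hι0,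
    tensorHom_baseMap κ e1 h1 ι1 e h01 hι1, map_prod]
  congr 2
  refine Finset.prod_congr rfl fun i _ => ?_
  rw [map_add, map_one, tensorHom_smul, tensorHom_tmul, map_one, one_mul]

include hι0 hι1 in
/-- **Factorisation, element form** (from the spanning hypothesis alone): for `c : B`, every
`Φ (1 + c • x)` is a normal form with chart factors `Φ_j (1 + c • y_j)` and coordinates
`c * w i`, up to `κ (c ^ m) * Φ y`. -/
theorem exists_of_tensorHom
    (hspan : ∀ x : S01, ∃ (x0 : S0) (x1 : S1) (c : Fin g → R),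
      x = ι0 x0 + ι1 x1 + ∑ i, c i • η i)
    (c : B) (m : ℕ) (x : B ⊗[R] S01) :
    ∃ (y0 : B ⊗[R] S0) (y1 : B ⊗[R] S1) (w : Fin g → B) (y : B ⊗[R] S01),
      tensorHom κ e h01 (1 + c • x) -
        tensorHom κ e0 h0 (1 + c • y0) * (∏ i, (1 + κ (c * w i) * e (η i))) *
          tensorHom κ e1 h1 (1 + c • y1) = κ (c ^ m) * tensorHom κ e h01 y := by
  have hu : (1 + c • x) - 1 ∈ (Ideal.span {c}).map (algebraMap B (B ⊗[R] S01)) := by
    rw [add_sub_cancel_left]
    exact smul_mem_map (Ideal.mem_span_singleton_self c) x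
  obtain ⟨b, hb, a0, a1, ha0, ha1, herr⟩ :=
    exists_isCechCoordMod_of_span (IsCechDatum.baseChange_span hspan B) (Ideal.span {c}) m hu
  obtain ⟨y0, hy0⟩ := exists_smul_of_mem_map_span_singleton c ha0
  obtain ⟨y1, hy1⟩ := exists_smul_of_mem_map_span_singleton c ha1
  have hw : ∀ i, ∃ w : B, b i = c * w := fun i => by
    obtain ⟨w, hw⟩ := Ideal.mem_span_singleton'.mp (hb i)
    exact ⟨w, by rw [← hw, mul_comm]⟩
  choose w hw using hw
  rw [Ideal.span_singleton_pow] at herr
  obtain ⟨y, hy⟩ := exists_smul_of_mem_map_span_singleton (c ^ m) herr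
  refine ⟨y0, y1, w, y, ?_⟩
  have ha0' : a0 = 1 + c • y0 := by rw [← hy0]; ring
  have ha1' : a1 = 1 + c • y1 := by rw [← hy1]; ring
  have h2 := congrArg (tensorHom κ e h01) hy
  rw [map_sub, tensorHom_normalForm κ e0 e1 e h0 h1 h01 hι0 hι1, tensorHom_smul] at h2
  rw [← ha0', ← ha1', ← h2]
  simp only [hw]

include hι0 hι1 in
/-- **Uniqueness, element form**: two normal forms inside `Ω` (chart factors in
`Φ_j (1 + I·(B ⊗ S_j))`, coordinates in `I`) which differ by `κ j * Φ z` with `j ∈ J` have the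
same coordinates modulo `J`, as soon as `I ^ n ≤ J` and `Φ : B ⊗ S01 → Ω` is injective. -/
theorem unique_of_tensorHom (hD : IsCechDatum ι0 ι1 η)
    (hinj : Function.Injective (tensorHom κ e h01)) (I J : Ideal B) {n : ℕ} (hIJ : I ^ n ≤ J)
    {a0 a0' : B ⊗[R] S0} {a1 a1' : B ⊗[R] S1} {b b' : Fin g → B}
    (ha0 : a0 - 1 ∈ I.map (algebraMap B (B ⊗[R] S0)))
    (ha0' : a0' - 1 ∈ I.map (algebraMap B (B ⊗[R] S0)))
    (ha1 : a1 - 1 ∈ I.map (algebraMap B (B ⊗[R] S1)))
    (ha1' : a1' - 1 ∈ I.map (algebraMap B (B ⊗[R] S1)))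
    (hb : ∀ i, b i ∈ I) (hb' : ∀ i, b' i ∈ I) {j : B} (hj : j ∈ J) {z : B ⊗[R] S01}
    (heq : tensorHom κ e0 h0 a0 * (∏ i, (1 + κ (b i) * e (η i))) * tensorHom κ e1 h1 a1 -
      tensorHom κ e0 h0 a0' * (∏ i, (1 + κ (b' i) * e (η i))) * tensorHom κ e1 h1 a1' =
        κ j * tensorHom κ e h01 z) :
    ∀ i, b' i - b i ∈ J := by
  have hd : baseMap B ι0 a0 * (∏ i, (1 + b i • baseEta B η i)) * baseMap B ι1 a1 -
      baseMap B ι0 a0' * (∏ i, (1 + b' i • baseEta B η i)) * baseMap B ι1 a1' ∈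
      J.map (algebraMap B (B ⊗[R] S01)) := by
    have : baseMap B ι0 a0 * (∏ i, (1 + b i • baseEta B η i)) * baseMap B ι1 a1 -
        baseMap B ι0 a0' * (∏ i, (1 + b' i • baseEta B η i)) * baseMap B ι1 a1' = j • z := by
      apply hinj
      rw [map_sub, tensorHom_normalForm κ e0 e1 e h0 h1 h01 hι0 hι1,
        tensorHom_normalForm κ e0 e1 e h0 h1 h01 hι0 hι1, tensorHom_smul, heq]
    rw [this]
    exact smul_mem_map hj z
  obtain ⟨-, -, hc, -, -⟩ :=
    (hD.baseChange B).factorization_unique_mod_ideal I J hIJ ha0 ha0' ha1 ha1' hb hb' hd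
  exact hc

include hι0 hι1 in
/-- **The law, element form**: if the product of two pure normal forms (coordinates `b`, `b'`
in `I`) is, up to `κ j * Φ z` with `j ∈ J`, a normal form with coordinates `b''`, then
`b'' ≡ F_n (b, b')` modulo `J`, as soon as `I ^ n ≤ J` and `Φ` is injective. -/
theorem law_of_tensorHom (hD : IsCechDatum ι0 ι1 η)
    (hinj : Function.Injective (tensorHom κ e h01)) (I J : Ideal B) {n : ℕ} (hIJ : I ^ n ≤ J)
    {a0 : B ⊗[R] S0} {a1 : B ⊗[R] S1} {b b' b'' : Fin g → B}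
    (ha0 : a0 - 1 ∈ I.map (algebraMap B (B ⊗[R] S0)))
    (ha1 : a1 - 1 ∈ I.map (algebraMap B (B ⊗[R] S1)))
    (hb : ∀ i, b i ∈ I) (hb' : ∀ i, b' i ∈ I) (hb'' : ∀ i, b'' i ∈ I) {j : B} (hj : j ∈ J)
    {z : B ⊗[R] S01}
    (heq : (∏ i, (1 + κ (b i) * e (η i))) * (∏ i, (1 + κ (b' i) * e (η i))) -
      tensorHom κ e0 h0 a0 * (∏ i, (1 + κ (b'' i) * e (η i))) * tensorHom κ e1 h1 a1 =
        κ j * tensorHom κ e h01 z) :
    ∀ i, b'' i - MvPolynomial.aeval (Sum.elim b b') (lawPoly ι0 ι1 η n i) ∈ J := by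
  have hprod : ∀ b : Fin g → B, tensorHom κ e h01 (∏ i, (1 + b i • baseEta B η i)) =
      ∏ i, (1 + κ (b i) * e (η i)) := by
    intro b
    rw [map_prod]
    refine Finset.prod_congr rfl fun i _ => ?_
    rw [map_add, map_one, tensorHom_smul, tensorHom_tmul, map_one, one_mul]
  have hu : IsCechCoordMod (baseMap B ι0) (baseMap B ι1) (baseEta B η) I n
      (∏ i, (1 + b i • baseEta B η i)) b := isCechCoordModJ_prod _ hb
  have hu' : IsCechCoordMod (baseMap B ι0) (baseMap B ι1) (baseEta B η) I n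
      (∏ i, (1 + b' i • baseEta B η i)) b' := isCechCoordModJ_prod _ hb'
  have hF := (IsCechCoordMod.mul_lawPoly hD.span hu hu').isCechCoordModJ hIJ
  have hd : (∏ i, (1 + b i • baseEta B η i)) * (∏ i, (1 + b' i • baseEta B η i)) -
      baseMap B ι0 a0 * (∏ i, (1 + b'' i • baseEta B η i)) * baseMap B ι1 a1 ∈
      J.map (algebraMap B (B ⊗[R] S01)) := by
    have : (∏ i, (1 + b i • baseEta B η i)) * (∏ i, (1 + b' i • baseEta B η i)) -
        baseMap B ι0 a0 * (∏ i, (1 + b'' i • baseEta B η i)) * baseMap B ι1 a1 = j • z := by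
      apply hinj
      rw [map_sub, map_mul, hprod, hprod, tensorHom_normalForm κ e0 e1 e h0 h1 h01 hι0 hι1,
        tensorHom_smul, heq]
    rw [this]
    exact smul_mem_map hj z
  have hb2 : IsCechCoordModJ (baseMap B ι0) (baseMap B ι1) (baseEta B η) I J
      ((∏ i, (1 + b i • baseEta B η i)) * (∏ i, (1 + b' i • baseEta B η i))) b'' :=
    ⟨hb'', a0, a1, ha0, ha1, hd⟩
  exact (hD.baseChange B).isCechCoordModJ_unique hIJ hF hb2

include hι0 hι1 in
/-- **`S0 ∩ S1` = constants, element form**: if `Φ_0 x0 - Φ_1 x1 = κ c * Φ x` then both are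
congruent to one constant `κ r` modulo `κ c`, as soon as `Φ` is injective. -/
theorem inter_of_tensorHom (hD : IsCechDatum ι0 ι1 η)
    (hinj : Function.Injective (tensorHom κ e h01)) {x0 : B ⊗[R] S0} {x1 : B ⊗[R] S1} {c : B}
    {x : B ⊗[R] S01}
    (heq : tensorHom κ e0 h0 x0 - tensorHom κ e1 h1 x1 = κ c * tensorHom κ e h01 x) :
    ∃ (r : B) (y0 : B ⊗[R] S0) (y1 : B ⊗[R] S1),
      tensorHom κ e0 h0 x0 - κ r = κ c * tensorHom κ e0 h0 y0 ∧
      tensorHom κ e1 h1 x1 - κ r = κ c * tensorHom κ e1 h1 y1 := by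
  have hx : baseMap B ι0 x0 + baseMap B ι1 (-x1) + ∑ i, (0 : Fin g → B) i • baseEta B η i ∈
      (Ideal.span {c}).map (algebraMap B (B ⊗[R] S01)) := by
    have : baseMap B ι0 x0 + baseMap B ι1 (-x1) + ∑ i, (0 : Fin g → B) i • baseEta B η i =
        c • x := by
      apply hinj
      simp only [Pi.zero_apply, zero_smul, Finset.sum_const_zero, add_zero, map_add, map_neg]
      rw [tensorHom_baseMap κ e0 h0 ι0 e h01 hι0, tensorHom_baseMap κ e1 h1 ι1 e h01 hι1,
        tensorHom_smul, ← heq]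
      ring
    rw [this]
    exact smul_mem_map (Ideal.mem_span_singleton_self c) x
  obtain ⟨-, r, hr0, hr1⟩ := (hD.baseChange B).ker_mem (Ideal.span {c}) hx
  obtain ⟨y0, hy0⟩ := exists_smul_of_mem_map_span_singleton c hr0
  obtain ⟨y1, hy1⟩ := exists_smul_of_mem_map_span_singleton c hr1
  refine ⟨r, y0, -y1, ?_, ?_⟩
  · have h2 := congrArg (tensorHom κ e0 h0) hy0
    rwa [map_sub, tensorHom_algebraMap, tensorHom_smul] at h2
  · have h2 := congrArg (tensorHom κ e1 h1) hy1
    rw [map_add, map_neg, tensorHom_algebraMap, tensorHom_smul] at h2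
    rw [map_neg]
    linear_combination -h2

/-! #### Forms without scalar multiplication on the tensor frame -/

include hι0 hι1 in
/-- `exists_of_tensorHom` with all chart factors written as `1 + κ c * Φ_j y_j`. -/
theorem exists_of_tensorHom'
    (hspan : ∀ x : S01, ∃ (x0 : S0) (x1 : S1) (c : Fin g → R),
      x = ι0 x0 + ι1 x1 + ∑ i, c i • η i)
    (c : B) (m : ℕ) (x : B ⊗[R] S01) :
    ∃ (y0 : B ⊗[R] S0) (y1 : B ⊗[R] S1) (w : Fin g → B) (y : B ⊗[R] S01),
      (1 + κ c * tensorHom κ e h01 x) -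
        (1 + κ c * tensorHom κ e0 h0 y0) * (∏ i, (1 + κ (c * w i) * e (η i))) *
          (1 + κ c * tensorHom κ e1 h1 y1) = κ (c ^ m) * tensorHom κ e h01 y := by
  obtain ⟨y0, y1, w, y, h⟩ := exists_of_tensorHom κ e0 e1 e h0 h1 h01 hι0 hι1 hspan c m x
  refine ⟨y0, y1, w, y, ?_⟩
  simpa only [map_add, map_one, tensorHom_smul] using h

include hι0 hι1 in
/-- `unique_of_tensorHom` with all chart factors written as `1 + κ c * Φ_j y_j`, `c ∈ I`. -/
theorem unique_of_tensorHom' (hD : IsCechDatum ι0 ι1 η)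
    (hinj : Function.Injective (tensorHom κ e h01)) (I J : Ideal B) {n : ℕ} (hIJ : I ^ n ≤ J)
    {c0 c0' c1 c1' : B} (hc0 : c0 ∈ I) (hc0' : c0' ∈ I) (hc1 : c1 ∈ I) (hc1' : c1' ∈ I)
    {y0 y0' : B ⊗[R] S0} {y1 y1' : B ⊗[R] S1} {b b' : Fin g → B}
    (hb : ∀ i, b i ∈ I) (hb' : ∀ i, b' i ∈ I) {j : B} (hj : j ∈ J) {z : B ⊗[R] S01}
    (heq : (1 + κ c0 * tensorHom κ e0 h0 y0) * (∏ i, (1 + κ (b i) * e (η i))) *
        (1 + κ c1 * tensorHom κ e1 h1 y1) -
      (1 + κ c0' * tensorHom κ e0 h0 y0') * (∏ i, (1 + κ (b' i) * e (η i))) *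
        (1 + κ c1' * tensorHom κ e1 h1 y1') = κ j * tensorHom κ e h01 z) :
    ∀ i, b' i - b i ∈ J := by
  refine unique_of_tensorHom κ e0 e1 e h0 h1 h01 hι0 hι1 hD hinj I J hIJ
    (a0 := 1 + c0 • y0) (a0' := 1 + c0' • y0') (a1 := 1 + c1 • y1) (a1' := 1 + c1' • y1')
    (one_add_smul_sub_one_mem hc0 y0) (one_add_smul_sub_one_mem hc0' y0') (one_add_smul_sub_one_mem hc1 y1) (one_add_smul_sub_one_mem hc1' y1') hb hb' hj (z := z) ?_
  simpa only [map_add, map_one, tensorHom_smul] using heq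

include hι0 hι1 in
/-- `law_of_tensorHom` with all chart factors written as `1 + κ c * Φ_j y_j`, `c ∈ I`. -/
theorem law_of_tensorHom' (hD : IsCechDatum ι0 ι1 η)
    (hinj : Function.Injective (tensorHom κ e h01)) (I J : Ideal B) {n : ℕ} (hIJ : I ^ n ≤ J)
    {c0 c1 : B} (hc0 : c0 ∈ I) (hc1 : c1 ∈ I) {y0 : B ⊗[R] S0} {y1 : B ⊗[R] S1}
    {b b' b'' : Fin g → B}
    (hb : ∀ i, b i ∈ I) (hb' : ∀ i, b' i ∈ I) (hb'' : ∀ i, b'' i ∈ I) {j : B} (hj : j ∈ J)
    {z : B ⊗[R] S01}
    (heq : (∏ i, (1 + κ (b i) * e (η i))) * (∏ i, (1 + κ (b' i) * e (η i))) -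
      (1 + κ c0 * tensorHom κ e0 h0 y0) * (∏ i, (1 + κ (b'' i) * e (η i))) *
        (1 + κ c1 * tensorHom κ e1 h1 y1) = κ j * tensorHom κ e h01 z) :
    ∀ i, b'' i - MvPolynomial.aeval (Sum.elim b b') (lawPoly ι0 ι1 η n i) ∈ J := by
  refine law_of_tensorHom κ e0 e1 e h0 h1 h01 hι0 hι1 hD hinj I J hIJ
    (a0 := 1 + c0 • y0) (a1 := 1 + c1 • y1) (one_add_smul_sub_one_mem hc0 y0) (one_add_smul_sub_one_mem hc1 y1) hb hb' hb'' hj
    (z := z) ?_
  simpa only [map_add, map_one, tensorHom_smul] using heq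

end ElementForms

end Fermat.Agent.S19.helper2972
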