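import Mathlib
import Fermat.Agent.S19.helper9190_SpecC
import Fermat.Agent.S19.helper2972_TensorFrame
import Fermat.Agent.S28.helper508_RatLoc

/-!
# CECH-ELEMENT (S19, route C, second line "C-ideal"): leaf L2 of `helper9190_SpecC`

`stmt_CechElt (hA : A.LiesOverPrime ℓ) (h1 : Stmt_H1Free N ℓ) : Stmt_CechElt N ℓ A`.

Design: no valuation-theoretic input beyond `ℤ_(ℓ) ⊆ A`; no integrality of `q`-expansions.
* `levelAlg hA E` : the `ℤ_(ℓ)`-algebra `A ∩ E`; `chartHom N hA E S : (A ∩ E) ⊗ S → FK`,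
  `b ⊗ s ↦ cst b * emb s`, for a `ℤ_(ℓ)`-subalgebra `S` of `FQ`.
* `mem_chartRing_zero / _one / _two` : `chartRing N ℓ A E i` is the range of `chartHom`.
* `chartHom_injective` : linear disjointness (basis trick + `q`-expansion coefficients).
* `nilIdeal hA E n r` : the ideal `{x ∈ A ∩ E | x ^ n ∈ ℓ ^ r A}`; `nilIdeal_pow_le`.
* `cechElt_fac`, `cechElt_uni`, `cechElt_law`, `cechElt_inter` : the four parts, obtained from
  the base-changed frame `(A ∩ E) ⊗ S_j` of `helper2972_CechUnits` through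
  `helper2972_TensorFrame`.  The law is `F n := lawPoly (inclFin N ℓ) (inclInf N ℓ) η n`.
-/

set_option autoImplicit false

namespace Fermat.Agent.S19.helper2972

open ModularCurve ModularCurve.IgusaScheme AlgebraicCurve
open Fermat.Agent.S19.helper9190
open scoped TensorProduct

noncomputable section

local notation "Qb" => AlgebraicClosure ℚ

section Basics

variable {ℓ : ℕ} [Fact ℓ.Prime] {A : ValuationSubring Qb}

set_option quotPrecheck false in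
local notation "Zl" => ↥(GaloisRep.ratLocalizedAt ℓ)

theorem natCast_ell_ne_zero_qb : ((ℓ : ℕ) : Qb) ≠ 0 :=
  Nat.cast_ne_zero.mpr (Fact.out : ℓ.Prime).ne_zero

theorem valuation_ell_pow_ne_zero (r : ℕ) : A.valuation ((ℓ : Qb) ^ r) ≠ 0 :=
  (Valuation.ne_zero_iff _).mpr (pow_ne_zero _ natCast_ell_ne_zero_qb)

/-- `x ≡ y` modulo `ℓ ^ r • A` in terms of the valuation of `A`. -/
theorem cong_iff_valuation_le (r : ℕ) (x y : Qb) :
    Cong A ℓ r x y ↔ A.valuation (x - y) ≤ A.valuation ((ℓ : Qb) ^ r) := by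
  constructor
  · rintro ⟨w, hw, h⟩
    rw [h, map_mul]
    exact mul_le_of_le_one_right' ((A.valuation_le_one_iff w).mpr hw)
  · intro h
    have h0 : ((ℓ : Qb) ^ r) ≠ 0 := pow_ne_zero _ natCast_ell_ne_zero_qb
    refine ⟨(x - y) / (ℓ : Qb) ^ r, ?_, by field_simp⟩
    rw [← A.valuation_le_one_iff, map_div₀]
    exact (div_le_one₀ (zero_lt_iff.mpr (valuation_ell_pow_ne_zero r))).mpr h

omit [Fact ℓ.Prime] in
/-- If `ℓ ^ r` is a unit of `A`, everything in `A` is congruent modulo `ℓ ^ r`. -/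
theorem cong_of_one {r : ℕ} (h1 : Cong A ℓ r 1 0) {x y : Qb} (hx : x ∈ A) (hy : y ∈ A) :
    Cong A ℓ r x y := by
  obtain ⟨w, hw, h⟩ := h1
  refine ⟨w * (x - y), mul_mem hw (sub_mem hx hy), ?_⟩
  rw [sub_zero] at h
  rw [← mul_assoc, ← h, one_mul]

omit [Fact ℓ.Prime] in
/-- `ℤ_(ℓ) ⊆ A` when `A` lies over `ℓ`. -/
theorem algebraMap_ratLocalizedAt_mem (hA : A.LiesOverPrime ℓ) (r : Zl) :
    algebraMap Zl Qb r ∈ A := by
  have hr : (r : ℚ).den.Coprime ℓ := r.2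
  have hcop : IsCoprime (((r : ℚ).den : ℤ)) (ℓ : ℤ) := Nat.isCoprime_iff_coprime.mpr hr
  obtain ⟨a, b, hab⟩ := hcop
  have hℓ : A.valuation (ℓ : Qb) < 1 := A.mem_nonunits_iff.mp hA
  have hbA : A.valuation ((b : Qb) * (ℓ : Qb)) < 1 := by
    rw [map_mul]
    exact lt_of_le_of_lt (mul_le_of_le_one_left' ((A.valuation_le_one_iff _).mpr (intCast_mem A b)))
      hℓ
  have hd0 : (((r : ℚ).den : ℕ) : Qb) ≠ 0 := Nat.cast_ne_zero.mpr (r : ℚ).den_nz
  have hab' : (a : Qb) * (((r : ℚ).den : ℕ) : Qb) = 1 - (b : Qb) * (ℓ : Qb) := by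
    have := congrArg (Int.cast : ℤ → Qb) hab
    push_cast at this
    linear_combination this
  have h1 : A.valuation (1 - (b : Qb) * (ℓ : Qb)) = 1 := Valuation.map_one_sub_of_lt _ hbA
  have hu : (1 - (b : Qb) * (ℓ : Qb))⁻¹ ∈ A := by
    rw [← A.valuation_le_one_iff, map_inv₀, h1, inv_one]
  have hinv : ((((r : ℚ).den : ℕ) : Qb))⁻¹ = (a : Qb) * (1 - (b : Qb) * (ℓ : Qb))⁻¹ := by
    have hne : (1 - (b : Qb) * (ℓ : Qb)) ≠ 0 := by
      intro h0
      rw [h0, map_zero] at h1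
      exact zero_ne_one h1
    apply inv_eq_of_mul_eq_one_right
    rw [← mul_assoc, mul_comm _ (a : Qb), hab', mul_inv_cancel₀ hne]
  have hval : algebraMap Zl Qb r = ((r : ℚ).num : Qb) * ((((r : ℚ).den : ℕ) : Qb))⁻¹ := by
    rw [IsScalarTower.algebraMap_apply Zl ℚ Qb]
    have : algebraMap Zl ℚ r = (r : ℚ) := rfl
    rw [this, ← div_eq_mul_inv]
    conv_lhs => rw [← Rat.num_div_den (r : ℚ)]
    rw [map_div₀, map_intCast, map_natCast]
  rw [hval, hinv]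
  exact mul_mem (intCast_mem A _) (mul_mem (intCast_mem A _) hu)

/-- The level algebra `A ∩ E`, as a `ℤ_(ℓ)`-subalgebra of `ℚ̄`. -/
def levelAlg (hA : A.LiesOverPrime ℓ) (E : IntermediateField ℚ Qb) : Subalgebra Zl Qb where
  carrier := {c | c ∈ A ∧ c ∈ E}
  mul_mem' ha hb := ⟨mul_mem ha.1 hb.1, mul_mem ha.2 hb.2⟩
  one_mem' := ⟨one_mem A, one_mem E⟩
  add_mem' ha hb := ⟨add_mem ha.1 hb.1, add_mem ha.2 hb.2⟩
  zero_mem' := ⟨zero_mem A, zero_mem E⟩
  algebraMap_mem' r := ⟨algebraMap_ratLocalizedAt_mem hA r, by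
    rw [IsScalarTower.algebraMap_apply Zl ℚ Qb]
    exact E.algebraMap_mem _⟩

theorem mem_levelAlg (hA : A.LiesOverPrime ℓ) (E : IntermediateField ℚ Qb) {c : Qb} :
    c ∈ levelAlg hA E ↔ c ∈ A ∧ c ∈ E := Iff.rfl

instance instIsFractionRingRatLocalizedAt : IsFractionRing Zl ℚ := by
  refine IsFractionRing.of_field (R := Zl) (K := ℚ) (fun z => ?_)
  refine ⟨⟨(z.num : ℚ), Fermat.Agent.S28.helper508.intCast_mem ℓ z.num⟩,
    ⟨(z.den : ℚ), Fermat.Agent.S28.helper508.natCast_mem ℓ z.den⟩, ?_⟩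
  exact (Rat.num_div_den z).symm

end Basics

section Frame

variable (N : ℕ) [NeZero N] {ℓ : ℕ} [Fact ℓ.Prime] {A : ValuationSubring Qb}
  (hA : A.LiesOverPrime ℓ) (E : IntermediateField ℚ Qb)

set_option quotPrecheck false in
local notation "Zl" => ↥(GaloisRep.ratLocalizedAt ℓ)

/-- The constants of level `A ∩ E` inside `FK`. -/
def kap : ↥(levelAlg hA E) →+* FK N :=
  (algebraMap Qb (FK N)).comp (levelAlg hA E).val.toRingHom

theorem kap_apply (c : ↥(levelAlg hA E)) : kap N hA E c = cst N (c : Qb) := rfl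

/-- A `ℤ_(ℓ)`-subalgebra of `FQ` inside `FK`. -/
def embOf (S : Subalgebra Zl (FQ N)) : ↥S →+* FK N :=
  (emb N).comp S.val.toRingHom

theorem embOf_apply (S : Subalgebra Zl (FQ N)) (s : ↥S) : embOf N S s = emb N (s : FQ N) := rfl

theorem kap_embOf (S : Subalgebra Zl (FQ N)) (r : Zl) :
    kap N hA E (algebraMap Zl ↥(levelAlg hA E) r) = embOf N S (algebraMap Zl ↥S r) := by
  have h1 : (algebraMap Qb (FK N)).comp (algebraMap ℚ Qb) = (emb N).comp (algebraMap ℚ (FQ N)) :=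
    RingHom.ext_rat _ _
  have h2 := congrArg (fun f : ℚ →+* FK N => f (r : ℚ)) h1
  exact h2

/-- The chart map `(A ∩ E) ⊗ S → FK`. -/
def chartHom (S : Subalgebra Zl (FQ N)) : ↥(levelAlg hA E) ⊗[Zl] ↥S →+* FK N :=
  tensorHom (kap N hA E) (embOf N S) (kap_embOf N hA E S)

theorem mem_closure_iff_chartHom (S : Subalgebra Zl (FQ N)) (f : FK N) :
    f ∈ Subring.closure ((fun c : Qb => cst N c) '' {c | c ∈ A ∧ c ∈ E} ∪
      (emb N) '' (S : Set (FQ N))) ↔ ∃ x, chartHom N hA E S x = f := by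
  have h1 : (fun c : Qb => cst N c) '' {c | c ∈ A ∧ c ∈ E} = Set.range (kap N hA E) := by
    ext f
    constructor
    · rintro ⟨c, hc, rfl⟩
      exact ⟨⟨c, hc⟩, rfl⟩
    · rintro ⟨c, rfl⟩
      exact ⟨(c : Qb), c.2, rfl⟩
  have h2 : (emb N) '' (S : Set (FQ N)) = Set.range (embOf N S) := by
    ext f
    constructor
    · rintro ⟨s, hs, rfl⟩
      exact ⟨⟨s, hs⟩, rfl⟩
    · rintro ⟨s, rfl⟩
      exact ⟨(s : FQ N), s.2, rfl⟩
  rw [h1, h2, ← range_tensorHom (kap N hA E) (embOf N S) (kap_embOf N hA E S)]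
  exact Iff.rfl

theorem mem_chartRing_zero {f : FK N} :
    f ∈ chartRing N ℓ A E 0 ↔ ∃ x, chartHom N hA E (chartAlgFin N ℓ) x = f :=
  mem_closure_iff_chartHom N hA E (chartAlgFin N ℓ) f

theorem mem_chartRing_one {f : FK N} :
    f ∈ chartRing N ℓ A E 1 ↔ ∃ x, chartHom N hA E (chartAlgInf N ℓ) x = f :=
  mem_closure_iff_chartHom N hA E (chartAlgInf N ℓ) f

theorem mem_chartRing_two {f : FK N} :
    f ∈ chartRing N ℓ A E 2 ↔ ∃ x, chartHom N hA E (chartAlgMid N ℓ) x = f :=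
  mem_closure_iff_chartHom N hA E (chartAlgMid N ℓ) f

/-- **Linear disjointness**: `(A ∩ E) ⊗ S → FK` is injective (compare `q`-expansion
coefficients over a `ℤ_(ℓ)`-basis of the constants involved). -/
theorem chartHom_eq_zero (S : Subalgebra Zl (FQ N)) (z : ↥(levelAlg hA E) ⊗[Zl] ↥S)
    (hz : chartHom N hA E S z = 0) : z = 0 := by
  refine tensor_eq_zero_of_coeff (R := Zl) (Q := ℚ) (L := Qb) (T := ↥S) (X := ℤ) (levelAlg hA E)
    (fun (k : ℤ) (t : ↥S) => ((t : FQ N) : LaurentSeries ℚ).coeff k) ?_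
    (fun k => AddMonoidHom.mk' (fun z => ((chartHom N hA E S z : FK N) : LaurentSeries Qb).coeff k)
      (fun x y => by
        rw [RingHom.map_add]
        rfl)) ?_ z ?_
  · intro t ht
    exact Subtype.ext (Subtype.ext (HahnSeries.ext (funext ht)))
  · intro k b t
    show ((chartHom N hA E S (b ⊗ₜ[Zl] t) : FK N) : LaurentSeries Qb).coeff k = _
    rw [chartHom, tensorHom_tmul, kap_apply, embOf_apply]
    show ((algebraMap Qb (LaurentSeries Qb) (b : Qb)) *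
      coeffEmb Qb ((t : FQ N) : LaurentSeries ℚ)).coeff k = _
    rw [algebraMap_laurentSeries_eq_single, HahnSeries.coeff_single_zero_mul, coeffEmb_coeff]
  · intro k
    show ((chartHom N hA E S z : FK N) : LaurentSeries Qb).coeff k = 0
    rw [hz]
    rfl

theorem chartHom_injective (S : Subalgebra Zl (FQ N)) :
    Function.Injective (chartHom N hA E S) := by
  intro x y hxy
  have hz : chartHom N hA E S (x - y) = 0 :=
    (RingHom.map_sub (chartHom N hA E S) x y).trans (sub_eq_zero.mpr hxy)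
  exact sub_eq_zero.mp (chartHom_eq_zero N hA E S (x - y) hz)

theorem embOf_inclFin (s : chartAlgFin N ℓ) :
    embOf N (chartAlgMid N ℓ) (inclFin N ℓ s) = embOf N (chartAlgFin N ℓ) s := by
  rw [embOf_apply, embOf_apply, coe_chartIncl]

theorem embOf_inclInf (s : chartAlgInf N ℓ) :
    embOf N (chartAlgMid N ℓ) (inclInf N ℓ s) = embOf N (chartAlgInf N ℓ) s := by
  rw [embOf_apply, embOf_apply, coe_chartIncl]

theorem kap_mem_chartRing (i : ℕ) (c : ↥(levelAlg hA E)) :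
    kap N hA E c ∈ chartRing N ℓ A E i :=
  Subring.subset_closure (Or.inl ⟨(c : Qb), c.2, rfl⟩)

theorem exists_of_mem_chartNil (S : Subalgebra Zl (FQ N)) (i : ℕ)
    (hi : ∀ f, f ∈ chartRing N ℓ A E i ↔ ∃ x, chartHom N hA E S x = f) {n r : ℕ} {f : FK N}
    (hf : f ∈ chartNil N ℓ A E n r i) :
    ∃ (c : ↥(levelAlg hA E)) (x : ↥(levelAlg hA E) ⊗[Zl] ↥S),
      Cong A ℓ r ((c : Qb) ^ n) 0 ∧ f = kap N hA E c * chartHom N hA E S x := by
  obtain ⟨c, hcA, hcE, hcong, s, hs, rfl⟩ := hf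
  obtain ⟨x, rfl⟩ := (hi s).mp hs
  exact ⟨⟨c, hcA, hcE⟩, x, hcong, rfl⟩

theorem mem_chartNil_of (S : Subalgebra Zl (FQ N)) (i : ℕ)
    (hi : ∀ f, f ∈ chartRing N ℓ A E i ↔ ∃ x, chartHom N hA E S x = f) {n r : ℕ}
    (c : ↥(levelAlg hA E)) (x : ↥(levelAlg hA E) ⊗[Zl] ↥S)
    (hc : Cong A ℓ r ((c : Qb) ^ n) 0) :
    kap N hA E c * chartHom N hA E S x ∈ chartNil N ℓ A E n r i :=
  ⟨(c : Qb), c.2.1, c.2.2, hc, chartHom N hA E S x, (hi _).mpr ⟨x, rfl⟩, rfl⟩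

omit [NeZero N] in
theorem valuation_add_pow_le {x y : Qb} {n : ℕ} {δ : A.ValueGroup}
    (hx : A.valuation x ^ n ≤ δ) (hy : A.valuation y ^ n ≤ δ) : A.valuation (x + y) ^ n ≤ δ := by
  have h := A.valuation.map_add x y
  rcases le_total (A.valuation x) (A.valuation y) with hxy | hxy
  · rw [max_eq_right hxy] at h
    exact (pow_le_pow_left' h n).trans hy
  · rw [max_eq_left hxy] at h
    exact (pow_le_pow_left' h n).trans hx

/-- The ideal `{x ∈ A ∩ E | x ^ n ∈ ℓ ^ r A}` (for `n ≠ 0`; the whole ring for `n = 0`). -/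
def nilIdeal (n r : ℕ) : Ideal ↥(levelAlg hA E) where
  carrier := {x | n ≠ 0 → A.valuation (x : Qb) ^ n ≤ A.valuation ((ℓ : Qb) ^ r)}
  add_mem' {x y} hx hy := fun hn => valuation_add_pow_le (hx hn) (hy hn)
  zero_mem' := fun hn => by
    show A.valuation (0 : Qb) ^ n ≤ _
    rw [map_zero, zero_pow hn]
    exact zero_le
  smul_mem' c {x} hx := fun hn => by
    show A.valuation ((c : Qb) * (x : Qb)) ^ n ≤ _
    rw [map_mul, mul_pow]
    exact mul_le_of_le_one_of_le (pow_le_one' ((A.valuation_le_one_iff _).mpr c.2.1) n) (hx hn)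

theorem mem_nilIdeal_of_cong {n r : ℕ} {c : ↥(levelAlg hA E)}
    (h : Cong A ℓ r ((c : Qb) ^ n) 0) : c ∈ nilIdeal hA E n r := by
  intro _
  have := (cong_iff_valuation_le r _ _).mp h
  rwa [sub_zero, map_pow] at this

/-- `ℓ ^ r` as an element of `A ∩ E`. -/
def ellPow (r : ℕ) : ↥(levelAlg hA E) :=
  ⟨(ℓ : Qb) ^ r, pow_mem (natCast_mem A ℓ) r, pow_mem (natCast_mem E ℓ) r⟩

theorem exists_eq_ellPow_mul {r : ℕ} (x : ↥(levelAlg hA E))
    (h : A.valuation (x : Qb) ≤ A.valuation ((ℓ : Qb) ^ r)) :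
    ∃ w : ↥(levelAlg hA E), x = ellPow hA E r * w := by
  have h0 : ((ℓ : Qb) ^ r) ≠ 0 := pow_ne_zero _ natCast_ell_ne_zero_qb
  refine ⟨⟨(x : Qb) / (ℓ : Qb) ^ r, ?_, div_mem x.2.2 (pow_mem (natCast_mem E ℓ) r)⟩, ?_⟩
  · rw [← A.valuation_le_one_iff, map_div₀]
    exact (div_le_one₀ (zero_lt_iff.mpr (valuation_ell_pow_ne_zero r))).mpr h
  · apply Subtype.ext
    show (x : Qb) = (ℓ : Qb) ^ r * ((x : Qb) / (ℓ : Qb) ^ r)
    field_simp

theorem nilIdeal_pow_le {n : ℕ} (hn : n ≠ 0) (r : ℕ) :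
    nilIdeal hA E n r ^ n ≤ Ideal.span {ellPow hA E r} := by
  have key : ∀ k : ℕ, ∀ x ∈ nilIdeal hA E n r ^ k,
      A.valuation (x : Qb) ^ n ≤ A.valuation ((ℓ : Qb) ^ r) ^ k := by
    intro k
    induction k with
    | zero =>
      intro x _
      rw [pow_zero]
      exact pow_le_one' ((A.valuation_le_one_iff _).mpr x.2.1) n
    | succ k ih =>
      intro x hx
      rw [pow_succ] at hx
      refine Submodule.mul_induction_on hx ?_ ?_
      · intro m hm y hy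
        show A.valuation ((m : Qb) * (y : Qb)) ^ n ≤ _
        rw [map_mul, mul_pow, pow_succ]
        exact mul_le_mul' (ih m hm) (hy hn)
      · intro a b ha hb
        exact valuation_add_pow_le ha hb
  intro x hx
  have h1 := le_of_pow_le_pow_left₀ hn zero_le (key n x hx)
  obtain ⟨w, hw⟩ := exists_eq_ellPow_mul hA E x h1
  rw [Ideal.mem_span_singleton']
  exact ⟨w, by rw [hw, mul_comm]⟩

theorem exists_level_of_cong {n r : ℕ} (c : ↥(levelAlg hA E))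
    (h : Cong A ℓ r ((c : Qb) ^ n) 0) :
    ∃ u : ↥(levelAlg hA E), c ^ n = ellPow hA E r * u := by
  refine exists_eq_ellPow_mul hA E (c ^ n) ?_
  have := (cong_iff_valuation_le r _ _).mp h
  rwa [sub_zero] at this

end Frame

section Main

variable (N : ℕ) [NeZero N] {ℓ : ℕ} [Fact ℓ.Prime] {A : ValuationSubring Qb}
  (hA : A.LiesOverPrime ℓ)

set_option quotPrecheck false in
local notation "Zl" => ↥(GaloisRep.ratLocalizedAt ℓ)

variable {g : ℕ} (η : Fin g → chartAlgMid N ℓ)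

include hA in
/-- (FAC) of `Stmt_CechElt`, from the spanning hypothesis alone. -/
theorem cechElt_fac
    (hspan : ∀ x : chartAlgMid N ℓ, ∃ (x0 : chartAlgFin N ℓ) (x1 : chartAlgInf N ℓ)
      (c : Fin g → Zl), x = inclFin N ℓ x0 + inclInf N ℓ x1 + ∑ i, c i • η i)
    (E : IntermediateField ℚ Qb) (r n : ℕ) (v : FK N)
    (hv1 : v - 1 ∈ chartNil N ℓ A E n r 2) :
    ∃ (a0 a1 : FK N) (b : Fin g → Qb),
      a0 ∈ chartRing N ℓ A E 0 ∧ a0 - 1 ∈ chartNil N ℓ A E n r 0 ∧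
      a1 ∈ chartRing N ℓ A E 1 ∧ a1 - 1 ∈ chartNil N ℓ A E n r 1 ∧
      NilVec ℓ A n r b ∧ (∀ i, b i ∈ E) ∧
      ∃ z ∈ chartRing N ℓ A E 2,
        v - normalForm N (fun i => (η i : FQ N)) a0 a1 b = cst N ((ℓ : Qb) ^ r) * z := by
  obtain ⟨c, x, hc, hx⟩ := exists_of_mem_chartNil N hA E (chartAlgMid N ℓ) 2
    (fun f => mem_chartRing_two N hA E) hv1
  obtain ⟨y0, y1, w, y, h⟩ := exists_of_tensorHom' (kap N hA E) (embOf N (chartAlgFin N ℓ))
    (embOf N (chartAlgInf N ℓ)) (embOf N (chartAlgMid N ℓ)) (kap_embOf N hA E _)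
    (kap_embOf N hA E _) (kap_embOf N hA E _) (ι0 := inclFin N ℓ) (ι1 := inclInf N ℓ)
    (embOf_inclFin N) (embOf_inclInf N) hspan c n x
  obtain ⟨u, hu⟩ := exists_level_of_cong hA E c hc
  have hcong : ∀ i, Cong A ℓ r (((c * w i : ↥(levelAlg hA E)) : Qb) ^ n) 0 := by
    intro i
    refine ⟨(u : Qb) * (w i : Qb) ^ n, mul_mem u.2.1 (pow_mem (w i).2.1 n), ?_⟩
    have hu' : (c : Qb) ^ n = (ℓ : Qb) ^ r * (u : Qb) := congrArg Subtype.val hu
    show ((c : Qb) * (w i : Qb)) ^ n - 0 = _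
    rw [sub_zero, mul_pow, hu']
    ring
  refine ⟨1 + kap N hA E c * chartHom N hA E (chartAlgFin N ℓ) y0,
    1 + kap N hA E c * chartHom N hA E (chartAlgInf N ℓ) y1,
    fun i => ((c * w i : ↥(levelAlg hA E)) : Qb), ?_, ?_, ?_, ?_, ?_, ?_, ?_⟩
  · exact add_mem (one_mem _) (mul_mem (kap_mem_chartRing N hA E 0 c)
      ((mem_chartRing_zero N hA E).mpr ⟨y0, rfl⟩))
  · rw [add_sub_cancel_left]
    exact mem_chartNil_of N hA E (chartAlgFin N ℓ) 0 (fun f => mem_chartRing_zero N hA E) c y0 hc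
  · exact add_mem (one_mem _) (mul_mem (kap_mem_chartRing N hA E 1 c)
      ((mem_chartRing_one N hA E).mpr ⟨y1, rfl⟩))
  · rw [add_sub_cancel_left]
    exact mem_chartNil_of N hA E (chartAlgInf N ℓ) 1 (fun f => mem_chartRing_one N hA E) c y1 hc
  · exact fun i => ⟨(c * w i).2.1, hcong i⟩
  · exact fun i => (c * w i).2.2
  · refine ⟨kap N hA E u * chartHom N hA E (chartAlgMid N ℓ) y,
      mul_mem (kap_mem_chartRing N hA E 2 u) ((mem_chartRing_two N hA E).mpr ⟨y, rfl⟩), ?_⟩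
    have hv : v = 1 + kap N hA E c * chartHom N hA E (chartAlgMid N ℓ) x := by
      rw [← hx]; ring
    have h3 : kap N hA E (c ^ n) = cst N ((ℓ : Qb) ^ r) * kap N hA E u := by
      rw [hu, map_mul]
      rfl
    rw [hv, ← mul_assoc, ← h3]
    exact h

include hA in
/-- (UNI) of `Stmt_CechElt`. -/
theorem cechElt_uni (hD : IsCechDatum (inclFin N ℓ) (inclInf N ℓ) η)
    (r n : ℕ) (a0 a1 a0' a1' : FK N) (b b' : Fin g → Qb)
    (h0 : a0 - 1 ∈ chartNil N ℓ A ⊤ n r 0) (h1 : a1 - 1 ∈ chartNil N ℓ A ⊤ n r 1)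
    (h0' : a0' - 1 ∈ chartNil N ℓ A ⊤ n r 0) (h1' : a1' - 1 ∈ chartNil N ℓ A ⊤ n r 1)
    (hb : NilVec ℓ A n r b) (hb' : NilVec ℓ A n r b')
    (hz : ∃ z ∈ chartRing N ℓ A ⊤ 2,
      normalForm N (fun i => (η i : FQ N)) a0 a1 b -
        normalForm N (fun i => (η i : FQ N)) a0' a1' b' = cst N ((ℓ : Qb) ^ r) * z) :
    ∀ i, Cong A ℓ r (b i) (b' i) := by
  rcases Nat.eq_zero_or_pos n with hn | hn
  · subst hn
    obtain ⟨c, -, -, hcong, -⟩ := h0
    rw [pow_zero] at hcong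
    exact fun i => cong_of_one hcong (hb i).1 (hb' i).1
  · have hn0 : n ≠ 0 := hn.ne'
    obtain ⟨c0, y0, hc0, e0⟩ := exists_of_mem_chartNil N hA ⊤ (chartAlgFin N ℓ) 0
      (fun f => mem_chartRing_zero N hA ⊤) h0
    obtain ⟨c1, y1, hc1, e1⟩ := exists_of_mem_chartNil N hA ⊤ (chartAlgInf N ℓ) 1
      (fun f => mem_chartRing_one N hA ⊤) h1
    obtain ⟨c0', y0', hc0', e0'⟩ := exists_of_mem_chartNil N hA ⊤ (chartAlgFin N ℓ) 0
      (fun f => mem_chartRing_zero N hA ⊤) h0'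
    obtain ⟨c1', y1', hc1', e1'⟩ := exists_of_mem_chartNil N hA ⊤ (chartAlgInf N ℓ) 1
      (fun f => mem_chartRing_one N hA ⊤) h1'
    obtain ⟨z, hzm, heq⟩ := hz
    obtain ⟨zt, rfl⟩ := (mem_chartRing_two N hA ⊤).mp hzm
    have ha0 : a0 = 1 + kap N hA ⊤ c0 * chartHom N hA ⊤ (chartAlgFin N ℓ) y0 := by
      rw [← e0]; ring
    have ha1 : a1 = 1 + kap N hA ⊤ c1 * chartHom N hA ⊤ (chartAlgInf N ℓ) y1 := by
      rw [← e1]; ring
    have ha0' : a0' = 1 + kap N hA ⊤ c0' * chartHom N hA ⊤ (chartAlgFin N ℓ) y0' := by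
      rw [← e0']; ring
    have ha1' : a1' = 1 + kap N hA ⊤ c1' * chartHom N hA ⊤ (chartAlgInf N ℓ) y1' := by
      rw [← e1']; ring
    subst ha0 ha1 ha0' ha1'
    have key := unique_of_tensorHom' (kap N hA ⊤) (embOf N (chartAlgFin N ℓ))
      (embOf N (chartAlgInf N ℓ)) (embOf N (chartAlgMid N ℓ)) (kap_embOf N hA ⊤ _)
      (kap_embOf N hA ⊤ _) (kap_embOf N hA ⊤ _) (ι0 := inclFin N ℓ) (ι1 := inclInf N ℓ)
      (embOf_inclFin N) (embOf_inclInf N) hD (chartHom_injective N hA ⊤ (chartAlgMid N ℓ))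
      (nilIdeal hA ⊤ n r) (Ideal.span {ellPow hA ⊤ r}) (nilIdeal_pow_le hA ⊤ hn0 r)
      (mem_nilIdeal_of_cong hA ⊤ hc0) (mem_nilIdeal_of_cong hA ⊤ hc0')
      (mem_nilIdeal_of_cong hA ⊤ hc1) (mem_nilIdeal_of_cong hA ⊤ hc1')
      (b := fun i => ⟨b i, (hb i).1, IntermediateField.mem_top⟩)
      (b' := fun i => ⟨b' i, (hb' i).1, IntermediateField.mem_top⟩)
      (fun i => mem_nilIdeal_of_cong hA ⊤ (hb i).2) (fun i => mem_nilIdeal_of_cong hA ⊤ (hb' i).2)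
      (Ideal.mem_span_singleton_self _) (z := zt) heq
    intro i
    obtain ⟨w, hw⟩ := Ideal.mem_span_singleton'.mp (key i)
    refine ⟨-(w : Qb), neg_mem w.2.1, ?_⟩
    have hw' : (w : Qb) * (ℓ : Qb) ^ r = b' i - b i := congrArg Subtype.val hw
    linear_combination hw'

omit [NeZero N] [Fact ℓ.Prime] in
/-- Evaluation of a polynomial over `ℤ_(ℓ)` at points of the level algebra. -/
theorem coe_aeval_levelAlg (E : IntermediateField ℚ Qb) {σ : Type*}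
    (v : σ → ↥(levelAlg hA E)) (p : MvPolynomial σ Zl) :
    ((MvPolynomial.aeval v p : ↥(levelAlg hA E)) : Qb) =
      MvPolynomial.aeval (fun j => (v j : Qb)) p :=
  MvPolynomial.comp_aeval_apply v (levelAlg hA E).val p

include hA in
/-- (LAW) of `Stmt_CechElt`. -/
theorem cechElt_law (hD : IsCechDatum (inclFin N ℓ) (inclInf N ℓ) η)
    (r n : ℕ) (a0 a1 : FK N) (b b' b'' : Fin g → Qb)
    (h0 : a0 - 1 ∈ chartNil N ℓ A ⊤ n r 0) (h1 : a1 - 1 ∈ chartNil N ℓ A ⊤ n r 1)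
    (hb : NilVec ℓ A n r b) (hb' : NilVec ℓ A n r b') (hb'' : NilVec ℓ A n r b'')
    (hz : ∃ z ∈ chartRing N ℓ A ⊤ 2,
      normalForm N (fun i => (η i : FQ N)) 1 1 b * normalForm N (fun i => (η i : FQ N)) 1 1 b' -
        normalForm N (fun i => (η i : FQ N)) a0 a1 b'' = cst N ((ℓ : Qb) ^ r) * z) :
    ∀ i, Cong A ℓ r (b'' i)
      (MvPolynomial.aeval (Sum.elim b b') (lawPoly (inclFin N ℓ) (inclInf N ℓ) η n i)) := by
  have hS : (fun j => (((Sum.elim (fun i => (⟨b i, (hb i).1, IntermediateField.mem_top⟩ :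
      ↥(levelAlg hA ⊤))) (fun i => ⟨b' i, (hb' i).1, IntermediateField.mem_top⟩)) j :
      ↥(levelAlg hA ⊤)) : Qb)) = Sum.elim b b' := by
    funext j
    rcases j with j | j <;> rfl
  have hco := fun i => coe_aeval_levelAlg hA ⊤
    (Sum.elim (fun i => (⟨b i, (hb i).1, IntermediateField.mem_top⟩ : ↥(levelAlg hA ⊤)))
      (fun i => ⟨b' i, (hb' i).1, IntermediateField.mem_top⟩))
    (lawPoly (inclFin N ℓ) (inclInf N ℓ) η n i)
  rw [hS] at hco
  rcases Nat.eq_zero_or_pos n with hn | hn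
  · subst hn
    obtain ⟨c, -, -, hcong, -⟩ := h0
    rw [pow_zero] at hcong
    intro i
    refine cong_of_one hcong (hb'' i).1 ?_
    rw [← hco i]
    exact (MvPolynomial.aeval _ _ : ↥(levelAlg hA ⊤)).2.1
  · have hn0 : n ≠ 0 := hn.ne'
    obtain ⟨c0, y0, hc0, e0⟩ := exists_of_mem_chartNil N hA ⊤ (chartAlgFin N ℓ) 0
      (fun f => mem_chartRing_zero N hA ⊤) h0
    obtain ⟨c1, y1, hc1, e1⟩ := exists_of_mem_chartNil N hA ⊤ (chartAlgInf N ℓ) 1
      (fun f => mem_chartRing_one N hA ⊤) h1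
    obtain ⟨z, hzm, heq⟩ := hz
    obtain ⟨zt, rfl⟩ := (mem_chartRing_two N hA ⊤).mp hzm
    have ha0 : a0 = 1 + kap N hA ⊤ c0 * chartHom N hA ⊤ (chartAlgFin N ℓ) y0 := by
      rw [← e0]; ring
    have ha1 : a1 = 1 + kap N hA ⊤ c1 * chartHom N hA ⊤ (chartAlgInf N ℓ) y1 := by
      rw [← e1]; ring
    subst ha0 ha1
    have heq' : (∏ i, (1 + cst N (b i) * emb N (η i : FQ N))) *
        (∏ i, (1 + cst N (b' i) * emb N (η i : FQ N))) -
        normalForm N (fun i => (η i : FQ N))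
          (1 + kap N hA ⊤ c0 * chartHom N hA ⊤ (chartAlgFin N ℓ) y0)
          (1 + kap N hA ⊤ c1 * chartHom N hA ⊤ (chartAlgInf N ℓ) y1) b'' =
        cst N ((ℓ : Qb) ^ r) * chartHom N hA ⊤ (chartAlgMid N ℓ) zt := by
      rw [← heq]
      simp only [normalForm, one_mul, mul_one]
    have key := law_of_tensorHom' (kap N hA ⊤) (embOf N (chartAlgFin N ℓ))
      (embOf N (chartAlgInf N ℓ)) (embOf N (chartAlgMid N ℓ)) (kap_embOf N hA ⊤ _)
      (kap_embOf N hA ⊤ _) (kap_embOf N hA ⊤ _) (ι0 := inclFin N ℓ) (ι1 := inclInf N ℓ)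
      (embOf_inclFin N) (embOf_inclInf N) hD (chartHom_injective N hA ⊤ (chartAlgMid N ℓ))
      (nilIdeal hA ⊤ n r) (Ideal.span {ellPow hA ⊤ r}) (nilIdeal_pow_le hA ⊤ hn0 r)
      (mem_nilIdeal_of_cong hA ⊤ hc0) (mem_nilIdeal_of_cong hA ⊤ hc1)
      (b := fun i => ⟨b i, (hb i).1, IntermediateField.mem_top⟩)
      (b' := fun i => ⟨b' i, (hb' i).1, IntermediateField.mem_top⟩)
      (b'' := fun i => ⟨b'' i, (hb'' i).1, IntermediateField.mem_top⟩)
      (fun i => mem_nilIdeal_of_cong hA ⊤ (hb i).2) (fun i => mem_nilIdeal_of_cong hA ⊤ (hb' i).2)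
      (fun i => mem_nilIdeal_of_cong hA ⊤ (hb'' i).2)
      (Ideal.mem_span_singleton_self _) (z := zt) heq'
    intro i
    obtain ⟨w, hw⟩ := Ideal.mem_span_singleton'.mp (key i)
    refine ⟨(w : Qb), w.2.1, ?_⟩
    have hw' : (w : Qb) * (ℓ : Qb) ^ r = b'' i - ((MvPolynomial.aeval
        (Sum.elim (fun i => (⟨b i, (hb i).1, IntermediateField.mem_top⟩ : ↥(levelAlg hA ⊤)))
          (fun i => ⟨b' i, (hb' i).1, IntermediateField.mem_top⟩))
        (lawPoly (inclFin N ℓ) (inclInf N ℓ) η n i) : ↥(levelAlg hA ⊤)) : Qb) :=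
      congrArg Subtype.val hw
    rw [← hco i]
    linear_combination -hw'

include hA in
/-- (INTER) of `Stmt_CechElt`. -/
theorem cechElt_inter (hD : IsCechDatum (inclFin N ℓ) (inclInf N ℓ) η)
    (s0 : FK N) (hs0 : s0 ∈ chartRing N ℓ A ⊤ 0) (s1 : FK N) (hs1 : s1 ∈ chartRing N ℓ A ⊤ 1)
    (h : s0 - s1 ∈ chartMax N ℓ A 2) :
    ∃ c ∈ A, s0 - cst N c ∈ chartMax N ℓ A 0 ∧ s1 - cst N c ∈ chartMax N ℓ A 1 := by
  obtain ⟨c, hc, s, hs, heq⟩ := h
  obtain ⟨x0, rfl⟩ := (mem_chartRing_zero N hA ⊤).mp hs0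
  obtain ⟨x1, rfl⟩ := (mem_chartRing_one N hA ⊤).mp hs1
  obtain ⟨x, rfl⟩ := (mem_chartRing_two N hA ⊤).mp hs
  obtain ⟨ρ, y0, y1, hr0, hr1⟩ := inter_of_tensorHom (kap N hA ⊤) (embOf N (chartAlgFin N ℓ))
    (embOf N (chartAlgInf N ℓ)) (embOf N (chartAlgMid N ℓ)) (kap_embOf N hA ⊤ _)
    (kap_embOf N hA ⊤ _) (kap_embOf N hA ⊤ _) (ι0 := inclFin N ℓ) (ι1 := inclInf N ℓ)
    (embOf_inclFin N) (embOf_inclInf N) hD (chartHom_injective N hA ⊤ (chartAlgMid N ℓ))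
    (c := ⟨c, A.nonunits_subset hc, IntermediateField.mem_top⟩) (x := x) heq
  exact ⟨(ρ : Qb), ρ.2.1,
    ⟨c, hc, _, (mem_chartRing_zero N hA ⊤).mpr ⟨y0, rfl⟩, hr0⟩,
    ⟨c, hc, _, (mem_chartRing_one N hA ⊤).mpr ⟨y1, rfl⟩, hr1⟩⟩

/-- **CECH-ELEMENT** (L2 of `helper9190_SpecC`): the element form inside `FK` of the unit
factorisation, its uniqueness modulo `ℓ ^ r`, the polynomial law and `S̄₀ ∩ S̄₁ = constants`,
from the Cech datum `Stmt_H1Free` of the Igusa model over `ℤ_(ℓ)`. -/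
theorem stmt_CechElt (hA : A.LiesOverPrime ℓ) (h1 : Stmt_H1Free N ℓ) : Stmt_CechElt N ℓ A := by
  obtain ⟨g, η, hspan, hindep, hinter, hinj, hflat⟩ := h1
  have hD : IsCechDatum (inclFin N ℓ) (inclInf N ℓ) η := ⟨hspan, hindep, hinter, hinj, hflat⟩
  refine ⟨g, fun i => (η i : FQ N), fun n => lawPoly (inclFin N ℓ) (inclInf N ℓ) η n,
    fun i => (η i).2, ?_, ?_, ?_, ?_⟩
  · intro E r n v _ hv1
    exact cechElt_fac N hA η hspan E r n v hv1
  · exact cechElt_uni N hA η hD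
  · exact cechElt_law N hA η hD
  · exact cechElt_inter N hA η hD

end Main

end

end Fermat.Agent.S19.helper2972
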