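import Mathlib
import Fermat.Agent.S19.helper3214_Rational

/-!
# CALG-RAT, ball form (helper3214): fixed orthonormal bases for a closed/open ball pair

`helper3214_Rational.lean` proves the fixed-orthonormal-basis theorem for ONE valuation ring `O`
of `F`.  Here the pair `(O, O.nonunits)` is replaced by an abstract pair `(B, m)` of additive
subgroups of `F` (a closed ball and its open ball, `IsBall A B m`): `m ≤ B`, `A • B ⊆ B`,
`𝔪_A • B ⊆ m`.  Instances:

* `vsBall O`, `vsOpenBall O` for a family `O : ι → ValuationSubring F` (max-norm of several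
  valuations: `isBall_vs`);
* `wBall v w`, `wOpenBall v w hw` for a family of valuations `v : ι → Valuation F Γ₀` with
  weights `w : ι → Γ₀` (twisted lattices: `isBall_w`).

Main results (same hypotheses as in the one-valuation file, `ϖ` any `Γ`-fixed non-unit of `A`):

* `exists_fixed_orthoB` : a `Γ`-stable subspace with an orthonormal basis for `(B, m)` has a
  `Γ`-fixed orthonormal basis;
* `exists_fixed_same_redB` : every element of `V ∩ B` is congruent modulo `m` to a `Γ`-fixed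
  element of `V ∩ B`;
* `exists_fixed_lattice_basisB` : `V ∩ B` is free over `A` on the fixed basis, and its `Γ`-fixed
  part is free over the fixed subring of `A` on the same basis.
-/

set_option autoImplicit false

namespace Fermat.Agent.S19.helper3214

open scoped BigOperators

section BallDefs

variable {L F : Type*} [Field L] [Field F] [Algebra L F]

/-- A closed ball `B` and its open ball `m` over the valuation ring `A` of the constants. -/
structure IsBall (A : ValuationSubring L) (B m : AddSubgroup F) : Prop where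
  le : m ≤ B
  smul_mem : ∀ c : L, c ∈ A → ∀ f : F, f ∈ B → c • f ∈ B
  smul_mem_open : ∀ c : L, c ∈ A.nonunits → ∀ f : F, f ∈ B → c • f ∈ m

/-- An orthonormal family for the ball pair `(B, m)`: vectors of `B` such that an
`A`-combination lying in the open ball has all its coefficients in the maximal ideal of `A`. -/
def IsOrthoB (A : ValuationSubring L) (B m : AddSubgroup F) {ι : Type*} [Fintype ι]
    (u : ι → F) : Prop :=
  (∀ i, u i ∈ B) ∧
    ∀ a : ι → L, (∀ i, a i ∈ A) → (∑ i, a i • u i) ∈ m → ∀ i, a i ∈ A.nonunits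

variable {A : ValuationSubring L} {B m : AddSubgroup F}

theorem IsOrthoB.mem {ι : Type*} [Fintype ι] {u : ι → F} (hu : IsOrthoB A B m u) (i : ι) :
    u i ∈ B := hu.1 i

/-- Normalising by a coefficient of largest valuation. -/
theorem IsOrthoB.normalized_notMem {ι : Type*} [Fintype ι] {u : ι → F}
    (hu : IsOrthoB A B m u) {a : ι → L} {i0 : ι} (h0 : a i0 ≠ 0)
    (hmax : ∀ j, A.valuation (a j) ≤ A.valuation (a i0)) :
    (a i0)⁻¹ • ∑ j, a j • u j ∉ m := by
  intro hsum
  have hv0 : 0 < A.valuation (a i0) := zero_lt_iff.mpr ((Valuation.ne_zero_iff _).mpr h0)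
  have hb : ∀ j, (a i0)⁻¹ * a j ∈ A := by
    intro j
    rw [← A.valuation_le_one_iff, map_mul, map_inv₀]
    exact (inv_mul_le_one₀ hv0).mpr (hmax j)
  have hsum' : ∑ j, ((a i0)⁻¹ * a j) • u j ∈ m := by
    have : ∑ j, ((a i0)⁻¹ * a j) • u j = (a i0)⁻¹ • ∑ j, a j • u j := by
      rw [Finset.smul_sum]
      exact Finset.sum_congr rfl fun j _ => by rw [smul_smul]
    rw [this]
    exact hsum
  have := hu.2 _ hb hsum' i0
  rw [inv_mul_cancel₀ h0] at this
  exact one_notMem_nonunits A this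

/-- An orthonormal family is linearly independent. -/
theorem IsOrthoB.linearIndependent {ι : Type*} [Fintype ι] {u : ι → F}
    (hu : IsOrthoB A B m u) : LinearIndependent L u := by
  classical
  rw [Fintype.linearIndependent_iff]
  intro a ha i
  by_contra hi
  obtain ⟨i0, -, hmax⟩ := Finset.exists_max_image Finset.univ (fun i => A.valuation (a i))
    ⟨i, Finset.mem_univ i⟩
  have h0 : a i0 ≠ 0 := by
    intro h
    have := hmax i (Finset.mem_univ i)
    rw [h, map_zero] at this
    exact hi ((Valuation.zero_iff _).mp (le_antisymm this zero_le))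
  apply hu.normalized_notMem h0 fun j => hmax j (Finset.mem_univ j)
  rw [ha, smul_zero]
  exact m.zero_mem

/-- The coordinates of a vector of the closed ball with respect to an orthonormal family are
integral. -/
theorem IsOrthoB.coeff_mem (hB : IsBall A B m) {ι : Type*} [Fintype ι] {u : ι → F}
    (hu : IsOrthoB A B m u) (a : ι → L) (ha : ∑ i, a i • u i ∈ B) : ∀ i, a i ∈ A := by
  classical
  intro i
  by_contra hi
  obtain ⟨i0, -, hmax⟩ := Finset.exists_max_image Finset.univ (fun i => A.valuation (a i))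
    ⟨i, Finset.mem_univ i⟩
  have h1 : 1 < A.valuation (a i0) :=
    lt_of_lt_of_le (not_le.mp fun h => hi ((A.valuation_le_one_iff _).mp h))
      (hmax i (Finset.mem_univ i))
  have h0 : a i0 ≠ 0 := by
    intro h
    rw [h, map_zero] at h1
    exact not_lt_zero h1
  apply hu.normalized_notMem h0 fun j => hmax j (Finset.mem_univ j)
  refine hB.smul_mem_open _ ?_ _ ha
  rw [A.mem_nonunits_iff, map_inv₀]
  exact inv_lt_one_of_one_lt₀ h1

/-- The coordinates of a vector of the open ball with respect to an orthonormal family lie in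
the maximal ideal. -/
theorem IsOrthoB.coeff_mem_open (hB : IsBall A B m) {ι : Type*} [Fintype ι] {u : ι → F}
    (hu : IsOrthoB A B m u) (a : ι → L) (ha : ∑ i, a i • u i ∈ m) : ∀ i, a i ∈ A.nonunits :=
  hu.2 a (hu.coeff_mem hB a (hB.le ha)) ha

/-- An `A`-combination of vectors of the closed ball lies in the closed ball. -/
theorem IsBall.sum_smul_mem (hB : IsBall A B m) {ι : Type*} [Fintype ι] {u : ι → F}
    (hu : ∀ i, u i ∈ B) {a : ι → L} (ha : ∀ i, a i ∈ A) : ∑ i, a i • u i ∈ B :=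
  B.sum_mem fun i _ => hB.smul_mem _ (ha i) _ (hu i)

/-- A combination of vectors of the closed ball with coefficients in the maximal ideal lies in
the open ball. -/
theorem IsBall.sum_smul_mem_open (hB : IsBall A B m) {ι : Type*} [Fintype ι] {u : ι → F}
    (hu : ∀ i, u i ∈ B) {a : ι → L} (ha : ∀ i, a i ∈ A.nonunits) : ∑ i, a i • u i ∈ m :=
  m.sum_mem fun i _ => hB.smul_mem_open _ (ha i) _ (hu i)

end BallDefs

section BallMain

variable {Γ L F : Type*} [Group Γ] [Field L] [Field F] [Algebra L F]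
variable (τ : Γ →* RingAut L) (ρ : Γ →* RingAut F)
variable {A : ValuationSubring L} {B m : AddSubgroup F}

/-- The exchange step (ball form): a fixed family in the closed ball which is not orthonormal
can be improved, multiplying the determinant of its coordinate matrix by `ϖ⁻¹ * unit`. -/
theorem exchange_stepB
    (hc : ∀ (g : Γ) (c : L), ρ g (algebraMap L F c) = algebraMap L F (τ g c))
    (hB : IsBall A B m)
    {ϖ : L} (hϖfix : ∀ g, τ g ϖ = ϖ)
    (hres : ∀ a ∈ A, ∃ r ∈ A, (∀ g, τ g r = r) ∧ a - r ∈ A.nonunits)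
    (hdiv : ∀ f : F, (∀ g, ρ g f = f) → f ∈ m → ϖ⁻¹ • f ∈ B)
    (V : Submodule L F) {d : ℕ} (u : Fin d → F)
    (w : Fin d → F) (P : Matrix (Fin d) (Fin d) L)
    (hwV : ∀ i, w i ∈ V) (hwB : ∀ i, w i ∈ B) (hwfix : ∀ i g, ρ g (w i) = w i)
    (hwP : ∀ i, w i = ∑ j, P i j • u j)
    (hnot : ¬ IsOrthoB A B m w) :
    ∃ (w' : Fin d → F) (P' : Matrix (Fin d) (Fin d) L) (r : L),
      (∀ i, w' i ∈ V) ∧ (∀ i, w' i ∈ B) ∧ (∀ i g, ρ g (w' i) = w' i) ∧
      (∀ i, w' i = ∑ j, P' i j • u j) ∧ r⁻¹ ∈ A ∧ r ≠ 0 ∧ P'.det = ϖ⁻¹ * r * P.det := by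
  classical
  -- a witness of non-orthonormality
  have h1 : ∃ a : Fin d → L, (∀ i, a i ∈ A) ∧ (∑ i, a i • w i) ∈ m ∧
      ∃ i, a i ∉ A.nonunits := by
    by_contra hcon
    apply hnot
    refine ⟨hwB, fun a ha hsum i => ?_⟩
    by_contra hi
    exact hcon ⟨a, ha, hsum, i, hi⟩
  obtain ⟨a, haA, hsum, i0, hi0⟩ := h1
  choose r hrA hrfix hra using fun i => hres (a i) (haA i)
  obtain ⟨h, hh⟩ : ∃ h : F, h = ∑ i, r i • w i := ⟨_, rfl⟩
  have hhV : h ∈ V := by
    rw [hh]
    exact V.sum_mem fun i _ => V.smul_mem _ (hwV i)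
  have hhfix : ∀ g, ρ g h = h := by
    intro g
    rw [hh, map_sum]
    exact Finset.sum_congr rfl fun i _ => by rw [map_smul_of_compat τ ρ hc, hrfix, hwfix]
  have hhnon : h ∈ m := by
    have : h = ∑ i, a i • w i - ∑ i, (a i - r i) • w i := by
      rw [hh, ← Finset.sum_sub_distrib]
      exact Finset.sum_congr rfl fun i _ => by rw [sub_smul]; abel
    rw [this]
    exact m.sub_mem hsum (hB.sum_smul_mem_open hwB hra)
  have hr0non : r i0 ∉ A.nonunits := by
    intro hr
    apply hi0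
    have := nonunits_add A (hra i0) hr
    rwa [sub_add_cancel] at this
  have hr0 : r i0 ≠ 0 := by
    intro h0
    exact hr0non (h0 ▸ nonunits_zero A)
  have hr0inv : (r i0)⁻¹ ∈ A := by
    by_contra hcon
    exact hr0non ((mem_nonunits_iff_inv_notMem' A hr0).mpr hcon)
  have hh'B : ϖ⁻¹ • h ∈ B := hdiv h hhfix hhnon
  have hϖinvfix : ∀ g, τ g ϖ⁻¹ = ϖ⁻¹ := fun g => by rw [map_inv₀, hϖfix]
  refine ⟨Function.update w i0 (ϖ⁻¹ • h), P.updateRow i0 (∑ k, (ϖ⁻¹ * r k) • P k), r i0,
    ?_, ?_, ?_, ?_, hr0inv, hr0, ?_⟩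
  · intro i
    by_cases hi : i = i0
    · rw [hi, Function.update_self]
      exact V.smul_mem _ hhV
    · rw [Function.update_of_ne hi]
      exact hwV i
  · intro i
    by_cases hi : i = i0
    · rw [hi, Function.update_self]
      exact hh'B
    · rw [Function.update_of_ne hi]
      exact hwB i
  · intro i g
    by_cases hi : i = i0
    · rw [hi, Function.update_self, map_smul_of_compat τ ρ hc, hϖinvfix, hhfix]
    · rw [Function.update_of_ne hi]
      exact hwfix i g
  · intro i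
    by_cases hi : i = i0
    · rw [hi, Function.update_self, Matrix.updateRow_self, hh, Finset.smul_sum]
      calc ∑ k, ϖ⁻¹ • r k • w k = ∑ k, ∑ j, ((ϖ⁻¹ * r k) * P k j) • u j := by
            refine Finset.sum_congr rfl fun k _ => ?_
            rw [hwP k, smul_smul, Finset.smul_sum]
            exact Finset.sum_congr rfl fun j _ => by rw [smul_smul]
        _ = ∑ j, ∑ k, ((ϖ⁻¹ * r k) * P k j) • u j := Finset.sum_comm
        _ = ∑ j, (∑ k, (ϖ⁻¹ * r k) • P k) j • u j := by
            refine Finset.sum_congr rfl fun j _ => ?_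
            rw [← Finset.sum_smul]
            congr 1
            simp [Finset.sum_apply]
    · rw [Function.update_of_ne hi, Matrix.updateRow_ne hi]
      exact hwP i
  · rw [Matrix.det_updateRow_sum, smul_eq_mul]

/-- **Fixed orthonormal bases, ball form.**  Let `V ≤ F` be a `Γ`-stable `L`-subspace with an
orthonormal basis `u` for the ball pair `(B, m)` over `A`.  Assume Speiser's hypotheses (finite
orbits of scalars, open stabilisers of vectors), a `Γ`-fixed non-unit `ϖ ≠ 0` of `A` such that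
`A` is archimedean with respect to `ϖ`, that every residue class of `A` contains a `Γ`-fixed
element, and that every `Γ`-fixed element of the open ball is `ϖ` times an element of the closed
ball.  Then `V` has an orthonormal basis consisting of `Γ`-fixed vectors. -/
theorem exists_fixed_orthoB
    (hc : ∀ (g : Γ) (c : L), ρ g (algebraMap L F c) = algebraMap L F (τ g c))
    (hB : IsBall A B m)
    {ϖ : L} (hϖ0 : ϖ ≠ 0) (hϖA : ϖ ∈ A.nonunits) (hϖfix : ∀ g, τ g ϖ = ϖ)
    (harch : ∀ x : L, x ≠ 0 → ∃ N : ℕ, ϖ ^ N * x ∈ A)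
    (hres : ∀ a ∈ A, ∃ r ∈ A, (∀ g, τ g r = r) ∧ a - r ∈ A.nonunits)
    (hdiv : ∀ f : F, (∀ g, ρ g f = f) → f ∈ m → ϖ⁻¹ • f ∈ B)
    (V : Submodule L F) (hV : ∀ g, ∀ f ∈ V, ρ g f ∈ V)
    (halg : ∀ c : L, (Set.range fun g : Γ => τ g c).Finite)
    (hopen : ∀ v ∈ V, ∃ s : Finset L, ∀ g, (∀ c ∈ s, τ g c = c) → ρ g v = v)
    {d : ℕ} (u : Fin d → F) (hu : IsOrthoB A B m u)
    (huV : Submodule.span L (Set.range u) = V) :
    ∃ f : Fin d → F, IsOrthoB A B m f ∧ (∀ i, f i ∈ V) ∧ (∀ i g, ρ g (f i) = f i) ∧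
      Submodule.span L (Set.range f) = V := by
  classical
  have huli : LinearIndependent L u := hu.linearIndependent
  have hfin : FiniteDimensional L V := by
    rw [← huV]
    exact FiniteDimensional.span_of_finite L (Set.finite_range u)
  have hdim : Module.finrank L V = d := by
    rw [← huV, finrank_span_eq_card huli, Fintype.card_fin]
  obtain ⟨w0, hw0V, hw0fix, -, hw0li⟩ := exists_fixed_basis τ ρ hc V hV halg hopen hdim
  -- coordinates of the fixed basis
  have hcoord : ∀ i, ∃ c : Fin d → L, ∑ j, c j • u j = w0 i := fun i =>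
    (Submodule.mem_span_range_iff_exists_fun L).mp (huV ▸ hw0V i)
  choose P0 hP0 using hcoord
  have hdet0 : (Matrix.of P0).det ≠ 0 := by
    intro hdet
    obtain ⟨c, hc0, hcP⟩ := Matrix.exists_vecMul_eq_zero_iff.mpr hdet
    apply hc0
    funext i
    refine Fintype.linearIndependent_iff.mp hw0li c ?_ i
    calc ∑ i, c i • w0 i = ∑ i, ∑ j, (c i * P0 i j) • u j := by
          refine Finset.sum_congr rfl fun i _ => ?_
          rw [← hP0 i, Finset.smul_sum]
          exact Finset.sum_congr rfl fun j _ => by rw [smul_smul]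
      _ = ∑ j, ∑ i, (c i * P0 i j) • u j := Finset.sum_comm
      _ = ∑ j, (Matrix.vecMul c (Matrix.of P0) j) • u j := by
          refine Finset.sum_congr rfl fun j _ => ?_
          rw [← Finset.sum_smul]
          rfl
      _ = 0 := by rw [hcP]; simp
  -- scale into the closed ball
  have hN : ∀ p : Fin d × Fin d, ∃ N : ℕ, ϖ ^ N * P0 p.1 p.2 ∈ A := by
    intro p
    by_cases h0 : P0 p.1 p.2 = 0
    · exact ⟨0, by rw [h0, mul_zero]; exact A.zero_mem⟩
    · exact harch _ h0
  choose N hN using hN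
  obtain ⟨M, hM⟩ : ∃ M : ℕ, M = ∑ p, N p := ⟨_, rfl⟩
  have hϖA' : ϖ ∈ A := nonunits_mem A hϖA
  have hMA : ∀ i j, ϖ ^ M * P0 i j ∈ A := by
    intro i j
    have hle : N (i, j) ≤ M := by
      rw [hM]
      exact Finset.single_le_sum (fun _ _ => Nat.zero_le _) (Finset.mem_univ (i, j))
    obtain ⟨k, hk⟩ := Nat.exists_eq_add_of_le hle
    rw [hk, pow_add, mul_comm (ϖ ^ N (i, j)), mul_assoc]
    exact A.mul_mem _ _ (pow_mem hϖA' k) (hN (i, j))
  have hϖMfix : ∀ g, τ g (ϖ ^ M) = ϖ ^ M := fun g => by rw [map_pow, hϖfix]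
  have hw1P : ∀ i, ϖ ^ M • w0 i = ∑ j, (ϖ ^ M • Matrix.of P0) i j • u j := by
    intro i
    rw [← hP0 i, Finset.smul_sum]
    exact Finset.sum_congr rfl fun j _ => by
      rw [smul_smul, Matrix.smul_apply, Matrix.of_apply, smul_eq_mul]
  have hw1B : ∀ i, ϖ ^ M • w0 i ∈ B := by
    intro i
    rw [hw1P i]
    refine hB.sum_smul_mem hu.1 fun j => ?_
    rw [Matrix.smul_apply, Matrix.of_apply, smul_eq_mul]
    exact hMA i j
  have hdet1 : (ϖ ^ M • Matrix.of P0).det ≠ 0 := by
    rw [Matrix.det_smul]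
    exact mul_ne_zero (pow_ne_zero _ (pow_ne_zero _ hϖ0)) hdet0
  -- the induction
  have main : ∀ (n : ℕ) (w : Fin d → F) (P : Matrix (Fin d) (Fin d) L),
      (∀ i, w i ∈ V) → (∀ i, w i ∈ B) → (∀ i g, ρ g (w i) = w i) →
      (∀ i, w i = ∑ j, P i j • u j) → P.det ≠ 0 → ϖ ^ n * (P.det)⁻¹ ∈ A →
      ∃ f : Fin d → F, IsOrthoB A B m f ∧ (∀ i, f i ∈ V) ∧ (∀ i g, ρ g (f i) = f i) := by
    intro n
    induction n with
    | zero =>
      intro w P hwV hwB hwfix hwP hdet hbound
      by_cases hortho : IsOrthoB A B m w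
      · exact ⟨w, hortho, hwV, hwfix⟩
      · exfalso
        obtain ⟨w', P', r, -, hw'B, -, hw'P, hrinv, hr0, hdet'⟩ :=
          exchange_stepB τ ρ hc hB hϖfix hres hdiv V u w P hwV hwB hwfix hwP hortho
        have hP'A : P'.det ∈ A := det_mem_of_entries_mem A.toSubring P' fun i j =>
          hu.coeff_mem hB (P' i) (by rw [← hw'P i]; exact hw'B i) j
        have heq : ϖ⁻¹ = P'.det * r⁻¹ * (ϖ ^ 0 * (P.det)⁻¹) := by
          rw [hdet', pow_zero, one_mul]
          field_simp
        have hϖinv : ϖ⁻¹ ∈ A := by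
          rw [heq]
          exact A.mul_mem _ _ (A.mul_mem _ _ hP'A hrinv) hbound
        exact (mem_nonunits_iff_inv_notMem' A hϖ0).mp hϖA hϖinv
    | succ n ih =>
      intro w P hwV hwB hwfix hwP hdet hbound
      by_cases hortho : IsOrthoB A B m w
      · exact ⟨w, hortho, hwV, hwfix⟩
      · obtain ⟨w', P', r, hw'V, hw'B, hw'fix, hw'P, hrinv, hr0, hdet'⟩ :=
          exchange_stepB τ ρ hc hB hϖfix hres hdiv V u w P hwV hwB hwfix hwP hortho
        refine ih w' P' hw'V hw'B hw'fix hw'P ?_ ?_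
        · rw [hdet']
          exact mul_ne_zero (mul_ne_zero (inv_ne_zero hϖ0) hr0) hdet
        · have heq : ϖ ^ n * (P'.det)⁻¹ = (ϖ ^ (n + 1) * (P.det)⁻¹) * r⁻¹ := by
            rw [hdet', pow_succ]
            field_simp
          rw [heq]
          exact A.mul_mem _ _ hbound hrinv
  obtain ⟨N0, hN0⟩ := harch _ (inv_ne_zero hdet1)
  obtain ⟨f, hf, hfV, hffix⟩ := main N0 (fun i => ϖ ^ M • w0 i) (ϖ ^ M • Matrix.of P0)
    (fun i => V.smul_mem _ (hw0V i)) hw1B
    (fun i g => by rw [map_smul_of_compat τ ρ hc, hϖMfix, hw0fix]) hw1P hdet1 hN0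
  refine ⟨f, hf, hfV, hffix, ?_⟩
  have hfli : LinearIndependent L f := hf.linearIndependent
  apply Submodule.eq_of_le_of_finrank_eq
    (Submodule.span_le.mpr (by rintro _ ⟨i, rfl⟩; exact hfV i))
  rw [finrank_span_eq_card hfli, Fintype.card_fin, hdim]

/-- **Fixed lifts with the same reduction, ball form.**  Under the hypotheses of
`exists_fixed_orthoB`, every element of `V ∩ B` is congruent modulo the open ball `m` to a
`Γ`-fixed element of `V ∩ B`. -/
theorem exists_fixed_same_redB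
    (hc : ∀ (g : Γ) (c : L), ρ g (algebraMap L F c) = algebraMap L F (τ g c))
    (hB : IsBall A B m)
    {ϖ : L} (hϖ0 : ϖ ≠ 0) (hϖA : ϖ ∈ A.nonunits) (hϖfix : ∀ g, τ g ϖ = ϖ)
    (harch : ∀ x : L, x ≠ 0 → ∃ N : ℕ, ϖ ^ N * x ∈ A)
    (hres : ∀ a ∈ A, ∃ r ∈ A, (∀ g, τ g r = r) ∧ a - r ∈ A.nonunits)
    (hdiv : ∀ f : F, (∀ g, ρ g f = f) → f ∈ m → ϖ⁻¹ • f ∈ B)
    (V : Submodule L F) (hV : ∀ g, ∀ f ∈ V, ρ g f ∈ V)
    (halg : ∀ c : L, (Set.range fun g : Γ => τ g c).Finite)
    (hopen : ∀ v ∈ V, ∃ s : Finset L, ∀ g, (∀ c ∈ s, τ g c = c) → ρ g v = v)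
    {d : ℕ} (u : Fin d → F) (hu : IsOrthoB A B m u)
    (huV : Submodule.span L (Set.range u) = V)
    {h : F} (hhV : h ∈ V) (hhB : h ∈ B) :
    ∃ h0 : F, h0 ∈ V ∧ h0 ∈ B ∧ (∀ g, ρ g h0 = h0) ∧ h - h0 ∈ m := by
  obtain ⟨f, hf, hfV, hffix, hfspan⟩ := exists_fixed_orthoB τ ρ hc hB hϖ0 hϖA hϖfix harch hres
    hdiv V hV halg hopen u hu huV
  obtain ⟨a, ha⟩ := (Submodule.mem_span_range_iff_exists_fun L).mp (hfspan ▸ hhV)
  have haA := hf.coeff_mem hB a (ha ▸ hhB)
  choose r hrA hrfix hra using fun i => hres (a i) (haA i)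
  refine ⟨∑ i, r i • f i, V.sum_mem fun i _ => V.smul_mem _ (hfV i),
    hB.sum_smul_mem hf.1 hrA, ?_, ?_⟩
  · intro g
    rw [map_sum]
    exact Finset.sum_congr rfl fun i _ => by rw [map_smul_of_compat τ ρ hc, hrfix, hffix]
  · rw [← ha, ← Finset.sum_sub_distrib]
    have h1 : ∀ i, a i • f i - r i • f i = (a i - r i) • f i := fun i => (sub_smul _ _ _).symm
    simp only [h1]
    exact hB.sum_smul_mem_open hf.1 hra

/-- **Fixed lattice bases, ball form.**  Under the hypotheses of `exists_fixed_orthoB` there is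
an orthonormal family `f` of `Γ`-fixed elements of `V ∩ B` spanning `V` such that: an element of
`V` lies in `B` iff its coordinates lie in `A`; it lies in `m` iff its coordinates lie in the
maximal ideal of `A`; and a `Γ`-fixed element of `V ∩ B` has `Γ`-fixed coordinates in `A` (so
the fixed part of the ball is free over the fixed subring of `A` on the same basis). -/
theorem exists_fixed_lattice_basisB
    (hc : ∀ (g : Γ) (c : L), ρ g (algebraMap L F c) = algebraMap L F (τ g c))
    (hB : IsBall A B m)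
    {ϖ : L} (hϖ0 : ϖ ≠ 0) (hϖA : ϖ ∈ A.nonunits) (hϖfix : ∀ g, τ g ϖ = ϖ)
    (harch : ∀ x : L, x ≠ 0 → ∃ N : ℕ, ϖ ^ N * x ∈ A)
    (hres : ∀ a ∈ A, ∃ r ∈ A, (∀ g, τ g r = r) ∧ a - r ∈ A.nonunits)
    (hdiv : ∀ f : F, (∀ g, ρ g f = f) → f ∈ m → ϖ⁻¹ • f ∈ B)
    (V : Submodule L F) (hV : ∀ g, ∀ f ∈ V, ρ g f ∈ V)
    (halg : ∀ c : L, (Set.range fun g : Γ => τ g c).Finite)
    (hopen : ∀ v ∈ V, ∃ s : Finset L, ∀ g, (∀ c ∈ s, τ g c = c) → ρ g v = v)
    {d : ℕ} (u : Fin d → F) (hu : IsOrthoB A B m u)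
    (huV : Submodule.span L (Set.range u) = V) :
    ∃ f : Fin d → F, IsOrthoB A B m f ∧ (∀ i, f i ∈ V) ∧ (∀ i g, ρ g (f i) = f i) ∧
      Submodule.span L (Set.range f) = V ∧ LinearIndependent L f ∧
      (∀ h ∈ V, h ∈ B → ∃ a : Fin d → L, (∀ i, a i ∈ A) ∧ h = ∑ i, a i • f i) ∧
      (∀ h ∈ V, h ∈ m →
        ∃ a : Fin d → L, (∀ i, a i ∈ A.nonunits) ∧ h = ∑ i, a i • f i) ∧
      (∀ h ∈ V, h ∈ B → (∀ g, ρ g h = h) →
        ∃ a : Fin d → L, (∀ i, a i ∈ A) ∧ (∀ i g, τ g (a i) = a i) ∧ h = ∑ i, a i • f i) := by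
  obtain ⟨f, hf, hfV, hffix, hfspan⟩ := exists_fixed_orthoB τ ρ hc hB hϖ0 hϖA hϖfix harch hres
    hdiv V hV halg hopen u hu huV
  have hfli : LinearIndependent L f := hf.linearIndependent
  refine ⟨f, hf, hfV, hffix, hfspan, hfli, ?_, ?_, ?_⟩
  · intro h hhV hhB
    obtain ⟨a, ha⟩ := (Submodule.mem_span_range_iff_exists_fun L).mp (hfspan ▸ hhV)
    exact ⟨a, hf.coeff_mem hB a (ha ▸ hhB), ha.symm⟩
  · intro h hhV hhm
    obtain ⟨a, ha⟩ := (Submodule.mem_span_range_iff_exists_fun L).mp (hfspan ▸ hhV)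
    exact ⟨a, hf.coeff_mem_open hB a (ha ▸ hhm), ha.symm⟩
  · intro h hhV hhB hhfix
    obtain ⟨a, ha⟩ := (Submodule.mem_span_range_iff_exists_fun L).mp (hfspan ▸ hhV)
    refine ⟨a, hf.coeff_mem hB a (ha ▸ hhB), ?_, ha.symm⟩
    exact coeff_fixed_of_fixed τ ρ hc hfli hffix a (fun g => by rw [ha]; exact hhfix g)

end BallMain

/-! ## Instances of ball pairs -/

section VsBall

variable {L F : Type*} [Field L] [Field F] [Algebra L F] {ι : Type*}

/-- The common unit ball of a family of valuation rings. -/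
def vsBall (O : ι → ValuationSubring F) : AddSubgroup F where
  carrier := {f | ∀ i, f ∈ O i}
  zero_mem' := fun i => (O i).zero_mem
  add_mem' := fun ha hb i => (O i).add_mem _ _ (ha i) (hb i)
  neg_mem' := fun ha i => (O i).neg_mem _ (ha i)

/-- The common open unit ball of a family of valuation rings. -/
def vsOpenBall (O : ι → ValuationSubring F) : AddSubgroup F where
  carrier := {f | ∀ i, f ∈ (O i).nonunits}
  zero_mem' := fun i => nonunits_zero (O i)
  add_mem' := fun ha hb i => nonunits_add (O i) (ha i) (hb i)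
  neg_mem' := fun ha i => nonunits_neg (O i) (ha i)

theorem mem_vsBall {O : ι → ValuationSubring F} {f : F} : f ∈ vsBall O ↔ ∀ i, f ∈ O i :=
  Iff.rfl

theorem mem_vsOpenBall {O : ι → ValuationSubring F} {f : F} :
    f ∈ vsOpenBall O ↔ ∀ i, f ∈ (O i).nonunits :=
  Iff.rfl

/-- The max-norm balls of a family of valuation rings lying over `A` form a ball pair. -/
theorem isBall_vs {A : ValuationSubring L} (O : ι → ValuationSubring F)
    (hAO : ∀ (i : ι) (c : L), algebraMap L F c ∈ O i ↔ c ∈ A) :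
    IsBall A (vsBall O) (vsOpenBall O) where
  le := fun _ hf i => nonunits_mem (O i) (hf i)
  smul_mem := fun _ hc _ hf i => smul_mem_of_mem (hAO i) hc (hf i)
  smul_mem_open := fun _ hc _ hf i => smul_mem_nonunits_of_mem (hAO i) hc (hf i)

/-- For a single valuation ring, orthonormality for the ball pair is `IsOrtho`. -/
theorem isOrthoB_vs_const_iff {A : ValuationSubring L} (O : ValuationSubring F)
    {κ : Type*} [Fintype κ] (u : κ → F) :
    IsOrthoB A (vsBall fun _ : Unit => O) (vsOpenBall fun _ : Unit => O) u ↔ IsOrtho A O u := by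
  constructor
  · rintro ⟨h1, h2⟩
    exact ⟨fun i => h1 i (), fun a ha hs => h2 a ha fun _ => hs⟩
  · rintro ⟨h1, h2⟩
    exact ⟨fun i _ => h1 i, fun a ha hs => h2 a ha (hs ())⟩

end VsBall

section WBall

variable {L F : Type*} [Field L] [Field F] [Algebra L F] {ι : Type*}
variable {Γ₀ : Type*} [LinearOrderedCommGroupWithZero Γ₀]

/-- The weighted closed ball of a family of valuations. -/
def wBall (v : ι → Valuation F Γ₀) (w : ι → Γ₀) : AddSubgroup F where
  carrier := {f | ∀ i, v i f ≤ w i}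
  zero_mem' := fun i => by
    show v i 0 ≤ w i
    rw [map_zero]
    exact zero_le
  add_mem' := fun {a b} ha hb i => (v i).map_add_le (ha i) (hb i)
  neg_mem' := fun {a} ha i => by
    show v i (-a) ≤ w i
    rw [Valuation.map_neg]
    exact ha i

/-- The weighted open ball of a family of valuations (nonzero weights). -/
def wOpenBall (v : ι → Valuation F Γ₀) (w : ι → Γ₀) (hw : ∀ i, w i ≠ 0) : AddSubgroup F where
  carrier := {f | ∀ i, v i f < w i}
  zero_mem' := fun i => by
    show v i 0 < w i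
    rw [map_zero]
    exact zero_lt_iff.mpr (hw i)
  add_mem' := fun {a b} ha hb i => (v i).map_add_lt (ha i) (hb i)
  neg_mem' := fun {a} ha i => by
    show v i (-a) < w i
    rw [Valuation.map_neg]
    exact ha i

theorem mem_wBall {v : ι → Valuation F Γ₀} {w : ι → Γ₀} {f : F} :
    f ∈ wBall v w ↔ ∀ i, v i f ≤ w i :=
  Iff.rfl

theorem mem_wOpenBall {v : ι → Valuation F Γ₀} {w : ι → Γ₀} {hw : ∀ i, w i ≠ 0} {f : F} :
    f ∈ wOpenBall v w hw ↔ ∀ i, v i f < w i :=
  Iff.rfl

/-- A valuation of `L` with unit ball `A` has open unit ball the maximal ideal of `A`. -/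
theorem lt_one_iff_mem_nonunits {A : ValuationSubring L} (vL : Valuation L Γ₀)
    (hA : ∀ c : L, vL c ≤ 1 ↔ c ∈ A) (c : L) : vL c < 1 ↔ c ∈ A.nonunits := by
  rcases eq_or_ne c 0 with rfl | hc
  · rw [map_zero]
    exact ⟨fun _ => nonunits_zero A, fun _ => zero_lt_one⟩
  · have h0 : 0 < vL c := zero_lt_iff.mpr ((Valuation.ne_zero_iff _).mpr hc)
    rw [mem_nonunits_iff_inv_notMem' A hc, ← hA, map_inv₀, not_le, one_lt_inv₀ h0]

/-- The weighted balls of a family of valuations restricting to `vL` on the constants form a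
ball pair over the valuation ring `A` of `vL`. -/
theorem isBall_w {A : ValuationSubring L} (v : ι → Valuation F Γ₀) (w : ι → Γ₀)
    (hw : ∀ i, w i ≠ 0) (vL : Valuation L Γ₀)
    (hL : ∀ (i : ι) (c : L), v i (algebraMap L F c) = vL c)
    (hA : ∀ c : L, vL c ≤ 1 ↔ c ∈ A) :
    IsBall A (wBall v w) (wOpenBall v w hw) where
  le := fun _ hf i => le_of_lt (hf i)
  smul_mem := fun c hc f hf i => by
    show v i (c • f) ≤ w i
    rw [Algebra.smul_def, map_mul, hL]
    exact (mul_le_of_le_one_left' ((hA c).mpr hc)).trans (hf i)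
  smul_mem_open := fun c hc f hf i => by
    show v i (c • f) < w i
    rw [Algebra.smul_def, map_mul, hL]
    have h1 : vL c < 1 := (lt_one_iff_mem_nonunits vL hA c).mpr hc
    have hwi : 0 < w i := zero_lt_iff.mpr (hw i)
    calc vL c * v i f ≤ vL c * w i := mul_le_mul_right (hf i) _
      _ < 1 * w i := mul_lt_mul_of_pos_right h1 hwi
      _ = w i := one_mul _

end WBall

end Fermat.Agent.S19.helper3214
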