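import Mathlib
import Fermat.Agent.S19.helper3214_RationalBall
import Fermat.Agent.S35.helper2459_KummerMultiSF

/-!
# CALG-RAT, ball form, in the `CartesianW` vocabulary of the S35 module (helper3214)

`Fermat.Agent.S35.helper2459.CartesianW v w vL V` says that the `L`-subspace `V ≤ F` has a
finite basis which is orthonormal for the weighted max-norm of the valuations `v i`
(`i : ι`, `ι` finite).  This file translates between that notion and `IsOrthoB` for the weighted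
ball pair `(wBall v w, wOpenBall v w hw)` of `helper3214_RationalBall`, and restates the fixed
basis theorem in the `CartesianW` vocabulary:

* `isOrthoB_of_cartesian`, `cartesian_of_isOrthoB`, `cartesianW_iff_exists_isOrthoB`;
* `exists_fixed_cartesianW` : a `Γ`-stable cartesian subspace has a cartesian basis made of
  `Γ`-fixed vectors, and `Γ`-fixed vectors have `Γ`-fixed coordinates in it;
* `exists_fixed_same_redW` : every element of the weighted closed ball of `V` is congruent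
  modulo the weighted open ball to a `Γ`-fixed element of the closed ball of `V`.
-/

set_option autoImplicit false

namespace Fermat.Agent.S19.helper3214

open scoped BigOperators
open Fermat.Agent.S35

section CartW

variable {L F : Type*} [Field L] [Field F] [Algebra L F] {ι : Type*}
variable {Γ₀ : Type*} [LinearOrderedCommGroupWithZero Γ₀]
variable {A : ValuationSubring L}

/-- The orthonormality clause of `CartesianW` gives `IsOrthoB` for the weighted ball pair. -/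
theorem isOrthoB_of_cartesian [Finite ι] (v : ι → Valuation F Γ₀) (w : ι → Γ₀)
    (hw : ∀ i, w i ≠ 0) (vL : Valuation L Γ₀) (hA : ∀ c : L, vL c ≤ 1 ↔ c ∈ A)
    {n : ℕ} (e : Fin n → F) (he : ∀ j i, v i (e j) ≤ w i)
    (hcart : ∀ (c : Fin n → L) (r : Γ₀), (∀ i, v i (∑ j, c j • e j) ≤ r * w i) →
      ∀ j, vL (c j) ≤ r) :
    IsOrthoB A (wBall v w) (wOpenBall v w hw) e := by
  refine ⟨fun j i => he j i, fun a _ hs j => ?_⟩
  obtain ⟨r, hr1, hr⟩ := helper2459.exists_lt_one_radius (fun i => v i (∑ j, a j • e j)) w hs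
  exact (lt_one_iff_mem_nonunits vL hA _).mp (lt_of_le_of_lt (hcart a r hr j) hr1)

/-- `IsOrthoB` for the weighted ball pair gives the orthonormality clause of `CartesianW`. -/
theorem cartesian_of_isOrthoB (v : ι → Valuation F Γ₀) (w : ι → Γ₀)
    (hw : ∀ i, w i ≠ 0) (vL : Valuation L Γ₀)
    (hL : ∀ (i : ι) (c : L), v i (algebraMap L F c) = vL c)
    (hA : ∀ c : L, vL c ≤ 1 ↔ c ∈ A)
    {n : ℕ} (e : Fin n → F) (he : IsOrthoB A (wBall v w) (wOpenBall v w hw) e)
    (c : Fin n → L) (r : Γ₀) (h : ∀ i, v i (∑ j, c j • e j) ≤ r * w i) :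
    ∀ j, vL (c j) ≤ r := by
  classical
  intro j
  by_contra hj
  rw [not_le] at hj
  obtain ⟨j0, -, hmax⟩ := Finset.exists_max_image Finset.univ (fun j => vL (c j))
    ⟨j, Finset.mem_univ j⟩
  have hr0 : r < vL (c j0) := lt_of_lt_of_le hj (hmax j (Finset.mem_univ j))
  have hpos : 0 < vL (c j0) := lt_of_le_of_lt zero_le hr0
  have hc0 : c j0 ≠ 0 := (Valuation.ne_zero_iff _).mp (ne_of_gt hpos)
  have haA : ∀ j, (c j0)⁻¹ * c j ∈ A := by
    intro j
    rw [← hA, map_mul, map_inv₀]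
    exact (inv_mul_le_one₀ hpos).mpr (hmax j (Finset.mem_univ j))
  have hsum : ∑ j, ((c j0)⁻¹ * c j) • e j ∈ wOpenBall v w hw := by
    have hEq : ∑ j, ((c j0)⁻¹ * c j) • e j = (c j0)⁻¹ • ∑ j, c j • e j := by
      rw [Finset.smul_sum]
      exact Finset.sum_congr rfl fun j _ => by rw [smul_smul]
    rw [hEq]
    intro i
    show v i ((c j0)⁻¹ • ∑ j, c j • e j) < w i
    rw [Algebra.smul_def, map_mul, hL, map_inv₀]
    have hwi : 0 < w i := zero_lt_iff.mpr (hw i)
    calc (vL (c j0))⁻¹ * v i (∑ j, c j • e j) ≤ (vL (c j0))⁻¹ * (r * w i) :=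
          mul_le_mul_right (h i) _
      _ = ((vL (c j0))⁻¹ * r) * w i := by rw [mul_assoc]
      _ < 1 * w i := mul_lt_mul_of_pos_right ((inv_mul_lt_one₀ hpos).mpr hr0) hwi
      _ = w i := one_mul _
  have h1 := he.2 _ haA hsum j0
  rw [inv_mul_cancel₀ hc0] at h1
  exact one_notMem_nonunits A h1

/-- `CartesianW` is the existence of an orthonormal basis for the weighted ball pair. -/
theorem cartesianW_iff_exists_isOrthoB [Finite ι] (v : ι → Valuation F Γ₀) (w : ι → Γ₀)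
    (hw : ∀ i, w i ≠ 0) (vL : Valuation L Γ₀)
    (hL : ∀ (i : ι) (c : L), v i (algebraMap L F c) = vL c)
    (hA : ∀ c : L, vL c ≤ 1 ↔ c ∈ A) (V : Submodule L F) :
    helper2459.CartesianW v w vL V ↔
      ∃ (n : ℕ) (e : Fin n → F), IsOrthoB A (wBall v w) (wOpenBall v w hw) e ∧
        Submodule.span L (Set.range e) = V := by
  constructor
  · rintro ⟨n, e, -, he, hcart, hspan⟩
    exact ⟨n, e, isOrthoB_of_cartesian v w hw vL hA e he hcart, hspan⟩
  · rintro ⟨n, e, he, hspan⟩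
    refine ⟨n, e, fun j => ?_, fun j i => he.1 j i,
      cartesian_of_isOrthoB v w hw vL hL hA e he, hspan⟩
    rw [← hspan]
    exact Submodule.subset_span ⟨j, rfl⟩

end CartW

section FixedW

variable {Γ L F : Type*} [Group Γ] [Field L] [Field F] [Algebra L F] {ι : Type*}
variable {Γ₀ : Type*} [LinearOrderedCommGroupWithZero Γ₀]
variable (τ : Γ →* RingAut L) (ρ : Γ →* RingAut F)
variable {A : ValuationSubring L}

/-- The divisibility hypothesis in valuation form gives the one in ball form. -/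
theorem hdivB_of_val (v : ι → Valuation F Γ₀) (w : ι → Γ₀) (hw : ∀ i, w i ≠ 0)
    (vL : Valuation L Γ₀) (hL : ∀ (i : ι) (c : L), v i (algebraMap L F c) = vL c)
    {ϖ : L} (hϖ0 : ϖ ≠ 0)
    (hdiv : ∀ f : F, (∀ g, ρ g f = f) → (∀ i, v i f < w i) → ∀ i, v i f ≤ vL ϖ * w i) :
    ∀ f : F, (∀ g, ρ g f = f) → f ∈ wOpenBall v w hw → ϖ⁻¹ • f ∈ wBall v w := by
  intro f hfix hf i
  show v i (ϖ⁻¹ • f) ≤ w i
  rw [Algebra.smul_def, map_mul, hL, map_inv₀]
  have hpos : 0 < vL ϖ := zero_lt_iff.mpr ((Valuation.ne_zero_iff _).mpr hϖ0)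
  exact (inv_mul_le_iff₀ hpos).mpr (hdiv f hfix hf i)

/-- **Fixed cartesian bases.**  `Γ` acts on `L` (through `τ`) and semilinearly on `F` (through
`ρ`); `v i` are valuations of `F` restricting to `vL` on `L`, with weights `w i ≠ 0`; `A` is the
valuation ring of `vL`.  Let `V` be a `Γ`-stable `L`-subspace which is cartesian for the
weighted max-norm.  Assume Speiser's hypotheses, a `Γ`-fixed `ϖ` with `0 < vL ϖ < 1` such that
`A` is archimedean with respect to `ϖ`, `Γ`-fixed representatives of the residue classes of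
`A`, and discreteness on fixed vectors: a `Γ`-fixed `f` with `v i f < w i` for all `i` has
`v i f ≤ vL ϖ * w i` for all `i`.  Then `V` has a cartesian basis of `Γ`-fixed vectors, and
every `Γ`-fixed vector of `V` has `Γ`-fixed coordinates in it. -/
theorem exists_fixed_cartesianW [Finite ι]
    (hc : ∀ (g : Γ) (c : L), ρ g (algebraMap L F c) = algebraMap L F (τ g c))
    (v : ι → Valuation F Γ₀) (w : ι → Γ₀) (hw : ∀ i, w i ≠ 0) (vL : Valuation L Γ₀)
    (hL : ∀ (i : ι) (c : L), v i (algebraMap L F c) = vL c)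
    (hA : ∀ c : L, vL c ≤ 1 ↔ c ∈ A)
    {ϖ : L} (hϖ0 : ϖ ≠ 0) (hϖA : ϖ ∈ A.nonunits) (hϖfix : ∀ g, τ g ϖ = ϖ)
    (harch : ∀ x : L, x ≠ 0 → ∃ N : ℕ, ϖ ^ N * x ∈ A)
    (hres : ∀ a ∈ A, ∃ r ∈ A, (∀ g, τ g r = r) ∧ a - r ∈ A.nonunits)
    (hdiv : ∀ f : F, (∀ g, ρ g f = f) → (∀ i, v i f < w i) → ∀ i, v i f ≤ vL ϖ * w i)
    (V : Submodule L F) (hV : ∀ g, ∀ f ∈ V, ρ g f ∈ V)
    (halg : ∀ c : L, (Set.range fun g : Γ => τ g c).Finite)
    (hopen : ∀ x ∈ V, ∃ s : Finset L, ∀ g, (∀ c ∈ s, τ g c = c) → ρ g x = x)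
    (hcart : helper2459.CartesianW v w vL V) :
    ∃ (n : ℕ) (e : Fin n → F), (∀ j, e j ∈ V) ∧ (∀ j g, ρ g (e j) = e j) ∧
      (∀ j i, v i (e j) ≤ w i) ∧
      (∀ (c : Fin n → L) (r : Γ₀), (∀ i, v i (∑ j, c j • e j) ≤ r * w i) → ∀ j, vL (c j) ≤ r) ∧
      Submodule.span L (Set.range e) = V ∧ LinearIndependent L e ∧
      (∀ h ∈ V, (∀ g, ρ g h = h) →
        ∃ a : Fin n → L, (∀ j g, τ g (a j) = a j) ∧ h = ∑ j, a j • e j) := by
  obtain ⟨n, u, hu, huV⟩ := (cartesianW_iff_exists_isOrthoB v w hw vL hL hA V).mp hcart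
  have hB := isBall_w (A := A) v w hw vL hL hA
  obtain ⟨e, he, heV, hefix, hespan⟩ := exists_fixed_orthoB τ ρ hc hB hϖ0 hϖA hϖfix harch hres
    (hdivB_of_val ρ v w hw vL hL hϖ0 hdiv) V hV halg hopen u hu huV
  have heli : LinearIndependent L e := he.linearIndependent
  refine ⟨n, e, heV, hefix, fun j i => he.1 j i, cartesian_of_isOrthoB v w hw vL hL hA e he,
    hespan, heli, fun h hhV hhfix => ?_⟩
  obtain ⟨a, ha⟩ := (Submodule.mem_span_range_iff_exists_fun L).mp (hespan ▸ hhV)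
  exact ⟨a, coeff_fixed_of_fixed τ ρ hc heli hefix a (fun g => by rw [ha]; exact hhfix g),
    ha.symm⟩

/-- **Fixed lifts with the same reduction, weighted family form.**  Under the hypotheses of
`exists_fixed_cartesianW`, every `h ∈ V` with `v i h ≤ w i` for all `i` is congruent, modulo
the weighted open ball, to a `Γ`-fixed `h0 ∈ V` with `v i h0 ≤ w i` for all `i`. -/
theorem exists_fixed_same_redW [Finite ι]
    (hc : ∀ (g : Γ) (c : L), ρ g (algebraMap L F c) = algebraMap L F (τ g c))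
    (v : ι → Valuation F Γ₀) (w : ι → Γ₀) (hw : ∀ i, w i ≠ 0) (vL : Valuation L Γ₀)
    (hL : ∀ (i : ι) (c : L), v i (algebraMap L F c) = vL c)
    (hA : ∀ c : L, vL c ≤ 1 ↔ c ∈ A)
    {ϖ : L} (hϖ0 : ϖ ≠ 0) (hϖA : ϖ ∈ A.nonunits) (hϖfix : ∀ g, τ g ϖ = ϖ)
    (harch : ∀ x : L, x ≠ 0 → ∃ N : ℕ, ϖ ^ N * x ∈ A)
    (hres : ∀ a ∈ A, ∃ r ∈ A, (∀ g, τ g r = r) ∧ a - r ∈ A.nonunits)
    (hdiv : ∀ f : F, (∀ g, ρ g f = f) → (∀ i, v i f < w i) → ∀ i, v i f ≤ vL ϖ * w i)
    (V : Submodule L F) (hV : ∀ g, ∀ f ∈ V, ρ g f ∈ V)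
    (halg : ∀ c : L, (Set.range fun g : Γ => τ g c).Finite)
    (hopen : ∀ x ∈ V, ∃ s : Finset L, ∀ g, (∀ c ∈ s, τ g c = c) → ρ g x = x)
    (hcart : helper2459.CartesianW v w vL V)
    {h : F} (hhV : h ∈ V) (hh : ∀ i, v i h ≤ w i) :
    ∃ h0 : F, h0 ∈ V ∧ (∀ i, v i h0 ≤ w i) ∧ (∀ g, ρ g h0 = h0) ∧ ∀ i, v i (h - h0) < w i := by
  obtain ⟨n, u, hu, huV⟩ := (cartesianW_iff_exists_isOrthoB v w hw vL hL hA V).mp hcart
  have hB := isBall_w (A := A) v w hw vL hL hA
  exact exists_fixed_same_redB τ ρ hc hB hϖ0 hϖA hϖfix harch hres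
    (hdivB_of_val ρ v w hw vL hL hϖ0 hdiv) V hV halg hopen u hu huV hhV hh

end FixedW

end Fermat.Agent.S19.helper3214
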