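import Mathlib
import Fermat.Agent.S19.helper3214_RationalGauss
import Fermat.Agent.S19.helper3214_RationalBallW
import Fermat.Agent.S35.helper882_GaussPairCart

/-!
# CALG-RAT, ball form: the Galois side for an arbitrary subgroup (helper3214)

`F = modularFunctionFieldBar N` (any level), `H` ANY subgroup of `Gal(ℚ̄/ℚ)` acting through the
Prelude `arithmeticGalois`.  The Speiser hypotheses (`hc`, `halg`, `hopen`) of
`exists_fixed_cartesianW` hold for every `H`; what remains is the arithmetic of the base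
(`ϖ`, `harch`, `hres`) and the discreteness of the valuations on the `H`-fixed functions
(`hdiv`).  Everything is stated in the frozen vocabulary (no `τ`, `ρ`).

* `gal_exists_fixed_cartesianW`, `gal_exists_fixed_same_redW` : any finite family of valuations
  with weights (`helper2459.CartesianW` vocabulary);
* `gp_exists_fixed_cartesian`, `gp_exists_fixed_same_red` : the pair of Gauss valuations
  `helper882.gpVal A (ℓ * M) (wAL ℓ M hℓM)` with weights `1` (the cartesian hypothesis is the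
  landed `helper882.gp_cartesianW`).
-/

set_option autoImplicit false
set_option synthInstance.maxHeartbeats 400000

namespace Fermat.Agent.S19.helper3214

open AlgebraicCurve ModularCurve
open Fermat.Agent.S35

local notation "Qb" => AlgebraicClosure ℚ
local notation "GQ" => (AlgebraicClosure ℚ ≃ₐ[ℚ] AlgebraicClosure ℚ)

section Gal

variable (N : ℕ) (H : Subgroup GQ)

/-- A subgroup of the absolute Galois group acting on the constants. -/
noncomputable def subBase : ↥H →* RingAut Qb :=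
  (MonoidHom.snd (RingAut ↥(modularFunctionFieldBar N)) (RingAut Qb)).comp
    ((SemilinearAut Qb ↥(modularFunctionFieldBar N)).subtype.comp
      ((arithmeticGalois (modularFunctionFieldFull N)).comp H.subtype))

/-- A subgroup of the absolute Galois group acting on the modular function field. -/
noncomputable def subFun : ↥H →* RingAut ↥(modularFunctionFieldBar N) :=
  (MonoidHom.fst (RingAut ↥(modularFunctionFieldBar N)) (RingAut Qb)).comp
    ((SemilinearAut Qb ↥(modularFunctionFieldBar N)).subtype.comp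
      ((arithmeticGalois (modularFunctionFieldFull N)).comp H.subtype))

theorem subBase_apply (σ : ↥H) (c : Qb) : subBase N H σ c = (σ : GQ) c := rfl

theorem subFun_apply (σ : ↥H) (f : ↥(modularFunctionFieldBar N)) :
    subFun N H σ f = arithmeticGalois (modularFunctionFieldFull N) (σ : GQ) • f := rfl

theorem subFun_compat (σ : ↥H) (c : Qb) :
    subFun N H σ (algebraMap Qb ↥(modularFunctionFieldBar N) c) =
      algebraMap Qb ↥(modularFunctionFieldBar N) (subBase N H σ c) :=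
  SemilinearAut.commutes (arithmeticGalois (modularFunctionFieldFull N) (σ : GQ)) c

theorem subBase_finite_range (c : Qb) : (Set.range fun σ : ↥H => subBase N H σ c).Finite :=
  (finite_range_galois c).subset (by rintro _ ⟨σ, rfl⟩; exact ⟨σ.1, rfl⟩)

theorem subFun_open (x : ↥(modularFunctionFieldBar N)) :
    ∃ s : Finset Qb, ∀ σ : ↥H, (∀ c ∈ s, subBase N H σ c = c) → subFun N H σ x = x := by
  obtain ⟨s, hs⟩ := exists_finset_of_hasFiniteLevel
    (Fermat.Agent.S29.helper8527.hasFiniteLevel_smul_elt (modularFunctionFieldFull N) x)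
  exact ⟨s, fun σ hσ => hs σ.1 hσ⟩

variable {ι : Type*} [Finite ι] {Γ₀ : Type*} [LinearOrderedCommGroupWithZero Γ₀]

/-- **Fixed cartesian bases, Galois form.**  `H` any subgroup of `Gal(ℚ̄/ℚ)`, `v i` a finite
family of valuations of the modular function field restricting to `vL` on `ℚ̄`, weights
`w i ≠ 0`, `A` the valuation ring of `vL`.  Given an `H`-fixed `ϖ ≠ 0` in the maximal ideal of
`A` with `A` archimedean with respect to `ϖ`, `H`-fixed representatives of the residue classes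
of `A`, and discreteness on `H`-fixed functions, every `H`-stable cartesian subspace `V` has a
cartesian basis of `H`-fixed functions, in which `H`-fixed functions have `H`-fixed
coordinates. -/
theorem gal_exists_fixed_cartesianW (A : ValuationSubring Qb)
    (v : ι → Valuation ↥(modularFunctionFieldBar N) Γ₀) (w : ι → Γ₀) (hw : ∀ i, w i ≠ 0)
    (vL : Valuation Qb Γ₀)
    (hL : ∀ (i : ι) (c : Qb), v i (algebraMap Qb ↥(modularFunctionFieldBar N) c) = vL c)
    (hA : ∀ c : Qb, vL c ≤ 1 ↔ c ∈ A)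
    {ϖ : Qb} (hϖ0 : ϖ ≠ 0) (hϖA : ϖ ∈ A.nonunits) (hϖfix : ∀ σ ∈ H, σ ϖ = ϖ)
    (harch : ∀ x : Qb, x ≠ 0 → ∃ n : ℕ, ϖ ^ n * x ∈ A)
    (hres : ∀ a ∈ A, ∃ r ∈ A, (∀ σ ∈ H, σ r = r) ∧ a - r ∈ A.nonunits)
    (hdiv : ∀ f : ↥(modularFunctionFieldBar N),
      (∀ σ ∈ H, arithmeticGalois (modularFunctionFieldFull N) σ • f = f) →
      (∀ i, v i f < w i) → ∀ i, v i f ≤ vL ϖ * w i)
    (V : Submodule Qb ↥(modularFunctionFieldBar N))
    (hV : ∀ σ ∈ H, ∀ f ∈ V, arithmeticGalois (modularFunctionFieldFull N) σ • f ∈ V)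
    (hcart : helper2459.CartesianW v w vL V) :
    ∃ (n : ℕ) (e : Fin n → ↥(modularFunctionFieldBar N)), (∀ j, e j ∈ V) ∧
      (∀ j, ∀ σ ∈ H, arithmeticGalois (modularFunctionFieldFull N) σ • e j = e j) ∧
      (∀ j i, v i (e j) ≤ w i) ∧
      (∀ (c : Fin n → Qb) (r : Γ₀), (∀ i, v i (∑ j, c j • e j) ≤ r * w i) →
        ∀ j, vL (c j) ≤ r) ∧
      Submodule.span Qb (Set.range e) = V ∧ LinearIndependent Qb e ∧
      (∀ h ∈ V, (∀ σ ∈ H, arithmeticGalois (modularFunctionFieldFull N) σ • h = h) →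
        ∃ a : Fin n → Qb, (∀ j, ∀ σ ∈ H, σ (a j) = a j) ∧ h = ∑ j, a j • e j) := by
  obtain ⟨n, e, heV, hefix, heB, hcartE, hspan, hli, hcoord⟩ :=
    exists_fixed_cartesianW (subBase N H) (subFun N H) (subFun_compat N H) v w hw vL hL hA
      hϖ0 hϖA (fun σ => hϖfix σ.1 σ.2) harch
      (fun a ha => by
        obtain ⟨r, hr, hrfix, hn⟩ := hres a ha
        exact ⟨r, hr, fun σ => hrfix σ.1 σ.2, hn⟩)
      (fun f hf hlt => hdiv f (fun σ hσ => hf ⟨σ, hσ⟩) hlt)
      V (fun σ f hf => hV σ.1 σ.2 f hf) (subBase_finite_range N H)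
      (fun x _ => subFun_open N H x) hcart
  refine ⟨n, e, heV, fun j σ hσ => hefix j ⟨σ, hσ⟩, heB, hcartE, hspan, hli, fun h hhV hhfix => ?_⟩
  obtain ⟨a, hafix, ha⟩ := hcoord h hhV (fun σ => hhfix σ.1 σ.2)
  exact ⟨a, fun j σ hσ => hafix j ⟨σ, hσ⟩, ha⟩

/-- **Fixed lifts with the same reduction, Galois form.**  Under the hypotheses of
`gal_exists_fixed_cartesianW`, every `h ∈ V` in the weighted closed ball is congruent modulo the
weighted open ball to an `H`-fixed element of `V` in the closed ball. -/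
theorem gal_exists_fixed_same_redW (A : ValuationSubring Qb)
    (v : ι → Valuation ↥(modularFunctionFieldBar N) Γ₀) (w : ι → Γ₀) (hw : ∀ i, w i ≠ 0)
    (vL : Valuation Qb Γ₀)
    (hL : ∀ (i : ι) (c : Qb), v i (algebraMap Qb ↥(modularFunctionFieldBar N) c) = vL c)
    (hA : ∀ c : Qb, vL c ≤ 1 ↔ c ∈ A)
    {ϖ : Qb} (hϖ0 : ϖ ≠ 0) (hϖA : ϖ ∈ A.nonunits) (hϖfix : ∀ σ ∈ H, σ ϖ = ϖ)
    (harch : ∀ x : Qb, x ≠ 0 → ∃ n : ℕ, ϖ ^ n * x ∈ A)
    (hres : ∀ a ∈ A, ∃ r ∈ A, (∀ σ ∈ H, σ r = r) ∧ a - r ∈ A.nonunits)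
    (hdiv : ∀ f : ↥(modularFunctionFieldBar N),
      (∀ σ ∈ H, arithmeticGalois (modularFunctionFieldFull N) σ • f = f) →
      (∀ i, v i f < w i) → ∀ i, v i f ≤ vL ϖ * w i)
    (V : Submodule Qb ↥(modularFunctionFieldBar N))
    (hV : ∀ σ ∈ H, ∀ f ∈ V, arithmeticGalois (modularFunctionFieldFull N) σ • f ∈ V)
    (hcart : helper2459.CartesianW v w vL V)
    {h : ↥(modularFunctionFieldBar N)} (hhV : h ∈ V) (hh : ∀ i, v i h ≤ w i) :
    ∃ h0 : ↥(modularFunctionFieldBar N), h0 ∈ V ∧ (∀ i, v i h0 ≤ w i) ∧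
      (∀ σ ∈ H, arithmeticGalois (modularFunctionFieldFull N) σ • h0 = h0) ∧
      ∀ i, v i (h - h0) < w i := by
  obtain ⟨h0, h0V, h0B, h0fix, hdiff⟩ :=
    exists_fixed_same_redW (subBase N H) (subFun N H) (subFun_compat N H) v w hw vL hL hA
      hϖ0 hϖA (fun σ => hϖfix σ.1 σ.2) harch
      (fun a ha => by
        obtain ⟨r, hr, hrfix, hn⟩ := hres a ha
        exact ⟨r, hr, fun σ => hrfix σ.1 σ.2, hn⟩)
      (fun f hf hlt => hdiv f (fun σ hσ => hf ⟨σ, hσ⟩) hlt)
      V (fun σ f hf => hV σ.1 σ.2 f hf) (subBase_finite_range N H)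
      (fun x _ => subFun_open N H x) hcart hhV hh
  exact ⟨h0, h0V, h0B, fun σ hσ => h0fix ⟨σ, hσ⟩, hdiff⟩

end Gal

section GaussPair

variable (ℓ M : ℕ) [Fact ℓ.Prime] [NeZero M] (hℓM : ¬ ℓ ∣ M)
  (A : ValuationSubring Qb) (hA : A.LiesOverPrime ℓ) (H : Subgroup GQ)

include hA in
/-- **Fixed cartesian bases at the Gauss pair** of level `ℓ * M` (weights `1`): for any subgroup
`H` of `Gal(ℚ̄/ℚ)` with an `H`-fixed uniformiser-like `ϖ` and discreteness of both Gauss
valuations on `H`-fixed functions, every finite-dimensional `H`-stable subspace has a basis of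
`H`-fixed functions which is orthonormal for the max-norm of the two Gauss valuations. -/
theorem gp_exists_fixed_cartesian
    {ϖ : Qb} (hϖ0 : ϖ ≠ 0) (hϖA : ϖ ∈ A.nonunits) (hϖfix : ∀ σ ∈ H, σ ϖ = ϖ)
    (harch : ∀ x : Qb, x ≠ 0 → ∃ n : ℕ, ϖ ^ n * x ∈ A)
    (hres : ∀ a ∈ A, ∃ r ∈ A, (∀ σ ∈ H, σ r = r) ∧ a - r ∈ A.nonunits)
    (hdiv : ∀ f : ↥(modularFunctionFieldBar (ℓ * M)),
      (∀ σ ∈ H, arithmeticGalois (modularFunctionFieldFull (ℓ * M)) σ • f = f) →
      (∀ i, helper882.gpVal A (ℓ * M) (helper1928.wAL ℓ M hℓM) i f < 1) →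
      ∀ i, helper882.gpVal A (ℓ * M) (helper1928.wAL ℓ M hℓM) i f ≤
        helper882.gpBase A (ℓ * M) ϖ)
    (V : Submodule Qb ↥(modularFunctionFieldBar (ℓ * M))) [FiniteDimensional Qb V]
    (hV : ∀ σ ∈ H, ∀ f ∈ V, arithmeticGalois (modularFunctionFieldFull (ℓ * M)) σ • f ∈ V) :
    ∃ (n : ℕ) (e : Fin n → ↥(modularFunctionFieldBar (ℓ * M))), (∀ j, e j ∈ V) ∧
      (∀ j, ∀ σ ∈ H, arithmeticGalois (modularFunctionFieldFull (ℓ * M)) σ • e j = e j) ∧
      (∀ j i, helper882.gpVal A (ℓ * M) (helper1928.wAL ℓ M hℓM) i (e j) ≤ 1) ∧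
      (∀ (c : Fin n → Qb) (r : (helper882.gpRing A (ℓ * M)).ValueGroup),
        (∀ i, helper882.gpVal A (ℓ * M) (helper1928.wAL ℓ M hℓM) i (∑ j, c j • e j) ≤ r) →
        ∀ j, helper882.gpBase A (ℓ * M) (c j) ≤ r) ∧
      Submodule.span Qb (Set.range e) = V ∧ LinearIndependent Qb e ∧
      (∀ h ∈ V, (∀ σ ∈ H, arithmeticGalois (modularFunctionFieldFull (ℓ * M)) σ • h = h) →
        ∃ a : Fin n → Qb, (∀ j, ∀ σ ∈ H, σ (a j) = a j) ∧ h = ∑ j, a j • e j) := by
  obtain ⟨n, e, heV, hefix, heB, hcartE, hspan, hli, hcoord⟩ :=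
    gal_exists_fixed_cartesianW (ℓ * M) H A
      (helper882.gpVal A (ℓ * M) (helper1928.wAL ℓ M hℓM)) (fun _ => 1)
      (fun _ => one_ne_zero) (helper882.gpBase A (ℓ * M))
      (helper882.gpVal_algebraMap A (ℓ * M) (helper1928.wAL ℓ M hℓM))
      (helper882.gpBase_le_one_iff A (ℓ * M)) hϖ0 hϖA hϖfix harch hres
      (fun f hf hlt i => by rw [mul_one]; exact hdiv f hf hlt i)
      V hV (helper882.gp_cartesianW ℓ M hℓM A hA V)
  exact ⟨n, e, heV, hefix, heB,
    fun c r h => hcartE c r (fun i => by rw [mul_one]; exact h i), hspan, hli, hcoord⟩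

include hA in
/-- **Fixed lifts with the same reduction at the Gauss pair** of level `ℓ * M`: every element
of `V` integral at both Gauss valuations is congruent, modulo the common open unit ball, to an
`H`-fixed element of `V` integral at both Gauss valuations. -/
theorem gp_exists_fixed_same_red
    {ϖ : Qb} (hϖ0 : ϖ ≠ 0) (hϖA : ϖ ∈ A.nonunits) (hϖfix : ∀ σ ∈ H, σ ϖ = ϖ)
    (harch : ∀ x : Qb, x ≠ 0 → ∃ n : ℕ, ϖ ^ n * x ∈ A)
    (hres : ∀ a ∈ A, ∃ r ∈ A, (∀ σ ∈ H, σ r = r) ∧ a - r ∈ A.nonunits)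
    (hdiv : ∀ f : ↥(modularFunctionFieldBar (ℓ * M)),
      (∀ σ ∈ H, arithmeticGalois (modularFunctionFieldFull (ℓ * M)) σ • f = f) →
      (∀ i, helper882.gpVal A (ℓ * M) (helper1928.wAL ℓ M hℓM) i f < 1) →
      ∀ i, helper882.gpVal A (ℓ * M) (helper1928.wAL ℓ M hℓM) i f ≤
        helper882.gpBase A (ℓ * M) ϖ)
    (V : Submodule Qb ↥(modularFunctionFieldBar (ℓ * M))) [FiniteDimensional Qb V]
    (hV : ∀ σ ∈ H, ∀ f ∈ V, arithmeticGalois (modularFunctionFieldFull (ℓ * M)) σ • f ∈ V)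
    {h : ↥(modularFunctionFieldBar (ℓ * M))} (hhV : h ∈ V)
    (hh : ∀ i, helper882.gpVal A (ℓ * M) (helper1928.wAL ℓ M hℓM) i h ≤ 1) :
    ∃ h0 : ↥(modularFunctionFieldBar (ℓ * M)), h0 ∈ V ∧
      (∀ i, helper882.gpVal A (ℓ * M) (helper1928.wAL ℓ M hℓM) i h0 ≤ 1) ∧
      (∀ σ ∈ H, arithmeticGalois (modularFunctionFieldFull (ℓ * M)) σ • h0 = h0) ∧
      ∀ i, helper882.gpVal A (ℓ * M) (helper1928.wAL ℓ M hℓM) i (h - h0) < 1 :=
  gal_exists_fixed_same_redW (ℓ * M) H A
    (helper882.gpVal A (ℓ * M) (helper1928.wAL ℓ M hℓM)) (fun _ => 1)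
    (fun _ => one_ne_zero) (helper882.gpBase A (ℓ * M))
    (helper882.gpVal_algebraMap A (ℓ * M) (helper1928.wAL ℓ M hℓM))
    (helper882.gpBase_le_one_iff A (ℓ * M)) hϖ0 hϖA hϖfix harch hres
    (fun f hf hlt i => by rw [mul_one]; exact hdiv f hf hlt i)
    V hV (helper882.gp_cartesianW ℓ M hℓM A hA V) hhV hh

end GaussPair

end Fermat.Agent.S19.helper3214
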