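import Mathlib
import Fermat.Agent.S25.helper3378_DiagonalIdeal
import Fermat.Agent.S25.helper5597_DivisorIdeal

set_option autoImplicit false
set_option linter.style.haveILetI false

/-!
# S19-RELSMOOTH: relative point / divisor ideals of a smooth relative curve are invertible

Leaf RELSMOOTH of the S19 project (helper3378).  Imports Mathlib and two S25 algebra bricks
(`helper3378_DiagonalIdeal`, `helper5597_DivisorIdeal`); no Prelude definitions, so it applies
to any chart ring `S` over any base ring `R0`.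

Setting: `R0` a commutative ring (in the application a discrete valuation ring, e.g. the ring
of inertia invariants of a valuation ring of `Qbar`, or `ℤ_(ℓ)`), `S` a finite type `R0`-algebra
(the coordinate ring of an affine chart of the curve over `R0`), `j : S` a coordinate such that
`S` is flat over `R0[X]`, `X ↦ j`.

Main results (namespace `Fermat.Agent.S19.helper3378`):

* (RS1) `cyclic_at_maximal`, `locallyCyclic_kaehler_of_fibres` : `Ω[S⁄R0]` is locally generated
  by one element when the special and the generic fibre of `S` over a discrete valuation ring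
  are Dedekind domains (residue field and fraction field perfect).
* (RS2) `invertible_diagonalIdeal_of_flat`, `hasDiagBasis_of_flat` : the diagonal ideal of
  `S ⊗[R0] S` is an invertible module (no domain hypothesis), hence `S` has a diagonal dual
  basis over `R0` in the sense of `helper5597.HasDiagBasis`.
* (RS3) `divisorIdeal_invertible`, `divisorIdeal_invertible_of_isPushout` : for EVERY
  `R0`-algebra `T` (no noetherian, local, reduced or domain hypothesis), every ideal `J` of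
  `T ⊗[R0] S` with `(T ⊗[R0] S) ⧸ J` finitely generated projective over `T` is an invertible
  module; `divisorIdeal_exists_monic` : such a `J` contains a nonzerodivisor `p(1 ⊗ j)`,
  `p` monic.
* (RS4) `pointHom`, `pointIdeal`, `pointIdeal_eq_span`, `quotientPointIdealEquiv`,
  `pointIdeal_invertible`, `map_pointIdeal` : the ideal of a `T`-valued point
  `P : S →ₐ[R0] T`, generated by the `1 ⊗ s - P s ⊗ 1`, is invertible with quotient `T`, and
  is compatible with every base change `T → T'` (reduction of points).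
* (RS5) `quotient_mul_finite_projective`, `divisorIdeal_mul_finite_projective`,
  `prod_pointIdeal_finite_projective`, `prod_pointIdeal_invertible`, `map_prod_pointIdeal` :
  products of divisor ideals are divisor ideals; the ideal `∏ i ∈ s, pointIdeal (P i)` of a
  relative effective divisor `∑ P i` is invertible with finitely generated projective quotient
  over `T`, compatibly with base change.
* (RS6) `exists_local_generator_of_invertible` : an invertible ideal is generated at every prime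
  by one element which is a nonzerodivisor there.
-/

open TensorProduct

namespace Fermat.Agent.S19.helper3378

open Fermat.Agent.S25.helper3378 (LocallyCyclic)

section Nakayama

variable {A : Type*} [CommRing A] {M : Type*} [AddCommGroup M] [Module A M]

/-- Nakayama in "local generator" form: if `M` is a finite module and `M = A ω + 𝔭 M`, then
every element of `M` is, up to a multiplier outside `𝔭`, a multiple of `ω`. -/
theorem exists_notMem_smul_eq_smul [Module.Finite A M] (𝔭 : Ideal A) (h𝔭 : 𝔭 ≠ ⊤) (ω : M)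
    (h : ∀ η : M, ∃ b : A, η - b • ω ∈ (𝔭 • (⊤ : Submodule A M))) (η : M) :
    ∃ a : A, a ∉ 𝔭 ∧ ∃ b : A, a • η = b • ω := by
  set N : Submodule A M := Submodule.span A {ω} with hN
  have hfg : (⊤ : Submodule A (M ⧸ N)).FG := Module.Finite.fg_top
  have hle : (⊤ : Submodule A (M ⧸ N)) ≤ 𝔭 • (⊤ : Submodule A (M ⧸ N)) := by
    intro x _
    obtain ⟨m, rfl⟩ := N.mkQ_surjective x
    obtain ⟨b, hb⟩ := h m
    have h1 : N.mkQ m = N.mkQ (m - b • ω) := by
      rw [map_sub, sub_eq_self.mpr]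
      rw [Submodule.mkQ_apply, Submodule.Quotient.mk_eq_zero]
      exact N.smul_mem b (Submodule.mem_span_singleton_self ω)
    rw [h1]
    have h2 : Submodule.map N.mkQ (𝔭 • (⊤ : Submodule A M)) ≤ 𝔭 • (⊤ : Submodule A (M ⧸ N)) := by
      rw [Submodule.map_smul'']
      exact Submodule.smul_mono le_rfl le_top
    exact h2 (Submodule.mem_map_of_mem hb)
  obtain ⟨r, hr1, hr⟩ :=
    Submodule.exists_sub_one_mem_and_smul_eq_zero_of_fg_of_le_smul 𝔭 ⊤ hfg hle
  refine ⟨r, fun hr𝔭 => h𝔭 ?_, ?_⟩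
  · rw [Ideal.eq_top_iff_one]
    have := 𝔭.sub_mem hr𝔭 hr1
    simpa using this
  · have h3 := hr (N.mkQ η) Submodule.mem_top
    rw [← map_smul, Submodule.mkQ_apply, Submodule.Quotient.mk_eq_zero] at h3
    obtain ⟨b, hb⟩ := Submodule.mem_span_singleton.mp h3
    exact ⟨b, hb.symm⟩

/-- Local cyclicity can be checked at maximal ideals. -/
theorem locallyCyclic_of_maximal
    (h : ∀ 𝔪 : Ideal A, 𝔪.IsMaximal → ∃ ω : M, ∀ η : M, ∃ a : A, a ∉ 𝔪 ∧ ∃ b : A, a • η = b • ω) :
    LocallyCyclic A M := by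
  intro 𝔭 h𝔭
  obtain ⟨𝔪, h𝔪, hle⟩ := Ideal.exists_le_maximal 𝔭 h𝔭.ne_top
  obtain ⟨ω, hω⟩ := h 𝔪 h𝔪
  refine ⟨ω, fun η => ?_⟩
  obtain ⟨a, ha, b, hb⟩ := hω η
  exact ⟨a, fun ha' => ha (hle ha'), b, hb⟩

end Nakayama

section Kaehler

variable (R0 S : Type*) [CommRing R0] [CommRing S] [Algebra R0 S]

/-- If the residue ring `S ⧸ 𝔔` has no differentials over `R0`, then every differential of `S`
is, modulo `𝔔 Ω`, the differential of an element of `𝔔`. -/
theorem exists_mem_sub_D_mem (𝔔 : Ideal S) [Subsingleton Ω[(S ⧸ 𝔔)⁄R0]] (η : Ω[S⁄R0]) :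
    ∃ x ∈ 𝔔, η - KaehlerDifferential.D R0 S x ∈ 𝔔 • (⊤ : Submodule S Ω[S⁄R0]) := by
  have hsurj : Function.Surjective (algebraMap S (S ⧸ 𝔔)) := Ideal.Quotient.mk_surjective
  have hex := KaehlerDifferential.exact_kerCotangentToTensor_mapBaseChange R0 S (S ⧸ 𝔔) hsurj
  have hmem : KaehlerDifferential.mapBaseChange R0 S (S ⧸ 𝔔) ((1 : S ⧸ 𝔔) ⊗ₜ[S] η) = 0 :=
    Subsingleton.elim _ _
  obtain ⟨c, hc⟩ := (hex _).mp hmem
  obtain ⟨⟨x, hx⟩, rfl⟩ := Ideal.toCotangent_surjective _ c
  rw [KaehlerDifferential.kerCotangentToTensor_toCotangent] at hc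
  have hx' : x ∈ 𝔔 := by
    have : algebraMap S (S ⧸ 𝔔) x = 0 := hx
    rwa [Ideal.Quotient.algebraMap_eq, Ideal.Quotient.eq_zero_iff_mem] at this
  refine ⟨x, hx', ?_⟩
  have h2 := congrArg (TensorProduct.quotTensorEquivQuotSMul Ω[S⁄R0] 𝔔) hc
  rw [TensorProduct.quotTensorEquivQuotSMul_mk_one_tmul,
    TensorProduct.quotTensorEquivQuotSMul_mk_one_tmul] at h2
  have h3 := (Submodule.Quotient.eq _).mp h2
  have := Submodule.neg_mem _ h3
  simpa using this

/-- The ideal of elements of `𝔔` whose differential lies in `𝔔 Ω`. -/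
def dSmall (𝔔 : Ideal S) : Ideal S where
  carrier := {x | x ∈ 𝔔 ∧ KaehlerDifferential.D R0 S x ∈ 𝔔 • (⊤ : Submodule S Ω[S⁄R0])}
  add_mem' := by
    rintro a b ⟨ha, ha'⟩ ⟨hb, hb'⟩
    exact ⟨𝔔.add_mem ha hb, by rw [map_add]; exact Submodule.add_mem _ ha' hb'⟩
  zero_mem' := ⟨𝔔.zero_mem, by rw [map_zero]; exact Submodule.zero_mem _⟩
  smul_mem' := by
    rintro c x ⟨hx, hx'⟩
    refine ⟨𝔔.mul_mem_left c hx, ?_⟩
    rw [smul_eq_mul, Derivation.leibniz]
    exact Submodule.add_mem _ (Submodule.smul_mem _ c hx')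
      (Submodule.smul_mem_smul hx Submodule.mem_top)

variable {R0 S}

theorem mem_dSmall {𝔔 : Ideal S} {x : S} :
    x ∈ dSmall R0 S 𝔔 ↔
      x ∈ 𝔔 ∧ KaehlerDifferential.D R0 S x ∈ 𝔔 • (⊤ : Submodule S Ω[S⁄R0]) := Iff.rfl

theorem sq_le_dSmall (𝔔 : Ideal S) : 𝔔 ^ 2 ≤ dSmall R0 S 𝔔 := by
  rw [pow_two, Ideal.mul_le]
  intro a ha b hb
  refine ⟨𝔔.mul_mem_left a hb, ?_⟩
  rw [Derivation.leibniz]
  exact Submodule.add_mem _ (Submodule.smul_mem_smul ha Submodule.mem_top)
    (Submodule.smul_mem_smul hb Submodule.mem_top)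

theorem map_comap_le_dSmall (𝔔 : Ideal S) :
    (𝔔.comap (algebraMap R0 S)).map (algebraMap R0 S) ≤ dSmall R0 S 𝔔 := by
  rw [Ideal.map_le_iff_le_comap]
  intro r hr
  refine ⟨hr, ?_⟩
  rw [Derivation.map_algebraMap]
  exact Submodule.zero_mem _

variable (R0 S)

/-- **Cotangent criterion.**  Let `𝔔` be a maximal ideal of `S` whose residue field has no
differentials over `R0`, and let `t ∈ 𝔔` generate `𝔔` modulo `𝔔² + (𝔔 ∩ R0) S`, up to multipliers
outside `𝔔`.  Then `Ω[S⁄R0]` is generated by `d t` at `𝔔`. -/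
theorem cyclic_at_maximal [Module.Finite S Ω[S⁄R0]] (𝔔 : Ideal S) [h𝔔 : 𝔔.IsMaximal]
    [Subsingleton Ω[(S ⧸ 𝔔)⁄R0]] (t : S) (ht : t ∈ 𝔔)
    (h : ∀ x ∈ 𝔔, ∃ u : S, u ∉ 𝔔 ∧ u * x ∈ Ideal.span {t} ⊔
      ((𝔔.comap (algebraMap R0 S)).map (algebraMap R0 S) ⊔ 𝔔 ^ 2)) (η : Ω[S⁄R0]) :
    ∃ a : S, a ∉ 𝔔 ∧ ∃ b : S, a • η = b • KaehlerDifferential.D R0 S t := by
  refine exists_notMem_smul_eq_smul 𝔔 h𝔔.ne_top _ (fun η => ?_) η
  obtain ⟨x, hx, hηx⟩ := exists_mem_sub_D_mem R0 S 𝔔 η
  obtain ⟨u, hu, hux⟩ := h x hx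
  obtain ⟨y, hy, w, hw, hyw⟩ := Submodule.mem_sup.mp hux
  obtain ⟨c, rfl⟩ := Ideal.mem_span_singleton'.mp hy
  have hw' : w ∈ dSmall R0 S 𝔔 :=
    (sup_le (map_comap_le_dSmall 𝔔) (sq_le_dSmall 𝔔)) hw
  obtain ⟨v, i, hi, hvi⟩ := h𝔔.exists_inv hu
  set N : Submodule S Ω[S⁄R0] := 𝔔 • (⊤ : Submodule S Ω[S⁄R0]) with hN
  set D := KaehlerDifferential.D R0 S with hD
  -- `u • D x ≡ c • D t`
  have h1 : u • D x - c • D t ∈ N := by
    have e1 : D (u * x) = u • D x + x • D u := Derivation.leibniz _ _ _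
    have e2 : D (c * t) = c • D t + t • D c := Derivation.leibniz _ _ _
    have e3 : D (u * x) = D (c * t) + D w := by rw [← map_add, hyw]
    have e4 : u • D x - c • D t = t • D c + D w - x • D u := by
      rw [e1, e2] at e3
      rw [sub_eq_iff_eq_add, ← sub_eq_iff_eq_add'.mpr e3]
      abel
    rw [e4]
    exact Submodule.sub_mem _ (Submodule.add_mem _ (Submodule.smul_mem_smul ht Submodule.mem_top)
      hw'.2) (Submodule.smul_mem_smul hx Submodule.mem_top)
  refine ⟨v * c, ?_⟩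
  have hone : (v * u) • D x + i • D x = D x := by rw [← add_smul, hvi, one_smul]
  have e5 : η - (v * c) • D t = (η - D x) + v • (u • D x - c • D t) + i • D x := by
    calc η - (v * c) • D t = η - (v * c) • D t + (((v * u) • D x + i • D x) - D x) := by
          rw [hone, sub_self, add_zero]
      _ = (η - D x) + v • (u • D x - c • D t) + i • D x := by
          rw [smul_sub, mul_smul, mul_smul]
          abel
  rw [e5]
  exact Submodule.add_mem _ (Submodule.add_mem _ hηx (Submodule.smul_mem _ v h1))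
    (Submodule.smul_mem_smul hi Submodule.mem_top)

end Kaehler

section Dedekind

/-- In a Dedekind domain every prime ideal is generated by one element modulo its square. -/
theorem exists_generator_mod_sq {D : Type*} [CommRing D] [IsDedekindDomain D] (P : Ideal D)
    [P.IsPrime] : ∃ a ∈ P, ∀ c ∈ P, ∃ d : D, c - a * d ∈ P ^ 2 := by
  by_cases hP : P = ⊥
  · refine ⟨0, P.zero_mem, fun c hc => ⟨0, ?_⟩⟩
    rw [hP] at hc
    rw [(Submodule.mem_bot D).mp hc]
    simp
  · obtain ⟨a, ha, ha'⟩ := SetLike.exists_of_lt (Ideal.pow_succ_lt_pow hP 1)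
    rw [pow_one] at ha
    refine ⟨a, ha, fun c hc => ?_⟩
    obtain ⟨d, e, he, hde⟩ := Ideal.exists_mul_add_mem_pow_succ hP a c
      (by rwa [pow_one]) ha' (by rwa [pow_one])
    refine ⟨d, ?_⟩
    have : c - a * d = e := by rw [← hde]; ring
    rw [this]
    exact he

variable {S : Type*} [CommRing S]

/-- Cotangent generator at a prime of `S` from a Dedekind quotient of `S`. -/
theorem exists_cotangent_generator_of_surjective (𝔔 : Ideal S) [𝔔.IsPrime] {D : Type*}
    [CommRing D] [IsDedekindDomain D] (φ : S →+* D) (hφ : Function.Surjective φ)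
    (hker : RingHom.ker φ ≤ 𝔔) :
    ∃ t ∈ 𝔔, ∀ x ∈ 𝔔, x ∈ Ideal.span {t} ⊔ (RingHom.ker φ ⊔ 𝔔 ^ 2) := by
  have hP : (𝔔.map φ).IsPrime := Ideal.map_isPrime_of_surjective hφ hker
  obtain ⟨a, ha, hgen⟩ := exists_generator_mod_sq (𝔔.map φ)
  obtain ⟨t, ht, rfl⟩ := (Ideal.mem_map_iff_of_surjective φ hφ).mp ha
  refine ⟨t, ht, fun x hx => ?_⟩
  obtain ⟨d, hd⟩ := hgen (φ x) (Ideal.mem_map_of_mem φ hx)
  obtain ⟨d', rfl⟩ := hφ d
  rw [← Ideal.map_pow] at hd
  obtain ⟨e, he, hee⟩ := (Ideal.mem_map_iff_of_surjective φ hφ).mp hd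
  have hk : x - t * d' - e ∈ RingHom.ker φ := by
    rw [RingHom.mem_ker, map_sub, map_sub, map_mul, hee, sub_self]
  have hx' : x = d' * t + ((x - t * d' - e) + e) := by ring
  rw [hx']
  exact Submodule.add_mem_sup (Ideal.mem_span_singleton'.mpr ⟨d', rfl⟩)
    (Submodule.add_mem_sup hk he)

/-- Cotangent generator at a prime of `S` from a Dedekind localization of `S`. -/
theorem exists_cotangent_generator_of_isLocalization (𝔔 : Ideal S) [h𝔔 : 𝔔.IsPrime]
    (M : Submonoid S) (hM : ∀ m ∈ M, m ∉ 𝔔) (E : Type*) [CommRing E] [Algebra S E]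
    [IsLocalization M E] [IsDedekindDomain E] :
    ∃ t ∈ 𝔔, ∀ x ∈ 𝔔, ∃ u : S, u ∉ 𝔔 ∧ u * x ∈ Ideal.span {t} ⊔ 𝔔 ^ 2 := by
  have hd : Disjoint (M : Set S) (𝔔 : Set S) :=
    Set.disjoint_left.mpr fun m hm hm' => hM m hm hm'
  have hP : (𝔔.map (algebraMap S E)).IsPrime :=
    IsLocalization.isPrime_of_isPrime_disjoint M E 𝔔 h𝔔 hd
  obtain ⟨a, ha, hgen⟩ := exists_generator_mod_sq (𝔔.map (algebraMap S E))
  obtain ⟨⟨⟨t, ht⟩, m0⟩, hm0⟩ := (IsLocalization.mem_map_algebraMap_iff M E).mp ha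
  simp only at hm0
  refine ⟨t, ht, fun x hx => ?_⟩
  obtain ⟨d, hd⟩ := hgen (algebraMap S E x) (Ideal.mem_map_of_mem _ hx)
  rw [← Ideal.map_pow] at hd
  obtain ⟨⟨⟨e, he⟩, m1⟩, hm1⟩ := (IsLocalization.mem_map_algebraMap_iff M E).mp hd
  simp only at hm1
  obtain ⟨⟨d', m2⟩, hm2⟩ := IsLocalization.surj M d
  simp only at hm2
  have key : algebraMap S E ((m0 : S) * m1 * m2 * x) =
      algebraMap S E (t * d' * m1 + e * m0 * m2) := by
    simp only [map_mul, map_add]
    rw [← hm0, ← hm1, ← hm2]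
    ring
  obtain ⟨m3, hm3⟩ := (IsLocalization.eq_iff_exists M E).mp key
  refine ⟨(m3 * m0 * m1 * m2 : M), hM _ (m3 * m0 * m1 * m2 : M).2, ?_⟩
  have : ((m3 * m0 * m1 * m2 : M) : S) * x = (m3 * d' * m1) * t + (m3 * e * m0 * m2) := by
    push_cast
    linear_combination hm3
  rw [this]
  refine Submodule.add_mem_sup (Ideal.mem_span_singleton'.mpr ⟨_, rfl⟩) ?_
  have : (m3 : S) * e * m0 * m2 = (m3 * m0 * m2 : S) * e := by ring
  rw [this]
  exact Ideal.mul_mem_left _ _ he

end Dedekind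

section ResidueField

variable (R0 S : Type*) [CommRing R0] [CommRing S] [Algebra R0 S]

/-- The residue field of a finite type algebra at a maximal ideal has no differentials over the
base, as soon as it receives a perfect field which is formally unramified over the base. -/
theorem subsingleton_kaehler_quotient [Algebra.FiniteType R0 S] (𝔔 : Ideal S) [h𝔔 : 𝔔.IsMaximal]
    (κ : Type*) [Field κ] [PerfectField κ] [Algebra R0 κ] [Algebra.FormallyUnramified R0 κ]
    (g : κ →ₐ[R0] S ⧸ 𝔔) : Subsingleton Ω[(S ⧸ 𝔔)⁄R0] := by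
  letI : Field (S ⧸ 𝔔) := Ideal.Quotient.field 𝔔
  letI : Algebra κ (S ⧸ 𝔔) := g.toRingHom.toAlgebra
  haveI : IsScalarTower R0 κ (S ⧸ 𝔔) := .of_algebraMap_eq fun r => (g.commutes r).symm
  haveI : Algebra.FiniteType κ (S ⧸ 𝔔) := Algebra.FiniteType.of_restrictScalars_finiteType R0 κ _
  haveI : Module.Finite κ (S ⧸ 𝔔) := finite_of_finite_type_of_isJacobsonRing κ (S ⧸ 𝔔)
  haveI : Algebra.IsSeparable κ (S ⧸ 𝔔) := inferInstance
  haveI : Algebra.FormallyUnramified κ (S ⧸ 𝔔) := Algebra.FormallyUnramified.of_isSeparable κ _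
  haveI : Algebra.FormallyUnramified R0 (S ⧸ 𝔔) := Algebra.FormallyUnramified.comp R0 κ _
  infer_instance

end ResidueField


section Package

variable (R0 S : Type*) [CommRing R0] [CommRing S] [Algebra R0 S]

theorem algebraMap_quotient_eq_zero_iff (𝔔 : Ideal S) (a : R0) :
    algebraMap R0 (S ⧸ 𝔔) a = 0 ↔ algebraMap R0 S a ∈ 𝔔 := by
  rw [IsScalarTower.algebraMap_apply R0 S (S ⧸ 𝔔), Ideal.Quotient.algebraMap_eq,
    Ideal.Quotient.eq_zero_iff_mem]

/-- **(RS1) Differentials of a relative curve over a discrete valuation ring are locally cyclic.**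
`R0` is a discrete valuation ring with perfect residue field and perfect fraction field, `S` is
a finite type `R0`-algebra whose special fibre (a quotient `φ : S → D` with kernel inside
`𝔪 S`) and generic fibre (the localization `E` of `S` at the nonzero elements of `R0`) are
Dedekind domains.  Then `Ω[S⁄R0]` is locally generated by one element. -/
theorem locallyCyclic_kaehler_of_fibres [IsDomain R0] [IsDiscreteValuationRing R0]
    [PerfectField (IsLocalRing.ResidueField R0)] [PerfectField (FractionRing R0)]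
    [Algebra.FiniteType R0 S]
    {D : Type*} [CommRing D] [IsDedekindDomain D] (φ : S →+* D) (hφ : Function.Surjective φ)
    (hker : RingHom.ker φ ≤ (IsLocalRing.maximalIdeal R0).map (algebraMap R0 S))
    (E : Type*) [CommRing E] [Algebra S E]
    [IsLocalization (Algebra.algebraMapSubmonoid S (nonZeroDivisors R0)) E] [IsDedekindDomain E] :
    LocallyCyclic S Ω[S⁄R0] := by
  apply locallyCyclic_of_maximal
  intro 𝔔 h𝔔
  have h𝔔p : 𝔔.IsPrime := h𝔔.isPrime
  have h𝔭 : (𝔔.comap (algebraMap R0 S)).IsPrime := Ideal.comap_isPrime _ _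
  by_cases hbot : 𝔔.comap (algebraMap R0 S) = ⊥
  · -- a closed point of the generic fibre
    have hinj : Function.Injective (Algebra.ofId R0 (S ⧸ 𝔔)) := by
      rw [injective_iff_map_eq_zero (Algebra.ofId R0 (S ⧸ 𝔔))]
      intro a ha
      have h2 : a ∈ 𝔔.comap (algebraMap R0 S) :=
        (algebraMap_quotient_eq_zero_iff R0 S 𝔔 a).mp ha
      rw [hbot] at h2
      exact (Submodule.mem_bot R0).mp h2
    have hunr : Algebra.FormallyUnramified R0 (FractionRing R0) :=
      Algebra.FormallyUnramified.of_isLocalization (nonZeroDivisors R0)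
    have g : FractionRing R0 →ₐ[R0] S ⧸ 𝔔 := by
      letI : Field (S ⧸ 𝔔) := Ideal.Quotient.field 𝔔
      exact IsFractionRing.liftAlgHom hinj
    have hsub : Subsingleton Ω[(S ⧸ 𝔔)⁄R0] :=
      subsingleton_kaehler_quotient R0 S 𝔔 (FractionRing R0) g
    have hM : ∀ m ∈ Algebra.algebraMapSubmonoid S (nonZeroDivisors R0), m ∉ 𝔔 := by
      rintro m ⟨r, hr, rfl⟩ hm
      have h2 : r ∈ 𝔔.comap (algebraMap R0 S) := hm
      rw [hbot] at h2
      exact nonZeroDivisors.ne_zero hr ((Submodule.mem_bot R0).mp h2)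
    obtain ⟨t, ht, hgen⟩ := exists_cotangent_generator_of_isLocalization 𝔔
      (Algebra.algebraMapSubmonoid S (nonZeroDivisors R0)) hM E
    refine ⟨KaehlerDifferential.D R0 S t, cyclic_at_maximal R0 S 𝔔 t ht fun x hx => ?_⟩
    obtain ⟨u, hu, hux⟩ := hgen x hx
    have hle2 : Ideal.span {t} ⊔ 𝔔 ^ 2 ≤ Ideal.span {t} ⊔
        ((𝔔.comap (algebraMap R0 S)).map (algebraMap R0 S) ⊔ 𝔔 ^ 2) :=
      sup_le_sup_left le_sup_right _
    exact ⟨u, hu, hle2 hux⟩
  · -- a closed point of the special fibre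
    have hmax : 𝔔.comap (algebraMap R0 S) = IsLocalRing.maximalIdeal R0 :=
      IsLocalRing.eq_maximalIdeal (h𝔭.isMaximal hbot)
    have hunr : Algebra.FormallyUnramified R0 (IsLocalRing.ResidueField R0) :=
      Algebra.FormallyUnramified.of_surjective (Algebra.ofId R0 (IsLocalRing.ResidueField R0))
        IsLocalRing.residue_surjective
    have g : IsLocalRing.ResidueField R0 →ₐ[R0] S ⧸ 𝔔 :=
      Ideal.Quotient.liftₐ (IsLocalRing.maximalIdeal R0) (Algebra.ofId R0 (S ⧸ 𝔔)) (fun a ha =>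
        (algebraMap_quotient_eq_zero_iff R0 S 𝔔 a).mpr (by rw [← Ideal.mem_comap, hmax]; exact ha))
    have hsub : Subsingleton Ω[(S ⧸ 𝔔)⁄R0] :=
      subsingleton_kaehler_quotient R0 S 𝔔 (IsLocalRing.ResidueField R0) g
    have hle : (IsLocalRing.maximalIdeal R0).map (algebraMap R0 S) ≤ 𝔔 := by
      rw [Ideal.map_le_iff_le_comap, hmax]
    obtain ⟨t, ht, hgen⟩ := exists_cotangent_generator_of_surjective 𝔔 φ hφ (hker.trans hle)
    refine ⟨KaehlerDifferential.D R0 S t, cyclic_at_maximal R0 S 𝔔 t ht fun x hx => ?_⟩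
    refine ⟨1, fun h1 => h𝔔.ne_top ((Ideal.eq_top_iff_one _).mpr h1), ?_⟩
    rw [one_mul, hmax]
    have hle2 : Ideal.span {t} ⊔ (RingHom.ker φ ⊔ 𝔔 ^ 2) ≤ Ideal.span {t} ⊔
        ((IsLocalRing.maximalIdeal R0).map (algebraMap R0 S) ⊔ 𝔔 ^ 2) :=
      sup_le_sup_left (sup_le_sup_right hker _) _
    exact hle2 (hgen x hx)

end Package


section Faithful

open Polynomial

variable {T 𝒮 : Type*} [CommRing T] [CommRing 𝒮] [Algebra T 𝒮]

/-- If `𝒮 ⧸ J` is finite over `T`, then `J` contains a monic polynomial in any given element. -/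
theorem exists_monic_aeval_mem (J : Ideal 𝒮) [Module.Finite T (𝒮 ⧸ J)] (x : 𝒮) :
    ∃ p : T[X], p.Monic ∧ aeval x p ∈ J := by
  have hint : IsIntegral T (Ideal.Quotient.mk J x) := Algebra.IsIntegral.isIntegral _
  obtain ⟨p, hp, hp0⟩ := hint
  refine ⟨p, hp, ?_⟩
  rw [← Ideal.Quotient.eq_zero_iff_mem]
  have h1 : Ideal.Quotient.mk J (aeval x p) = aeval (Ideal.Quotient.mk J x) p :=
    (aeval_algHom_apply (Ideal.Quotient.mkₐ T J) x p).symm
  rw [h1]
  exact hp0

/-- **Divisor ideals contain a nonzerodivisor.**  If `𝒮` is flat over `T[X]` and `𝒮 ⧸ J` is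
finite over `T`, then `J` contains the image of a monic polynomial, which is a nonzerodivisor
of `𝒮`. -/
theorem exists_monic_algebraMap_mem [Algebra T[X] 𝒮] [IsScalarTower T T[X] 𝒮]
    (J : Ideal 𝒮) [Module.Finite T (𝒮 ⧸ J)] :
    ∃ p : T[X], p.Monic ∧ algebraMap T[X] 𝒮 p ∈ J := by
  obtain ⟨p, hp, hpJ⟩ := exists_monic_aeval_mem (T := T) J (algebraMap T[X] 𝒮 X)
  refine ⟨p, hp, ?_⟩
  have h1 : (IsScalarTower.toAlgHom T T[X] 𝒮) = aeval (algebraMap T[X] 𝒮 X) := by
    apply Polynomial.algHom_ext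
    simp
  have h2 : algebraMap T[X] 𝒮 p = aeval (algebraMap T[X] 𝒮 X) p :=
    congrArg (fun f => f p) h1
  rw [h2]
  exact hpJ

omit [Algebra T 𝒮] in
/-- A monic polynomial is a nonzerodivisor on a flat `T[X]`-algebra. -/
theorem eq_zero_of_mul_algebraMap_monic [Algebra T[X] 𝒮] [Module.Flat T[X] 𝒮] {p : T[X]}
    (hp : p.Monic) (r : 𝒮) (hr : r * algebraMap T[X] 𝒮 p = 0) : r = 0 := by
  have hreg : IsSMulRegular 𝒮 p := Module.Flat.isSMulRegular_of_isRegular hp.isRegular
  apply hreg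
  simp only [smul_zero]
  rw [Algebra.smul_def, mul_comm]
  exact hr

/-- **Divisor ideals are faithful.**  If `𝒮` is flat over `T[X]` and `𝒮 ⧸ J` is finite over
`T`, then `J` has trivial annihilator. -/
theorem eq_zero_of_mul_eq_zero_of_flat [Algebra T[X] 𝒮] [IsScalarTower T T[X] 𝒮]
    [Module.Flat T[X] 𝒮] (J : Ideal 𝒮) [Module.Finite T (𝒮 ⧸ J)] (r : 𝒮)
    (hr : ∀ y ∈ J, r * y = 0) : r = 0 := by
  obtain ⟨p, hp, hpJ⟩ := exists_monic_algebraMap_mem (T := T) J
  exact eq_zero_of_mul_algebraMap_monic hp r (hr _ hpJ)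

end Faithful

section FlatBaseChange

open Polynomial

attribute [local instance] Polynomial.algebra

/-- **Flatness over the coordinate line is stable under base change.**  If `S` is flat over
`R0[X]` and `A` is the pushout of `S` and `T` over `R0`, then `A` is flat over `T[X]`. -/
theorem flat_polynomial_of_isPushout {R0 S T A : Type*} [CommRing R0] [CommRing S] [CommRing T]
    [CommRing A] [Algebra R0 S] [Algebra R0 T] [Algebra R0 A] [Algebra S A] [Algebra T A]
    [IsScalarTower R0 S A] [IsScalarTower R0 T A] [Algebra.IsPushout R0 S T A]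
    [Algebra R0[X] S] [IsScalarTower R0 R0[X] S] [Module.Flat R0[X] S]
    [Algebra T[X] A] [IsScalarTower T T[X] A]
    (hX : algebraMap T[X] A X = algebraMap S A (algebraMap R0[X] S X)) :
    Module.Flat T[X] A := by
  letI a3 : Algebra R0[X] A := ((algebraMap S A).comp (algebraMap R0[X] S)).toAlgebra
  haveI t1 : IsScalarTower R0[X] S A := .of_algebraMap_eq fun _ => rfl
  haveI t2 : IsScalarTower R0[X] T[X] A := .of_algebraMap_eq' (by
    apply Polynomial.ringHom_ext
    · intro r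
      show algebraMap S A (algebraMap R0[X] S (C r)) = algebraMap T[X] A (algebraMap R0[X] T[X] (C r))
      rw [Polynomial.algebraMap_def, coe_mapRingHom, map_C, ← algebraMap_eq (R := R0),
        ← IsScalarTower.algebraMap_apply R0 R0[X] S, ← IsScalarTower.algebraMap_apply R0 S A,
        ← algebraMap_eq (R := T), ← IsScalarTower.algebraMap_apply T T[X] A,
        ← IsScalarTower.algebraMap_apply R0 T A]
    · show algebraMap S A (algebraMap R0[X] S X) = algebraMap T[X] A (algebraMap R0[X] T[X] X)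
      rw [Polynomial.algebraMap_def, coe_mapRingHom, map_X, hX])
  haveI t3 : IsScalarTower R0 T[X] A := .of_algebraMap_eq fun r => by
    rw [IsScalarTower.algebraMap_apply R0 T T[X], ← IsScalarTower.algebraMap_apply T T[X] A,
      ← IsScalarTower.algebraMap_apply R0 T A]
  have hP : Algebra.IsPushout R0[X] S T[X] A :=
    (Algebra.IsPushout.comp_iff (R := R0) (S := R0[X]) (R' := T) (S' := T[X]) (T := S)
      (T' := A)).mp inferInstance
  have hbc : IsBaseChange T[X] (IsScalarTower.toAlgHom R0[X] S A).toLinearMap := hP.symm.out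
  exact Module.Flat.isBaseChange R0[X] T[X] S A hbc

end FlatBaseChange

section Invertible

variable {T : Type*} [CommRing T]

/-- If `s • I ⊆ (t)` and `s` kills the annihilator of `t`, then `x ↦ s * (s * x / t)` is a
linear form on `I` taking the value `s * s` at `t`. -/
theorem exists_dual_apply_eq_mul_self (I : Ideal T) (t : T) (ht : t ∈ I) (s : T)
    (hs : ∀ x ∈ I, s * x ∈ Ideal.span {t}) (hann : ∀ r : T, r * t = 0 → r * s = 0) :
    ∃ f : Module.Dual T I, f ⟨t, ht⟩ = s * s := by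
  classical
  have hex : ∀ x : I, ∃ y : T, y * t = s * (x : T) := fun x =>
    Ideal.mem_span_singleton'.mp (hs x x.2)
  choose φ hφ using hex
  have huniq : ∀ (x : I) (y : T), y * t = s * (x : T) → φ x * s = y * s := by
    intro x y hy
    have h0 : (φ x - y) * t = 0 := by rw [sub_mul, hφ x, hy, sub_self]
    have := hann _ h0
    rwa [sub_mul, sub_eq_zero] at this
  refine ⟨{ toFun := fun x => φ x * s, map_add' := ?_, map_smul' := ?_ }, ?_⟩
  · intro x y
    rw [← add_mul]
    apply huniq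
    rw [add_mul, hφ x, hφ y]
    simp [mul_add]
  · intro r x
    simp only [RingHom.id_apply, smul_eq_mul]
    rw [← mul_assoc]
    apply huniq
    simp only [Submodule.coe_smul, smul_eq_mul]
    rw [mul_assoc, hφ x]
    ring
  · exact huniq ⟨t, ht⟩ s rfl

/-- **Invertibility criterion (no domain hypothesis).**  A finitely generated ideal `I` with
trivial annihilator such that for every maximal ideal `𝔓 ⊇ I` there is `t ∈ I` generating `I`
modulo `I²` locally at `𝔓` is an invertible module. -/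
theorem invertible_of_locally_principal_of_faithful (I : Ideal T) (hI : I.FG)
    (hfaith : ∀ r : T, (∀ x ∈ I, r * x = 0) → r = 0)
    (h : ∀ 𝔓 : Ideal T, 𝔓.IsMaximal → I ≤ 𝔓 →
      ∃ t ∈ I, ∀ x ∈ I, ∃ u : T, u ∉ 𝔓 ∧ u * x ∈ Ideal.span {t} ⊔ I ^ 2) :
    Module.Invertible T I := by
  classical
  apply Fermat.Agent.S25.helper3378.invertible_of_one_mem_range_contractLeft
  by_contra hone
  let Tr : Ideal T := LinearMap.range (contractLeft T I)
  have hTr : Tr ≠ ⊤ := fun htop => hone ((Ideal.eq_top_iff_one Tr).mp htop)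
  obtain ⟨𝔓, h𝔓max, hTr𝔓⟩ := Ideal.exists_le_maximal Tr hTr
  have h𝔓prime : 𝔓.IsPrime := h𝔓max.isPrime
  have hmem : ∀ (f : Module.Dual T I) (x : I), f x ∈ 𝔓 := fun f x =>
    hTr𝔓 ⟨f ⊗ₜ[T] x, contractLeft_apply f x⟩
  by_cases hI𝔓 : I ≤ 𝔓
  · obtain ⟨t, ht, hloc⟩ := h 𝔓 h𝔓max hI𝔓
    obtain ⟨S, hS⟩ := hI
    choose! u hu hux using hloc
    -- a uniform multiplier
    let U : T := ∏ x ∈ S, u x
    have hSI : ∀ x ∈ S, x ∈ I := fun x hx => hS ▸ Ideal.subset_span hx
    have hU : U ∉ 𝔓 := by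
      intro hU
      obtain ⟨x, hx, hx'⟩ := (Ideal.IsPrime.prod_mem_iff).mp hU
      exact hu x (hSI x hx) hx'
    have hUx : ∀ x ∈ I, U * x ∈ Ideal.span {t} ⊔ I ^ 2 := by
      have hle : I ≤ Submodule.comap (LinearMap.mulLeft T U) (Ideal.span {t} ⊔ I ^ 2) := by
        refine hS.symm.le.trans (Ideal.span_le.mpr fun x hx => ?_)
        simp only [SetLike.mem_coe, Submodule.mem_comap, LinearMap.mulLeft_apply]
        have hdvd : u x ∣ U := Finset.dvd_prod_of_mem u hx
        obtain ⟨c, hc⟩ := hdvd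
        rw [hc, mul_comm (u x) c, mul_assoc]
        exact Ideal.mul_mem_left _ _ (hux x (hSI x hx))
      intro x hx
      simpa using hle hx
    obtain ⟨s, hs𝔓, hs⟩ := Fermat.Agent.S25.helper3378.exists_notMem_mul_mem_span_singleton I
      ⟨S, hS⟩ 𝔓 hI𝔓 t U hU hUx
    have hann : ∀ r : T, r * t = 0 → r * s = 0 := by
      intro r hr
      apply hfaith
      intro x hx
      obtain ⟨y, hy⟩ := Ideal.mem_span_singleton'.mp (hs x hx)
      rw [mul_assoc, ← hy, ← mul_assoc, mul_comm r y, mul_assoc, hr, mul_zero]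
    obtain ⟨f, hf⟩ := exists_dual_apply_eq_mul_self I t ht s hs hann
    exact h𝔓prime.mul_notMem hs𝔓 hs𝔓 (hf ▸ hmem f ⟨t, ht⟩)
  · obtain ⟨x, hx, hx𝔓⟩ := SetLike.not_le_iff_exists.mp hI𝔓
    exact hx𝔓 (hmem I.subtype ⟨x, hx⟩)

variable (R A : Type*) [CommRing R] [CommRing A] [Algebra R A]

/-- **The diagonal ideal is invertible (no domain hypothesis).**  If the diagonal ideal
`I = ker (A ⊗[R] A → A)` is finitely generated with trivial annihilator and `Ω[A⁄R]` is locally
generated by one element, then `I` is an invertible `A ⊗[R] A`-module. -/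
theorem invertible_diagonalIdeal_of_faithful
    (hfg : (KaehlerDifferential.ideal R A).FG)
    (hfaith : ∀ r : A ⊗[R] A, (∀ x ∈ KaehlerDifferential.ideal R A, r * x = 0) → r = 0)
    (hΩ : LocallyCyclic A Ω[A⁄R]) :
    Module.Invertible (A ⊗[R] A) (KaehlerDifferential.ideal R A) := by
  refine invertible_of_locally_principal_of_faithful _ hfg hfaith fun 𝔓 h𝔓 _ => ?_
  have h𝔓prime : 𝔓.IsPrime := h𝔓.isPrime
  apply Fermat.Agent.S25.helper3378.exists_mem_of_cotangent_cyclic
  obtain ⟨ω, hω⟩ := hΩ (𝔓.comap (Algebra.TensorProduct.includeLeft : A →ₐ[R] A ⊗[R] A))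
    (Ideal.comap_isPrime _ _)
  refine ⟨ω, fun η => ?_⟩
  obtain ⟨a, ha, b, hb⟩ := hω η
  refine ⟨a ⊗ₜ[R] 1, ha, b ⊗ₜ[R] 1, ?_⟩
  have key : ∀ (c : A) (ξ : Ω[A⁄R]), (c ⊗ₜ[R] (1 : A) : A ⊗[R] A) • ξ = c • ξ := by
    intro c ξ
    have : (c ⊗ₜ[R] (1 : A) : A ⊗[R] A) = c • (1 : A ⊗[R] A) := by
      rw [Algebra.TensorProduct.one_def, TensorProduct.smul_tmul', smul_eq_mul, mul_one]
    rw [this, smul_assoc, one_smul]
  exact (key a η).trans (hb.trans (key b ω).symm)

end Invertible

section Coordinate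

open Polynomial

variable (R0 S T : Type*) [CommRing R0] [CommRing S] [CommRing T] [Algebra R0 S] [Algebra R0 T]

/-- The `T[X]`-algebra structure on `T ⊗[R0] S` in which `X` acts as `1 ⊗ j`.  Not an
instance. -/
@[reducible] noncomputable def polyAlgebra (j : S) : Algebra T[X] (T ⊗[R0] S) :=
  (aeval ((1 : T) ⊗ₜ[R0] j) : T[X] →ₐ[T] T ⊗[R0] S).toRingHom.toAlgebra

theorem isScalarTower_polyAlgebra (j : S) :
    letI := polyAlgebra R0 S T j
    IsScalarTower T T[X] (T ⊗[R0] S) := by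
  letI := polyAlgebra R0 S T j
  exact .of_algebraMap_eq fun b => by
    show algebraMap T (T ⊗[R0] S) b = aeval ((1 : T) ⊗ₜ[R0] j) (algebraMap T T[X] b)
    rw [← C_eq_algebraMap, aeval_C]

theorem algebraMap_polyAlgebra_X (j : S) :
    letI := polyAlgebra R0 S T j
    algebraMap T[X] (T ⊗[R0] S) X = (1 : T) ⊗ₜ[R0] j := by
  letI := polyAlgebra R0 S T j
  show aeval ((1 : T) ⊗ₜ[R0] j) X = _
  rw [aeval_X]

/-- If the chart ring `S` is flat over `R0[X]`, `X ↦ j`, then `T ⊗[R0] S` is flat over `T[X]`,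
`X ↦ 1 ⊗ j`, for every `R0`-algebra `T`. -/
theorem flat_polyAlgebra (j : S) (hflat : (aeval j : R0[X] →ₐ[R0] S).toRingHom.Flat) :
    letI := polyAlgebra R0 S T j
    Module.Flat T[X] (T ⊗[R0] S) := by
  letI := polyAlgebra R0 S T j
  haveI := isScalarTower_polyAlgebra R0 S T j
  letI : Algebra S (T ⊗[R0] S) := Algebra.TensorProduct.rightAlgebra
  letI a1 : Algebra R0[X] S := (aeval j : R0[X] →ₐ[R0] S).toRingHom.toAlgebra
  haveI t0 : IsScalarTower R0 R0[X] S := .of_algebraMap_eq fun c => by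
    show algebraMap R0 S c = aeval j (algebraMap R0 R0[X] c)
    rw [← C_eq_algebraMap, aeval_C]
  haveI : Module.Flat R0[X] S := hflat
  refine flat_polynomial_of_isPushout (R0 := R0) (S := S) (T := T) (A := T ⊗[R0] S) ?_
  rw [algebraMap_polyAlgebra_X]
  show _ = algebraMap S (T ⊗[R0] S) (aeval j X)
  rw [aeval_X]
  rfl

end Coordinate

section Assembly

open Polynomial

open Fermat.Agent.S25.helper5597 (HasDiagBasis diagIdeal)

/-- The quotient by the kernel of a surjective algebra map onto a finite module is finite. -/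
theorem finite_quotient_ker {T 𝒮 T' : Type*} [CommRing T] [CommRing 𝒮] [CommRing T']
    [Algebra T 𝒮] [Algebra T T'] (f : 𝒮 →ₐ[T] T') (hf : Function.Surjective f)
    [Module.Finite T T'] : Module.Finite T (𝒮 ⧸ RingHom.ker f) :=
  Module.Finite.equiv (Ideal.quotientKerAlgEquivOfSurjective hf).symm.toLinearEquiv

/-- The quotient by the kernel of a surjective algebra map onto a projective module is
projective. -/
theorem projective_quotient_ker {T 𝒮 T' : Type*} [CommRing T] [CommRing 𝒮] [CommRing T']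
    [Algebra T 𝒮] [Algebra T T'] (f : 𝒮 →ₐ[T] T') (hf : Function.Surjective f)
    [Module.Projective T T'] : Module.Projective T (𝒮 ⧸ RingHom.ker f) :=
  Module.Projective.of_equiv (Ideal.quotientKerAlgEquivOfSurjective hf).symm.toLinearEquiv

variable (R0 S : Type*) [CommRing R0] [CommRing S] [Algebra R0 S]

theorem finite_quotient_diagonalIdeal :
    Module.Finite S ((S ⊗[R0] S) ⧸ KaehlerDifferential.ideal R0 S) :=
  finite_quotient_ker (Algebra.TensorProduct.lmul'' R0 (S := S))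
    (fun s => ⟨s ⊗ₜ[R0] 1, by simp [Algebra.TensorProduct.lmul'']⟩)

/-- **(RS2) The diagonal ideal of a relative curve is invertible.**  `S` is a finite type
`R0`-algebra, flat over `R0[X]` (`X ↦ j`), whose differentials are locally generated by one
element.  No hypothesis on `R0`, and `S ⊗[R0] S` need not be a domain. -/
theorem invertible_diagonalIdeal_of_flat [Algebra.FiniteType R0 S] (j : S)
    (hflat : (aeval j : R0[X] →ₐ[R0] S).toRingHom.Flat) (hΩ : LocallyCyclic S Ω[S⁄R0]) :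
    Module.Invertible (S ⊗[R0] S) (KaehlerDifferential.ideal R0 S) := by
  refine invertible_diagonalIdeal_of_faithful R0 S (KaehlerDifferential.ideal_fg R0 S) ?_ hΩ
  letI := polyAlgebra R0 S S j
  haveI := isScalarTower_polyAlgebra R0 S S j
  haveI := flat_polyAlgebra R0 S S j hflat
  haveI := finite_quotient_diagonalIdeal R0 S
  exact eq_zero_of_mul_eq_zero_of_flat (T := S) (KaehlerDifferential.ideal R0 S)

/-- **(RS2') A relative curve has a diagonal dual basis** in the sense of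
`helper5597.HasDiagBasis`. -/
theorem hasDiagBasis_of_flat [Algebra.FiniteType R0 S] (j : S)
    (hflat : (aeval j : R0[X] →ₐ[R0] S).toRingHom.Flat) (hΩ : LocallyCyclic S Ω[S⁄R0]) :
    HasDiagBasis R0 S := by
  haveI : Module.Invertible (S ⊗[R0] S) (diagIdeal R0 S) :=
    invertible_diagonalIdeal_of_flat R0 S j hflat hΩ
  exact Fermat.Agent.S25.helper5597.hasDiagBasis_of_projective

variable {R0 S}

/-- **(RS3) Relative divisor ideals are invertible (pushout form).**  Let `S` have a diagonal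
dual basis over `R0`, let `A` be the pushout of `S` and an arbitrary `R0`-algebra `T`, flat over
`T[X]`.  Then every ideal `J` of `A` with `A ⧸ J` finitely generated projective over `T` is an
invertible `A`-module. -/
theorem divisorIdeal_invertible_of_isPushout (hdiag : HasDiagBasis R0 S) {T A : Type*}
    [CommRing T] [CommRing A] [Algebra R0 T] [Algebra R0 A] [Algebra S A] [Algebra T A]
    [IsScalarTower R0 S A] [IsScalarTower R0 T A] [Algebra.IsPushout R0 T S A]
    [Algebra T[X] A] [IsScalarTower T T[X] A] [Module.Flat T[X] A]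
    (J : Ideal A) [Module.Finite T (A ⧸ J)] [Module.Projective T (A ⧸ J)] :
    Module.Invertible A J :=
  (hdiag.of_isPushout (B := T) (A := A)).ideal_invertible J
    (eq_zero_of_mul_eq_zero_of_flat (T := T) J)

/-- **(RS3) Relative divisor ideals are invertible (tensor form).**  Let `S` have a diagonal
dual basis over `R0` and be flat over `R0[X]` (`X ↦ j`).  For EVERY `R0`-algebra `T`, every ideal
`J` of `T ⊗[R0] S` with `(T ⊗[R0] S) ⧸ J` finitely generated projective over `T` is an invertible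
module. -/
theorem divisorIdeal_invertible (hdiag : HasDiagBasis R0 S) (j : S)
    (hflat : (aeval j : R0[X] →ₐ[R0] S).toRingHom.Flat) (T : Type*) [CommRing T] [Algebra R0 T]
    (J : Ideal (T ⊗[R0] S)) [Module.Finite T ((T ⊗[R0] S) ⧸ J)]
    [Module.Projective T ((T ⊗[R0] S) ⧸ J)] : Module.Invertible (T ⊗[R0] S) J := by
  letI := polyAlgebra R0 S T j
  haveI := isScalarTower_polyAlgebra R0 S T j
  haveI := flat_polyAlgebra R0 S T j hflat
  letI : Algebra S (T ⊗[R0] S) := Algebra.TensorProduct.rightAlgebra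
  exact divisorIdeal_invertible_of_isPushout hdiag (T := T) (A := T ⊗[R0] S) J

/-- Relative divisor ideals contain a nonzerodivisor of the form `p(1 ⊗ j)`, `p` monic. -/
theorem divisorIdeal_exists_monic (j : S)
    (hflat : (aeval j : R0[X] →ₐ[R0] S).toRingHom.Flat) (T : Type*) [CommRing T] [Algebra R0 T]
    (J : Ideal (T ⊗[R0] S)) [Module.Finite T ((T ⊗[R0] S) ⧸ J)] :
    ∃ p : T[X], p.Monic ∧ aeval ((1 : T) ⊗ₜ[R0] j) p ∈ J ∧
      ∀ r : T ⊗[R0] S, r * aeval ((1 : T) ⊗ₜ[R0] j) p = 0 → r = 0 := by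
  letI := polyAlgebra R0 S T j
  haveI := isScalarTower_polyAlgebra R0 S T j
  haveI := flat_polyAlgebra R0 S T j hflat
  obtain ⟨p, hp, hpJ⟩ := exists_monic_algebraMap_mem (T := T) J
  exact ⟨p, hp, hpJ, fun r hr => eq_zero_of_mul_algebraMap_monic hp r hr⟩

end Assembly

section Point

open Polynomial

open Fermat.Agent.S25.helper5597 (HasDiagBasis)

variable {R0 S T : Type*} [CommRing R0] [CommRing S] [CommRing T] [Algebra R0 S] [Algebra R0 T]

/-- Evaluation at a `T`-valued point `P` of the chart `S`: the `T`-algebra map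
`T ⊗[R0] S → T`, `a ⊗ s ↦ a * P s`. -/
noncomputable def pointHom (P : S →ₐ[R0] T) : T ⊗[R0] S →ₐ[T] T :=
  Algebra.TensorProduct.lift (AlgHom.id T T) P (fun _ _ => Commute.all _ _)

@[simp]
theorem pointHom_tmul (P : S →ₐ[R0] T) (a : T) (s : S) :
    pointHom P (a ⊗ₜ[R0] s) = a * P s := by
  simp [pointHom]

theorem pointHom_surjective (P : S →ₐ[R0] T) : Function.Surjective (pointHom P) :=
  fun a => ⟨a ⊗ₜ[R0] 1, by simp⟩

/-- The ideal of a `T`-valued point of the chart `S`, in `T ⊗[R0] S`. -/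
noncomputable def pointIdeal (P : S →ₐ[R0] T) : Ideal (T ⊗[R0] S) :=
  RingHom.ker (pointHom P)

theorem mem_pointIdeal (P : S →ₐ[R0] T) (z : T ⊗[R0] S) :
    z ∈ pointIdeal P ↔ pointHom P z = 0 := Iff.rfl

theorem one_tmul_sub_mem_pointIdeal (P : S →ₐ[R0] T) (s : S) :
    (1 : T) ⊗ₜ[R0] s - P s ⊗ₜ[R0] (1 : S) ∈ pointIdeal P := by
  rw [mem_pointIdeal, map_sub, pointHom_tmul, pointHom_tmul, map_one, one_mul, mul_one,
    sub_self]

/-- The point ideal is generated by the elements `1 ⊗ s - P s ⊗ 1`. -/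
theorem pointIdeal_eq_span (P : S →ₐ[R0] T) :
    pointIdeal P =
      Ideal.span (Set.range fun s : S => (1 : T) ⊗ₜ[R0] s - P s ⊗ₜ[R0] (1 : S)) := by
  apply le_antisymm
  · have key : ∀ z : T ⊗[R0] S, z - pointHom P z ⊗ₜ[R0] (1 : S) ∈
        Ideal.span (Set.range fun s : S => (1 : T) ⊗ₜ[R0] s - P s ⊗ₜ[R0] (1 : S)) := by
      intro z
      induction z using TensorProduct.induction_on with
      | zero => simp
      | tmul a s =>
        have h1 : a ⊗ₜ[R0] s - pointHom P (a ⊗ₜ[R0] s) ⊗ₜ[R0] (1 : S) =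
            (a ⊗ₜ[R0] (1 : S)) * ((1 : T) ⊗ₜ[R0] s - P s ⊗ₜ[R0] (1 : S)) := by
          rw [pointHom_tmul, mul_sub, Algebra.TensorProduct.tmul_mul_tmul,
            Algebra.TensorProduct.tmul_mul_tmul, mul_one, one_mul, mul_one]
        rw [h1]
        exact Ideal.mul_mem_left _ _ (Ideal.subset_span ⟨s, rfl⟩)
      | add z w hz hw =>
        have h1 : z + w - pointHom P (z + w) ⊗ₜ[R0] (1 : S) =
            (z - pointHom P z ⊗ₜ[R0] (1 : S)) + (w - pointHom P w ⊗ₜ[R0] (1 : S)) := by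
          rw [map_add, TensorProduct.add_tmul]
          abel
        rw [h1]
        exact Ideal.add_mem _ hz hw
    intro z hz
    have h2 := key z
    rw [(mem_pointIdeal P z).mp hz, TensorProduct.zero_tmul, sub_zero] at h2
    exact h2
  · rw [Ideal.span_le]
    rintro _ ⟨s, rfl⟩
    exact one_tmul_sub_mem_pointIdeal P s

/-- The quotient by a point ideal is the base ring. -/
noncomputable def quotientPointIdealEquiv (P : S →ₐ[R0] T) :
    ((T ⊗[R0] S) ⧸ pointIdeal P) ≃ₐ[T] T :=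
  Ideal.quotientKerAlgEquivOfSurjective (pointHom_surjective P)

instance finite_quotient_pointIdeal (P : S →ₐ[R0] T) :
    Module.Finite T ((T ⊗[R0] S) ⧸ pointIdeal P) :=
  Module.Finite.equiv (quotientPointIdealEquiv P).symm.toLinearEquiv

instance free_quotient_pointIdeal (P : S →ₐ[R0] T) :
    Module.Free T ((T ⊗[R0] S) ⧸ pointIdeal P) :=
  Module.Free.of_equiv (quotientPointIdealEquiv P).symm.toLinearEquiv

/-- **(RS4) Point ideals of a relative curve are invertible**, over every base `T`. -/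
theorem pointIdeal_invertible (hdiag : HasDiagBasis R0 S) (j : S)
    (hflat : (aeval j : R0[X] →ₐ[R0] S).toRingHom.Flat) (P : S →ₐ[R0] T) :
    Module.Invertible (T ⊗[R0] S) (pointIdeal P) :=
  divisorIdeal_invertible hdiag j hflat T (pointIdeal P)

/-- **Reduction / base change of point ideals.**  For a base change `ρ : T → T'`, the point
ideal of `P` generates the point ideal of `ρ ∘ P`. -/
theorem map_pointIdeal {T' : Type*} [CommRing T'] [Algebra R0 T'] (ρ : T →ₐ[R0] T')
    (P : S →ₐ[R0] T) :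
    (pointIdeal P).map (Algebra.TensorProduct.map ρ (AlgHom.id R0 S)) = pointIdeal (ρ.comp P) := by
  rw [pointIdeal_eq_span, pointIdeal_eq_span, Ideal.map_span, ← Set.range_comp]
  congr 2
  funext s
  simp

end Point

section Product

variable {T 𝒮 : Type*} [CommRing T] [CommRing 𝒮] [Algebra T 𝒮]

omit [CommRing T] [Algebra T 𝒮] in
/-- An element of `J1` lying in `J1 * J2` lies in `J2 • J1` (inside the module `J1`). -/
theorem mem_smul_top_of_mem_mul (J1 J2 : Ideal 𝒮) (y : J1) (hy : (y : 𝒮) ∈ J1 * J2) :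
    y ∈ J2 • (⊤ : Submodule 𝒮 J1) := by
  have h1 : Submodule.map J1.subtype (J2 • (⊤ : Submodule 𝒮 J1)) = J2 • J1 := by
    rw [Submodule.map_smul'', Submodule.map_top, Submodule.range_subtype]
  have h2 : (y : 𝒮) ∈ Submodule.map J1.subtype (J2 • (⊤ : Submodule 𝒮 J1)) := by
    rw [h1, smul_eq_mul, mul_comm]
    exact hy
  obtain ⟨y', hy', hyy⟩ := h2
  have : y' = y := Subtype.ext hyy
  rwa [this] at hy'

/-- The map `J1 → 𝒮 ⧸ J1 J2`. -/
def mulQuotMap (J1 J2 : Ideal 𝒮) : J1 →ₗ[𝒮] 𝒮 ⧸ (J1 * J2) := (J1 * J2).mkQ ∘ₗ J1.subtype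

omit [CommRing T] [Algebra T 𝒮] in
theorem mulQuotMap_apply (J1 J2 : Ideal 𝒮) (y : J1) :
    mulQuotMap J1 J2 y = Submodule.Quotient.mk (y : 𝒮) := rfl

omit [CommRing T] [Algebra T 𝒮] in
theorem mem_ker_mulQuotMap (J1 J2 : Ideal 𝒮) (y : J1) :
    y ∈ LinearMap.ker (mulQuotMap J1 J2) ↔ (y : 𝒮) ∈ J1 * J2 := by
  rw [LinearMap.mem_ker, mulQuotMap_apply, Submodule.Quotient.mk_eq_zero]

/-- Componentwise reduction modulo `J2`. -/
def redPi (J2 : Ideal 𝒮) (n : ℕ) : (Fin n → 𝒮) →ₗ[𝒮] (Fin n → 𝒮 ⧸ J2) :=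
  LinearMap.pi fun i => J2.mkQ ∘ₗ LinearMap.proj i

omit [CommRing T] [Algebra T 𝒮] in
theorem redPi_apply (J2 : Ideal 𝒮) (n : ℕ) (v : Fin n → 𝒮) (i : Fin n) :
    redPi J2 n v i = Submodule.Quotient.mk (v i) := rfl

omit [CommRing T] [Algebra T 𝒮] in
theorem ker_mulQuotMap_le (J1 J2 : Ideal 𝒮) {n : ℕ} (g : J1 →ₗ[𝒮] (Fin n → 𝒮)) :
    LinearMap.ker (mulQuotMap J1 J2) ≤ LinearMap.ker (redPi J2 n ∘ₗ g) := by
  intro y hy
  have hy' := mem_smul_top_of_mem_mul J1 J2 y ((mem_ker_mulQuotMap J1 J2 y).mp hy)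
  rw [LinearMap.mem_ker]
  refine Submodule.smul_induction_on hy' ?_ ?_
  · intro b hb z _
    rw [map_smul]
    funext i
    rw [Pi.smul_apply, LinearMap.comp_apply, redPi_apply, Pi.zero_apply,
      ← Submodule.Quotient.mk_smul, Submodule.Quotient.mk_eq_zero, smul_eq_mul]
    exact Ideal.mul_mem_right _ _ hb
  · intro a b ha hb
    rw [map_add, ha, hb, add_zero]


omit [CommRing T] [Algebra T 𝒮] in
theorem le_ker_toSpanSingleton (J1 J2 : Ideal 𝒮) (y : J1) :
    J2 ≤ LinearMap.ker (LinearMap.toSpanSingleton 𝒮 (J1 ⧸ LinearMap.ker (mulQuotMap J1 J2))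
      ((LinearMap.ker (mulQuotMap J1 J2)).mkQ y)) := by
  intro b hb
  rw [LinearMap.mem_ker, LinearMap.toSpanSingleton_apply, ← map_smul, Submodule.mkQ_apply,
    Submodule.Quotient.mk_eq_zero, mem_ker_mulQuotMap]
  simp only [Submodule.coe_smul, smul_eq_mul]
  rw [mul_comm b (y : 𝒮)]
  exact Ideal.mul_mem_mul y.2 hb

/-- The map `(𝒮 ⧸ J2)ⁿ → J1 ⧸ J1 J2` induced by `f : 𝒮ⁿ → J1`. -/
def liftPi (J1 J2 : Ideal 𝒮) {n : ℕ} (f : (Fin n → 𝒮) →ₗ[𝒮] J1) :
    (Fin n → 𝒮 ⧸ J2) →ₗ[𝒮] (J1 ⧸ LinearMap.ker (mulQuotMap J1 J2)) :=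
  ∑ i, (Submodule.liftQ J2 _ (le_ker_toSpanSingleton J1 J2 (f (Pi.single i 1)))) ∘ₗ
    LinearMap.proj i

omit [CommRing T] [Algebra T 𝒮] in
theorem liftPi_redPi (J1 J2 : Ideal 𝒮) {n : ℕ} (f : (Fin n → 𝒮) →ₗ[𝒮] J1) (v : Fin n → 𝒮) :
    liftPi J1 J2 f (redPi J2 n v) = (LinearMap.ker (mulQuotMap J1 J2)).mkQ (f v) := by
  classical
  have hsum : v = ∑ i, v i • (Pi.single i (1 : 𝒮) : Fin n → 𝒮) := by
    ext k
    simp [Finset.sum_apply, Pi.single_apply]
  conv_rhs => rw [hsum, map_sum, map_sum]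
  simp only [liftPi, LinearMap.sum_apply, LinearMap.comp_apply, LinearMap.proj_apply, redPi_apply,
    Submodule.liftQ_apply, LinearMap.toSpanSingleton_apply, map_smul]


/-- `J1 ⧸ J1 J2` is finitely generated projective over `T` when `J1` is a finitely generated
projective ideal and `𝒮 ⧸ J2` is finitely generated projective over `T`. -/
theorem finite_projective_quotient_ker_mulQuotMap (J1 J2 : Ideal 𝒮) [Module.Finite 𝒮 J1]
    [Module.Projective 𝒮 J1] [Module.Finite T (𝒮 ⧸ J2)] [Module.Projective T (𝒮 ⧸ J2)] :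
    Module.Finite T (J1 ⧸ LinearMap.ker (mulQuotMap J1 J2)) ∧
      Module.Projective T (J1 ⧸ LinearMap.ker (mulQuotMap J1 J2)) := by
  obtain ⟨n, f, g, -, -, hfg⟩ := Module.Finite.exists_comp_eq_id_of_projective 𝒮 J1
  have hfg' : ∀ y, f (g y) = y := fun y => by
    have := congrArg (fun φ => φ y) hfg
    simpa using this
  let G : (J1 ⧸ LinearMap.ker (mulQuotMap J1 J2)) →ₗ[𝒮] (Fin n → 𝒮 ⧸ J2) :=
    Submodule.liftQ _ (redPi J2 n ∘ₗ g) (ker_mulQuotMap_le J1 J2 g)
  have hFG : ∀ m, liftPi J1 J2 f (G m) = m := by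
    intro m
    obtain ⟨y, rfl⟩ := Submodule.Quotient.mk_surjective _ m
    show liftPi J1 J2 f (redPi J2 n (g y)) = _
    rw [liftPi_redPi, hfg']
    rfl
  have hP : Module.Projective T (Fin n → 𝒮 ⧸ J2) :=
    Module.Projective.of_equiv
      (DFinsupp.linearEquivFunOnFintype (R := T) (M := fun _ : Fin n => 𝒮 ⧸ J2))
  have hFsurj : Function.Surjective ((liftPi J1 J2 f).restrictScalars T) := fun m => ⟨G m, hFG m⟩
  exact ⟨Module.Finite.of_surjective ((liftPi J1 J2 f).restrictScalars T) hFsurj,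
    Module.Projective.of_split (G.restrictScalars T) ((liftPi J1 J2 f).restrictScalars T)
      (LinearMap.ext hFG)⟩

/-- **(RS5) Products of divisor ideals.**  If `J1` is a finitely generated projective ideal and
the quotients by `J1` and `J2` are finitely generated projective over `T`, then so is the
quotient by `J1 * J2`. -/
theorem quotient_mul_finite_projective (J1 J2 : Ideal 𝒮) [Module.Finite 𝒮 J1]
    [Module.Projective 𝒮 J1] [Module.Finite T (𝒮 ⧸ J1)] [Module.Projective T (𝒮 ⧸ J1)]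
    [Module.Finite T (𝒮 ⧸ J2)] [Module.Projective T (𝒮 ⧸ J2)] :
    Module.Finite T (𝒮 ⧸ (J1 * J2)) ∧ Module.Projective T (𝒮 ⧸ (J1 * J2)) := by
  obtain ⟨hMfin, hMproj⟩ := finite_projective_quotient_ker_mulQuotMap (T := T) J1 J2
  have hle : J1 * J2 ≤ J1 := Ideal.mul_le_left
  let π : 𝒮 ⧸ (J1 * J2) →ₗ[𝒮] 𝒮 ⧸ J1 :=
    Submodule.mapQ (J1 * J2) J1 LinearMap.id (hle.trans (Submodule.comap_id J1).ge)
  have hπ : Function.Surjective π := by
    intro x
    obtain ⟨s, rfl⟩ := Submodule.Quotient.mk_surjective _ x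
    exact ⟨Submodule.Quotient.mk s, rfl⟩
  have hrange : ∀ q : 𝒮 ⧸ (J1 * J2), q ∈ LinearMap.range (mulQuotMap J1 J2) ↔ π q = 0 := by
    intro q
    constructor
    · rintro ⟨y, rfl⟩
      rw [mulQuotMap_apply, Submodule.mapQ_apply, LinearMap.id_apply,
        Submodule.Quotient.mk_eq_zero]
      exact y.2
    · intro hq
      obtain ⟨s, rfl⟩ := Submodule.Quotient.mk_surjective _ q
      rw [Submodule.mapQ_apply, LinearMap.id_apply, Submodule.Quotient.mk_eq_zero] at hq
      exact ⟨⟨s, hq⟩, rfl⟩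
  let e1 : (J1 ⧸ LinearMap.ker (mulQuotMap J1 J2)) ≃ₗ[T] LinearMap.range (mulQuotMap J1 J2) :=
    (LinearMap.quotKerEquivRange (mulQuotMap J1 J2)).restrictScalars T
  let e2 : LinearMap.range (mulQuotMap J1 J2) ≃ₗ[T] LinearMap.ker (π.restrictScalars T) :=
    { toFun := fun x => ⟨x.1, (hrange x.1).mp x.2⟩
      invFun := fun x => ⟨x.1, (hrange x.1).mpr x.2⟩
      left_inv := fun _ => rfl
      right_inv := fun _ => rfl
      map_add' := fun _ _ => rfl
      map_smul' := fun _ _ => rfl }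
  have hKfin : Module.Finite T (LinearMap.ker (π.restrictScalars T)) :=
    Module.Finite.equiv (e1.trans e2)
  have hKproj : Module.Projective T (LinearMap.ker (π.restrictScalars T)) :=
    Module.Projective.of_equiv (e1.trans e2)
  obtain ⟨e3⟩ := Fermat.Agent.S25.helper5597.nonempty_equiv_ker_prod_of_surjective
    (π.restrictScalars T) hπ
  exact ⟨Module.Finite.equiv e3.symm, Module.Projective.of_equiv e3.symm⟩

end Product

section Divisor

open Polynomial

open Fermat.Agent.S25.helper5597 (HasDiagBasis)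

variable {R0 S : Type*} [CommRing R0] [CommRing S] [Algebra R0 S]

/-- **(RS5) The product of two relative divisor ideals is a relative divisor ideal**: its
quotient is again finitely generated projective over `T`. -/
theorem divisorIdeal_mul_finite_projective (hdiag : HasDiagBasis R0 S) (j : S)
    (hflat : (aeval j : R0[X] →ₐ[R0] S).toRingHom.Flat) (T : Type*) [CommRing T] [Algebra R0 T]
    (J1 J2 : Ideal (T ⊗[R0] S)) [Module.Finite T ((T ⊗[R0] S) ⧸ J1)]
    [Module.Projective T ((T ⊗[R0] S) ⧸ J1)] [Module.Finite T ((T ⊗[R0] S) ⧸ J2)]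
    [Module.Projective T ((T ⊗[R0] S) ⧸ J2)] :
    Module.Finite T ((T ⊗[R0] S) ⧸ (J1 * J2)) ∧ Module.Projective T ((T ⊗[R0] S) ⧸ (J1 * J2)) := by
  haveI : Module.Invertible (T ⊗[R0] S) J1 := divisorIdeal_invertible hdiag j hflat T J1
  exact quotient_mul_finite_projective (T := T) J1 J2

/-- **(RS5) The ideal of a relative effective divisor `∑ i ∈ s, P i`** (a product of point
ideals) has a finitely generated projective quotient over `T`. -/
theorem prod_pointIdeal_finite_projective (hdiag : HasDiagBasis R0 S) (j : S)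
    (hflat : (aeval j : R0[X] →ₐ[R0] S).toRingHom.Flat) {T : Type*} [CommRing T] [Algebra R0 T]
    {ι : Type*} (s : Finset ι) (P : ι → (S →ₐ[R0] T)) :
    Module.Finite T ((T ⊗[R0] S) ⧸ ∏ i ∈ s, pointIdeal (P i)) ∧
      Module.Projective T ((T ⊗[R0] S) ⧸ ∏ i ∈ s, pointIdeal (P i)) := by
  classical
  induction s using Finset.induction_on with
  | empty =>
    rw [Finset.prod_empty, Ideal.one_eq_top]
    haveI : Subsingleton ((T ⊗[R0] S) ⧸ (⊤ : Ideal (T ⊗[R0] S))) :=
      Ideal.Quotient.subsingleton_iff.mpr rfl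
    exact ⟨inferInstance, inferInstance⟩
  | insert a s ha ih =>
    rw [Finset.prod_insert ha]
    obtain ⟨h1, h2⟩ := ih
    exact divisorIdeal_mul_finite_projective hdiag j hflat T _ _

/-- **(RS5) The ideal of a relative effective divisor `∑ i ∈ s, P i` is invertible.** -/
theorem prod_pointIdeal_invertible (hdiag : HasDiagBasis R0 S) (j : S)
    (hflat : (aeval j : R0[X] →ₐ[R0] S).toRingHom.Flat) {T : Type*} [CommRing T] [Algebra R0 T]
    {ι : Type*} (s : Finset ι) (P : ι → (S →ₐ[R0] T)) :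
    Module.Invertible (T ⊗[R0] S) (∏ i ∈ s, pointIdeal (P i) : Ideal (T ⊗[R0] S)) := by
  obtain ⟨h1, h2⟩ := prod_pointIdeal_finite_projective hdiag j hflat s P
  exact divisorIdeal_invertible hdiag j hflat T _

/-- Base change of the ideal of a relative effective divisor. -/
theorem map_prod_pointIdeal {T T' : Type*} [CommRing T] [Algebra R0 T] [CommRing T']
    [Algebra R0 T'] (ρ : T →ₐ[R0] T') {ι : Type*} (s : Finset ι) (P : ι → (S →ₐ[R0] T)) :
    (∏ i ∈ s, pointIdeal (P i)).map (Algebra.TensorProduct.map ρ (AlgHom.id R0 S)) =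
      ∏ i ∈ s, pointIdeal (ρ.comp (P i)) := by
  have h := map_prod (Ideal.mapHom (Algebra.TensorProduct.map ρ (AlgHom.id R0 S)))
    (fun i => pointIdeal (P i)) s
  rw [Ideal.mapHom_apply] at h
  rw [h]
  exact Finset.prod_congr rfl fun i _ => map_pointIdeal ρ (P i)

end Divisor

section LocalGenerator

variable {A : Type*} [CommRing A]

/-- **(RS6) Local generator of an invertible ideal.**  At every prime `𝔐`, an invertible ideal
`J` is generated by one element `t`, up to a multiplier `s ∉ 𝔐`, and `t` is a nonzerodivisor up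
to `s`. -/
theorem exists_local_generator_of_invertible (J : Ideal A) [Module.Invertible A J]
    (𝔐 : Ideal A) [h𝔐 : 𝔐.IsPrime] :
    ∃ t ∈ J, ∃ s : A, s ∉ 𝔐 ∧ (∀ x ∈ J, s * x ∈ Ideal.span {t}) ∧
      ∀ r : A, r * t = 0 → r * s = 0 := by
  obtain ⟨z, hz⟩ := (Module.Invertible.bijective (R := A) (M := J)).2 1
  have hex : ∃ (f : Module.Dual A J) (x : J), f x ∉ 𝔐 := by
    by_contra hcon'
    have hcon : ∀ (f : Module.Dual A J) (x : J), f x ∈ 𝔐 := fun f x =>
      by_contra fun h => hcon' ⟨f, x, h⟩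
    have hall : ∀ w : Module.Dual A J ⊗[A] J, contractLeft A J w ∈ 𝔐 := by
      intro w
      induction w using TensorProduct.induction_on with
      | zero => simp
      | tmul f x => rw [contractLeft_apply]; exact hcon f x
      | add w w' hw hw' => rw [map_add]; exact 𝔐.add_mem hw hw'
    have h1 := hall z
    rw [hz] at h1
    exact h𝔐.ne_top ((Ideal.eq_top_iff_one _).mpr h1)
  obtain ⟨f, x, hfx⟩ := hex
  refine ⟨x, x.2, f x, hfx, fun y hy => ?_, fun r hr => ?_⟩
  · have := Fermat.Agent.S25.helper3378.dual_mul_comm J f ⟨y, hy⟩ x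
    rw [Ideal.mem_span_singleton']
    exact ⟨f ⟨y, hy⟩, this.symm⟩
  · have h0 : r • x = 0 := by
      apply Subtype.ext
      simpa using hr
    have := congrArg f h0
    rwa [map_smul, map_zero, smul_eq_mul] at this

end LocalGenerator

end Fermat.Agent.S19.helper3378
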