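import Mathlib
import Fermat.Agent.S19.helper3573_SpecGate
import Fermat.Agent.S37.helper5413_LatticeModular

set_option autoImplicit false
set_option synthInstance.maxHeartbeats 400000

/-!
# S19 GATE: the gate is ONE genus inequality (helper3573)

By the landed S37 instance `Fermat.Agent.S37.helper5413.latHyp_gauss`, the lattice bundle of the
Gauss pair at level `M` (the gate `GateAt` of `helper3573_SpecGate`) follows from the inequality
`g(F̄_M) ≤ g(F_{k,M})` between the Riemann genera (`S18/helper981_Riemann`) of the generic and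
the special fibre.  So the whole external input of the S19 core is

* `GenusLeAt M A`      : the genus inequality at one place `A`;
* `Stmt_GenusLe M ℓ`   : the genus inequality at every place `A` of `ℚ̄` over `ℓ`.

`result_of_genusLe` : the frozen S19 from the genus inequality, the core and the spine at the
auxiliary level.
-/

noncomputable section

namespace Fermat.Agent.S19.helper3573

open ModularCurve AlgebraicCurve
open Fermat.Agent.S19.helper2111

/-- **The genus inequality at one place**: the Riemann genus of the generic fibre `F̄_M` is at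
most the Riemann genus of the special fibre `F_{k,M}`, `k` the residue field of `A`. -/
def GenusLeAt (M : ℕ) (A : ValuationSubring Qb) : Prop :=
  Fermat.Agent.S18.helper981.riemannGenus Qb (modularFunctionFieldBar M) ≤
    Fermat.Agent.S18.helper981.riemannGenus (IsLocalRing.ResidueField A)
      (modularFunctionFieldFullC (IsLocalRing.ResidueField A) M)

/-- **GENUS**: the genus inequality at every place of `ℚ̄` over `ℓ`. -/
def Stmt_GenusLe (M ℓ : ℕ) : Prop :=
  ∀ A : ValuationSubring Qb, A.LiesOverPrime ℓ → GenusLeAt M A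

section

variable (M : ℕ) [NeZero M] (ℓ : ℕ) [Fact ℓ.Prime] (hℓM : ¬ ℓ ∣ M)

/-- The gate at one place from the genus inequality there (landed S37 LATMOD). -/
theorem gateAt_of_genusLe (A : ValuationSubring Qb) (hA : A.LiesOverPrime ℓ)
    (h : GenusLeAt M A) : GateAt M ℓ hℓM A hA := by
  obtain ⟨c, E₀, E₀k, -, -, H⟩ := Fermat.Agent.S37.helper5413.latHyp_gauss M ℓ hℓM A hA h
  exact ⟨_, c, E₀, E₀k, H⟩

/-- The gate from the genus inequality. -/
theorem stmt_GateLat_of_genusLe (h : Stmt_GenusLe M ℓ) : Stmt_GateLat M ℓ hℓM :=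
  fun A hA => gateAt_of_genusLe M ℓ hℓM A hA (h A hA)

end

/-- **The root of S19 with the gate reduced to the genus inequality.** -/
theorem result_of_genusLe (p : ℕ) [NeZero p] (ℓ : ℕ) [Fact ℓ.Prime] (hℓp : ¬ ℓ ∣ p) (k : ℕ)
    (hgenus : Stmt_GenusLe (Fermat.Agent.S19.helper2289.auxLevel p ℓ) ℓ)
    (hcore : Stmt_CoreAt (Fermat.Agent.S19.helper2289.auxLevel p ℓ) ℓ
      (Fermat.Agent.S19.helper2289.not_dvd_auxLevel (Fact.out : ℓ.Prime) hℓp))
    (hspine : Stmt_Spine ℓ (Fermat.Agent.S19.helper2289.auxLevel p ℓ)) :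
    ∃ (H : Type) (_ : CommRing H) (_ : HopfAlgebra (GaloisRep.ratLocalizedAt ℓ) H),
      Module.Finite (GaloisRep.ratLocalizedAt ℓ) H ∧ Module.Flat (GaloisRep.ratLocalizedAt ℓ) H ∧
      Coalgebra.IsCocomm (GaloisRep.ratLocalizedAt ℓ) H ∧
      ∃ e : WithConv (H →ₐ[GaloisRep.ratLocalizedAt ℓ] AlgebraicClosure ℚ) ≃
          ↥(Submodule.torsionBy ℤ (JZero p) ((ℓ : ℤ) ^ k)),
        (∀ f g, e (f * g) = e f + e g) ∧
        ∀ (σ : AlgebraicClosure ℚ ≃ₐ[ℚ] AlgebraicClosure ℚ)
          (f g : WithConv (H →ₐ[GaloisRep.ratLocalizedAt ℓ] AlgebraicClosure ℚ)),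
          (∀ h : H, g h = σ (f h)) → ((e g : JZero p)) = σ • (e f : JZero p) :=
  result_of_gate p ℓ hℓp k (stmt_GateLat_of_genusLe _ ℓ _ hgenus) hcore hspine

end Fermat.Agent.S19.helper3573

end
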