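import Mathlib
import Fermat.Agent.S19.helper3573_GateGenus
import Fermat.Agent.S18.helper789_LineInst

set_option autoImplicit false
set_option synthInstance.maxHeartbeats 400000

/-!
# S19 GATE: the gate is CLOSED at the auxiliary level (helper3573)

From the landed S18 track-A chain (`helper789.chartGenus_le_chartGenus`: semicontinuity of the
chart genus on a base line, instantiated on the Hauptmodul lines `t_2`, `t_3` exactly as in
`helper789.lineData_t2` / `lineData_t3`) and the chart Riemann theorem on both fibres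
(`helper789.hchart_of_isAlgClosed` + `helper8566.riemannGenus_eq_of_chart`):

* `riemannGenus_eq_chartGenus` : over an algebraically closed constant field the Riemann genus of
  `S18/helper981_Riemann` is the chart genus of ANY base line;
* `genusLeAt_of_line`          : the genus inequality `g(F̄_N) ≤ g(F_{k,N})` from the data of one
  base line;
* `genusLeAt_two`, `genusLeAt_three` : levels divisible by `2` (resp. `3`);
* `stmt_GenusLe_aux`, `stmt_GateLat_aux` : the genus inequality and the lattice gate at the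
  auxiliary level `auxLevel p ℓ`, for every `p ≠ 0` and every prime `ℓ ∤ p`: NO hypothesis left;
* `result_of_core` : the frozen S19 from the geometric core and the spine at the auxiliary level.
-/

noncomputable section

namespace Fermat.Agent.S19.helper3573

open ModularCurve AlgebraicCurve IntermediateField Module
open Fermat.Agent.S19.helper2111
open Fermat.Agent.S18

section Generic

variable {L F : Type*} [Field L] [Field F] [Algebra L F]

/-- **Riemann genus = chart genus** of any base line, over an algebraically closed constant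
field (any characteristic). -/
theorem riemannGenus_eq_chartGenus [IsAlgClosed L] (x : F) (hx : Transcendental L x)
    [FiniteDimensional L⟮x⟯ F] :
    helper981.riemannGenus L F = helper789.chartGenus L x := by
  have := helper4307.hasPrincipalDivisors x hx
  have hdeg : ∀ v : Place L F, v.deg = 1 := helper4307.place_deg_eq_one x hx
  obtain ⟨X0, Xinf, hX0, hXinf, -, -, -, -, -, hdXinf⟩ :=
    helper4307.exists_zero_pole_divisors x hx
  have hx0 : x ≠ 0 := helper789.ne_zero_of_transcendental hx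
  have hdpos : 0 < finrank L⟮x⟯ F := finrank_pos
  have hne : Xinf ≠ 0 := by
    intro h0
    rw [h0, map_zero] at hdXinf
    have : (0 : ℤ) < (finrank L⟮x⟯ F : ℤ) := by exact_mod_cast hdpos
    omega
  obtain ⟨P₀, -⟩ := Finsupp.support_nonempty_iff.mpr hne
  have hRB : helper981.HasRiemannBound L F :=
    helper981.hasRiemannBound_of_transcendental x hx P₀ hdeg Xinf hXinf hdXinf.le
  have h := helper8566.riemannGenus_eq_of_chart hdeg P₀ hRB hx0 hXinf hX0
    (helper8566.chartIntegral_of_perfect x) (helper8566.chartIntegral_inv_of_perfect x)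
    hdXinf hdpos
    (helper789.hchart_of_isAlgClosed x hx (helper8566.chartSpace L x) fun _ _ _ => Iff.rfl)
  exact_mod_cast h

end Generic

section Line

/-- **The genus inequality from one base line** `t` of `F̄_N` (same inputs as
`helper789.lineData_of_line`, without the degree inequality). -/
theorem genusLeAt_of_line (N : ℕ) [NeZero N] (ℓ : ℕ) [Fact ℓ.Prime] (hℓN : ¬ ℓ ∣ N)
    (A : ValuationSubring (AlgebraicClosure ℚ)) (hA : A.LiesOverPrime ℓ)
    (t : modularFunctionFieldBar N)
    (ht : helper1733.ResTranscendental (helper2030.gaussO N ℓ hℓN A hA).valuation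
      (AlgebraicClosure ℚ) t)
    (hj : helper1733.gaussJ (AlgebraicClosure ℚ) N ∈ (AlgebraicClosure ℚ)⟮t⟯)
    (htO : t ∈ helper2030.gaussO N ℓ hℓN A hA)
    (hxt : Transcendental (IsLocalRing.ResidueField A)
      (helper2030.gaussRed N ℓ hℓN A hA ⟨t, htO⟩))
    [FiniteDimensional (IsLocalRing.ResidueField A)⟮helper2030.gaussRed N ℓ hℓN A hA ⟨t, htO⟩⟯
      (modularFunctionFieldFullC (IsLocalRing.ResidueField A) N)]
    [Algebra.IsSeparable (IsLocalRing.ResidueField A)⟮helper2030.gaussRed N ℓ hℓN A hA ⟨t, htO⟩⟯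
      (modularFunctionFieldFullC (IsLocalRing.ResidueField A) N)]
    (c0 : AlgebraicClosure ℚ) (hc0 : A.valuation c0 = 1)
    (hunr : ∀ (v : Place (AlgebraicClosure ℚ) (modularFunctionFieldBar N))
      (c : AlgebraicClosure ℚ), c ≠ 0 → c ≠ c0 →
      0 < v.ord (t - algebraMap (AlgebraicClosure ℚ) (modularFunctionFieldBar N) c) →
      v.ord (t - algebraMap (AlgebraicClosure ℚ) (modularFunctionFieldBar N) c) = 1) :
    GenusLeAt N A := by
  have := Lib.helper6879.isAlgClosed_residueField A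
  obtain ⟨e, -, he, hspan⟩ := helper1733.gauss_exists_orthoSys_of_mem_adjoin N ℓ hℓN A hA ht hj
  have hc0A : c0 ∈ A := (A.valuation_le_one_iff c0).mp hc0.le
  have hc0O : algebraMap (AlgebraicClosure ℚ) (modularFunctionFieldBar N) c0 ∈
      helper2030.gaussO N ℓ hℓN A hA :=
    (helper2030.gaussO_algebraMap_mem_iff N ℓ hℓN A hA c0).mpr hc0A
  have hc0b := helper1733.gaussResidue_algebraMap N ℓ hℓN A hA c0 hc0O
  have hc0b0 : IsLocalRing.residue A
      ⟨c0, (helper508.algebraMap_mem_gaussValuationSubring_iff N ℓ hℓN A hA c0).mp hc0O⟩ ≠ 0 := by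
    rw [Ne, IsLocalRing.residue_eq_zero_iff, IsLocalRing.mem_maximalIdeal, mem_nonunits_iff,
      not_not]
    exact (A.valuation_eq_one_iff _).mpr hc0
  have hxL : Transcendental (AlgebraicClosure ℚ) t := ht.transcendental
  have hfdL : FiniteDimensional (AlgebraicClosure ℚ)⟮t⟯ (modularFunctionFieldBar N) := by
    classical
    refine Module.finite_def.mpr ⟨Finset.univ.image e, ?_⟩
    rw [Finset.coe_image, Finset.coe_univ, Set.image_univ]
    exact hspan
  have key := helper789.chartGenus_le_chartGenus (helper2030.gaussO N ℓ hℓN A hA)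
    (helper2030.gaussRed N ℓ hℓN A hA) (helper2030.gaussRed_eq_zero_iff N ℓ hℓN A hA)
    (helper2030.gaussRed_const_surj N ℓ hℓN A hA) (helper1733.gauss_compat N ℓ hℓN A hA)
    htO ht he hspan hxt c0 hc0O _ hc0b hc0b0 hunr
  unfold GenusLeAt
  rw [riemannGenus_eq_chartGenus t hxL,
    riemannGenus_eq_chartGenus (helper2030.gaussRed N ℓ hℓN A hA ⟨t, htO⟩) hxt]
  exact key

/-- **The genus inequality at levels divisible by `2`** (`ℓ ∤ N`, hence `ℓ` odd). -/
theorem genusLeAt_two (N : ℕ) [NeZero N] (ℓ : ℕ) [Fact ℓ.Prime] (hℓN : ¬ ℓ ∣ N)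
    (A : ValuationSubring (AlgebraicClosure ℚ)) (hA : A.LiesOverPrime ℓ) (h2N : 2 ∣ N) :
    GenusLeAt N A := by
  have hk := Lib.helper6879.isAlgClosed_residueField A
  have hdeg := helper4665.gaussResidue_gaussT2_degree N ℓ hℓN A hA h2N
  have hfd := hdeg.2.1
  have hsep := helper4665.gaussResidue_gaussT2_isSeparable N ℓ hℓN A hA h2N
  have hℓ2 : ℓ ≠ 2 := fun h => hℓN (h ▸ h2N)
  have hc0 : A.valuation (-64 : AlgebraicClosure ℚ) = 1 := by
    have h := helper789.valuation_intCast_eq_one ℓ A hA (-64) (by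
      intro hd
      have h1 : (ℓ : ℤ) ∣ 2 ^ 6 := by
        rw [show (2 : ℤ) ^ 6 = -(-64) by norm_num]
        exact (dvd_neg).mpr hd
      have h2 : ℓ ∣ 2 ^ 6 := by exact_mod_cast h1
      have h3 : ℓ ∣ 2 := (Fact.out : ℓ.Prime).dvd_of_dvd_pow h2
      exact hℓ2 ((Nat.prime_dvd_prime_iff_eq (Fact.out : ℓ.Prime) Nat.prime_two).mp h3))
    simpa using h
  refine genusLeAt_of_line N ℓ hℓN A hA _
    (helper4665.gauss_resTranscendental_t2 N ℓ hℓN A hA h2N)
    (helper4665.gaussJ_mem_adjoin_gaussT2 N h2N) (helper4665.gaussT2_mem N ℓ hℓN A hA h2N)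
    hdeg.1 (-64) hc0 ?_
  intro v c hc0' hc hv
  refine helper2866.FN_level2_ord_sub_eq_one N _ ?_ c hc0' hc v hv
  rw [helper789.jBar_eq_gaussJ]
  exact helper4665.gaussJ_mul_gaussT2_sq N h2N

/-- **The genus inequality at levels divisible by `3`** (`ℓ ∤ N`, hence `ℓ ≠ 3`). -/
theorem genusLeAt_three (N : ℕ) [NeZero N] (ℓ : ℕ) [Fact ℓ.Prime] (hℓN : ¬ ℓ ∣ N)
    (A : ValuationSubring (AlgebraicClosure ℚ)) (hA : A.LiesOverPrime ℓ) (h3N : 3 ∣ N) :
    GenusLeAt N A := by
  have hk := Lib.helper6879.isAlgClosed_residueField A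
  have hdeg := helper4665.gaussResidue_gaussT3_degree N ℓ hℓN A hA h3N
  have hfd := hdeg.2.1
  have hsep := helper4665.gaussResidue_gaussT3_isSeparable N ℓ hℓN A hA h3N
  have hℓ3 : ℓ ≠ 3 := fun h => hℓN (h ▸ h3N)
  have hc0 : A.valuation (-27 : AlgebraicClosure ℚ) = 1 := by
    have h := helper789.valuation_intCast_eq_one ℓ A hA (-27) (by
      intro hd
      have h1 : (ℓ : ℤ) ∣ 3 ^ 3 := by
        rw [show (3 : ℤ) ^ 3 = -(-27) by norm_num]
        exact (dvd_neg).mpr hd
      have h2 : ℓ ∣ 3 ^ 3 := by exact_mod_cast h1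
      have h3 : ℓ ∣ 3 := (Fact.out : ℓ.Prime).dvd_of_dvd_pow h2
      exact hℓ3 ((Nat.prime_dvd_prime_iff_eq (Fact.out : ℓ.Prime) Nat.prime_three).mp h3))
    simpa using h
  refine genusLeAt_of_line N ℓ hℓN A hA _
    (helper4665.gauss_resTranscendental_t3 N ℓ hℓN A hA h3N)
    (helper4665.gaussJ_mem_adjoin_gaussT3 N h3N) (helper4665.gaussT3_mem N ℓ hℓN A hA h3N)
    hdeg.1 (-27) hc0 ?_
  intro v c hc0' hc hv
  refine helper2866.FN_level3_ord_sub_eq_one N _ ?_ c hc0' hc v hv
  rw [helper789.jBar_eq_gaussJ]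
  exact helper4665.gaussJ_mul_gaussT3_cube N h3N

end Line

section Aux

variable (p : ℕ) [NeZero p] (ℓ : ℕ) [Fact ℓ.Prime] (hℓp : ¬ ℓ ∣ p)

include hℓp in
/-- **GENUS at the auxiliary level**: no hypothesis left. -/
theorem stmt_GenusLe_aux : Stmt_GenusLe (Fermat.Agent.S19.helper2289.auxLevel p ℓ) ℓ := by
  intro A hA
  have hℓM := Fermat.Agent.S19.helper2289.not_dvd_auxLevel (Fact.out : ℓ.Prime) hℓp
  by_cases h2 : ℓ = 2
  · have h3 : 3 ∣ Fermat.Agent.S19.helper2289.auxLevel p ℓ := by
      unfold Fermat.Agent.S19.helper2289.auxLevel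
      rw [if_pos h2]
      exact Nat.dvd_lcm_right p 3
    exact genusLeAt_three _ ℓ hℓM A hA h3
  · have h2' : 2 ∣ Fermat.Agent.S19.helper2289.auxLevel p ℓ := by
      unfold Fermat.Agent.S19.helper2289.auxLevel
      rw [if_neg h2]
      exact Nat.dvd_lcm_right p 2
    exact genusLeAt_two _ ℓ hℓM A hA h2'

/-- **GATE at the auxiliary level**: the lattice bundle of the Gauss pair holds at every place
of `ℚ̄` over `ℓ`; no hypothesis left. -/
theorem stmt_GateLat_aux :
    Stmt_GateLat (Fermat.Agent.S19.helper2289.auxLevel p ℓ) ℓ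
      (Fermat.Agent.S19.helper2289.not_dvd_auxLevel (Fact.out : ℓ.Prime) hℓp) :=
  stmt_GateLat_of_genusLe _ ℓ _ (stmt_GenusLe_aux p ℓ hℓp)

end Aux

/-- **The root of S19 with the gate discharged**: the frozen statement S19 from the geometric
core and the spine at the auxiliary level `auxLevel p ℓ`. -/
theorem result_of_core (p : ℕ) [NeZero p] (ℓ : ℕ) [Fact ℓ.Prime] (hℓp : ¬ ℓ ∣ p) (k : ℕ)
    (hcore : Stmt_CoreAt (Fermat.Agent.S19.helper2289.auxLevel p ℓ) ℓ
      (Fermat.Agent.S19.helper2289.not_dvd_auxLevel (Fact.out : ℓ.Prime) hℓp))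
    (hspine : Stmt_Spine ℓ (Fermat.Agent.S19.helper2289.auxLevel p ℓ)) :
    ∃ (H : Type) (_ : CommRing H) (_ : HopfAlgebra (GaloisRep.ratLocalizedAt ℓ) H),
      Module.Finite (GaloisRep.ratLocalizedAt ℓ) H ∧ Module.Flat (GaloisRep.ratLocalizedAt ℓ) H ∧
      Coalgebra.IsCocomm (GaloisRep.ratLocalizedAt ℓ) H ∧
      ∃ e : WithConv (H →ₐ[GaloisRep.ratLocalizedAt ℓ] AlgebraicClosure ℚ) ≃
          ↥(Submodule.torsionBy ℤ (JZero p) ((ℓ : ℤ) ^ k)),
        (∀ f g, e (f * g) = e f + e g) ∧
        ∀ (σ : AlgebraicClosure ℚ ≃ₐ[ℚ] AlgebraicClosure ℚ)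
          (f g : WithConv (H →ₐ[GaloisRep.ratLocalizedAt ℓ] AlgebraicClosure ℚ)),
          (∀ h : H, g h = σ (f h)) → ((e g : JZero p)) = σ • (e f : JZero p) :=
  result_of_gate p ℓ hℓp k (stmt_GateLat_aux p ℓ hℓp) hcore hspine

end Fermat.Agent.S19.helper3573

end
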