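/-
S19-GATE-GENUS / S37-C1-(iii) HGENUS (helper4426).

The genus gate in COORDINATE-FREE form.  S18 track A proves the chart-genus inequality
`γ(F, x) ≤ γ(F_k, x̄)` on ONE base line `x` (a Hauptmodul `t_r` at an auxiliary level, or `j`).
Consumers (S37 lattice reduction `helper5413.latHyp_of_riemann`, S19 normality of the special
fibre charts) need it in line-independent form:

* `chartGenus_eq_riemannGenus` : over an algebraically closed constant field, the chart genus
  `helper789.chartGenus K x` of ANY transcendental `x` is the Riemann genus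
  `helper981.riemannGenus K F` (Prelude places); hence it does not depend on `x`
  (`chartGenus_eq_chartGenus`) and equals the Prelude `genusFF` (`chartGenus_eq_genusFF`).
* `riemannGenus_le_of_chartGenus_le`, `chartGenus_le_chartGenus_of_le` : transport of the
  inequality between two fibres to the Riemann genera / to another pair of lines.
* `riemannGenus_le_of_lineGenus` : the same conclusion from the four clauses of
  `helper2030.LineData.genus` (Riemann's inequality with `γ` on the generic fibre, chart-space
  bound with the same `γ` on the special fibre) and `d ≤ [F_k : k(x̄)]`.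
* `exists_genus_two_fibres_of_le`, `riemannGenus_le_of_genusEq` : the `GenusEq` form (one `g`
  for both fibres) is equivalent to the inequality of Riemann genera.
* `finrank_icl_quot_eq_chartGenus`, `normal_genus_of_gate` : the (genus) hypothesis of
  `S19/helper3293.charts_eq_icl` (normality of the special-fibre charts) from the gate.
-/
import Mathlib
import Fermat.Prelude.Def_AlgebraicCurve_Repartitions
import Fermat.Agent.S18.helper981_FundEq
import Fermat.Agent.S18.helper8566_GenusBridge
import Fermat.Agent.S18.helper789_ChartInst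
import Fermat.Agent.S18.helper4307_PlacesAnyChar

set_option autoImplicit false

namespace Fermat.Agent.S19.helper4426

open AlgebraicCurve IntermediateField Module
open Fermat.Agent.S18

section OneFibre

variable {K F : Type*} [Field K] [Field F] [Algebra K F]

/-- A function field over an algebraically closed field has a place. -/
theorem nonempty_place [IsAlgClosed K] (x : F) (hx : Transcendental K x)
    [FiniteDimensional K⟮x⟯ F] : Nonempty (Place K F) := by
  obtain ⟨s, -, hsum⟩ := helper4307.exists_finset_poles x hx
  by_contra hne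
  rw [not_nonempty_iff] at hne
  have hs : s = ∅ := Finset.eq_empty_of_isEmpty s
  rw [hs, Finset.sum_empty] at hsum
  have hpos : 0 < finrank K⟮x⟯ F := finrank_pos
  have : (0 : ℤ) < (finrank K⟮x⟯ F : ℤ) := by exact_mod_cast hpos
  omega

/-- **Chart genus = Riemann genus**, place package given. -/
theorem riemannGenus_eq_chartGenus_of_places [IsAlgClosed K] [HasPrincipalDivisors K F]
    (hdeg : ∀ v : Place K F, v.deg = 1) (P₀ : Place K F)
    (x : F) (hx : Transcendental K x) [FiniteDimensional K⟮x⟯ F] :
    helper981.riemannGenus K F = helper789.chartGenus K x := by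
  have hx0 : x ≠ 0 := fun h => hx (h ▸ isAlgebraic_zero)
  obtain ⟨Xinf, hXinf⟩ := helper981.exists_poleDivisor (K := K) hx0
  obtain ⟨X0, hX0⟩ := helper981.exists_zeroDivisor (K := K) hx0
  have hRB := helper981.hasRiemannBound_of_transcendental' x hx P₀ hdeg
  have hd := helper981.degree_poleDivisor_eq_finrank hdeg P₀ x hx Xinf hXinf
  have hchart := helper789.hchart_of_isAlgClosed x hx (helper8566.chartSpace K x)
    (fun a b g => helper8566.mem_chartSpace)
  have h := helper8566.riemannGenus_eq_of_chart hdeg P₀ hRB hx0 hXinf hX0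
    (helper8566.chartIntegral_of_perfect x) (helper8566.chartIntegral_inv_of_perfect x) hd
    finrank_pos hchart
  exact_mod_cast h

/-- **Chart genus = Riemann genus** over an algebraically closed constant field: no hypothesis
besides `x` transcendental and `[F : K(x)] < ∞`. -/
theorem chartGenus_eq_riemannGenus [IsAlgClosed K] (x : F) (hx : Transcendental K x)
    [FiniteDimensional K⟮x⟯ F] :
    helper789.chartGenus K x = helper981.riemannGenus K F := by
  have := helper4307.hasPrincipalDivisors x hx
  obtain ⟨P₀⟩ := nonempty_place x hx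
  exact (riemannGenus_eq_chartGenus_of_places (helper4307.place_deg_eq_one x hx) P₀ x hx).symm

/-- **Coordinate independence of the chart genus.** -/
theorem chartGenus_eq_chartGenus [IsAlgClosed K] (x x' : F) (hx : Transcendental K x)
    (hx' : Transcendental K x') [FiniteDimensional K⟮x⟯ F] [FiniteDimensional K⟮x'⟯ F] :
    helper789.chartGenus K x = helper789.chartGenus K x' := by
  rw [chartGenus_eq_riemannGenus x hx, chartGenus_eq_riemannGenus x' hx']

/-- Riemann's inequality over an algebraically closed constant field. -/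
theorem hasRiemannBound [IsAlgClosed K] (x : F) (hx : Transcendental K x)
    [FiniteDimensional K⟮x⟯ F] : helper981.HasRiemannBound K F := by
  have := helper4307.hasPrincipalDivisors x hx
  obtain ⟨P₀⟩ := nonempty_place x hx
  exact helper981.hasRiemannBound_of_transcendental' x hx P₀ (helper4307.place_deg_eq_one x hx)

/-- The chart genus is the Prelude genus `genusFF`. -/
theorem chartGenus_eq_genusFF [IsAlgClosed K] (x : F) (hx : Transcendental K x)
    [FiniteDimensional K⟮x⟯ F] :
    helper789.chartGenus K x = genusFF K F := by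
  have := helper4307.hasPrincipalDivisors x hx
  obtain ⟨P₀⟩ := nonempty_place x hx
  rw [chartGenus_eq_riemannGenus x hx]
  exact (helper981.genusFF_eq_riemannGenus (helper4307.place_deg_eq_one x hx) P₀
    (hasRiemannBound x hx)).symm

/-- Riemann's theorem with the chart genus of ANY line `x`. -/
theorem riemann_chartGenus [IsAlgClosed K] (x : F) (hx : Transcendental K x)
    [FiniteDimensional K⟮x⟯ F] :
    (∀ D : Divisor K F,
      Divisor.degree D + 1 - (helper789.chartGenus K x : ℤ)
        ≤ (finrank K (riemannRochSpace D) : ℤ)) ∧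
    ∃ c : ℤ, ∀ D : Divisor K F, c ≤ Divisor.degree D →
      (finrank K (riemannRochSpace D) : ℤ)
        = Divisor.degree D + 1 - (helper789.chartGenus K x : ℤ) := by
  have := helper4307.hasPrincipalDivisors x hx
  obtain ⟨P₀⟩ := nonempty_place x hx
  rw [chartGenus_eq_riemannGenus x hx]
  exact helper981.exists_forall_finrank_eq_of_transcendental x hx P₀
    (helper4307.place_deg_eq_one x hx)

end OneFibre

section TwoFibres

variable {L F k Fk : Type*} [Field L] [Field F] [Algebra L F] [Field k] [Field Fk] [Algebra k Fk]

/-- The chart-genus inequality on one pair of lines gives the inequality of Riemann genera. -/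
theorem riemannGenus_le_of_chartGenus_le [IsAlgClosed L] [IsAlgClosed k]
    (x : F) (hx : Transcendental L x) [FiniteDimensional L⟮x⟯ F]
    (y : Fk) (hy : Transcendental k y) [FiniteDimensional k⟮y⟯ Fk]
    (h : helper789.chartGenus L x ≤ helper789.chartGenus k y) :
    helper981.riemannGenus L F ≤ helper981.riemannGenus k Fk := by
  rwa [← chartGenus_eq_riemannGenus x hx, ← chartGenus_eq_riemannGenus y hy]

/-- Conversely, the inequality of Riemann genera gives the chart-genus inequality on every pair
of lines. -/
theorem chartGenus_le_of_riemannGenus_le [IsAlgClosed L] [IsAlgClosed k]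
    (x : F) (hx : Transcendental L x) [FiniteDimensional L⟮x⟯ F]
    (y : Fk) (hy : Transcendental k y) [FiniteDimensional k⟮y⟯ Fk]
    (h : helper981.riemannGenus L F ≤ helper981.riemannGenus k Fk) :
    helper789.chartGenus L x ≤ helper789.chartGenus k y := by
  rwa [chartGenus_eq_riemannGenus x hx, chartGenus_eq_riemannGenus y hy]

/-- **Change of line**: the chart-genus inequality for `(x, y)` gives it for `(x', y')`. -/
theorem chartGenus_le_chartGenus_of_le [IsAlgClosed L] [IsAlgClosed k]
    (x : F) (hx : Transcendental L x) [FiniteDimensional L⟮x⟯ F]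
    (y : Fk) (hy : Transcendental k y) [FiniteDimensional k⟮y⟯ Fk]
    (x' : F) (hx' : Transcendental L x') [FiniteDimensional L⟮x'⟯ F]
    (y' : Fk) (hy' : Transcendental k y') [FiniteDimensional k⟮y'⟯ Fk]
    (h : helper789.chartGenus L x ≤ helper789.chartGenus k y) :
    helper789.chartGenus L x' ≤ helper789.chartGenus k y' :=
  chartGenus_le_of_riemannGenus_le x' hx' y' hy'
    (riemannGenus_le_of_chartGenus_le x hx y hy h)

/-- The Riemann genus is at most any integer `γ` satisfying Riemann's inequality. -/
theorem riemannGenus_le_max {γ : ℤ}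
    (hRiem : ∀ D : Divisor L F,
      Divisor.degree D + 1 - γ ≤ (finrank L (riemannRochSpace D) : ℤ)) :
    (helper981.riemannGenus L F : ℤ) ≤ max γ 0 := by
  have hmem : (max γ 0).toNat ∈ {g : ℕ | ∀ D : Divisor L F,
      Divisor.degree D + 1 - (g : ℤ) ≤ (finrank L (riemannRochSpace D) : ℤ)} := by
    intro D
    have h1 := hRiem D
    have h2 : ((max γ 0).toNat : ℤ) = max γ 0 := Int.toNat_of_nonneg (le_max_right _ _)
    rw [h2]
    have h3 : γ ≤ max γ 0 := le_max_left _ _
    linarith
  have h4 : helper981.riemannGenus L F ≤ (max γ 0).toNat := Nat.sInf_le hmem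
  have h5 : ((max γ 0).toNat : ℤ) = max γ 0 := Int.toNat_of_nonneg (le_max_right _ _)
  rw [← h5]
  exact_mod_cast h4

/-- **(iii) `hgenus` from the line data.**  Generic fibre `F / L` with Riemann's inequality for
the integer `γ`; special fibre `Fk / k` (perfect constant field, principal divisors, places of
degree one) with a line `y` such that the chart spaces `x⁻ᵇ B₁ ∩ xᵃ B₂` have dimension
`≤ (a + b) d + 1 - γ` in large degree, where `d ≤ [Fk : k(y)]`.  Then
`riemannGenus L F ≤ riemannGenus k Fk`. -/
theorem riemannGenus_le_of_lineGenus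
    [PerfectField k] [HasPrincipalDivisors k Fk] (hdegk : ∀ Q : Place k Fk, Q.deg = 1)
    (Q₀ : Place k Fk) (y : Fk) (hy : Transcendental k y) [FiniteDimensional k⟮y⟯ Fk]
    (d : ℕ) (γ : ℤ) (hd : 0 < d) (hdk : d ≤ finrank k⟮y⟯ Fk)
    (hRiemF : ∀ D : Divisor L F,
      Divisor.degree D + 1 - γ ≤ (finrank L (riemannRochSpace D) : ℤ))
    (hgap : ∃ cK : ℤ, ∀ a b : ℕ, cK ≤ ((a : ℤ) + b) * d →
      (finrank k (helper8566.chartSpace k y a b) : ℤ) ≤ ((a : ℤ) + b) * d + 1 - γ) :
    helper981.riemannGenus L F ≤ helper981.riemannGenus k Fk := by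
  have hy0 : y ≠ 0 := fun h => hy (h ▸ isAlgebraic_zero)
  obtain ⟨Yinf, hYinf⟩ := helper981.exists_poleDivisor (K := k) hy0
  obtain ⟨Y0, hY0⟩ := helper981.exists_zeroDivisor (K := k) hy0
  have hRB := helper981.hasRiemannBound_of_transcendental' y hy Q₀ hdegk
  have hdinf := helper981.degree_poleDivisor_eq_finrank hdegk Q₀ y hy Yinf hYinf
  have hd0 := helper981.degree_zeroDivisor_eq_finrank hdegk Q₀ y hy Y0 hY0
  obtain ⟨cK, hcK⟩ := hgap
  -- the key inequality `γ ≤ g(Fk)`
  have hγ : γ ≤ (helper981.riemannGenus k Fk : ℤ) := by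
    set n : ℕ := cK.toNat with hn
    have hcn : cK ≤ (n : ℤ) := Int.self_le_toNat cK
    have hdZ : (1 : ℤ) ≤ (d : ℤ) := by exact_mod_cast hd
    have hle : cK ≤ ((n : ℤ) + n) * d := by nlinarith [Int.natCast_nonneg n]
    have h1 := hcK n n hle
    have h2 := helper8566.riemannRochSpace_eq_chartSpace_of_perfect hy0 hYinf hY0 n n
    have h3 := helper981.riemannGenus_mem hRB (n • Yinf + n • Y0)
    rw [h2, map_add, map_nsmul, map_nsmul, hdinf, hd0, nsmul_eq_mul] at h3
    have hdk' : (d : ℤ) ≤ (finrank k⟮y⟯ Fk : ℤ) := by exact_mod_cast hdk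
    nlinarith [Int.natCast_nonneg n]
  have h1 := riemannGenus_le_max hRiemF
  have h2 : max γ 0 ≤ (helper981.riemannGenus k Fk : ℤ) := max_le hγ (Int.natCast_nonneg _)
  exact_mod_cast h1.trans h2

/-- **`GenusEq` from the inequality of Riemann genera**: one `g` with Riemann's inequality on
the generic fibre and the reverse inequality in large degree on the special fibre (the
conclusion of `helper8566.exists_genus_two_fibres`). -/
theorem exists_genus_two_fibres_of_le
    [HasPrincipalDivisors k Fk] (hdegk : ∀ Q : Place k Fk, Q.deg = 1) (Q₀ : Place k Fk)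
    (hRBL : helper981.HasRiemannBound L F) (hRBk : helper981.HasRiemannBound k Fk)
    (h : helper981.riemannGenus L F ≤ helper981.riemannGenus k Fk) :
    ∃ g : ℕ,
      (∀ D : Divisor L F,
        Divisor.degree D + 1 - (g : ℤ) ≤ (finrank L (riemannRochSpace D) : ℤ)) ∧
      (∃ c : ℤ, ∀ D' : Divisor k Fk, c ≤ Divisor.degree D' →
        (finrank k (riemannRochSpace D') : ℤ) ≤ Divisor.degree D' + 1 - (g : ℤ)) := by
  refine ⟨helper981.riemannGenus k Fk, fun D => ?_, ?_⟩
  · have h1 := helper981.riemannGenus_mem hRBL D
    have h2 : (helper981.riemannGenus L F : ℤ) ≤ (helper981.riemannGenus k Fk : ℤ) := by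
      exact_mod_cast h
    linarith
  · obtain ⟨c, hc⟩ := helper981.exists_forall_finrank_eq hdegk Q₀ hRBk
    exact ⟨c, fun D' hD' => (hc D' hD').le⟩

/-- Conversely, `GenusEq` gives the inequality of Riemann genera. -/
theorem riemannGenus_le_of_genusEq
    [HasPrincipalDivisors k Fk] (hdegk : ∀ Q : Place k Fk, Q.deg = 1) (Q₀ : Place k Fk)
    (hRBk : helper981.HasRiemannBound k Fk)
    (h : ∃ g : ℕ,
      (∀ D : Divisor L F,
        Divisor.degree D + 1 - (g : ℤ) ≤ (finrank L (riemannRochSpace D) : ℤ)) ∧
      (∃ c : ℤ, ∀ D' : Divisor k Fk, c ≤ Divisor.degree D' →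
        (finrank k (riemannRochSpace D') : ℤ) ≤ Divisor.degree D' + 1 - (g : ℤ))) :
    helper981.riemannGenus L F ≤ helper981.riemannGenus k Fk := by
  obtain ⟨g, hg, c, hc⟩ := h
  have h1 : helper981.riemannGenus L F ≤ g := Nat.sInf_le hg
  have h2 : (g : ℤ) ≤ (helper981.riemannGenus k Fk : ℤ) := by
    set D' : Divisor k Fk := c.toNat • Finsupp.single Q₀ (1 : ℤ) with hD'
    have hdeg : Divisor.degree D' = (c.toNat : ℤ) := by
      rw [hD', map_nsmul, helper981.degree_single_one hdegk Q₀, nsmul_eq_mul, mul_one]
    have h3 := hc D' (by rw [hdeg]; exact Int.self_le_toNat c)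
    have h4 := helper981.riemannGenus_mem hRBk D'
    linarith
  exact h1.trans (by exact_mod_cast h2)

end TwoFibres

section Normal

variable {K F : Type*} [Field K] [Field F] [Algebra K F]

/-- The right-hand side of the (genus) hypothesis of `S19/helper3293.charts_eq_icl`
(`dim N₀₁ / (N₀ + N₁)` for the three integral closures) is the chart genus. -/
theorem finrank_icl_quot_eq_chartGenus (x : F) (hx0 : x ≠ 0) :
    finrank K ((Subalgebra.toSubmodule (helper5122.icl (Algebra.adjoin K {x, x⁻¹}))).map
      (Subalgebra.toSubmodule (helper5122.icl (Algebra.adjoin K {x})) ⊔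
        Subalgebra.toSubmodule (helper5122.icl (Algebra.adjoin K {x⁻¹}))).mkQ)
      = helper789.chartGenus K x := by
  have h := helper789.chartGenus_eq_relDim (K := K) (x := x)
    (Subalgebra.toSubmodule (helper5122.icl (Algebra.adjoin K {x})))
    (Subalgebra.toSubmodule (helper5122.icl (Algebra.adjoin K {x⁻¹})))
    (Subalgebra.toSubmodule (helper5122.icl (Algebra.adjoin K {x, x⁻¹})))
    (fun φ => Iff.rfl) (fun φ => Iff.rfl) (fun φ => ?_)
  · rw [h]
    rfl
  · constructor
    · intro hφ
      exact helper5122.icl_pair_scale (A := K) x hx0 φ hφ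
    · rintro ⟨n, hn⟩
      have h1 : IsIntegral (Algebra.adjoin K {x, x⁻¹}) (x ^ n * φ) :=
        helper5122.isIntegral_mono (Algebra.adjoin_mono (by simp)) (helper5122.mem_icl.mp hn)
      have hxi : x⁻¹ ∈ Algebra.adjoin K {x, x⁻¹} := Algebra.subset_adjoin (by simp)
      have h2 : IsIntegral (Algebra.adjoin K {x, x⁻¹}) (x⁻¹ ^ n) :=
        (isIntegral_algebraMap (R := Algebra.adjoin K {x, x⁻¹}) (A := F)
          (x := ⟨x⁻¹, hxi⟩)).pow n
      have h3 : φ = x⁻¹ ^ n * (x ^ n * φ) := by
        rw [← mul_assoc, ← mul_pow, inv_mul_cancel₀ hx0, one_pow, one_mul]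
      show IsIntegral (Algebra.adjoin K {x, x⁻¹}) φ
      rw [h3]
      exact h2.mul h1

variable {L E : Type*} [Field L] [Field E] [Algebra L E]

/-- **(G4) The (genus) hypothesis of `S19/helper3293.charts_eq_icl` from the gate.**
`E / L` the generic fibre with a line `xL`, `F / K` the special fibre with a line `x`
(both constant fields algebraically closed), `S0 S1 S01` the three special-fibre charts.
If `dim S01/(S0 + S1)` is at most the chart genus of the generic fibre (`p_a = rank H¹`, base
change of the free Čech module) and the Riemann genera satisfy the gate inequality, then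
`dim S01/(S0 + S1) ≤ dim N01/(N0 + N1)`. -/
theorem normal_genus_of_gate [IsAlgClosed L] [IsAlgClosed K]
    (xL : E) (hxL : Transcendental L xL) [FiniteDimensional L⟮xL⟯ E]
    (x : F) (hx : Transcendental K x) [FiniteDimensional K⟮x⟯ F]
    (hgate : helper981.riemannGenus L E ≤ helper981.riemannGenus K F)
    (S0 S1 S01 : Subalgebra K F)
    (hrank : finrank K ((Subalgebra.toSubmodule S01).map
        (Subalgebra.toSubmodule S0 ⊔ Subalgebra.toSubmodule S1).mkQ)
      ≤ helper789.chartGenus L xL) :
    finrank K ((Subalgebra.toSubmodule S01).map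
        (Subalgebra.toSubmodule S0 ⊔ Subalgebra.toSubmodule S1).mkQ)
      ≤ finrank K ((Subalgebra.toSubmodule (helper5122.icl (Algebra.adjoin K {x, x⁻¹}))).map
        (Subalgebra.toSubmodule (helper5122.icl (Algebra.adjoin K {x})) ⊔
          Subalgebra.toSubmodule (helper5122.icl (Algebra.adjoin K {x⁻¹}))).mkQ) := by
  have hx0 : x ≠ 0 := fun h => hx (h ▸ isAlgebraic_zero)
  rw [finrank_icl_quot_eq_chartGenus x hx0]
  exact hrank.trans (chartGenus_le_of_riemannGenus_le xL hxL x hx hgate)

end Normal

end Fermat.Agent.S19.helper4426
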