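import Fermat.Agent.S19.helper5161_CoreLoc
import Fermat.Agent.S19.helper6256_CoreAt
import Fermat.Agent.S19.helper2111_Gate

/-!
# S19 core with (Loc), (Zero), (Onto): hypothesis-free exports

The export `exists_isCoordSystem_loc_of_cover` of `helper5161_CoreLoc` instantiated along the
landed main line of S19 (`helper6256.calgCoverAt_of_gate`, `helper6256.gaussRatAt`, and the gate
`helper2111.stmt_GateLat_auxLevel`):

* `exists_isCoordSystem_loc_of_gate` : at every level `M` prime to `ℓ` and every place `A` of `ℚ̄`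
  over `ℓ` where the gate holds;
* `exists_isCoordSystem_loc_auxLevel` : at the auxiliary level `helper2289.auxLevel p ℓ`, for
  every `p ≠ 0` prime to `ℓ` and every place `A` of `ℚ̄` over `ℓ`; no hypothesis.

In both, `J₀` carries a coordinate system `(g, J1, b)` in the sense of the captain's
`helper2111.IsCoordSystem` such that moreover

* (Loc)  `b x i ∈ 𝔪_A` for `x ∈ J1`;
* (Zero) `b 0 = 0`;
* (Onto) every family of `g` elements of `𝔪_A` is `b x` for some `x ∈ J1`.
-/

set_option autoImplicit false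

namespace Fermat.Agent.S19.helper5161

open ModularCurve
open Fermat.Agent.S19.helper2111

/-- **S19 core with (Loc), (Zero), (Onto)** at a level `M` prime to `ℓ`, at a place `A` of `ℚ̄`
over `ℓ` where the gate holds. -/
theorem exists_isCoordSystem_loc_of_gate (M : ℕ) [NeZero M] (ℓ : ℕ) [Fact ℓ.Prime]
    (hℓM : ¬ ℓ ∣ M) (A : ValuationSubring Qb) (hA : A.LiesOverPrime ℓ)
    (hgate : Fermat.Agent.S19.helper3573.GateAt M ℓ hℓM A hA) :
    ∃ (g : ℕ) (J1 : AddSubgroup (JZero M)) (b : JZero M → Fin g → Qb),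
      IsCoordSystem ℓ M A g J1 b ∧
      (∀ x ∈ J1, ∀ i, b x i ∈ A.nonunits) ∧
      (∀ i, b 0 i = 0) ∧
      (∀ a : Fin g → Qb, (∀ i, a i ∈ A.nonunits) → ∃ x ∈ J1, b x = a) :=
  exists_isCoordSystem_loc_of_cover
    (Fermat.Agent.S19.helper6256.calgCoverAt_of_gate M ℓ hℓM A hA
      (Fermat.Agent.S19.helper6256.gaussRatAt M ℓ hℓM A hA) hgate)

/-- **S19 core with (Loc), (Zero), (Onto) at the auxiliary level**, no hypothesis: for `p ≠ 0`
prime to `ℓ` and every place `A` of `ℚ̄` over `ℓ`, `J₀(auxLevel p ℓ)` carries a coordinate system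
on the kernel of reduction at `A` whose coordinates are a bijection onto `(𝔪_A)^g`. -/
theorem exists_isCoordSystem_loc_auxLevel (p : ℕ) [NeZero p] (ℓ : ℕ) [Fact ℓ.Prime]
    (hℓp : ¬ ℓ ∣ p) (A : ValuationSubring Qb) (hA : A.LiesOverPrime ℓ) :
    ∃ (g : ℕ) (J1 : AddSubgroup (JZero (Fermat.Agent.S19.helper2289.auxLevel p ℓ)))
      (b : JZero (Fermat.Agent.S19.helper2289.auxLevel p ℓ) → Fin g → Qb),
      IsCoordSystem ℓ (Fermat.Agent.S19.helper2289.auxLevel p ℓ) A g J1 b ∧
      (∀ x ∈ J1, ∀ i, b x i ∈ A.nonunits) ∧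
      (∀ i, b 0 i = 0) ∧
      (∀ a : Fin g → Qb, (∀ i, a i ∈ A.nonunits) → ∃ x ∈ J1, b x = a) :=
  exists_isCoordSystem_loc_of_gate (Fermat.Agent.S19.helper2289.auxLevel p ℓ) ℓ
    (Fermat.Agent.S19.helper2289.not_dvd_auxLevel (Fact.out : ℓ.Prime) hℓp) A hA
    (stmt_GateLat_auxLevel p ℓ hℓp A hA)

end Fermat.Agent.S19.helper5161
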