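import Mathlib
import Fermat.Prelude.Def_AlgebraicCurve_DivisorClassGroup
import Fermat.Prelude.Def_AlgebraicCurve_BaseChangeGalois
import Fermat.Prelude.Def_AlgebraicCurve_Repartitions
import Fermat.Agent.S37.helper126_TorsionCore
import Fermat.Agent.S37.helper126_TorsionGlue
import Fermat.Agent.S37.helper2023_ChartNormal
import Fermat.Agent.S19.helper2007_Discs
import Fermat.Agent.S19.helper2007_Centres

/-!
# S19-CALG-BOOT : the first inertia-fixed disc coordinates and places

Setting: the abstract valued function field of `Fermat.Agent.S37.helper126` (section `Core`):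
`F / K`, `O : ValuationSubring F` (Gauss ring), `red : O →+* Fk`, `sp : Place K F → Place k Fk`
with the conservation law; `G` a set of semilinear automorphisms of `F / K` (the image of the
inertia group).

The C-alg chain needs a first `G`-fixed divisor: `helper2007.HasFixedCoord` (CALG-CEN) asks for
a `G`-fixed disc coordinate at a place `s` of the special fibre, and the rationality lemma
(CALG-RAT) only produces `G`-fixed functions in `L(E)` for a `G`-FIXED divisor `E`.  The pole
divisor `(x)_∞` and the zero divisor `(x)_0` of a `G`-fixed coordinate `x` are `G`-fixed, their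
push-forwards are the pole and the zero divisor of the reduction of `x`, and every place of the
special fibre avoids one of the two.  Hence:

* `hasFixedCoord_of_anchor` (abstract): a `G`-fixed effective divisor `D` with
  `(sp_* D) s = 0 < (sp_* D) q` gives a `G`-fixed disc coordinate at `s`, from the three
  inputs (SZ) a function of `L_k(n q)` with a simple zero at `s`, (LIFT) reduction is onto
  `L_k(sp_* (n D))`, (RAT) `FixedLifts O G`;
* `hasFixedCoord_of_latHyp` : for the lattice place reduction `H.placeRed` of a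
  `helper5413.LatHyp` whose anchor is the pole divisor of a `G`-fixed coordinate `x`, EVERY
  place of the special fibre has a `G`-fixed disc coordinate;
* `hasFixedLift_of_latHyp`, `exists_fixed_centre_of_latHyp` : hence every residue disc contains
  a `G`-fixed place, and every class of `Pic0` is congruent to a `G`-fixed class modulo the
  specialisation kernel (the conclusion of `helper2007.exists_fixed_centre`).
-/

set_option autoImplicit false

namespace Fermat.Agent.S19.helper5236

open AlgebraicCurve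
open Fermat.Agent.S37.helper126
open Fermat.Agent.S19.helper2007
open scoped Pointwise

section Abstract

variable {K F k Fk : Type*} [Field K] [Field F] [Algebra K F] [Field k] [Field Fk] [Algebra k Fk]
variable {O : ValuationSubring F} {red : O →+* Fk} {sp : Place K F → Place k Fk}

/-- A divisor which is effective on the tube of `s` and whose push-forward vanishes at `s`
vanishes on the tube of `s`. -/
theorem apply_eq_zero_of_mapDomain_apply_eq_zero {D : Divisor K F} {s : Place k Fk}
    (hD0 : ∀ P, sp P = s → 0 ≤ D P) (hs : Finsupp.mapDomain sp D s = 0) {P : Place K F}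
    (hP : sp P = s) : D P = 0 := by
  have h1 := le_mapDomain_apply sp D s hD0 P hP
  have h2 := hD0 P hP
  omega

/-- (B2) An element of `L(D)` is regular at every place outside the support of `D`. -/
theorem mem_of_mem_rr {D : Divisor K F} {f : F} (hf : f ∈ riemannRochSpace D) {P : Place K F}
    (hP : D P = 0) : f ∈ P.toValuationSubring := by
  rcases Fermat.Agent.S37.helper5413.mem_rr_iff.mp hf with rfl | h
  · exact zero_mem _
  · apply mem_of_ord_nonneg
    have := h P
    rw [hP, neg_zero] at this
    exact this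

/-- (B2) A Gauss-integral element of `L(D)`, `D` effective on the tube of `s` with
`(sp_* D) s = 0`, whose reduction is a uniformiser at `s`, is a disc coordinate at `s`. -/
theorem isCoord_of_mem_rr {D : Divisor K F} {s : Place k Fk} (hD0 : ∀ P, sp P = s → 0 ≤ D P)
    (hs : Finsupp.mapDomain sp D s = 0) {u : F} (huO : u ∈ O) (hu : u ∈ riemannRochSpace D)
    (hord : s.ord (rd O red u) = 1) : IsCoord O red sp s u :=
  ⟨huO, fun _ hP => mem_of_mem_rr hu (apply_eq_zero_of_mapDomain_apply_eq_zero hD0 hs hP), hord⟩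

/-- The multiples of a `g`-fixed divisor are `g`-fixed. -/
theorem smul_nsmul_of_fixed (g : SemilinearAut K F) {D : Divisor K F} (h : g • D = D) (n : ℕ) :
    g • (n • D) = n • D := by
  ext P
  rw [SemilinearAut.divisor_smul_apply, Finsupp.smul_apply, Finsupp.smul_apply,
    ← SemilinearAut.divisor_smul_apply, h]

/-- The Riemann-Roch space of a `g`-fixed divisor is `g`-stable. -/
theorem smul_mem_rr_of_fixed (g : SemilinearAut K F) {D : Divisor K F} (h : g • D = D) {f : F}
    (hf : f ∈ riemannRochSpace D) : g • f ∈ riemannRochSpace D := by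
  rw [Fermat.Agent.S37.helper5413.mem_rr_iff] at hf ⊢
  rcases hf with rfl | hf
  · exact Or.inl (smul_zero g)
  · refine Or.inr fun v => ?_
    have h1 := hf (g⁻¹ • v)
    have h2 : (g • (g⁻¹ • v)).ord (g • f) = (g⁻¹ • v).ord f := SemilinearAut.ord_smul g _ f
    rw [smul_inv_smul] at h2
    have h3 : D (g⁻¹ • v) = D v := by
      rw [← SemilinearAut.divisor_smul_apply, h]
    rw [h2, ← h3]
    exact h1

/-- **(RAT3), the rationality input.**  For every `G`-fixed divisor `E`, every Gauss-integral
element of `L(E)` is congruent modulo the maximal ideal of `O` to a `G`-fixed Gauss-integral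
element of `L(E)`.  (Output shape of CALG-RAT.) -/
def FixedLifts (O : ValuationSubring F) (G : Set (SemilinearAut K F)) : Prop :=
  ∀ E : Divisor K F, (∀ g ∈ G, g • E = E) → ∀ u : F, u ∈ O → u ∈ riemannRochSpace E →
    ∃ u0 : F, u0 ∈ O ∧ u0 ∈ riemannRochSpace E ∧ (∀ g ∈ G, g • u0 = u0) ∧ u - u0 ∈ O.nonunits

/-- **(B3), abstract form.**  A `G`-fixed effective divisor `D` whose push-forward avoids `s`
and meets `q` gives a `G`-fixed disc coordinate at `s`. -/
theorem hasFixedCoord_of_anchor (hker : RedKer O red) {G : Set (SemilinearAut K F)}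
    (hrat : FixedLifts O G) {D : Divisor K F} (hD0 : ∀ P, 0 ≤ D P)
    (hDfix : ∀ g ∈ G, g • D = D) {s q : Place k Fk}
    (hs : Finsupp.mapDomain sp D s = 0) (hq : 0 < Finsupp.mapDomain sp D q) (n : ℕ)
    (hSZ : ∃ y ∈ riemannRochSpace (Finsupp.single q (n : ℤ) : Divisor k Fk), s.ord y = 1)
    (hlift : ∀ y ∈ riemannRochSpace (Finsupp.mapDomain sp (n • D)),
      ∃ u : O, (u : F) ∈ riemannRochSpace (n • D) ∧ red u = y) :
    HasFixedCoord O red sp G s := by
  classical
  obtain ⟨y, hy, hyord⟩ := hSZ
  have hmap : Finsupp.mapDomain sp (n • D) = n • Finsupp.mapDomain sp D :=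
    Finsupp.mapDomain_smul n D
  have hnn : ∀ s', 0 ≤ Finsupp.mapDomain sp D s' := fun s' =>
    mapDomain_apply_nonneg sp D s' fun P _ => hD0 P
  have hle : (Finsupp.single q (n : ℤ) : Divisor k Fk) ≤ Finsupp.mapDomain sp (n • D) := by
    intro v
    rw [hmap, Finsupp.smul_apply, nsmul_eq_mul, Finsupp.single_apply]
    split_ifs with h
    · subst h
      nlinarith [hq, Int.natCast_nonneg n]
    · exact mul_nonneg (Int.natCast_nonneg n) (hnn v)
  obtain ⟨u, hu, hured⟩ := hlift y (Fermat.Agent.S37.helper5413.rr_mono hle hy)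
  obtain ⟨u0, hu0O, hu0, hfix, hsub⟩ :=
    hrat (n • D) (fun g hg => smul_nsmul_of_fixed g (hDfix g hg) n) (u : F) u.2 hu
  have hrd : rd O red u0 = y := by
    have h1 : rd O red ((u : F) - u0) = 0 := (rd_eq_zero_iff hker (sub_mem u.2 hu0O)).mpr hsub
    rw [rd_sub O red u.2 hu0O, rd_of_mem O red u.2, sub_eq_zero] at h1
    rw [← h1, ← hured]
  refine ⟨u0, isCoord_of_mem_rr (D := n • D) (fun P _ => ?_) ?_ hu0O hu0 ?_, hfix⟩
  · rw [Finsupp.smul_apply, nsmul_eq_mul]
    exact mul_nonneg (Int.natCast_nonneg n) (hD0 P)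
  · rw [hmap, Finsupp.smul_apply, hs, smul_zero]
  · rw [hrd]
    exact hyord

end Abstract

/-! ## The lattice place reduction -/

section Lattice

open Fermat.Agent.S37.helper5413

variable {L F k Fk : Type*} [Field L] [Field F] [Algebra L F] [Field k] [Field Fk] [Algebra k Fk]
variable {O : ValuationSubring F} {red : O →+* Fk} {g c : ℤ}
  {E₀ : Divisor L F} {E₀k : Divisor k Fk}

/-- A divisor whose coefficients are a function of the orders of a `γ`-fixed function (its
divisor, its pole divisor, its zero divisor) is `γ`-fixed. -/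
theorem smul_divisor_of_ord (γ : SemilinearAut L F) {x : F} (hx : γ • x = x) {D : Divisor L F}
    (φ : ℤ → ℤ) (hD : ∀ P, D P = φ (P.ord x)) : γ • D = D := by
  ext P
  rw [SemilinearAut.divisor_smul_apply, hD, hD]
  have h2 : (γ • (γ⁻¹ • P)).ord (γ • x) = (γ⁻¹ • P).ord x := SemilinearAut.ord_smul γ _ x
  rw [smul_inv_smul, hx] at h2
  rw [h2]

/-- **Inertia acts trivially on the special fibre**: a semilinear automorphism which preserves
the Gauss ring and commutes with the reduction map preserves every residue disc of the lattice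
place reduction. -/
theorem placeRed_smul_of_red_fixed (H : LatHyp O red g c E₀ E₀k) (γ : SemilinearAut L F)
    (hO : ∀ f : F, f ∈ O → γ • f ∈ O) (hO' : ∀ f : F, f ∈ O → γ⁻¹ • f ∈ O)
    (hred : ∀ (f : O) (hf : γ • (f : F) ∈ O), red ⟨γ • (f : F), hf⟩ = red f)
    (P : Place L F) : H.placeRed (γ • P) = H.placeRed P :=
  H.placeRed_equivariant (SemilinearAut.toRingAut γ) (RingEquiv.refl Fk) (MulAction.toPerm γ)
    (Equiv.refl _) hO hO' hred (fun P f => SemilinearAut.ord_smul γ P f) (fun _ _ => rfl) P

/-- **(B3) Every place of the special fibre has a `G`-fixed disc coordinate**, for the lattice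
place reduction of a `LatHyp` whose anchor divisors are the pole divisors of a `G`-fixed
coordinate `x` and of its reduction. -/
theorem hasFixedCoord_of_latHyp [HasPrincipalDivisors L F] (H : LatHyp O red g c E₀ E₀k)
    (hsurj : Function.Surjective red)
    (hksurj : ∀ b : k, ∃ (a : L) (h : algebraMap L F a ∈ O),
      red ⟨algebraMap L F a, h⟩ = algebraMap k Fk b)
    (x : O) (hE₀ : ∀ P : Place L F, E₀ P = max 0 (-(P.ord (x : F))))
    (hE₀k : ∀ Q : Place k Fk, E₀k Q = max 0 (-(Q.ord (red x))))
    {G : Set (SemilinearAut L F)} (hxG : ∀ γ ∈ G, γ • (x : F) = x) (hrat : FixedLifts O G)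
    (s : Place k Fk) : HasFixedCoord O red H.placeRed G s := by
  classical
  have hker : RedKer O red := redKer_of_nonunit H.red_nonunit
  have hE₀nn : ∀ P, 0 ≤ E₀ P := fun P => by rw [hE₀]; exact le_max_left _ _
  have hmapE₀ : Finsupp.mapDomain H.placeRed E₀ = E₀k :=
    Fermat.Agent.S37.helper2023.mapDomain_placeRed_E₀ H hE₀nn
  have hdegk : Divisor.degree E₀k = Divisor.degree E₀ :=
    Fermat.Agent.S37.helper2023.degree_E₀k_eq H
  -- the reduction of `x` has a pole
  have hpole : ∃ q : Place k Fk, 0 < E₀k q := by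
    by_contra hcon
    push Not at hcon
    have h0 : E₀k = 0 := by
      ext Q
      have h1 := hcon Q
      have h2 : 0 ≤ E₀k Q := by rw [hE₀k]; exact le_max_left _ _
      rw [Finsupp.zero_apply]
      omega
    have := H.E₀_pos
    rw [← hdegk, h0, map_zero] at this
    exact lt_irrefl _ this
  obtain ⟨qp, hqp⟩ := hpole
  have hredx : red x ≠ 0 := by
    intro h
    rw [hE₀k, h, Place.ord_zero, neg_zero, max_self] at hqp
    exact lt_irrefl _ hqp
  have hx0 : (x : F) ≠ 0 := LatHyp.coe_ne_zero_of_red_ne_zero hredx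
  obtain ⟨X, hX, hXdeg⟩ := HasPrincipalDivisors.exists_divisor (K := L) (x : F) hx0
  -- the large multiple
  set n : ℕ := (max c (LatHyp.thr g c) + 2).toNat with hn
  have hnZ : max c (LatHyp.thr g c) + 2 ≤ (n : ℤ) := Int.self_le_toNat _
  -- the closing step for an anchor `D`
  have key : ∀ D : Divisor L F, (∀ P, 0 ≤ D P) → (∀ γ ∈ G, γ • D = D) →
      1 ≤ Divisor.degree D → ∀ q, Finsupp.mapDomain H.placeRed D s = 0 →
      0 < Finsupp.mapDomain H.placeRed D q → HasFixedCoord O red H.placeRed G s := by
    intro D hD0 hDfix hDdeg q hs hq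
    have hsq : s ≠ q := by
      rintro rfl
      rw [hs] at hq
      exact lt_irrefl _ hq
    refine hasFixedCoord_of_anchor hker hrat hD0 hDfix hs hq n
      (LatHypGlue.exists_simple_zero H hsurj s q hsq n hnZ)
      (fun y hy => LatHypGlue.exists_lift_rr H hsurj hksurj (n • D) ?_ hy)
    rw [map_nsmul, nsmul_eq_mul]
    have h1 : (n : ℤ) * 1 ≤ (n : ℤ) * Divisor.degree D :=
      mul_le_mul_of_nonneg_left hDdeg (Int.natCast_nonneg n)
    linarith
  by_cases hs : E₀k s = 0
  · exact key E₀ hE₀nn
      (fun γ hγ => smul_divisor_of_ord γ (hxG γ hγ) (fun m => max 0 (-m)) hE₀)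
      (by have := H.E₀_pos; omega) qp (by rw [hmapE₀]; exact hs) (by rw [hmapE₀]; exact hqp)
  · -- `s` is a pole of the reduction of `x`: use the zero divisor of `x`
    have hsneg : s.ord (red x) < 0 := by
      by_contra h
      push Not at h
      apply hs
      rw [hE₀k]
      exact max_eq_left (by omega)
    set E₁ : Divisor L F := X + E₀ with hE₁
    have hE₁app : ∀ P, E₁ P = max 0 (P.ord (x : F)) := by
      intro P
      rw [hE₁, Finsupp.add_apply, hX, hE₀]
      rcases le_total 0 (P.ord (x : F)) with h | h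
      · rw [max_eq_left (by omega), max_eq_right h, add_zero]
      · rw [max_eq_right (by omega), max_eq_left h, add_neg_cancel]
    have hmapE₁ : ∀ Q, Finsupp.mapDomain H.placeRed E₁ Q = max 0 (Q.ord (red x)) := by
      intro Q
      rw [hE₁, Finsupp.mapDomain_add, Finsupp.add_apply, H.mapDomain_placeRed_div hredx hX Q,
        hmapE₀, hE₀k]
      rcases le_total 0 (Q.ord (red x)) with h | h
      · rw [max_eq_left (by omega), max_eq_right h, add_zero]
      · rw [max_eq_right (by omega), max_eq_left h, add_neg_cancel]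
    have hE₁deg : Divisor.degree E₁ = Divisor.degree E₀ := by
      rw [hE₁, map_add, hXdeg, zero_add]
    -- the reduction of `x` has a zero
    have hzero : ∃ q, 0 < Finsupp.mapDomain H.placeRed E₁ q := by
      by_contra hcon
      push Not at hcon
      have h0 : Finsupp.mapDomain H.placeRed E₁ = 0 := by
        ext Q
        have h1 := hcon Q
        have h2 : 0 ≤ Finsupp.mapDomain H.placeRed E₁ Q := by
          rw [hmapE₁]; exact le_max_left _ _
        rw [Finsupp.zero_apply]
        omega
      have h3 := LatHypGlue.degree_mapDomain_placeRed H E₁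
      rw [h0, map_zero, hE₁deg] at h3
      have := H.E₀_pos
      omega
    obtain ⟨q0, hq0⟩ := hzero
    refine key E₁ (fun P => by rw [hE₁app]; exact le_max_left _ _)
      (fun γ hγ => smul_divisor_of_ord γ (hxG γ hγ) (fun m => max 0 m) hE₁app)
      (by rw [hE₁deg]; have := H.E₀_pos; omega) q0 ?_ hq0
    rw [hmapE₁]
    exact max_eq_left (by omega)

/-- **(B4) Every residue disc of the lattice place reduction contains a `G`-fixed place.** -/
theorem hasFixedLift_of_latHyp [HasPrincipalDivisors L F] [HasPrincipalDivisors k Fk]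
    (H : LatHyp O red g c E₀ E₀k) (hsurj : Function.Surjective red)
    (hksurj : ∀ b : k, ∃ (a : L) (h : algebraMap L F a ∈ O),
      red ⟨algebraMap L F a, h⟩ = algebraMap k Fk b)
    (x : O) (hE₀ : ∀ P : Place L F, E₀ P = max 0 (-(P.ord (x : F))))
    (hE₀k : ∀ Q : Place k Fk, E₀k Q = max 0 (-(Q.ord (red x))))
    {G : Set (SemilinearAut L F)} (hxG : ∀ γ ∈ G, γ • (x : F) = x) (hrat : FixedLifts O G)
    (hG : ∀ γ ∈ G, ∀ P, H.placeRed (γ • P) = H.placeRed P) (s : Place k Fk) :
    HasFixedLift H.placeRed G s :=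
  (hasFixedCoord_of_latHyp H hsurj hksurj x hE₀ hE₀k hxG hrat s).hasFixedLift
    (redKer_of_nonunit H.red_nonunit)
    (fun a ha => by
      obtain ⟨b, hb⟩ := LatHypGlue.redConst H a ha
      exact ⟨b, hb.symm⟩)
    (LatHypGlue.cons H) hG

/-- **(B5) Inertia-fixed centres for the lattice place reduction**: every class of `Pic0` is
congruent to a `G`-fixed class modulo the specialisation kernel. -/
theorem exists_fixed_centre_of_latHyp [HasPrincipalDivisors L F] [HasPrincipalDivisors k Fk]
    (H : LatHyp O red g c E₀ E₀k) (hsurj : Function.Surjective red)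
    (hksurj : ∀ b : k, ∃ (a : L) (h : algebraMap L F a ∈ O),
      red ⟨algebraMap L F a, h⟩ = algebraMap k Fk b)
    (x : O) (hE₀ : ∀ P : Place L F, E₀ P = max 0 (-(P.ord (x : F))))
    (hE₀k : ∀ Q : Place k Fk, E₀k Q = max 0 (-(Q.ord (red x))))
    {G : Set (SemilinearAut L F)} (hxG : ∀ γ ∈ G, γ • (x : F) = x) (hrat : FixedLifts O G)
    (hG : ∀ γ ∈ G, ∀ P, H.placeRed (γ • P) = H.placeRed P) (z : Pic0 L F) :
    ∃ y : Pic0 L F, (∀ γ ∈ G, γ • y = y) ∧ z - y ∈ specKernel H.placeRed :=
  exists_fixed_centre G H.degL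
    (fun P => hasFixedLift_of_latHyp H hsurj hksurj x hE₀ hE₀k hxG hrat hG (H.placeRed P)) z

/-- (B4), inertia form: the hypothesis "`G` preserves the residue discs" of
`hasFixedLift_of_latHyp` is replaced by "`G` preserves the Gauss ring and commutes with the
reduction map". -/
theorem hasFixedLift_of_latHyp' [HasPrincipalDivisors L F] [HasPrincipalDivisors k Fk]
    (H : LatHyp O red g c E₀ E₀k) (hsurj : Function.Surjective red)
    (hksurj : ∀ b : k, ∃ (a : L) (h : algebraMap L F a ∈ O),
      red ⟨algebraMap L F a, h⟩ = algebraMap k Fk b)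
    (x : O) (hE₀ : ∀ P : Place L F, E₀ P = max 0 (-(P.ord (x : F))))
    (hE₀k : ∀ Q : Place k Fk, E₀k Q = max 0 (-(Q.ord (red x))))
    {G : Set (SemilinearAut L F)} (hxG : ∀ γ ∈ G, γ • (x : F) = x) (hrat : FixedLifts O G)
    (hGO : ∀ γ ∈ G, ∀ f : F, f ∈ O → γ • f ∈ O) (hGO' : ∀ γ ∈ G, ∀ f : F, f ∈ O → γ⁻¹ • f ∈ O)
    (hGred : ∀ γ ∈ G, ∀ (f : O) (hf : γ • (f : F) ∈ O), red ⟨γ • (f : F), hf⟩ = red f)
    (s : Place k Fk) : HasFixedLift H.placeRed G s :=
  hasFixedLift_of_latHyp H hsurj hksurj x hE₀ hE₀k hxG hrat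
    (fun γ hγ P => placeRed_smul_of_red_fixed H γ (hGO γ hγ) (hGO' γ hγ) (hGred γ hγ) P) s

/-- (B5), inertia form. -/
theorem exists_fixed_centre_of_latHyp' [HasPrincipalDivisors L F] [HasPrincipalDivisors k Fk]
    (H : LatHyp O red g c E₀ E₀k) (hsurj : Function.Surjective red)
    (hksurj : ∀ b : k, ∃ (a : L) (h : algebraMap L F a ∈ O),
      red ⟨algebraMap L F a, h⟩ = algebraMap k Fk b)
    (x : O) (hE₀ : ∀ P : Place L F, E₀ P = max 0 (-(P.ord (x : F))))
    (hE₀k : ∀ Q : Place k Fk, E₀k Q = max 0 (-(Q.ord (red x))))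
    {G : Set (SemilinearAut L F)} (hxG : ∀ γ ∈ G, γ • (x : F) = x) (hrat : FixedLifts O G)
    (hGO : ∀ γ ∈ G, ∀ f : F, f ∈ O → γ • f ∈ O) (hGO' : ∀ γ ∈ G, ∀ f : F, f ∈ O → γ⁻¹ • f ∈ O)
    (hGred : ∀ γ ∈ G, ∀ (f : O) (hf : γ • (f : F) ∈ O), red ⟨γ • (f : F), hf⟩ = red f)
    (z : Pic0 L F) :
    ∃ y : Pic0 L F, (∀ γ ∈ G, γ • y = y) ∧ z - y ∈ specKernel H.placeRed :=
  exists_fixed_centre_of_latHyp H hsurj hksurj x hE₀ hE₀k hxG hrat
    (fun γ hγ P => placeRed_smul_of_red_fixed H γ (hGO γ hγ) (hGO' γ hγ) (hGred γ hγ) P) z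

/-- A finite sum of `G`-fixed places is a `G`-fixed divisor (so CALG-RAT applies to the divisors
`n • P_∞ + P_k`, `∑ P_i` built from the fixed lifts of (B4)). -/
theorem smul_sum_single_of_fixed {ι : Type*} (T : Finset ι) (γ : SemilinearAut L F)
    (P : ι → Place L F) (m : ι → ℤ) (hP : ∀ i ∈ T, γ • P i = P i) :
    γ • (∑ i ∈ T, Finsupp.single (P i) (m i) : Divisor L F)
      = ∑ i ∈ T, Finsupp.single (P i) (m i) := by
  rw [Finset.smul_sum]
  refine Finset.sum_congr rfl fun i hi => ?_
  rw [SemilinearAut.smul_single, hP i hi]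

/-! ## Cover-side consumers of (RAT): one fixed place is enough

With ONE `G`-fixed place `Poo` (the cusp) and `FixedLifts O G`: the property
`helper2007.FixedLiftRR` of the landed cusp-anchored BOOT, the `G`-fixed functions `e` with a
simple pole at a `G`-fixed place `R` (fields `he_*`, `hGam_e` of the adapted cover), and the whole
place/function data of an adapted cover over prescribed places of the special fibre. -/

/-- `FixedLifts` implies that reductions agree (`RedKer` form). -/
theorem rd_eq_of_sub_mem_nonunits {F' Fk' : Type*} [Field F']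
    [Field Fk'] {O' : ValuationSubring F'} {red' : O' →+* Fk'} (hker : RedKer O' red')
    {u u0 : F'} (hu : u ∈ O') (hu0 : u0 ∈ O') (h : u - u0 ∈ O'.nonunits) :
    rd O' red' u0 = rd O' red' u := by
  have h1 : rd O' red' (u - u0) = 0 := (rd_eq_zero_iff hker (sub_mem hu hu0)).mpr h
  rw [rd_sub O' red' hu hu0, sub_eq_zero] at h1
  exact h1.symm

/-- **(a) Adapter (RAT3) ⟹ `helper2007.FixedLiftRR`** for a `G`-fixed place `Q`. -/
theorem fixedLiftRR_of_fixedLifts [HasPrincipalDivisors L F] (H : LatHyp O red g c E₀ E₀k)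
    (hsurj : Function.Surjective red)
    (hksurj : ∀ b : k, ∃ (a : L) (h : algebraMap L F a ∈ O),
      red ⟨algebraMap L F a, h⟩ = algebraMap k Fk b)
    {G : Set (SemilinearAut L F)} (hrat : FixedLifts O G) (Q : Place L F)
    (hQ : ∀ γ ∈ G, γ • Q = Q) (n : ℤ) (hn : max c (LatHyp.thr g c) ≤ n) :
    FixedLiftRR H G Q n := by
  classical
  intro y hy
  have hker : RedKer O red := redKer_of_nonunit H.red_nonunit
  have hmap : Finsupp.mapDomain H.placeRed (Finsupp.single Q n : Divisor L F)
      = Finsupp.single (H.placeRed Q) n := Finsupp.mapDomain_single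
  obtain ⟨u, hu, hured⟩ := LatHypGlue.exists_lift_rr H hsurj hksurj (Finsupp.single Q n)
    (by rw [degree_single H.degL]; exact hn) (y := y) (by rw [hmap]; exact hy)
  obtain ⟨u0, hu0O, hu0, hfix, hsub⟩ := hrat (Finsupp.single Q n)
    (fun γ hγ => by rw [SemilinearAut.smul_single, hQ γ hγ]) (u : F) u.2 hu
  refine ⟨⟨u0, hu0O⟩, hu0, ?_, hfix⟩
  have h1 := rd_eq_of_sub_mem_nonunits hker u.2 hu0O hsub
  rw [rd_of_mem O red hu0O, rd_of_mem O red u.2] at h1
  rw [h1, ← hured]

/-- **(b) The `G`-fixed pole functions `e`.**  For two `G`-fixed places `Poo`, `R` in distinct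
residue discs and `n` large there is a `G`-fixed Gauss-integral `e ∈ L(n • Poo + R)` whose
reduction has a simple pole at `sp R`: the fields `he_mem`, `he_reg`, `he_pole`, `he_red`,
`hGam_e` of `helper6256.IsAdaptedCover` for one index. -/
theorem exists_fixed_pole_function [HasPrincipalDivisors L F] (H : LatHyp O red g c E₀ E₀k)
    (hsurj : Function.Surjective red)
    (hksurj : ∀ b : k, ∃ (a : L) (h : algebraMap L F a ∈ O),
      red ⟨algebraMap L F a, h⟩ = algebraMap k Fk b)
    {G : Set (SemilinearAut L F)} (hrat : FixedLifts O G) (Poo R : Place L F)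
    (hPoo : ∀ γ ∈ G, γ • Poo = Poo) (hR : ∀ γ ∈ G, γ • R = R)
    (hne : H.placeRed Poo ≠ H.placeRed R) (n : ℤ) (hn : max c (LatHyp.thr g c) ≤ n) :
    ∃ e : F, e ∈ O ∧
      e ∈ riemannRochSpace (Finsupp.single Poo n + Finsupp.single R 1 : Divisor L F) ∧
      (∀ P, P ≠ Poo → P ≠ R → e ∈ P.toValuationSubring) ∧ -1 ≤ R.ord e ∧
      (H.placeRed R).ord (rd O red e) = -1 ∧ ∀ γ ∈ G, γ • e = e := by
  classical
  have hker : RedKer O red := redKer_of_nonunit H.red_nonunit
  have hPR : Poo ≠ R := fun h => hne (by rw [h])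
  set q := H.placeRed Poo with hq
  set s := H.placeRed R with hs
  set D : Divisor L F := Finsupp.single Poo n + Finsupp.single R 1 with hD
  set Dk : Divisor k Fk := Finsupp.single q n + Finsupp.single s 1 with hDk
  set Dk' : Divisor k Fk := Finsupp.single q n with hDk'
  have hmap : Finsupp.mapDomain H.placeRed D = Dk := by
    rw [hD, Finsupp.mapDomain_add, Finsupp.mapDomain_single, Finsupp.mapDomain_single]
  have hdD : Divisor.degree D = n + 1 := by
    rw [hD, map_add, degree_single H.degL, degree_single H.degL]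
  have hdk : Divisor.degree Dk = n + 1 := by
    rw [hDk, map_add, degree_single H.degk, degree_single H.degk]
  have hdk' : Divisor.degree Dk' = n := by
    rw [hDk', degree_single H.degk]
  have h1 := LatHypGlue.finrank_rr_eq H hsurj Dk (by rw [hdk]; omega)
  have h2 := LatHypGlue.finrank_rr_eq H hsurj Dk' (by rw [hdk']; exact hn)
  have hfin1 := LatHypGlue.finiteDimensional_rr H Dk
  have hfin2 := LatHypGlue.finiteDimensional_rr H Dk'
  have hnot : ¬ (riemannRochSpace Dk ≤ riemannRochSpace Dk') := by
    intro hle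
    have := Submodule.finrank_mono hle
    omega
  obtain ⟨y, hy1, hy2⟩ := SetLike.not_le_iff_exists.mp hnot
  have hy0 : y ≠ 0 := fun h => hy2 (h ▸ zero_mem _)
  have hord := (mem_rr_iff.mp hy1).resolve_left hy0
  -- the order of `y` at `s` is exactly `-1`
  have hys : s.ord y = -1 := by
    have hs1 := hord s
    rw [hDk, Finsupp.add_apply, Finsupp.single_apply, if_neg hne, Finsupp.single_apply,
      if_pos rfl] at hs1
    by_contra hcon
    apply hy2
    rw [mem_rr_iff]
    right
    intro v
    by_cases hv : v = s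
    · subst hv
      rw [hDk', Finsupp.single_apply, if_neg hne]
      omega
    · have := hord v
      rw [hDk, Finsupp.add_apply, Finsupp.single_apply (a := s), if_neg (Ne.symm hv),
        add_zero] at this
      exact this
  obtain ⟨u, hu, hured⟩ := LatHypGlue.exists_lift_rr H hsurj hksurj D
    (by rw [hdD]; omega) (y := y) (by rw [hmap]; exact hy1)
  obtain ⟨u0, hu0O, hu0, hfix, hsub⟩ := hrat D
    (fun γ hγ => by
      rw [hD, smul_add, SemilinearAut.smul_single, SemilinearAut.smul_single, hPoo γ hγ,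
        hR γ hγ]) (u : F) u.2 hu
  have hrd : rd O red u0 = y := by
    have h3 := rd_eq_of_sub_mem_nonunits hker u.2 hu0O hsub
    rw [h3, rd_of_mem O red u.2]
    exact hured
  have hu00 : u0 ≠ 0 := by
    rintro rfl
    rw [rd_zero] at hrd
    exact hy0 hrd.symm
  refine ⟨u0, hu0O, hu0, fun P hP1 hP2 => ?_, ?_, ?_, hfix⟩
  · refine mem_of_mem_rr hu0 ?_
    rw [hD, Finsupp.add_apply, Finsupp.single_apply, if_neg (Ne.symm hP1), Finsupp.single_apply,
      if_neg (Ne.symm hP2), add_zero]
  · have := (mem_rr_iff.mp hu0).resolve_left hu00 R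
    rw [hD, Finsupp.add_apply, Finsupp.single_apply, if_neg hPR, Finsupp.single_apply,
      if_pos rfl] at this
    omega
  · rw [hrd]
    exact hys

/-- **Place and function data of an adapted cover from ONE `G`-fixed place.**  Given the
lattice bundle, `FixedLifts O G`, inertia preserving the residue discs, one `G`-fixed place `Poo`
and any family `s` of places of the special fibre off `sp Poo`: every residue disc contains a
`G`-fixed place (`hcen`), and there are `G`-fixed lifts `R i` of the `s i` and `G`-fixed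
Gauss-integral functions `e i ∈ L(n • Poo + R i)` with a simple pole of the reduction at `s i`
(the fields `hGam_R`, `he_mem`, `he_reg`, `he_pole`, `he_red`, `hGam_e`, `hcen` of
`helper6256.IsAdaptedCover`). -/
theorem exists_adapted_data [HasPrincipalDivisors L F] [HasPrincipalDivisors k Fk]
    (H : LatHyp O red g c E₀ E₀k) (hsurj : Function.Surjective red)
    (hksurj : ∀ b : k, ∃ (a : L) (h : algebraMap L F a ∈ O),
      red ⟨algebraMap L F a, h⟩ = algebraMap k Fk b)
    {G : Set (SemilinearAut L F)} (hrat : FixedLifts O G)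
    (hG : ∀ γ ∈ G, ∀ P, H.placeRed (γ • P) = H.placeRed P)
    (Poo : Place L F) (hPoo : ∀ γ ∈ G, γ • Poo = Poo)
    {ι : Type*} (s : ι → Place k Fk) (hs : ∀ i, s i ≠ H.placeRed Poo) :
    (∀ P : Place L F, HasFixedLift H.placeRed G (H.placeRed P)) ∧
    ∃ (R : ι → Place L F) (e : ι → F), (∀ i, H.placeRed (R i) = s i) ∧
      (∀ γ ∈ G, ∀ i, γ • R i = R i) ∧ (∀ i, e i ∈ O) ∧
      (∀ i P, P ≠ Poo → P ≠ R i → e i ∈ P.toValuationSubring) ∧
      (∀ i, -1 ≤ (R i).ord (e i)) ∧ (∀ i, (H.placeRed (R i)).ord (rd O red (e i)) = -1) ∧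
      (∀ γ ∈ G, ∀ i, γ • e i = e i) ∧
      ∀ i, e i ∈ riemannRochSpace (Finsupp.single Poo (max c (LatHyp.thr g c) + 2)
        + Finsupp.single (R i) 1 : Divisor L F) := by
  classical
  have hker : RedKer O red := redKer_of_nonunit H.red_nonunit
  have hconst : RedConst L k O red := fun a ha => by
    obtain ⟨b, hb⟩ := LatHypGlue.redConst H a ha
    exact ⟨b, hb.symm⟩
  have hcons : Conservation O red H.placeRed := LatHypGlue.cons H
  set n : ℤ := max c (LatHyp.thr g c) + 2 with hn
  have hRR : FixedLiftRR H G Poo n :=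
    fixedLiftRR_of_fixedLifts H hsurj hksurj hrat Poo hPoo n (by rw [hn]; omega)
  have hlift : ∀ t : Place k Fk, t ≠ H.placeRed Poo → HasFixedLift H.placeRed G t := fun t ht =>
    (hasFixedCoord_of_fixedLiftRR H hsurj G Poo n le_rfl hRR t ht).hasFixedLift hker hconst
      hcons hG
  refine ⟨fun P => ?_, ?_⟩
  · by_cases hP : H.placeRed P = H.placeRed Poo
    · exact ⟨Poo, hP.symm, hPoo⟩
    · exact hlift _ hP
  · choose R hR hRfix using fun i => hlift (s i) (hs i)
    have hne : ∀ i, H.placeRed Poo ≠ H.placeRed (R i) := fun i h => hs i (by rw [← hR i, h])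
    choose e he1 he2 he3 he4 he5 he6 using fun i =>
      exists_fixed_pole_function H hsurj hksurj hrat Poo (R i) hPoo (hRfix i) (hne i) n
        (by rw [hn]; omega)
    exact ⟨R, e, hR, fun γ hγ i => hRfix i γ hγ, he1, he3, he4, he5,
      fun γ hγ i => he6 i γ hγ, he2⟩

/-! ## The adapted system in the shape of the wire (link (2) of the chain of record)

`FixedLiftDiv H G E` is the consumer form of (RAT) used by the end-wire: every element of
`L_k(sp_* E)` is the reduction of a `G`-fixed Gauss-integral element of `L(E)`. -/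

/-- (RAT, consumer form of record) every element of `L_k(sp_* E)` is the reduction of a
`G`-fixed Gauss-integral element of `L(E)`. -/
def FixedLiftDiv (H : LatHyp O red g c E₀ E₀k) (G : Set (SemilinearAut L F))
    (E : Divisor L F) : Prop :=
  ∀ y ∈ riemannRochSpace (Finsupp.mapDomain H.placeRed E),
    ∃ u : O, (u : F) ∈ riemannRochSpace E ∧ red u = y ∧ ∀ γ ∈ G, γ • (u : F) = u

/-- `FixedLiftDiv` at `n • Q` is `helper2007.FixedLiftRR`. -/
theorem fixedLiftRR_of_fixedLiftDiv (H : LatHyp O red g c E₀ E₀k) {G : Set (SemilinearAut L F)}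
    {Q : Place L F} {n : ℤ} (h : FixedLiftDiv H G (Finsupp.single Q n)) :
    FixedLiftRR H G Q n := by
  classical
  intro y hy
  have hmap : Finsupp.mapDomain H.placeRed (Finsupp.single Q n : Divisor L F)
      = Finsupp.single (H.placeRed Q) n := Finsupp.mapDomain_single
  exact h y (by rw [hmap]; exact hy)

/-- **(RAT3) ⟹ `FixedLiftDiv`** for every `G`-fixed divisor of large degree. -/
theorem fixedLiftDiv_of_fixedLifts [HasPrincipalDivisors L F] (H : LatHyp O red g c E₀ E₀k)
    (hsurj : Function.Surjective red)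
    (hksurj : ∀ b : k, ∃ (a : L) (h : algebraMap L F a ∈ O),
      red ⟨algebraMap L F a, h⟩ = algebraMap k Fk b)
    {G : Set (SemilinearAut L F)} (hrat : FixedLifts O G) (E : Divisor L F)
    (hE : ∀ γ ∈ G, γ • E = E) (hdeg : max c (LatHyp.thr g c) ≤ Divisor.degree E) :
    FixedLiftDiv H G E := by
  classical
  intro y hy
  have hker : RedKer O red := redKer_of_nonunit H.red_nonunit
  obtain ⟨u, hu, hured⟩ := LatHypGlue.exists_lift_rr H hsurj hksurj E hdeg hy
  obtain ⟨u0, hu0O, hu0, hfix, hsub⟩ := hrat E hE (u : F) u.2 hu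
  refine ⟨⟨u0, hu0O⟩, hu0, ?_, hfix⟩
  have h1 := rd_eq_of_sub_mem_nonunits hker u.2 hu0O hsub
  rw [rd_of_mem O red hu0O, rd_of_mem O red u.2] at h1
  rw [h1, ← hured]

/-- The `G`-fixed pole function from `FixedLiftDiv` at `n • Q + R`. -/
theorem exists_pole_function_of_fixedLiftDiv [HasPrincipalDivisors L F]
    (H : LatHyp O red g c E₀ E₀k) (hsurj : Function.Surjective red)
    {G : Set (SemilinearAut L F)} (Q R : Place L F) (hne : H.placeRed Q ≠ H.placeRed R) (n : ℤ)
    (hn : max c (LatHyp.thr g c) ≤ n)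
    (hrat : FixedLiftDiv H G (Finsupp.single Q n + Finsupp.single R 1)) :
    ∃ e : F, e ∈ O ∧
      e ∈ riemannRochSpace (Finsupp.single Q n + Finsupp.single R 1 : Divisor L F) ∧
      (H.placeRed R).ord (rd O red e) = -1 ∧ ∀ γ ∈ G, γ • e = e := by
  classical
  set q := H.placeRed Q with hq
  set s := H.placeRed R with hs
  set D : Divisor L F := Finsupp.single Q n + Finsupp.single R 1 with hD
  set Dk : Divisor k Fk := Finsupp.single q n + Finsupp.single s 1 with hDk
  set Dk' : Divisor k Fk := Finsupp.single q n with hDk'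
  have hmap : Finsupp.mapDomain H.placeRed D = Dk := by
    rw [hD, Finsupp.mapDomain_add, Finsupp.mapDomain_single, Finsupp.mapDomain_single]
  have hdk : Divisor.degree Dk = n + 1 := by
    rw [hDk, map_add, degree_single H.degk, degree_single H.degk]
  have hdk' : Divisor.degree Dk' = n := by
    rw [hDk', degree_single H.degk]
  have h1 := LatHypGlue.finrank_rr_eq H hsurj Dk (by rw [hdk]; omega)
  have h2 := LatHypGlue.finrank_rr_eq H hsurj Dk' (by rw [hdk']; exact hn)
  have hfin1 := LatHypGlue.finiteDimensional_rr H Dk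
  have hfin2 := LatHypGlue.finiteDimensional_rr H Dk'
  have hnot : ¬ (riemannRochSpace Dk ≤ riemannRochSpace Dk') := by
    intro hle
    have := Submodule.finrank_mono hle
    omega
  obtain ⟨y, hy1, hy2⟩ := SetLike.not_le_iff_exists.mp hnot
  have hy0 : y ≠ 0 := fun h => hy2 (h ▸ zero_mem _)
  have hord := (mem_rr_iff.mp hy1).resolve_left hy0
  have hys : s.ord y = -1 := by
    have hs1 := hord s
    rw [hDk, Finsupp.add_apply, Finsupp.single_apply, if_neg hne, Finsupp.single_apply,
      if_pos rfl] at hs1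
    by_contra hcon
    apply hy2
    rw [mem_rr_iff]
    right
    intro v
    by_cases hv : v = s
    · subst hv
      rw [hDk', Finsupp.single_apply, if_neg hne]
      omega
    · have := hord v
      rw [hDk, Finsupp.add_apply, Finsupp.single_apply (a := s), if_neg (Ne.symm hv),
        add_zero] at this
      exact this
  obtain ⟨u, hu, hured, hfix⟩ := hrat y (by rw [hmap]; exact hy1)
  refine ⟨(u : F), u.2, hu, ?_, hfix⟩
  rw [rd_of_mem O red u.2]
  have e : (⟨(u : F), u.2⟩ : O) = u := Subtype.ext rfl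
  rw [e, hured, hys]

/-- **ADAPTED SYSTEM (link (2) of the chain of record).**  From the lattice bundle with a
natural-number genus, surjectivity of `red`, infinitely many places on the special fibre,
inertia preserving the residue discs, a `G`-fixed place `Q` and (RAT) at the divisors `n • Q`
and `n • Q + R` (`R` a `G`-fixed place): `G`-fixed places `R i` over a non-special system of
`g` places of the special fibre off `sp Q`, and `G`-fixed Gauss-integral functions
`e i ∈ L(n • Q + R i)` whose reduction has a simple pole at `sp (R i)`. -/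
theorem exists_adapted_system [HasPrincipalDivisors L F] [HasPrincipalDivisors k Fk] {g : ℕ}
    (H : LatHyp O red (g : ℤ) c E₀ E₀k) (hsurj : Function.Surjective red)
    (hinf : (Set.univ : Set (Place k Fk)).Infinite)
    {G : Set (SemilinearAut L F)} (hG : ∀ γ ∈ G, ∀ P, H.placeRed (γ • P) = H.placeRed P)
    (Q : Place L F) (hQ : ∀ γ ∈ G, γ • Q = Q) (n0 : ℤ)
    (hrat : ∀ n : ℤ, n0 ≤ n → FixedLiftDiv H G (Finsupp.single Q n) ∧
      ∀ R : Place L F, (∀ γ ∈ G, γ • R = R) →
        FixedLiftDiv H G (Finsupp.single Q n + Finsupp.single R 1)) :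
    ∃ (R : Fin g → Place L F) (e : Fin g → F) (n : ℤ),
      Function.Injective (fun i => H.placeRed (R i)) ∧
      (∀ i, H.placeRed (R i) ≠ H.placeRed Q) ∧
      (∀ γ ∈ G, ∀ i, γ • R i = R i) ∧ (∀ γ ∈ G, ∀ i, γ • e i = e i) ∧
      (∀ i, e i ∈ O) ∧
      (∀ i, e i ∈ riemannRochSpace (Finsupp.single Q n + Finsupp.single (R i) 1 : Divisor L F)) ∧
      (∀ i, (H.placeRed (R i)).ord (rd O red (e i)) = -1) ∧
      (∀ w ∈ riemannRochSpace (∑ i, Finsupp.single (H.placeRed (R i)) (1 : ℤ)),
        ∃ a : k, w = algebraMap k Fk a) ∧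
      (∀ P : Place L F, HasFixedLift H.placeRed G (H.placeRed P)) := by
  classical
  have hker : RedKer O red := redKer_of_nonunit H.red_nonunit
  have hconst : RedConst L k O red := fun a ha => by
    obtain ⟨b, hb⟩ := LatHypGlue.redConst H a ha
    exact ⟨b, hb.symm⟩
  have hcons : Conservation O red H.placeRed := LatHypGlue.cons H
  set n : ℤ := max n0 (max c (LatHyp.thr (g : ℤ) c) + 2) with hn
  have hn0 : n0 ≤ n := le_max_left _ _
  have hn1 : max c (LatHyp.thr (g : ℤ) c) + 2 ≤ n := le_max_right _ _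
  obtain ⟨hratQ, hratR⟩ := hrat n hn0
  have hRR : FixedLiftRR H G Q n := fixedLiftRR_of_fixedLiftDiv H hratQ
  have hlift : ∀ t : Place k Fk, t ≠ H.placeRed Q → HasFixedLift H.placeRed G t := fun t ht =>
    (hasFixedCoord_of_fixedLiftRR H hsurj G Q n hn1 hRR t ht).hasFixedLift hker hconst hcons hG
  obtain ⟨s, hsinj, hsQ, hsL⟩ := Fermat.Agent.S37.helper6835.exists_nonspecial_const g
    (max c (LatHyp.thr (g : ℤ) c)) (LatHypGlue.finiteDimensional_rr H) H.degk
    (fun E hE => LatHypGlue.finrank_rr_eq H hsurj E hE) hinf {H.placeRed Q}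
  have hsQ' : ∀ i, s i ≠ H.placeRed Q := fun i h => hsQ i (by rw [h]; exact Finset.mem_singleton_self _)
  choose R hR hRfix using fun i => hlift (s i) (hsQ' i)
  have hne : ∀ i, H.placeRed Q ≠ H.placeRed (R i) := fun i h => hsQ' i (by rw [← hR i, h])
  choose e he1 he2 he3 he4 using fun i =>
    exists_pole_function_of_fixedLiftDiv H hsurj Q (R i) (hne i) n (by omega)
      (hratR (R i) (hRfix i))
  have hRs : (fun i => H.placeRed (R i)) = s := funext hR
  refine ⟨R, e, n, by rw [hRs]; exact hsinj, fun i h => hne i h.symm,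
    fun γ hγ i => hRfix i γ hγ, fun γ hγ i => he4 i γ hγ, he1, he2, he3, ?_, fun P => ?_⟩
  · have : (∑ i, Finsupp.single (H.placeRed (R i)) (1 : ℤ)) = ∑ i, Finsupp.single (s i) (1 : ℤ) :=
      Finset.sum_congr rfl fun i _ => by rw [hR i]
    rw [this]
    exact hsL
  · by_cases hP : H.placeRed P = H.placeRed Q
    · exact ⟨Q, hP.symm, hQ⟩
    · exact hlift _ hP

end Lattice

end Fermat.Agent.S19.helper5236
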