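import Fermat.Agent.S19.helper5298_ChartProjIgusa
import Fermat.Agent.S28.helper1457_TowerNoPhi
import Fermat.Agent.S28.helper559_TowerFromPrime
import Fermat.Agent.S28.helper508_FormalPrime
import Fermat.Agent.S28.helper1588_Core
import Fermat.Agent.S28.helper1595_RouteP

/-!
# S19-CHARTPROJ (helper5298), final part: the Igusa charts, unconditionally

* `finite_chartAlgFin`, `finite_chartAlgInf` : the charts are finite over `ℤ_(ℓ)[X]`
  (`X ↦ j`, resp. `X ↦ 1/j`), for every level `N` and every prime `ℓ`.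
  [integral closure of the normal noetherian domain `ℤ_(ℓ)[X]` in the function field, which is
  finite over `ℚ(j)` by the landed S28 degree theorem.]
* for `ℓ ∤ N` (landed S28 reduction statement): the charts are finite projective / flat over
  `ℤ_(ℓ)[X]`, and so is every base change.
-/

set_option autoImplicit false
set_option linter.style.haveILetI false
set_option linter.unusedSectionVars false

noncomputable section

open ModularCurve ModularCurve.IgusaScheme Polynomial TensorProduct IntermediateField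

namespace Fermat.Agent.S19.helper5298

variable (N : ℕ) [NeZero N] (ℓ : ℕ) [Fact ℓ.Prime]

/-- `ℤ₍ℓ₎`, as in the S28 interface. -/
local notation "ℤℓ" => Fermat.Agent.S28.Spec.Zl ℓ

/-- The landed S28 degree theorem over `ℚ`: `[ℚ(j(q^d) : d ∣ N) : ℚ(j)] = ψ(N)`. -/
theorem relrank_jq_full :
    (ℚ⟮jq⟯).relrank (modularFunctionFieldFull N) = (dedekindPsi N : Cardinal) :=
  Fermat.Agent.S28.helper1457.relrank_full_eq_dedekindPsi_of_hub ℚ N (NeZero.pos N)
    (Fermat.Agent.S28.helper559.hub_of_formalPrime ℚ N (NeZero.pos N)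
      (fun p _ _ => Fermat.Agent.S28.helper508.stmt_FormalPrime p))
    (fun p hp _ => by exact_mod_cast hp.ne_zero)

/-- The function field is finite over every subfield containing `j`. -/
theorem finite_subfield_full (T : Subfield ↥(modularFunctionFieldFull N)) (hj : jFull N ∈ T) :
    Module.Finite T ↥(modularFunctionFieldFull N) :=
  finite_subfield_of_relrank (modularFunctionFieldFull N) (jFull N) (dedekindPsi N)
    (relrank_jq_full N) T (fun c => by rw [eq_ratCast]; exact SubfieldClass.ratCast_mem T c) hj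

/-- Polynomial expressions in an element of the function field, read in `ℚ((q))`. -/
theorem coe_aeval_full (x : ↥(modularFunctionFieldFull N)) (p : ℤℓ[X]) :
    ((aeval x p : ↥(modularFunctionFieldFull N)) : LaurentSeries ℚ) =
      aeval ((x : LaurentSeries ℚ)) (p.map (algebraMap ℤℓ ℚ)) := by
  induction p using Polynomial.induction_on' with
  | add p q hp hq => simp [hp, hq]
  | monomial n a =>
    simp [aeval_monomial]
    left
    rfl

/-- An element of the function field that is transcendental over `ℚ` in `ℚ((q))` is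
transcendental over `ℤ_(ℓ)`. -/
theorem transcendental_full (x : ↥(modularFunctionFieldFull N))
    (hx : Transcendental ℚ ((x : LaurentSeries ℚ))) : Transcendental ℤℓ x := by
  rw [transcendental_iff]
  intro p hp
  have h3 : aeval ((x : LaurentSeries ℚ)) (p.map (algebraMap ℤℓ ℚ)) = 0 := by
    rw [← coe_aeval_full, hp]
    rfl
  have h4 : p.map (algebraMap ℤℓ ℚ) = 0 := (transcendental_iff.mp hx) _ h3
  exact (Polynomial.map_eq_zero_iff (FaithfulSMul.algebraMap_injective ℤℓ ℚ)).mp h4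

/-- **The finite Igusa chart is a finite `ℤ_(ℓ)[X]`-module** (`X ↦ j`); every level, every
prime `ℓ`. -/
theorem finite_chartAlgFin :
    (aeval (jChartFin N ℓ) : ℤℓ[X] →ₐ[ℤℓ] chartAlgFin N ℓ).toRingHom.Finite :=
  finite_aeval_of_integralClosure (Λ := ℤℓ) (L := ↥(modularFunctionFieldFull N))
    (chartAlgFin N ℓ) (jChartFin N ℓ)
    (transcendental_full N ℓ _ Fermat.Agent.S28.helper1448.jq_transcendental)
    (fun _ => Iff.rfl) (fun T _ hj => finite_subfield_full N T hj)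

/-- **The Igusa chart at infinity is a finite `ℤ_(ℓ)[X]`-module** (`X ↦ 1/j`). -/
theorem finite_chartAlgInf :
    (aeval (jInvChartInf N ℓ) : ℤℓ[X] →ₐ[ℤℓ] chartAlgInf N ℓ).toRingHom.Finite := by
  refine finite_aeval_of_integralClosure (Λ := ℤℓ) (L := ↥(modularFunctionFieldFull N))
    (chartAlgInf N ℓ) (jInvChartInf N ℓ) (transcendental_full N ℓ _ ?_)
    (fun _ => Iff.rfl) (fun T _ hj => finite_subfield_full N T ?_)
  · intro h
    apply Fermat.Agent.S28.helper1448.jq_transcendental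
    have h' : IsAlgebraic ℚ ((jq : LaurentSeries ℚ)⁻¹) := h
    simpa using h'.inv
  · have h := inv_mem hj
    rwa [coe_jInvChartInf, inv_inv] at h

/-- The landed S28 reduction statement for the three charts (`ℓ ∤ N`). -/
theorem stmt_red (hℓN : ¬ ℓ ∣ N) :
    Fermat.Agent.S28.Spec.Stmt_Red N ℓ {jFull N} ∧
      Fermat.Agent.S28.Spec.Stmt_Red N ℓ {(jFull N)⁻¹} ∧
      Fermat.Agent.S28.Spec.Stmt_Red N ℓ {jFull N, (jFull N)⁻¹} :=
  Fermat.Agent.S28.helper1588.stmt_core ℓ N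
    (Fermat.Agent.S28.helper1595.stmt_CoreInput_routeP N ℓ hℓN
      (fun p _ _ => Fermat.Agent.S28.helper508.stmt_FormalPrime p))

/-! ## Unconditional forms (`ℓ ∤ N`) -/

/-- `ℤ_(ℓ)[X] → chartAlgFin`, `X ↦ j`, is flat (`ℓ ∤ N`). -/
theorem flat_chartAlgFin_of_not_dvd (hℓN : ¬ ℓ ∣ N) :
    (aeval (jChartFin N ℓ) : ℤℓ[X] →ₐ[ℤℓ] chartAlgFin N ℓ).toRingHom.Flat :=
  flat_chartAlgFin N ℓ (stmt_red N ℓ hℓN).1 (finite_chartAlgFin N ℓ)

/-- `ℤ_(ℓ)[X] → chartAlgInf`, `X ↦ 1/j`, is flat (`ℓ ∤ N`). -/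
theorem flat_chartAlgInf_of_not_dvd (hℓN : ¬ ℓ ∣ N) :
    (aeval (jInvChartInf N ℓ) : ℤℓ[X] →ₐ[ℤℓ] chartAlgInf N ℓ).toRingHom.Flat :=
  flat_chartAlgInf N ℓ (stmt_red N ℓ hℓN).2.1 (finite_chartAlgInf N ℓ)

/-- `chartAlgFin` is a projective `ℤ_(ℓ)[X]`-module (`ℓ ∤ N`). -/
theorem projective_chartAlgFin_of_not_dvd (hℓN : ¬ ℓ ∣ N) :
    letI := (aeval (jChartFin N ℓ) : ℤℓ[X] →ₐ[ℤℓ] chartAlgFin N ℓ).toRingHom.toAlgebra
    Module.Projective ℤℓ[X] (chartAlgFin N ℓ) :=
  projective_chartAlgFin N ℓ (stmt_red N ℓ hℓN).1 (finite_chartAlgFin N ℓ)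

/-- `chartAlgInf` is a projective `ℤ_(ℓ)[X]`-module (`ℓ ∤ N`). -/
theorem projective_chartAlgInf_of_not_dvd (hℓN : ¬ ℓ ∣ N) :
    letI := (aeval (jInvChartInf N ℓ) : ℤℓ[X] →ₐ[ℤℓ] chartAlgInf N ℓ).toRingHom.toAlgebra
    Module.Projective ℤℓ[X] (chartAlgInf N ℓ) :=
  projective_chartAlgInf N ℓ (stmt_red N ℓ hℓN).2.1 (finite_chartAlgInf N ℓ)

/-- For every `ℤ_(ℓ)`-algebra `B`: `chartAlgFin ⊗ B` is a finite projective `B[X]`-module
(`ℓ ∤ N`). -/
theorem projective_finite_chartAlgFin_tensor_of_not_dvd (hℓN : ¬ ℓ ∣ N)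
    (B : Type*) [CommRing B] [Algebra ℤℓ B] :
    letI : Algebra B (chartAlgFin N ℓ ⊗[ℤℓ] B) := Algebra.TensorProduct.rightAlgebra
    letI : Algebra B[X] (chartAlgFin N ℓ ⊗[ℤℓ] B) :=
      (aeval (jChartFin N ℓ ⊗ₜ[ℤℓ] (1 : B)) :
        B[X] →ₐ[B] (chartAlgFin N ℓ ⊗[ℤℓ] B)).toRingHom.toAlgebra
    Module.Projective B[X] (chartAlgFin N ℓ ⊗[ℤℓ] B) ∧
      Module.Finite B[X] (chartAlgFin N ℓ ⊗[ℤℓ] B) :=
  projective_finite_chartAlgFin_tensor N ℓ (stmt_red N ℓ hℓN).1 (finite_chartAlgFin N ℓ) B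

/-- For every `ℤ_(ℓ)`-algebra `B`: `chartAlgInf ⊗ B` is a finite projective `B[X]`-module
(`ℓ ∤ N`). -/
theorem projective_finite_chartAlgInf_tensor_of_not_dvd (hℓN : ¬ ℓ ∣ N)
    (B : Type*) [CommRing B] [Algebra ℤℓ B] :
    letI : Algebra B (chartAlgInf N ℓ ⊗[ℤℓ] B) := Algebra.TensorProduct.rightAlgebra
    letI : Algebra B[X] (chartAlgInf N ℓ ⊗[ℤℓ] B) :=
      (aeval (jInvChartInf N ℓ ⊗ₜ[ℤℓ] (1 : B)) :
        B[X] →ₐ[B] (chartAlgInf N ℓ ⊗[ℤℓ] B)).toRingHom.toAlgebra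
    Module.Projective B[X] (chartAlgInf N ℓ ⊗[ℤℓ] B) ∧
      Module.Finite B[X] (chartAlgInf N ℓ ⊗[ℤℓ] B) :=
  projective_finite_chartAlgInf_tensor N ℓ (stmt_red N ℓ hℓN).2.1 (finite_chartAlgInf N ℓ) B

end Fermat.Agent.S19.helper5298
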