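import Mathlib

/-!
# S19-CHARTPROJ (helper5298): chart rings are finite projective over `R[X]`, `R` a DVR

The S25 Čech bricks need the chart modules to be finite projective over `B[X]`.  Over a field
base this is "finite torsion-free over the PID `k[X]` is free"; over a DVR `R` the ring `R[X]`
is not a PID.  This file supplies the replacement:

* `projective_of_quotSMulTop_free_of_away_flat` : a finite module `M` over a noetherian domain
  `S`, `π ∈ S` a non-unit that is `M`-regular, `M/πM` free over `S/π` and `M[1/π]` flat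
  `⟹ M` is projective.
* `projective_polynomial_of_fibre_torsionFree`, `projective_chart`, `flat_chart` : the case
  `S = R[X]`, `R` a DVR (module form, chart form, `RingHom.Flat` form).
* `projective_finite_of_isPushout`, `projective_finite_tensor`, `flat_tensor` : base change.
* `fibre_condition_of_red` : the fibre hypothesis from a reduction map.
* `finite_aeval_of_integralClosure` : the integral closure of `Λ[x]` in a finite extension of
  `Frac Λ (x)` (characteristic zero) is a finite `Λ[X]`-module.
-/

set_option autoImplicit false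
set_option linter.style.haveILetI false

open Polynomial

namespace Fermat.Agent.S19.helper5298

section General

variable {S : Type*} [CommRing S] [IsDomain S] [IsNoetherianRing S]
  {M : Type*} [AddCommGroup M] [Module S M] [Module.Finite S M]

open scoped Pointwise in
/-- **Two-parameter criterion (global form).**  Let `S` be a noetherian domain, `π ∈ S` a
non-unit and `M` a finite `S`-module on which `π` is regular.  If `M/πM` is free over `S/π` and
`M[1/π]` is flat over `S`, then `M` is projective. -/
theorem projective_of_quotSMulTop_free_of_away_flat (π : S) (hπ : ¬ IsUnit π)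
    (reg : IsSMulRegular M π)
    [Module.Free (S ⧸ Ideal.span {π}) (QuotSMulTop π M)]
    [Module.Flat S (LocalizedModule.Away π M)] :
    Module.Projective S M := by
  classical
  have hfin := Module.Finite.of_restrictScalars_finite S (S ⧸ Ideal.span {π}) (QuotSMulTop π M)
  let I := Module.Free.ChooseBasisIndex (S ⧸ Ideal.span {π}) (QuotSMulTop π M)
  let b := Module.Free.chooseBasis (S ⧸ Ideal.span {π}) (QuotSMulTop π M)
  let b' : QuotSMulTop π M ≃ₗ[S] I →₀ S ⧸ Ideal.span {π} := b.1.restrictScalars S
  let f := b'.symm.toLinearMap.comp (Finsupp.mapRange.linearMap (Submodule.mkQ (Ideal.span {π})))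
  rcases Module.projective_lifting_property (Submodule.mkQ (π • (⊤ : Submodule S M))) f
    (Submodule.mkQ_surjective _) with ⟨g, hg⟩
  have surjf : Function.Surjective f := by
    simpa [f] using! Finsupp.mapRange_surjective _ rfl (Submodule.mkQ_surjective (Ideal.span {π}))
  have kerf : LinearMap.ker f = π • (⊤ : Submodule S (I →₀ S)) := by
    simp only [LinearEquiv.ker_comp, f]
    rw [Finsupp.ker_mapRange, Submodule.ker_mkQ, ← (Ideal.span {π}).mul_top, ← smul_eq_mul,
      Finsupp.submodule_smul]
    simp [Submodule.ideal_span_singleton_smul]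
  have : Finite I := inferInstance
  have : IsNoetherian S (I →₀ S) := inferInstance
  -- `g` is injective
  have injg : Function.Injective g := by
    rw [← LinearMap.ker_eq_bot]
    have hle : LinearMap.ker g ≤ Ideal.span {π} • LinearMap.ker g := by
      rw [Submodule.ideal_span_singleton_smul]
      intro y hy
      have : y ∈ π • (⊤ : Submodule S (I →₀ S)) := by
        simp [← kerf, ← hg, LinearMap.mem_ker.mp hy]
      rcases (Submodule.mem_smul_pointwise_iff_exists _ _ _).mp this with ⟨z, _, hz⟩
      simp only [← hz, LinearMap.mem_ker, map_smul] at hy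
      have := LinearMap.mem_ker.mpr (IsSMulRegular.right_eq_zero_of_smul reg hy)
      simpa [hz] using Submodule.smul_mem_pointwise_smul z π _ this
    have fg : (LinearMap.ker g).FG := IsNoetherian.noetherian _
    obtain ⟨r, hr1, hr0⟩ :=
      Submodule.exists_sub_one_mem_and_smul_eq_zero_of_fg_of_le_smul _ _ fg hle
    have hr : r ≠ 0 := by
      rintro rfl
      apply hπ
      rw [zero_sub, Ideal.neg_mem_iff, Ideal.mem_span_singleton] at hr1
      exact isUnit_of_dvd_one hr1
    rw [eq_bot_iff]
    intro y hy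
    have h0 := hr0 y hy
    rw [Submodule.mem_bot]
    ext i
    have h1 : r * y i = 0 := by simpa using congrArg (fun v => v i) h0
    simpa using (mul_eq_zero.mp h1).resolve_left hr
  -- the cokernel of `g` is killed by some `r ≡ 1 mod π`
  obtain ⟨r, hr1, hr⟩ : ∃ r : S, r - 1 ∈ Ideal.span {π} ∧ ∀ m : M, r • m ∈ LinearMap.range g := by
    have h1 : (⊤ : Submodule S (M ⧸ LinearMap.range g)) ≤ Ideal.span {π} • ⊤ := by
      rintro x -
      obtain ⟨m, rfl⟩ := Submodule.Quotient.mk_surjective _ x
      obtain ⟨v, hv⟩ := surjf (Submodule.Quotient.mk m)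
      have h2 : m - g v ∈ π • (⊤ : Submodule S M) := by
        rw [← Submodule.Quotient.mk_eq_zero, Submodule.Quotient.mk_sub, ← hv, ← hg]
        simp
      obtain ⟨m', -, hm'⟩ := (Submodule.mem_smul_pointwise_iff_exists _ _ _).mp h2
      have h3 : (Submodule.Quotient.mk m : M ⧸ LinearMap.range g) =
          π • Submodule.Quotient.mk m' := by
        rw [← Submodule.Quotient.mk_smul, hm', Submodule.Quotient.mk_sub, eq_sub_iff_add_eq,
          add_eq_left, Submodule.Quotient.mk_eq_zero]
        exact ⟨v, rfl⟩
      rw [h3]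
      exact Submodule.smul_mem_smul (Ideal.mem_span_singleton_self π) Submodule.mem_top
    obtain ⟨r, hr1, hr0⟩ := Submodule.exists_sub_one_mem_and_smul_eq_zero_of_fg_of_le_smul _ _
      (Module.Finite.fg_top (R := S) (M := M ⧸ LinearMap.range g)) h1
    refine ⟨r, hr1, fun m => ?_⟩
    have := hr0 (Submodule.Quotient.mk m) Submodule.mem_top
    rwa [← Submodule.Quotient.mk_smul, Submodule.Quotient.mk_eq_zero] at this
  -- `M[1/r]` is flat: it is isomorphic to `(S^I)[1/r]`
  have hflat_r : Module.Flat S (LocalizedModule.Away r M) := by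
    let gl := LocalizedModule.map (Submonoid.powers r) g
    have hinj : Function.Injective gl := LocalizedModule.map_injective _ _ injg
    have hsurj : Function.Surjective gl := by
      intro x
      induction x using LocalizedModule.induction_on with
      | h m s =>
        obtain ⟨v, hv⟩ := hr m
        refine ⟨LocalizedModule.mk v (s * ⟨r, Submonoid.mem_powers r⟩), ?_⟩
        rw [LocalizedModule.map_mk, hv, LocalizedModule.mk_eq]
        refine ⟨1, ?_⟩
        simp only [one_smul, Submonoid.smul_def, mul_smul]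
    have hfl : Module.Flat (Localization.Away r) (LocalizedModule.Away r (I →₀ S)) :=
      Module.Flat.of_isLocalizedModule _ (Submonoid.powers r)
        (LocalizedModule.mkLinearMap (Submonoid.powers r) (I →₀ S))
    have hfl' : Module.Flat (Localization.Away r) (LocalizedModule.Away r M) :=
      Module.Flat.of_linearEquiv (LinearEquiv.ofBijective gl ⟨hinj, hsurj⟩).symm
    exact (Module.flat_iff_of_isLocalization (Localization.Away r) (Submonoid.powers r) _).mp hfl'
  -- glue along the cover `D(π) ∪ D(r)`
  have hspan : Ideal.span ({π, r} : Set S) = ⊤ := by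
    rw [Ideal.eq_top_iff_one]
    have h1 : r ∈ Ideal.span ({π, r} : Set S) := Ideal.subset_span (by simp)
    have h2 : r - 1 ∈ Ideal.span ({π, r} : Set S) :=
      Ideal.span_mono (by simp) hr1
    simpa using Ideal.sub_mem _ h1 h2
  have hflat : Module.Flat S M := by
    refine Module.flat_of_localized_span (S := S) (M := M) ({π, r} : Set S) hspan ?_
    rintro ⟨a, ha⟩
    rcases ha with rfl | rfl
    · infer_instance
    · exact hflat_r
  have : Module.FinitePresentation S M := Module.finitePresentation_of_finite S M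
  exact Module.Flat.projective_of_finitePresentation

open scoped Pointwise in
/-- **Two-parameter criterion, torsion-free form.**  `S` a noetherian domain, `π ≠ 0` a
non-unit such that `S/π` and `S[1/π]` are principal ideal domains.  A finite torsion-free
`S`-module `M` such that `M/πM` is torsion-free over `S/π` is projective. -/
theorem projective_of_fibres_torsionFree (π : S) (hπ : ¬ IsUnit π) (hπ0 : π ≠ 0)
    [IsDomain (S ⧸ Ideal.span {π})] [IsPrincipalIdealRing (S ⧸ Ideal.span {π})]
    [IsPrincipalIdealRing (Localization.Away π)]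
    [Module.IsTorsionFree S M]
    (hfib : ∀ (a : S) (m : M), a • m ∈ π • (⊤ : Submodule S M) →
      a ∈ Ideal.span {π} ∨ m ∈ π • (⊤ : Submodule S M)) :
    Module.Projective S M := by
  have reg : IsSMulRegular M π :=
    Module.IsTorsionFree.isSMulRegular (IsRegular.of_ne_zero hπ0)
  -- the special fibre is free
  have hfin := Module.Finite.of_restrictScalars_finite S (S ⧸ Ideal.span {π}) (QuotSMulTop π M)
  have htf : Module.IsTorsionFree (S ⧸ Ideal.span {π}) (QuotSMulTop π M) := by
    refine Module.IsTorsionFree.of_smul_eq_zero fun a x hax => ?_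
    obtain ⟨a, rfl⟩ := Ideal.Quotient.mk_surjective a
    obtain ⟨m, rfl⟩ := Submodule.Quotient.mk_surjective _ x
    have h1 : a • m ∈ π • (⊤ : Submodule S M) := by
      rw [← Submodule.Quotient.mk_eq_zero, Submodule.Quotient.mk_smul]
      exact hax
    rcases hfib a m h1 with h | h
    · exact Or.inl (Ideal.Quotient.eq_zero_iff_mem.mpr h)
    · exact Or.inr ((Submodule.Quotient.mk_eq_zero _).mpr h)
  have hfree : Module.Free (S ⧸ Ideal.span {π}) (QuotSMulTop π M) :=
    Module.free_of_finite_type_torsion_free'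
  -- the generic fibre is flat
  have hle : Submonoid.powers π ≤ nonZeroDivisors S :=
    Submonoid.powers_le.mpr (mem_nonZeroDivisors_of_ne_zero hπ0)
  have hdom : IsDomain (Localization.Away π) := IsLocalization.isDomain_localization hle
  have htf' : Module.IsTorsionFree (Localization.Away π) (LocalizedModule.Away π M) := by
    refine Module.IsTorsionFree.of_smul_eq_zero fun a x hax => ?_
    induction x using LocalizedModule.induction_on with
    | h m t =>
      obtain ⟨a, s, rfl⟩ := IsLocalization.exists_mk'_eq (Submonoid.powers π) a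
      rw [← Localization.mk_eq_mk', LocalizedModule.mk_smul_mk, ← LocalizedModule.zero_mk 1,
        LocalizedModule.mk_eq] at hax
      obtain ⟨u, hu⟩ := hax
      simp only [smul_zero, one_smul] at hu
      have hu0 : (u : S) ≠ 0 := nonZeroDivisors.ne_zero (hle u.2)
      rw [Submonoid.smul_def, ← mul_smul] at hu
      rcases (Module.isTorsionFree_iff_smul_eq_zero.mp inferInstance) _ _ hu with h | h
      · left
        have ha : a = 0 := (mul_eq_zero.mp h).resolve_left hu0
        rw [ha, IsLocalization.mk'_zero]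
      · right
        rw [h, LocalizedModule.zero_mk]
  have hfree' : Module.Free (Localization.Away π) (LocalizedModule.Away π M) :=
    Module.free_of_finite_type_torsion_free'
  have hflat : Module.Flat S (LocalizedModule.Away π M) :=
    (Module.flat_iff_of_isLocalization (Localization.Away π) (Submonoid.powers π) _).mp
      inferInstance
  exact projective_of_quotSMulTop_free_of_away_flat π hπ reg

end General

section DVR

variable {R : Type*} [CommRing R] [IsDomain R] [IsDiscreteValuationRing R]

/-- The fraction field of a discrete valuation ring is its localization away from a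
uniformiser. -/
theorem isLocalization_away_of_irreducible {ϖ : R} (hϖ : Irreducible ϖ) (K : Type*) [Field K]
    [Algebra R K] [IsFractionRing R K] : IsLocalization.Away ϖ K := by
  refine (isLocalization_iff _ _).mpr ⟨?_, ?_, ?_⟩
  · rintro ⟨_, n, rfl⟩
    refine IsUnit.mk0 _ ?_
    rw [map_pow]
    exact pow_ne_zero _ ((map_ne_zero_iff _ (IsFractionRing.injective R K)).mpr hϖ.ne_zero)
  · intro z
    obtain ⟨a, b, hb, rfl⟩ := IsFractionRing.div_surjective (A := R) z
    obtain ⟨n, u, hu⟩ := IsDiscreteValuationRing.eq_unit_mul_pow_irreducible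
      (nonZeroDivisors.ne_zero hb) hϖ
    refine ⟨(a * ((u⁻¹ : Rˣ) : R), ⟨ϖ ^ n, n, rfl⟩), ?_⟩
    have hb0 : algebraMap R K b ≠ 0 :=
      (map_ne_zero_iff _ (IsFractionRing.injective R K)).mpr (nonZeroDivisors.ne_zero hb)
    have hb' : algebraMap R K b = algebraMap R K (u : R) * algebraMap R K ϖ ^ n := by
      rw [hu, map_mul, map_pow]
    have hu1 : algebraMap R K (u : R) * algebraMap R K ((u⁻¹ : Rˣ) : R) = 1 := by
      rw [← map_mul, Units.mul_inv, map_one]
    have hu0 : algebraMap R K (u : R) ≠ 0 := left_ne_zero_of_mul_eq_one hu1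
    simp only [map_pow, map_mul]
    rw [div_mul_eq_mul_div, div_eq_iff hb0, hb']
    linear_combination (-(algebraMap R K a * algebraMap R K ϖ ^ n)) * hu1
  · intro x y h
    exact ⟨1, by rw [IsFractionRing.injective R K h]⟩

attribute [local instance] Polynomial.algebra in
/-- `R[X][1/ϖ] = K[X]` is a principal ideal ring. -/
theorem isPrincipalIdealRing_away_C {ϖ : R} (hϖ : Irreducible ϖ) :
    IsPrincipalIdealRing (Localization.Away (C ϖ : R[X])) := by
  have h0 : IsLocalization.Away ϖ (FractionRing R) :=
    isLocalization_away_of_irreducible hϖ (FractionRing R)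
  have h1 : IsLocalization ((Submonoid.powers ϖ).map (C : R →+* R[X])) (FractionRing R)[X] :=
    Polynomial.isLocalization (Submonoid.powers ϖ) (FractionRing R)
  have h2 : (Submonoid.powers ϖ).map (C : R →+* R[X]) = Submonoid.powers (C ϖ) := by
    rw [Submonoid.map_powers]
  rw [h2] at h1
  let e := IsLocalization.algEquiv (Submonoid.powers (C ϖ : R[X])) (FractionRing R)[X]
    (Localization.Away (C ϖ : R[X]))
  exact IsPrincipalIdealRing.of_surjective e.toRingEquiv.toRingHom e.surjective

/-- `R[X]/ϖ = k[X]` is a principal ideal domain. -/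
theorem quotient_span_C_isDomain_isPrincipalIdealRing {ϖ : R} (hϖ : Irreducible ϖ) :
    IsDomain (R[X] ⧸ Ideal.span {(C ϖ : R[X])}) ∧
      IsPrincipalIdealRing (R[X] ⧸ Ideal.span {(C ϖ : R[X])}) := by
  have hmax : (Ideal.span {ϖ}).IsMaximal := PrincipalIdealRing.isMaximal_of_irreducible hϖ
  let _ : Field (R ⧸ Ideal.span {ϖ}) := Ideal.Quotient.field _
  have h : (Ideal.span {ϖ}).map (C : R →+* R[X]) = Ideal.span {(C ϖ : R[X])} := by
    rw [Ideal.map_span, Set.image_singleton]
  let e : (R ⧸ Ideal.span {ϖ})[X] ≃+* R[X] ⧸ Ideal.span {(C ϖ : R[X])} :=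
    (Ideal.polynomialQuotientEquivQuotientPolynomial _).trans (Ideal.quotEquivOfEq h)
  exact ⟨e.symm.toMulEquiv.isDomain _, IsPrincipalIdealRing.of_surjective e.toRingHom e.surjective⟩

open scoped Pointwise in
/-- **(P1)** Let `R` be a discrete valuation ring with uniformiser `ϖ` and `M` a finite
torsion-free `R[X]`-module such that `M/ϖM` is torsion-free over `k[X]`.  Then `M` is a
projective `R[X]`-module. -/
theorem projective_polynomial_of_fibre_torsionFree {ϖ : R} (hϖ : Irreducible ϖ)
    {M : Type*} [AddCommGroup M] [Module R[X] M] [Module.Finite R[X] M]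
    [Module.IsTorsionFree R[X] M]
    (hfib : ∀ (a : R[X]) (m : M), a • m ∈ (C ϖ : R[X]) • (⊤ : Submodule R[X] M) →
      C ϖ ∣ a ∨ m ∈ (C ϖ : R[X]) • (⊤ : Submodule R[X] M)) :
    Module.Projective R[X] M := by
  obtain ⟨hd, hp⟩ := quotient_span_C_isDomain_isPrincipalIdealRing hϖ
  have hp' := isPrincipalIdealRing_away_C hϖ
  have hnu : ¬ IsUnit (C ϖ : R[X]) := fun h => hϖ.not_isUnit (Polynomial.isUnit_C.mp h)
  have hne : (C ϖ : R[X]) ≠ 0 := fun h => hϖ.ne_zero (Polynomial.C_eq_zero.mp h)
  refine projective_of_fibres_torsionFree (C ϖ) hnu hne fun a m h => ?_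
  rcases hfib a m h with h' | h'
  · exact Or.inl (Ideal.mem_span_singleton.mpr h')
  · exact Or.inr h'

end DVR

section Chart

variable {L : Type*} [CommRing L] [IsDomain L] [IsDiscreteValuationRing L]
  {R : Type*} [CommRing R] [IsDomain R] [Algebra L R]

omit [IsDomain R] in
/-- **(P3), integrality step.**  If `R` is integral over `L[x]`, `x` transcendental, and
`f(x)` is divisible by `ϖ` in `R`, then `f` is divisible by `ϖ` in `L[X]`
(`L[X]` is integrally closed; here by the elementary scaling argument). -/
theorem C_dvd_of_dvd_aeval {ϖ : L} (hϖ : Irreducible ϖ) (x : R)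
    (hint : (aeval x : L[X] →ₐ[L] R).toRingHom.IsIntegral) (htr : Transcendental L x)
    (f : L[X]) (h : algebraMap L R ϖ ∣ aeval x f) : C ϖ ∣ f := by
  obtain ⟨b, hb⟩ := h
  obtain ⟨p, hp, hpb⟩ := hint b
  have hinj : Function.Injective ((aeval x : L[X] →ₐ[L] R).toRingHom) :=
    transcendental_iff_injective.mp htr
  have hz : (aeval x : L[X] →ₐ[L] R).toRingHom (C ϖ) * b = (aeval x : L[X] →ₐ[L] R).toRingHom f := by
    simp [hb]
  have hdvd : C ϖ ∣ f ^ p.natDegree :=
    Polynomial.dvd_pow_natDegree_of_eval₂_eq_zero hinj hp (C ϖ) f b hpb hz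
  have hprime : Prime (C ϖ : L[X]) :=
    Polynomial.prime_C_iff.mpr hϖ.prime
  exact hprime.dvd_of_dvd_pow hdvd

omit [IsDomain R] in
/-- **(P3), fibre criterion.**  `R` a domain integral over `L[x]`, `x` transcendental, and a
ring homomorphism `red : R → D` to a domain with `red ϖ = 0` and kernel inside `ϖ R`.  Then
`R/ϖR` is torsion-free over `k[X]`, in the elementwise form used by (P1)/(P2). -/
theorem fibre_condition_of_red {ϖ : L} (hϖ : Irreducible ϖ) (x : R)
    (hint : (aeval x : L[X] →ₐ[L] R).toRingHom.IsIntegral) (htr : Transcendental L x)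
    {D : Type*} [CommRing D] [IsDomain D] (red : R →+* D)
    (hred0 : red (algebraMap L R ϖ) = 0)
    (hred : ∀ a, red a = 0 → ∃ b, a = algebraMap L R ϖ * b)
    (f : L[X]) (r : R) (h : algebraMap L R ϖ ∣ aeval x f * r) :
    C ϖ ∣ f ∨ algebraMap L R ϖ ∣ r := by
  obtain ⟨c, hc⟩ := h
  have h0 : red (aeval x f) * red r = 0 := by
    rw [← map_mul, hc, map_mul, hred0, zero_mul]
  rcases mul_eq_zero.mp h0 with h1 | h1
  · left
    obtain ⟨b, hb⟩ := hred _ h1
    exact C_dvd_of_dvd_aeval hϖ x hint htr f ⟨b, hb⟩
  · right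
    obtain ⟨b, hb⟩ := hred _ h1
    exact ⟨b, hb⟩

open scoped Pointwise in
/-- **(P1), chart form.**  `R` a domain, finite over `L[x]` with `x` transcendental, such that
`R/ϖR` is torsion-free over `k[X]`.  Then `R` is a finite projective `L[X]`-module
(`X` acting as `x`). -/
theorem projective_chart {ϖ : L} (hϖ : Irreducible ϖ) (x : R)
    (hfin : (aeval x : L[X] →ₐ[L] R).toRingHom.Finite) (htr : Transcendental L x)
    (hfib : ∀ (f : L[X]) (r : R), algebraMap L R ϖ ∣ aeval x f * r →
      C ϖ ∣ f ∨ algebraMap L R ϖ ∣ r) :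
    letI := (aeval x : L[X] →ₐ[L] R).toRingHom.toAlgebra
    Module.Projective L[X] R := by
  let _ := (aeval x : L[X] →ₐ[L] R).toRingHom.toAlgebra
  have h_a : ∀ p : L[X], algebraMap L[X] R p = aeval x p := fun _ => rfl
  have hinj : Function.Injective (algebraMap L[X] R) := transcendental_iff_injective.mp htr
  have : Module.Finite L[X] R := hfin
  have : Module.IsTorsionFree L[X] R := by
    refine Module.IsTorsionFree.of_smul_eq_zero fun a m ham => ?_
    rw [Algebra.smul_def, mul_eq_zero] at ham
    rcases ham with h | h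
    · exact Or.inl (hinj (by rw [h, map_zero]))
    · exact Or.inr h
  have hmem : ∀ m : R, m ∈ (C ϖ : L[X]) • (⊤ : Submodule L[X] R) ↔ algebraMap L R ϖ ∣ m := by
    intro m
    rw [Submodule.mem_smul_pointwise_iff_exists]
    constructor
    · rintro ⟨m', -, rfl⟩
      exact ⟨m', by rw [Algebra.smul_def, h_a, aeval_C]⟩
    · rintro ⟨m', rfl⟩
      exact ⟨m', Submodule.mem_top, by rw [Algebra.smul_def, h_a, aeval_C]⟩
  refine projective_polynomial_of_fibre_torsionFree hϖ fun a m h => ?_
  rw [hmem] at h ⊢
  rw [Algebra.smul_def, h_a] at h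
  exact hfib a m h

/-- **(P1), `RingHom.Flat` form** (the hypothesis `hflat` of `helper3378.RelSmooth`):
the coordinate map `L[X] → R`, `X ↦ x`, is flat. -/
theorem flat_chart {ϖ : L} (hϖ : Irreducible ϖ) (x : R)
    (hfin : (aeval x : L[X] →ₐ[L] R).toRingHom.Finite) (htr : Transcendental L x)
    (hfib : ∀ (f : L[X]) (r : R), algebraMap L R ϖ ∣ aeval x f * r →
      C ϖ ∣ f ∨ algebraMap L R ϖ ∣ r) :
    (aeval x : L[X] →ₐ[L] R).toRingHom.Flat := by
  letI := (aeval x : L[X] →ₐ[L] R).toRingHom.toAlgebra
  haveI : Module.Projective L[X] R := projective_chart hϖ x hfin htr hfib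
  exact (inferInstance : Module.Flat L[X] R)

end Chart

section BaseChange

attribute [local instance] Polynomial.algebra

/-- **(P2)** The DVR replacement of the S25 brick `helper9607.free_finite_of_isPushout`.
`L` a discrete valuation ring with uniformiser `ϖ`, `R` a domain finite over `L[x]`, `x`
transcendental, `R/ϖR` torsion-free over `k[X]`.  For every `L`-algebra `B`, the pushout
`A = R ⊗[L] B` is a finite projective `B[X]`-module, `X` acting as `x`. -/
theorem projective_finite_of_isPushout {L R B A : Type*} [CommRing L] [IsDomain L]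
    [IsDiscreteValuationRing L] {ϖ : L} (hϖ : Irreducible ϖ) [CommRing R] [IsDomain R]
    [CommRing B] [CommRing A] [Algebra L R] [Algebra L B] [Algebra L A] [Algebra R A]
    [Algebra B A] [IsScalarTower L R A] [IsScalarTower L B A] [Algebra.IsPushout L R B A]
    (x : R) (hfin : (aeval x : L[X] →ₐ[L] R).toRingHom.Finite) (htr : Transcendental L x)
    (hfib : ∀ (f : L[X]) (r : R), algebraMap L R ϖ ∣ aeval x f * r →
      C ϖ ∣ f ∨ algebraMap L R ϖ ∣ r)
    [Algebra B[X] A] [IsScalarTower B B[X] A] (hX : algebraMap B[X] A X = algebraMap R A x) :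
    Module.Projective B[X] A ∧ Module.Finite B[X] A := by
  letI a1 : Algebra L[X] R := (aeval x : L[X] →ₐ[L] R).toRingHom.toAlgebra
  letI a3 : Algebra L[X] A := ((algebraMap R A).comp (algebraMap L[X] R)).toAlgebra
  have h_a1 : ∀ p : L[X], algebraMap L[X] R p = aeval x p := fun _ => rfl
  have h_a2 : ∀ p : B[X], algebraMap B[X] A p = aeval (algebraMap R A x) p := by
    intro p
    have : (IsScalarTower.toAlgHom B B[X] A) = aeval (algebraMap R A x) := by
      apply Polynomial.algHom_ext
      simp [hX]
    exact congrArg (fun f => f p) this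
  haveI t0 : IsScalarTower L L[X] R := .of_algebraMap_eq fun c => by
    rw [h_a1, ← C_eq_algebraMap, aeval_C]
  haveI t1 : IsScalarTower L[X] R A := .of_algebraMap_eq fun _ => rfl
  haveI t2 : IsScalarTower L[X] B[X] A := .of_algebraMap_eq fun p => by
    rw [h_a2, Polynomial.algebraMap_def, coe_mapRingHom, aeval_map_algebraMap,
      aeval_algebraMap_apply]
    rfl
  haveI t3 : IsScalarTower L B[X] A := .of_algebraMap_eq fun c => by
    rw [h_a2, IsScalarTower.algebraMap_apply L B B[X], ← C_eq_algebraMap, aeval_C,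
      ← IsScalarTower.algebraMap_apply]
  have hP : Algebra.IsPushout L[X] R B[X] A :=
    (Algebra.IsPushout.comp_iff (R := L) (S := L[X]) (R' := B) (S' := B[X]) (T := R)
      (T' := A)).mp inferInstance
  have hbc : IsBaseChange B[X] (IsScalarTower.toAlgHom L[X] R A).toLinearMap := hP.symm.out
  haveI : Module.Finite L[X] R := hfin
  haveI : Module.Projective L[X] R := projective_chart hϖ x hfin htr hfib
  exact ⟨Module.Projective.of_equiv hbc.equiv, Module.Finite.equiv hbc.equiv⟩

open TensorProduct in
/-- **(P2), tensor form** (the shape of the S25 lemmas `free_finite_A₀`, `free_finite_A₁`):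
`R ⊗[L] B` is a finite projective `B[X]`-module, `X` acting as `x ⊗ 1`. -/
theorem projective_finite_tensor {L R : Type*} [CommRing L] [IsDomain L]
    [IsDiscreteValuationRing L] {ϖ : L} (hϖ : Irreducible ϖ) [CommRing R] [IsDomain R]
    [Algebra L R] (x : R) (hfin : (aeval x : L[X] →ₐ[L] R).toRingHom.Finite)
    (htr : Transcendental L x)
    (hfib : ∀ (f : L[X]) (r : R), algebraMap L R ϖ ∣ aeval x f * r →
      C ϖ ∣ f ∨ algebraMap L R ϖ ∣ r)
    (B : Type*) [CommRing B] [Algebra L B] :
    letI : Algebra B (R ⊗[L] B) := Algebra.TensorProduct.rightAlgebra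
    letI : Algebra B[X] (R ⊗[L] B) :=
      (aeval (x ⊗ₜ[L] (1 : B)) : B[X] →ₐ[B] (R ⊗[L] B)).toRingHom.toAlgebra
    Module.Projective B[X] (R ⊗[L] B) ∧ Module.Finite B[X] (R ⊗[L] B) := by
  letI : Algebra B (R ⊗[L] B) := Algebra.TensorProduct.rightAlgebra
  letI : Algebra B[X] (R ⊗[L] B) :=
    (aeval (x ⊗ₜ[L] (1 : B)) : B[X] →ₐ[B] (R ⊗[L] B)).toRingHom.toAlgebra
  haveI : IsScalarTower L B (R ⊗[L] B) :=
    IsScalarTower.of_algebraMap_eq fun c => by simp [Algebra.algebraMap_eq_smul_one]
  haveI : IsScalarTower B B[X] (R ⊗[L] B) := .of_algebraMap_eq fun b => by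
    show algebraMap B (R ⊗[L] B) b = aeval (x ⊗ₜ[L] (1 : B)) (algebraMap B B[X] b)
    rw [← C_eq_algebraMap, aeval_C]
  exact projective_finite_of_isPushout (L := L) (R := R) (B := B) (A := R ⊗[L] B) hϖ x hfin htr
    hfib (by show aeval (x ⊗ₜ[L] (1 : B)) X = _; rw [aeval_X]; rfl)

open TensorProduct in
/-- **(P2), `RingHom.Flat` form after base change.** -/
theorem flat_tensor {L R : Type*} [CommRing L] [IsDomain L]
    [IsDiscreteValuationRing L] {ϖ : L} (hϖ : Irreducible ϖ) [CommRing R] [IsDomain R]
    [Algebra L R] (x : R) (hfin : (aeval x : L[X] →ₐ[L] R).toRingHom.Finite)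
    (htr : Transcendental L x)
    (hfib : ∀ (f : L[X]) (r : R), algebraMap L R ϖ ∣ aeval x f * r →
      C ϖ ∣ f ∨ algebraMap L R ϖ ∣ r)
    (B : Type*) [CommRing B] [Algebra L B] :
    letI : Algebra B (R ⊗[L] B) := Algebra.TensorProduct.rightAlgebra
    (aeval (x ⊗ₜ[L] (1 : B)) : B[X] →ₐ[B] (R ⊗[L] B)).toRingHom.Flat := by
  letI : Algebra B (R ⊗[L] B) := Algebra.TensorProduct.rightAlgebra
  letI : Algebra B[X] (R ⊗[L] B) :=
    (aeval (x ⊗ₜ[L] (1 : B)) : B[X] →ₐ[B] (R ⊗[L] B)).toRingHom.toAlgebra
  haveI : Module.Projective B[X] (R ⊗[L] B) :=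
    (projective_finite_tensor hϖ x hfin htr hfib B).1
  exact (inferInstance : Module.Flat B[X] (R ⊗[L] B))

end BaseChange

/-! ## Finiteness of the integral closure of `Λ[x]` (the hypothesis `hfin` above) -/

section IntegralClosureFinite

open IntermediateField

/-- Integrality over the subalgebra `Λ[x]` is integrality along the coordinate map
`Λ[X] → L`, `X ↦ x`. -/
theorem isIntegralElem_aeval_iff {Λ L : Type*} [CommRing Λ] [CommRing L] [Algebra Λ L]
    (x y : L) :
    (aeval x : Λ[X] →ₐ[Λ] L).toRingHom.IsIntegralElem y ↔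
      IsIntegral (Algebra.adjoin Λ {x}) y := by
  have hmem : ∀ p : Λ[X], aeval x p ∈ Algebra.adjoin Λ {x} := fun p => by
    rw [Algebra.adjoin_singleton_eq_range_aeval]
    exact ⟨p, rfl⟩
  let φ : Λ[X] →+* Algebra.adjoin Λ {x} :=
    ((aeval x : Λ[X] →ₐ[Λ] L).codRestrict (Algebra.adjoin Λ {x}) hmem).toRingHom
  have hcomp : (algebraMap (Algebra.adjoin Λ {x}) L).comp φ =
      (aeval x : Λ[X] →ₐ[Λ] L).toRingHom := RingHom.ext fun _ => rfl
  have hsurj : Function.Surjective φ := by
    rintro ⟨a, ha⟩
    rw [Algebra.adjoin_singleton_eq_range_aeval] at ha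
    obtain ⟨p, rfl⟩ := ha
    exact ⟨p, rfl⟩
  constructor
  · rintro ⟨p, hp, hpy⟩
    refine ⟨p.map φ, hp.map φ, ?_⟩
    rw [eval₂_map, hcomp]
    exact hpy
  · rintro ⟨p, hp, hpy⟩
    have hl : p ∈ lifts φ := (lifts_iff_coeff_lifts p).mpr fun n => hsurj (p.coeff n)
    obtain ⟨q, hq, -, hqm⟩ := lifts_and_natDegree_eq_and_monic hl hp
    refine ⟨q, hqm, ?_⟩
    rw [← hcomp, ← eval₂_map, hq]
    exact hpy

/-- A field that is finite over the image of `K` is finite over `K`. -/
theorem finite_of_finite_fieldRange {K L : Type*} [Field K] [Field L] [Algebra K L]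
    [Module.Finite (algebraMap K L).fieldRange L] : Module.Finite K L := by
  obtain ⟨n, s, hs⟩ := Module.Finite.exists_fin (R := (algebraMap K L).fieldRange) (M := L)
  refine Module.Finite.of_surjective (Fintype.linearCombination K s) fun y => ?_
  have hy : y ∈ Submodule.span (algebraMap K L).fieldRange (Set.range s) := hs ▸ Submodule.mem_top
  obtain ⟨c, rfl⟩ := (Submodule.mem_span_range_iff_exists_fun _).mp hy
  choose k hk using fun i => RingHom.mem_fieldRange.mp (c i).2
  refine ⟨k, ?_⟩
  rw [Fintype.linearCombination_apply]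
  refine Finset.sum_congr rfl fun i _ => ?_
  rw [Algebra.smul_def, hk, Subfield.smul_def, smul_eq_mul]

/-- A field that is finite over an intermediate field is finite over every larger subfield. -/
theorem finite_subfield_of_intermediateField_le {K F : Type*} [Field K] [Field F] [Algebra K F]
    (K₁ : IntermediateField K F) [Module.Finite K₁ F] (T : Subfield F)
    (h : ∀ c ∈ K₁, c ∈ T) : Module.Finite T F := by
  obtain ⟨n, s, hs⟩ := Module.Finite.exists_fin (R := K₁) (M := F)
  refine Module.Finite.of_surjective (Fintype.linearCombination T s) fun y => ?_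
  have hy : y ∈ Submodule.span K₁ (Set.range s) := hs ▸ Submodule.mem_top
  obtain ⟨c, rfl⟩ := (Submodule.mem_span_range_iff_exists_fun _).mp hy
  refine ⟨fun i => ⟨c i, h _ (c i).2⟩, ?_⟩
  rw [Fintype.linearCombination_apply]
  refine Finset.sum_congr rfl fun i _ => ?_
  rw [Subfield.smul_def, smul_eq_mul, Algebra.smul_def]
  rfl

/-- Passage from a relative rank computed in an ambient field `E` to finiteness of the
intermediate field `F` over every subfield of `F` containing the constants and `x`. -/
theorem finite_subfield_of_relrank {K E : Type*} [Field K] [Field E] [Algebra K E]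
    (F : IntermediateField K E) (x : F) (n : ℕ) (hn : (K⟮(x : E)⟯).relrank F = n)
    (T : Subfield F) (hK : ∀ c : K, algebraMap K F c ∈ T) (hx : x ∈ T) : Module.Finite T F := by
  have hrank : Module.rank ((K⟮(x : E)⟯).comap F.val) F = n := by
    have h := IntermediateField.rank_comap (A := K⟮(x : E)⟯) F.val
    rw [IntermediateField.fieldRange_val] at h
    rw [h, hn]
  haveI : Module.Finite ((K⟮(x : E)⟯).comap F.val) F := Module.finite_of_rank_eq_nat hrank
  refine finite_subfield_of_intermediateField_le ((K⟮(x : E)⟯).comap F.val) T fun c hc => ?_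
  have hmap : (K⟮x⟯).map F.val = K⟮(x : E)⟯ := by
    rw [adjoin_map, Set.image_singleton]
    rfl
  have hc' : F.val c ∈ K⟮(x : E)⟯ := hc
  rw [← hmap] at hc'
  obtain ⟨z, hz, hzc⟩ := hc'
  have hzc' : z = c := F.val.injective hzc
  subst hzc'
  have hz' : z ∈ (K⟮x⟯).toSubfield := hz
  rw [IntermediateField.adjoin_toSubfield] at hz'
  refine (Subfield.closure_le.mpr ?_) hz'
  rintro y (⟨c, rfl⟩ | hy)
  · exact hK c
  · rw [Set.mem_singleton_iff] at hy
    rw [hy]
    exact hx

/-- **Finiteness of the integral closure of `Λ[x]`.**  `Λ` a noetherian domain with `Λ[X]`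
integrally closed (e.g. a DVR), `L` a field of characteristic zero, `x ∈ L` transcendental over
`Λ`, `C` the integral closure of `Λ[x]` in `L`.  If `L` is finite over every subfield containing
`Λ` and `x`, then `C` is a finite `Λ[X]`-module (`X` acting as `x`). -/
theorem finite_aeval_of_integralClosure
    {Λ : Type*} [CommRing Λ] [IsDomain Λ] [IsNoetherianRing Λ] [IsIntegrallyClosed Λ[X]]
    {L : Type*} [Field L] [CharZero L] [Algebra Λ L]
    (Cl : Subalgebra Λ L) (x : Cl) (htr : Transcendental Λ (x : L))
    (hC : ∀ y : L, y ∈ Cl ↔ IsIntegral (Algebra.adjoin Λ {(x : L)}) y)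
    (hfin : ∀ T : Subfield L, (∀ a : Λ, algebraMap Λ L a ∈ T) → (x : L) ∈ T →
      Module.Finite T L) :
    (aeval x : Λ[X] →ₐ[Λ] Cl).toRingHom.Finite := by
  letI aAC : Algebra Λ[X] Cl := (aeval x : Λ[X] →ₐ[Λ] Cl).toRingHom.toAlgebra
  letI aAL : Algebra Λ[X] L := (aeval (x : L) : Λ[X] →ₐ[Λ] L).toRingHom.toAlgebra
  have h_aL : ∀ p : Λ[X], algebraMap Λ[X] L p = aeval (x : L) p := fun _ => rfl
  haveI tACL : IsScalarTower Λ[X] Cl L :=
    IsScalarTower.of_algebraMap_eq fun p => Subalgebra.aeval_coe Cl x p
  have hinj : Function.Injective (algebraMap Λ[X] L) := transcendental_iff_injective.mp htr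
  haveI : FaithfulSMul Λ[X] L := (faithfulSMul_iff_algebraMap_injective _ _).mpr hinj
  letI aKL : Algebra (FractionRing Λ[X]) L := FractionRing.liftAlgebra Λ[X] L
  haveI tAKL : IsScalarTower Λ[X] (FractionRing Λ[X]) L :=
    FractionRing.isScalarTower_liftAlgebra Λ[X] L
  haveI : IsIntegralClosure Cl Λ[X] L :=
    ⟨Subtype.val_injective, fun {y} => by
      constructor
      · intro hy
        exact ⟨⟨y, (hC y).mpr ((isIntegralElem_aeval_iff _ y).mp hy)⟩, rfl⟩
      · rintro ⟨c, rfl⟩
        exact (isIntegralElem_aeval_iff _ _).mpr ((hC c).mp c.2)⟩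
  haveI : Module.Finite (algebraMap (FractionRing Λ[X]) L).fieldRange L := by
    refine hfin _ (fun a => ⟨algebraMap Λ[X] (FractionRing Λ[X]) (C a), ?_⟩)
      ⟨algebraMap Λ[X] (FractionRing Λ[X]) X, ?_⟩
    · rw [← IsScalarTower.algebraMap_apply, h_aL, aeval_C]
    · rw [← IsScalarTower.algebraMap_apply, h_aL, aeval_X]
  haveI : Module.Finite (FractionRing Λ[X]) L := finite_of_finite_fieldRange
  haveI : CharZero (FractionRing Λ[X]) := (algebraMap (FractionRing Λ[X]) L).charZero
  exact IsIntegralClosure.finite Λ[X] (FractionRing Λ[X]) L Cl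

end IntegralClosureFinite

end Fermat.Agent.S19.helper5298
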