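import Fermat.Agent.S19.helper5298_ChartProj
import Fermat.Agent.S28.helper2608_Spec
import Fermat.Agent.S28.helper508_RatLoc
import Fermat.Agent.S28.helper1448_Descent

/-!
# S19-CHARTPROJ (helper5298), part (P4): the Igusa charts

For the Prelude charts `chartAlgFin N ℓ` (integral closure of `ℤ_(ℓ)[j]`) and `chartAlgInf N ℓ`
(integral closure of `ℤ_(ℓ)[1/j]`): from the landed S28 reduction statement `Stmt_Red` and the
finiteness of the chart over `ℤ_(ℓ)[X]`, the chart is a finite projective `ℤ_(ℓ)[X]`-module and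
`chart ⊗ B` is a finite projective `B[X]`-module for every `ℤ_(ℓ)`-algebra `B`.
-/

set_option autoImplicit false
set_option linter.style.haveILetI false
set_option linter.unusedSectionVars false

noncomputable section

open ModularCurve ModularCurve.IgusaScheme Polynomial TensorProduct

namespace Fermat.Agent.S19.helper5298

variable (N : ℕ) [NeZero N] (ℓ : ℕ) [Fact ℓ.Prime]

/-- `ℤ₍ℓ₎`, as in the S28 interface. -/
local notation "ℤℓ" => Fermat.Agent.S28.Spec.Zl ℓ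

/-- The uniformiser `ℓ` of `ℤ_(ℓ)`. -/
theorem irreducible_ell : Irreducible ((ℓ : ℕ) : ℤℓ) :=
  Fermat.Agent.S28.helper508.irreducible_ell ℓ

/-- Polynomial expressions in a chart element, read in `ℚ((q))`. -/
theorem coe_aeval_chart (S : Set ↥(modularFunctionFieldFull N)) (x : chartAlg N ℓ S)
    (p : ℤℓ[X]) :
    (((aeval x p : chartAlg N ℓ S) : ↥(modularFunctionFieldFull N)) : LaurentSeries ℚ) =
      aeval (((x : ↥(modularFunctionFieldFull N)) : LaurentSeries ℚ))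
        (p.map (algebraMap ℤℓ ℚ)) := by
  induction p using Polynomial.induction_on' with
  | add p q hp hq => simp [hp, hq]
  | monomial n a =>
    simp [aeval_monomial]
    left
    rfl

/-- An element of a chart whose image in `ℚ((q))` is transcendental over `ℚ` is transcendental
over `ℤ_(ℓ)`. -/
theorem transcendental_chart (S : Set ↥(modularFunctionFieldFull N)) (x : chartAlg N ℓ S)
    (hx : Transcendental ℚ (((x : ↥(modularFunctionFieldFull N)) : LaurentSeries ℚ))) :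
    Transcendental ℤℓ x := by
  rw [transcendental_iff]
  intro p hp
  have h3 : aeval (((x : ↥(modularFunctionFieldFull N)) : LaurentSeries ℚ))
      (p.map (algebraMap ℤℓ ℚ)) = 0 := by
    rw [← coe_aeval_chart, hp]
    rfl
  have h4 : p.map (algebraMap ℤℓ ℚ) = 0 := (transcendental_iff.mp hx) _ h3
  exact (Polynomial.map_eq_zero_iff (FaithfulSMul.algebraMap_injective ℤℓ ℚ)).mp h4

/-- `j` is transcendental over `ℤ_(ℓ)` in the finite chart. -/
theorem transcendental_jChartFin : Transcendental ℤℓ (jChartFin N ℓ) :=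
  transcendental_chart N ℓ _ _ Fermat.Agent.S28.helper1448.jq_transcendental

/-- `1/j` is transcendental over `ℤ_(ℓ)` in the chart at infinity. -/
theorem transcendental_jInvChartInf : Transcendental ℤℓ (jInvChartInf N ℓ) := by
  refine transcendental_chart N ℓ _ _ ?_
  intro h
  apply Fermat.Agent.S28.helper1448.jq_transcendental
  have h' : IsAlgebraic ℚ ((jq : LaurentSeries ℚ)⁻¹) := h
  simpa using h'.inv

/-- The fibre condition for a chart, from the S28 reduction statement: `chart/ℓ` is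
torsion-free over `𝔽_ℓ[X]` (`X` acting as any transcendental `x` over which the chart is
integral). -/
theorem fibre_condition_chart (S : Set ↥(modularFunctionFieldFull N))
    (hred : Fermat.Agent.S28.Spec.Stmt_Red N ℓ S) (x : chartAlg N ℓ S)
    (hint : (aeval x : ℤℓ[X] →ₐ[ℤℓ] chartAlg N ℓ S).toRingHom.IsIntegral)
    (htr : Transcendental ℤℓ x) (f : ℤℓ[X]) (r : chartAlg N ℓ S)
    (h : algebraMap ℤℓ (chartAlg N ℓ S) ((ℓ : ℕ) : ℤℓ) ∣ aeval x f * r) :
    C ((ℓ : ℕ) : ℤℓ) ∣ f ∨ algebraMap ℤℓ (chartAlg N ℓ S) ((ℓ : ℕ) : ℤℓ) ∣ r := by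
  obtain ⟨red, hred⟩ := hred
  refine fibre_condition_of_red (irreducible_ell ℓ) x hint htr red ?_ ?_ f r h
  · rw [map_natCast, map_natCast, ← map_natCast (HahnSeries.C : ZMod ℓ →+* LaurentSeries (ZMod ℓ)),
      ZMod.natCast_self, map_zero]
  · intro a ha
    obtain ⟨b, hb⟩ := hred a ha
    exact ⟨b, by rw [hb, map_natCast]⟩

/-- **(P4), general chart.**  A chart with the S28 reduction property which is finite over
`ℤ_(ℓ)[x]`, `x` transcendental, is a projective `ℤ_(ℓ)[X]`-module. -/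
theorem projective_chart_of_red (S : Set ↥(modularFunctionFieldFull N))
    (hred : Fermat.Agent.S28.Spec.Stmt_Red N ℓ S) (x : chartAlg N ℓ S)
    (htr : Transcendental ℤℓ x)
    (hfin : (aeval x : ℤℓ[X] →ₐ[ℤℓ] chartAlg N ℓ S).toRingHom.Finite) :
    letI := (aeval x : ℤℓ[X] →ₐ[ℤℓ] chartAlg N ℓ S).toRingHom.toAlgebra
    Module.Projective ℤℓ[X] (chartAlg N ℓ S) :=
  projective_chart (irreducible_ell ℓ) x hfin htr
    (fibre_condition_chart N ℓ S hred x hfin.to_isIntegral htr)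

/-- **(P4), general chart, after base change.**  For every `ℤ_(ℓ)`-algebra `B`, `chart ⊗ B` is
a finite projective `B[X]`-module (`X` acting as `x ⊗ 1`). -/
theorem projective_finite_chart_tensor (S : Set ↥(modularFunctionFieldFull N))
    (hred : Fermat.Agent.S28.Spec.Stmt_Red N ℓ S) (x : chartAlg N ℓ S)
    (htr : Transcendental ℤℓ x)
    (hfin : (aeval x : ℤℓ[X] →ₐ[ℤℓ] chartAlg N ℓ S).toRingHom.Finite)
    (B : Type*) [CommRing B] [Algebra ℤℓ B] :
    letI : Algebra B (chartAlg N ℓ S ⊗[ℤℓ] B) := Algebra.TensorProduct.rightAlgebra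
    letI : Algebra B[X] (chartAlg N ℓ S ⊗[ℤℓ] B) :=
      (aeval (x ⊗ₜ[ℤℓ] (1 : B)) : B[X] →ₐ[B] (chartAlg N ℓ S ⊗[ℤℓ] B)).toRingHom.toAlgebra
    Module.Projective B[X] (chartAlg N ℓ S ⊗[ℤℓ] B) ∧
      Module.Finite B[X] (chartAlg N ℓ S ⊗[ℤℓ] B) :=
  projective_finite_tensor (irreducible_ell ℓ) x hfin htr
    (fibre_condition_chart N ℓ S hred x hfin.to_isIntegral htr) B

/-- **(P4), finite chart.** -/
theorem projective_chartAlgFin (hred : Fermat.Agent.S28.Spec.Stmt_Red N ℓ {jFull N})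
    (hfin : (aeval (jChartFin N ℓ) : ℤℓ[X] →ₐ[ℤℓ] chartAlgFin N ℓ).toRingHom.Finite) :
    letI := (aeval (jChartFin N ℓ) : ℤℓ[X] →ₐ[ℤℓ] chartAlgFin N ℓ).toRingHom.toAlgebra
    Module.Projective ℤℓ[X] (chartAlgFin N ℓ) :=
  projective_chart_of_red N ℓ _ hred _ (transcendental_jChartFin N ℓ) hfin

/-- **(P4), chart at infinity.** -/
theorem projective_chartAlgInf (hred : Fermat.Agent.S28.Spec.Stmt_Red N ℓ {(jFull N)⁻¹})
    (hfin : (aeval (jInvChartInf N ℓ) : ℤℓ[X] →ₐ[ℤℓ] chartAlgInf N ℓ).toRingHom.Finite) :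
    letI := (aeval (jInvChartInf N ℓ) : ℤℓ[X] →ₐ[ℤℓ] chartAlgInf N ℓ).toRingHom.toAlgebra
    Module.Projective ℤℓ[X] (chartAlgInf N ℓ) :=
  projective_chart_of_red N ℓ _ hred _ (transcendental_jInvChartInf N ℓ) hfin

/-- **(P4), finite chart after base change.** -/
theorem projective_finite_chartAlgFin_tensor
    (hred : Fermat.Agent.S28.Spec.Stmt_Red N ℓ {jFull N})
    (hfin : (aeval (jChartFin N ℓ) : ℤℓ[X] →ₐ[ℤℓ] chartAlgFin N ℓ).toRingHom.Finite)
    (B : Type*) [CommRing B] [Algebra ℤℓ B] :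
    letI : Algebra B (chartAlgFin N ℓ ⊗[ℤℓ] B) := Algebra.TensorProduct.rightAlgebra
    letI : Algebra B[X] (chartAlgFin N ℓ ⊗[ℤℓ] B) :=
      (aeval (jChartFin N ℓ ⊗ₜ[ℤℓ] (1 : B)) :
        B[X] →ₐ[B] (chartAlgFin N ℓ ⊗[ℤℓ] B)).toRingHom.toAlgebra
    Module.Projective B[X] (chartAlgFin N ℓ ⊗[ℤℓ] B) ∧
      Module.Finite B[X] (chartAlgFin N ℓ ⊗[ℤℓ] B) :=
  projective_finite_chart_tensor N ℓ _ hred _ (transcendental_jChartFin N ℓ) hfin B

/-- **(P4), chart at infinity after base change.** -/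
theorem projective_finite_chartAlgInf_tensor
    (hred : Fermat.Agent.S28.Spec.Stmt_Red N ℓ {(jFull N)⁻¹})
    (hfin : (aeval (jInvChartInf N ℓ) : ℤℓ[X] →ₐ[ℤℓ] chartAlgInf N ℓ).toRingHom.Finite)
    (B : Type*) [CommRing B] [Algebra ℤℓ B] :
    letI : Algebra B (chartAlgInf N ℓ ⊗[ℤℓ] B) := Algebra.TensorProduct.rightAlgebra
    letI : Algebra B[X] (chartAlgInf N ℓ ⊗[ℤℓ] B) :=
      (aeval (jInvChartInf N ℓ ⊗ₜ[ℤℓ] (1 : B)) :
        B[X] →ₐ[B] (chartAlgInf N ℓ ⊗[ℤℓ] B)).toRingHom.toAlgebra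
    Module.Projective B[X] (chartAlgInf N ℓ ⊗[ℤℓ] B) ∧
      Module.Finite B[X] (chartAlgInf N ℓ ⊗[ℤℓ] B) :=
  projective_finite_chart_tensor N ℓ _ hred _ (transcendental_jInvChartInf N ℓ) hfin B

/-- **(P4), `RingHom.Flat` form** (the hypothesis `hflat` of `helper3378.RelSmooth` for the
finite Igusa chart): `ℤ_(ℓ)[X] → chartAlgFin`, `X ↦ j`, is flat. -/
theorem flat_chartAlgFin (hred : Fermat.Agent.S28.Spec.Stmt_Red N ℓ {jFull N})
    (hfin : (aeval (jChartFin N ℓ) : ℤℓ[X] →ₐ[ℤℓ] chartAlgFin N ℓ).toRingHom.Finite) :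
    (aeval (jChartFin N ℓ) : ℤℓ[X] →ₐ[ℤℓ] chartAlgFin N ℓ).toRingHom.Flat :=
  flat_chart (irreducible_ell ℓ) _ hfin (transcendental_jChartFin N ℓ)
    (fibre_condition_chart N ℓ _ hred _ hfin.to_isIntegral (transcendental_jChartFin N ℓ))

/-- **(P4), `RingHom.Flat` form**, chart at infinity: `ℤ_(ℓ)[X] → chartAlgInf`, `X ↦ 1/j`, is
flat. -/
theorem flat_chartAlgInf (hred : Fermat.Agent.S28.Spec.Stmt_Red N ℓ {(jFull N)⁻¹})
    (hfin : (aeval (jInvChartInf N ℓ) : ℤℓ[X] →ₐ[ℤℓ] chartAlgInf N ℓ).toRingHom.Finite) :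
    (aeval (jInvChartInf N ℓ) : ℤℓ[X] →ₐ[ℤℓ] chartAlgInf N ℓ).toRingHom.Flat :=
  flat_chart (irreducible_ell ℓ) _ hfin (transcendental_jInvChartInf N ℓ)
    (fibre_condition_chart N ℓ _ hred _ hfin.to_isIntegral (transcendental_jInvChartInf N ℓ))

end Fermat.Agent.S19.helper5298
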