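import Mathlib
import Fermat.Prelude.Def_AlgebraicCurve_Repartitions
import Fermat.Prelude.Def_AlgebraicCurve_BaseChangeGalois

/-!
# S19-DICT-DIV (helper5454): chart modules `L_i(D)` of a Prelude divisor

Abstract core, Mathlib + Prelude only.

`K ⊆ F` fields with Prelude places, `O : Subring F` an "integrality condition" (in the application
the Gauss valuation ring of `F̄_N` attached to a valuation ring `A` of `ℚ̄`, or its intersection
with the functions rational over a number field), `c : Place K F → Prop` a "chart" (a set of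
places), `D : Divisor K F`.

* `chartMod c O D` : the additive group of all `f ∈ O` with `ord_P f ≥ -D P` at every place `P` of
  the chart (`f = 0` allowed); `chartRing c O` : the case `D = 0`, a subring.
* `OnFin x`, `OnInf x`, `OnMid x` : the three charts "`x` regular", "`x⁻¹` regular", "`x` a unit"
  of a coordinate function `x` (`x = j`).
* module rules: products, monotonicity, constants, intersection of two charts,
  `chartMod_fin_inf_eq` (`L_0(D) ∩ L_1(D)` is the `O`-part of the Riemann–Roch space);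
* `exists_pow_mul_mem_chartMod_fin` / `_inf` : localisation `L_01(D) = L_0(D)[1/x] = L_1(D)[x]`;
* `mul_mem_chartMod_sub` : twist by a principal divisor;
* `isPrincipal_of_mem_riemannRochSpace`, `pic0_mk_eq_zero_of_mem` : the principality criterion
  (exit of the injectivity step);
* `mem_chartMod_of_forall_mul_mem` : duality `L(D) = (L(0) : L(-D))`;
* `smul_mem_chartMod` : equivariance under semilinear automorphisms;
* `IsWitness` : inverse witnesses of formal triviality and their calculus (`mul`, `neg`,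
  `of_principal`, `twist`, `compare`, `approx_section`): the Čech unit `e₁ * e₀'` is an exact
  element of the overlap ring, congruent to `1` modulo `ε`.
-/

set_option autoImplicit false

noncomputable section

open AlgebraicCurve WithZero

namespace Fermat.Agent.S19.helper5454

variable {K F : Type*} [Field K] [Field F] [Algebra K F]

/-! ## Chart modules -/

/-- The chart module `L_c(D)`: elements of `O` whose order at every place `v` of the chart `c`
is at least `-D v` (valuation form, so that `0` is allowed). -/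
def chartMod (c : Place K F → Prop) (O : Subring F) (D : Divisor K F) : AddSubgroup F where
  carrier := {f | f ∈ O ∧ ∀ v : Place K F, c v → v.adicValuation f ≤ exp (D v)}
  zero_mem' := ⟨O.zero_mem, fun v _ => by simp⟩
  add_mem' := by
    rintro f g ⟨hf, hf'⟩ ⟨hg, hg'⟩
    exact ⟨O.add_mem hf hg, fun v hv =>
      (Valuation.map_add _ _ _).trans (max_le (hf' v hv) (hg' v hv))⟩
  neg_mem' := by
    rintro f ⟨hf, hf'⟩
    exact ⟨O.neg_mem hf, fun v hv => by rw [Valuation.map_neg]; exact hf' v hv⟩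

theorem mem_chartMod {c : Place K F → Prop} {O : Subring F} {D : Divisor K F} {f : F} :
    f ∈ chartMod c O D ↔ f ∈ O ∧ ∀ v : Place K F, c v → v.adicValuation f ≤ exp (D v) :=
  Iff.rfl

/-- Order form of membership. -/
theorem mem_chartMod_iff_ord {c : Place K F → Prop} {O : Subring F} {D : Divisor K F} {f : F} :
    f ∈ chartMod c O D ↔ f ∈ O ∧ ∀ v : Place K F, c v → f = 0 ∨ -D v ≤ v.ord f := by
  rw [mem_chartMod]
  exact and_congr_right fun _ => forall_congr' fun v => imp_congr_right fun _ =>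
    v.adicValuation_le_exp_iff

/-- The chart ring `L_c(0)`. -/
def chartRing (c : Place K F → Prop) (O : Subring F) : Subring F where
  carrier := {f | f ∈ O ∧ ∀ v : Place K F, c v → v.adicValuation f ≤ 1}
  zero_mem' := ⟨O.zero_mem, fun v _ => by simp⟩
  one_mem' := ⟨O.one_mem, fun v _ => by simp⟩
  add_mem' := by
    rintro f g ⟨hf, hf'⟩ ⟨hg, hg'⟩
    exact ⟨O.add_mem hf hg, fun v hv =>
      (Valuation.map_add _ _ _).trans (max_le (hf' v hv) (hg' v hv))⟩
  neg_mem' := by
    rintro f ⟨hf, hf'⟩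
    exact ⟨O.neg_mem hf, fun v hv => by rw [Valuation.map_neg]; exact hf' v hv⟩
  mul_mem' := by
    rintro f g ⟨hf, hf'⟩ ⟨hg, hg'⟩
    refine ⟨O.mul_mem hf hg, fun v hv => ?_⟩
    rw [map_mul]
    exact mul_le_one' (hf' v hv) (hg' v hv)

theorem mem_chartRing {c : Place K F → Prop} {O : Subring F} {f : F} :
    f ∈ chartRing c O ↔ f ∈ O ∧ ∀ v : Place K F, c v → v.adicValuation f ≤ 1 :=
  Iff.rfl

theorem mem_chartRing_iff_mem_chartMod_zero {c : Place K F → Prop} {O : Subring F} {f : F} :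
    f ∈ chartRing c O ↔ f ∈ chartMod c O 0 := by
  rw [mem_chartRing, mem_chartMod]
  simp

theorem mem_chartRing_iff_ord {c : Place K F → Prop} {O : Subring F} {f : F} :
    f ∈ chartRing c O ↔ f ∈ O ∧ ∀ v : Place K F, c v → f = 0 ∨ 0 ≤ v.ord f := by
  rw [mem_chartRing]
  exact and_congr_right fun _ => forall_congr' fun v => imp_congr_right fun _ =>
    v.adicValuation_le_one_iff

theorem chartRing_le (c : Place K F → Prop) (O : Subring F) : chartRing c O ≤ O :=
  fun _ hf => hf.1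

theorem chartMod_le (c : Place K F → Prop) (O : Subring F) (D : Divisor K F) :
    ∀ f ∈ chartMod c O D, f ∈ O :=
  fun _ hf => hf.1

/-- Constants of `O` lie in every chart ring. -/
theorem algebraMap_mem_chartRing {c : Place K F → Prop} {O : Subring F} {a : K}
    (ha : algebraMap K F a ∈ O) : algebraMap K F a ∈ chartRing c O :=
  ⟨ha, fun v _ => v.adicValuation_algebraMap_le_one a⟩

/-- Product rule `L(D) * L(D') ⊆ L(D + D')`. -/
theorem mul_mem_chartMod {c : Place K F → Prop} {O : Subring F} {D D' : Divisor K F} {f g : F}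
    (hf : f ∈ chartMod c O D) (hg : g ∈ chartMod c O D') : f * g ∈ chartMod c O (D + D') := by
  refine ⟨O.mul_mem hf.1 hg.1, fun v hv => ?_⟩
  rw [map_mul, Finsupp.add_apply, exp_add]
  exact mul_le_mul' (hf.2 v hv) (hg.2 v hv)

/-- Module rule `L(0) * L(D) ⊆ L(D)`. -/
theorem ring_mul_mem_chartMod {c : Place K F → Prop} {O : Subring F} {D : Divisor K F} {s f : F}
    (hs : s ∈ chartRing c O) (hf : f ∈ chartMod c O D) : s * f ∈ chartMod c O D := by
  have h := mul_mem_chartMod (mem_chartRing_iff_mem_chartMod_zero.mp hs) hf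
  rwa [zero_add] at h

theorem mul_ring_mem_chartMod {c : Place K F → Prop} {O : Subring F} {D : Divisor K F} {s f : F}
    (hf : f ∈ chartMod c O D) (hs : s ∈ chartRing c O) : f * s ∈ chartMod c O D := by
  rw [mul_comm]; exact ring_mul_mem_chartMod hs hf

/-- `L(D) * L(-D) ⊆ L(0)`. -/
theorem mul_mem_chartRing_of_neg {c : Place K F → Prop} {O : Subring F} {D : Divisor K F}
    {f g : F} (hf : f ∈ chartMod c O D) (hg : g ∈ chartMod c O (-D)) :
    f * g ∈ chartRing c O := by
  have h := mul_mem_chartMod hf hg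
  rwa [add_neg_cancel, ← mem_chartRing_iff_mem_chartMod_zero] at h

/-- Monotone in the divisor. -/
theorem chartMod_mono {c : Place K F → Prop} {O : Subring F} {D D' : Divisor K F}
    (h : D ≤ D') : chartMod c O D ≤ chartMod c O D' :=
  fun _ hf => ⟨hf.1, fun v hv => (hf.2 v hv).trans (exp_le_exp.mpr (Finsupp.le_def.mp h v))⟩

/-- Antitone in the chart. -/
theorem chartMod_anti {c c' : Place K F → Prop} {O : Subring F} {D : Divisor K F}
    (h : ∀ v, c' v → c v) : chartMod c O D ≤ chartMod c' O D :=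
  fun _ hf => ⟨hf.1, fun v hv => hf.2 v (h v hv)⟩

theorem chartRing_anti {c c' : Place K F → Prop} {O : Subring F}
    (h : ∀ v, c' v → c v) : chartRing c O ≤ chartRing c' O :=
  fun _ hf => ⟨hf.1, fun v hv => hf.2 v (h v hv)⟩

/-- Monotone in the integrality condition. -/
theorem chartMod_mono_ring {c : Place K F → Prop} {O O' : Subring F} {D : Divisor K F}
    (h : O ≤ O') : chartMod c O D ≤ chartMod c O' D :=
  fun _ hf => ⟨h hf.1, hf.2⟩

/-- Intersection of two charts. -/
theorem chartMod_inf {c c' : Place K F → Prop} {O : Subring F} {D : Divisor K F} :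
    chartMod c O D ⊓ chartMod c' O D = chartMod (fun v => c v ∨ c' v) O D := by
  ext f
  constructor
  · rintro ⟨hf, hf'⟩
    exact ⟨hf.1, fun v hv => hv.elim (hf.2 v) (hf'.2 v)⟩
  · intro hf
    exact ⟨⟨hf.1, fun v hv => hf.2 v (Or.inl hv)⟩, ⟨hf.1, fun v hv => hf.2 v (Or.inr hv)⟩⟩

/-- If two charts cover all places, the intersection of the chart modules is the `O`-part of the
Riemann–Roch space. -/
theorem mem_chartMod_inf_iff_of_cover {c c' : Place K F → Prop} {O : Subring F}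
    {D : Divisor K F} (hcov : ∀ v, c v ∨ c' v) {f : F} :
    f ∈ chartMod c O D ⊓ chartMod c' O D ↔ f ∈ O ∧ f ∈ riemannRochSpace D := by
  rw [chartMod_inf]
  constructor
  · intro hf
    exact ⟨hf.1, fun v => hf.2 v (hcov v)⟩
  · rintro ⟨hO, hf⟩
    exact ⟨hO, fun v _ => hf v⟩

/-! ## The three charts of a coordinate function -/

/-- The chart "`x` is regular at `v`". -/
def OnFin (x : F) (v : Place K F) : Prop := v.adicValuation x ≤ 1

/-- The chart "`x⁻¹` is regular at `v`". -/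
def OnInf (x : F) (v : Place K F) : Prop := v.adicValuation x⁻¹ ≤ 1

/-- The chart "`x` is a unit at `v`". -/
def OnMid (x : F) (v : Place K F) : Prop := v.adicValuation x = 1

theorem onInf_iff {x : F} (hx : x ≠ 0) (v : Place K F) :
    OnInf x v ↔ 1 ≤ v.adicValuation x := by
  unfold OnInf
  rw [map_inv₀]
  have h0 : 0 < v.adicValuation x := zero_lt_iff.mpr (v.adicValuation_ne_zero hx)
  exact inv_le_one₀ h0

theorem onMid_iff {x : F} (hx : x ≠ 0) (v : Place K F) :
    OnMid x v ↔ OnFin x v ∧ OnInf x v := by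
  rw [onInf_iff hx]
  exact le_antisymm_iff

theorem onFin_or_onInf {x : F} (hx : x ≠ 0) (v : Place K F) : OnFin x v ∨ OnInf x v := by
  rw [onInf_iff hx]
  exact le_total _ _

theorem OnMid.onFin {x : F} {v : Place K F} (h : OnMid x v) : OnFin x v := le_of_eq h

theorem OnMid.onInf {x : F} {v : Place K F} (h : OnMid x v) : OnInf x v := by
  unfold OnInf
  rw [map_inv₀, show v.adicValuation x = 1 from h, inv_one]

theorem onFin_iff_ord {x : F} (hx : x ≠ 0) (v : Place K F) : OnFin x v ↔ 0 ≤ v.ord x := by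
  unfold OnFin
  rw [v.adicValuation_le_one_iff, or_iff_right hx]

theorem onInf_iff_ord {x : F} (hx : x ≠ 0) (v : Place K F) : OnInf x v ↔ v.ord x ≤ 0 := by
  unfold OnInf
  rw [v.adicValuation_le_one_iff, or_iff_right (inv_ne_zero hx), v.ord_inv]
  omega

theorem onMid_iff_ord {x : F} (hx : x ≠ 0) (v : Place K F) : OnMid x v ↔ v.ord x = 0 := by
  rw [onMid_iff hx, onFin_iff_ord hx, onInf_iff_ord hx]
  omega

theorem onInf_inv {x : F} (v : Place K F) : OnInf x⁻¹ v ↔ OnFin x v := by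
  unfold OnInf OnFin
  rw [inv_inv]

theorem onFin_inv {x : F} (v : Place K F) : OnFin x⁻¹ v ↔ OnInf x v := Iff.rfl

theorem onMid_inv {x : F} (hx : x ≠ 0) (v : Place K F) : OnMid x⁻¹ v ↔ OnMid x v := by
  rw [onMid_iff hx, onMid_iff (inv_ne_zero hx), onInf_inv, onFin_inv]
  exact and_comm

/-- `x` lies in the chart ring of `OnFin x`. -/
theorem self_mem_chartRing_fin {x : F} {O : Subring F} (hx : x ∈ O) :
    x ∈ chartRing (OnFin (K := K) x) O :=
  ⟨hx, fun _ hv => hv⟩

/-- `x⁻¹` lies in the chart ring of `OnInf x`. -/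
theorem inv_mem_chartRing_inf {x : F} {O : Subring F} (hx : x⁻¹ ∈ O) :
    x⁻¹ ∈ chartRing (OnInf (K := K) x) O :=
  ⟨hx, fun _ hv => hv⟩

theorem self_mem_chartRing_mid {x : F} {O : Subring F} (hx : x ∈ O) :
    x ∈ chartRing (OnMid (K := K) x) O :=
  ⟨hx, fun _ hv => hv.onFin⟩

theorem inv_mem_chartRing_mid {x : F} {O : Subring F} (hx : x⁻¹ ∈ O) :
    x⁻¹ ∈ chartRing (OnMid (K := K) x) O :=
  ⟨hx, fun _ hv => hv.onInf⟩

theorem chartMod_fin_le_mid {x : F} {O : Subring F} {D : Divisor K F} :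
    chartMod (OnFin x) O D ≤ chartMod (OnMid x) O D :=
  chartMod_anti fun _ h => h.onFin

theorem chartMod_inf_le_mid {x : F} {O : Subring F} {D : Divisor K F} :
    chartMod (OnInf x) O D ≤ chartMod (OnMid x) O D :=
  chartMod_anti fun _ h => h.onInf

theorem chartRing_fin_le_mid {x : F} {O : Subring F} :
    chartRing (OnFin (K := K) x) O ≤ chartRing (OnMid (K := K) x) O :=
  chartRing_anti fun _ h => h.onFin

theorem chartRing_inf_le_mid {x : F} {O : Subring F} :
    chartRing (OnInf (K := K) x) O ≤ chartRing (OnMid (K := K) x) O :=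
  chartRing_anti fun _ h => h.onInf

/-- **`L_0(D) ∩ L_1(D)` is the `O`-part of the Riemann–Roch space `L(D)`.** -/
theorem mem_chartMod_fin_inf_iff {x : F} (hx : x ≠ 0) {O : Subring F} {D : Divisor K F} {f : F} :
    f ∈ chartMod (OnFin x) O D ⊓ chartMod (OnInf x) O D ↔ f ∈ O ∧ f ∈ riemannRochSpace D :=
  mem_chartMod_inf_iff_of_cover (onFin_or_onInf hx)

/-! ## Twist by a principal divisor -/

/-- If `E = div u`, multiplication by `u` maps `L(D)` into `L(D - E)`. -/
theorem mul_mem_chartMod_sub {c : Place K F → Prop} {O : Subring F} {D E : Divisor K F}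
    {u f : F} (hu : u ≠ 0) (hE : ∀ v : Place K F, E v = v.ord u) (huO : u ∈ O)
    (hf : f ∈ chartMod c O D) : u * f ∈ chartMod c O (D - E) := by
  refine ⟨O.mul_mem huO hf.1, fun v hv => ?_⟩
  rw [map_mul, Finsupp.sub_apply, sub_eq_neg_add, exp_add, v.adicValuation_eq_exp_neg_ord hu,
    hE v]
  exact mul_le_mul' le_rfl (hf.2 v hv)

/-- If `E = div u`, `u⁻¹` lies in `L(E)` (for every chart). -/
theorem inv_mem_chartMod_of_divisor {c : Place K F → Prop} {O : Subring F} {E : Divisor K F}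
    {u : F} (hu : u ≠ 0) (hE : ∀ v : Place K F, E v = v.ord u) (huO : u⁻¹ ∈ O) :
    u⁻¹ ∈ chartMod c O E := by
  refine ⟨huO, fun v _ => ?_⟩
  rw [v.adicValuation_eq_exp_neg_ord (inv_ne_zero hu), v.ord_inv, neg_neg, hE v]

/-- If `E = div u`, `u` lies in `L(-E)` (for every chart). -/
theorem self_mem_chartMod_neg_of_divisor {c : Place K F → Prop} {O : Subring F}
    {E : Divisor K F} {u : F} (hu : u ≠ 0) (hE : ∀ v : Place K F, E v = v.ord u) (huO : u ∈ O) :
    u ∈ chartMod c O (-E) := by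
  refine ⟨huO, fun v _ => ?_⟩
  rw [v.adicValuation_eq_exp_neg_ord hu, Finsupp.neg_apply, hE v]

/-- Twist, iff form: for a unit `u` of `O` with `E = div u`, `f ∈ L(D) ↔ u * f ∈ L(D - E)`. -/
theorem mul_mem_chartMod_sub_iff {c : Place K F → Prop} {O : Subring F} {D E : Divisor K F}
    {u f : F} (hu : u ≠ 0) (hE : ∀ v : Place K F, E v = v.ord u) (huO : u ∈ O) (huO' : u⁻¹ ∈ O) :
    u * f ∈ chartMod c O (D - E) ↔ f ∈ chartMod c O D := by
  constructor
  · intro h
    have h1 := mul_mem_chartMod (inv_mem_chartMod_of_divisor (c := c) hu hE huO') h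
    rw [← mul_assoc, inv_mul_cancel₀ hu, one_mul, add_sub_cancel] at h1
    exact h1
  · exact mul_mem_chartMod_sub hu hE huO

/-! ## Localisation: `L_01(D) = L_0(D)[1/x] = L_1(D)[x]` -/

/-- Zeros of `x` lie in the support of its divisor. -/
theorem mem_support_of_adicValuation_lt_one {x : F} (hx : x ≠ 0) {E : Divisor K F}
    (hE : ∀ v : Place K F, E v = v.ord x) {v : Place K F} (hv : v.adicValuation x < 1) :
    v ∈ E.support := by
  rw [Finsupp.mem_support_iff, hE v]
  rw [v.adicValuation_eq_exp_neg_ord hx, ← exp_zero, exp_lt_exp] at hv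
  omega

/-- **Localisation, finite chart**: an element of `L_01(D)` is multiplied into `L_0(D)` by a
large power of `x`. -/
theorem exists_pow_mul_mem_chartMod_fin [HasPrincipalDivisors K F] {x : F} (hx : x ≠ 0)
    {O : Subring F} (hxO : x ∈ O) {D : Divisor K F} {f : F}
    (hf : f ∈ chartMod (OnMid x) O D) :
    ∃ n : ℕ, ∀ m : ℕ, n ≤ m → x ^ m * f ∈ chartMod (OnFin x) O D := by
  classical
  rcases eq_or_ne f 0 with rfl | hf0
  · exact ⟨0, fun m _ => by rw [mul_zero]; exact AddSubgroup.zero_mem _⟩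
  obtain ⟨E, hE, -⟩ := HasPrincipalDivisors.exists_divisor (K := K) x hx
  refine ⟨E.support.sup (fun v => (-D v - v.ord f).toNat), fun m hm => ?_⟩
  refine mem_chartMod_iff_ord.mpr ⟨O.mul_mem (O.pow_mem hxO m) hf.1, fun v hv => Or.inr ?_⟩
  have hord : v.ord (x ^ m * f) = (m : ℤ) * v.ord x + v.ord f := by
    rw [v.ord_mul (pow_ne_zero m hx) hf0, ← zpow_natCast, v.ord_zpow]
  rw [hord]
  by_cases hmid : OnMid x v
  · have h1 : -D v ≤ v.ord f :=
      ((mem_chartMod_iff_ord.mp hf).2 v hmid).resolve_left hf0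
    rw [(onMid_iff_ord hx v).mp hmid, mul_zero, zero_add]
    exact h1
  · have hlt : v.adicValuation x < 1 := lt_of_le_of_ne hv hmid
    have hvE : v ∈ E.support := mem_support_of_adicValuation_lt_one hx hE hlt
    have hpos : 1 ≤ v.ord x := by
      rw [v.adicValuation_eq_exp_neg_ord hx, ← exp_zero, exp_lt_exp] at hlt
      omega
    have hle : (-D v - v.ord f).toNat ≤ m :=
      (Finset.le_sup (f := fun v => (-D v - v.ord f).toNat) hvE).trans hm
    have h2 : -D v - v.ord f ≤ (m : ℤ) := by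
      have := Int.self_le_toNat (-D v - v.ord f)
      omega
    nlinarith

/-- **Localisation, chart at infinity**: an element of `L_01(D)` is multiplied into `L_1(D)` by a
large power of `x⁻¹`. -/
theorem exists_pow_mul_mem_chartMod_inf [HasPrincipalDivisors K F] {x : F} (hx : x ≠ 0)
    {O : Subring F} (hxO : x⁻¹ ∈ O) {D : Divisor K F} {f : F}
    (hf : f ∈ chartMod (OnMid x) O D) :
    ∃ n : ℕ, ∀ m : ℕ, n ≤ m → x⁻¹ ^ m * f ∈ chartMod (OnInf x) O D := by
  have hf' : f ∈ chartMod (OnMid x⁻¹) O D :=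
    chartMod_anti (fun v hv => (onMid_inv hx v).mp hv) hf
  obtain ⟨n, hn⟩ := exists_pow_mul_mem_chartMod_fin (inv_ne_zero hx) hxO hf'
  exact ⟨n, fun m hm => hn m hm⟩

/-! ## The principality criterion -/

/-- An effective divisor of degree `0` vanishes, if all places have positive degree. -/
theorem eq_zero_of_nonneg_of_degree_eq_zero (hdeg : ∀ v : Place K F, 0 < v.deg)
    {G : Divisor K F} (hG : ∀ v, 0 ≤ G v) (h0 : Divisor.degree G = 0) : G = 0 := by
  classical
  have hsum : Divisor.degree G = ∑ v ∈ G.support, G v * (v.deg : ℤ) := by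
    conv_lhs => rw [← Finsupp.sum_single G]
    rw [Finsupp.sum, map_sum]
    exact Finset.sum_congr rfl fun v _ => Divisor.degree_single v (G v)
  rw [hsum] at h0
  have hnn : ∀ v ∈ G.support, 0 ≤ G v * (v.deg : ℤ) := fun v _ =>
    mul_nonneg (hG v) (Int.natCast_nonneg _)
  have hz := (Finset.sum_eq_zero_iff_of_nonneg hnn).mp h0
  ext v
  by_contra hv
  have hv' : v ∈ G.support := Finsupp.mem_support_iff.mpr hv
  have h1 := hz v hv'
  have h2 : (0 : ℤ) < (v.deg : ℤ) := by exact_mod_cast hdeg v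
  rcases mul_eq_zero.mp h1 with h | h
  · exact hv h
  · omega

/-- **Principality criterion.** A divisor of degree `0` whose Riemann–Roch space contains a
nonzero element is principal (it is the divisor of `s⁻¹`). -/
theorem isPrincipal_of_mem_riemannRochSpace [HasPrincipalDivisors K F]
    (hdeg : ∀ v : Place K F, 0 < v.deg) {D : Divisor K F} (hD : Divisor.degree D = 0)
    {s : F} (hs : s ≠ 0) (hsD : s ∈ riemannRochSpace D) : Divisor.IsPrincipal D := by
  obtain ⟨E, hE, hE0⟩ := HasPrincipalDivisors.exists_divisor (K := K) s hs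
  have hnn : ∀ v, 0 ≤ (D + E) v := by
    intro v
    have h1 := ((mem_riemannRochSpace_iff.mp hsD) v).resolve_left hs
    rw [Finsupp.add_apply, hE v]
    omega
  have hz : D + E = 0 :=
    eq_zero_of_nonneg_of_degree_eq_zero hdeg hnn (by rw [map_add, hD, hE0, add_zero])
  refine ⟨s⁻¹, inv_ne_zero hs, fun v => ?_⟩
  have h1 : (D + E) v = 0 := by rw [hz]; rfl
  rw [Finsupp.add_apply, hE v] at h1
  rw [v.ord_inv]
  omega

/-- **Exit of the injectivity step**: a degree-zero divisor `D` with a nonzero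
`s ∈ L_0(D) ∩ L_1(D)` has trivial class in `Pic⁰`. -/
theorem pic0_mk_eq_zero_of_mem [HasPrincipalDivisors K F]
    (hdeg : ∀ v : Place K F, 0 < v.deg) {x : F} (hx : x ≠ 0) {O : Subring F}
    (D : Divisor.degZero (K := K) (F := F)) {s : F} (hs : s ≠ 0)
    (h0 : s ∈ chartMod (OnFin x) O (D : Divisor K F))
    (h1 : s ∈ chartMod (OnInf x) O (D : Divisor K F)) : Pic0.mk D = 0 := by
  have hmem := (mem_chartMod_fin_inf_iff hx).mp (AddSubgroup.mem_inf.mpr ⟨h0, h1⟩)
  have hprin : Divisor.IsPrincipal (D : Divisor K F) :=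
    isPrincipal_of_mem_riemannRochSpace hdeg (Divisor.mem_degZero.mp D.2) hs hmem.2
  exact (QuotientAddGroup.eq_zero_iff D).mpr (AddSubgroup.mem_addSubgroupOf.mpr hprin)

/-! ## Duality `L(D) = (L(0) : L(-D))` -/

/-- **Duality.** If `L(-D)` contains, for every place `v` of the chart, an element of exact order
`D v` at `v`, and a unit of `O`, then every `f` with `f * L(-D) ⊆ L(0)` lies in `L(D)`. -/
theorem mem_chartMod_of_forall_mul_mem {c : Place K F → Prop} {O : Subring F} {D : Divisor K F}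
    (hsep : ∀ v : Place K F, c v → ∃ g ∈ chartMod c O (-D), v.adicValuation g = exp (-D v))
    (hunit : ∃ g ∈ chartMod c O (-D), g ≠ 0 ∧ g⁻¹ ∈ O) {f : F}
    (hf : ∀ g ∈ chartMod c O (-D), f * g ∈ chartRing c O) : f ∈ chartMod c O D := by
  refine ⟨?_, fun v hv => ?_⟩
  · obtain ⟨g, hg, hg0, hgO⟩ := hunit
    have h1 : f = f * g * g⁻¹ := by rw [mul_assoc, mul_inv_cancel₀ hg0, mul_one]
    rw [h1]
    exact O.mul_mem (hf g hg).1 hgO
  · obtain ⟨g, hg, hgv⟩ := hsep v hv
    have h1 := (hf g hg).2 v hv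
    rw [map_mul, hgv, exp_neg] at h1
    have h2 : v.adicValuation f = v.adicValuation f * (exp (D v))⁻¹ * exp (D v) := by
      rw [mul_assoc, inv_mul_cancel₀ exp_ne_zero, mul_one]
    rw [h2]
    calc v.adicValuation f * (exp (D v))⁻¹ * exp (D v) ≤ 1 * exp (D v) :=
          mul_le_mul' h1 le_rfl
      _ = exp (D v) := one_mul _

/-- The dual description of `L(D)`, iff form. -/
theorem mem_chartMod_iff_forall_mul_mem {c : Place K F → Prop} {O : Subring F} {D : Divisor K F}
    (hsep : ∀ v : Place K F, c v → ∃ g ∈ chartMod c O (-D), v.adicValuation g = exp (-D v))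
    (hunit : ∃ g ∈ chartMod c O (-D), g ≠ 0 ∧ g⁻¹ ∈ O) {f : F} :
    f ∈ chartMod c O D ↔ ∀ g ∈ chartMod c O (-D), f * g ∈ chartRing c O :=
  ⟨fun hf _ hg => mul_mem_chartRing_of_neg hf hg, mem_chartMod_of_forall_mul_mem hsep hunit⟩

/-! ## Equivariance under semilinear automorphisms -/

theorem adicValuation_smul (g : SemilinearAut K F) (v : Place K F) (f : F) :
    (g • v).adicValuation (g • f) = v.adicValuation f := by
  rcases eq_or_ne f 0 with rfl | hf
  · simp
  · have hgf : g • f ≠ 0 := by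
      rw [SemilinearAut.smul_def]
      exact (map_ne_zero_iff _ (SemilinearAut.toRingAut g).injective).mpr hf
    rw [(g • v).adicValuation_eq_exp_neg_ord hgf, v.adicValuation_eq_exp_neg_ord hf,
      SemilinearAut.ord_smul]

/-- **Equivariance.** A semilinear automorphism preserving `O` and the chart maps `L(D)` into
`L(g • D)`. -/
theorem smul_mem_chartMod (g : SemilinearAut K F) {c : Place K F → Prop} {O : Subring F}
    (hO : ∀ f ∈ O, g • f ∈ O) (hc : ∀ v : Place K F, c (g • v) → c v) {D : Divisor K F} {f : F}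
    (hf : f ∈ chartMod c O D) : g • f ∈ chartMod c O (g • D) := by
  refine ⟨hO f hf.1, fun w hw => ?_⟩
  have hw' : g • (g⁻¹ • w) = w := smul_inv_smul g w
  have hcv : c (g⁻¹ • w) := hc _ (by rw [hw']; exact hw)
  have h1 := hf.2 (g⁻¹ • w) hcv
  rw [← adicValuation_smul g (g⁻¹ • w) f, hw'] at h1
  rw [SemilinearAut.divisor_smul_apply]
  exact h1

theorem onFin_smul (g : SemilinearAut K F) {x : F} (hx : g • x = x) (v : Place K F) :
    OnFin x (g • v) ↔ OnFin x v := by
  unfold OnFin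
  conv_lhs => rw [← hx]
  rw [adicValuation_smul]

theorem onInf_smul (g : SemilinearAut K F) {x : F} (hx : g • x = x) (v : Place K F) :
    OnInf x (g • v) ↔ OnInf x v := by
  have hx' : g • x⁻¹ = x⁻¹ := by rw [smul_inv'', hx]
  unfold OnInf
  conv_lhs => rw [← hx']
  rw [adicValuation_smul]

theorem onMid_smul (g : SemilinearAut K F) {x : F} (hx : g • x = x) (v : Place K F) :
    OnMid x (g • v) ↔ OnMid x v := by
  unfold OnMid
  conv_lhs => rw [← hx]
  rw [adicValuation_smul]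

/-! ## Inverse witnesses of formal triviality -/

/-- **Inverse witnesses.** `(e₀, e₀', e₁, e₁')` witness that `D` is formally trivial at precision
`ε` on the two charts `c₀`, `c₁` with overlap `c₀₁`: `e_i ∈ L_i(D)`, `e_i' ∈ L_i(-D)`,
`e_i e_i' ≡ 1` modulo `ε` in the chart ring, and the Čech unit `e₁ e₀'` is `≡ 1` modulo `ε` in the
overlap ring. -/
structure IsWitness (c0 c1 c01 : Place K F → Prop) (O : Subring F) (ε : F) (D : Divisor K F)
    (e0 e0' e1 e1' : F) : Prop where
  mem0 : e0 ∈ chartMod c0 O D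
  mem0' : e0' ∈ chartMod c0 O (-D)
  mem1 : e1 ∈ chartMod c1 O D
  mem1' : e1' ∈ chartMod c1 O (-D)
  rel0 : ∃ s ∈ chartRing c0 O, e0 * e0' = 1 + ε * s
  rel1 : ∃ s ∈ chartRing c1 O, e1 * e1' = 1 + ε * s
  rel01 : ∃ s ∈ chartRing c01 O, e1 * e0' = 1 + ε * s

namespace IsWitness

variable {c0 c1 c01 : Place K F → Prop} {O : Subring F} {ε : F} {D D' : Divisor K F}
  {e0 e0' e1 e1' f0 f0' f1 f1' : F}

/-- The Čech unit `e₁ * e₀'` is an exact element of the overlap ring. -/
theorem unit_mem (h0 : ∀ v, c01 v → c0 v) (h1 : ∀ v, c01 v → c1 v)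
    (W : IsWitness c0 c1 c01 O ε D e0 e0' e1 e1') : e1 * e0' ∈ chartRing c01 O :=
  mul_mem_chartRing_of_neg (chartMod_anti h1 W.mem1) (chartMod_anti h0 W.mem0')

/-- Witnesses multiply: the Čech unit of `D + D'` is the product of the Čech units. -/
theorem mul (hε0 : ε ∈ chartRing c0 O) (hε1 : ε ∈ chartRing c1 O) (hε01 : ε ∈ chartRing c01 O)
    (W : IsWitness c0 c1 c01 O ε D e0 e0' e1 e1')
    (W' : IsWitness c0 c1 c01 O ε D' f0 f0' f1 f1') :
    IsWitness c0 c1 c01 O ε (D + D') (e0 * f0) (e0' * f0') (e1 * f1) (e1' * f1') := by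
  obtain ⟨s0, hs0, r0⟩ := W.rel0
  obtain ⟨s1, hs1, r1⟩ := W.rel1
  obtain ⟨s, hs, r⟩ := W.rel01
  obtain ⟨t0, ht0, q0⟩ := W'.rel0
  obtain ⟨t1, ht1, q1⟩ := W'.rel1
  obtain ⟨t, ht, q⟩ := W'.rel01
  refine ⟨mul_mem_chartMod W.mem0 W'.mem0, ?_, mul_mem_chartMod W.mem1 W'.mem1, ?_,
    ⟨s0 + t0 + ε * (s0 * t0), ?_, ?_⟩, ⟨s1 + t1 + ε * (s1 * t1), ?_, ?_⟩,
    ⟨s + t + ε * (s * t), ?_, ?_⟩⟩
  · have := mul_mem_chartMod W.mem0' W'.mem0'
    rwa [← neg_add] at this
  · have := mul_mem_chartMod W.mem1' W'.mem1'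
    rwa [← neg_add] at this
  · exact add_mem (add_mem hs0 ht0) (mul_mem hε0 (mul_mem hs0 ht0))
  · calc e0 * f0 * (e0' * f0') = (e0 * e0') * (f0 * f0') := by ring
      _ = (1 + ε * s0) * (1 + ε * t0) := by rw [r0, q0]
      _ = 1 + ε * (s0 + t0 + ε * (s0 * t0)) := by ring
  · exact add_mem (add_mem hs1 ht1) (mul_mem hε1 (mul_mem hs1 ht1))
  · calc e1 * f1 * (e1' * f1') = (e1 * e1') * (f1 * f1') := by ring
      _ = (1 + ε * s1) * (1 + ε * t1) := by rw [r1, q1]
      _ = 1 + ε * (s1 + t1 + ε * (s1 * t1)) := by ring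
  · exact add_mem (add_mem hs ht) (mul_mem hε01 (mul_mem hs ht))
  · calc e1 * f1 * (e0' * f0') = (e1 * e0') * (f1 * f0') := by ring
      _ = (1 + ε * s) * (1 + ε * t) := by rw [r, q]
      _ = 1 + ε * (s + t + ε * (s * t)) := by ring

/-- Witnesses for `-D`: swap the roles. -/
theorem neg (h0 : ∀ v, c01 v → c0 v) (h1 : ∀ v, c01 v → c1 v) (hε01 : ε ∈ chartRing c01 O)
    (W : IsWitness c0 c1 c01 O ε D e0 e0' e1 e1') :
    IsWitness c0 c1 c01 O ε (-D) e0' e0 e1' e1 := by
  obtain ⟨s0, hs0, r0⟩ := W.rel0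
  obtain ⟨s1, hs1, r1⟩ := W.rel1
  obtain ⟨s, hs, r⟩ := W.rel01
  have hp : e1' * e0 ∈ chartRing c01 O := by
    have := mul_mem_chartRing_of_neg (chartMod_anti h0 W.mem0) (chartMod_anti h1 W.mem1')
    rwa [mul_comm] at this
  refine ⟨W.mem0', by rw [neg_neg]; exact W.mem0, W.mem1', by rw [neg_neg]; exact W.mem1,
    ⟨s0, hs0, by rw [mul_comm]; exact r0⟩, ⟨s1, hs1, by rw [mul_comm]; exact r1⟩,
    ⟨s1 + s0 + ε * (s1 * s0) - s * (e1' * e0), ?_, ?_⟩⟩
  · exact sub_mem (add_mem (add_mem (chartRing_anti h1 hs1) (chartRing_anti h0 hs0))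
      (mul_mem hε01 (mul_mem (chartRing_anti h1 hs1) (chartRing_anti h0 hs0)))) (mul_mem hs hp)
  · have key : e1' * e0 * (e1 * e0') = (e1 * e1') * (e0 * e0') := by ring
    rw [r, r1, r0] at key
    linear_combination key

/-- Principal divisors of units of `O` are formally trivial with Čech unit `1`. -/
theorem of_principal {E : Divisor K F} {u : F} (hu : u ≠ 0) (hE : ∀ v : Place K F, E v = v.ord u)
    (huO : u ∈ O) (huO' : u⁻¹ ∈ O) : IsWitness c0 c1 c01 O ε E u⁻¹ u u⁻¹ u :=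
  ⟨inv_mem_chartMod_of_divisor hu hE huO', self_mem_chartMod_neg_of_divisor hu hE huO,
    inv_mem_chartMod_of_divisor hu hE huO', self_mem_chartMod_neg_of_divisor hu hE huO,
    ⟨0, zero_mem _, by rw [inv_mul_cancel₀ hu, mul_zero, add_zero]⟩,
    ⟨0, zero_mem _, by rw [inv_mul_cancel₀ hu, mul_zero, add_zero]⟩,
    ⟨0, zero_mem _, by rw [inv_mul_cancel₀ hu, mul_zero, add_zero]⟩⟩

/-- Transport along linear equivalence: the Čech unit does not change. -/
theorem twist (hε0 : ε ∈ chartRing c0 O) (hε1 : ε ∈ chartRing c1 O) (hε01 : ε ∈ chartRing c01 O)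
    (W : IsWitness c0 c1 c01 O ε D e0 e0' e1 e1') {E : Divisor K F} {u : F} (hu : u ≠ 0)
    (hE : ∀ v : Place K F, E v = v.ord u) (huO : u ∈ O) (huO' : u⁻¹ ∈ O) :
    IsWitness c0 c1 c01 O ε (D + E) (e0 * u⁻¹) (e0' * u) (e1 * u⁻¹) (e1' * u) :=
  W.mul hε0 hε1 hε01 (of_principal hu hE huO huO')

theorem twist_unit {u : F} (hu : u ≠ 0) : e1 * u⁻¹ * (e0' * u) = e1 * e0' := by
  field_simp

/-- **Comparison of two witness systems** for the same divisor: with `a₁ = f₁ e₁' ∈ S₁`,
`a₀ = e₀ f₀' ∈ S₀`, `b₀ = f₀ e₀' ∈ S₀` one has the exact identity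
`a₁ (e₁ e₀') a₀ = (f₁ f₀') (e₁ e₁') (e₀ e₀')`, `a₀ b₀ ≡ 1`, and `a₁ ≡ b₀` modulo `ε` on the
overlap (so both are constant modulo `ε` by the Čech `H⁰`). -/
theorem compare (h0 : ∀ v, c01 v → c0 v) (h1 : ∀ v, c01 v → c1 v)
    (W : IsWitness c0 c1 c01 O ε D e0 e0' e1 e1')
    (W' : IsWitness c0 c1 c01 O ε D f0 f0' f1 f1') :
    f1 * e1' ∈ chartRing c1 O ∧ e0 * f0' ∈ chartRing c0 O ∧ f0 * e0' ∈ chartRing c0 O ∧
      (f1 * e1') * (e1 * e0') * (e0 * f0') = (f1 * f0') * ((e1 * e1') * (e0 * e0')) ∧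
      (∃ s ∈ chartRing c0 O, (e0 * f0') * (f0 * e0') = 1 + ε * s) ∧
      (∃ s ∈ chartRing c1 O, (f1 * e1') * (e1 * f1') = 1 + ε * s) ∧
      (∃ s ∈ chartRing c01 O, f1 * e1' = f0 * e0' + ε * s) := by
  obtain ⟨s0, hs0, r0⟩ := W.rel0
  obtain ⟨s1, hs1, r1⟩ := W.rel1
  obtain ⟨s, hs, r⟩ := W.rel01
  obtain ⟨t0, ht0, q0⟩ := W'.rel0
  obtain ⟨t1, ht1, q1⟩ := W'.rel1
  obtain ⟨t, ht, q⟩ := W'.rel01
  have ha1 : f1 * e1' ∈ chartRing c1 O := mul_mem_chartRing_of_neg W'.mem1 W.mem1'
  have ha0 : e0 * f0' ∈ chartRing c0 O := mul_mem_chartRing_of_neg W.mem0 W'.mem0'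
  have hb0 : f0 * e0' ∈ chartRing c0 O := mul_mem_chartRing_of_neg W'.mem0 W.mem0'
  have hq : f1 * e0' ∈ chartRing c01 O :=
    mul_mem_chartRing_of_neg (chartMod_anti h1 W'.mem1) (chartMod_anti h0 W.mem0')
  refine ⟨ha1, ha0, hb0, by ring, ⟨s0 + t0 + ε * (s0 * t0), ?_, ?_⟩,
    ⟨s1 + t1 + ε * (s1 * t1), ?_, ?_⟩,
    ⟨f1 * e0' * s1 - s * (f1 * e1') - f1 * e0' * t0 + t * (f0 * e0'), ?_, ?_⟩⟩
  · have hε : ε * (s0 * t0) ∈ chartRing c0 O := by
      have h2 : ε * (s0 * t0) = (e0 * e0' - 1) * t0 := by rw [r0]; ring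
      rw [h2]
      exact mul_mem (sub_mem (mul_mem_chartRing_of_neg W.mem0 W.mem0') (one_mem _)) ht0
    exact add_mem (add_mem hs0 ht0) hε
  · calc e0 * f0' * (f0 * e0') = (e0 * e0') * (f0 * f0') := by ring
      _ = (1 + ε * s0) * (1 + ε * t0) := by rw [r0, q0]
      _ = 1 + ε * (s0 + t0 + ε * (s0 * t0)) := by ring
  · have hε : ε * (s1 * t1) ∈ chartRing c1 O := by
      have h2 : ε * (s1 * t1) = (e1 * e1' - 1) * t1 := by rw [r1]; ring
      rw [h2]
      exact mul_mem (sub_mem (mul_mem_chartRing_of_neg W.mem1 W.mem1') (one_mem _)) ht1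
    exact add_mem (add_mem hs1 ht1) hε
  · calc f1 * e1' * (e1 * f1') = (e1 * e1') * (f1 * f1') := by ring
      _ = (1 + ε * s1) * (1 + ε * t1) := by rw [r1, q1]
      _ = 1 + ε * (s1 + t1 + ε * (s1 * t1)) := by ring
  · exact add_mem (sub_mem (sub_mem (mul_mem hq (chartRing_anti h1 hs1))
      (mul_mem hs (chartRing_anti h1 ha1))) (mul_mem hq (chartRing_anti h0 ht0)))
      (mul_mem ht (chartRing_anti h0 hb0))
  · have k1 : f1 * e1' * (e1 * e0') = f1 * e0' * (e1 * e1') := by ring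
    have k2 : f0 * e0' * (f1 * f0') = f1 * e0' * (f0 * f0') := by ring
    rw [r, r1] at k1
    rw [q, q0] at k2
    linear_combination k1 - k2

/-- **Approximate sections from a factorisation of the Čech unit.** If, modulo `π`, the Čech unit
`e₁ e₀'` times `α₁ ∈ S₁` equals `a₀ ∈ S₀`, and `m ∈ S₀` inverts `e₀ e₀'` modulo `π`, then
`x₁ = e₁ α₁ ∈ L_1(D)` and `x₀ = e₀ m a₀ ∈ L_0(D)` agree modulo `π L_01(D)`. -/
theorem approx_section (h0 : ∀ v, c01 v → c0 v) (h1 : ∀ v, c01 v → c1 v)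
    (W : IsWitness c0 c1 c01 O ε D e0 e0' e1 e1') {π a0 m α1 t w : F}
    (ha0 : a0 ∈ chartRing c0 O) (hm : m ∈ chartRing c0 O) (hα1 : α1 ∈ chartRing c1 O)
    (ht : t ∈ chartRing c0 O) (hw : w ∈ chartRing c01 O)
    (hinv : e0 * e0' * m = 1 + π * t) (hfac : e1 * e0' * α1 = a0 + π * w) :
    e1 * α1 ∈ chartMod c1 O D ∧ e0 * (m * a0) ∈ chartMod c0 O D ∧
      ∃ y ∈ chartMod c01 O D, e1 * α1 - e0 * (m * a0) = π * y := by
  refine ⟨mul_ring_mem_chartMod W.mem1 hα1, mul_ring_mem_chartMod W.mem0 (mul_mem hm ha0),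
    e0 * (m * w) - t * (e1 * α1), ?_, ?_⟩
  · exact sub_mem
      (mul_ring_mem_chartMod (chartMod_anti h0 W.mem0) (mul_mem (chartRing_anti h0 hm) hw))
      (ring_mul_mem_chartMod (chartRing_anti h0 ht)
        (mul_ring_mem_chartMod (chartMod_anti h1 W.mem1) (chartRing_anti h1 hα1)))
  · linear_combination (-(e1 * α1)) * hinv + (e0 * m) * hfac

/-! ### The fields of a trivialisation modulo `ε` (consumer form of CECHPIC) -/

/-- `e₀` generates `L_0(D)` modulo `ε`. -/
theorem gen0 (W : IsWitness c0 c1 c01 O ε D e0 e0' e1 e1') {x : F} (hx : x ∈ chartMod c0 O D) :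
    ∃ s ∈ chartRing c0 O, ∃ y ∈ chartMod c0 O D, x - s * e0 = ε * y := by
  obtain ⟨s0, hs0, r0⟩ := W.rel0
  refine ⟨x * e0', mul_mem_chartRing_of_neg hx W.mem0', -(s0 * x),
    AddSubgroup.neg_mem _ (ring_mul_mem_chartMod hs0 hx), ?_⟩
  linear_combination (-x) * r0

/-- `e₁` generates `L_1(D)` modulo `ε`. -/
theorem gen1 (W : IsWitness c0 c1 c01 O ε D e0 e0' e1 e1') {x : F} (hx : x ∈ chartMod c1 O D) :
    ∃ s ∈ chartRing c1 O, ∃ y ∈ chartMod c1 O D, x - s * e1 = ε * y := by
  obtain ⟨s1, hs1, r1⟩ := W.rel1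
  refine ⟨x * e1', mul_mem_chartRing_of_neg hx W.mem1', -(s1 * x),
    AddSubgroup.neg_mem _ (ring_mul_mem_chartMod hs1 hx), ?_⟩
  linear_combination (-x) * r1

/-- `e₀` generates `L_01(D)` modulo `ε`. -/
theorem gen01 (h0 : ∀ v, c01 v → c0 v) (W : IsWitness c0 c1 c01 O ε D e0 e0' e1 e1') {x : F}
    (hx : x ∈ chartMod c01 O D) :
    ∃ s ∈ chartRing c01 O, ∃ y ∈ chartMod c01 O D, x - s * e0 = ε * y := by
  obtain ⟨s0, hs0, r0⟩ := W.rel0
  refine ⟨x * e0', mul_mem_chartRing_of_neg hx (chartMod_anti h0 W.mem0'), -(s0 * x),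
    AddSubgroup.neg_mem _ (ring_mul_mem_chartMod (chartRing_anti h0 hs0) hx), ?_⟩
  linear_combination (-x) * r0

/-- The two generators agree modulo `ε L_01(D)`. -/
theorem congr (h0 : ∀ v, c01 v → c0 v) (h1 : ∀ v, c01 v → c1 v)
    (W : IsWitness c0 c1 c01 O ε D e0 e0' e1 e1') :
    ∃ y ∈ chartMod c01 O D, e1 - e0 = ε * y := by
  obtain ⟨s0, hs0, r0⟩ := W.rel0
  obtain ⟨s, hs, r⟩ := W.rel01
  refine ⟨s * e0 - s0 * e1, sub_mem (ring_mul_mem_chartMod hs (chartMod_anti h0 W.mem0))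
    (ring_mul_mem_chartMod (chartRing_anti h0 hs0) (chartMod_anti h1 W.mem1)), ?_⟩
  linear_combination e0 * r - e1 * r0

/-- `e₀` is a free generator of `L_01(D)` modulo every power of `ε`. -/
theorem free (h0 : ∀ v, c01 v → c0 v) (hε01 : ε ∈ chartRing c01 O)
    (W : IsWitness c0 c1 c01 O ε D e0 e0' e1 e1') (k : ℕ) {s : F} (hs : s ∈ chartRing c01 O)
    (h : ∃ y ∈ chartMod c01 O D, s * e0 = ε ^ k * y) :
    ∃ t ∈ chartRing c01 O, s = ε ^ k * t := by
  obtain ⟨s0, hs0, r0⟩ := W.rel0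
  obtain ⟨y, hy, hsy⟩ := h
  have hs0' : s0 ∈ chartRing c01 O := chartRing_anti h0 hs0
  have hz : y * e0' ∈ chartRing c01 O :=
    mul_mem_chartRing_of_neg hy (chartMod_anti h0 W.mem0')
  -- `s = ε ^ k * (y * e0') - ε * (s0 * s)`
  have key : s = ε ^ k * (y * e0') - ε * (s0 * s) := by
    linear_combination (-s) * r0 + e0' * hsy
  have step : ∀ j : ℕ, j ≤ k → ∃ t ∈ chartRing c01 O, s = ε ^ j * t := by
    intro j
    induction j with
    | zero => intro _; exact ⟨s, hs, by rw [pow_zero, one_mul]⟩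
    | succ j ih =>
      intro hj
      obtain ⟨t, ht, hst⟩ := ih (Nat.le_of_succ_le hj)
      obtain ⟨d, rfl⟩ := Nat.exists_eq_add_of_le hj
      refine ⟨ε ^ d * (y * e0') - s0 * t,
        sub_mem (mul_mem (pow_mem hε01 d) hz) (mul_mem hs0' ht), ?_⟩
      have h2 : ε * (s0 * s) = ε ^ (j + 1) * (s0 * t) := by
        rw [hst]; ring
      rw [key, h2]
      ring
  exact step k le_rfl

end IsWitness

/-! ## Packaging as submodules / subalgebras over a ring of constants -/

section Packaging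

variable (𝒪 : Subring K) (O : Subring F) (hO : ∀ a ∈ 𝒪, algebraMap K F a ∈ O)

/-- The chart ring as a subalgebra over a ring of constants `𝒪 ⊆ K` contained in `O`. -/
def chartAlg (c : Place K F → Prop) : Subalgebra 𝒪 F where
  toSubsemiring := (chartRing c O).toSubsemiring
  algebraMap_mem' a := algebraMap_mem_chartRing (c := c) (hO a a.2)

theorem mem_chartAlg {c : Place K F → Prop} {f : F} :
    f ∈ chartAlg 𝒪 O hO c ↔ f ∈ chartRing c O := Iff.rfl

/-- The chart module as a submodule over a ring of constants `𝒪 ⊆ K` contained in `O`. -/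
def chartSub (c : Place K F → Prop) (D : Divisor K F) : Submodule 𝒪 F where
  toAddSubmonoid := (chartMod c O D).toAddSubmonoid
  smul_mem' a f hf := by
    have h : a • f = algebraMap K F a * f := by
      rw [Subring.smul_def, Algebra.smul_def]
    rw [h]
    exact ring_mul_mem_chartMod (algebraMap_mem_chartRing (c := c) (hO a a.2)) hf

theorem mem_chartSub {c : Place K F → Prop} {D : Divisor K F} {f : F} :
    f ∈ chartSub 𝒪 O hO c D ↔ f ∈ chartMod c O D := Iff.rfl

theorem chartSub_le_of_anti {c c' : Place K F → Prop} (h : ∀ v, c' v → c v) (D : Divisor K F) :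
    chartSub 𝒪 O hO c D ≤ chartSub 𝒪 O hO c' D :=
  fun _ hf => chartMod_anti h hf

theorem chartAlg_mul_mem_chartSub {c : Place K F → Prop} {D : Divisor K F} {s x : F}
    (hs : s ∈ chartAlg 𝒪 O hO c) (hx : x ∈ chartSub 𝒪 O hO c D) :
    s * x ∈ chartSub 𝒪 O hO c D :=
  ring_mul_mem_chartMod hs hx

end Packaging

end Fermat.Agent.S19.helper5454
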