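import Fermat.Agent.S19.helper5454_ChartDiv
import Fermat.Agent.S33.helper2055_CechOrd

/-!
# Divisor-language front end of the Čech coordinates (helper5454)

Bridge between

* the chart modules `chartMod c O D = L_c(D)` of a Prelude divisor (`helper5454_ChartDiv`), with
  their inverse witnesses `IsWitness`, and
* the bundle-level Čech theory of `Fermat.Agent.S19.helper2055` (`Bundle`, `Triv`, `Charts`,
  `IsCoord`) and its family form `Fermat.Agent.S33.helper2055.IsFamily` / `IsCoordSys`.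

Contents (`K ⊆ F` fields with Prelude places, `O : Subring F` the integrality condition,
`𝒪 : Subring K` a ring of constants inside `O`, `π : 𝒪`, charts `c0`, `c1`, `c01`):

* `chartRing_saturated`, `chartMod_saturated` : chart rings/modules are saturated in `O` with
  respect to nonzero constants;
* `IsWitness.of_sub_one_mem` : witnesses from "`e_i e_i' ≡ 1` and `e₁ e₀' ≡ 1` modulo `ε O`";
* `IsWitness.smul` : transport of witnesses by a semilinear automorphism;
* `bundleOf` : the bundle `(L_0(D), L_1(D), L_01(D))`; `mem_pp_chartSub`, `mem_pp_chartAlg`;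
* `triv_of_isWitness` : witnesses give a trivialisation mod `π`;
* `isFamily_of_isWitness` : a family of divisors, additive up to divisors of units of `O`, with
  witnesses, is an `IsFamily`;
* `charts_of` : the `Charts` structure of the chart rings (`sat0` is automatic);
* `isPrincipal_of_triv_self` : a global generator mod `π` of a degree `0` divisor makes it
  principal (the exit of the injectivity step);
* `coord_smul_divisor` : equivariance of the Čech coordinates of a family of divisors under a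
  semilinear automorphism, the family being equivariant up to divisors of units of `O`.
-/

set_option autoImplicit false

noncomputable section

open AlgebraicCurve WithZero

namespace Fermat.Agent.S19.helper5454

open Fermat.Agent.S19.helper2055

variable {K F : Type*} [Field K] [Field F] [Algebra K F]

/-! ## Saturation with respect to constants -/

/-- A nonzero constant has valuation `1` at every place. -/
theorem adicValuation_algebraMap_eq_one (v : Place K F) {a : K} (ha : a ≠ 0) :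
    v.adicValuation (algebraMap K F a) = 1 := by
  have h1 := v.adicValuation_algebraMap_le_one a
  have h2 := v.adicValuation_algebraMap_le_one a⁻¹
  have h3 : v.adicValuation (algebraMap K F a) * v.adicValuation (algebraMap K F a⁻¹) = 1 := by
    rw [← map_mul, ← map_mul, mul_inv_cancel₀ ha, map_one, map_one]
  rcases lt_or_eq_of_le h1 with h | h
  · exfalso
    have h4 : v.adicValuation (algebraMap K F a) * v.adicValuation (algebraMap K F a⁻¹) < 1 :=
      mul_lt_one_of_lt_of_le h h2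
    exact absurd h3 (ne_of_lt h4)
  · exact h

/-- Chart modules are saturated in `O` with respect to nonzero constants. -/
theorem chartMod_saturated {c : Place K F → Prop} {O : Subring F} {D : Divisor K F} {a : K}
    (ha : a ≠ 0) {y : F} (hy : y ∈ O) (h : algebraMap K F a * y ∈ chartMod c O D) :
    y ∈ chartMod c O D := by
  refine ⟨hy, fun v hv => ?_⟩
  have h1 := h.2 v hv
  rwa [map_mul, adicValuation_algebraMap_eq_one v ha, one_mul] at h1

/-- Chart rings are saturated in `O` with respect to nonzero constants. -/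
theorem chartRing_saturated {c : Place K F → Prop} {O : Subring F} {a : K}
    (ha : a ≠ 0) {y : F} (hy : y ∈ O) (h : algebraMap K F a * y ∈ chartRing c O) :
    y ∈ chartRing c O := by
  refine ⟨hy, fun v hv => ?_⟩
  have h1 := h.2 v hv
  rwa [map_mul, adicValuation_algebraMap_eq_one v ha, one_mul] at h1

/-- The order of a nonzero constant vanishes. -/
theorem ord_algebraMap_eq_zero (v : Place K F) {a : K} (ha : a ≠ 0) :
    v.ord (algebraMap K F a) = 0 := by
  unfold Place.ord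
  rw [adicValuation_algebraMap_eq_one v ha]
  simp

/-- The order of a power. -/
theorem ord_pow_eq (v : Place K F) (f : F) (n : ℕ) : v.ord (f ^ n) = n * v.ord f := by
  induction n with
  | zero => simp [v.ord_one]
  | succ n ih =>
    rcases eq_or_ne f 0 with rfl | hf
    · simp [v.ord_zero]
    · rw [pow_succ, v.ord_mul (pow_ne_zero n hf) hf, ih]
      push_cast
      ring

/-- An element of `L(D + k • E) ∩ O` lies in the chart module `L_c(D)` of every chart `c` off the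
support of `E`. -/
theorem mem_chartMod_of_mem_riemannRochSpace_add {c : Place K F → Prop} {O : Subring F}
    {D E : Divisor K F} (hE : ∀ v : Place K F, c v → E v = 0) (k : ℕ) {f : F} (hf : f ∈ O)
    (hfD : f ∈ riemannRochSpace (D + k • E)) : f ∈ chartMod c O D := by
  refine mem_chartMod_iff_ord.mpr ⟨hf, fun v hv => ?_⟩
  have h := mem_riemannRochSpace_iff.mp hfD v
  rwa [Finsupp.add_apply, Finsupp.smul_apply, hE v hv, smul_zero, add_zero] at h

/-! ## More on witnesses -/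

namespace IsWitness

variable {c0 c1 c01 : Place K F → Prop} {O : Subring F} {D : Divisor K F}
  {e0 e0' e1 e1' : F}

/-- **Witnesses from reductions.** If `e_i ∈ L_i(D)`, `e_i' ∈ L_i(-D)` and the three products
`e₀ e₀'`, `e₁ e₁'`, `e₁ e₀'` are `≡ 1` modulo `a • O` for a nonzero constant `a`, then
`(e₀, e₀', e₁, e₁')` is a system of inverse witnesses at precision `a` (saturation of the chart
rings). -/
theorem of_sub_one_mem {a : K} (ha : a ≠ 0) (h0 : ∀ v, c01 v → c0 v) (h1 : ∀ v, c01 v → c1 v)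
    (m0 : e0 ∈ chartMod c0 O D) (m0' : e0' ∈ chartMod c0 O (-D))
    (m1 : e1 ∈ chartMod c1 O D) (m1' : e1' ∈ chartMod c1 O (-D))
    (r0 : ∃ s ∈ O, e0 * e0' = 1 + algebraMap K F a * s)
    (r1 : ∃ s ∈ O, e1 * e1' = 1 + algebraMap K F a * s)
    (r01 : ∃ s ∈ O, e1 * e0' = 1 + algebraMap K F a * s) :
    IsWitness c0 c1 c01 O (algebraMap K F a) D e0 e0' e1 e1' := by
  obtain ⟨s0, hs0, q0⟩ := r0
  obtain ⟨s1, hs1, q1⟩ := r1
  obtain ⟨s, hs, q⟩ := r01
  refine ⟨m0, m0', m1, m1', ⟨s0, ?_, q0⟩, ⟨s1, ?_, q1⟩, ⟨s, ?_, q⟩⟩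
  · refine chartRing_saturated ha hs0 ?_
    have h2 : algebraMap K F a * s0 = e0 * e0' - 1 := by rw [q0]; ring
    rw [h2]
    exact sub_mem (mul_mem_chartRing_of_neg m0 m0') (one_mem _)
  · refine chartRing_saturated ha hs1 ?_
    have h2 : algebraMap K F a * s1 = e1 * e1' - 1 := by rw [q1]; ring
    rw [h2]
    exact sub_mem (mul_mem_chartRing_of_neg m1 m1') (one_mem _)
  · refine chartRing_saturated ha hs ?_
    have h2 : algebraMap K F a * s = e1 * e0' - 1 := by rw [q]; ring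
    rw [h2]
    exact sub_mem (mul_mem_chartRing_of_neg (chartMod_anti h1 m1) (chartMod_anti h0 m0'))
      (one_mem _)

/-- **Witnesses from seeds.** If `e_i ∈ L_i(D)`, `e_i' ∈ L_i(-D)` are all `≡ 1` modulo an
additive subgroup `J` closed under products, every element of which is `a` times an element of
`O` (`a` a nonzero constant; e.g. `J` = the elements of valuation `< 1` at all the valuations
defining `O`, `a` a uniformiser), then `(e₀, e₀', e₁, e₁')` are inverse witnesses at precision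
`a`. -/
theorem of_sub_one_mem_addSubgroup {a : K} (ha : a ≠ 0) (h0 : ∀ v, c01 v → c0 v)
    (h1 : ∀ v, c01 v → c1 v) (J : AddSubgroup F) (hJmul : ∀ x ∈ J, ∀ y ∈ J, x * y ∈ J)
    (hJ : ∀ x ∈ J, ∃ s ∈ O, x = algebraMap K F a * s)
    (m0 : e0 ∈ chartMod c0 O D) (m0' : e0' ∈ chartMod c0 O (-D))
    (m1 : e1 ∈ chartMod c1 O D) (m1' : e1' ∈ chartMod c1 O (-D))
    (j0 : e0 - 1 ∈ J) (j0' : e0' - 1 ∈ J) (j1 : e1 - 1 ∈ J) (j1' : e1' - 1 ∈ J) :
    IsWitness c0 c1 c01 O (algebraMap K F a) D e0 e0' e1 e1' := by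
  have key : ∀ {x y : F}, x - 1 ∈ J → y - 1 ∈ J → ∃ s ∈ O, x * y = 1 + algebraMap K F a * s := by
    intro x y hx hy
    have h2 : x * y - 1 ∈ J := by
      have e : x * y - 1 = (x - 1) * (y - 1) + (x - 1) + (y - 1) := by ring
      rw [e]
      exact add_mem (add_mem (hJmul _ hx _ hy) hx) hy
    obtain ⟨s, hs, hxs⟩ := hJ _ h2
    exact ⟨s, hs, by rw [← hxs]; ring⟩
  exact of_sub_one_mem ha h0 h1 m0 m0' m1 m1' (key j0 j0') (key j1 j1') (key j1 j0')

/-- A semilinear automorphism preserving `O` and a chart preserves the chart ring. -/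
theorem _root_.Fermat.Agent.S19.helper5454.smul_mem_chartRing (g : SemilinearAut K F)
    {c : Place K F → Prop} {O : Subring F} (hO : ∀ f ∈ O, g • f ∈ O)
    (hc : ∀ v : Place K F, c (g • v) → c v) {f : F} (hf : f ∈ chartRing c O) :
    g • f ∈ chartRing c O := by
  have h := smul_mem_chartMod g hO hc (mem_chartRing_iff_mem_chartMod_zero.mp hf)
  rw [smul_zero] at h
  exact mem_chartRing_iff_mem_chartMod_zero.mpr h

/-- **Transport of witnesses** by a semilinear automorphism `g` preserving `O` and the three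
charts, when `g • ε = ε * κ` with `κ` in the three chart rings. -/
theorem smul (g : SemilinearAut K F) {ε κ : F} (hO : ∀ f ∈ O, g • f ∈ O)
    (hc0 : ∀ v : Place K F, c0 (g • v) → c0 v) (hc1 : ∀ v : Place K F, c1 (g • v) → c1 v)
    (hc01 : ∀ v : Place K F, c01 (g • v) → c01 v)
    (hκ0 : κ ∈ chartRing c0 O) (hκ1 : κ ∈ chartRing c1 O) (hκ01 : κ ∈ chartRing c01 O)
    (hε : g • ε = ε * κ) (W : IsWitness c0 c1 c01 O ε D e0 e0' e1 e1') :
    IsWitness c0 c1 c01 O ε (g • D) (g • e0) (g • e0') (g • e1) (g • e1') := by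
  obtain ⟨s0, hs0, q0⟩ := W.rel0
  obtain ⟨s1, hs1, q1⟩ := W.rel1
  obtain ⟨s, hs, q⟩ := W.rel01
  have key : ∀ {x y t : F}, x * y = 1 + ε * t → g • x * g • y = 1 + ε * (κ * g • t) := by
    intro x y t h
    rw [← smul_mul', h, smul_add, smul_one, smul_mul', hε]
    ring
  refine ⟨smul_mem_chartMod g hO hc0 W.mem0, ?_, smul_mem_chartMod g hO hc1 W.mem1, ?_,
    ⟨κ * g • s0, mul_mem hκ0 (smul_mem_chartRing g hO hc0 hs0), key q0⟩,
    ⟨κ * g • s1, mul_mem hκ1 (smul_mem_chartRing g hO hc1 hs1), key q1⟩,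
    ⟨κ * g • s, mul_mem hκ01 (smul_mem_chartRing g hO hc01 hs), key q⟩⟩
  · have h := smul_mem_chartMod g hO hc0 W.mem0'
    rwa [smul_neg] at h
  · have h := smul_mem_chartMod g hO hc1 W.mem1'
    rwa [smul_neg] at h

end IsWitness

/-! ## Bundles of divisors -/

section Bundles

variable (𝒪 : Subring K) (O : Subring F) (hO : ∀ a ∈ 𝒪, algebraMap K F a ∈ O)
variable {c0 c1 c01 : Place K F → Prop}

theorem smul_eq_algebraMap_mul (a : 𝒪) (y : F) : a • y = algebraMap K F (a : K) * y := by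
  rw [Subring.smul_def, Algebra.smul_def]

theorem pow_smul_eq (π : 𝒪) (k : ℕ) (y : F) :
    π ^ k • y = algebraMap K F (π : K) ^ k * y := by
  rw [smul_eq_algebraMap_mul, Subring.coe_pow, map_pow]

/-- Membership in `π ^ k • L_c(D)`. -/
theorem mem_pp_chartSub {π : 𝒪} {k : ℕ} {c : Place K F → Prop} {D : Divisor K F} {x : F} :
    x ∈ pp π k (chartSub 𝒪 O hO c D) ↔
      ∃ y ∈ chartMod c O D, algebraMap K F (π : K) ^ k * y = x := by
  rw [mem_pp]
  constructor
  · rintro ⟨y, hy, rfl⟩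
    exact ⟨y, hy, (pow_smul_eq 𝒪 π k y).symm⟩
  · rintro ⟨y, hy, rfl⟩
    exact ⟨y, hy, pow_smul_eq 𝒪 π k y⟩

/-- Membership in `π ^ k • S_c`. -/
theorem mem_pp_chartAlg {π : 𝒪} {k : ℕ} {c : Place K F → Prop} {x : F} :
    x ∈ pp π k (Subalgebra.toSubmodule (chartAlg 𝒪 O hO c)) ↔
      ∃ y ∈ chartRing c O, algebraMap K F (π : K) ^ k * y = x := by
  rw [mem_pp]
  constructor
  · rintro ⟨y, hy, rfl⟩
    exact ⟨y, hy, (pow_smul_eq 𝒪 π k y).symm⟩
  · rintro ⟨y, hy, rfl⟩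
    exact ⟨y, hy, pow_smul_eq 𝒪 π k y⟩

/-- The two-chart bundle `(L_0(D), L_1(D), L_01(D))` of a divisor. -/
def bundleOf (h0 : ∀ v, c01 v → c0 v) (h1 : ∀ v, c01 v → c1 v) (D : Divisor K F) :
    Bundle (chartAlg 𝒪 O hO c0) (chartAlg 𝒪 O hO c1) (chartAlg 𝒪 O hO c01) where
  L0 := chartSub 𝒪 O hO c0 D
  L1 := chartSub 𝒪 O hO c1 D
  L01 := chartSub 𝒪 O hO c01 D
  le0 := chartSub_le_of_anti 𝒪 O hO h0 D
  le1 := chartSub_le_of_anti 𝒪 O hO h1 D
  mul0 := fun _ hs _ hx => chartAlg_mul_mem_chartSub 𝒪 O hO hs hx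
  mul1 := fun _ hs _ hx => chartAlg_mul_mem_chartSub 𝒪 O hO hs hx
  mul01 := fun _ hs _ hx => chartAlg_mul_mem_chartSub 𝒪 O hO hs hx

variable {𝒪 O hO}

theorem mem_bundleOf_L0 {h0 : ∀ v, c01 v → c0 v} {h1 : ∀ v, c01 v → c1 v} {D : Divisor K F}
    {x : F} : x ∈ (bundleOf 𝒪 O hO h0 h1 D).L0 ↔ x ∈ chartMod c0 O D := Iff.rfl

theorem mem_bundleOf_L1 {h0 : ∀ v, c01 v → c0 v} {h1 : ∀ v, c01 v → c1 v} {D : Divisor K F}
    {x : F} : x ∈ (bundleOf 𝒪 O hO h0 h1 D).L1 ↔ x ∈ chartMod c1 O D := Iff.rfl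

theorem mem_bundleOf_L01 {h0 : ∀ v, c01 v → c0 v} {h1 : ∀ v, c01 v → c1 v} {D : Divisor K F}
    {x : F} : x ∈ (bundleOf 𝒪 O hO h0 h1 D).L01 ↔ x ∈ chartMod c01 O D := Iff.rfl

/-- **Witnesses give a trivialisation mod `π`** of the bundle of `D`. -/
theorem triv_of_isWitness (π : 𝒪) (h0 : ∀ v, c01 v → c0 v) (h1 : ∀ v, c01 v → c1 v)
    {D : Divisor K F} {e0 e0' e1 e1' : F}
    (W : IsWitness c0 c1 c01 O (algebraMap K F (π : K)) D e0 e0' e1 e1') :
    Triv π (bundleOf 𝒪 O hO h0 h1 D) e0 e1 where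
  mem0 := W.mem0
  mem1 := W.mem1
  gen0 := fun x hx => by
    obtain ⟨s, hs, y, hy, h⟩ := W.gen0 hx
    exact ⟨s, hs, (mem_pp_chartSub 𝒪 O hO).2 ⟨y, hy, by rw [pow_one, h]⟩⟩
  gen1 := fun x hx => by
    obtain ⟨s, hs, y, hy, h⟩ := W.gen1 hx
    exact ⟨s, hs, (mem_pp_chartSub 𝒪 O hO).2 ⟨y, hy, by rw [pow_one, h]⟩⟩
  gen01 := fun x hx => by
    obtain ⟨s, hs, y, hy, h⟩ := W.gen01 h0 hx
    exact ⟨s, hs, (mem_pp_chartSub 𝒪 O hO).2 ⟨y, hy, by rw [pow_one, h]⟩⟩
  congr := by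
    obtain ⟨y, hy, h⟩ := W.congr h0 h1
    exact (mem_pp_chartSub 𝒪 O hO).2 ⟨y, hy, by rw [pow_one, h]⟩
  free := fun k s hs h => by
    obtain ⟨y, hy, hys⟩ := (mem_pp_chartSub 𝒪 O hO).1 h
    obtain ⟨t, ht, hst⟩ := W.free h0 (algebraMap_mem_chartRing (hO π π.2)) k hs ⟨y, hy, hys.symm⟩
    exact (mem_pp_chartAlg 𝒪 O hO).2 ⟨t, ht, hst.symm⟩

/-- **The `Charts` structure of the chart rings**: `sat0` is automatic (saturation), the Čech
`H⁰` statement `const` and the clause `unit` are inputs. -/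
theorem charts_of (π : 𝒪) (hπ : (π : K) ≠ 0) (h0 : ∀ v, c01 v → c0 v) (h1 : ∀ v, c01 v → c1 v)
    (hconst : ∀ s0 ∈ chartRing c0 O, ∀ s1 ∈ chartRing c1 O,
      (∃ y ∈ chartRing c01 O, s0 - s1 = algebraMap K F (π : K) * y) →
      ∃ a : 𝒪, (∃ y ∈ chartRing c0 O, s0 - algebraMap K F (a : K) = algebraMap K F (π : K) * y) ∧
        (∃ y ∈ chartRing c1 O, s1 - algebraMap K F (a : K) = algebraMap K F (π : K) * y))
    (hunit : ∀ a : 𝒪, (∃ s ∈ chartRing c0 O, ∃ y ∈ chartRing c0 O,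
      algebraMap K F (a : K) * s - 1 = algebraMap K F (π : K) * y) → IsUnit a) :
    Charts π (chartAlg 𝒪 O hO c0) (chartAlg 𝒪 O hO c1) (chartAlg 𝒪 O hO c01) where
  le0 := fun _ hx => chartRing_anti h0 hx
  le1 := fun _ hx => chartRing_anti h1 hx
  sat0 := fun s hs h => by
    obtain ⟨y, hy, hys⟩ := (mem_pp_chartAlg 𝒪 O hO).1 h
    rw [pow_one] at hys
    refine (mem_pp_chartAlg 𝒪 O hO).2 ⟨y, chartRing_saturated hπ hy.1 ?_, by rw [pow_one, hys]⟩
    rw [hys]
    exact hs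
  const := fun s0 hs0 s1 hs1 h => by
    obtain ⟨y, hy, hys⟩ := (mem_pp_chartAlg 𝒪 O hO).1 h
    rw [pow_one] at hys
    obtain ⟨a, ⟨y0, hy0, e0⟩, ⟨y1, hy1, e1⟩⟩ := hconst s0 hs0 s1 hs1 ⟨y, hy, hys.symm⟩
    exact ⟨a, (mem_pp_chartAlg 𝒪 O hO).2 ⟨y0, hy0, by rw [pow_one]; exact e0.symm⟩,
      (mem_pp_chartAlg 𝒪 O hO).2 ⟨y1, hy1, by rw [pow_one]; exact e1.symm⟩⟩
  unit := fun a ha => by
    obtain ⟨s, hs, h⟩ := ha
    obtain ⟨y, hy, hys⟩ := (mem_pp_chartAlg 𝒪 O hO).1 h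
    rw [pow_one] at hys
    exact hunit a ⟨s, hs, y, hy, hys.symm⟩

end Bundles

/-! ## Families of divisors -/

section Family

variable {𝒪 : Subring K} {O : Subring F} {hO : ∀ a ∈ 𝒪, algebraMap K F a ∈ O}
variable {c0 c1 c01 : Place K F → Prop}
variable {M : Type*} [AddCommGroup M]

/-- **A family of divisors with witnesses is a family of bundles trivialised mod `π`.**
`D : M → Divisor K F` is additive up to divisors of units of `O`, `D 0` is the divisor of a unit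
of `O`, and every `D x` has inverse witnesses at precision `π`. -/
theorem isFamily_of_isWitness (π : 𝒪) (h0 : ∀ v, c01 v → c0 v) (h1 : ∀ v, c01 v → c1 v)
    (D : M → Divisor K F) (e0 e0' e1 e1' : M → F)
    (W : ∀ x, IsWitness c0 c1 c01 O (algebraMap K F (π : K)) (D x) (e0 x) (e0' x) (e1 x) (e1' x))
    (hadd : ∀ x y, ∃ u : F, u ≠ 0 ∧ u ∈ O ∧ u⁻¹ ∈ O ∧
      ∀ v : Place K F, D (x + y) v = D x v + D y v + v.ord u)
    (hzero : ∃ u : F, u ≠ 0 ∧ u ∈ O ∧ u⁻¹ ∈ O ∧ ∀ v : Place K F, D 0 v = v.ord u) :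
    Fermat.Agent.S33.helper2055.IsFamily π (fun x => bundleOf 𝒪 O hO h0 h1 (D x)) e0 e1 where
  triv := fun x => triv_of_isWitness π h0 h1 (W x)
  add := fun x y => by
    obtain ⟨u, hu, huO, huO', hord⟩ := hadd x y
    have hε0 : algebraMap K F (π : K) ∈ chartRing c0 O := algebraMap_mem_chartRing (hO π π.2)
    have hε1 : algebraMap K F (π : K) ∈ chartRing c1 O := algebraMap_mem_chartRing (hO π π.2)
    have hε01 : algebraMap K F (π : K) ∈ chartRing c01 O := algebraMap_mem_chartRing (hO π π.2)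
    set E : Divisor K F := D (x + y) - D x - D y with hE
    have hEv : ∀ v : Place K F, E v = v.ord u := by
      intro v
      rw [hE, Finsupp.sub_apply, Finsupp.sub_apply, hord v]
      ring
    have hD : D x + D y + E = D (x + y) := by rw [hE]; abel
    refine ⟨u⁻¹, fun a ha b hb => ?_, ?_⟩
    · have h2 := mul_mem_chartMod (mul_mem_chartMod ha hb)
        (inv_mem_chartMod_of_divisor (c := c01) hu hEv huO')
      rw [hD] at h2
      show u⁻¹ * (a * b) ∈ chartMod c01 O (D (x + y))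
      rwa [mul_comm]
    · have h2 := ((W x).mul hε0 hε1 hε01 (W y)).twist hε0 hε1 hε01 hu hEv huO huO'
      rw [hD] at h2
      have h3 := triv_of_isWitness (hO := hO) π h0 h1 h2
      rwa [mul_comm (e0 x * e0 y), mul_comm (e1 x * e1 y)] at h3
  zero := by
    obtain ⟨u, hu, huO, huO', hord⟩ := hzero
    exact ⟨u⁻¹, triv_of_isWitness π h0 h1 (IsWitness.of_principal hu hord huO huO')⟩

/-- **Exit of the injectivity step.** If the bundle of a divisor `D` of degree `0` on the two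
charts `x` finite / `x⁻¹` finite has a global generator mod `π`, and `π` is not invertible in
`O`, then `D` is principal. -/
theorem isPrincipal_of_triv_self [HasPrincipalDivisors K F] (hdeg : ∀ v : Place K F, 0 < v.deg)
    {x : F} (hx : x ≠ 0) (π : 𝒪) (hπ : ∀ y ∈ O, algebraMap K F (π : K) * y ≠ 1)
    {D : Divisor K F} (hD : Divisor.degree D = 0) {s : F}
    (hT : Triv π (bundleOf 𝒪 O hO (c0 := OnFin x) (c1 := OnInf x) (c01 := OnMid x)
      (fun _ h => h.onFin) (fun _ h => h.onInf) D) s s) : Divisor.IsPrincipal D := by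
  have hs : s ≠ 0 := by
    rintro rfl
    have h1 : (1 : F) * 0 ∈ pp π 1 (bundleOf 𝒪 O hO (c0 := OnFin x) (c1 := OnInf x)
        (c01 := OnMid x) (fun _ h => h.onFin) (fun _ h => h.onInf) D).L01 := by
      rw [mul_zero]
      exact Submodule.zero_mem _
    obtain ⟨y, hy, hys⟩ := (mem_pp_chartAlg 𝒪 O hO).1
      (hT.free 1 1 (Subalgebra.one_mem _) h1)
    rw [pow_one] at hys
    exact hπ y hy.1 hys
  have hmem : s ∈ chartMod (OnFin x) O D ⊓ chartMod (OnInf x) O D := ⟨hT.mem0, hT.mem1⟩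
  exact isPrincipal_of_mem_riemannRochSpace hdeg hD hs ((mem_chartMod_fin_inf_iff hx).mp hmem).2

/-- **Separation of the Čech coordinates of a family of divisors.** If `D (x - y)` has degree
`0` and is not principal, and the torsion of the Čech `H¹` of its bundle is bounded by `π ^ c`,
the coordinates of `x` and `y` differ modulo `π ^ (c + 1)`. -/
theorem exists_coord_ne_of_not_isPrincipal [HasPrincipalDivisors K F]
    (hdeg : ∀ v : Place K F, 0 < v.deg) {x₀ : F} (hx₀ : x₀ ≠ 0) (π : 𝒪)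
    (hπ : ∀ y ∈ O, algebraMap K F (π : K) * y ≠ 1) (D : M → Divisor K F) (e0 e1 : M → F)
    {n : ℕ} {η : Fin n → F} (hη : ∀ i, η i ∈ chartRing (OnMid (K := K) x₀) O)
    (hC : Charts π (chartAlg 𝒪 O hO (OnFin (K := K) x₀)) (chartAlg 𝒪 O hO (OnInf (K := K) x₀))
      (chartAlg 𝒪 O hO (OnMid (K := K) x₀)))
    (hfam : Fermat.Agent.S33.helper2055.IsFamily π
      (fun x => bundleOf 𝒪 O hO (c0 := OnFin x₀) (c1 := OnInf x₀) (c01 := OnMid x₀)
        (fun _ h => h.onFin) (fun _ h => h.onInf) (D x)) e0 e1)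
    {β : ℕ → M → Fin n → 𝒪}
    (hβ : Fermat.Agent.S33.helper2055.IsCoordSys π η
      (fun x => bundleOf 𝒪 O hO (c0 := OnFin x₀) (c1 := OnInf x₀) (c01 := OnMid x₀)
        (fun _ h => h.onFin) (fun _ h => h.onInf) (D x)) e0 e1 β)
    {x y : M} {c : ℕ}
    (hU : Uni π (chartAlg 𝒪 O hO (OnFin (K := K) x₀)) (chartAlg 𝒪 O hO (OnInf (K := K) x₀))
      (chartAlg 𝒪 O hO (OnMid (K := K) x₀)) η (c + 1))
    {Φ : (Fin n → 𝒪) → (Fin n → 𝒪) → Fin n → 𝒪}
    (hL : Law π (chartAlg 𝒪 O hO (OnFin (K := K) x₀)) (chartAlg 𝒪 O hO (OnInf (K := K) x₀))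
      (chartAlg 𝒪 O hO (OnMid (K := K) x₀)) η (c + 1) Φ)
    (htors : ∀ h ∈ chartMod (OnMid (K := K) x₀) O (D (x - y)),
      (∃ a ∈ chartMod (OnFin (K := K) x₀) O (D (x - y)),
        ∃ b ∈ chartMod (OnInf (K := K) x₀) O (D (x - y)),
          algebraMap K F (π : K) ^ (c + 1) * h = a + b) →
      ∃ a ∈ chartMod (OnFin (K := K) x₀) O (D (x - y)),
        ∃ b ∈ chartMod (OnInf (K := K) x₀) O (D (x - y)),
          algebraMap K F (π : K) ^ c * h = a + b)
    (hD : Divisor.degree (D (x - y)) = 0) (hnp : ¬ Divisor.IsPrincipal (D (x - y))) :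
    ∃ i, β (c + 1) x i - β (c + 1) y i ∉ Ideal.span {π ^ (c + 1)} := by
  refine hβ.exists_not_mem hη hC hfam hU hL ?_
    (fun ⟨s, hs⟩ => hnp (isPrincipal_of_triv_self hdeg hx₀ π hπ hD hs))
  intro h hh hsup
  rw [pow_smul_eq] at hsup ⊢
  obtain ⟨a, ha, b, hb, hab⟩ := Submodule.mem_sup.mp hsup
  obtain ⟨a', ha', b', hb', hab'⟩ := htors h hh ⟨a, ha, b, hb, hab.symm⟩
  exact Submodule.mem_sup.mpr ⟨a', ha', b', hb', hab'.symm⟩

/-- **Linearly equivalent divisors with Kummer functions in `Oˣ` differ by the divisor of a unit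
of `O`.** `O` is closed under `n`-th roots (e.g. an intersection of valuation rings), functions
without zeros and poles are constants, and constants have `n`-th roots. If `n E = div h`,
`n E' = div h'` with `h, h'` units of `O` and `E' = E + div f`, then `E' = E + div u` with `u` a
unit of `O`. -/
theorem exists_unit_of_kummer {O : Subring F} {n : ℕ} (hn : n ≠ 0)
    (hroot : ∀ w : F, w ^ n ∈ O → w ∈ O)
    (hconst : ∀ w : F, w ≠ 0 → (∀ v : Place K F, v.ord w = 0) → ∃ c : K, w = algebraMap K F c)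
    (hnth : ∀ c : K, ∃ d : K, d ^ n = c)
    {E E' : Divisor K F} {h h' f : F} (hh : h ≠ 0) (hh' : h' ≠ 0) (hf : f ≠ 0)
    (hdiv : ∀ v : Place K F, (n : ℤ) * E v = v.ord h)
    (hdiv' : ∀ v : Place K F, (n : ℤ) * E' v = v.ord h')
    (hhO : h ∈ O) (hhO' : h⁻¹ ∈ O) (hh'O : h' ∈ O) (hh'O' : h'⁻¹ ∈ O)
    (hEE' : ∀ v : Place K F, E' v = E v + v.ord f) :
    ∃ u : F, u ≠ 0 ∧ u ∈ O ∧ u⁻¹ ∈ O ∧ ∀ v : Place K F, E' v = E v + v.ord u := by
  have hfn : f ^ n ≠ 0 := pow_ne_zero n hf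
  have hw0 : h' * (h * f ^ n)⁻¹ ≠ 0 := mul_ne_zero hh' (inv_ne_zero (mul_ne_zero hh hfn))
  obtain ⟨c, hc⟩ := hconst _ hw0 (fun v => by
    rw [v.ord_mul hh' (inv_ne_zero (mul_ne_zero hh hfn)), v.ord_inv, v.ord_mul hh hfn,
      ord_pow_eq, ← hdiv v, ← hdiv' v, hEE' v]
    ring)
  have hc0 : c ≠ 0 := by
    rintro rfl
    rw [map_zero] at hc
    exact hw0 hc
  obtain ⟨d, hd⟩ := hnth c
  have hd0 : d ≠ 0 := by
    rintro rfl
    rw [zero_pow hn] at hd
    exact hc0 hd.symm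
  have hdF : algebraMap K F d ≠ 0 := (map_ne_zero (algebraMap K F)).mpr hd0
  have hun : (algebraMap K F d * f) ^ n = h' * h⁻¹ := by
    rw [mul_pow, ← map_pow, hd, ← hc]
    field_simp
  refine ⟨algebraMap K F d * f, mul_ne_zero hdF hf, hroot _ ?_, hroot _ ?_, fun v => ?_⟩
  · rw [hun]
    exact O.mul_mem hh'O hhO'
  · rw [inv_pow, hun, mul_inv, inv_inv, mul_comm]
    exact O.mul_mem hhO hh'O'
  · rw [v.ord_mul hdF hf, ord_algebraMap_eq_zero v hd0, zero_add]
    exact hEE' v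

/-- The same as `exists_unit_of_kummer`, exposing the identity `u ^ n * h = h'` satisfied by the
unit (so that all these units live at one finite level). -/
theorem exists_unit_of_kummer_pow {O : Subring F} {n : ℕ} (hn : n ≠ 0)
    (hroot : ∀ w : F, w ^ n ∈ O → w ∈ O)
    (hconst : ∀ w : F, w ≠ 0 → (∀ v : Place K F, v.ord w = 0) → ∃ c : K, w = algebraMap K F c)
    (hnth : ∀ c : K, ∃ d : K, d ^ n = c)
    {E E' : Divisor K F} {h h' f : F} (hh : h ≠ 0) (hh' : h' ≠ 0) (hf : f ≠ 0)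
    (hdiv : ∀ v : Place K F, (n : ℤ) * E v = v.ord h)
    (hdiv' : ∀ v : Place K F, (n : ℤ) * E' v = v.ord h')
    (hhO : h ∈ O) (hhO' : h⁻¹ ∈ O) (hh'O : h' ∈ O) (hh'O' : h'⁻¹ ∈ O)
    (hEE' : ∀ v : Place K F, E' v = E v + v.ord f) :
    ∃ u : F, u ≠ 0 ∧ u ∈ O ∧ u⁻¹ ∈ O ∧ u ^ n * h = h' ∧
      ∀ v : Place K F, E' v = E v + v.ord u := by
  have hfn : f ^ n ≠ 0 := pow_ne_zero n hf
  have hw0 : h' * (h * f ^ n)⁻¹ ≠ 0 := mul_ne_zero hh' (inv_ne_zero (mul_ne_zero hh hfn))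
  obtain ⟨c, hc⟩ := hconst _ hw0 (fun v => by
    rw [v.ord_mul hh' (inv_ne_zero (mul_ne_zero hh hfn)), v.ord_inv, v.ord_mul hh hfn,
      ord_pow_eq, ← hdiv v, ← hdiv' v, hEE' v]
    ring)
  have hc0 : c ≠ 0 := by
    rintro rfl
    rw [map_zero] at hc
    exact hw0 hc
  obtain ⟨d, hd⟩ := hnth c
  have hd0 : d ≠ 0 := by
    rintro rfl
    rw [zero_pow hn] at hd
    exact hc0 hd.symm
  have hdF : algebraMap K F d ≠ 0 := (map_ne_zero (algebraMap K F)).mpr hd0
  have hun : (algebraMap K F d * f) ^ n = h' * h⁻¹ := by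
    rw [mul_pow, ← map_pow, hd, ← hc]
    field_simp
  refine ⟨algebraMap K F d * f, mul_ne_zero hdF hf, hroot _ ?_, hroot _ ?_, ?_, fun v => ?_⟩
  · rw [hun]
    exact O.mul_mem hh'O hhO'
  · rw [inv_pow, hun, mul_inv, inv_inv, mul_comm]
    exact O.mul_mem hhO hh'O'
  · rw [hun, mul_assoc, inv_mul_cancel₀ hh, mul_one]
  · rw [v.ord_mul hdF hf, ord_algebraMap_eq_zero v hd0, zero_add]
    exact hEE' v

/-- The endomorphism of a ring of constants `𝒪 ⊆ K` induced by a semilinear automorphism whose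
base automorphism preserves `𝒪`. -/
def baseHom (g : SemilinearAut K F) (𝒪 : Subring K)
    (hg : ∀ a ∈ 𝒪, SemilinearAut.baseAut g a ∈ 𝒪) : 𝒪 →+* 𝒪 :=
  (((SemilinearAut.baseAut g : K ≃+* K) : K →+* K).comp 𝒪.subtype).codRestrict 𝒪
    (fun a => hg a a.2)

@[simp] theorem coe_baseHom (g : SemilinearAut K F) (𝒪 : Subring K)
    (hg : ∀ a ∈ 𝒪, SemilinearAut.baseAut g a ∈ 𝒪) (a : 𝒪) :
    ((baseHom g 𝒪 hg a : 𝒪) : K) = SemilinearAut.baseAut g (a : K) := rfl

/-- **Equivariance of the Čech coordinates of a family of divisors.** Let `β` be a system of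
Čech coordinates of the family `D` (with witnesses), `g` a semilinear automorphism preserving
`O`, the three charts, the ring of constants `𝒪` and the `η i`, with `g π = κ π`, and let
`γ : M → M` be such that `D (γ x) = g • D x + div u_x` with `u_x` a unit of `O`. Then
`β m (γ x) ≡ g (β m x)` modulo `π ^ m`. -/
theorem coord_smul_divisor (π : 𝒪) (h0 : ∀ v, c01 v → c0 v) (h1 : ∀ v, c01 v → c1 v)
    (D : M → Divisor K F) (e0 e0' e1 e1' : M → F)
    (W : ∀ x, IsWitness c0 c1 c01 O (algebraMap K F (π : K)) (D x) (e0 x) (e0' x) (e1 x) (e1' x))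
    {n : ℕ} {η : Fin n → F} (hη : ∀ i, η i ∈ chartRing c01 O)
    (hC : Charts π (chartAlg 𝒪 O hO c0) (chartAlg 𝒪 O hO c1) (chartAlg 𝒪 O hO c01))
    (hfam : Fermat.Agent.S33.helper2055.IsFamily π (fun x => bundleOf 𝒪 O hO h0 h1 (D x)) e0 e1)
    {β : ℕ → M → Fin n → 𝒪}
    (hβ : Fermat.Agent.S33.helper2055.IsCoordSys π η (fun x => bundleOf 𝒪 O hO h0 h1 (D x))
      e0 e1 β)
    {m : ℕ} (hU : Uni π (chartAlg 𝒪 O hO c0) (chartAlg 𝒪 O hO c1) (chartAlg 𝒪 O hO c01) η m)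
    (g : SemilinearAut K F) (hgO : ∀ f ∈ O, g • f ∈ O)
    (hc0 : ∀ v : Place K F, c0 (g • v) → c0 v) (hc1 : ∀ v : Place K F, c1 (g • v) → c1 v)
    (hc01 : ∀ v : Place K F, c01 (g • v) → c01 v)
    (hg𝒪 : ∀ a ∈ 𝒪, SemilinearAut.baseAut g a ∈ 𝒪) {κ : 𝒪}
    (hκ : SemilinearAut.baseAut g (π : K) = (κ : K) * (π : K))
    (hgη : ∀ i, g • η i = η i) (γ : M → M)
    (hγ : ∀ x, ∃ u : F, u ≠ 0 ∧ u ∈ O ∧ u⁻¹ ∈ O ∧
      ∀ v : Place K F, D (γ x) v = (g • D x) v + v.ord u)
    (x : M) (i : Fin n) :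
    β m (γ x) i - baseHom g 𝒪 hg𝒪 (β m x i) ∈ Ideal.span {π ^ m} := by
  -- the ring homomorphisms
  let σ : F →+* F := ((SemilinearAut.toRingAut g : F ≃+* F) : F →+* F)
  have hστ : ∀ a : 𝒪, σ (algebraMap 𝒪 F a) = algebraMap 𝒪 F (baseHom g 𝒪 hg𝒪 a) := by
    intro a
    exact SemilinearAut.commutes g (a : K)
  have hπ' : baseHom g 𝒪 hg𝒪 π = κ * π ^ 1 := by
    apply Subtype.ext
    rw [coe_baseHom, hκ, pow_one]
    rfl
  have hε0 : algebraMap K F (π : K) ∈ chartRing c0 O := algebraMap_mem_chartRing (hO π π.2)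
  have hε1 : algebraMap K F (π : K) ∈ chartRing c1 O := algebraMap_mem_chartRing (hO π π.2)
  have hε01 : algebraMap K F (π : K) ∈ chartRing c01 O := algebraMap_mem_chartRing (hO π π.2)
  have hκ0 : algebraMap K F (κ : K) ∈ chartRing c0 O := algebraMap_mem_chartRing (hO κ κ.2)
  have hκ1 : algebraMap K F (κ : K) ∈ chartRing c1 O := algebraMap_mem_chartRing (hO κ κ.2)
  have hκ01 : algebraMap K F (κ : K) ∈ chartRing c01 O := algebraMap_mem_chartRing (hO κ κ.2)
  have hgε : g • algebraMap K F (π : K) = algebraMap K F (π : K) * algebraMap K F (κ : K) := by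
    rw [SemilinearAut.smul_algebraMap, hκ, map_mul, mul_comm]
  obtain ⟨u, hu, huO, huO', hord⟩ := hγ x
  set E : Divisor K F := D (γ x) - g • D x with hE
  have hEv : ∀ v : Place K F, E v = v.ord u := by
    intro v
    rw [hE, Finsupp.sub_apply, hord v]
    ring
  have hD : g • D x + E = D (γ x) := by rw [hE]; abel
  -- step 1: transport by `g`
  have h2 : IsCoord π η (bundleOf 𝒪 O hO h0 h1 (g • D x)) (σ (e0 x)) (σ (e1 x)) (1 * m)
      (fun i => baseHom g 𝒪 hg𝒪 (β m x i)) :=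
    IsCoord.map (baseHom g 𝒪 hg𝒪) σ hστ (le_refl 1) hπ'
      (fun s hs => smul_mem_chartRing g hgO hc0 hs)
      (fun s hs => smul_mem_chartRing g hgO hc1 hs) hgη
      (fun a ha => smul_mem_chartMod g hgO hc01 ha) (hβ m x)
  rw [one_mul] at h2
  -- step 2: twist by `u⁻¹`
  have h3 : IsCoord π η (bundleOf 𝒪 O hO h0 h1 (D (γ x))) (u⁻¹ * σ (e0 x)) (u⁻¹ * σ (e1 x)) m
      (fun i => baseHom g 𝒪 hg𝒪 (β m x i)) := by
    refine IsCoord.scale (fun a ha => ?_) h2
    have h4 := mul_mem_chartMod (c := c01) ha (inv_mem_chartMod_of_divisor (c := c01) hu hEv huO')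
    rw [hD] at h4
    show u⁻¹ * a ∈ chartMod c01 O (D (γ x))
    rwa [mul_comm]
  -- step 3: the trivialisation `(u⁻¹ g e0, u⁻¹ g e1)` of the bundle of `D (γ x)`
  have hW : IsWitness c0 c1 c01 O (algebraMap K F (π : K)) (D (γ x))
      (g • e0 x * u⁻¹) (g • e0' x * u) (g • e1 x * u⁻¹) (g • e1' x * u) := by
    have h5 := ((W x).smul g hgO hc0 hc1 hc01 hκ0 hκ1 hκ01 hgε).twist hε0 hε1 hε01 hu hEv
      huO huO'
    rwa [hD] at h5
  have hT : Triv π (bundleOf 𝒪 O hO h0 h1 (D (γ x))) (u⁻¹ * σ (e0 x)) (u⁻¹ * σ (e1 x)) := by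
    have h6 := triv_of_isWitness (hO := hO) π h0 h1 hW
    rwa [mul_comm (g • e0 x), mul_comm (g • e1 x)] at h6
  have hηS : ∀ i, η i ∈ chartAlg 𝒪 O hO c01 := hη
  exact hβ.unique hηS hC hfam hU (IsCoord.indep hηS hC hT (hfam.triv (γ x)) h3) i

end Family

end Fermat.Agent.S19.helper5454
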