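import Fermat.Agent.S19.helper5454_DivFamily
import Fermat.Agent.S19.helper2306_CechFG

/-!
# The bundle-specific hypotheses of the Čech assembly, in divisor language (helper5454)

`Fermat.Agent.S33.helper2055.exists_order_of_family` takes, besides the data of the charts
(`Charts`, `Fac`, `Uni`, `Law`), four hypotheses about the family of bundles:
`hfam` (a family trivial mod `π`), `htors` (bounded torsion of the Čech `H¹` of every bundle),
`hglob` (no global generator mod `π` for a nonzero class) and `hgal` (equivariance).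
For the bundles `bundleOf 𝒪 O hO _ _ (D x)` of a family of divisors with witnesses they are
supplied by:

* `isFamily_of_isWitness` (in `helper5454_DivFamily`) : `hfam`;
* `exists_tors_bound`, `htors_of_isWitness` (here) : `htors`, from ONE input, the chart ring
  `S_0` being contained in a finitely generated `𝒪[x]`-module, via the abstract core
  `helper2306.bounded_torsion_of_le_span`;
* `hglob_of_not_isPrincipal` (here) : `hglob`, from `D x` of degree `0` and not principal;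
* `gal_of_smul_divisor` (here) : `hgal` in the scalar form (`f * σ (L_01 x) ⊆ L_01 (γ x)` and
  `(f * σ e₀, f * σ e₁)` a trivialisation, `f = u⁻¹`), from `D (γ x) = g • D x + div u`, `u` a
  unit of `O`.
-/

set_option autoImplicit false

noncomputable section

open AlgebraicCurve WithZero

namespace Fermat.Agent.S19.helper5454

open Fermat.Agent.S19.helper2055

variable {K F : Type*} [Field K] [Field F] [Algebra K F]

/-! ## Bounded torsion -/

section Tors

/-- Multiplying the `A[j]`-module generated by `G` by `c` lands in the one generated by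
`c * G`. -/
theorem mul_mem_jSpan_image {A R : Type*} [CommRing A] [CommRing R] [Algebra A R] (j c : R)
    [DecidableEq R] (G : Finset R) {z : R} (hz : z ∈ helper2306.jSpan A j (G : Set R)) :
    c * z ∈ helper2306.jSpan A j ((G.image fun g => c * g : Finset R) : Set R) := by
  refine Submodule.span_induction
    (p := fun z _ => c * z ∈ helper2306.jSpan A j ((G.image fun g => c * g : Finset R) : Set R))
    ?_ ?_ ?_ ?_ hz
  · rintro _ ⟨g, hg, n, rfl⟩
    have h1 : c * (j ^ n * g) = j ^ n * (c * g) := by ring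
    rw [h1]
    refine helper2306.pow_mul_mem_jSpan j ?_ n
    rw [Finset.mem_coe, Finset.mem_image]
    exact ⟨g, hg, rfl⟩
  · rw [mul_zero]
    exact Submodule.zero_mem _
  · intro y z _ _ hy hz
    rw [mul_add]
    exact Submodule.add_mem _ hy hz
  · intro r y _ hy
    rw [mul_smul_comm]
    exact Submodule.smul_mem _ _ hy

variable {𝒪 : Subring K} {O : Subring F} {hO : ∀ a ∈ 𝒪, algebraMap K F a ∈ O}

/-- **Bounded torsion of the Čech `H¹` of the bundle of a divisor.** Charts `x` finite /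
`x⁻¹` finite / both. If the chart ring `S_0` lies in a finitely generated `𝒪[x]`-module and
`L_0(D)` is carried into `S_0` by a nonzero function `f`, then the `π`-power torsion of
`L_01(D) / (L_0(D) + L_1(D))` is killed by one power `π ^ c`. -/
theorem exists_tors_bound [HasPrincipalDivisors K F] [IsNoetherianRing 𝒪] {x : F} (hx : x ≠ 0)
    (hxO : x ∈ O) (hxO' : x⁻¹ ∈ O) (π : 𝒪) (hπ : π ≠ 0)
    (harch : ∀ d : 𝒪, d ≠ 0 → ∃ r : ℕ, d ∣ π ^ r)
    (G0 : Finset F)
    (hG0 : ∀ s ∈ chartRing (OnFin (K := K) x) O, s ∈ helper2306.jSpan 𝒪 x (G0 : Set F))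
    {D : Divisor K F} {f : F} (hf : f ≠ 0)
    (hfD : ∀ y ∈ chartMod (OnFin (K := K) x) O D, f * y ∈ chartRing (OnFin (K := K) x) O) :
    ∃ c : ℕ, ∀ (m : ℕ) (h : F),
      h ∈ (bundleOf 𝒪 O hO (c0 := OnFin x) (c1 := OnInf x) (c01 := OnMid x)
        (fun _ h => h.onFin) (fun _ h => h.onInf) D).L01 →
      π ^ m • h ∈ (bundleOf 𝒪 O hO (c0 := OnFin x) (c1 := OnInf x) (c01 := OnMid x)
          (fun _ h => h.onFin) (fun _ h => h.onInf) D).L0 ⊔
        (bundleOf 𝒪 O hO (c0 := OnFin x) (c1 := OnInf x) (c01 := OnMid x)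
          (fun _ h => h.onFin) (fun _ h => h.onInf) D).L1 →
      π ^ c • h ∈ (bundleOf 𝒪 O hO (c0 := OnFin x) (c1 := OnInf x) (c01 := OnMid x)
          (fun _ h => h.onFin) (fun _ h => h.onInf) D).L0 ⊔
        (bundleOf 𝒪 O hO (c0 := OnFin x) (c1 := OnInf x) (c01 := OnMid x)
          (fun _ h => h.onFin) (fun _ h => h.onInf) D).L1 := by
  classical
  refine helper2306.bounded_torsion_of_le_span x x⁻¹ (mul_inv_cancel₀ hx) _ _ _ ?_ ?_
    (G0.image fun g => f⁻¹ * g) ?_ ?_ ?_ π hπ harch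
  · intro y hy
    exact ring_mul_mem_chartMod (self_mem_chartRing_fin hxO) hy
  · intro y hy
    exact ring_mul_mem_chartMod (inv_mem_chartRing_inf hxO') hy
  · intro y hy
    have h1 : y = f⁻¹ * (f * y) := by rw [← mul_assoc, inv_mul_cancel₀ hf, one_mul]
    rw [h1]
    exact mul_mem_jSpan_image x f⁻¹ G0 (hG0 _ (hfD y hy))
  · intro h hh
    obtain ⟨n, hn⟩ := exists_pow_mul_mem_chartMod_fin hx hxO (D := D) hh
    exact ⟨n, hn n le_rfl⟩
  · intro g hg
    obtain ⟨n, hn⟩ := exists_pow_mul_mem_chartMod_inf hx hxO' (D := D)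
      (chartMod_fin_le_mid hg)
    exact ⟨n, hn n le_rfl⟩

variable {M : Type*}

/-- **`htors` for a family of divisors with witnesses**, in the shape consumed by
`Fermat.Agent.S33.helper2055.exists_order_of_family`. The only input besides the witnesses is
that the chart ring `S_0` lies in a finitely generated `𝒪[x₀]`-module. -/
theorem htors_of_isWitness [HasPrincipalDivisors K F] [IsNoetherianRing 𝒪] {x₀ : F}
    (hx₀ : x₀ ≠ 0) (hxO : x₀ ∈ O) (hxO' : x₀⁻¹ ∈ O) (π : 𝒪) (hπ0 : π ≠ 0)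
    (hπ : ∀ y ∈ O, algebraMap K F (π : K) * y ≠ 1)
    (harch : ∀ d : 𝒪, d ≠ 0 → ∃ r : ℕ, d ∣ π ^ r)
    (G0 : Finset F)
    (hG0 : ∀ s ∈ chartRing (OnFin (K := K) x₀) O, s ∈ helper2306.jSpan 𝒪 x₀ (G0 : Set F))
    (D : M → Divisor K F) (e0 e0' e1 e1' : M → F)
    (W : ∀ x, IsWitness (OnFin x₀) (OnInf x₀) (OnMid x₀) O (algebraMap K F (π : K)) (D x)
      (e0 x) (e0' x) (e1 x) (e1' x)) (x : M) :
    ∃ c : ℕ, ∀ h ∈ (bundleOf 𝒪 O hO (c0 := OnFin x₀) (c1 := OnInf x₀) (c01 := OnMid x₀)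
        (fun _ h => h.onFin) (fun _ h => h.onInf) (D x)).L01,
      π ^ (c + 1) • h ∈ (bundleOf 𝒪 O hO (c0 := OnFin x₀) (c1 := OnInf x₀) (c01 := OnMid x₀)
          (fun _ h => h.onFin) (fun _ h => h.onInf) (D x)).L0 ⊔
        (bundleOf 𝒪 O hO (c0 := OnFin x₀) (c1 := OnInf x₀) (c01 := OnMid x₀)
          (fun _ h => h.onFin) (fun _ h => h.onInf) (D x)).L1 →
      π ^ c • h ∈ (bundleOf 𝒪 O hO (c0 := OnFin x₀) (c1 := OnInf x₀) (c01 := OnMid x₀)
          (fun _ h => h.onFin) (fun _ h => h.onInf) (D x)).L0 ⊔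
        (bundleOf 𝒪 O hO (c0 := OnFin x₀) (c1 := OnInf x₀) (c01 := OnMid x₀)
          (fun _ h => h.onFin) (fun _ h => h.onInf) (D x)).L1 := by
  have hf : e0' x ≠ 0 := by
    rintro h
    obtain ⟨s, hs, hrel⟩ := (W x).rel0
    rw [h, mul_zero] at hrel
    refine hπ (-s) (O.neg_mem hs.1) ?_
    linear_combination hrel
  obtain ⟨c, hc⟩ := exists_tors_bound (hO := hO) hx₀ hxO hxO' π hπ0 harch G0 hG0 (D := D x) hf
    (fun y hy => by
      rw [mul_comm]
      exact mul_mem_chartRing_of_neg hy (W x).mem0')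
  exact ⟨c, fun h hh hm => hc (c + 1) h hh hm⟩

/-- **`hglob` for a family of divisors**, in the shape consumed by
`Fermat.Agent.S33.helper2055.exists_order_of_family`: a divisor of degree `0` which is not
principal has no global generator mod `π`. -/
theorem hglob_of_not_isPrincipal [HasPrincipalDivisors K F] [Zero M]
    (hdeg : ∀ v : Place K F, 0 < v.deg) {x₀ : F} (hx₀ : x₀ ≠ 0) (π : 𝒪)
    (hπ : ∀ y ∈ O, algebraMap K F (π : K) * y ≠ 1) (D : M → Divisor K F)
    (hD : ∀ x, Divisor.degree (D x) = 0)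
    (hnp : ∀ x : M, x ≠ 0 → ¬ Divisor.IsPrincipal (D x)) (x : M) (hx : x ≠ 0) :
    ¬ ∃ s, Triv π (bundleOf 𝒪 O hO (c0 := OnFin x₀) (c1 := OnInf x₀) (c01 := OnMid x₀)
      (fun _ h => h.onFin) (fun _ h => h.onInf) (D x)) s s :=
  fun ⟨_, hs⟩ => hnp x hx (isPrincipal_of_triv_self hdeg hx₀ π hπ (hD x) hs)

end Tors

/-! ## Equivariance in the scalar form -/

section Gal

variable {𝒪 : Subring K} {O : Subring F} {hO : ∀ a ∈ 𝒪, algebraMap K F a ∈ O}
variable {c0 c1 c01 : Place K F → Prop}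

/-- **`hgal` in the scalar form, one divisor.** If `D' = g • D + div u` with `u` a unit of `O`
and `g` preserves `O`, the charts and `π` up to a constant `κ ∈ 𝒪`, then `f := u⁻¹` carries
`g (L_01(D))` into `L_01(D')` and the transported witnesses to a trivialisation of the bundle
of `D'`. -/
theorem gal_of_smul_divisor (π : 𝒪) (h0 : ∀ v, c01 v → c0 v) (h1 : ∀ v, c01 v → c1 v)
    {D D' : Divisor K F} {e0 e0' e1 e1' : F}
    (W : IsWitness c0 c1 c01 O (algebraMap K F (π : K)) D e0 e0' e1 e1')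
    (g : SemilinearAut K F) (hgO : ∀ f ∈ O, g • f ∈ O)
    (hc0 : ∀ v : Place K F, c0 (g • v) → c0 v) (hc1 : ∀ v : Place K F, c1 (g • v) → c1 v)
    (hc01 : ∀ v : Place K F, c01 (g • v) → c01 v) {κ : 𝒪}
    (hκ : SemilinearAut.baseAut g (π : K) = (κ : K) * (π : K))
    {u : F} (hu : u ≠ 0) (huO : u ∈ O) (huO' : u⁻¹ ∈ O)
    (hord : ∀ v : Place K F, D' v = (g • D) v + v.ord u) :
    (∀ a ∈ (bundleOf 𝒪 O hO h0 h1 D).L01, u⁻¹ * g • a ∈ (bundleOf 𝒪 O hO h0 h1 D').L01) ∧
      Triv π (bundleOf 𝒪 O hO h0 h1 D') (u⁻¹ * g • e0) (u⁻¹ * g • e1) := by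
  have hε0 : algebraMap K F (π : K) ∈ chartRing c0 O := algebraMap_mem_chartRing (hO π π.2)
  have hε1 : algebraMap K F (π : K) ∈ chartRing c1 O := algebraMap_mem_chartRing (hO π π.2)
  have hε01 : algebraMap K F (π : K) ∈ chartRing c01 O := algebraMap_mem_chartRing (hO π π.2)
  have hκ0 : algebraMap K F (κ : K) ∈ chartRing c0 O := algebraMap_mem_chartRing (hO κ κ.2)
  have hκ1 : algebraMap K F (κ : K) ∈ chartRing c1 O := algebraMap_mem_chartRing (hO κ κ.2)
  have hκ01 : algebraMap K F (κ : K) ∈ chartRing c01 O := algebraMap_mem_chartRing (hO κ κ.2)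
  have hgε : g • algebraMap K F (π : K) = algebraMap K F (π : K) * algebraMap K F (κ : K) := by
    rw [SemilinearAut.smul_algebraMap, hκ, map_mul, mul_comm]
  set E : Divisor K F := D' - g • D with hE
  have hEv : ∀ v : Place K F, E v = v.ord u := by
    intro v
    rw [hE, Finsupp.sub_apply, hord v]
    ring
  have hD : g • D + E = D' := by rw [hE]; abel
  refine ⟨fun a ha => ?_, ?_⟩
  · have h4 := mul_mem_chartMod (c := c01) (smul_mem_chartMod g hgO hc01 ha)
      (inv_mem_chartMod_of_divisor (c := c01) hu hEv huO')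
    rw [hD] at h4
    show u⁻¹ * g • a ∈ chartMod c01 O D'
    rwa [mul_comm]
  · have hW : IsWitness c0 c1 c01 O (algebraMap K F (π : K)) D'
        (g • e0 * u⁻¹) (g • e0' * u) (g • e1 * u⁻¹) (g • e1' * u) := by
      have h5 := (W.smul g hgO hc0 hc1 hc01 hκ0 hκ1 hκ01 hgε).twist hε0 hε1 hε01 hu hEv
        huO huO'
      rwa [hD] at h5
    have h6 := triv_of_isWitness (hO := hO) π h0 h1 hW
    rwa [mul_comm (g • e0), mul_comm (g • e1)] at h6

variable {M : Type*}

/-- **`hgal` in the scalar form, family version**: the data `(τ, σ, c)` of a semilinear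
automorphism `g` and, for every `x`, the scalar `f` with `f * σ (L_01 (D x)) ⊆ L_01 (D (γ x))`
and `(f * σ (e₀ x), f * σ (e₁ x))` a trivialisation of the bundle of `D (γ x)`. -/
theorem exists_gal_of_smul_divisor (π : 𝒪) (h0 : ∀ v, c01 v → c0 v) (h1 : ∀ v, c01 v → c1 v)
    (D : M → Divisor K F) (e0 e0' e1 e1' : M → F)
    (W : ∀ x, IsWitness c0 c1 c01 O (algebraMap K F (π : K)) (D x) (e0 x) (e0' x) (e1 x) (e1' x))
    (g : SemilinearAut K F) (hgO : ∀ f ∈ O, g • f ∈ O)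
    (hc0 : ∀ v : Place K F, c0 (g • v) → c0 v) (hc1 : ∀ v : Place K F, c1 (g • v) → c1 v)
    (hc01 : ∀ v : Place K F, c01 (g • v) → c01 v)
    (hg𝒪 : ∀ a ∈ 𝒪, SemilinearAut.baseAut g a ∈ 𝒪) {κ : 𝒪}
    (hκ : SemilinearAut.baseAut g (π : K) = (κ : K) * (π : K)) (γ : M → M)
    (hγ : ∀ x, ∃ u : F, u ≠ 0 ∧ u ∈ O ∧ u⁻¹ ∈ O ∧
      ∀ v : Place K F, D (γ x) v = (g • D x) v + v.ord u) :
    ∃ (τ : 𝒪 →+* 𝒪) (σ : F →+* F) (c : 𝒪), (∀ a : 𝒪, ((τ a : 𝒪) : K) = SemilinearAut.baseAut g a) ∧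
      (∀ y : F, σ y = g • y) ∧
      (∀ a, σ (algebraMap 𝒪 F a) = algebraMap 𝒪 F (τ a)) ∧ τ π = c * π ∧
      (∀ t ∈ chartAlg 𝒪 O hO c0, σ t ∈ chartAlg 𝒪 O hO c0) ∧
      (∀ t ∈ chartAlg 𝒪 O hO c1, σ t ∈ chartAlg 𝒪 O hO c1) ∧
      ∀ x, ∃ f : F, (∀ a ∈ (bundleOf 𝒪 O hO h0 h1 (D x)).L01,
          f * σ a ∈ (bundleOf 𝒪 O hO h0 h1 (D (γ x))).L01) ∧
        Triv π (bundleOf 𝒪 O hO h0 h1 (D (γ x))) (f * σ (e0 x)) (f * σ (e1 x)) := by
  refine ⟨baseHom g 𝒪 hg𝒪, ((SemilinearAut.toRingAut g : F ≃+* F) : F →+* F), κ,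
    fun a => rfl, fun y => rfl, fun a => SemilinearAut.commutes g (a : K), ?_,
    fun t ht => smul_mem_chartRing g hgO hc0 ht, fun t ht => smul_mem_chartRing g hgO hc1 ht,
    fun x => ?_⟩
  · apply Subtype.ext
    rw [coe_baseHom, hκ]
    rfl
  · obtain ⟨u, hu, huO, huO', hord⟩ := hγ x
    exact ⟨u⁻¹, gal_of_smul_divisor (hO := hO) π h0 h1 (W x) g hgO hc0 hc1 hc01 hκ hu huO huO'
      hord⟩

end Gal

end Fermat.Agent.S19.helper5454
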