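import Fermat.Agent.S19.helper5454_ChartDiv
import Fermat.Agent.S19.helper9190_SpecC
import Fermat.Agent.S37.helper5162_HeckeInputsModular

/-!
# S19 second line, leaf DEG0 (helper5454): `helper9190.Stmt_PrincipalOfSection`

A divisor of degree `0` on `X₀(N)` over `ℚ̄` with a nonzero global section is principal.
This is the instance at `K = ℚ̄`, `F = F̄_N` of `isPrincipal_of_mem_riemannRochSpace`
(`helper5454_ChartDiv`), with the landed facts "`F̄_N` has principal divisors" and "every place
of `F̄_N` has degree one" (`S37/helper5162_HeckeInputsModular`).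
-/

set_option autoImplicit false

noncomputable section

open AlgebraicCurve ModularCurve

namespace Fermat.Agent.S19.helper5454

/-- **DEG0** for every level `N`: the leaf `Stmt_PrincipalOfSection` of the second line Spec. -/
theorem stmt_PrincipalOfSection (N : ℕ) [NeZero N] :
    Fermat.Agent.S19.helper9190.Stmt_PrincipalOfSection N := by
  intro D hD s hs hord
  have : HasPrincipalDivisors (AlgebraicClosure ℚ) (Fermat.Agent.S19.helper9190.FK N) :=
    Fermat.Agent.S37.helper5162.hasPrincipalDivisors_FN N
  have hdeg : ∀ v : Place (AlgebraicClosure ℚ) (Fermat.Agent.S19.helper9190.FK N), 0 < v.deg := by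
    intro v
    rw [Fermat.Agent.S37.helper5162.place_deg_eq_one N v]
    exact one_pos
  have hsD : s ∈ riemannRochSpace D :=
    mem_riemannRochSpace_iff.mpr (fun v => Or.inr (hord v))
  exact isPrincipal_of_mem_riemannRochSpace hdeg hD hs hsD

end Fermat.Agent.S19.helper5454
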