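import Fermat.Agent.S19.helper5842_DivEval

/-!
# S19, route W (findings #3057), leaf W2a, part 2 (helper5842): the cyclic-cover computation

Abstract form of the computation behind the nondegeneracy of the Weil pairing.
`F'/F` a finite extension of function fields over `K` (Prelude vocabulary, residue fields `K`),
`u ∈ F'` with `u ^ p = h ∈ F`, `τ` an `F`-automorphism of `F'` with `τ u = ζ u`,
`div h = (p r) D_y`, `P'` a place of `F'` off `D_y`, and `(p r k) Z = P' - τ P' + div w` on `F'`
with `Z` off `D_y`.  Then for `D_x := π_* Z`, `f_x := N w`, `f_y := h ^ k`, `n := p r k`: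

  `div f_x = n D_x`, `div f_y = n D_y`, disjoint supports, and
  `f_x(D_y) ^ r = ζ⁻¹ * f_y(D_x) ^ r`.

The only non-formal input is Weil reciprocity on `F'` for the pair `(u, w)`.
-/

set_option autoImplicit false

open AlgebraicCurve

namespace Fermat.Agent.S19.helper5842

open Fermat.Agent.S27.helper6247 (ev)
open Fermat.Agent.S27.helper4586

/-- **Weil reciprocity** for a function field, in `dEval` form: `f(div g) = g(div f)` for
functions with disjoint divisors. -/
def Reciprocity (K F : Type*) [Field K] [Field F] [Algebra K F] : Prop :=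
  ∀ (f g : F) (Df Dg : Divisor K F), f ≠ 0 → g ≠ 0 → (∀ v, Df v = v.ord f) →
    (∀ v, Dg v = v.ord g) → (∀ v, Df v = 0 ∨ Dg v = 0) → dEval f Dg = dEval g Df

section Cover

variable {K F F' : Type*} [Field K] [Field F] [Field F'] [Algebra K F] [Algebra K F']
  [Algebra F F'] [IsScalarTower K F F']

/-- An `F`-linear automorphism does not move the place below. -/
theorem restrict_smul_of_fix [Algebra.IsIntegral F F'] (τ : F' ≃ₐ[K] F')
    (hτF : ∀ f : F, τ (algebraMap F F' f) = algebraMap F F' f) (w : Place K F') :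
    (τ • w).restrict F = w.restrict F := by
  apply Place.ext
  ext x
  rw [Place.restrict_toValuationSubring, Place.restrict_toValuationSubring,
    ValuationSubring.mem_comap, ValuationSubring.mem_comap, Place.smul_toValuationSubring,
    ValuationSubring.mem_pointwise_smul_iff_inv_smul_mem]
  have h1 : τ⁻¹ • algebraMap F F' x = algebraMap F F' x := by
    rw [AlgEquiv.smul_def, AlgEquiv.aut_inv]
    rw [AlgEquiv.symm_apply_eq, hτF]
  rw [h1]

/-- Support of a push-forward (plain restriction form). -/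
theorem exists_of_mapRestrict_ne_zero [Algebra.IsIntegral F F'] (Z : Divisor K F')
    (v : Place K F) (hv : Divisor.mapRestrict F Z v ≠ 0) :
    ∃ w : Place K F', Z w ≠ 0 ∧ w.restrict F = v := by
  classical
  by_contra hcon
  push Not at hcon
  apply hv
  have key : ∀ Z' : Divisor K F', (∀ w : Place K F', Z' w ≠ 0 → w.restrict F ≠ v) →
      Divisor.mapRestrict F Z' v = 0 := by
    intro Z' hZ'
    have h1 : Z' = ∑ w ∈ Z'.support, Finsupp.single w (Z' w) := by
      conv_lhs => rw [← Finsupp.sum_single Z']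
      rfl
    rw [h1, map_sum, Finsupp.finsetSum_apply]
    refine Finset.sum_eq_zero fun w hw => ?_
    rw [Divisor.mapRestrict_single, Finsupp.single_apply,
      if_neg (hZ' w (Finsupp.mem_support_iff.mp hw))]
  exact key Z hcon

variable [Module.Finite F F'] [CharZero K] [HasPrincipalDivisors K F']

/-- **The cyclic-cover computation.** -/
theorem cover_computation
    (hres : ∀ w : Place K F', Function.Surjective (algebraMap K w.ResidueField))
    (hrec : Reciprocity K F')
    {p r k : ℕ} (hp : 0 < p)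
    (h : F) (hh : h ≠ 0) (u : F') (hu : u ^ p = algebraMap F F' h)
    (ζ : K) (hζ : ζ ≠ 0) (τ : F' ≃ₐ[K] F')
    (hτF : ∀ f : F, τ (algebraMap F F' f) = algebraMap F F' f)
    (hτu : τ u = algebraMap K F' ζ * u)
    (Dy : Divisor K F) (hDy : ∀ v : Place K F, ((p * r : ℕ) : ℤ) * Dy v = v.ord h)
    (P' : Place K F') (hP' : Dy (P'.restrict F) = 0)
    (Z : Divisor K F') (w : F') (hw : w ≠ 0)
    (hZ : ∀ v' : Place K F', ((p * r * k : ℕ) : ℤ) * Z v'
      = (Finsupp.single P' 1 - Finsupp.single (τ • P') 1 : Divisor K F') v' + v'.ord w)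
    (hZsupp : ∀ v' : Place K F', Dy (v'.restrict F) ≠ 0 → Z v' = 0) :
    (∀ v : Place K F, ((p * r * k : ℕ) : ℤ) * Divisor.pushforward F Z v
        = v.ord (Algebra.norm F w)) ∧
    (∀ v : Place K F, ((p * r * k : ℕ) : ℤ) * Dy v = v.ord (h ^ k)) ∧
    (∀ v : Place K F, Divisor.pushforward F Z v = 0 ∨ Dy v = 0) ∧
    dEval (Algebra.norm F w) Dy ^ r
      = (Units.mk0 ζ hζ)⁻¹ * dEval (h ^ k) (Divisor.pushforward F Z) ^ r := by
  classical
  have : CharZero F := charZero_of_injective_algebraMap (algebraMap K F).injective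
  have : Algebra.IsIntegral F F' := Algebra.IsIntegral.of_finite F F'
  have hin1 : ∀ w' : Place K F', w'.inertiaDeg F = 1 :=
    Fermat.Agent.S37.helper8426.place_inertiaDeg_eq_one hres
  have hpf := pushforward_eq_mapRestrict (F := F) hin1
  have hvals : ∀ w' : Place K F', HasValues w' := fun w' =>
    hasValues_of_residue_surjective w' (hres w')
  have hτres : (τ • P').restrict F = P'.restrict F := restrict_smul_of_fix τ hτF P'
  have hu0 : u ≠ 0 := by
    rintro rfl
    rw [zero_pow hp.ne'] at hu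
    exact hh ((algebraMap F F').injective (by rw [← hu, map_zero]))
  -- the divisor of `w`
  set n : ℕ := p * r * k with hn
  set Dw : Divisor K F' := n • Z - (Finsupp.single P' 1 - Finsupp.single (τ • P') 1) with hDw
  have hDw' : ∀ v' : Place K F', Dw v' = v'.ord w := by
    intro v'
    rw [hDw, Finsupp.sub_apply, Finsupp.smul_apply, nsmul_eq_mul, hZ v']
    ring
  -- the divisor of `u`
  set Du : Divisor K F' := r • Divisor.pullback F' Dy with hDu
  have hDu' : ∀ v' : Place K F', Du v' = v'.ord u := by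
    intro v'
    have h1 : (p : ℤ) * v'.ord u = v'.ord (algebraMap F F' h) := by
      rw [← hu, ← zpow_natCast, v'.ord_zpow]
    rw [Place.ord_restrict, ← hDy] at h1
    have hp' : (p : ℤ) ≠ 0 := by exact_mod_cast hp.ne'
    rw [hDu, Finsupp.smul_apply, nsmul_eq_mul, Divisor.pullback_apply]
    apply mul_left_cancel₀ hp'
    rw [h1]
    push_cast
    ring
  -- unit facts
  have hU1 : ∀ v' : Place K F', Dy (v'.restrict F) = 0 → UnitAt v' u := by
    intro v' hv'
    refine ⟨hu0, ?_⟩
    rw [← hDu', hDu, Finsupp.smul_apply, Divisor.pullback_apply, hv']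
    simp
  have hne1 : ∀ v' : Place K F', Dy (v'.restrict F) ≠ 0 → v' ≠ P' := by
    rintro v' hv' rfl
    exact hv' hP'
  have hne2 : ∀ v' : Place K F', Dy (v'.restrict F) ≠ 0 → v' ≠ τ • P' := by
    rintro v' hv' rfl
    exact hv' (by rw [hτres]; exact hP')
  have hU2 : ∀ v' : Place K F', Dy (v'.restrict F) ≠ 0 → UnitAt v' w := by
    intro v' hv'
    refine ⟨hw, ?_⟩
    have h1 := hZ v'
    rw [hZsupp v' hv', Finsupp.sub_apply, Finsupp.single_apply, Finsupp.single_apply,
      if_neg (hne1 v' hv').symm, if_neg (hne2 v' hv').symm] at h1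
    simpa using h1.symm
  refine ⟨?_, ?_, ?_, ?_⟩
  · -- (a)
    intro v
    have hnf := Fermat.Agent.S37.helper8426.pushforwardNormFormula (F := F) hres w hw Dw hDw' v
    rw [← hnf, hDw, map_sub, map_sub, map_nsmul, Divisor.pushforward_single,
      Divisor.pushforward_single, hτres, hin1, hin1, sub_self, sub_zero, Finsupp.smul_apply,
      nsmul_eq_mul]
  · -- (b)
    intro v
    rw [← zpow_natCast, v.ord_zpow, ← hDy, hn]
    push_cast
    ring
  · -- (c)
    intro v
    by_contra hcon
    push Not at hcon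
    rw [hpf] at hcon
    obtain ⟨w', hw'1, hw'2⟩ := exists_of_mapRestrict_ne_zero Z v hcon.1
    exact hw'1 (hZsupp w' (by rw [hw'2]; exact hcon.2))
  · -- (d)
    have s1 : dEval (Algebra.norm F w) Dy = dEval w (Divisor.pullback F' Dy) :=
      dEval_norm hres w Dy hU2
    have s2 : dEval w Du = dEval w (Divisor.pullback F' Dy) ^ r := dEval_nsmul w r _
    have hdisj : ∀ v' : Place K F', Du v' = 0 ∨ Dw v' = 0 := by
      intro v'
      by_cases hv' : Dy (v'.restrict F) = 0
      · left
        rw [hDu, Finsupp.smul_apply, Divisor.pullback_apply, hv']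
        simp
      · right
        rw [hDw', (hU2 v' hv').2]
    have s3 : dEval u Dw = dEval w Du := hrec u w Du Dw hu0 hw hDu' hDw' hdisj
    have hτu' : τ (algebraMap K F' ζ⁻¹ * u) = u := by
      rw [map_mul, AlgEquiv.commutes, hτu, ← mul_assoc, ← map_mul, inv_mul_cancel₀ hζ, map_one,
        one_mul]
    have s4a : evU (τ • P') u = (Units.mk0 ζ hζ)⁻¹ * evU P' u := by
      conv_lhs => rw [← hτu']
      rw [evU_smul, evU_const_mul (hvals P') (inv_ne_zero hζ) (hU1 P' hP')]
      congr 1
      apply Units.ext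
      simp
    have s4 : dEval u Dw = dEval u Z ^ n * (Units.mk0 ζ hζ)⁻¹ := by
      rw [hDw, dEval_sub, dEval_sub, dEval_nsmul, dEval_single, dEval_single, s4a]
      simp only [zpow_one]
      rw [div_eq_mul_inv, div_eq_mul_inv, mul_inv_rev, inv_inv, mul_assoc (Units.mk0 ζ hζ)⁻¹,
        mul_inv_cancel, mul_one]
    have s5 : dEval (h ^ k) (Divisor.pushforward F Z) = dEval u Z ^ (p * k) := by
      rw [hpf, ← dEval_algebraMap, map_pow, ← hu, ← pow_mul]
      refine dEval_pow (p * k) fun v' hv' => ?_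
      have hv'' : Dy (v'.restrict F) = 0 := by
        by_contra hne
        exact hv' (hZsupp v' hne)
      exact evU_pow (hvals v') (hU1 v' hv'') _
    rw [s1, ← s2, ← s3, s4, s5, ← pow_mul, mul_comm]
    congr 2
    rw [hn]
    ring

/-- The two values differ when `ζ ≠ 1`. -/
theorem cover_ne
    (hres : ∀ w : Place K F', Function.Surjective (algebraMap K w.ResidueField))
    (hrec : Reciprocity K F')
    {p r k : ℕ} (hp : 0 < p)
    (h : F) (hh : h ≠ 0) (u : F') (hu : u ^ p = algebraMap F F' h)
    (ζ : K) (hζ : ζ ≠ 0) (hζ1 : ζ ≠ 1) (τ : F' ≃ₐ[K] F')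
    (hτF : ∀ f : F, τ (algebraMap F F' f) = algebraMap F F' f)
    (hτu : τ u = algebraMap K F' ζ * u)
    (Dy : Divisor K F) (hDy : ∀ v : Place K F, ((p * r : ℕ) : ℤ) * Dy v = v.ord h)
    (P' : Place K F') (hP' : Dy (P'.restrict F) = 0)
    (Z : Divisor K F') (w : F') (hw : w ≠ 0)
    (hZ : ∀ v' : Place K F', ((p * r * k : ℕ) : ℤ) * Z v'
      = (Finsupp.single P' 1 - Finsupp.single (τ • P') 1 : Divisor K F') v' + v'.ord w)
    (hZsupp : ∀ v' : Place K F', Dy (v'.restrict F) ≠ 0 → Z v' = 0) :
    dEval (Algebra.norm F w) Dy ≠ dEval (h ^ k) (Divisor.pushforward F Z) := by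
  obtain ⟨-, -, -, hd⟩ := cover_computation hres hrec hp h hh u hu ζ hζ τ hτF hτu Dy hDy P' hP'
    Z w hw hZ hZsupp
  intro heq
  rw [heq] at hd
  have h1 : (Units.mk0 ζ hζ)⁻¹ = 1 := by
    have := mul_right_cancel (a := (1 : Kˣ)) (b := dEval (h ^ k) (Divisor.pushforward F Z) ^ r)
      (c := (Units.mk0 ζ hζ)⁻¹) (by rw [one_mul]; exact hd)
    exact this.symm
  have h2 : Units.mk0 ζ hζ = 1 := inv_eq_one.mp h1
  exact hζ1 (by simpa using congrArg Units.val h2)

end Cover

end Fermat.Agent.S19.helper5842
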