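import Fermat.Agent.S19.helper5842_CoverCalc
import Fermat.Agent.S19.helper1527_WeilPairing

/-!
# S19, route W (findings #3057), leaf W2a, part 3 (helper5842): nondegeneracy from a cyclic cover

Abstract final step: a cyclic cover `F'/F` with the data of `cover_computation`, Weil reciprocity
and divisibility of `Pic0` on `F'` produce a Weil value `≠ 1` (Spec vocabulary of
`helper2790_SpecW`, evaluation kit of `helper1527`).
-/

set_option autoImplicit false

open AlgebraicCurve

namespace Fermat.Agent.S19.helper5842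

open Fermat.Agent.S27.helper6247 (ev)
open Fermat.Agent.S27.helper4586
open Fermat.Agent.S19.helper2790
open Fermat.Agent.S19.helper1527 (divEval IsRep)

section Bridge

variable {K F : Type*} [Field K] [Field F] [Algebra K F]

/-- The unit-valued `dEval` is the `K`-valued `divEval` wherever all values are nonzero. -/
theorem coe_dEval (f : F) (D : Divisor K F) (h : ∀ P, D P ≠ 0 → ev P f ≠ 0) :
    ((dEval f D : Kˣ) : K) = divEval f D := by
  rw [dEval_eq_prod, Units.coe_prod, divEval, Finsupp.prod]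
  refine Finset.prod_congr rfl fun P hP => ?_
  rw [Units.val_zpow_eq_zpow_val, evU_val_of_ne (h P (Finsupp.mem_support_iff.mp hP))]

/-- Weil reciprocity in the Spec form gives the `dEval` form. -/
theorem reciprocity_of_spec (hV : ∀ P : Place K F, HasValues P)
    (hR : helper2790.Reciprocity K F) : Reciprocity K F := by
  intro f g Df Dg hf hg hDf hDg hd
  have h1 := helper1527.recip_divEval hV hR (f := f) (g := g) (D := Df) (E := Dg)
    ⟨hf, hDf⟩ ⟨hg, hDg⟩ hd
  apply Units.ext
  rw [coe_dEval, coe_dEval, h1]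
  · intro P hP
    refine helper1527.ev_ne_zero_of_ord hV hg ?_
    rw [← hDg]
    exact (hd P).resolve_left hP
  · intro P hP
    refine helper1527.ev_ne_zero_of_ord hV hf ?_
    rw [← hDf]
    exact (hd P).resolve_right hP

end Bridge

section Final

variable {K F F' : Type*} [Field K] [Field F] [Field F'] [Algebra K F] [Algebra K F']
  [Algebra F F'] [IsScalarTower K F F'] [Module.Finite F F'] [CharZero K]
  [HasPrincipalDivisors K F']

/-- **Nondegeneracy from a cyclic cover.**  `F'/F` finite, `u ^ p = h`, `τ u = ζ u` with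
`ζ ≠ 1`, `div h = (p r) D_y`, `n = p r k`; reciprocity and `n`-divisibility of `Pic0` on `F'`,
infinitely many places on `F'`.  Then some `x ∈ Pic0(F)[n]` has Weil value `≠ 1` against the
class of `D_y`. -/
theorem exists_weil_ne_one_of_cover
    (hV : ∀ P : Place K F, HasValues P)
    (hres : ∀ w : Place K F', Function.Surjective (algebraMap K w.ResidueField))
    (hR' : helper2790.Reciprocity K F')
    (hinf : ∀ S : Set (Place K F'), S.Finite → ∃ P : Place K F', P ∉ S)
    (n : ℕ) (hdiv : ∀ c : Pic0 K F', ∃ z : Pic0 K F', n • z = c)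
    {p r k : ℕ} (hp : 0 < p) (hn : p * r * k = n)
    (h : F) (hh : h ≠ 0) (u : F') (hu : u ^ p = algebraMap F F' h)
    (ζ : K) (hζ : ζ ≠ 0) (hζ1 : ζ ≠ 1) (τ : F' ≃ₐ[K] F')
    (hτF : ∀ f : F, τ (algebraMap F F' f) = algebraMap F F' f)
    (hτu : τ u = algebraMap K F' ζ * u)
    (Dy : Divisor.degZero (K := K) (F := F))
    (hDy : ∀ v : Place K F, ((p * r : ℕ) : ℤ) * (Dy : Divisor K F) v = v.ord h) :
    ∃ (x : Pic0 K F) (c : K), (n : ℤ) • x = 0 ∧ IsWeilValue n x (Pic0.mk Dy) c ∧ c ≠ 1 := by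
  classical
  have : Algebra.IsIntegral F F' := Algebra.IsIntegral.of_finite F F'
  have hV' : ∀ P : Place K F', HasValues P := fun P =>
    hasValues_of_residue_surjective P (hres P)
  have hrec : Reciprocity K F' := reciprocity_of_spec hV' hR'
  -- the places of `F'` over the support of `D_y`
  have hSfin : {v' : Place K F' | (Dy : Divisor K F) (v'.restrict F) ≠ 0}.Finite := by
    have hsub : {v' : Place K F' | (Dy : Divisor K F) (v'.restrict F) ≠ 0}
        ⊆ ⋃ v ∈ (Dy : Divisor K F).support, {w : Place K F' | w.restrict F = v} := by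
      intro v' hv'
      simp only [Set.mem_iUnion, exists_prop]
      exact ⟨v'.restrict F, Finsupp.mem_support_iff.mpr hv', rfl⟩
    exact (Set.Finite.biUnion (Finset.finite_toSet _)
      fun v _ => Place.restrict_fiber_finite v).subset hsub
  obtain ⟨P', hP'⟩ := hinf _ hSfin
  have hP'0 : (Dy : Divisor K F) (P'.restrict F) = 0 := by
    by_contra hne
    exact hP' hne
  -- the class of `P' - τ P'` and its `n`-th part
  have hE : (Finsupp.single P' 1 - Finsupp.single (τ • P') 1 : Divisor K F')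
      ∈ Divisor.degZero (K := K) (F := F') := by
    rw [Divisor.mem_degZero, map_sub, Divisor.degree_single, Divisor.degree_single,
      Place.deg_smul, sub_self]
  obtain ⟨z, hz⟩ := hdiv (Pic0.mk ⟨_, hE⟩)
  obtain ⟨Z, hZz, hZoff⟩ := Fermat.Agent.S27.helper1070.pic0_exists_rep_off hSfin.toFinset z
  have hmk : Pic0.mk (n • Z - ⟨_, hE⟩) = 0 := by
    have h1 : Pic0.mk (n • Z - ⟨_, hE⟩) = n • Pic0.mk Z - Pic0.mk ⟨_, hE⟩ :=
      map_sub (QuotientAddGroup.mk' _) (n • Z) ⟨_, hE⟩ |>.trans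
        (congrArg (· - Pic0.mk ⟨_, hE⟩) (map_nsmul (QuotientAddGroup.mk' _) n Z))
    rw [h1, hZz, hz, sub_self]
  obtain ⟨w, hw0, hw⟩ := AddSubgroup.mem_addSubgroupOf.mp ((QuotientAddGroup.eq_zero_iff _).mp hmk)
  have hZ : ∀ v' : Place K F', ((p * r * k : ℕ) : ℤ) * (Z : Divisor K F') v'
      = (Finsupp.single P' 1 - Finsupp.single (τ • P') 1 : Divisor K F') v' + v'.ord w := by
    intro v'
    have h1 := hw v'
    rw [AddSubgroup.coe_sub, AddSubgroup.coe_nsmul, Finsupp.sub_apply, Finsupp.smul_apply,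
      nsmul_eq_mul] at h1
    dsimp only at h1
    rw [hn, ← h1]
    ring
  have hZsupp : ∀ v' : Place K F', (Dy : Divisor K F) (v'.restrict F) ≠ 0 →
      (Z : Divisor K F') v' = 0 := fun v' hv' =>
    hZoff v' (hSfin.mem_toFinset.mpr hv')
  obtain ⟨ha, hb, hc, -⟩ := cover_computation hres hrec hp h hh u hu ζ hζ τ hτF hτu
    (Dy : Divisor K F) hDy P' hP'0 (Z : Divisor K F') w hw0 hZ hZsupp
  have hne := cover_ne hres hrec hp h hh u hu ζ hζ hζ1 τ hτF hτu
    (Dy : Divisor K F) hDy P' hP'0 (Z : Divisor K F') w hw0 hZ hZsupp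
  rw [hn] at ha hb
  -- the data on `F`
  have hNw : Algebra.norm F w ≠ 0 := Algebra.norm_ne_zero_iff.mpr hw0
  set Dx : Divisor.degZero (K := K) (F := F) :=
    ⟨Divisor.pushforward F (Z : Divisor K F'), Divisor.pushforward_mem_degZero Z.2⟩ with hDx
  have hx : IsRep n (Pic0.mk Dx) Dx (Algebra.norm F w) :=
    ⟨rfl, hNw, fun v => by rw [Finsupp.smul_apply, nsmul_eq_mul]; exact ha v⟩
  have hy : IsRep n (Pic0.mk Dy) Dy (h ^ k) :=
    ⟨rfl, pow_ne_zero k hh, fun v => by rw [Finsupp.smul_apply, nsmul_eq_mul]; exact hb v⟩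
  have hd : ∀ P, (Dx : Divisor K F) P = 0 ∨ (Dy : Divisor K F) P = 0 := hc
  have hxtors : (n : ℤ) • Pic0.mk Dx = 0 := by
    have h1 : Pic0.mk ((n : ℤ) • Dx) = (n : ℤ) • Pic0.mk Dx :=
      map_zsmul (QuotientAddGroup.mk' _) (n : ℤ) Dx
    rw [← h1, Pic0.mk, QuotientAddGroup.eq_zero_iff]
    refine AddSubgroup.mem_addSubgroupOf.mpr ⟨Algebra.norm F w, hNw, fun v => ?_⟩
    rw [AddSubgroup.coe_zsmul, Finsupp.smul_apply, smul_eq_mul]
    exact ha v
  have hev1 : ∀ P, (Dy : Divisor K F) P ≠ 0 → ev P (Algebra.norm F w) ≠ 0 := fun P hP =>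
    helper1527.ev_ne_zero_of_ord hV hNw (hx.ord_eq_zero ((hd P).resolve_right hP))
  have hev2 : ∀ P, (Dx : Divisor K F) P ≠ 0 → ev P (h ^ k) ≠ 0 := fun P hP =>
    helper1527.ev_ne_zero_of_ord hV (pow_ne_zero k hh) (hy.ord_eq_zero ((hd P).resolve_left hP))
  refine ⟨Pic0.mk Dx, _, hxtors, helper1527.isWeilValue_of_rep hV hx hy
    ((helper1527.disjoint_support_iff _ _).mpr hd), ?_⟩
  intro hone
  have hb0 : divEval (h ^ k) (Dx : Divisor K F) ≠ 0 := helper1527.divEval_ne_zero _ _ hev2
  have heq := (div_eq_one_iff_eq hb0).mp hone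
  apply hne
  apply Units.ext
  rw [coe_dEval _ _ hev1, coe_dEval _ _ hev2]
  exact heq

end Final

end Fermat.Agent.S19.helper5842
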