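import Fermat.Agent.S27.helper4586_EvKit
import Fermat.Agent.S27.helper1070_Approx
import Fermat.Agent.S37.helper4612_NormValue

/-!
# S19, route W (findings #3057), leaf W2a, part 1 (helper5842): values of functions on divisors

`dEval f D = ∏_P f(P)^(D P) : Kˣ` for a function `f` and a divisor `D` of a function field `F/K`
(Prelude vocabulary), built on the landed evaluation kit `Fermat.Agent.S27.helper6247.ev` /
`Fermat.Agent.S27.helper4586.IsVal`.  The value at a place where `f` has no nonzero value is the
junk value `1`, so `dEval f` is a homomorphism in `D` unconditionally; multiplicativity in `f`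
holds where both functions are units.

Contents:
* `evU P f : Kˣ`, `evU_of_isVal`, `evU_mul`, `evU_pow`, `evU_smul` (automorphisms),
  `evU_algebraMap` (restriction of places along a field extension);
* `dEval f D : Kˣ`, additivity in `D`, `dEval_eq_prod`, `dEval_congr`, `dEval_mul`, `dEval_pow`;
* `dEval_algebraMap` : `dEval (algebraMap F F' f) Z = dEval f (mapRestrict F Z)`.
-/

set_option autoImplicit false

open AlgebraicCurve

namespace Fermat.Agent.S19.helper5842

open Fermat.Agent.S27.helper6247 (ev)
open Fermat.Agent.S27.helper4586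

section Basic

variable {K F : Type*} [Field K] [Field F] [Algebra K F]

/-- Two (place, function) pairs with the same values have the same `ev`. -/
theorem ev_eq_ev_of_isVal_iff {F' : Type*} [Field F'] [Algebra K F'] {P : Place K F} {f : F}
    {Q : Place K F'} {g : F'} (h : ∀ c : K, IsVal P f c ↔ IsVal Q g c) : ev P f = ev Q g := by
  by_cases hex : ∃ c : K, IsVal P f c
  · obtain ⟨c, hc⟩ := hex
    rw [hc.ev_eq, ((h c).mp hc).ev_eq]
  · have hex' : ¬ ∃ c : K, IsVal Q g c := fun ⟨c, hc⟩ => hex ⟨c, (h c).mpr hc⟩
    rw [ev_eq_zero_of_not_exists hex, ev_eq_zero_of_not_exists hex']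

open Classical in
/-- Unit-valued evaluation of `f` at `P` (junk value `1` when `f` has no nonzero value). -/
noncomputable def evU (P : Place K F) (f : F) : Kˣ :=
  if h : ev P f = 0 then 1 else Units.mk0 (ev P f) h

theorem evU_val_of_ne {P : Place K F} {f : F} (h : ev P f ≠ 0) : (evU P f : K) = ev P f := by
  simp [evU, h]

theorem evU_of_ev_eq_zero {P : Place K F} {f : F} (h : ev P f = 0) : evU P f = 1 := by
  simp [evU, h]

theorem evU_of_isVal {P : Place K F} {f : F} {c : K} (h : IsVal P f c) (hc : c ≠ 0) :
    (evU P f : K) = c := by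
  have h1 := h.ev_eq
  rw [evU_val_of_ne (by rw [h1]; exact hc), h1]

theorem evU_congr_ev {F' : Type*} [Field F'] [Algebra K F'] {P : Place K F} {f : F}
    {Q : Place K F'} {g : F'} (h : ev P f = ev Q g) : evU P f = evU Q g := by
  unfold evU
  by_cases h0 : ev P f = 0
  · rw [dif_pos h0, dif_pos (h ▸ h0)]
  · rw [dif_neg h0, dif_neg (h ▸ h0)]
    exact Units.ext h

/-- `f` is a unit at `P`. -/
def UnitAt (P : Place K F) (f : F) : Prop := f ≠ 0 ∧ P.ord f = 0

theorem UnitAt.mul {P : Place K F} {f g : F} (hf : UnitAt P f) (hg : UnitAt P g) :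
    UnitAt P (f * g) :=
  ⟨mul_ne_zero hf.1 hg.1, by rw [P.ord_mul hf.1 hg.1, hf.2, hg.2, add_zero]⟩

theorem UnitAt.inv {P : Place K F} {f : F} (hf : UnitAt P f) : UnitAt P f⁻¹ :=
  ⟨inv_ne_zero hf.1, by rw [P.ord_inv, hf.2, neg_zero]⟩

theorem UnitAt.pow {P : Place K F} {f : F} (hf : UnitAt P f) (n : ℕ) : UnitAt P (f ^ n) := by
  refine ⟨pow_ne_zero n hf.1, ?_⟩
  rw [← zpow_natCast, P.ord_zpow, hf.2, mul_zero]

theorem UnitAt.ev_ne_zero {P : Place K F} (hP : HasValues P) {f : F} (hf : UnitAt P f) :
    ev P f ≠ 0 :=
  (ev_ne_zero_iff hP hf.2.ge).mpr hf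

theorem UnitAt.coe_evU {P : Place K F} (hP : HasValues P) {f : F} (hf : UnitAt P f) :
    (evU P f : K) = ev P f :=
  evU_val_of_ne (hf.ev_ne_zero hP)

theorem UnitAt.isVal {P : Place K F} (hP : HasValues P) {f : F} (hf : UnitAt P f) :
    IsVal P f (evU P f : K) := by
  rw [hf.coe_evU hP]
  exact isVal_ev hP hf.2.ge

theorem evU_mul {P : Place K F} (hP : HasValues P) {f g : F} (hf : UnitAt P f)
    (hg : UnitAt P g) : evU P (f * g) = evU P f * evU P g := by
  apply Units.ext
  rw [Units.val_mul, (hf.mul hg).coe_evU hP, hf.coe_evU hP, hg.coe_evU hP,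
    ev_mul hP hf.2.ge hg.2.ge]

theorem evU_pow {P : Place K F} (hP : HasValues P) {f : F} (hf : UnitAt P f) (n : ℕ) :
    evU P (f ^ n) = evU P f ^ n := by
  apply Units.ext
  rw [Units.val_pow_eq_pow_val, (hf.pow n).coe_evU hP, hf.coe_evU hP, ev_pow hP hf.2.ge]

theorem evU_const_mul {P : Place K F} (hP : HasValues P) {c : K} (hc : c ≠ 0) {f : F}
    (hf : UnitAt P f) : evU P (algebraMap K F c * f) = Units.mk0 c hc * evU P f := by
  have hcu : UnitAt P (algebraMap K F c) := by
    refine ⟨by simpa using hc, ?_⟩
    exact ((isVal_algebraMap P c).ord_eq_zero hc)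
  rw [evU_mul hP hcu hf]
  congr 1
  apply Units.ext
  rw [evU_of_isVal (isVal_algebraMap P c) hc]
  rfl

/-- Transport of values under an automorphism. -/
theorem isVal_smul_iff (σ : F ≃ₐ[K] F) (P : Place K F) (f : F) (c : K) :
    IsVal (σ • P) (σ f) c ↔ IsVal P f c := by
  rw [isVal_iff, isVal_iff]
  have h1 : σ f - algebraMap K F c = σ (f - algebraMap K F c) := by
    rw [map_sub, σ.commutes]
  rw [h1, Place.ord_smul]
  constructor
  · rintro (h | h)
    · left
      have : σ f = σ (algebraMap K F c) := by rw [σ.commutes]; exact h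
      exact σ.injective this
    · exact Or.inr h
  · rintro (h | h)
    · left
      rw [h, σ.commutes]
    · exact Or.inr h

theorem ev_smul' (σ : F ≃ₐ[K] F) (P : Place K F) (f : F) : ev (σ • P) (σ f) = ev P f :=
  ev_eq_ev_of_isVal_iff fun c => isVal_smul_iff σ P f c

theorem evU_smul (σ : F ≃ₐ[K] F) (P : Place K F) (f : F) : evU (σ • P) (σ f) = evU P f :=
  evU_congr_ev (ev_smul' σ P f)

end Basic

section Restrict

variable {K F F' : Type*} [Field K] [Field F] [Field F'] [Algebra K F] [Algebra K F']
  [Algebra F F'] [IsScalarTower K F F'] [Algebra.IsIntegral F F']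

/-- Values are compatible with restriction of places. -/
theorem isVal_algebraMap_iff (w : Place K F') (f : F) (c : K) :
    IsVal w (algebraMap F F' f) c ↔ IsVal (w.restrict F) f c := by
  rw [isVal_iff, isVal_iff]
  have h1 : algebraMap F F' f - algebraMap K F' c = algebraMap F F' (f - algebraMap K F c) := by
    rw [map_sub, ← IsScalarTower.algebraMap_apply]
  rw [h1, Place.ord_restrict]
  have hpos : (0 : ℤ) < (Place.ramificationIndex (F := F) w : ℤ) := by
    exact_mod_cast w.ramificationIndex_pos (F := F)
  constructor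
  · rintro (h | h)
    · left
      have : algebraMap F F' f = algebraMap F F' (algebraMap K F c) := by
        rw [← IsScalarTower.algebraMap_apply]; exact h
      exact (algebraMap F F').injective this
    · exact Or.inr ((mul_pos_iff_of_pos_left hpos).mp h)
  · rintro (h | h)
    · left
      rw [h, ← IsScalarTower.algebraMap_apply]
    · exact Or.inr (mul_pos hpos h)

theorem ev_algebraMap' (w : Place K F') (f : F) :
    ev w (algebraMap F F' f) = ev (w.restrict F) f :=
  ev_eq_ev_of_isVal_iff fun c => isVal_algebraMap_iff w f c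

theorem evU_algebraMap (w : Place K F') (f : F) :
    evU w (algebraMap F F' f) = evU (w.restrict F) f :=
  evU_congr_ev (ev_algebraMap' w f)

end Restrict

section DEval

variable {K F : Type*} [Field K] [Field F] [Algebra K F]

/-- `D ↦ ∏_P f(P)^(D P)` as an additive homomorphism to `Additive Kˣ`. -/
noncomputable def dEvalHom (f : F) : Divisor K F →+ Additive Kˣ :=
  Finsupp.liftAddHom fun P => zmultiplesHom (Additive Kˣ) (Additive.ofMul (evU P f))

/-- The value `f(D) = ∏_P f(P)^(D P)` of a function on a divisor. -/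
noncomputable def dEval (f : F) (D : Divisor K F) : Kˣ := (dEvalHom f D).toMul

@[simp] theorem dEval_zero (f : F) : dEval f (0 : Divisor K F) = 1 := by simp [dEval]

theorem dEval_add (f : F) (D E : Divisor K F) : dEval f (D + E) = dEval f D * dEval f E := by
  simp [dEval]

theorem dEval_neg (f : F) (D : Divisor K F) : dEval f (-D) = (dEval f D)⁻¹ := by
  simp [dEval]

theorem dEval_sub (f : F) (D E : Divisor K F) : dEval f (D - E) = dEval f D / dEval f E := by
  simp [dEval]

theorem dEval_zsmul (f : F) (k : ℤ) (D : Divisor K F) : dEval f (k • D) = dEval f D ^ k := by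
  simp [dEval, map_zsmul]

theorem dEval_nsmul (f : F) (k : ℕ) (D : Divisor K F) : dEval f (k • D) = dEval f D ^ k := by
  simp [dEval, map_nsmul]

theorem dEval_single (f : F) (P : Place K F) (k : ℤ) :
    dEval f (Finsupp.single P k) = evU P f ^ k := by
  simp [dEval, dEvalHom]

theorem dEval_sum (f : F) {ι : Type*} (s : Finset ι) (D : ι → Divisor K F) :
    dEval f (∑ i ∈ s, D i) = ∏ i ∈ s, dEval f (D i) := by
  simp [dEval, map_sum, toMul_sum]

theorem dEval_eq_prod (f : F) (D : Divisor K F) :
    dEval f D = ∏ P ∈ D.support, evU P f ^ D P := by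
  conv_lhs => rw [← Finsupp.sum_single D]
  rw [Finsupp.sum, dEval_sum]
  exact Finset.prod_congr rfl fun P _ => dEval_single f P (D P)

theorem dEval_congr {f g : F} {D : Divisor K F} (h : ∀ P, D P ≠ 0 → evU P f = evU P g) :
    dEval f D = dEval g D := by
  rw [dEval_eq_prod, dEval_eq_prod]
  exact Finset.prod_congr rfl fun P hP => by rw [h P (Finsupp.mem_support_iff.mp hP)]

theorem dEval_mul {f g : F} {D : Divisor K F}
    (h : ∀ P, D P ≠ 0 → evU P (f * g) = evU P f * evU P g) :
    dEval (f * g) D = dEval f D * dEval g D := by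
  rw [dEval_eq_prod, dEval_eq_prod, dEval_eq_prod, ← Finset.prod_mul_distrib]
  exact Finset.prod_congr rfl fun P hP => by
    rw [h P (Finsupp.mem_support_iff.mp hP), mul_zpow]

theorem dEval_pow {f : F} (n : ℕ) {D : Divisor K F}
    (h : ∀ P, D P ≠ 0 → evU P (f ^ n) = evU P f ^ n) :
    dEval (f ^ n) D = dEval f D ^ n := by
  rw [dEval_eq_prod, dEval_eq_prod, ← Finset.prod_pow]
  exact Finset.prod_congr rfl fun P hP => by
    rw [h P (Finsupp.mem_support_iff.mp hP), ← zpow_natCast, ← zpow_natCast, ← zpow_mul,
      ← zpow_mul, mul_comm]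

end DEval

section DEvalRestrict

variable {K F F' : Type*} [Field K] [Field F] [Field F'] [Algebra K F] [Algebra K F']
  [Algebra F F'] [IsScalarTower K F F'] [Algebra.IsIntegral F F']

/-- Evaluating a function of `F` on a divisor of `F'`. -/
theorem dEval_algebraMap (f : F) (Z : Divisor K F') :
    dEval (algebraMap F F' f) Z = dEval f (Divisor.mapRestrict F Z) := by
  induction Z using Finsupp.induction_linear with
  | zero => simp
  | add D E hD hE => rw [dEval_add, map_add, dEval_add, hD, hE]
  | single w k =>
    rw [dEval_single, Divisor.mapRestrict_single, dEval_single, evU_algebraMap]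

/-- When all inertia degrees are one the push-forward is the plain restriction of places. -/
theorem pushforward_eq_mapRestrict (h1 : ∀ w : Place K F', w.inertiaDeg F = 1)
    (Z : Divisor K F') : Divisor.pushforward F Z = Divisor.mapRestrict F Z := by
  induction Z using Finsupp.induction_linear with
  | zero => simp
  | add D E hD hE => rw [map_add, map_add, hD, hE]
  | single w k =>
    rw [Divisor.pushforward_single, Divisor.mapRestrict_single, h1 w]
    simp

end DEvalRestrict

section Nonunits

variable {K F : Type*} [Field K] [Field F] [Algebra K F]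

/-- `IsVal` in the membership form used by the landed value-norm formula. -/
theorem isVal_iff_mem_nonunits (P : Place K F) (f : F) (c : K) :
    IsVal P f c ↔ f - algebraMap K F c ∈ P.toValuationSubring.nonunits := by
  rw [ValuationSubring.mem_nonunits_iff_exists_mem_maximalIdeal]
  constructor
  · intro h
    have hmem : f - algebraMap K F c ∈ P.toValuationSubring :=
      (Fermat.Agent.S27.helper1070.mem_toValuationSubring_iff P _).mpr (le_of_lt h)
    refine ⟨hmem, ?_⟩
    rw [← Place.heightOneSpectrum_asIdeal,
      ← IsDedekindDomain.HeightOneSpectrum.intValuation_lt_one_iff_mem, ← P.adicValuation_coe]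
    exact h
  · rintro ⟨hmem, h⟩
    rw [← Place.heightOneSpectrum_asIdeal,
      ← IsDedekindDomain.HeightOneSpectrum.intValuation_lt_one_iff_mem, ← P.adicValuation_coe] at h
    exact h

end Nonunits

section Norm

variable {K F F' : Type*} [Field K] [Field F] [Field F'] [Algebra K F] [Algebra K F']
  [Algebra F F'] [IsScalarTower K F F'] [Module.Finite F F'] [CharZero F]
  [HasPrincipalDivisors K F']

/-- **Value of a norm** in `evU` form: if `H` is a unit at every place of `F'` over `v`, then
`N(H)(v) = ∏_{w | v} H(w)^e(w|v)`. -/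
theorem evU_norm (v : Place K F)
    (hres : ∀ w : Place K F', Function.Surjective (algebraMap K w.ResidueField))
    (H : F') (hH : ∀ w ∈ v.fiber F', UnitAt w H) :
    evU v (Algebra.norm F H) = ∏ w ∈ v.fiber F', evU w H ^ w.ramificationIndex F := by
  have hval : ∀ w ∈ v.fiber F', H - algebraMap K F' ((evU w H : Kˣ) : K)
      ∈ w.toValuationSubring.nonunits := fun w hw =>
    (isVal_iff_mem_nonunits w H _).mp
      ((hH w hw).isVal (hasValues_of_residue_surjective w (hres w)))
  have key := Fermat.Agent.S37.helper4612.norm_sub_prod_mem_nonunits v (fun w _ => hres w) H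
    (fun w => ((evU w H : Kˣ) : K)) hval
  rw [← isVal_iff_mem_nonunits] at key
  apply Units.ext
  rw [evU_of_isVal key, Units.coe_prod]
  · exact Finset.prod_congr rfl fun w _ => by rw [Units.val_pow_eq_pow_val]
  · exact Finset.prod_ne_zero_iff.mpr fun w _ => pow_ne_zero _ (Units.ne_zero _)

/-- **Norm and pull-back**: `N(H)(D) = H(π^* D)` when `H` is a unit over the support of `D`. -/
theorem dEval_norm (hres : ∀ w : Place K F', Function.Surjective (algebraMap K w.ResidueField))
    (H : F') (D : Divisor K F) (hH : ∀ w : Place K F', D (w.restrict F) ≠ 0 → UnitAt w H) :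
    dEval (Algebra.norm F H) D = dEval H (Divisor.pullback F' D) := by
  have hpb : Divisor.pullback F' D
      = ∑ v ∈ D.support, ∑ w ∈ v.fiber F',
          Finsupp.single w (D v * (w.ramificationIndex F : ℤ)) := by
    rw [Divisor.pullback, Finsupp.liftAddHom_apply, Finsupp.sum]
    rfl
  rw [hpb, dEval_sum, dEval_eq_prod]
  refine Finset.prod_congr rfl fun v hv => ?_
  have hv' : D v ≠ 0 := Finsupp.mem_support_iff.mp hv
  rw [dEval_sum, evU_norm v hres H (fun w hw => hH w (by rw [Place.mem_fiber.mp hw]; exact hv')),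
    ← Finset.prod_zpow]
  refine Finset.prod_congr rfl fun w _ => ?_
  rw [dEval_single, ← zpow_natCast, ← zpow_mul, mul_comm]

end Norm

end Fermat.Agent.S19.helper5842
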