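import Fermat.Agent.S19.helper5842_KummerNondeg
import Fermat.Agent.S17.helper2813_WeilReciprocity
import Fermat.Agent.S17.helper2219_DivJZero
import Fermat.Agent.S19.helper2790_WeilTop

/-!
# S19, route W: leaves (L1) and (L2), hypothesis-free (helper5842)

* `reciprocity_of_finite x hx : helper2790.Reciprocity K F`  (W1b in the Spec shape, from the
  landed `S17.helper2813.weil_reciprocity`; a 10-line adapter kept here so that this file has no
  unlanded import);
* `weilND_of_finite x hx n hn : WeilND K F n`, `weilND_curve K F n hn : WeilND K F n`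
  (W2 for every function field over an algebraically closed field of characteristic zero);
* `reciprocity_FN N`, `weilND_FN N n hn` : the two leaves at `F = modularFunctionFieldBar N`;
* `result_of_weilInt` : the frozen statement S19 from `Stmt_WeilInt (auxLevel p ℓ) ℓ k` ALONE.
-/

set_option autoImplicit false

namespace Fermat.Agent.S19.helper5842

open ModularCurve AlgebraicCurve IntermediateField
open Fermat.Agent.S19.helper2790 Fermat.Agent.S19.helper2111

section General

universe u v

variable {K : Type u} {F : Type v} [Field K] [Field F] [Algebra K F] [IsAlgClosed K] [CharZero K]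

/-- **W1b** in the Spec shape, for a function field finite over `K⟮x⟯`. -/
theorem reciprocity_of_finite (x : F) (hx : Transcendental K x) [FiniteDimensional K⟮x⟯ F] :
    helper2790.Reciprocity K F := by
  intro f g D E a b hf hg hdisj ha hb
  have hV : ∀ P : Place K F, Fermat.Agent.S27.helper4586.HasValues P := fun P =>
    Fermat.Agent.S27.helper4586.hasValues_of_finite x P
  have hd := (Fermat.Agent.S19.helper1527.disjoint_support_iff D E).mp hdisj
  rw [((Fermat.Agent.S19.helper1527.isDivValue_iff hV hf.1 E a).mp ha).2,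
    ((Fermat.Agent.S19.helper1527.isDivValue_iff hV hg.1 D b).mp hb).2]
  refine Fermat.Agent.S17.helper2813.weil_reciprocity x hx hf.1 hg.1 (fun P => ?_) D E hf.2 hg.2
  rcases hd P with h | h
  · left
    rw [← hf.2 P]
    exact h
  · right
    rw [← hg.2 P]
    exact h

/-- **W2**, hypothesis-free, for a function field finite over `K⟮x⟯`. -/
theorem weilND_of_finite (x : F) (hx : Transcendental K x) [FiniteDimensional K⟮x⟯ F] (n : ℕ)
    (hn : 0 < n) : WeilND K F n :=
  weilND_of_reciprocity x hx n hn fun F' _ _ x' hx' hfin' =>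
    haveI : FiniteDimensional K⟮x'⟯ F' := hfin'
    reciprocity_of_finite x' hx'

/-- **W2**, hypothesis-free, in the binders of the Spec. -/
theorem weilND_curve (K : Type u) (F : Type v) [Field K] [Field F] [Algebra K F] [IsAlgClosed K]
    [CharZero K] [IsCurveOver K F] [Algebra.EssFiniteType K F] (n : ℕ) (hn : 0 < n) :
    WeilND K F n := by
  obtain ⟨x, hx, hfin⟩ :=
    Fermat.Agent.S27.helper5411.exists_transcendental_finite (K := K) (F := F)
  have : FiniteDimensional K⟮x⟯ F := hfin
  exact weilND_of_finite x hx n hn

/-- **W1b**, hypothesis-free, in the binders of the Spec. -/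
theorem reciprocity_curve (K : Type u) (F : Type v) [Field K] [Field F] [Algebra K F]
    [IsAlgClosed K] [CharZero K] [IsCurveOver K F] [Algebra.EssFiniteType K F] :
    helper2790.Reciprocity K F := by
  obtain ⟨x, hx, hfin⟩ :=
    Fermat.Agent.S27.helper5411.exists_transcendental_finite (K := K) (F := F)
  have : FiniteDimensional K⟮x⟯ F := hfin
  exact reciprocity_of_finite x hx

end General

/-- **(L1)** Weil reciprocity on the modular function field over `ℚ̄`. -/
theorem reciprocity_FN (N : ℕ) [NeZero N] :
    helper2790.Reciprocity Qb (modularFunctionFieldBar N) := by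
  have h1 := Fermat.Agent.S17.helper2219.isCurveOver_FN N
  have : IsCurveOver Qb (modularFunctionFieldBar N) := h1.1
  have : Algebra.EssFiniteType Qb (modularFunctionFieldBar N) := h1.2
  exact reciprocity_curve Qb (modularFunctionFieldBar N)

/-- **(L2)** Nondegeneracy of the Weil pairing on the modular function field over `ℚ̄`. -/
theorem weilND_FN (N : ℕ) [NeZero N] (n : ℕ) (hn : 0 < n) :
    WeilND Qb (modularFunctionFieldBar N) n := by
  have h1 := Fermat.Agent.S17.helper2219.isCurveOver_FN N
  have : IsCurveOver Qb (modularFunctionFieldBar N) := h1.1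
  have : Algebra.EssFiniteType Qb (modularFunctionFieldBar N) := h1.2
  exact weilND_curve Qb (modularFunctionFieldBar N) n hn

/-- **Route W with one leaf left**: the frozen statement S19 from the integrality of the Weil
pairing at the auxiliary level. -/
theorem result_of_weilInt (p : ℕ) [NeZero p] (ℓ : ℕ) [Fact ℓ.Prime] (k : ℕ)
    (hI : Stmt_WeilInt (Fermat.Agent.S19.helper2289.auxLevel p ℓ) ℓ k) :
    ∃ (H : Type) (_ : CommRing H) (_ : HopfAlgebra (GaloisRep.ratLocalizedAt ℓ) H),
      Module.Finite (GaloisRep.ratLocalizedAt ℓ) H ∧ Module.Flat (GaloisRep.ratLocalizedAt ℓ) H ∧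
      Coalgebra.IsCocomm (GaloisRep.ratLocalizedAt ℓ) H ∧
      ∃ e : WithConv (H →ₐ[GaloisRep.ratLocalizedAt ℓ] AlgebraicClosure ℚ) ≃
          ↥(Submodule.torsionBy ℤ (JZero p) ((ℓ : ℤ) ^ k)),
        (∀ f g, e (f * g) = e f + e g) ∧
        ∀ (σ : AlgebraicClosure ℚ ≃ₐ[ℚ] AlgebraicClosure ℚ)
          (f g : WithConv (H →ₐ[GaloisRep.ratLocalizedAt ℓ] AlgebraicClosure ℚ)),
          (∀ h : H, g h = σ (f h)) → ((e g : JZero p)) = σ • (e f : JZero p) :=
  result_of_weil p ℓ k (reciprocity_FN _)
    (weilND_FN _ (ℓ ^ k) (pow_pos (Fact.out : ℓ.Prime).pos k)) hI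

end Fermat.Agent.S19.helper5842
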