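import Fermat.Agent.S19.helper6256_CoverInst
import Fermat.Agent.S37.helper5413_LatticeModular

set_option autoImplicit false
set_option synthInstance.maxHeartbeats 400000

/-!
# S19, main line C-alg: the cover hypotheses at the Gauss pair (helper6256)

`coverHyp_gauss` : for the landed Gauss pair of `F̄_N` at a place `A` of `ℚ̄` over `ℓ ∤ N` and a
lattice bundle `H` with a natural-number genus (the gate), the bundle `helper1458.CoverHyp`
for `sp := H.placeRed`: the hypothesis of `helper1458.cover_E`, `cover_U`, `exists_e`.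
Every field is discharged from landed facts (`S37/helper5413_LatticeModular`,
`S37/helper126_TorsionGlue`, `S18/helper508_GaussMod`).
-/

namespace Fermat.Agent.S19.helper6256

open AlgebraicCurve ModularCurve
open Fermat.Agent.S18 Fermat.Agent.S37 Fermat.Agent.S37.helper5413

/-- The cover hypotheses at the Gauss pair, from the gate. -/
theorem coverHyp_gauss (N : ℕ) [NeZero N] (ℓ : ℕ) [Fact ℓ.Prime] (hℓN : ¬ ℓ ∣ N)
    (A : ValuationSubring (AlgebraicClosure ℚ)) (hA : A.LiesOverPrime ℓ)
    {g : ℕ} {c : ℤ} {E₀ : Divisor (AlgebraicClosure ℚ) (modularFunctionFieldBar N)}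
    {E₀k : Divisor (IsLocalRing.ResidueField A)
      (modularFunctionFieldFullC (IsLocalRing.ResidueField A) N)}
    (H : LatHyp (helper508.gaussValuationSubring N ℓ hℓN A hA)
      (helper508.gaussResidue N ℓ hℓN A hA) (g : ℤ) c E₀ E₀k) :
    helper1458.CoverHyp A (helper508.gaussValuationSubring N ℓ hℓN A hA)
      (helper508.gaussResidue N ℓ hℓN A hA) H.placeRed g (max c (LatHyp.thr (g : ℤ) c)) := by
  have h1 := hasPrincipalDivisors_bar N ℓ hℓN A hA
  have h2 := hasPrincipalDivisors_res N ℓ hℓN A hA
  exact coverHyp_of_latHyp H A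
    (fun a => helper508.algebraMap_mem_gaussValuationSubring_iff N ℓ hℓN A hA a)
    (helper508.gaussResidue_surjective N ℓ hℓN A hA)
    (gaussResidue_const_surj N ℓ hℓN A hA)
    (gauss_isCartesian N ℓ hℓN A hA)

end Fermat.Agent.S19.helper6256
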