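import Fermat.Agent.S19.helper1458_CAlgCover
import Fermat.Agent.S37.helper126_TorsionGlue
import Fermat.Agent.S37.helper5413_LatticeRiemann

set_option autoImplicit false

/-!
# S19, main line C-alg: the cover hypotheses from the lattice bundle (helper6256)

Adapter for link (3) of the wire: `helper1458.CoverHyp` (the hypothesis bundle of `cover_E`,
`cover_U`, `exists_e`) for `sp := H.placeRed`, from a lattice bundle `H : helper5413.LatHyp` with
a natural-number genus, a cartesian pair `(O, red)` and the two surjectivity facts.  The only
field with content is `riemL`, Riemann's theorem with equality on the generic fibre with the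
SAME genus constant: the lower bound is `LatHyp.lat`, the upper bound is cartesian bases +
conservation of number + Riemann's theorem on the special fibre.

* `natCast_le_finrank_special` : an `L`-independent family of `L(E)` has at most
  `dim_k L_k(sp_* E)` members;
* `finiteDimensional_rr_generic` : `L(E)` is finite-dimensional;
* `finrank_rr_generic_eq` : `dim_L L(E) = deg E + 1 - g` in large degree;
* `coverHyp_of_latHyp` : the bundle.
-/

namespace Fermat.Agent.S19.helper6256

open AlgebraicCurve Module
open Fermat.Agent.S37 Fermat.Agent.S37.helper5413

section CoverInst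

variable {L F k Fk : Type*} [Field L] [Field F] [Algebra L F] [Field k] [Field Fk] [Algebra k Fk]
variable {O : ValuationSubring F} {red : O →+* Fk} {g c : ℤ}
  {E₀ : Divisor L F} {E₀k : Divisor k Fk}

/-- An `L`-independent family of `L(E)` has at most `dim_k L_k(sp_* E)` members (cartesian
bases and conservation of number). -/
theorem natCast_le_finrank_special [HasPrincipalDivisors L F] (H : LatHyp O red g c E₀ E₀k)
    (hcart : IsCartesian (L := L) k O red) (E : Divisor L F) (n : ℕ) (v : Fin n → F)
    (hv : LinearIndependent L v) (hmem : ∀ i, v i ∈ riemannRochSpace E) :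
    n ≤ finrank k (riemannRochSpace (Finsupp.mapDomain H.placeRed E)) := by
  classical
  obtain ⟨u, hu, hli⟩ := hcart E n v hv hmem
  have hmem' : ∀ i, red (u i) ∈ riemannRochSpace (Finsupp.mapDomain H.placeRed E) := fun i =>
    helper1458.red_mem_rr (helper126.LatHypGlue.cons H) (u i) E (hu i)
  have hfin := helper126.LatHypGlue.finiteDimensional_rr H (Finsupp.mapDomain H.placeRed E)
  have hli' : LinearIndependent k
      (fun i : Fin n => (⟨red (u i), hmem' i⟩ :
        riemannRochSpace (Finsupp.mapDomain H.placeRed E))) := by
    apply LinearIndependent.of_comp (riemannRochSpace (Finsupp.mapDomain H.placeRed E)).subtype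
    exact hli
  have h := hli'.fintype_card_le_finrank
  rwa [Fintype.card_fin] at h

/-- Riemann-Roch spaces of the generic fibre are finite-dimensional. -/
theorem finiteDimensional_rr_generic [HasPrincipalDivisors L F] (H : LatHyp O red g c E₀ E₀k)
    (hcart : IsCartesian (L := L) k O red) (E : Divisor L F) :
    FiniteDimensional L (riemannRochSpace E) := by
  classical
  have hbound : Module.rank L (riemannRochSpace E)
      ≤ ((finrank k (riemannRochSpace (Finsupp.mapDomain H.placeRed E)) : ℕ) : Cardinal) := by
    apply _root_.rank_le
    intro s hs
    have hs' : LinearIndependent L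
        (fun i : Fin s.card => ((s.equivFin.symm i : riemannRochSpace E) : F)) := by
      have h1 := hs.comp s.equivFin.symm s.equivFin.symm.injective
      exact h1.map' (riemannRochSpace E).subtype (Submodule.ker_subtype _)
    exact natCast_le_finrank_special H hcart E s.card _ hs'
      (fun i => (s.equivFin.symm i : riemannRochSpace E).2)
  exact Module.rank_lt_aleph0_iff.mp (lt_of_le_of_lt hbound (Cardinal.natCast_lt_aleph0))

/-- **Riemann's theorem on the generic fibre, with equality in large degree and the genus
constant of the lattice bundle.** -/
theorem finrank_rr_generic_eq [HasPrincipalDivisors L F] (H : LatHyp O red g c E₀ E₀k)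
    (A : ValuationSubring L) (hAO : ∀ a : L, a ∈ A → algebraMap L F a ∈ O)
    (hsurj : Function.Surjective red) (hcart : IsCartesian (L := L) k O red)
    (hRK : ∀ (a : L) (h : algebraMap L F a ∈ O),
      ∃ b : k, red ⟨algebraMap L F a, h⟩ = algebraMap k Fk b)
    (E : Divisor L F) (hE : max c (LatHyp.thr g c) ≤ Divisor.degree E) :
    (finrank L (riemannRochSpace E) : ℤ) = Divisor.degree E + 1 - g := by
  classical
  have hfin := finiteDimensional_rr_generic H hcart E
  have hdegk : Divisor.degree (Finsupp.mapDomain H.placeRed E) = Divisor.degree E :=
    helper126.LatHypGlue.degree_mapDomain_placeRed H E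
  have hk := helper126.LatHypGlue.finrank_rr_eq H hsurj (Finsupp.mapDomain H.placeRed E)
    (by rw [hdegk]; exact hE)
  rw [hdegk] at hk
  have hthr : LatHyp.thr g c ≤ Divisor.degree E := (le_max_right _ _).trans hE
  have hgE : g ≤ Divisor.degree E := LatHyp.g_le_thr.trans hthr
  refine le_antisymm ?_ ?_
  · -- upper bound: a basis of `L(E)` has at most `dim_k L_k(sp_* E)` members
    set m := finrank L (riemannRochSpace E) with hm
    have b := Module.finBasis L (riemannRochSpace E)
    have hli : LinearIndependent L (fun i : Fin m => ((b i : riemannRochSpace E) : F)) :=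
      b.linearIndependent.map' (riemannRochSpace E).subtype (Submodule.ker_subtype _)
    have h := natCast_le_finrank_special H hcart E m _ hli (fun i => (b i).2)
    have h' : (m : ℤ) ≤ (finrank k (riemannRochSpace (Finsupp.mapDomain H.placeRed E)) : ℤ) := by
      exact_mod_cast h
    rw [hk] at h'
    exact h'
  · -- lower bound: the lattice elements of `LatHyp.lat` are `L`-independent
    set n : ℕ := (Divisor.degree E + 1 - g).toNat with hn
    have hn' : (n : ℤ) = Divisor.degree E + 1 - g := by rw [hn]; omega
    obtain ⟨u, hu, hli⟩ := H.lat E n (by rw [hn']; )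
    have hliL : LinearIndependent L (fun i => ((u i : O) : F)) :=
      helper1458.linearIndependent_of_red A hAO hRK u hli
    have hli' : LinearIndependent L
        (fun i : Fin n => (⟨((u i : O) : F), hu i⟩ : riemannRochSpace E)) := by
      apply LinearIndependent.of_comp (riemannRochSpace E).subtype
      exact hliL
    have h := hli'.fintype_card_le_finrank
    rw [Fintype.card_fin] at h
    have h' : (n : ℤ) ≤ (finrank L (riemannRochSpace E) : ℤ) := by exact_mod_cast h
    rw [hn'] at h'
    exact h'

/-- **The cover hypotheses of `helper1458` from a lattice bundle** with a natural-number genus,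
for `sp := H.placeRed`, the constants `A` of `O`, and the threshold `max c (thr g c)`. -/
theorem coverHyp_of_latHyp [HasPrincipalDivisors L F] [HasPrincipalDivisors k Fk]
    {g : ℕ} (H : LatHyp O red (g : ℤ) c E₀ E₀k)
    (A : ValuationSubring L) (hA : ∀ a : L, algebraMap L F a ∈ O ↔ a ∈ A)
    (hsurj : Function.Surjective red)
    (hksurj : ∀ b : k, ∃ (a : L) (h : algebraMap L F a ∈ O),
      red ⟨algebraMap L F a, h⟩ = algebraMap k Fk b)
    (hcart : IsCartesian (L := L) k O red) :
    helper1458.CoverHyp A O red H.placeRed g (max c (LatHyp.thr (g : ℤ) c)) where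
  mem_iff := hA
  ker := H.red_nonunit
  red_const := helper126.LatHypGlue.redConst H
  const_surj := hksurj
  cons := helper126.LatHypGlue.cons H
  degL := H.degL
  degk := H.degk
  riemL := fun E hE => finrank_rr_generic_eq H A (fun a ha => (hA a).mpr ha) hsurj hcart
    (helper126.LatHypGlue.redConst H) E hE
  riemk := fun E hE => helper126.LatHypGlue.finrank_rr_eq H hsurj E hE
  cart := hcart

end CoverInst

end Fermat.Agent.S19.helper6256
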