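import Fermat.Agent.S19.helper3573_SpecGate
import Fermat.Agent.Lib.helper3858_ResidueQbar

set_option autoImplicit false

/-!
# S19, main line C-alg: edge glue for the gate (helper6256)

Small facts the final wire needs on the Gauss pair and that no leaf owns:

* `latHyp_g_nonneg`, `latHyp_exists_nat` : the genus constant `g : ℤ` of a lattice bundle
  `S37.helper5413.LatHyp` is a natural number (so that the adapted system is indexed by `Fin g`);
* `gateAt_nat` : the gate `helper3573.GateAt` with a natural-number genus;
* `infinite_residueField` : the residue field of a valuation ring of `Qbar` is infinite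
  (so that the special fibre has places outside any finite set).
-/

namespace Fermat.Agent.S19.helper6256

open AlgebraicCurve ModularCurve
open Fermat.Agent.S37.helper5413

section LatHypEdge

variable {L F k Fk : Type*} [Field L] [Field F] [Algebra L F] [Field k] [Field Fk] [Algebra k Fk]
variable {O : ValuationSubring F} {red : O →+* Fk} {g c : ℤ}
  {E₀ : Divisor L F} {E₀k : Divisor k Fk}

/-- The genus constant of a lattice bundle is nonnegative: otherwise `lat` would give two
Gauss-integral constants with independent reductions in `L_k(0)`, against `rk`. -/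
theorem latHyp_g_nonneg (H : LatHyp O red g c E₀ E₀k) : 0 ≤ g := by
  by_contra hg
  push Not at hg
  obtain ⟨u, hu, hli⟩ := H.lat 0 2 (by rw [map_zero]; push_cast; omega)
  have hmem : ∀ i, red (u i) ∈ riemannRochSpace (0 : Divisor k Fk) := fun i => by
    have h := H.anchor 0 (u i) (by rw [zero_smul]; exact hu i)
    rwa [zero_smul] at h
  have h2 := (H.rk 0 2 (fun i => red (u i)) hli hmem).1
  rw [map_zero] at h2
  norm_num at h2

/-- The genus constant of a lattice bundle is a natural number. -/
theorem latHyp_exists_nat (H : LatHyp O red g c E₀ E₀k) : ∃ g' : ℕ, (g' : ℤ) = g :=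
  ⟨g.toNat, Int.toNat_of_nonneg (latHyp_g_nonneg H)⟩

end LatHypEdge

/-- The gate with a natural-number genus. -/
theorem gateAt_nat (M : ℕ) [NeZero M] (ℓ : ℕ) [Fact ℓ.Prime] (hℓM : ¬ ℓ ∣ M)
    (A : ValuationSubring (AlgebraicClosure ℚ)) (hA : A.LiesOverPrime ℓ)
    (h : Fermat.Agent.S19.helper3573.GateAt M ℓ hℓM A hA) :
    ∃ (g : ℕ) (c : ℤ) (E₀ : Divisor (AlgebraicClosure ℚ) (modularFunctionFieldBar M))
      (E₀k : Divisor (IsLocalRing.ResidueField A)
        (modularFunctionFieldFullC (IsLocalRing.ResidueField A) M)),
      LatHyp (Fermat.Agent.S18.helper508.gaussValuationSubring M ℓ hℓM A hA)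
        (Fermat.Agent.S18.helper508.gaussResidue M ℓ hℓM A hA) (g : ℤ) c E₀ E₀k := by
  obtain ⟨g, c, E₀, E₀k, H⟩ := h
  obtain ⟨g', hg'⟩ := latHyp_exists_nat H
  exact ⟨g', c, E₀, E₀k, hg' ▸ H⟩

/-- The residue field of a valuation ring of `Qbar` is infinite (it is algebraically closed). -/
theorem infinite_residueField (A : ValuationSubring (AlgebraicClosure ℚ)) :
    Infinite (IsLocalRing.ResidueField A) := by
  have := Fermat.Agent.Lib.helper3858.isAlgClosed_residueField A
  infer_instance

end Fermat.Agent.S19.helper6256
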