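import Fermat.Agent.S18.helper508_GaussMod
import Fermat.Agent.S18.helper1733_GaussOrtho
import Fermat.Agent.S37.helper5413_LatticeModular
import Fermat.Agent.S37.helper126_TorsionGlue
import Fermat.Agent.S37.helper6835_NonSpecial
import Fermat.Agent.S37.helper2023_ChartNormal
import Fermat.Prelude.Def_ModularCurve_ArithmeticGalois

/-!
# S19-CALG-INST (helper9075): the instance bundle of the C-alg cover side

Input: the gate of record, i.e. a lattice bundle `H : Fermat.Agent.S37.helper5413.LatHyp` for the
landed Gauss pair `(O, red)` of `F̄_N` at a place `A` of `ℚ̄` over `ℓ ∤ N`.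
Output: every *instance* fact the cover side of the main line C-alg consumes
(`Fermat.Agent.S19.helper6256.IsAdaptedCover`, owner of the cover wire: helper6256), for
`sp := H.placeRed`, by landed names only.

Abstract part (any valued function field with a lattice bundle `H`):
* `conservation_of_latHyp`, `redKer_of_latHyp`, `residueTrivial_of_latHyp` : the `helper126`
  vocabulary (`hcons`, `hker`, `hdeg1`);
* `genus_nonneg_of_latHyp` : the constant `g` of a lattice bundle is `≥ 0`;
* `exists_ne_zero_of_latHyp` : Riemann's inequality on the generic fibre in the `hRR` shape, for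
  ANY family `R` of `n ≥ g` places;
* `exists_ns_points_of_latHyp` : a reduced non-special divisor `∑ s i` of degree `g` on the
  special fibre avoiding a given finite set, in the `hNS` shape;
* `IsInstBundle` / `isInstBundle_of_latHyp` : all of it in one structure.

Instance part (the Gauss pair at `(N, ℓ, A)`):
* `gauss_redConst`, `gauss_mem_iff`, `gauss_ksurj`, ... : `hconst`, `hA`, constants;
* `smul_gaussJ` : `j` is fixed by the arithmetic Galois action;
* `latHyp_reanchor_j` : ANY lattice bundle of the Gauss pair can be re-anchored at the pole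
  divisors of `j` and `j̄` WITHOUT changing the place reduction (`placeRed_reanchor_j`);
* `chartHyp_gauss_j` : the `helper2023.ChartHyp` data at `x = j`;
* `isInstBundle_gauss` : the bundle at the Gauss pair.
-/

set_option autoImplicit false
set_option synthInstance.maxHeartbeats 400000

noncomputable section

namespace Fermat.Agent.S19.helper9075

open ModularCurve AlgebraicCurve Module
open Fermat.Agent.S18 Fermat.Agent.S37

section AbstractBundle

variable {L F k Fk : Type*} [Field L] [Field F] [Algebra L F] [Field k] [Field Fk] [Algebra k Fk]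
variable {O : ValuationSubring F} {red : O →+* Fk} {g c : ℤ}
  {E₀ : Divisor L F} {E₀k : Divisor k Fk}

open helper5413

/-- The conservation law `sp_*(div y) = div (red y)` for `sp := H.placeRed`, in the shape
`helper126.Conservation`. -/
theorem conservation_of_latHyp (H : LatHyp O red g c E₀ E₀k) :
    helper126.Conservation O red H.placeRed :=
  fun _ hy _ hD s => H.mapDomain_placeRed_div hy hD s

/-- `red` kills exactly the maximal ideal of `O`. -/
theorem redKer_of_latHyp (H : LatHyp O red g c E₀ E₀k) : helper126.RedKer O red :=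
  helper126.redKer_of_nonunit H.red_nonunit

/-- The places of the generic fibre have residue field the constants. -/
theorem residueTrivial_of_latHyp (H : LatHyp O red g c E₀ E₀k) : helper126.ResidueTrivial L F :=
  helper126.residueTrivial_of_deg_eq_one H.degL

/-- Riemann's inequality on the generic fibre in the `hRR` shape of
`helper126.isPrincipal_of_specialises_zero` / `helper6256.IsAdaptedCover`: for ANY family `R` of
`n ≥ g` places and every divisor `D` of degree zero, `L(D + ∑ R i) ≠ 0`. -/
theorem exists_ne_zero_of_latHyp (H : LatHyp O red g c E₀ E₀k) {n : ℕ} (hn : g ≤ n)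
    (R : Fin n → Place L F) (D : Divisor L F) (hD : Divisor.degree D = 0) :
    ∃ h : F, h ≠ 0 ∧ ∀ P, 0 ≤ P.ord h + D P + (∑ i, Finsupp.single (R i) (1 : ℤ)) P := by
  have hdeg : Divisor.degree (D + ∑ i, Finsupp.single (R i) (1 : ℤ)) = n := by
    rw [map_add, hD, zero_add, map_sum]
    simp [Divisor.degree_single, H.degL]
  obtain ⟨u, hu, hli⟩ := H.lat (D + ∑ i, Finsupp.single (R i) (1 : ℤ)) 1
    (by rw [hdeg]; push_cast; omega)
  have hne : red (u 0) ≠ 0 := hli.ne_zero 0
  have hu0 : ((u 0 : O) : F) ≠ 0 := LatHyp.coe_ne_zero_of_red_ne_zero hne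
  refine ⟨(u 0 : F), hu0, fun P => ?_⟩
  have h1 := (mem_rr_iff.mp (hu 0)).resolve_left hu0 P
  rw [Finsupp.add_apply] at h1
  omega

/-- The constant `g` of a lattice bundle is non-negative. -/
theorem genus_nonneg_of_latHyp [HasPrincipalDivisors L F] (H : LatHyp O red g c E₀ E₀k)
    (hsurj : Function.Surjective red) : 0 ≤ g := by
  classical
  set m : ℕ := (max (max c (LatHyp.thr g c)) 0).toNat with hm
  set Ek : Divisor k Fk := Finsupp.mapDomain H.placeRed (m • E₀) with hEk
  have hdegEk : Divisor.degree Ek = Divisor.degree (m • E₀) :=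
    helper126.LatHypGlue.degree_mapDomain_placeRed H _
  have h1 : (m : ℤ) ≤ Divisor.degree Ek := by rw [hdegEk]; exact H.degree_nsmul_E₀_ge m
  have h2 : max (max c (LatHyp.thr g c)) 0 ≤ (m : ℤ) := Int.self_le_toNat _
  have h3 : max c (LatHyp.thr g c) ≤ Divisor.degree Ek :=
    (le_max_left _ _).trans (h2.trans h1)
  have h4 : (0 : ℤ) ≤ Divisor.degree Ek := (le_max_right _ _).trans (h2.trans h1)
  have hfr := helper126.LatHypGlue.finrank_rr_eq H hsurj Ek h3
  have := helper126.LatHypGlue.finiteDimensional_rr H Ek
  set n := finrank k (riemannRochSpace Ek) with hn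
  have b := Module.finBasis k (riemannRochSpace Ek)
  have hli : LinearIndependent k (fun i : Fin n => ((b i : riemannRochSpace Ek) : Fk)) :=
    b.linearIndependent.map' (riemannRochSpace Ek).subtype (Submodule.ker_subtype _)
  have h5 := (H.rk Ek n _ hli (fun i => (b i).2)).1
  rw [max_eq_right (by omega)] at h5
  omega

/-- **Non-special points on the special fibre** in the `hNS` shape: `g` pairwise distinct places
`s i` outside a given finite set `S` such that every function with at most simple poles at the
`s i` and no other pole is constant. -/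
theorem exists_ns_points_of_latHyp [HasPrincipalDivisors L F] [HasPrincipalDivisors k Fk]
    (H : LatHyp O red g c E₀ E₀k) (hsurj : Function.Surjective red)
    (hinf : (Set.univ : Set (Place k Fk)).Infinite) (S : Finset (Place k Fk)) :
    ∃ s : Fin g.toNat → Place k Fk, Function.Injective s ∧ (∀ i, s i ∉ S) ∧
      ∀ w : Fk, w ≠ 0 → (∀ q, (∀ i, q ≠ s i) → 0 ≤ q.ord w) → (∀ i, -1 ≤ (s i).ord w) →
        w ∈ Set.range (algebraMap k Fk) := by
  have hg := genus_nonneg_of_latHyp H hsurj
  obtain ⟨s, hs1, hs2, hs3⟩ := helper6835.exists_nonspecial_const g.toNat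
    (max c (LatHyp.thr g c)) (fun E => helper126.LatHypGlue.finiteDimensional_rr H E) H.degk
    (fun E hE => by
      rw [helper126.LatHypGlue.finrank_rr_eq H hsurj E hE, Int.toNat_of_nonneg hg]) hinf S
  refine ⟨s, hs1, hs2, fun w _ hreg hpole => ?_⟩
  have hw : w ∈ riemannRochSpace (∑ i, Finsupp.single (s i) (1 : ℤ)) := by
    rw [mem_rr_iff]
    right
    intro v
    by_cases hv : ∃ i, v = s i
    · obtain ⟨i, rfl⟩ := hv
      rw [helper126.sum_single_apply_self s hs1 i]
      exact hpole i
    · push Not at hv
      rw [helper126.sum_single_apply_of_ne s v (fun j => (hv j).symm)]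
      have := hreg v hv
      omega
  obtain ⟨a, ha⟩ := hs3 w hw
  exact ⟨a, ha.symm⟩

/-- **The instance bundle**: everything the cover side of the main line C-alg consumes from the
valued function field `(F / K, O, red)`, its special fibre `Fk / k` and the specialisation map
`sp` on places.  `γ` is the common genus, `cR` a degree from which Riemann's theorem is an
equality on the special fibre and `red` is onto the Riemann–Roch spaces. -/
structure IsInstBundle (A : ValuationSubring L) (O : ValuationSubring F) (red : O →+* Fk)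
    (sp : Place L F → Place k Fk) (γ : ℕ) (cR : ℤ) : Prop where
  /-- principal divisors and degree-one places on both fibres -/
  hPD : HasPrincipalDivisors L F
  hPDk : HasPrincipalDivisors k Fk
  hdeg : ∀ P : Place L F, P.deg = 1
  hdegk : ∀ Q : Place k Fk, Q.deg = 1
  hdeg1 : helper126.ResidueTrivial L F
  /-- the valued function field in the vocabulary of `S37.helper126` -/
  hker : helper126.RedKer O red
  hconst : helper126.RedConst L k O red
  hvg : helper126.ValueGroupConst L O
  hcons : helper126.Conservation O red sp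
  /-- `A` is the valuation ring of constants -/
  hA : ∀ a : L, algebraMap L F a ∈ O ↔ a ∈ A
  /-- `red` is onto, also on constants -/
  hsurj : Function.Surjective red
  hksurj : ∀ b : k, ∃ (a : L) (h : algebraMap L F a ∈ O),
    red ⟨algebraMap L F a, h⟩ = algebraMap k Fk b
  /-- `sp` is onto and preserves degrees -/
  hspsurj : Function.Surjective sp
  hspdeg : ∀ E : Divisor L F, Divisor.degree (Finsupp.mapDomain sp E) = Divisor.degree E
  /-- the special fibre: infinitely many places, finite-dimensional Riemann–Roch spaces,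
  Riemann's theorem with equality in degree `≥ cR` -/
  hinf : (Set.univ : Set (Place k Fk)).Infinite
  hfd : ∀ E : Divisor k Fk, FiniteDimensional k (riemannRochSpace E)
  hRe : ∀ E : Divisor k Fk, cR ≤ Divisor.degree E →
    (finrank k (riemannRochSpace E) : ℤ) = Divisor.degree E + 1 - γ
  /-- `red` is onto `L_k(sp_* E)` from `L(E) ∩ O` in degree `≥ cR` -/
  hlift : ∀ E : Divisor L F, cR ≤ Divisor.degree E →
    ∀ y ∈ riemannRochSpace (Finsupp.mapDomain sp E),
      ∃ u : O, (u : F) ∈ riemannRochSpace E ∧ red u = y
  /-- Riemann's inequality on the generic fibre, `hRR` shape, for ANY `γ` places -/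
  hRR : ∀ (R : Fin γ → Place L F) (D : Divisor L F), Divisor.degree D = 0 →
    ∃ h : F, h ≠ 0 ∧ ∀ P, 0 ≤ P.ord h + D P + (∑ i, Finsupp.single (R i) (1 : ℤ)) P
  /-- non-special points on the special fibre, `hNS` shape, avoiding any finite set -/
  hNS : ∀ S : Finset (Place k Fk), ∃ s : Fin γ → Place k Fk, Function.Injective s ∧
    (∀ i, s i ∉ S) ∧
    ∀ w : Fk, w ≠ 0 → (∀ q, (∀ i, q ≠ s i) → 0 ≤ q.ord w) → (∀ i, -1 ≤ (s i).ord w) →
      w ∈ Set.range (algebraMap k Fk)

/-- The instance bundle of a lattice bundle `H`, for `sp := H.placeRed`, `γ := g.toNat` and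
`cR := max c (thr g c)`. -/
theorem isInstBundle_of_latHyp [hPD : HasPrincipalDivisors L F]
    [hPDk : HasPrincipalDivisors k Fk]
    (H : LatHyp O red g c E₀ E₀k) (A : ValuationSubring L)
    (hA : ∀ a : L, algebraMap L F a ∈ O ↔ a ∈ A)
    (hconst : helper126.RedConst L k O red) (hvg : helper126.ValueGroupConst L O)
    (hsurj : Function.Surjective red)
    (hksurj : ∀ b : k, ∃ (a : L) (h : algebraMap L F a ∈ O),
      red ⟨algebraMap L F a, h⟩ = algebraMap k Fk b)
    (hinf : (Set.univ : Set (Place k Fk)).Infinite) :
    IsInstBundle A O red H.placeRed g.toNat (max c (LatHyp.thr g c)) where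
  hPD := hPD
  hPDk := hPDk
  hdeg := H.degL
  hdegk := H.degk
  hdeg1 := residueTrivial_of_latHyp H
  hker := redKer_of_latHyp H
  hconst := hconst
  hvg := hvg
  hcons := conservation_of_latHyp H
  hA := hA
  hsurj := hsurj
  hksurj := hksurj
  hspsurj := helper126.LatHypGlue.placeRed_surjective H hsurj
  hspdeg := helper126.LatHypGlue.degree_mapDomain_placeRed H
  hinf := hinf
  hfd := helper126.LatHypGlue.finiteDimensional_rr H
  hRe := fun E hE => by
    rw [helper126.LatHypGlue.finrank_rr_eq H hsurj E hE,
      Int.toNat_of_nonneg (genus_nonneg_of_latHyp H hsurj)]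
  hlift := fun E hE _ hy => helper126.LatHypGlue.exists_lift_rr H hsurj hksurj E hE hy
  hRR := fun R D hD => exists_ne_zero_of_latHyp H (Int.self_le_toNat g) R D hD
  hNS := fun S => exists_ns_points_of_latHyp H hsurj hinf S

end AbstractBundle

/-! ### The Gauss pair of `F̄_N` at a place `A` of `ℚ̄` over `ℓ ∤ N` -/

section GaussInstance

variable (N : ℕ) [NeZero N] (ℓ : ℕ) [Fact ℓ.Prime] (hℓN : ¬ ℓ ∣ N)
variable (A : ValuationSubring (AlgebraicClosure ℚ)) (hA : A.LiesOverPrime ℓ)

open helper5413

/-- `hconst`: the residue of a constant is a constant. -/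
theorem gauss_redConst :
    helper126.RedConst (AlgebraicClosure ℚ) (IsLocalRing.ResidueField A)
      (helper508.gaussValuationSubring N ℓ hℓN A hA) (helper508.gaussResidue N ℓ hℓN A hA) :=
  fun a ha => ⟨_, (helper1733.gaussResidue_algebraMap N ℓ hℓN A hA a ha).symm⟩

/-- `hA`: the constants of the Gauss valuation ring are `A`. -/
theorem gauss_mem_iff (a : AlgebraicClosure ℚ) :
    algebraMap (AlgebraicClosure ℚ) (modularFunctionFieldBar N) a ∈
      helper508.gaussValuationSubring N ℓ hℓN A hA ↔ a ∈ A :=
  helper508.algebraMap_mem_gaussValuationSubring_iff N ℓ hℓN A hA a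

/-- `j` is fixed by the arithmetic Galois action. -/
theorem smul_gaussJ (σ : AlgebraicClosure ℚ ≃ₐ[ℚ] AlgebraicClosure ℚ) :
    arithmeticGalois (modularFunctionFieldFull N) σ • helper1733.gaussJ (AlgebraicClosure ℚ) N =
      helper1733.gaussJ (AlgebraicClosure ℚ) N := by
  apply Subtype.ext
  rw [coe_arithmeticGalois_smul, helper1733.coe_gaussJ]
  exact coeffMap_jqModC _

/-- **Re-anchoring at `j`.**  ANY lattice bundle of the Gauss pair can be re-anchored at the pole
divisors `X` of `j` and `Xb` of `j̄ = red j`, with the same constants `g`, `c` and the SAME place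
reduction. -/
theorem latHyp_reanchor_j {g c : ℤ} {E₀ : Divisor (AlgebraicClosure ℚ) (modularFunctionFieldBar N)}
    {E₀k : Divisor (IsLocalRing.ResidueField A)
      (modularFunctionFieldFullC (IsLocalRing.ResidueField A) N)}
    (H : LatHyp (helper508.gaussValuationSubring N ℓ hℓN A hA)
      (helper508.gaussResidue N ℓ hℓN A hA) g c E₀ E₀k) :
    ∃ (X : Divisor (AlgebraicClosure ℚ) (modularFunctionFieldBar N))
      (Xb : Divisor (IsLocalRing.ResidueField A)
        (modularFunctionFieldFullC (IsLocalRing.ResidueField A) N)),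
      helper6292.IsPoleDivisor (helper1733.gaussJ (AlgebraicClosure ℚ) N) X ∧
      helper6292.IsPoleDivisor (helper508.gaussResidue N ℓ hℓN A hA
        ⟨helper1733.gaussJ (AlgebraicClosure ℚ) N, helper1733.gaussJ_mem N ℓ hℓN A hA⟩) Xb ∧
      ∃ H' : LatHyp (helper508.gaussValuationSubring N ℓ hℓN A hA)
        (helper508.gaussResidue N ℓ hℓN A hA) g c X Xb, H'.placeRed = H.placeRed := by
  obtain ⟨X, Xb, hX, hXb, hdX, hdXb⟩ := exists_poleDivisors N ℓ hℓN A hA
  have hpos : (0 : ℤ) < (dedekindPsi N : ℤ) := by
    exact_mod_cast Fermat.Agent.S28.helper1595.dedekindPsi_pos (NeZero.pos N)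
  have H' : LatHyp (helper508.gaussValuationSubring N ℓ hℓN A hA)
      (helper508.gaussResidue N ℓ hℓN A hA) g c X Xb :=
    { red_nonunit := H.red_nonunit
      degL := H.degL
      degk := H.degk
      finite_ord := H.finite_ord
      deg0 := H.deg0
      lat := H.lat
      rk := H.rk
      E₀_pos := by rw [hdX]; exact hpos
      E₀k_le := by rw [hdX, hdXb]
      anchor := fun m f hf => gauss_anchor N ℓ hℓN A hA hX hXb m f hf }
  refine ⟨X, Xb, hX, ?_, H', rfl⟩
  rw [gaussResidue_gaussJ]
  exact hXb

/-- The `helper2023.ChartHyp` data of the Gauss pair at the chart coordinate `x = j`, for the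
pole divisors `X` of `j` and `Xb` of `red j` (as produced by `latHyp_reanchor_j`). -/
theorem chartHyp_gauss_j
    {X : Divisor (AlgebraicClosure ℚ) (modularFunctionFieldBar N)}
    {Xb : Divisor (IsLocalRing.ResidueField A)
      (modularFunctionFieldFullC (IsLocalRing.ResidueField A) N)}
    (hX : helper6292.IsPoleDivisor (helper1733.gaussJ (AlgebraicClosure ℚ) N) X)
    (hXb : helper6292.IsPoleDivisor (helper508.gaussResidue N ℓ hℓN A hA
      ⟨helper1733.gaussJ (AlgebraicClosure ℚ) N, helper1733.gaussJ_mem N ℓ hℓN A hA⟩) Xb) :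
    helper2023.ChartHyp (helper508.gaussValuationSubring N ℓ hℓN A hA)
      (helper508.gaussResidue N ℓ hℓN A hA) A (IsLocalRing.residue A)
      ⟨helper1733.gaussJ (AlgebraicClosure ℚ) N, helper1733.gaussJ_mem N ℓ hℓN A hA⟩ X Xb where
  A_le := fun a => (gauss_mem_iff N ℓ hℓN A hA (a : AlgebraicClosure ℚ)).mpr a.2
  O_le := fun a ha => (gauss_mem_iff N ℓ hℓN A hA a).mp ha
  red_const := fun a => helper1733.gaussResidue_algebraMap N ℓ hℓN A hA (a : AlgebraicClosure ℚ) _
  π_surj := IsLocalRing.residue_surjective
  E₀_eq := hX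
  E₀k_eq := hXb
  finL := fun f hf => by
    have := hasPrincipalDivisors_bar N ℓ hℓN A hA
    obtain ⟨D, hD, -⟩ := HasPrincipalDivisors.exists_divisor (K := AlgebraicClosure ℚ) f hf
    refine D.support.finite_toSet.subset fun P hP => ?_
    rw [Finset.mem_coe, Finsupp.mem_support_iff, hD P]
    exact hP

/-- **The instance bundle at the Gauss pair**: for ANY lattice bundle `H` of the Gauss pair of
`F̄_N` at `A` (the gate of record `helper3573.GateAt`), with `sp := H.placeRed`. -/
theorem isInstBundle_gauss {g c : ℤ}
    {E₀ : Divisor (AlgebraicClosure ℚ) (modularFunctionFieldBar N)}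
    {E₀k : Divisor (IsLocalRing.ResidueField A)
      (modularFunctionFieldFullC (IsLocalRing.ResidueField A) N)}
    (H : LatHyp (helper508.gaussValuationSubring N ℓ hℓN A hA)
      (helper508.gaussResidue N ℓ hℓN A hA) g c E₀ E₀k) :
    IsInstBundle A (helper508.gaussValuationSubring N ℓ hℓN A hA)
      (helper508.gaussResidue N ℓ hℓN A hA) H.placeRed g.toNat (max c (LatHyp.thr g c)) := by
  have := hasPrincipalDivisors_bar N ℓ hℓN A hA
  have := hasPrincipalDivisors_res N ℓ hℓN A hA
  exact isInstBundle_of_latHyp H A (gauss_mem_iff N ℓ hℓN A hA) (gauss_redConst N ℓ hℓN A hA)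
    (gauss_valueGroupConst N ℓ hℓN A hA) (helper508.gaussResidue_surjective N ℓ hℓN A hA)
    (gaussResidue_const_surj N ℓ hℓN A hA) (infinite_places_res N ℓ hℓN A hA)

end GaussInstance

end Fermat.Agent.S19.helper9075
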