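import Fermat.Agent.S19.helper2570_CAlgAbs
import Fermat.Agent.S19.helper5236_Boot
import Fermat.Agent.S19.helper9075_InstBundle
import Fermat.Agent.S19.helper3103_CAlgInst
import Fermat.Agent.S19.helper6256_CoverGauss
import Fermat.Agent.S19.helper6256_EdgeGlue
import Fermat.Agent.S19.helper1288_AdicCalculus
import Fermat.Agent.S17.helper3753_QPlaceFixed

set_option autoImplicit false
set_option synthInstance.maxHeartbeats 400000

/-!
# S19, main line C-alg: the cover side at the Gauss pair (helper6256)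

* `isAdaptedCover_of_system` : the fields of `helper6256.IsAdaptedCover` from the instance bundle
  (`helper9075.IsInstBundle`), the cover hypotheses (`helper1458.CoverHyp`) and an adapted system
  in the output shape of `helper5236.exists_adapted_system` (abstract lattice layer);
* `GaussRatAt M ℓ hℓM A hA` : (RAT) at the Gauss pair, the conclusion of `helper5236.gauss_hrat`
  for the inertia image `helper6256.inertiaImage A M`;
* `calgCoverAt_of_gate` : `GaussRatAt → helper3573.GateAt → helper6256.CAlgCoverAt ℓ M A`;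
* `stmt_CoreAt_of_rat` : `(∀ A hA, GaussRatAt M ℓ hℓM A hA) → helper3573.Stmt_CoreAt M ℓ hℓM`,
  through the abstract core `helper2570.stmt_CAlgAbs`.
-/

namespace Fermat.Agent.S19.helper6256

open AlgebraicCurve ModularCurve
open Fermat.Agent.S18 Fermat.Agent.S37 Fermat.Agent.S37.helper5413 Fermat.Agent.S37.helper126
open Fermat.Agent.S19.helper2111

section AbstractWire

variable {L F k Fk : Type} [Field L] [Field F] [Algebra L F] [Field k] [Field Fk] [Algebra k Fk]
variable {O : ValuationSubring F} {red : O →+* Fk} {c cR cC : ℤ}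
  {E₀ : Divisor L F} {E₀k : Divisor k Fk} {g : ℕ}

/-- **The adapted cover from an adapted system** (abstract lattice layer): the instance bundle,
the cover hypotheses, rank one, an inertia set preserving the residue discs, and `G`-fixed
places `R i` and functions `e i ∈ L(n • Q + R i)` over a non-special system give all the fields
of `IsAdaptedCover` for `sp := H.placeRed`, `Poo := Q`. -/
theorem isAdaptedCover_of_system [HasPrincipalDivisors L F] [HasPrincipalDivisors k Fk]
    (H : LatHyp O red (g : ℤ) c E₀ E₀k)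
    (A : ValuationSubring L) (I : helper9075.IsInstBundle A O red H.placeRed g cR)
    (hC : helper1458.CoverHyp A O red H.placeRed g cC)
    (π : L) (hπ : π ∈ A.nonunits) (hπ0 : π ≠ 0)
    (hrank : ∀ a ∈ A.nonunits, ∃ n : ℕ, ∃ w ∈ A, a ^ n = π * w)
    (Gam : Set (SemilinearAut L F))
    (hG : ∀ γ ∈ Gam, ∀ P, H.placeRed (γ • P) = H.placeRed P)
    (Q : Place L F) (R : Fin g → Place L F) (e : Fin g → F) (n : ℤ)
    (hinj : Function.Injective (fun i => H.placeRed (R i)))
    (hRQ : ∀ i, H.placeRed (R i) ≠ H.placeRed Q)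
    (hRfix : ∀ γ ∈ Gam, ∀ i, γ • R i = R i) (hefix : ∀ γ ∈ Gam, ∀ i, γ • e i = e i)
    (heO : ∀ i, e i ∈ O)
    (herr : ∀ i, e i ∈ riemannRochSpace
      (Finsupp.single Q n + Finsupp.single (R i) 1 : Divisor L F))
    (hered : ∀ i, (H.placeRed (R i)).ord (rd O red (e i)) = -1)
    (hns : ∀ w ∈ riemannRochSpace (∑ i, Finsupp.single (H.placeRed (R i)) (1 : ℤ)),
      ∃ a : k, w = algebraMap k Fk a)
    (hcen : ∀ P : Place L F, helper2007.HasFixedLift H.placeRed Gam (H.placeRed P)) :
    IsAdaptedCover A π Gam O red H.placeRed g R e Q := by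
  classical
  have hQR : ∀ i, H.placeRed Q ≠ H.placeRed (R i) := fun i h => hRQ i h.symm
  obtain ⟨-, -, -, -, -, hreg, hpole, -⟩ :=
    helper9477.sys_adapter_rr I.hker I.hcons R Q e n hinj hQR heO herr hered
  refine
    { hPD := I.hPD
      hdeg := I.hdeg
      hdeg1 := I.hdeg1
      hker := I.hker
      hconst := I.hconst
      hvg := I.hvg
      hcons := I.hcons
      hA := I.hA
      hπ := hπ
      hπ0 := hπ0
      hrank := hrank
      hinj := hinj
      hoo := hQR
      hNS := ?_
      hRR := I.hRR R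
      he_mem := heO
      he_reg := hreg
      he_pole := hpole
      he_red := hered
      hE := ?_
      hGam_sp := hG
      hGam_R := hRfix
      hGam_e := hefix
      hcen := hcen }
  · -- (NS) in the pointwise shape
    intro w _ hoff hon
    obtain ⟨a, ha⟩ := hns w (by
      rw [helper5413.mem_rr_iff]
      right
      intro s
      by_cases hs : ∃ i, s = H.placeRed (R i)
      · obtain ⟨i, rfl⟩ := hs
        rw [sum_single_apply_self (fun i => H.placeRed (R i)) hinj i]
        have := hon i
        omega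
      · push Not at hs
        rw [sum_single_apply_of_ne (fun i => H.placeRed (R i)) s (fun j h => hs j h.symm)]
        have := hoff s hs
        omega)
    exact ⟨a, ha.symm⟩
  · -- (E) from `helper1458.cover_E`
    intro f hf hfreg
    have he' : ∀ i, red (⟨e i, heO i⟩ : O) ∉
        riemannRochSpace (Finsupp.single (H.placeRed Q) n : Divisor k Fk) := by
      intro i hmem
      have h1 := hered i
      rw [rd_of_mem O red (heO i)] at h1
      rw [helper5413.mem_rr_iff] at hmem
      rcases hmem with h0 | hall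
      · rw [h0, Place.ord_zero] at h1
        omega
      · have h2 := hall (H.placeRed (R i))
        rw [Finsupp.single_apply, if_neg (hQR i)] at h2
        omega
    obtain ⟨b1, b2, a, hb1, hb1r, hb2, hb2r, ha, hsum⟩ :=
      helper1458.cover_E hC (Fintype.card_fin g) Q R hinj hRQ hns n
        (fun i => (⟨e i, heO i⟩ : O)) herr he' hf hfreg
    refine ⟨b1, b2, a, hb1, hb2, ha, hb1r, hb2r, ?_⟩
    rw [hsum]
    congr 1
    exact Finset.sum_congr rfl fun i _ => Algebra.smul_def _ _

end AbstractWire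

/-- **(RAT) at the Gauss pair**, consumer form: for every lattice bundle of the Gauss pair with a
natural-number genus and every inertia-fixed place `Q`, the elements of `L_k(sp_* E)` lift to
inertia-fixed Gauss-integral elements of `L(E)` for `E = n • Q` and `E = n • Q + R`, `R`
inertia-fixed, `n` large.  (The conclusion of `helper5236.gauss_hrat`.) -/
def GaussRatAt (M : ℕ) [NeZero M] (ℓ : ℕ) [Fact ℓ.Prime] (hℓM : ¬ ℓ ∣ M)
    (A : ValuationSubring Qb) (hA : A.LiesOverPrime ℓ) : Prop :=
  ∀ (g : ℕ) (c : ℤ) (E₀ : Divisor Qb (modularFunctionFieldBar M))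
    (E₀k : Divisor (IsLocalRing.ResidueField A)
      (modularFunctionFieldFullC (IsLocalRing.ResidueField A) M))
    (H : LatHyp (helper508.gaussValuationSubring M ℓ hℓM A hA)
      (helper508.gaussResidue M ℓ hℓM A hA) (g : ℤ) c E₀ E₀k)
    (Q : Place Qb (modularFunctionFieldBar M)), (∀ γ ∈ inertiaImage A M, γ • Q = Q) →
    ∀ n : ℤ, max c (LatHyp.thr (g : ℤ) c) ≤ n →
      helper5236.FixedLiftDiv H (inertiaImage A M) (Finsupp.single Q n) ∧
      ∀ R : Place Qb (modularFunctionFieldBar M), (∀ γ ∈ inertiaImage A M, γ • R = R) →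
        helper5236.FixedLiftDiv H (inertiaImage A M) (Finsupp.single Q n + Finsupp.single R 1)

/-- **The cover side at the Gauss pair**: (RAT) and the gate give an adapted cover at
`(M, A)`, with `Poo` the cusp `∞`. -/
theorem calgCoverAt_of_gate (M : ℕ) [NeZero M] (ℓ : ℕ) [Fact ℓ.Prime] (hℓM : ¬ ℓ ∣ M)
    (A : ValuationSubring Qb) (hA : A.LiesOverPrime ℓ)
    (hrat : GaussRatAt M ℓ hℓM A hA) (hgate : helper3573.GateAt M ℓ hℓM A hA) :
    CAlgCoverAt ℓ M A := by
  obtain ⟨g, c, E₀, E₀k, H⟩ := gateAt_nat M ℓ hℓM A hA hgate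
  have I0 := helper9075.isInstBundle_gauss M ℓ hℓM A hA H
  rw [Int.toNat_natCast] at I0
  have hPD := I0.hPD
  have hPDk := I0.hPDk
  have hC := coverHyp_gauss M ℓ hℓM A hA H
  have hQ : ∀ γ ∈ inertiaImage A M,
      γ • Fermat.Agent.S29.helper36.qPlaceL Qb M = Fermat.Agent.S29.helper36.qPlaceL Qb M := by
    rintro _ ⟨σ, -, rfl⟩
    exact Fermat.Agent.S17.helper3753.arithmeticGalois_smul_qPlaceL Qb M σ
  have hG : ∀ γ ∈ inertiaImage A M, ∀ P, H.placeRed (γ • P) = H.placeRed P := by
    rintro _ ⟨σ, hσ, rfl⟩ P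
    exact helper3103.placeRed_smul_of_mem_inertia M ℓ hℓM A hA H hσ P
  obtain ⟨R, e, n, hinj, hRQ, hRfix, hefix, heO, herr, hered, hns, hcen⟩ :=
    helper5236.exists_adapted_system H I0.hsurj I0.hinf hG
      (Fermat.Agent.S29.helper36.qPlaceL Qb M) hQ (max c (LatHyp.thr (g : ℤ) c))
      (hrat g c E₀ E₀k H (Fermat.Agent.S29.helper36.qPlaceL Qb M) hQ)
  have hQalg : Algebra.IsAlgebraic ℚ Qb := AlgebraicClosure.isAlgebraic ℚ
  exact ⟨_, _, _, _, _, _, _, H.placeRed, g, R, e, _,
    isAdaptedCover_of_system H A I0 hC (ℓ : Qb) hA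
      (Nat.cast_ne_zero.mpr (Fact.out : ℓ.Prime).ne_zero)
      (fun a ha => helper1288.exists_pow_eq_mul_of_mem_nonunits A Fact.out hA ha)
      (inertiaImage A M) hG _ R e n hinj hRQ hRfix hefix heO herr hered hns hcen⟩

/-- **The core from (RAT) at the Gauss pair**: `helper3573.Stmt_CoreAt` through the abstract
core `helper2570.stmt_CAlgAbs`. -/
theorem stmt_CoreAt_of_rat (M : ℕ) [NeZero M] (ℓ : ℕ) [Fact ℓ.Prime] (hℓM : ¬ ℓ ∣ M)
    (hrat : ∀ (A : ValuationSubring Qb) (hA : A.LiesOverPrime ℓ), GaussRatAt M ℓ hℓM A hA) :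
    helper3573.Stmt_CoreAt M ℓ hℓM :=
  fun A hA hgate =>
    helper2570.isCoordSystem_of_cover (calgCoverAt_of_gate M ℓ hℓM A hA (hrat A hA) hgate)

end Fermat.Agent.S19.helper6256
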