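import Mathlib
import Fermat.Prelude.Def_AlgebraicCurve_DivisorClassGroup
import Fermat.Agent.S37.helper126_TorsionCore
import Fermat.Agent.S19.helper2007_Discs

/-!
# S19-CALG-T1 : tube lemmas from the conservation law

Setting: the abstract valued function field of `Fermat.Agent.S37.helper126` (section `Core` of
`helper126_TorsionCore`): a function field `F / K`, a valuation subring `O` of `F` (the Gauss
valuation), a reduction map `red : O →+* Fk` to a function field `Fk / k`, and a map
`sp : Place K F → Place k Fk` satisfying the conservation law `sp (div y) = div (red y)`.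
The *tube* of a place `s` of `Fk` is the fibre `sp ⁻¹ {s}`.

`IsOneUnit O f` means `f - 1 ∈ O.nonunits` (a principal unit of the Gauss valuation).

* (T1a) `value_sub_mem_nonunits`, `IsOneUnit.value`, `value_mem_nonunits`,
  `value_div_const_mem`, `valuation_value_le` : values on a tube of a function which is regular
  on that tube are controlled by the Gauss valuation (maximum principle on a tube); the value
  of a principal unit is a principal unit of the constants.
* (T1b) `IsOneUnit.mapDomain_eq_zero` : the divisor of a principal unit has degree `0` in every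
  tube; `IsOneUnit.ord_eq_zero_of_regular`, `IsOneUnit.ord_eq_zero_of_inv_regular`,
  `IsOneUnit.exists_pole_of_zero`, `IsOneUnit.exists_zero_of_pole`,
  `IsOneUnit.exists_unique_zero` : no pole in a tube implies no zero in that tube, and so on.
* (T1c) `exists_const_mul_isOneUnit` : a function whose divisor has degree `0` in every tube is
  a constant times a principal unit.
* (T1d) `exists_splitting`, `exists_splitting_normalised` : a principal unit `V` whose divisor,
  cut down to the tubes over a set `S`, is principal, is a product `w₁ * w₂` of principal units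
  with `w₂` carrying the part of `div V` inside the tubes over `S` and `w₁` the part outside,
  and `w₂` may be normalised to have value `1` at a given place outside these tubes.
  Divisor forms with `tubePart sp S D` (the part of `D` inside the tubes over `S`):
  `exists_splitting_of_isPrincipal`, `exists_splitting_of_isPrincipal_normalised`,
  `IsOneUnit.degree_tubePart`, `IsOneUnit.tubePart_eq_zero_of_regular`,
  `IsOneUnit.tubePart_eq_self_of_regular`.
* (T1e) `mem_nonunits_of_disjoint_poles` : two Gauss-integral functions with poles in disjoint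
  sets of tubes and Gauss-small sum, one of them vanishing at a place, are Gauss-small.
* (T1f) `sub_one_div_mem_of_mul` : uniqueness of the splitting modulo a constant `π`.
* (T1g) `add_sub_mem_nonunits_of_mul`, `exists_rd_eq_add_of_mul` : the first-order term of a
  product `w₁ * w₂` of principal units with poles in disjoint sets of tubes decomposes on the
  special fibre as `g₁ + g₂` with poles in the corresponding disjoint sets.
-/

set_option autoImplicit false

namespace Fermat.Agent.S19.helper64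

open AlgebraicCurve Fermat.Agent.S37.helper126 Fermat.Agent.S19.helper2007

section OneUnit

variable {F : Type*} [Field F]

/-- `f` is a principal unit of the valuation subring `O`: `f ≡ 1` modulo the maximal ideal. -/
def IsOneUnit (O : ValuationSubring F) (f : F) : Prop := f - 1 ∈ O.nonunits

theorem isOneUnit_iff {O : ValuationSubring F} {f : F} :
    IsOneUnit O f ↔ f - 1 ∈ O.nonunits := Iff.rfl

namespace IsOneUnit

variable {O : ValuationSubring F} {f g : F}

theorem mem (hf : IsOneUnit O f) : f ∈ O := by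
  have h := add_mem (mem_of_mem_nonunits O hf) (one_mem O)
  rwa [sub_add_cancel] at h

theorem notMem_nonunits (hf : IsOneUnit O f) : f ∉ O.nonunits := by
  intro h
  have h1 := sub_mem_nonunits O h hf
  rw [sub_sub_cancel] at h1
  exact one_notMem_nonunits O h1

theorem ne_zero (hf : IsOneUnit O f) : f ≠ 0 := by
  rintro rfl
  exact hf.notMem_nonunits (zero_mem_nonunits' O)

theorem inv_mem (hf : IsOneUnit O f) : f⁻¹ ∈ O :=
  inv_mem_of_notMem_nonunits O hf.mem hf.notMem_nonunits

protected theorem one : IsOneUnit O (1 : F) := by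
  unfold IsOneUnit
  rw [sub_self]
  exact zero_mem_nonunits' O

theorem one_add {x : F} (hx : x ∈ O.nonunits) : IsOneUnit O (1 + x) := by
  unfold IsOneUnit
  rwa [add_sub_cancel_left]

theorem add_nonunit (hf : IsOneUnit O f) {x : F} (hx : x ∈ O.nonunits) : IsOneUnit O (f + x) := by
  unfold IsOneUnit
  have e : f + x - 1 = (f - 1) + x := by ring
  rw [e]
  exact add_mem_nonunits O hf hx

theorem sub_mem_nonunits' (hf : IsOneUnit O f) (hg : IsOneUnit O g) : f - g ∈ O.nonunits := by
  have e : f - g = (f - 1) - (g - 1) := by ring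
  rw [e]
  exact sub_mem_nonunits O hf hg

theorem of_sub_mem_nonunits (hf : IsOneUnit O f) (h : g - f ∈ O.nonunits) : IsOneUnit O g := by
  unfold IsOneUnit
  have e : g - 1 = (g - f) + (f - 1) := by ring
  rw [e]
  exact add_mem_nonunits O h hf

protected theorem mul (hf : IsOneUnit O f) (hg : IsOneUnit O g) : IsOneUnit O (f * g) := by
  unfold IsOneUnit
  have e : f * g - 1 = (f - 1) * g + (g - 1) := by ring
  rw [e]
  exact add_mem_nonunits O (mul_mem_nonunits_of_mem O hf hg.mem) hg

protected theorem inv (hf : IsOneUnit O f) : IsOneUnit O f⁻¹ := by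
  unfold IsOneUnit
  have hf0 := hf.ne_zero
  have e : f⁻¹ - 1 = -((f - 1) * f⁻¹) := by
    field_simp
    ring
  rw [e]
  exact neg_mem_nonunits O (mul_mem_nonunits_of_mem O hf hf.inv_mem)

protected theorem div (hf : IsOneUnit O f) (hg : IsOneUnit O g) : IsOneUnit O (f / g) := by
  rw [div_eq_mul_inv]
  exact hf.mul hg.inv

protected theorem pow (hf : IsOneUnit O f) (n : ℕ) : IsOneUnit O (f ^ n) := by
  induction n with
  | zero => rw [pow_zero]; exact IsOneUnit.one
  | succ n ih => rw [pow_succ]; exact ih.mul hf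

protected theorem prod {ι : Type*} (T : Finset ι) (f : ι → F)
    (h : ∀ i ∈ T, IsOneUnit O (f i)) : IsOneUnit O (∏ i ∈ T, f i) := by
  classical
  induction T using Finset.induction_on with
  | empty => rw [Finset.prod_empty]; exact IsOneUnit.one
  | insert i T hi ih =>
    rw [Finset.prod_insert hi]
    exact (h i (Finset.mem_insert_self i T)).mul
      (ih fun j hj => h j (Finset.mem_insert_of_mem hj))

/-- `1 + x * e` is a principal unit when `x` is small and `e` is integral. -/
theorem one_add_mul {x e : F} (hx : x ∈ O.nonunits) (he : e ∈ O) : IsOneUnit O (1 + x * e) :=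
  one_add (mul_mem_nonunits_of_mem O hx he)

end IsOneUnit

end OneUnit

section MapDomain

variable {α β : Type*} (sp : α → β)

/-- The push-forward of `E` vanishes at `s` if `E` vanishes on the fibre over `s`. -/
theorem mapDomain_apply_eq_zero (E : α →₀ ℤ) (s : β) (h : ∀ P, sp P = s → E P = 0) :
    Finsupp.mapDomain sp E s = 0 := by
  classical
  rw [mapDomain_apply_eq_sum]
  refine Finset.sum_eq_zero fun P _ => ?_
  split_ifs with hP
  · exact h P hP
  · rfl

/-- The value at `s` of the push-forward only depends on the restriction to the fibre over `s`. -/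
theorem mapDomain_apply_congr (D D' : α →₀ ℤ) (s : β) (h : ∀ P, sp P = s → D P = D' P) :
    Finsupp.mapDomain sp D s = Finsupp.mapDomain sp D' s := by
  have h0 := mapDomain_apply_eq_zero sp (D - D') s fun P hP => by
    rw [Finsupp.sub_apply, h P hP, sub_self]
  have e : Finsupp.mapDomain sp (D - D') = Finsupp.mapDomain sp D - Finsupp.mapDomain sp D' :=
    map_sub (Finsupp.mapDomain.addMonoidHom sp) D D'
  rw [e, Finsupp.sub_apply, sub_eq_zero] at h0
  exact h0

/-- A divisor which is `≤ 0` on the fibre over `s` and has degree `0` there vanishes there. -/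
theorem eq_zero_of_mapDomain_apply_eq_zero (D : α →₀ ℤ) (s : β)
    (hnn : ∀ P, sp P = s → 0 ≤ D P) (h0 : Finsupp.mapDomain sp D s = 0) (P : α) (hP : sp P = s) :
    D P = 0 := by
  have h1 := le_mapDomain_apply sp D s hnn P hP
  have h2 := hnn P hP
  omega

end MapDomain

section TubePart

variable {α β : Type*} (sp : α → β)

open Classical in
/-- The part of the divisor `D` inside the tubes (fibres of `sp`) over the set `S`. -/
noncomputable def tubePart (S : Set β) (D : α →₀ ℤ) : α →₀ ℤ := D.filter fun P => sp P ∈ S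

theorem tubePart_apply_of_mem {S : Set β} (D : α →₀ ℤ) {P : α} (h : sp P ∈ S) :
    tubePart sp S D P = D P := by
  classical
  exact Finsupp.filter_apply_pos _ D h

theorem tubePart_apply_of_notMem {S : Set β} (D : α →₀ ℤ) {P : α} (h : sp P ∉ S) :
    tubePart sp S D P = 0 := by
  classical
  exact Finsupp.filter_apply_neg _ D h

@[simp]
theorem tubePart_zero (S : Set β) : tubePart sp S (0 : α →₀ ℤ) = 0 := by
  classical
  exact Finsupp.filter_zero _

theorem tubePart_add (S : Set β) (D E : α →₀ ℤ) :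
    tubePart sp S (D + E) = tubePart sp S D + tubePart sp S E := by
  classical
  exact Finsupp.filter_add

theorem tubePart_neg (S : Set β) (D : α →₀ ℤ) : tubePart sp S (-D) = -tubePart sp S D := by
  classical
  exact Finsupp.filter_neg _ D

theorem tubePart_sub (S : Set β) (D E : α →₀ ℤ) :
    tubePart sp S (D - E) = tubePart sp S D - tubePart sp S E := by
  classical
  exact Finsupp.filter_sub _ D E

/-- A divisor is the sum of its parts inside and outside the tubes over `S`. -/
theorem tubePart_add_compl (S : Set β) (D : α →₀ ℤ) :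
    tubePart sp S D + tubePart sp Sᶜ D = D := by
  ext P
  rw [Finsupp.add_apply]
  by_cases h : sp P ∈ S
  · rw [tubePart_apply_of_mem sp D h,
      tubePart_apply_of_notMem sp D (S := Sᶜ) (fun h' => h' h), add_zero]
  · rw [tubePart_apply_of_notMem sp D h, tubePart_apply_of_mem sp D (S := Sᶜ) h, zero_add]

theorem tubePart_eq_self {S : Set β} {D : α →₀ ℤ} (h : ∀ P, sp P ∉ S → D P = 0) :
    tubePart sp S D = D := by
  ext P
  by_cases hP : sp P ∈ S
  · rw [tubePart_apply_of_mem sp D hP]
  · rw [tubePart_apply_of_notMem sp D hP, h P hP]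

theorem tubePart_eq_zero {S : Set β} {D : α →₀ ℤ} (h : ∀ P, sp P ∈ S → D P = 0) :
    tubePart sp S D = 0 := by
  ext P
  by_cases hP : sp P ∈ S
  · rw [tubePart_apply_of_mem sp D hP, h P hP, Finsupp.zero_apply]
  · rw [tubePart_apply_of_notMem sp D hP, Finsupp.zero_apply]

theorem tubePart_tubePart (S T : Set β) (D : α →₀ ℤ) :
    tubePart sp S (tubePart sp T D) = tubePart sp (S ∩ T) D := by
  ext P
  by_cases hS : sp P ∈ S
  · rw [tubePart_apply_of_mem sp _ hS]
    by_cases hT : sp P ∈ T
    · rw [tubePart_apply_of_mem sp D hT, tubePart_apply_of_mem sp D (S := S ∩ T) ⟨hS, hT⟩]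
    · rw [tubePart_apply_of_notMem sp D hT,
        tubePart_apply_of_notMem sp D (S := S ∩ T) fun h => hT h.2]
  · rw [tubePart_apply_of_notMem sp _ hS,
      tubePart_apply_of_notMem sp D (S := S ∩ T) fun h => hS h.1]

/-- Degree in the tube of `s ∈ S` of the part inside the tubes over `S`. -/
theorem mapDomain_tubePart_of_mem {S : Set β} (D : α →₀ ℤ) {s : β} (hs : s ∈ S) :
    Finsupp.mapDomain sp (tubePart sp S D) s = Finsupp.mapDomain sp D s :=
  mapDomain_apply_congr sp _ _ s fun _ hP => tubePart_apply_of_mem sp D (hP ▸ hs)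

/-- Degree in the tube of `s ∉ S` of the part inside the tubes over `S`. -/
theorem mapDomain_tubePart_of_notMem {S : Set β} (D : α →₀ ℤ) {s : β} (hs : s ∉ S) :
    Finsupp.mapDomain sp (tubePart sp S D) s = 0 :=
  mapDomain_apply_eq_zero sp _ s fun _ hP => tubePart_apply_of_notMem sp D (hP ▸ hs)

/-- If `D` has degree `0` in every tube, so has its part over `S`. -/
theorem mapDomain_tubePart_eq_zero (S : Set β) {D : α →₀ ℤ}
    (h : ∀ s, Finsupp.mapDomain sp D s = 0) (s : β) :
    Finsupp.mapDomain sp (tubePart sp S D) s = 0 := by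
  by_cases hs : s ∈ S
  · rw [mapDomain_tubePart_of_mem sp D hs, h s]
  · exact mapDomain_tubePart_of_notMem sp D hs

end TubePart

section Tubes

variable {K F k Fk : Type*} [Field K] [Field F] [Algebra K F] [Field k] [Field Fk] [Algebra k Fk]
variable {O : ValuationSubring F} {red : O →+* Fk} {sp : Place K F → Place k Fk}

/-- The reduction of a principal unit is `1`. -/
theorem IsOneUnit.rd_eq_one (hker : RedKer O red) {f : F} (hf : IsOneUnit O f) :
    rd O red f = 1 := by
  have h1 : rd O red (f - 1) = 0 := (rd_eq_zero_iff hker (mem_of_mem_nonunits O hf)).mpr hf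
  rw [rd_sub O red hf.mem (one_mem O), rd_one, sub_eq_zero] at h1
  exact h1

theorem IsOneUnit.of_rd_eq_one (hker : RedKer O red) {f : F} (hfO : f ∈ O)
    (h : rd O red f = 1) : IsOneUnit O f := by
  unfold IsOneUnit
  rw [← rd_eq_zero_iff hker (sub_mem hfO (one_mem O)), rd_sub O red hfO (one_mem O), rd_one, h,
    sub_self]

theorem isOneUnit_iff_rd (hker : RedKer O red) {f : F} :
    IsOneUnit O f ↔ f ∈ O ∧ rd O red f = 1 :=
  ⟨fun h => ⟨h.mem, h.rd_eq_one hker⟩, fun h => IsOneUnit.of_rd_eq_one hker h.1 h.2⟩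

variable (k Fk) in
/-- Functions on the special fibre without zeros and poles are constants. -/
def UnitsConst : Prop :=
  ∀ g : Fk, g ≠ 0 → (∀ s : Place k Fk, s.ord g = 0) → g ∈ Set.range (algebraMap k Fk)

variable (k Fk) in
/-- Everywhere regular functions on the special fibre are constants. -/
def RegularConst : Prop :=
  ∀ g : Fk, (∀ s : Place k Fk, g ∈ s.toValuationSubring) → g ∈ Set.range (algebraMap k Fk)

theorem RegularConst.unitsConst (h : RegularConst k Fk) : UnitsConst k Fk :=
  fun g _ hg => h g fun s => mem_of_ord_nonneg s (by rw [hg s])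

/-- `UnitsConst` from a non-special family in the shape used by `helper126.exists_canonical`. -/
theorem unitsConst_of_nonspecial {ι : Type*} (S : ι → Place k Fk)
    (hNS : ∀ w : Fk, w ≠ 0 → (∀ s, (∀ i, s ≠ S i) → 0 ≤ s.ord w) →
      (∀ i, -1 ≤ (S i).ord w) → w ∈ Set.range (algebraMap k Fk)) : UnitsConst k Fk :=
  fun g hg0 hg => hNS g hg0 (fun s _ => by rw [hg s]) fun i => by rw [hg (S i)]; norm_num

/-- `RegularConst` from a non-special family in the shape used by
`helper126.exists_canonical`. -/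
theorem regularConst_of_nonspecial {ι : Type*} (S : ι → Place k Fk)
    (hNS : ∀ w : Fk, w ≠ 0 → (∀ s, (∀ i, s ≠ S i) → 0 ≤ s.ord w) →
      (∀ i, -1 ≤ (S i).ord w) → w ∈ Set.range (algebraMap k Fk)) : RegularConst k Fk := by
  intro g hg
  rcases eq_or_ne g 0 with rfl | hg0
  · exact ⟨0, map_zero _⟩
  · exact hNS g hg0 (fun s _ => ord_nonneg_of_mem s (hg s)) fun i =>
      le_trans (by norm_num) (ord_nonneg_of_mem (S i) (hg (S i)))

variable (K k O red) in
/-- Every constant of the special fibre is the reduction of an integral constant. -/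
def ConstLift : Prop :=
  ∀ κ : k, ∃ (a : K) (ha : algebraMap K F a ∈ O),
    red ⟨algebraMap K F a, ha⟩ = algebraMap k Fk κ

/-! ### (T1b) principal units have degree zero in every tube -/

/-- (T1b) The divisor of a principal unit has degree `0` in every tube. -/
theorem IsOneUnit.mapDomain_eq_zero (hker : RedKer O red) (hcons : Conservation O red sp)
    {f : F} (hf : IsOneUnit O f) (D : Divisor K F) (hD : ∀ P, D P = P.ord f)
    (s : Place k Fk) : Finsupp.mapDomain sp D s = 0 := by
  have h1 : red ⟨f, hf.mem⟩ = 1 := by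
    rw [← rd_of_mem O red hf.mem]
    exact hf.rd_eq_one hker
  have h := hcons ⟨f, hf.mem⟩ (by rw [h1]; exact one_ne_zero) D hD s
  rw [h, h1, Place.ord_one]

variable [HasPrincipalDivisors K F]

/-- (T1b) A principal unit without poles in the tube of `s` has no zeros in that tube. -/
theorem IsOneUnit.ord_eq_zero_of_regular (hker : RedKer O red) (hcons : Conservation O red sp)
    {f : F} (hf : IsOneUnit O f) {s : Place k Fk}
    (hreg : ∀ P, sp P = s → f ∈ P.toValuationSubring) {P : Place K F} (hP : sp P = s) :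
    P.ord f = 0 := by
  obtain ⟨D, hD, -⟩ := HasPrincipalDivisors.exists_divisor (K := K) f hf.ne_zero
  have h0 := hf.mapDomain_eq_zero hker hcons D hD s
  have hnn : ∀ P', sp P' = s → 0 ≤ D P' := fun P' hP' => by
    rw [hD P']
    exact ord_nonneg_of_mem P' (hreg P' hP')
  rw [← hD P]
  exact eq_zero_of_mapDomain_apply_eq_zero sp D s hnn h0 P hP

/-- (T1b) A principal unit without zeros in the tube of `s` has no poles in that tube. -/
theorem IsOneUnit.ord_eq_zero_of_inv_regular (hker : RedKer O red)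
    (hcons : Conservation O red sp) {f : F} (hf : IsOneUnit O f) {s : Place k Fk}
    (hreg : ∀ P, sp P = s → f⁻¹ ∈ P.toValuationSubring) {P : Place K F} (hP : sp P = s) :
    P.ord f = 0 := by
  have h := hf.inv.ord_eq_zero_of_regular hker hcons hreg hP
  rw [P.ord_inv] at h
  omega

/-- (T1b) A principal unit with a zero in the tube of `s` has a pole in that tube. -/
theorem IsOneUnit.exists_pole_of_zero (hker : RedKer O red) (hcons : Conservation O red sp)
    {f : F} (hf : IsOneUnit O f) {s : Place k Fk} (hz : ∃ P, sp P = s ∧ 0 < P.ord f) :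
    ∃ P, sp P = s ∧ P.ord f < 0 := by
  by_contra hno
  push Not at hno
  obtain ⟨P, hP, hpos⟩ := hz
  have h := hf.ord_eq_zero_of_regular hker hcons
    (fun P' hP' => mem_of_ord_nonneg P' (hno P' hP')) hP
  omega

/-- (T1b) A principal unit with a pole in the tube of `s` has a zero in that tube. -/
theorem IsOneUnit.exists_zero_of_pole (hker : RedKer O red) (hcons : Conservation O red sp)
    {f : F} (hf : IsOneUnit O f) {s : Place k Fk} (hz : ∃ P, sp P = s ∧ P.ord f < 0) :
    ∃ P, sp P = s ∧ 0 < P.ord f := by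
  obtain ⟨P, hP, hneg⟩ := hz
  obtain ⟨Q, hQ, hQneg⟩ := hf.inv.exists_pole_of_zero hker hcons
    ⟨P, hP, by rw [P.ord_inv]; omega⟩
  exact ⟨Q, hQ, by rw [Q.ord_inv] at hQneg; omega⟩

theorem IsOneUnit.exists_zero_iff_exists_pole (hker : RedKer O red)
    (hcons : Conservation O red sp) {f : F} (hf : IsOneUnit O f) (s : Place k Fk) :
    (∃ P, sp P = s ∧ 0 < P.ord f) ↔ ∃ P, sp P = s ∧ P.ord f < 0 :=
  ⟨hf.exists_pole_of_zero hker hcons, hf.exists_zero_of_pole hker hcons⟩

/-- (T1b) A principal unit whose only pole in the tube of `s` is a simple pole at `P₀` has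
exactly one zero in that tube, and it is simple. -/
theorem IsOneUnit.exists_unique_zero (hker : RedKer O red) (hcons : Conservation O red sp)
    {f : F} (hf : IsOneUnit O f) {s : Place k Fk} {P₀ : Place K F} (hP₀ : sp P₀ = s)
    (hpole : P₀.ord f = -1)
    (hreg : ∀ P, sp P = s → P ≠ P₀ → f ∈ P.toValuationSubring) :
    ∃ Q, sp Q = s ∧ Q ≠ P₀ ∧ Q.ord f = 1 ∧
      ∀ P, sp P = s → P ≠ P₀ → P ≠ Q → P.ord f = 0 := by
  classical
  obtain ⟨D, hD, -⟩ := HasPrincipalDivisors.exists_divisor (K := K) f hf.ne_zero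
  have h0 := hf.mapDomain_eq_zero hker hcons D hD s
  set D' : Divisor K F := D + Finsupp.single P₀ 1 with hD'
  have hD'P₀ : D' P₀ = 0 := by
    rw [hD', Finsupp.add_apply, Finsupp.single_eq_same, hD P₀, hpole]
    norm_num
  have hD'ne : ∀ P, P ≠ P₀ → D' P = P.ord f := fun P hP => by
    rw [hD', Finsupp.add_apply, Finsupp.single_apply, if_neg (Ne.symm hP), add_zero, hD P]
  have hnn : ∀ P, sp P = s → 0 ≤ D' P := fun P hP => by
    by_cases h : P = P₀
    · rw [h, hD'P₀]
    · rw [hD'ne P h]
      exact ord_nonneg_of_mem P (hreg P hP h)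
  have hmap : Finsupp.mapDomain sp D' s = 1 := by
    rw [hD', Finsupp.mapDomain_add, Finsupp.add_apply, h0, Finsupp.mapDomain_single, hP₀,
      Finsupp.single_eq_same, zero_add]
  obtain ⟨Q, hQ, hQpos⟩ := exists_pos_of_mapDomain_apply_pos sp D' s (by rw [hmap]; norm_num)
  have hQne : Q ≠ P₀ := by
    rintro rfl
    rw [hD'P₀] at hQpos
    exact lt_irrefl _ hQpos
  have hQle := le_mapDomain_apply sp D' s hnn Q hQ
  rw [hmap] at hQle
  refine ⟨Q, hQ, hQne, ?_, fun P hP hPne hPQ => ?_⟩
  · rw [← hD'ne Q hQne]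
    omega
  · have h3 := add_le_mapDomain_apply sp D' s hnn Q P hQ hP (Ne.symm hPQ)
    have h4 := hnn P hP
    rw [hmap] at h3
    rw [← hD'ne P hPne]
    omega

/-! ### (T1a) values on a tube -/

/-- (T1a) If the reduction of `h` (Gauss-integral, regular on the tube of `s`) is the constant
`red c`, then every value of `h` on the tube is congruent to `c` modulo the maximal ideal. -/
theorem value_sub_mem_nonunits (hker : RedKer O red) (hconst : RedConst K k O red)
    (hcons : Conservation O red sp) {s : Place k Fk} {h : F} (hh : h ∈ discRing O sp s)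
    {P : Place K F} (hP : sp P = s) {b : K} (hb : IsValue P h b) {c : K}
    (hc : algebraMap K F c ∈ O) (hred : rd O red h = rd O red (algebraMap K F c)) :
    algebraMap K F b - algebraMap K F c ∈ O.nonunits := by
  obtain ⟨hbO, hval⟩ := eval_rd hker hcons hh.1 s hh.2 P hP b hb
  rw [hred, ← rd_sub O red hc hbO, ← map_sub] at hval
  have hcb : algebraMap K F (c - b) ∈ O := by
    rw [map_sub]
    exact sub_mem hc hbO
  obtain ⟨κ, hκ⟩ := rd_const hconst (c - b) hcb
  rw [hκ] at hval
  have hκ0 := const_eq_zero_of_mem_nonunits s κ hval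
  rw [hκ0, map_zero] at hκ
  have h1 := (rd_eq_zero_iff hker hcb).mp hκ
  have e : algebraMap K F b - algebraMap K F c = -(algebraMap K F (c - b)) := by
    rw [map_sub]
    ring
  rw [e]
  exact neg_mem_nonunits O h1

/-- (T1a) The value on a tube of a principal unit which is regular on that tube is a
principal unit of the constants. -/
theorem IsOneUnit.value (hker : RedKer O red) (hconst : RedConst K k O red)
    (hcons : Conservation O red sp) {w : F} (hw : IsOneUnit O w) {s : Place k Fk}
    (hreg : ∀ P, sp P = s → w ∈ P.toValuationSubring) {P : Place K F} (hP : sp P = s) {a : K}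
    (ha : IsValue P w a) : IsOneUnit O (algebraMap K F a) := by
  have h := value_sub_mem_nonunits hker hconst hcons (h := w) ⟨hw.mem, hreg⟩ hP ha
    (c := 1) (by rw [map_one]; exact one_mem O) (by rw [map_one, hw.rd_eq_one hker, rd_one])
  rw [map_one] at h
  exact h

/-- (T1a) A Gauss-small function which is regular on the tube of `s` has small values there. -/
theorem value_mem_nonunits (hker : RedKer O red) (hconst : RedConst K k O red)
    (hcons : Conservation O red sp) {s : Place k Fk} {h : F} (hh : h ∈ O.nonunits)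
    (hreg : ∀ P, sp P = s → h ∈ P.toValuationSubring) {P : Place K F} (hP : sp P = s) {b : K}
    (hb : IsValue P h b) : algebraMap K F b ∈ O.nonunits := by
  have hhO := mem_of_mem_nonunits O hh
  have h1 := value_sub_mem_nonunits hker hconst hcons (h := h) ⟨hhO, hreg⟩ hP hb
    (c := 0) (by rw [map_zero]; exact zero_mem O)
    (by rw [map_zero, rd_zero]; exact (rd_eq_zero_iff hker hhO).mpr hh)
  rwa [map_zero, sub_zero] at h1

/-- (T1a) Maximum principle on a tube, constant form: if `h / π` is Gauss-integral for a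
constant `π` and `h` is regular on the tube of `s`, then `h(P) / π` is integral for every `P`
in the tube. -/
theorem value_div_const_mem (hker : RedKer O red) (hcons : Conservation O red sp)
    {s : Place k Fk} {h : F} (hreg : ∀ P, sp P = s → h ∈ P.toValuationSubring)
    {P : Place K F} (hP : sp P = s) {b : K} (hb : IsValue P h b) (π : K)
    (hh : h * (algebraMap K F π)⁻¹ ∈ O) : algebraMap K F b * (algebraMap K F π)⁻¹ ∈ O := by
  have hπP : ∀ P' : Place K F, (algebraMap K F π)⁻¹ ∈ P'.toValuationSubring := fun P' => by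
    rw [← map_inv₀]
    exact P'.algebraMap_mem' π⁻¹
  have hval : h * (algebraMap K F π)⁻¹ - algebraMap K F (b * π⁻¹)
      ∈ P.toValuationSubring.nonunits := by
    have e : h * (algebraMap K F π)⁻¹ - algebraMap K F (b * π⁻¹)
        = (h - algebraMap K F b) * (algebraMap K F π)⁻¹ := by
      rw [map_mul, map_inv₀]
      ring
    rw [e]
    exact mul_mem_nonunits_of_mem _ hb (hπP P)
  have h1 := (eval_rd hker hcons hh s (fun P' hP' => mul_mem (hreg P' hP') (hπP P')) P hP
    (b * π⁻¹) hval).1
  rwa [map_mul, map_inv₀] at h1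

/-- (T1a) Maximum principle on a tube: the values on the tube of `s` of a function which is
regular on that tube are bounded by its Gauss valuation. -/
theorem valuation_value_le (hker : RedKer O red) (hvg : ValueGroupConst K O)
    (hcons : Conservation O red sp) {s : Place k Fk} {h : F}
    (hreg : ∀ P, sp P = s → h ∈ P.toValuationSubring) {P : Place K F} (hP : sp P = s) {b : K}
    (hb : IsValue P h b) : O.valuation (algebraMap K F b) ≤ O.valuation h := by
  rcases eq_or_ne h 0 with rfl | hh0
  · have hb0 : b = 0 := by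
      by_contra hne
      have h1 : algebraMap K F b ∈ P.toValuationSubring.nonunits := by
        have h2 : (0 : F) - algebraMap K F b ∈ P.toValuationSubring.nonunits := hb
        rw [zero_sub] at h2
        have h3 := neg_mem_nonunits _ h2
        rwa [neg_neg] at h3
      have hb0' : algebraMap K F b ≠ 0 := by simpa using hne
      refine notMem_nonunits_of_inv_mem P.toValuationSubring hb0' ?_ h1
      rw [← map_inv₀]
      exact P.algebraMap_mem' b⁻¹
    rw [hb0, map_zero]
  · obtain ⟨c, hc0, huO, huinvO⟩ := hvg h hh0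
    have hc0' : algebraMap K F c ≠ 0 := by simpa using hc0
    have h1 := value_div_const_mem hker hcons hreg hP hb c huO
    have h2 : O.valuation (algebraMap K F b * (algebraMap K F c)⁻¹) ≤ 1 :=
      (O.valuation_le_one_iff _).mpr h1
    have h3 : O.valuation ((h * (algebraMap K F c)⁻¹)⁻¹) ≤ 1 :=
      (O.valuation_le_one_iff _).mpr huinvO
    have hvc : O.valuation (algebraMap K F c) ≠ 0 := (Valuation.ne_zero_iff _).mpr hc0'
    have hvc' : 0 < O.valuation (algebraMap K F c) := zero_lt_iff.mpr hvc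
    have hvh : O.valuation h ≠ 0 := (Valuation.ne_zero_iff _).mpr hh0
    have hvh' : 0 < O.valuation h := zero_lt_iff.mpr hvh
    rw [map_mul, map_inv₀] at h2
    rw [map_inv₀, map_mul, map_inv₀, mul_inv, inv_inv] at h3
    have h4 : O.valuation (algebraMap K F b) ≤ O.valuation (algebraMap K F c) := by
      have := mul_le_mul_left h2 (O.valuation (algebraMap K F c))
      rwa [one_mul, inv_mul_cancel_right₀ hvc] at this
    have h5 : O.valuation (algebraMap K F c) ≤ O.valuation h := by
      have := mul_le_mul_left h3 (O.valuation h)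
      rwa [one_mul, mul_comm (O.valuation h)⁻¹, mul_assoc, inv_mul_cancel₀ hvh, mul_one] at this
    exact le_trans h4 h5

/-! ### (T1c) degree zero in every tube implies constant times principal unit -/

omit [HasPrincipalDivisors K F] in
/-- (T1c) A function whose divisor has degree `0` in every tube is a constant times a
principal unit. -/
theorem exists_const_mul_isOneUnit (hker : RedKer O red) (hvg : ValueGroupConst K O)
    (hcons : Conservation O red sp) (huc : UnitsConst k Fk) (hlift : ConstLift K k O red)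
    {w : F} (hw : w ≠ 0) (D : Divisor K F) (hD : ∀ P, D P = P.ord w)
    (hdeg : ∀ s, Finsupp.mapDomain sp D s = 0) :
    ∃ c : K, c ≠ 0 ∧ IsOneUnit O (w * (algebraMap K F c)⁻¹) := by
  obtain ⟨c₀, hc₀, huO, huinvO⟩ := hvg w hw
  have hc₀' : algebraMap K F c₀ ≠ 0 := by simpa using hc₀
  set u := w * (algebraMap K F c₀)⁻¹ with hu
  have hu0 : u ≠ 0 := mul_ne_zero hw (inv_ne_zero hc₀')
  have hru : rd O red u ≠ 0 := fun h =>
    notMem_nonunits_of_inv_mem O hu0 huinvO ((rd_eq_zero_iff hker huO).mp h)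
  have hred0 : red ⟨u, huO⟩ ≠ 0 := by rwa [← rd_of_mem O red huO]
  have hDu : ∀ P, D P = P.ord u := fun P => by rw [hD P, hu, ord_mul_const_inv P hw hc₀]
  have hord : ∀ s : Place k Fk, s.ord (rd O red u) = 0 := fun s => by
    rw [rd_of_mem O red huO, ← hcons ⟨u, huO⟩ hred0 D hDu s, hdeg s]
  obtain ⟨κ, hκ⟩ := huc _ hru hord
  obtain ⟨a, haO, ha⟩ := hlift κ
  have hrda : rd O red (algebraMap K F a) = rd O red u := by
    rw [rd_of_mem O red haO, ha, hκ]
  have ha0' : algebraMap K F a ∉ O.nonunits := fun h =>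
    hru (by rw [← hrda]; exact (rd_eq_zero_iff hker haO).mpr h)
  have ha0 : a ≠ 0 := by
    rintro rfl
    apply ha0'
    rw [map_zero]
    exact zero_mem_nonunits' O
  have ha0F : algebraMap K F a ≠ 0 := by simpa using ha0
  have hainv : (algebraMap K F a)⁻¹ ∈ O := inv_mem_of_notMem_nonunits O haO ha0'
  have hdiff : u - algebraMap K F a ∈ O.nonunits :=
    (rd_eq_zero_iff hker (sub_mem huO haO)).mp (by rw [rd_sub O red huO haO, hrda, sub_self])
  refine ⟨c₀ * a, mul_ne_zero hc₀ ha0, ?_⟩
  have e : w * (algebraMap K F (c₀ * a))⁻¹ - 1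
      = (u - algebraMap K F a) * (algebraMap K F a)⁻¹ := by
    rw [hu, map_mul]
    field_simp
  unfold IsOneUnit
  rw [e]
  exact mul_mem_nonunits_of_mem O hdiff hainv

/-! ### (T1d) splitting a principal unit along a set of tubes -/

/-- (T1d) Let `V` be a principal unit and `S` a set of places of the special fibre.  If the part
of `div V` inside the tubes over `S` is principal (`= div φ`), then `V = w₁ * w₂` with principal
units `w₁`, `w₂` such that `div w₂` is the part of `div V` inside the tubes over `S` and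
`div w₁` is the part outside. -/
theorem exists_splitting (hker : RedKer O red) (hvg : ValueGroupConst K O)
    (hcons : Conservation O red sp) (huc : UnitsConst k Fk) (hlift : ConstLift K k O red)
    {V φ : F} (hV : IsOneUnit O V) (hφ : φ ≠ 0) (S : Set (Place k Fk))
    (hin : ∀ P, sp P ∈ S → P.ord φ = P.ord V) (hout : ∀ P, sp P ∉ S → P.ord φ = 0) :
    ∃ w₁ w₂ : F, V = w₁ * w₂ ∧ IsOneUnit O w₁ ∧ IsOneUnit O w₂ ∧
      (∀ P, sp P ∈ S → P.ord w₁ = 0) ∧ (∀ P, sp P ∈ S → P.ord w₂ = P.ord V) ∧
      (∀ P, sp P ∉ S → P.ord w₁ = P.ord V) ∧ (∀ P, sp P ∉ S → P.ord w₂ = 0) := by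
  obtain ⟨DV, hDV, -⟩ := HasPrincipalDivisors.exists_divisor (K := K) V hV.ne_zero
  obtain ⟨Dφ, hDφ, -⟩ := HasPrincipalDivisors.exists_divisor (K := K) φ hφ
  have hdeg : ∀ s, Finsupp.mapDomain sp Dφ s = 0 := fun s => by
    by_cases hs : s ∈ S
    · rw [mapDomain_apply_congr sp Dφ DV s fun P hP => by
        rw [hDφ, hDV]
        exact hin P (hP ▸ hs)]
      exact hV.mapDomain_eq_zero hker hcons DV hDV s
    · exact mapDomain_apply_eq_zero sp Dφ s fun P hP => by
        rw [hDφ]
        exact hout P (hP ▸ hs)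
  obtain ⟨c, hc, hw₂⟩ := exists_const_mul_isOneUnit hker hvg hcons huc hlift hφ Dφ hDφ hdeg
  have hordw₂ : ∀ P : Place K F, P.ord (φ * (algebraMap K F c)⁻¹) = P.ord φ :=
    fun P => ord_mul_const_inv P hφ hc
  have hw₂0 := hw₂.ne_zero
  have hordw₁ : ∀ P : Place K F,
      P.ord (V * (φ * (algebraMap K F c)⁻¹)⁻¹) = P.ord V - P.ord φ := fun P => by
    rw [P.ord_mul hV.ne_zero (inv_ne_zero hw₂0), P.ord_inv, hordw₂]
    ring
  refine ⟨V * (φ * (algebraMap K F c)⁻¹)⁻¹, φ * (algebraMap K F c)⁻¹, ?_, hV.mul hw₂.inv, hw₂,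
    ?_, ?_, ?_, ?_⟩
  · rw [inv_mul_cancel_right₀ hw₂0]
  · intro P hP
    rw [hordw₁, hin P hP, sub_self]
  · intro P hP
    rw [hordw₂, hin P hP]
  · intro P hP
    rw [hordw₁, hout P hP, sub_zero]
  · intro P hP
    rw [hordw₂, hout P hP]

/-- (T1d) The splitting of `exists_splitting`, normalised so that `w₂` has value `1` at a given
place `Q` outside the tubes over `S`. -/
theorem exists_splitting_normalised (hker : RedKer O red) (hvg : ValueGroupConst K O)
    (hconst : RedConst K k O red) (hcons : Conservation O red sp) (huc : UnitsConst k Fk)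
    (hlift : ConstLift K k O red) (hdeg1 : ResidueTrivial K F)
    {V φ : F} (hV : IsOneUnit O V) (hφ : φ ≠ 0) (S : Set (Place k Fk))
    (hin : ∀ P, sp P ∈ S → P.ord φ = P.ord V) (hout : ∀ P, sp P ∉ S → P.ord φ = 0)
    (Q : Place K F) (hQ : sp Q ∉ S) :
    ∃ w₁ w₂ : F, V = w₁ * w₂ ∧ IsOneUnit O w₁ ∧ IsOneUnit O w₂ ∧
      (∀ P, sp P ∈ S → P.ord w₁ = 0) ∧ (∀ P, sp P ∈ S → P.ord w₂ = P.ord V) ∧
      (∀ P, sp P ∉ S → P.ord w₁ = P.ord V) ∧ (∀ P, sp P ∉ S → P.ord w₂ = 0) ∧
      IsValue Q w₂ 1 := by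
  obtain ⟨w₁, w₂, hVw, hw₁, hw₂, h1, h2, h3, h4⟩ :=
    exists_splitting hker hvg hcons huc hlift hV hφ S hin hout
  have hreg : ∀ P, sp P = sp Q → w₂ ∈ P.toValuationSubring := fun P hP =>
    mem_of_ord_nonneg P (by rw [h4 P (hP ▸ hQ)])
  obtain ⟨a, ha⟩ := hdeg1 Q w₂ (hreg Q rfl)
  have haU : IsOneUnit O (algebraMap K F a) :=
    hw₂.value hker hconst hcons hreg rfl ha
  have ha0F : algebraMap K F a ≠ 0 := haU.ne_zero
  have ha0 : a ≠ 0 := by
    rintro rfl
    exact ha0F (map_zero _)
  have hordc : ∀ (P : Place K F) (x : F), x ≠ 0 → P.ord (x * algebraMap K F a) = P.ord x :=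
    fun P x hx => by rw [P.ord_mul hx ha0F, ord_algebraMap, add_zero]
  refine ⟨w₁ * algebraMap K F a, w₂ * (algebraMap K F a)⁻¹, ?_, hw₁.mul haU, hw₂.mul haU.inv,
    ?_, ?_, ?_, ?_, ?_⟩
  · rw [hVw]
    field_simp
  · intro P hP
    rw [hordc P w₁ hw₁.ne_zero, h1 P hP]
  · intro P hP
    rw [ord_mul_const_inv P hw₂.ne_zero ha0, h2 P hP]
  · intro P hP
    rw [hordc P w₁ hw₁.ne_zero, h3 P hP]
  · intro P hP
    rw [ord_mul_const_inv P hw₂.ne_zero ha0, h4 P hP]
  · have e : w₂ * (algebraMap K F a)⁻¹ - algebraMap K F 1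
        = (w₂ - algebraMap K F a) * (algebraMap K F a)⁻¹ := by
      rw [map_one]
      field_simp
    have hainv : (algebraMap K F a)⁻¹ ∈ Q.toValuationSubring := by
      rw [← map_inv₀]
      exact Q.algebraMap_mem' a⁻¹
    show w₂ * (algebraMap K F a)⁻¹ - algebraMap K F 1 ∈ Q.toValuationSubring.nonunits
    rw [e]
    exact mul_mem_nonunits_of_mem _ ha hainv

/-! ### (T1e)-(T1g) functions with poles in disjoint sets of tubes -/

omit [HasPrincipalDivisors K F] in
/-- Regularity at a place is preserved by `w ↦ (w - 1) / π` for a constant `π`. -/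
theorem sub_one_mul_const_inv_mem (P : Place K F) {w : F} (hw : w ∈ P.toValuationSubring)
    (π : K) : (w - 1) * (algebraMap K F π)⁻¹ ∈ P.toValuationSubring := by
  refine mul_mem (sub_mem hw (one_mem _)) ?_
  rw [← map_inv₀]
  exact P.algebraMap_mem' π⁻¹

/-- (T1e) Two Gauss-integral functions with poles in disjoint sets of tubes (`γ₁` regular on
the tubes over `S`, `γ₂` regular on the tubes outside `S`), whose sum is Gauss-small and such
that `γ₂` vanishes at a place `Q` outside the tubes over `S`, are both Gauss-small. -/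
theorem mem_nonunits_of_disjoint_poles (hker : RedKer O red) (hcons : Conservation O red sp)
    (hrc : RegularConst k Fk) {γ₁ γ₂ : F} (h₁ : γ₁ ∈ O) (h₂ : γ₂ ∈ O) (S : Set (Place k Fk))
    (hreg₁ : ∀ P, sp P ∈ S → γ₁ ∈ P.toValuationSubring)
    (hreg₂ : ∀ P, sp P ∉ S → γ₂ ∈ P.toValuationSubring) (hsum : γ₁ + γ₂ ∈ O.nonunits)
    (Q : Place K F) (hQ : sp Q ∉ S) (hQz : γ₂ ∈ Q.toValuationSubring.nonunits) :
    γ₁ ∈ O.nonunits ∧ γ₂ ∈ O.nonunits := by
  have hsum0 : rd O red γ₁ + rd O red γ₂ = 0 := by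
    rw [← rd_add O red h₁ h₂]
    exact (rd_eq_zero_iff hker (add_mem h₁ h₂)).mpr hsum
  have hreg : ∀ s : Place k Fk, rd O red γ₂ ∈ s.toValuationSubring := fun s => by
    by_cases hs : s ∈ S
    · have h := rd_mem_of_regular hcons h₁ s fun P hP => hreg₁ P (hP ▸ hs)
      have e : rd O red γ₂ = -rd O red γ₁ := eq_neg_of_add_eq_zero_right hsum0
      rw [e]
      exact neg_mem h
    · exact rd_mem_of_regular hcons h₂ s fun P hP => hreg₂ P (hP ▸ hs)
  obtain ⟨κ, hκ⟩ := hrc _ hreg
  have hz := rd_mem_nonunits_of_regular hcons h₂ (sp Q) (fun P hP => hreg₂ P (hP ▸ hQ)) Q rfl hQz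
  rw [← hκ] at hz
  have hκ0 := const_eq_zero_of_mem_nonunits (sp Q) κ hz
  rw [hκ0, map_zero] at hκ
  have h2 : rd O red γ₂ = 0 := hκ.symm
  have h1 : rd O red γ₁ = 0 := by
    rw [h2, add_zero] at hsum0
    exact hsum0
  exact ⟨(rd_eq_zero_iff hker h₁).mp h1, (rd_eq_zero_iff hker h₂).mp h2⟩

/-- (T1f) Uniqueness of the splitting modulo a constant `π`: if `w₁`, `w₂` are principal units
with poles in disjoint sets of tubes, `w₂` has value `1` at a place `Q` outside the tubes over
`S`, and `w₁ * w₂ ≡ 1` modulo `π`, then `w₁ ≡ 1` and `w₂ ≡ 1` modulo `π`. -/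
theorem sub_one_div_mem_of_mul (hker : RedKer O red) (hvg : ValueGroupConst K O)
    (hcons : Conservation O red sp) (hrc : RegularConst k Fk) {w₁ w₂ : F}
    (hw₁ : IsOneUnit O w₁) (hw₂ : IsOneUnit O w₂) (S : Set (Place k Fk))
    (hreg₁ : ∀ P, sp P ∈ S → w₁ ∈ P.toValuationSubring)
    (hreg₂ : ∀ P, sp P ∉ S → w₂ ∈ P.toValuationSubring)
    (Q : Place K F) (hQ : sp Q ∉ S) (hQv : IsValue Q w₂ 1) (π : K) (hπ0 : π ≠ 0)
    (hrel : (w₁ * w₂ - 1) * (algebraMap K F π)⁻¹ ∈ O) :
    (w₁ - 1) * (algebraMap K F π)⁻¹ ∈ O ∧ (w₂ - 1) * (algebraMap K F π)⁻¹ ∈ O := by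
  have hπF : algebraMap K F π ≠ 0 := by simpa using hπ0
  have hβ₁ : w₁ - 1 ∈ O.nonunits := hw₁
  have hβ₂ : w₂ - 1 ∈ O.nonunits := hw₂
  have hQv' : w₂ - 1 ∈ Q.toValuationSubring.nonunits := by
    have h : w₂ - algebraMap K F 1 ∈ Q.toValuationSubring.nonunits := hQv
    rwa [map_one] at h
  -- the common normalisation step
  have aux : ∀ ρ : K, ρ ≠ 0 → (w₁ - 1) * (algebraMap K F ρ)⁻¹ ∈ O →
      (w₂ - 1) * (algebraMap K F ρ)⁻¹ ∈ O →
      ((w₁ - 1) * (algebraMap K F ρ)⁻¹ ∉ O.nonunits ∨
        (w₂ - 1) * (algebraMap K F ρ)⁻¹ ∉ O.nonunits) →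
      (w₁ - 1) * (algebraMap K F π)⁻¹ ∈ O ∧ (w₂ - 1) * (algebraMap K F π)⁻¹ ∈ O := by
    intro ρ hρ0 hγ₁ hγ₂ hunit
    have hρF : algebraMap K F ρ ≠ 0 := by simpa using hρ0
    by_cases hρπ : algebraMap K F ρ * (algebraMap K F π)⁻¹ ∈ O
    · constructor
      · have e : (w₁ - 1) * (algebraMap K F π)⁻¹
            = (w₁ - 1) * (algebraMap K F ρ)⁻¹ * (algebraMap K F ρ * (algebraMap K F π)⁻¹) := by
          field_simp
        rw [e]
        exact mul_mem hγ₁ hρπ
      · have e : (w₂ - 1) * (algebraMap K F π)⁻¹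
            = (w₂ - 1) * (algebraMap K F ρ)⁻¹ * (algebraMap K F ρ * (algebraMap K F π)⁻¹) := by
          field_simp
        rw [e]
        exact mul_mem hγ₂ hρπ
    · exfalso
      have hπρ : algebraMap K F π * (algebraMap K F ρ)⁻¹ ∈ O.nonunits := by
        have h := inv_mem_nonunits_of_notMem O hρπ
        rwa [mul_inv, inv_inv, mul_comm] at h
      have hsum : (w₁ - 1) * (algebraMap K F ρ)⁻¹ + (w₂ - 1) * (algebraMap K F ρ)⁻¹
          ∈ O.nonunits := by
        have e : (w₁ - 1) * (algebraMap K F ρ)⁻¹ + (w₂ - 1) * (algebraMap K F ρ)⁻¹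
            = (w₁ * w₂ - 1) * (algebraMap K F π)⁻¹ * (algebraMap K F π * (algebraMap K F ρ)⁻¹)
              - (w₁ - 1) * (algebraMap K F ρ)⁻¹ * (w₂ - 1) := by
          field_simp
          ring
        rw [e]
        exact sub_mem_nonunits O (mul_mem_nonunits_of_mem' O hrel hπρ)
          (mul_mem_nonunits_of_mem' O hγ₁ hβ₂)
      have hρP : ∀ P : Place K F, (algebraMap K F ρ)⁻¹ ∈ P.toValuationSubring := fun P => by
        rw [← map_inv₀]
        exact P.algebraMap_mem' ρ⁻¹
      obtain ⟨hm₁, hm₂⟩ := mem_nonunits_of_disjoint_poles hker hcons hrc hγ₁ hγ₂ S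
        (fun P hP => sub_one_mul_const_inv_mem P (hreg₁ P hP) ρ)
        (fun P hP => sub_one_mul_const_inv_mem P (hreg₂ P hP) ρ) hsum Q hQ
        (mul_mem_nonunits_of_mem _ hQv' (hρP Q))
      rcases hunit with h | h
      · exact h hm₁
      · exact h hm₂
  by_cases h₁0 : w₁ - 1 = 0
  · have hw₁1 : w₁ = 1 := sub_eq_zero.mp h₁0
    rw [hw₁1, one_mul] at hrel
    rw [hw₁1, sub_self, zero_mul]
    exact ⟨zero_mem O, hrel⟩
  by_cases h₂0 : w₂ - 1 = 0
  · have hw₂1 : w₂ = 1 := sub_eq_zero.mp h₂0
    rw [hw₂1, mul_one] at hrel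
    rw [hw₂1, sub_self, zero_mul]
    exact ⟨hrel, zero_mem O⟩
  rcases O.mem_or_inv_mem ((w₂ - 1) / (w₁ - 1)) with hle | hle
  · obtain ⟨ρ, hρ0, hu, huinv⟩ := hvg (w₁ - 1) h₁0
    have hρF : algebraMap K F ρ ≠ 0 := by simpa using hρ0
    refine aux ρ hρ0 hu ?_ (Or.inl ?_)
    · have e : (w₂ - 1) * (algebraMap K F ρ)⁻¹
          = (w₂ - 1) / (w₁ - 1) * ((w₁ - 1) * (algebraMap K F ρ)⁻¹) := by
        field_simp
      rw [e]
      exact mul_mem hle hu
    · exact notMem_nonunits_of_inv_mem O (mul_ne_zero h₁0 (inv_ne_zero hρF)) huinv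
  · obtain ⟨ρ, hρ0, hu, huinv⟩ := hvg (w₂ - 1) h₂0
    have hρF : algebraMap K F ρ ≠ 0 := by simpa using hρ0
    refine aux ρ hρ0 ?_ hu (Or.inr ?_)
    · have e : (w₁ - 1) * (algebraMap K F ρ)⁻¹
          = ((w₂ - 1) / (w₁ - 1))⁻¹ * ((w₂ - 1) * (algebraMap K F ρ)⁻¹) := by
        field_simp
      rw [e]
      exact mul_mem hle hu
    · exact notMem_nonunits_of_inv_mem O (mul_ne_zero h₂0 (inv_ne_zero hρF)) huinv

/-- (T1g) First-order form: under the hypotheses of `sub_one_div_mem_of_mul`, if
`w₁ * w₂ = 1 + π G + π (small)` with `G` Gauss-integral, then `(w₁ - 1) / π` and `(w₂ - 1) / π`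
are Gauss-integral and their sum is congruent to `G`. -/
theorem add_sub_mem_nonunits_of_mul (hker : RedKer O red) (hvg : ValueGroupConst K O)
    (hcons : Conservation O red sp) (hrc : RegularConst k Fk) {w₁ w₂ G : F}
    (hw₁ : IsOneUnit O w₁) (hw₂ : IsOneUnit O w₂) (S : Set (Place k Fk))
    (hreg₁ : ∀ P, sp P ∈ S → w₁ ∈ P.toValuationSubring)
    (hreg₂ : ∀ P, sp P ∉ S → w₂ ∈ P.toValuationSubring)
    (Q : Place K F) (hQ : sp Q ∉ S) (hQv : IsValue Q w₂ 1) (π : K) (hπ0 : π ≠ 0) (hG : G ∈ O)
    (hrel : (w₁ * w₂ - 1) * (algebraMap K F π)⁻¹ - G ∈ O.nonunits) :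
    (w₁ - 1) * (algebraMap K F π)⁻¹ ∈ O ∧ (w₂ - 1) * (algebraMap K F π)⁻¹ ∈ O ∧
      (w₁ - 1) * (algebraMap K F π)⁻¹ + (w₂ - 1) * (algebraMap K F π)⁻¹ - G ∈ O.nonunits := by
  have hrel' : (w₁ * w₂ - 1) * (algebraMap K F π)⁻¹ ∈ O := by
    have h := add_mem (mem_of_mem_nonunits O hrel) hG
    rwa [sub_add_cancel] at h
  obtain ⟨h1, h2⟩ := sub_one_div_mem_of_mul hker hvg hcons hrc hw₁ hw₂ S hreg₁ hreg₂ Q hQ hQv
    π hπ0 hrel'
  refine ⟨h1, h2, ?_⟩
  have hβ₂ : w₂ - 1 ∈ O.nonunits := hw₂
  have e : (w₁ - 1) * (algebraMap K F π)⁻¹ + (w₂ - 1) * (algebraMap K F π)⁻¹ - G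
      = ((w₁ * w₂ - 1) * (algebraMap K F π)⁻¹ - G)
        - (w₁ - 1) * (algebraMap K F π)⁻¹ * (w₂ - 1) := by
    ring
  rw [e]
  exact sub_mem_nonunits O hrel (mul_mem_nonunits_of_mem' O h1 hβ₂)

/-- (T1g) Reduced form: under the hypotheses of `add_sub_mem_nonunits_of_mul`, the reduction of
`G` is a sum `g₁ + g₂` where `g₁` is regular at every `s` such that `w₁` is regular on the tube
of `s`, `g₂` is regular at every `s` such that `w₂` is regular on the tube of `s`, and `g₂`
vanishes at `sp Q`. -/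
theorem exists_rd_eq_add_of_mul (hker : RedKer O red) (hvg : ValueGroupConst K O)
    (hcons : Conservation O red sp) (hrc : RegularConst k Fk) {w₁ w₂ G : F}
    (hw₁ : IsOneUnit O w₁) (hw₂ : IsOneUnit O w₂) (S : Set (Place k Fk))
    (hreg₁ : ∀ P, sp P ∈ S → w₁ ∈ P.toValuationSubring)
    (hreg₂ : ∀ P, sp P ∉ S → w₂ ∈ P.toValuationSubring)
    (Q : Place K F) (hQ : sp Q ∉ S) (hQv : IsValue Q w₂ 1) (π : K) (hπ0 : π ≠ 0) (hG : G ∈ O)
    (hrel : (w₁ * w₂ - 1) * (algebraMap K F π)⁻¹ - G ∈ O.nonunits) :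
    ∃ g₁ g₂ : Fk, rd O red G = g₁ + g₂ ∧
      (∀ s : Place k Fk, (∀ P, sp P = s → w₁ ∈ P.toValuationSubring) →
        g₁ ∈ s.toValuationSubring) ∧
      (∀ s : Place k Fk, (∀ P, sp P = s → w₂ ∈ P.toValuationSubring) →
        g₂ ∈ s.toValuationSubring) ∧
      g₂ ∈ (sp Q).toValuationSubring.nonunits := by
  obtain ⟨h1, h2, h3⟩ := add_sub_mem_nonunits_of_mul hker hvg hcons hrc hw₁ hw₂ S hreg₁ hreg₂
    Q hQ hQv π hπ0 hG hrel
  have hQv' : w₂ - 1 ∈ Q.toValuationSubring.nonunits := by
    have h : w₂ - algebraMap K F 1 ∈ Q.toValuationSubring.nonunits := hQv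
    rwa [map_one] at h
  have hπQ : (algebraMap K F π)⁻¹ ∈ Q.toValuationSubring := by
    rw [← map_inv₀]
    exact Q.algebraMap_mem' π⁻¹
  refine ⟨rd O red ((w₁ - 1) * (algebraMap K F π)⁻¹), rd O red ((w₂ - 1) * (algebraMap K F π)⁻¹),
    ?_, fun s hs => ?_, fun s hs => ?_, ?_⟩
  · have h0 := (rd_eq_zero_iff hker (sub_mem (add_mem h1 h2) hG)).mpr h3
    rw [rd_sub O red (add_mem h1 h2) hG, rd_add O red h1 h2, sub_eq_zero] at h0
    exact h0.symm
  · exact rd_mem_of_regular hcons h1 s fun P hP => sub_one_mul_const_inv_mem P (hs P hP) π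
  · exact rd_mem_of_regular hcons h2 s fun P hP => sub_one_mul_const_inv_mem P (hs P hP) π
  · exact rd_mem_nonunits_of_regular hcons h2 (sp Q)
      (fun P hP => sub_one_mul_const_inv_mem P (hreg₂ P (hP ▸ hQ)) π) Q rfl
      (mul_mem_nonunits_of_mem _ hQv' hπQ)

/-! ### Divisor forms (tube parts) -/

omit [HasPrincipalDivisors K F] in
/-- The degree of a divisor on a curve all of whose places have degree one is the sum of its
coefficients. -/
theorem degree_eq_sum (hdeg : ∀ P : Place K F, P.deg = 1) (D : Divisor K F) :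
    Divisor.degree D = D.sum fun _ n => n := by
  simp only [Divisor.degree, Finsupp.liftAddHom_apply, AddMonoidHom.coe_mulRight, hdeg,
    Nat.cast_one, mul_one]

omit [HasPrincipalDivisors K F] in
/-- A divisor of degree `0` in every tube has degree `0`. -/
theorem degree_eq_zero_of_mapDomain_eq_zero (hdeg : ∀ P : Place K F, P.deg = 1)
    (D : Divisor K F) (h : ∀ s, Finsupp.mapDomain sp D s = 0) : Divisor.degree D = 0 := by
  rw [degree_eq_sum hdeg]
  have h1 := Finsupp.sum_mapDomain_index (f := sp) (s := D)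
    (h := fun (_ : Place k Fk) (n : ℤ) => n) (fun _ => rfl) (fun _ _ _ => rfl)
  have h2 : Finsupp.mapDomain sp D = 0 := Finsupp.ext h
  rw [h2, Finsupp.sum_zero_index] at h1
  exact h1.symm

omit [HasPrincipalDivisors K F] in
/-- (T1b) For a principal unit `f`, the part of `div f` inside the tubes over any set `S` has
degree `0`. -/
theorem IsOneUnit.degree_tubePart (hker : RedKer O red) (hcons : Conservation O red sp)
    (hdeg : ∀ P : Place K F, P.deg = 1) {f : F} (hf : IsOneUnit O f) (D : Divisor K F)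
    (hD : ∀ P, D P = P.ord f) (S : Set (Place k Fk)) :
    Divisor.degree (tubePart sp S D) = 0 :=
  degree_eq_zero_of_mapDomain_eq_zero hdeg _
    (mapDomain_tubePart_eq_zero sp S (hf.mapDomain_eq_zero hker hcons D hD))

/-- (T1b) A principal unit without poles in the tubes over `S` has no zeros there: the part of
its divisor over `S` vanishes. -/
theorem IsOneUnit.tubePart_eq_zero_of_regular (hker : RedKer O red) (hcons : Conservation O red sp)
    {f : F} (hf : IsOneUnit O f) (D : Divisor K F) (hD : ∀ P, D P = P.ord f)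
    (S : Set (Place k Fk)) (hreg : ∀ P, sp P ∈ S → f ∈ P.toValuationSubring) :
    tubePart sp S D = 0 :=
  tubePart_eq_zero sp fun P hP => by
    rw [hD P]
    exact hf.ord_eq_zero_of_regular hker hcons (s := sp P) (fun P' hP' => hreg P' (hP' ▸ hP)) rfl

/-- (T1b) A principal unit without poles outside the tubes over `S` has its whole divisor
inside these tubes. -/
theorem IsOneUnit.tubePart_eq_self_of_regular (hker : RedKer O red) (hcons : Conservation O red sp)
    {f : F} (hf : IsOneUnit O f) (D : Divisor K F) (hD : ∀ P, D P = P.ord f)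
    (S : Set (Place k Fk)) (hreg : ∀ P, sp P ∉ S → f ∈ P.toValuationSubring) :
    tubePart sp S D = D :=
  tubePart_eq_self sp fun P hP => by
    rw [hD P]
    exact hf.ord_eq_zero_of_regular hker hcons (s := sp P) (fun P' hP' => hreg P' (hP' ▸ hP)) rfl

/-- (T1d), divisor form: a principal unit `V` such that the part of `div V` inside the tubes
over `S` is a principal divisor is a product `w₁ * w₂` of principal units with
`div w₂ = (div V)|S` and `div w₁ = (div V)|Sᶜ`. -/
theorem exists_splitting_of_isPrincipal (hker : RedKer O red) (hvg : ValueGroupConst K O)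
    (hcons : Conservation O red sp) (huc : UnitsConst k Fk) (hlift : ConstLift K k O red)
    {V : F} (hV : IsOneUnit O V) (D : Divisor K F) (hD : ∀ P, D P = P.ord V)
    (S : Set (Place k Fk)) (hprin : Divisor.IsPrincipal (tubePart sp S D)) :
    ∃ w₁ w₂ : F, V = w₁ * w₂ ∧ IsOneUnit O w₁ ∧ IsOneUnit O w₂ ∧
      (∀ P, tubePart sp Sᶜ D P = P.ord w₁) ∧ (∀ P, tubePart sp S D P = P.ord w₂) := by
  obtain ⟨φ, hφ, hφD⟩ := hprin
  obtain ⟨w₁, w₂, hVw, hw₁, hw₂, h1, h2, h3, h4⟩ :=
    exists_splitting hker hvg hcons huc hlift hV hφ S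
      (fun P hP => by rw [← hφD P, tubePart_apply_of_mem sp D hP, hD P])
      (fun P hP => by rw [← hφD P, tubePart_apply_of_notMem sp D hP])
  refine ⟨w₁, w₂, hVw, hw₁, hw₂, fun P => ?_, fun P => ?_⟩
  · by_cases hP : sp P ∈ S
    · rw [tubePart_apply_of_notMem sp D (S := Sᶜ) (fun h => h hP), h1 P hP]
    · rw [tubePart_apply_of_mem sp D (S := Sᶜ) hP, h3 P hP, hD P]
  · by_cases hP : sp P ∈ S
    · rw [tubePart_apply_of_mem sp D hP, h2 P hP, hD P]
    · rw [tubePart_apply_of_notMem sp D hP, h4 P hP]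

/-- (T1d), divisor form, normalised at a place `Q` outside the tubes over `S`. -/
theorem exists_splitting_of_isPrincipal_normalised (hker : RedKer O red)
    (hvg : ValueGroupConst K O) (hconst : RedConst K k O red) (hcons : Conservation O red sp)
    (huc : UnitsConst k Fk) (hlift : ConstLift K k O red) (hdeg1 : ResidueTrivial K F)
    {V : F} (hV : IsOneUnit O V) (D : Divisor K F) (hD : ∀ P, D P = P.ord V)
    (S : Set (Place k Fk)) (hprin : Divisor.IsPrincipal (tubePart sp S D))
    (Q : Place K F) (hQ : sp Q ∉ S) :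
    ∃ w₁ w₂ : F, V = w₁ * w₂ ∧ IsOneUnit O w₁ ∧ IsOneUnit O w₂ ∧
      (∀ P, tubePart sp Sᶜ D P = P.ord w₁) ∧ (∀ P, tubePart sp S D P = P.ord w₂) ∧
      IsValue Q w₂ 1 := by
  obtain ⟨φ, hφ, hφD⟩ := hprin
  obtain ⟨w₁, w₂, hVw, hw₁, hw₂, h1, h2, h3, h4, h5⟩ :=
    exists_splitting_normalised hker hvg hconst hcons huc hlift hdeg1 hV hφ S
      (fun P hP => by rw [← hφD P, tubePart_apply_of_mem sp D hP, hD P])
      (fun P hP => by rw [← hφD P, tubePart_apply_of_notMem sp D hP]) Q hQ
  refine ⟨w₁, w₂, hVw, hw₁, hw₂, fun P => ?_, fun P => ?_, h5⟩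
  · by_cases hP : sp P ∈ S
    · rw [tubePart_apply_of_notMem sp D (S := Sᶜ) (fun h => h hP), h1 P hP]
    · rw [tubePart_apply_of_mem sp D (S := Sᶜ) hP, h3 P hP, hD P]
  · by_cases hP : sp P ∈ S
    · rw [tubePart_apply_of_mem sp D hP, h2 P hP, hD P]
    · rw [tubePart_apply_of_notMem sp D hP, h4 P hP]

end Tubes

end Fermat.Agent.S19.helper64
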