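import Fermat.Agent.S19.helper7154_UnitBall
import Fermat.Agent.S19.helper9190_SpecC
import Fermat.Agent.S37.helper126_TorsionCore
import Fermat.Agent.S27.helper440_PlaceTop
import Fermat.Agent.S37.helper5162_HeckeInputsModular

/-!
# S19, second line (C-ideal): the leaf `Stmt_ChartInt` of `helper9190_SpecC`

`Stmt_ChartInt N ℓ A` = (`L_i(0) = A · S_i` for the three charts) ∧
(`𝔪_W ∩ A · S_i ⊆ 𝔪_A · (A · S_i)`).

* `chartRing_subset_Lsec`       : `A · S_i ⊆ L_i(0)`                       (unconditional)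
* `chartMax_of_gaussMax`        : the second clause                         (`ℓ ∤ N`)
* `mem_chartRing_of_comb`       : a Gauss-integral `ℚ̄`-combination of chart functions lies in
                                  `A · S_i`                                 (`ℓ ∤ N`)
* `stmt_ChartInt_of_PT0`        : `Stmt_ChartInt` from the one statement `Stmt_PT0` of DICT-PTS
                                  (a function regular on the generic chart `i` is a
                                  `ℚ̄`-combination of chart functions).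
-/

set_option autoImplicit false
set_option linter.unusedSectionVars false

noncomputable section

namespace Fermat.Agent.S19.helper7154

open ModularCurve ModularCurve.IgusaScheme AlgebraicCurve
open Fermat.Agent.S19.helper9190
open Fermat.Agent.S28.helper1588 (Zl)

local notation "Qb" => AlgebraicClosure ℚ

section ChartInt

variable (N : ℕ) [NeZero N] (ℓ : ℕ) [Fact ℓ.Prime]

/-! ### Coercions to `ℚ̄((q))` -/

theorem coe_emb (x : FQ N) :
    ((emb N x : FK N) : LaurentSeries Qb) = coeffEmb Qb (x : LaurentSeries ℚ) := rfl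

theorem coe_cst (c : Qb) : ((cst N c : FK N) : LaurentSeries Qb) = HahnSeries.C c := by
  rw [Fermat.Agent.S18.helper8991.C_eq_algebraMap]
  rfl

theorem coe_jK : ((jK N : FK N) : LaurentSeries Qb) = jqModC Qb := by
  show coeffEmb Qb jq = jqModC Qb
  rw [← jqModC_rat, coeffEmb, coeffMap_jqModC]

theorem coe_sum_cst_mul_emb {n : ℕ} (a : Fin n → Qb) (s : Fin n → FQ N) :
    ((∑ p, cst N (a p) * emb N (s p) : FK N) : LaurentSeries Qb) = comb Qb a s := by
  show (modularFunctionFieldBar N).val (∑ p, cst N (a p) * emb N (s p)) = comb Qb a s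
  rw [map_sum, comb]
  refine Finset.sum_congr rfl fun p _ => ?_
  rw [map_mul]
  show ((cst N (a p) : FK N) : LaurentSeries Qb) * ((emb N (s p) : FK N) : LaurentSeries Qb) = _
  rw [coe_cst, coe_emb]

/-! ### The three charts as subalgebras -/

/-- The chart algebra with index `i` (`0` = Fin, `1` = Inf, else Mid). -/
def chartSub (i : ℕ) : Subalgebra (Zl ℓ) (FQ N) :=
  if i = 0 then chartAlgFin N ℓ else if i = 1 then chartAlgInf N ℓ else chartAlgMid N ℓ

theorem coe_chartSub (i : ℕ) : (chartSub N ℓ i : Set (FQ N)) = chartSet N ℓ i := by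
  unfold chartSub chartSet
  split_ifs <;> rfl

theorem mem_chartSub_iff (i : ℕ) (x : FQ N) : x ∈ chartSub N ℓ i ↔ x ∈ chartSet N ℓ i := by
  rw [← coe_chartSub]
  rfl

theorem isCoeffLattice_chartSub (hℓN : ¬ ℓ ∣ N) (i : ℕ) : IsCoeffLattice ℓ N (chartSub N ℓ i) := by
  unfold chartSub
  split_ifs
  · exact isCoeffLattice_chartAlgFin ℓ N hℓN
  · exact isCoeffLattice_chartAlgInf ℓ N hℓN
  · exact isCoeffLattice_chartAlgMid ℓ N hℓN

/-- Chart functions have `ℓ`-integral `q`-expansions (no hypothesis on `N`). -/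
theorem isZlIntegral_of_mem_chartSet (i : ℕ) {x : FQ N} (hx : x ∈ chartSet N ℓ i) :
    IsZlIntegral ℓ (x : LaurentSeries ℚ) := by
  unfold chartSet at hx
  split_ifs at hx
  · exact isZlIntegral_of_mem_chartAlg ℓ N _ (by rintro s rfl; exact isZlIntegral_jq ℓ) x hx
  · exact isZlIntegral_of_mem_chartAlg ℓ N _ (by rintro s rfl; exact isZlIntegral_jq_inv ℓ) x hx
  · exact isZlIntegral_of_mem_chartAlg ℓ N _ (by
      rintro s (rfl | rfl)
      · exact isZlIntegral_jq ℓ
      · exact isZlIntegral_jq_inv ℓ) x hx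

variable (A : ValuationSubring Qb)

/-! ### `A · S_i` as combinations -/

theorem span_mul_mem (T : Subalgebra (Zl ℓ) (FQ N)) {x y : LaurentSeries Qb}
    (hx : x ∈ Submodule.span A (chartImg Qb (T : Set (FQ N))))
    (hy : y ∈ Submodule.span A (chartImg Qb (T : Set (FQ N)))) :
    x * y ∈ Submodule.span A (chartImg Qb (T : Set (FQ N))) := by
  induction hx using Submodule.span_induction with
  | mem x hx =>
    obtain ⟨s, hs, rfl⟩ := hx
    induction hy using Submodule.span_induction with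
    | mem y hy =>
      obtain ⟨t, ht, rfl⟩ := hy
      refine Submodule.subset_span ⟨s * t, T.mul_mem hs ht, ?_⟩
      show coeffEmb Qb ((s : LaurentSeries ℚ) * (t : LaurentSeries ℚ)) = _
      rw [map_mul]
    | zero => rw [mul_zero]; exact zero_mem _
    | add y₁ y₂ _ _ h₁ h₂ => rw [mul_add]; exact add_mem h₁ h₂
    | smul a y _ h =>
      rw [valuationSubring_smul_eq, mul_left_comm, ← valuationSubring_smul_eq]
      exact Submodule.smul_mem _ _ h
  | zero => rw [zero_mul]; exact zero_mem _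
  | add x₁ x₂ _ _ h₁ h₂ => rw [add_mul]; exact add_mem h₁ h₂
  | smul a x _ h =>
    rw [valuationSubring_smul_eq, mul_assoc, ← valuationSubring_smul_eq]
    exact Submodule.smul_mem _ _ h

/-- The `A`-span of the chart `i` inside `ℚ̄((q))`. -/
def combSpan (i : ℕ) : Submodule A (LaurentSeries Qb) :=
  Submodule.span A (chartImg Qb (chartSub N ℓ i : Set (FQ N)))

theorem one_mem_combSpan (i : ℕ) : (1 : LaurentSeries Qb) ∈ combSpan N ℓ A i :=
  Submodule.subset_span ⟨1, (chartSub N ℓ i).one_mem, by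
    show coeffEmb Qb (1 : LaurentSeries ℚ) = 1
    rw [map_one]⟩

/-- The subring of `FK` of the `A`-combinations of chart functions. -/
def combRing (i : ℕ) : Subring (FK N) where
  carrier := {f | (f : LaurentSeries Qb) ∈ combSpan N ℓ A i}
  mul_mem' := fun {f g} hf hg => by
    show (f : LaurentSeries Qb) * (g : LaurentSeries Qb) ∈ combSpan N ℓ A i
    exact span_mul_mem N ℓ A (chartSub N ℓ i) hf hg
  one_mem' := one_mem_combSpan N ℓ A i
  add_mem' := fun {f g} hf hg => by
    show (f : LaurentSeries Qb) + (g : LaurentSeries Qb) ∈ combSpan N ℓ A i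
    exact Submodule.add_mem _ hf hg
  zero_mem' := by
    show (0 : LaurentSeries Qb) ∈ combSpan N ℓ A i
    exact Submodule.zero_mem _
  neg_mem' := fun {f} hf => by
    show -(f : LaurentSeries Qb) ∈ combSpan N ℓ A i
    exact Submodule.neg_mem _ hf

theorem mem_combRing_iff (i : ℕ) (f : FK N) :
    f ∈ combRing N ℓ A i ↔ ∃ (n : ℕ) (a : Fin n → Qb) (s : Fin n → FQ N),
      (∀ p, a p ∈ A) ∧ (∀ p, s p ∈ chartSet N ℓ i) ∧ (f : LaurentSeries Qb) = comb Qb a s := by
  show (f : LaurentSeries Qb) ∈ Submodule.span A (chartImg Qb (chartSub N ℓ i : Set (FQ N))) ↔ _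
  rw [mem_span_valuationSubring_chartImg_iff, coe_chartSub]

/-- `A · S_i` is the set of `A`-combinations of chart functions. -/
theorem chartRing_top_eq_combRing (i : ℕ) : chartRing N ℓ A ⊤ i = combRing N ℓ A i := by
  apply le_antisymm
  · refine Subring.closure_le.mpr ?_
    rintro f (⟨c, ⟨hc, -⟩, rfl⟩ | ⟨s, hs, rfl⟩)
    · show ((cst N c : FK N) : LaurentSeries Qb) ∈ combSpan N ℓ A i
      rw [coe_cst]
      have h1 : (HahnSeries.C c : LaurentSeries Qb) = (⟨c, hc⟩ : A) • (1 : LaurentSeries Qb) := by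
        rw [valuationSubring_smul_eq, mul_one]
      rw [h1]
      exact Submodule.smul_mem _ _ (one_mem_combSpan N ℓ A i)
    · exact Submodule.subset_span ⟨s, (mem_chartSub_iff N ℓ i s).mpr hs, rfl⟩
  · intro f hf
    obtain ⟨n, a, s, ha, hs, h⟩ := (mem_combRing_iff N ℓ A i f).mp hf
    have hf' : f = ∑ p, cst N (a p) * emb N (s p) := by
      apply Subtype.ext
      rw [h, coe_sum_cst_mul_emb]
    rw [hf']
    refine Subring.sum_mem _ fun p _ => Subring.mul_mem _ ?_ ?_
    · exact Subring.subset_closure (Or.inl ⟨a p, ⟨ha p, IntermediateField.mem_top⟩, rfl⟩)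
    · exact Subring.subset_closure (Or.inr ⟨s p, hs p, rfl⟩)

theorem mem_chartRing_top_iff (i : ℕ) (f : FK N) :
    f ∈ chartRing N ℓ A ⊤ i ↔ ∃ (n : ℕ) (a : Fin n → Qb) (s : Fin n → FQ N),
      (∀ p, a p ∈ A) ∧ (∀ p, s p ∈ chartSet N ℓ i) ∧ (f : LaurentSeries Qb) = comb Qb a s := by
  rw [chartRing_top_eq_combRing, mem_combRing_iff]

/-! ### `A · S_i ⊆ L_i(0)` -/

theorem coeff_mem_of_mem_chartRing (hA : A.LiesOverPrime ℓ) (i : ℕ) {f : FK N}
    (hf : f ∈ chartRing N ℓ A ⊤ i) (k : ℤ) : (f : LaurentSeries Qb).coeff k ∈ A := by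
  obtain ⟨n, a, s, ha, hs, h⟩ := (mem_chartRing_top_iff N ℓ A i f).mp hf
  rw [h]
  exact comb_coeff_mem A hA a s ha (fun p => isZlIntegral_of_mem_chartSet N ℓ i (hs p)) k

/-- A function whose `q`-expansion has coefficients in `A` is Gauss-integral (SpecC sense). -/
theorem mem_gaussRingC_of_coeff_mem {f : FK N}
    (hf : ∀ k : ℤ, (f : LaurentSeries Qb).coeff k ∈ A) : f ∈ gaussRing N A := by
  refine ⟨1, fun n => ?_, ⟨0, ?_⟩, fun n => ?_⟩
  · rw [Polynomial.coeff_one]
    split_ifs
    exacts [A.one_mem, A.zero_mem]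
  · rw [Polynomial.coeff_one_zero, A.mem_nonunits_iff, map_one]
    exact lt_irrefl _
  · rw [map_one, one_mul]
    exact hf n

theorem emb_algebraMap_Zl (r : Zl ℓ) :
    emb N (algebraMap (Zl ℓ) (FQ N) r) = cst N (algebraMap ℚ Qb (r : ℚ)) := by
  apply Subtype.ext
  rw [coe_emb, Fermat.Agent.S28.helper1588.coe_algebraMap_Zl]
  show coeffEmb Qb (algebraMap ℚ (LaurentSeries ℚ) (r : ℚ)) =
    algebraMap Qb (LaurentSeries Qb) (algebraMap ℚ Qb (r : ℚ))
  rw [coeffEmb, algebraMap_laurentSeries_eq_single, algebraMap_laurentSeries_eq_single,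
    coeffMap_single]

/-- Chart functions are regular at the places where the generators of the chart are regular. -/
theorem emb_mem_place_of_mem_chartAlg (P : Place Qb (FK N)) (S : Set (FQ N))
    (hS : ∀ g ∈ S, emb N g ∈ P.toValuationSubring) {x : FQ N} (hx : x ∈ chartAlg N ℓ S) :
    emb N x ∈ P.toValuationSubring := by
  rw [mem_chartAlg_iff] at hx
  obtain ⟨p, hp, hpx⟩ := hx
  let T : Subalgebra (Zl ℓ) (FQ N) :=
    { carrier := {y | emb N y ∈ P.toValuationSubring}
      mul_mem' := fun {a b} ha hb => by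
        show emb N (a * b) ∈ P.toValuationSubring
        rw [map_mul]
        exact P.toValuationSubring.mul_mem _ _ ha hb
      add_mem' := fun {a b} ha hb => by
        show emb N (a + b) ∈ P.toValuationSubring
        rw [map_add]
        exact P.toValuationSubring.add_mem _ _ ha hb
      algebraMap_mem' := fun r => by
        show emb N (algebraMap (Zl ℓ) (FQ N) r) ∈ P.toValuationSubring
        rw [emb_algebraMap_Zl]
        exact P.algebraMap_mem' _ }
  have hle : Algebra.adjoin (Zl ℓ) S ≤ T := Algebra.adjoin_le hS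
  let ψ : ↥(Algebra.adjoin (Zl ℓ) S) →+* ↥P.toValuationSubring :=
    RingHom.codRestrict ((emb N).comp (Algebra.adjoin (Zl ℓ) S).val.toRingHom)
      P.toValuationSubring.toSubring (fun y => hle y.2)
  have hint : IsIntegral ↥P.toValuationSubring (emb N x) := by
    refine ⟨p.map ψ, hp.map ψ, ?_⟩
    rw [Polynomial.eval₂_map]
    have hcomp : (algebraMap ↥P.toValuationSubring (FK N)).comp ψ =
        (emb N).comp (algebraMap ↥(Algebra.adjoin (Zl ℓ) S) (FQ N)) := by
      ext y; rfl
    rw [hcomp]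
    have h2 := Polynomial.hom_eval₂ p (algebraMap ↥(Algebra.adjoin (Zl ℓ) S) (FQ N)) (emb N) x
    rw [hpx, map_zero] at h2
    exact h2.symm
  obtain ⟨y, hy⟩ := IsIntegrallyClosed.isIntegral_iff.mp hint
  rw [← hy]
  exact y.2

theorem emb_mem_place_of_mem_chartSet (i : ℕ) (P : Place Qb (FK N)) (hP : chartReg N i P)
    {x : FQ N} (hx : x ∈ chartSet N ℓ i) : emb N x ∈ P.toValuationSubring := by
  unfold chartSet at hx
  unfold chartReg at hP
  split_ifs at hx hP
  · exact emb_mem_place_of_mem_chartAlg N ℓ P _ (by rintro g rfl; exact hP) hx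
  · exact emb_mem_place_of_mem_chartAlg N ℓ P _ (by
      rintro g rfl
      rw [map_inv₀]
      exact hP) hx
  · exact emb_mem_place_of_mem_chartAlg N ℓ P _ (by
      rintro g (rfl | rfl)
      · exact hP.1
      · rw [map_inv₀]
        exact hP.2) hx

theorem mem_place_of_mem_chartRing (i : ℕ) (P : Place Qb (FK N)) (hP : chartReg N i P)
    {f : FK N} (hf : f ∈ chartRing N ℓ A ⊤ i) : f ∈ P.toValuationSubring := by
  have hle : chartRing N ℓ A ⊤ i ≤ P.toValuationSubring.toSubring := by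
    refine Subring.closure_le.mpr ?_
    rintro f (⟨c, -, rfl⟩ | ⟨s, hs, rfl⟩)
    · exact P.algebraMap_mem' c
    · exact emb_mem_place_of_mem_chartSet N ℓ i P hP hs
  exact hle hf

/-- **`A · S_i ⊆ L_i(0)`** (unconditional: no hypothesis on `N`). -/
theorem chartRing_subset_Lsec (hA : A.LiesOverPrime ℓ) (i : ℕ) {f : FK N}
    (hf : f ∈ chartRing N ℓ A ⊤ i) : f ∈ Lsec N A i 0 := by
  refine ⟨mem_gaussRingC_of_coeff_mem N A (coeff_mem_of_mem_chartRing N ℓ A hA i hf),
    fun _ P hP => ?_⟩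
  have h0 : (0 : Divisor Qb (FK N)) P = 0 := rfl
  rw [h0, neg_zero]
  exact (Fermat.Agent.S37.helper126.ord_nonneg_iff P).mpr
    (mem_place_of_mem_chartRing N ℓ A i P hP hf)

/-! ### The Gauss ring of SpecC inside the landed Gauss ring of S18 -/

theorem coe_mem_gaussRing_of_mem_gaussRingC {f : FK N} (hf : f ∈ gaussRing N A) :
    (f : LaurentSeries Qb) ∈
      Fermat.Agent.S18.helper8991.gaussRing A (IsLocalRing.residue A) := by
  obtain ⟨Q, hQA, ⟨n₁, hn₁⟩, hcoef⟩ := hf
  have hlift : Q ∈ Polynomial.lifts A.subtype := by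
    rw [Polynomial.lifts_iff_coeff_lifts]
    intro n
    exact ⟨⟨Q.coeff n, hQA n⟩, rfl⟩
  obtain ⟨QA, hQA'⟩ := hlift
  have hY1 : Fermat.Agent.S18.helper8991.inc A (Polynomial.aeval (jqModC A) QA) =
      ((Polynomial.aeval (jK N) Q : FK N) : LaurentSeries Qb) := by
    show coeffMap A.subtype _ = (modularFunctionFieldBar N).val (Polynomial.aeval (jK N) Q)
    rw [Fermat.Agent.S28.helper3292.coeffMap_aeval_jqModC, ← Polynomial.aeval_algHom_apply]
    show _ = Polynomial.aeval ((jK N : FK N) : LaurentSeries Qb) Q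
    rw [coe_jK]
    congr 1
  have hY2 : Fermat.Agent.S18.helper8991.red A (IsLocalRing.residue A)
      (Polynomial.aeval (jqModC A) QA) ≠ 0 := by
    show coeffMap (IsLocalRing.residue A) _ ≠ 0
    rw [Fermat.Agent.S28.helper3292.coeffMap_aeval_jqModC]
    intro h0
    have hmap : QA.map (IsLocalRing.residue A) = 0 :=
      Fermat.Agent.S28.helper3292.aeval_jqModC_injective _ (h0.trans (map_zero _).symm)
    have h1 : IsLocalRing.residue A (QA.coeff n₁) = 0 := by
      have h := congrArg (fun p => p.coeff n₁) hmap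
      simpa [Polynomial.coeff_map] using h
    have h2 : QA.coeff n₁ ∈ IsLocalRing.maximalIdeal A :=
      (IsLocalRing.residue_eq_zero_iff _).mp h1
    apply hn₁
    have h3 : Q.coeff n₁ = ((QA.coeff n₁ : A) : Qb) := by
      have h := congrArg (fun p => p.coeff n₁) hQA'
      simpa [Polynomial.coeff_map] using h.symm
    rw [h3, A.coe_mem_nonunits_iff]
    exact h2
  have h1 : ∀ n : ℤ,
      ((Polynomial.aeval (jK N) Q * f : FK N) : LaurentSeries Qb).coeff n / 1 ∈ A :=
    fun n => by rw [div_one]; exact hcoef n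
  have hZ := Fermat.Agent.S18.helper8991.C_mul_inc_liftDiv A _ 1 one_ne_zero h1
  rw [map_one, one_mul] at hZ
  refine ⟨Fermat.Agent.S18.helper8991.liftDiv A _ 1 h1, Polynomial.aeval (jqModC A) QA, hY2, ?_⟩
  rw [hZ, hY1]
  exact mul_comm _ _

/-! ### The unit ball of the chart, in the vocabulary of SpecC -/

/-- **(UB2) in SpecC vocabulary.**  A Gauss-integral `ℚ̄`-combination of chart functions lies
in `A · S_i`. -/
theorem mem_chartRing_of_comb (hℓN : ¬ ℓ ∣ N) (hA : A.LiesOverPrime ℓ) (i : ℕ) {f : FK N}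
    {n : ℕ} (a : Fin n → Qb) (s : Fin n → FQ N) (hs : ∀ p, s p ∈ chartSet N ℓ i)
    (hf : (f : LaurentSeries Qb) = comb Qb a s) (hg : f ∈ gaussRing N A) :
    f ∈ chartRing N ℓ A ⊤ i := by
  have hS := isCoeffLattice_chartSub N ℓ hℓN i
  have hs' : ∀ p, s p ∈ chartSub N ℓ i := fun p => (mem_chartSub_iff N ℓ i _).mpr (hs p)
  have hg' := coe_mem_gaussRing_of_mem_gaussRingC N A hg
  rw [hf] at hg'
  obtain ⟨m, a', s', ha', hs'', h⟩ := hS.exists_comb_of_mem_gaussRing A hA
    (IsLocalRing.residue A) (fun a ha => (IsLocalRing.residue_eq_zero_iff a).mpr ha) a s hs' hg'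
  exact (mem_chartRing_top_iff N ℓ A i f).mpr
    ⟨m, a', s', ha', fun p => (mem_chartSub_iff N ℓ i _).mp (hs'' p), hf.trans h⟩

/-- **Second clause of `Stmt_ChartInt`**: `𝔪_W ∩ A · S_i ⊆ 𝔪_A · (A · S_i)`. -/
theorem chartMax_of_gaussMax (hℓN : ¬ ℓ ∣ N) (hA : A.LiesOverPrime ℓ) (i : ℕ) {f : FK N}
    (hf : f ∈ chartRing N ℓ A ⊤ i) (hg : f ∈ gaussMax N A) : f ∈ chartMax N ℓ A i := by
  obtain ⟨c, hc, w, hw, rfl⟩ := hg
  rcases eq_or_ne c 0 with rfl | hc0
  · refine ⟨0, hc, 0, Subring.zero_mem _, ?_⟩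
    show algebraMap Qb (FK N) 0 * w = algebraMap Qb (FK N) 0 * 0
    rw [map_zero, zero_mul, zero_mul]
  · refine ⟨c, hc, w, ?_, rfl⟩
    obtain ⟨n, a, s, ha, hs, h⟩ := (mem_chartRing_top_iff N ℓ A i _).mp hf
    have hw' : (w : LaurentSeries Qb) = comb Qb (fun p => c⁻¹ * a p) s := by
      rw [comb_C_mul, ← h]
      show (w : LaurentSeries Qb) =
        HahnSeries.C c⁻¹ * (((cst N c : FK N) : LaurentSeries Qb) * (w : LaurentSeries Qb))
      rw [coe_cst, Fermat.Agent.S18.helper8991.C_inv_mul_C_mul hc0]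
    exact mem_chartRing_of_comb N ℓ A hℓN hA i _ s hs hw' hw

/-! ### `Stmt_ChartInt` -/

/-- **(PT0)** of DICT-PTS, in the shape consumed here: a function of `FK` that is regular at
all places of the generic chart `i` is a finite `ℚ̄`-combination of functions of the chart
`S_i` (the integral closure of `ℚ̄[j]`, `ℚ̄[1/j]`, `ℚ̄[j, 1/j]` in `FK` is `ℚ̄ · S_i`). -/
def Stmt_PT0 : Prop :=
  ∀ (i : ℕ) (f : FK N), (∀ P : Place Qb (FK N), chartReg N i P → 0 ≤ P.ord f) →
    ∃ (n : ℕ) (a : Fin n → Qb) (s : Fin n → FQ N),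
      (∀ p, s p ∈ chartSet N ℓ i) ∧ (f : LaurentSeries Qb) = comb Qb a s

/-- **`Stmt_ChartInt` of `helper9190_SpecC`** from (PT0), for `ℓ ∤ N` and `A` over `ℓ`. -/
theorem stmt_ChartInt_of_PT0 (hℓN : ¬ ℓ ∣ N) (hA : A.LiesOverPrime ℓ) (hPT0 : Stmt_PT0 N ℓ) :
    Stmt_ChartInt N ℓ A := by
  refine ⟨fun i f => ⟨fun hf => ?_, fun hf => chartRing_subset_Lsec N ℓ A hA i hf⟩,
    fun i f hf hg => chartMax_of_gaussMax N ℓ A hℓN hA i hf hg⟩
  obtain ⟨hg, hreg⟩ := hf
  have hreg' : ∀ P : Place Qb (FK N), chartReg N i P → 0 ≤ P.ord f := by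
    intro P hP
    rcases eq_or_ne f 0 with rfl | hf0
    · simp
    · have h := hreg hf0 P hP
      have h0 : (0 : Divisor Qb (FK N)) P = 0 := rfl
      rwa [h0, neg_zero] at h
  obtain ⟨n, a, s, hs, h⟩ := hPT0 i f hreg'
  exact mem_chartRing_of_comb N ℓ A hℓN hA i a s hs h hg

/-! ### HOLO: regular on the generic chart ⟹ integral over `ℚ̄[j^{±1}]` -/

/-- The generators of the chart `i` (`j`; `1/j`; both). -/
def chartGenQ (i : ℕ) : Set (FQ N) :=
  if i = 0 then {jFull N} else if i = 1 then {(jFull N)⁻¹} else {jFull N, (jFull N)⁻¹}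

theorem chartSet_eq_chartAlg (i : ℕ) :
    chartSet N ℓ i = (chartAlg N ℓ (chartGenQ N i) : Set (FQ N)) := by
  unfold chartSet chartGenQ
  split_ifs <;> rfl

theorem chartReg_iff (i : ℕ) (P : Place Qb (FK N)) :
    chartReg N i P ↔ ∀ g ∈ chartGenQ N i, emb N g ∈ P.toValuationSubring := by
  unfold chartReg chartGenQ
  split_ifs
  · constructor
    · rintro h g rfl
      exact h
    · intro h
      exact h _ rfl
  · constructor
    · rintro h g rfl
      rw [map_inv₀]
      exact h
    · intro h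
      have := h _ rfl
      rwa [map_inv₀] at this
  · constructor
    · rintro ⟨h1, h2⟩ g (rfl | rfl)
      · exact h1
      · rw [map_inv₀]
        exact h2
    · intro h
      refine ⟨h _ (Or.inl rfl), ?_⟩
      have := h _ (Or.inr rfl)
      rwa [map_inv₀] at this

/-- **HOLO.**  A function of `FK` which is regular at all places of the generic chart `i` is
integral over `ℚ̄[j]` (resp. `ℚ̄[1/j]`, `ℚ̄[j, 1/j]`). -/
theorem isIntegral_of_regular (i : ℕ) (f : FK N)
    (h : ∀ P : Place Qb (FK N), chartReg N i P → 0 ≤ P.ord f) :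
    IsIntegral (Algebra.adjoin Qb (emb N '' chartGenQ N i)) f := by
  have key : f ∈ (integralClosure (Subring.closure
      (Set.range (algebraMap Qb (FK N)) ∪ emb N '' chartGenQ N i)) (FK N)).toSubring := by
    rw [← iInf_valuationSubring_superset, Subring.mem_iInf]
    rintro ⟨V, hV⟩
    show f ∈ V
    by_cases hVtop : V = ⊤
    · rw [hVtop]
      exact ValuationSubring.mem_top f
    · have := Fermat.Agent.S37.helper5162.finiteDimensional_jBar N
      obtain ⟨P, hP⟩ := Fermat.Agent.S27.helper440.exists_place_of_valuationSubring (K := Qb)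
        (Fermat.Agent.S24.helper24.jBar N) V (fun a => hV (Or.inl ⟨a, rfl⟩)) hVtop
      have hreg : chartReg N i P := (chartReg_iff N i P).mpr (fun g hg => by
        rw [hP]
        exact hV (Or.inr ⟨g, hg, rfl⟩))
      have h1 := (Fermat.Agent.S37.helper126.ord_nonneg_iff P).mp (h P hreg)
      rw [hP] at h1
      exact h1
  obtain ⟨p, hp, hpf⟩ := key
  have hle : Subring.closure (Set.range (algebraMap Qb (FK N)) ∪ emb N '' chartGenQ N i) ≤
      (Algebra.adjoin Qb (emb N '' chartGenQ N i)).toSubring := by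
    rw [Algebra.adjoin_eq_ring_closure]
  let ι : ↥(Subring.closure (Set.range (algebraMap Qb (FK N)) ∪ emb N '' chartGenQ N i)) →+*
      ↥(Algebra.adjoin Qb (emb N '' chartGenQ N i)) :=
    { toFun := fun x => ⟨x.1, hle x.2⟩
      map_one' := rfl
      map_mul' := fun _ _ => rfl
      map_zero' := rfl
      map_add' := fun _ _ => rfl }
  have hcomp : (algebraMap ↥(Algebra.adjoin Qb (emb N '' chartGenQ N i)) (FK N)).comp ι =
      algebraMap ↥(Subring.closure (Set.range (algebraMap Qb (FK N)) ∪ emb N '' chartGenQ N i))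
        (FK N) := rfl
  refine ⟨p.map ι, hp.map _, ?_⟩
  rw [Polynomial.eval₂_map, hcomp]
  exact hpf

/-- **(PT0-INT)** of DICT-PTS: a function of `FK` integral over `ℚ̄[j]` (resp. `ℚ̄[1/j]`,
`ℚ̄[j, 1/j]`) is a finite `ℚ̄`-combination of functions of the chart `S_i`. -/
def Stmt_PT0Int : Prop :=
  ∀ (i : ℕ) (f : FK N), IsIntegral (Algebra.adjoin Qb (emb N '' chartGenQ N i)) f →
    ∃ (n : ℕ) (a : Fin n → Qb) (s : Fin n → FQ N),
      (∀ p, s p ∈ chartSet N ℓ i) ∧ (f : LaurentSeries Qb) = comb Qb a s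

theorem stmt_PT0_of_int (h : Stmt_PT0Int N ℓ) : Stmt_PT0 N ℓ :=
  fun i f hf => h i f (isIntegral_of_regular N i f hf)

/-- **`Stmt_ChartInt` of `helper9190_SpecC`** from (PT0-INT), for `ℓ ∤ N` and `A` over `ℓ`. -/
theorem stmt_ChartInt_of_PT0Int (hℓN : ¬ ℓ ∣ N) (hA : A.LiesOverPrime ℓ)
    (h : Stmt_PT0Int N ℓ) : Stmt_ChartInt N ℓ A :=
  stmt_ChartInt_of_PT0 N ℓ A hℓN hA (stmt_PT0_of_int N ℓ h)

end ChartInt

end Fermat.Agent.S19.helper7154

end
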