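import Mathlib
import Fermat.Agent.S28.helper1588_Core
import Fermat.Agent.S28.helper1595_RouteP
import Fermat.Agent.S28.helper508_FormalPrime
import Fermat.Agent.S18.helper8211_QIntegral
import Fermat.Agent.S18.helper8991_GaussInst
import Fermat.Prelude.Def_FLTPrelim_Ramification

/-!
# S19, leaf DICT-INT: the unit ball of the Igusa charts

Part A (Mathlib only): a purity lemma over a principal ideal domain.

Let `R` be a PID, `L` a torsion-free `R`-module, `T` an `R`-module with an injective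
"coefficient map" `c : T → (X → R)` whose image is saturated.  The coefficient pairing
`L ⊗ T → (X → L)`, `a ⊗ t ↦ (x ↦ c t x • a)` then detects every submodule `I ≤ L`:
a tensor all of whose coefficients lie in `I` comes from `I ⊗ T`.
-/

set_option autoImplicit false
set_option linter.unusedSectionVars false

noncomputable section

namespace Fermat.Agent.S19.helper7154

open TensorProduct

section Purity

variable {R : Type*} [CommRing R]
variable {L : Type*} [AddCommGroup L] [Module R L]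
variable {T : Type*} [AddCommGroup T] [Module R T]
variable {X : Type*}

/-- The coefficient pairing `L ⊗ T → (X → L)`, `a ⊗ t ↦ (x ↦ c t x • a)`. -/
def coeffPairing (c : T →ₗ[R] (X → R)) : L ⊗[R] T →ₗ[R] (X → L) :=
  TensorProduct.lift
    (LinearMap.mk₂ R (fun (a : L) (t : T) => fun x => c t x • a)
      (fun a a' t => by funext x; simp [smul_add])
      (fun r a t => by
        funext x
        show c t x • r • a = r • c t x • a
        rw [smul_comm])
      (fun a t t' => by funext x; simp [add_smul])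
      (fun r a t => by funext x; simp [mul_smul]))

@[simp]
theorem coeffPairing_tmul (c : T →ₗ[R] (X → R)) (a : L) (t : T) (x : X) :
    coeffPairing c (a ⊗ₜ[R] t) x = c t x • a := rfl

/-- In a discrete valuation ring, saturation with respect to a uniformiser implies saturation
with respect to every nonzero element. -/
theorem saturated_of_irreducible [IsDomain R] [IsDiscreteValuationRing R] {ϖ : R}
    (hϖ : Irreducible ϖ) (c : T →ₗ[R] (X → R))
    (hsat : ∀ t : T, (∀ x, ϖ ∣ c t x) → ∃ t' : T, t = ϖ • t') :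
    ∀ (t : T) (r : R), r ≠ 0 → (∀ x, r ∣ c t x) → ∃ t' : T, t = r • t' := by
  intro t r hr h
  obtain ⟨n, hn⟩ := IsDiscreteValuationRing.associated_pow_irreducible hr hϖ
  obtain ⟨u, hu⟩ := hn.symm
  -- `ϖ ^ n * u = r`
  have key : ∀ (n : ℕ) (t : T), (∀ x, ϖ ^ n ∣ c t x) → ∃ t' : T, t = ϖ ^ n • t' := by
    intro n
    induction n with
    | zero => intro t _; exact ⟨t, by simp⟩
    | succ n ih =>
      intro t ht
      obtain ⟨t₁, ht₁⟩ := hsat t (fun x => dvd_trans (dvd_pow_self ϖ (Nat.succ_ne_zero n)) (ht x))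
      have h1 : ∀ x, ϖ ^ n ∣ c t₁ x := by
        intro x
        have h2 := ht x
        rw [ht₁, map_smul, Pi.smul_apply, smul_eq_mul, pow_succ'] at h2
        exact (mul_dvd_mul_iff_left hϖ.ne_zero).mp h2
      obtain ⟨t₂, ht₂⟩ := ih t₁ h1
      exact ⟨t₂, by rw [ht₁, ht₂, pow_succ', mul_smul]⟩
  obtain ⟨t', ht'⟩ := key n t (fun x => dvd_trans ⟨(u : R), hu.symm⟩ (h x))
  refine ⟨(↑u⁻¹ : R) • t', ?_⟩
  rw [ht', ← hu, smul_smul, mul_assoc, Units.mul_inv, mul_one]

/-- **Purity.**  Over a PID `R`, let `L` be torsion-free and let `c : T → (X → R)` be injective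
with saturated image.  If all coefficients of `z : L ⊗ T` lie in a submodule `I ≤ L`, then `z`
comes from `I ⊗ T`. -/
theorem mem_range_rTensor_of_coeffPairing_mem [IsDomain R] [IsPrincipalIdealRing R]
    [Module.IsTorsionFree R L] (c : T →ₗ[R] (X → R)) (hinj : Function.Injective c)
    (hsat : ∀ (t : T) (r : R), r ≠ 0 → (∀ x, r ∣ c t x) → ∃ t' : T, t = r • t')
    (I : Submodule R L) (z : L ⊗[R] T) (hz : ∀ x, coeffPairing c z x ∈ I) :
    z ∈ LinearMap.range (LinearMap.rTensor T I.subtype) := by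
  classical
  obtain ⟨S, rfl⟩ := TensorProduct.exists_finset z
  -- the finitely generated submodule spanned by the first coordinates
  set M : Submodule R L := Submodule.span R ((S.image Prod.fst : Finset L) : Set L) with hM
  have : Module.Finite R M := Module.Finite.span_of_finite R (Finset.finite_toSet _)
  have : Module.Free R M := Module.free_of_finite_type_torsion_free'
  have hmem : ∀ p ∈ S, p.1 ∈ M := fun p hp =>
    Submodule.subset_span (Finset.mem_coe.mpr (Finset.mem_image_of_mem Prod.fst hp))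
  -- Smith normal form of `I ∩ M` inside `M`
  obtain ⟨n, snf⟩ := Submodule.smithNormalForm (Module.Free.chooseBasis R M)
    (Submodule.comap M.subtype I)
  set bM := snf.bM with hbM
  -- coordinates of the first components
  let m : L × T → M := fun p => if h : p.1 ∈ M then ⟨p.1, h⟩ else 0
  have hm : ∀ p ∈ S, ((m p : M) : L) = p.1 := fun p hp => by
    simp only [m, dif_pos (hmem p hp)]
  let t : Module.Free.ChooseBasisIndex R M → T := fun i => ∑ p ∈ S, bM.repr (m p) i • p.2
  -- rewrite `z` in the basis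
  have hz1 : (∑ p ∈ S, p.1 ⊗ₜ[R] p.2 : L ⊗[R] T) = ∑ i, ((bM i : M) : L) ⊗ₜ[R] t i := by
    have h1 : ∀ p ∈ S, (p.1 ⊗ₜ[R] p.2 : L ⊗[R] T) =
        ∑ i, ((bM i : M) : L) ⊗ₜ[R] (bM.repr (m p) i • p.2) := by
      intro p hp
      have h2 : p.1 = ∑ i, bM.repr (m p) i • ((bM i : M) : L) := by
        rw [← hm p hp]
        have h3 := congrArg M.subtype (bM.sum_repr (m p))
        rw [map_sum] at h3
        simpa using h3.symm
      conv_lhs => rw [h2]
      rw [TensorProduct.sum_tmul]
      refine Finset.sum_congr rfl fun i _ => ?_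
      rw [TensorProduct.smul_tmul]
    rw [Finset.sum_congr rfl h1, Finset.sum_comm]
    refine Finset.sum_congr rfl fun i _ => ?_
    rw [← TensorProduct.tmul_sum]
  rw [hz1] at hz ⊢
  -- the coefficient vectors lie in `I ∩ M`
  let w : X → M := fun x => ∑ i, c (t i) x • bM i
  have hw : ∀ x, w x ∈ Submodule.comap M.subtype I := by
    intro x
    have h1 := hz x
    rw [map_sum, Finset.sum_apply] at h1
    simp only [coeffPairing_tmul] at h1
    show ((w x : M) : L) ∈ I
    simpa [w] using h1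
  have hrepr : ∀ x i, bM.repr (w x) i = c (t i) x := by
    intro x i
    have := bM.repr_sum_self (fun i => c (t i) x)
    exact congrFun (congrArg (fun g => (g : Module.Free.ChooseBasisIndex R M → R)) this) i
  -- off the range of `f` the `t i` vanish
  have ht0 : ∀ i, i ∉ Set.range snf.f → t i = 0 := by
    intro i hi
    apply hinj
    rw [map_zero]
    funext x
    rw [← hrepr x i]
    exact snf.repr_eq_zero_of_notMem_range ⟨w x, hw x⟩ hi
  -- on the range of `f` they are divisible by the elementary divisors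
  have ha0 : ∀ j, snf.a j ≠ 0 := by
    intro j h0
    have h1 := snf.snf j
    rw [h0, zero_smul] at h1
    have h2 : snf.bN j = 0 := Subtype.ext h1
    exact snf.bN.ne_zero j h2
  have hdiv : ∀ j, ∃ t' : T, t (snf.f j) = snf.a j • t' := by
    intro j
    refine hsat _ _ (ha0 j) fun x => ?_
    rw [← hrepr x (snf.f j)]
    have h1 := snf.repr_apply_embedding_eq_repr_smul (m := ⟨w x, hw x⟩) (i := j)
    rw [map_smul, Finsupp.smul_apply, smul_eq_mul] at h1
    exact ⟨_, h1⟩
  choose t' ht' using hdiv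
  have hbN : ∀ j, (((snf.bN j : Submodule.comap M.subtype I) : M) : L) ∈ I := fun j => (snf.bN j).2
  refine ⟨∑ j, (⟨(((snf.bN j : Submodule.comap M.subtype I) : M) : L), hbN j⟩ : I) ⊗ₜ[R] t' j, ?_⟩
  rw [map_sum]
  simp only [LinearMap.rTensor_tmul, Submodule.subtype_apply]
  symm
  refine (Fintype.sum_of_injective snf.f snf.f.injective _ _ (fun i hi => ?_) (fun j => ?_)).symm
  · rw [ht0 i hi, TensorProduct.tmul_zero]
  · have h5 : (((snf.bN j : Submodule.comap M.subtype I) : M) : L) =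
        snf.a j • ((bM (snf.f j) : M) : L) := by
      rw [snf.snf j]
      rfl
    rw [ht' j, TensorProduct.tmul_smul, TensorProduct.smul_tmul', h5]

end Purity

/-! ## Part B: the Igusa charts -/

section Charts

open ModularCurve ModularCurve.IgusaScheme
open Fermat.Agent.S28.helper1588

variable (ℓ : ℕ) [Fact ℓ.Prime]

/-- A Laurent series over `ℚ` has `ℓ`-integral coefficients. -/
def IsZlIntegral (f : LaurentSeries ℚ) : Prop :=
  ∀ k : ℤ, f.coeff k ∈ GaloisRep.ratLocalizedAt ℓ

omit [Fact ℓ.Prime] in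
theorem isZlIntegral_incl (a : LZ ℓ) : IsZlIntegral ℓ (incl ℓ a) := fun k => (a.coeff k).2

theorem isZlIntegral_iff (f : LaurentSeries ℚ) :
    IsZlIntegral ℓ f ↔ ∃ a : LZ ℓ, incl ℓ a = f :=
  ⟨fun h => exists_incl_eq ℓ f h, by rintro ⟨a, rfl⟩; exact isZlIntegral_incl ℓ a⟩

variable {ℓ} in
theorem IsZlIntegral.mem_OSub {f : LaurentSeries ℚ} (h : IsZlIntegral ℓ f) : f ∈ OSub ℓ := by
  obtain ⟨a, rfl⟩ := (isZlIntegral_iff ℓ f).mp h
  exact incl_mem_OSub ℓ a

theorem isZlIntegral_jq : IsZlIntegral ℓ jq := by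
  rw [isZlIntegral_iff]
  exact ⟨liftZ ℓ (jqModC ℤ), by rw [incl_liftZ, toQ_jqModC]⟩

theorem isZlIntegral_jq_inv : IsZlIntegral ℓ jq⁻¹ := by
  rw [isZlIntegral_iff]
  refine ⟨Fermat.Agent.S28.helper3292.jInvSeries (Zl ℓ), ?_⟩
  have h1 := congrArg (incl ℓ) (Fermat.Agent.S28.helper3292.jInvSeries_mul_jqModC (Zl ℓ))
  rw [map_mul, map_one] at h1
  have h2 : incl ℓ (jqModC (Zl ℓ)) = jq := by
    show coeffMap _ (jqModC (Zl ℓ)) = jq
    rw [coeffMap_jqModC, jqModC_rat]
  rw [h2] at h1
  exact eq_inv_of_mul_eq_one_left h1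

variable (N : ℕ) [NeZero N]

/-- **(UB1)** The elements of a chart algebra whose generators have `ℓ`-integral `q`-expansions
have `ℓ`-integral `q`-expansions. -/
theorem isZlIntegral_of_mem_chartAlg (S : Set ↥(modularFunctionFieldFull N))
    (hS : ∀ s ∈ S, IsZlIntegral ℓ ((s : ↥(modularFunctionFieldFull N)) : LaurentSeries ℚ))
    (x : ↥(modularFunctionFieldFull N)) (hx : x ∈ chartAlg N ℓ S) :
    IsZlIntegral ℓ (x : LaurentSeries ℚ) := by
  rw [isZlIntegral_iff]
  rw [mem_chartAlg_iff] at hx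
  obtain ⟨a, b, hb, hab⟩ := (mem_QW_iff ℓ _).mp (modularFunctionFieldFull_le_QWI ℓ N x.2)
  have hint : IsIntegral (incl ℓ).range (x : LaurentSeries ℚ) := by
    obtain ⟨p, hp, hpx⟩ := hx
    let T : Subalgebra (Zl ℓ) ↥(modularFunctionFieldFull N) :=
      { carrier := {y | (y : LaurentSeries ℚ) ∈ (incl ℓ).range}
        mul_mem' := fun {a b} ha hb => (incl ℓ).range.mul_mem ha hb
        add_mem' := fun {a b} ha hb => (incl ℓ).range.add_mem ha hb
        algebraMap_mem' := fun a => by
          show ((algebraMap (Zl ℓ) ↥(modularFunctionFieldFull N) a :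
            ↥(modularFunctionFieldFull N)) : LaurentSeries ℚ) ∈ (incl ℓ).range
          rw [coe_algebraMap_Zl]
          refine ⟨HahnSeries.single 0 a, ?_⟩
          show coeffMap _ (HahnSeries.single 0 a) = algebraMap ℚ (LaurentSeries ℚ) (a : ℚ)
          rw [coeffMap_single, Fermat.Agent.S28.helper3292.algebraMap_eq_single]
          rfl }
    have hle : Algebra.adjoin (Zl ℓ) S ≤ T :=
      Algebra.adjoin_le fun s hs => (isZlIntegral_iff ℓ _).mp (hS s hs)
    let ψ : ↥(Algebra.adjoin (Zl ℓ) S) →+* ↥(incl ℓ).range :=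
      RingHom.codRestrict ((coeF N).comp
        (Algebra.adjoin (Zl ℓ) S).val.toRingHom) (incl ℓ).range (fun y => hle y.2)
    refine ⟨p.map ψ, hp.map ψ, ?_⟩
    rw [Polynomial.eval₂_map]
    have hcomp : (algebraMap ↥(incl ℓ).range (LaurentSeries ℚ)).comp ψ =
        (coeF N).comp
          (algebraMap ↥(Algebra.adjoin (Zl ℓ) S) ↥(modularFunctionFieldFull N)) := by
      ext y; rfl
    rw [hcomp]
    have h2 := Polynomial.hom_eval₂ p
      (algebraMap ↥(Algebra.adjoin (Zl ℓ) S) ↥(modularFunctionFieldFull N))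
      (coeF N) x
    rw [hpx, map_zero] at h2
    exact h2.symm
  exact Fermat.Agent.S18.helper8211.mem_range_coeffMap_of_isIntegral
    (GaloisRep.ratLocalizedAt ℓ).subtype Subtype.val_injective _ a b hb
    (by rw [mul_comm]; exact hab) hint

/-- A `ℤ_(ℓ)`-subalgebra of the modular function field is a *coefficient lattice* if its elements
have `ℓ`-integral `q`-expansions and it is saturated in the functions with `ℓ`-integral
`q`-expansion. -/
structure IsCoeffLattice (S : Subalgebra (Zl ℓ) ↥(modularFunctionFieldFull N)) : Prop where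
  int : ∀ x ∈ S, IsZlIntegral ℓ ((x : ↥(modularFunctionFieldFull N)) : LaurentSeries ℚ)
  sat : ∀ y : ↥(modularFunctionFieldFull N), IsZlIntegral ℓ (y : LaurentSeries ℚ) →
    (ℓ : ↥(modularFunctionFieldFull N)) * y ∈ S → y ∈ S

/-- The modular input of the S28 algebra core, for `ℓ ∤ N` (landed, unconditional). -/
theorem coreInput (hℓN : ¬ ℓ ∣ N) : Fermat.Agent.S28.Spec.Stmt_CoreInput N ℓ :=
  Fermat.Agent.S28.helper1595.stmt_CoreInput_routeP N ℓ hℓN
    (fun p _ _ => Fermat.Agent.S28.helper508.stmt_FormalPrime p)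

theorem isCoeffLattice_chartAlgFin (hℓN : ¬ ℓ ∣ N) : IsCoeffLattice ℓ N (chartAlgFin N ℓ) where
  int := isZlIntegral_of_mem_chartAlg ℓ N _ (by rintro s rfl; exact isZlIntegral_jq ℓ)
  sat := fun y hy h => fin_kernel ℓ N (coreInput ℓ N hℓN) y hy.mem_OSub h

theorem isCoeffLattice_chartAlgInf (hℓN : ¬ ℓ ∣ N) : IsCoeffLattice ℓ N (chartAlgInf N ℓ) where
  int := isZlIntegral_of_mem_chartAlg ℓ N _ (by rintro s rfl; exact isZlIntegral_jq_inv ℓ)
  sat := fun y hy h => inf_kernel ℓ N (coreInput ℓ N hℓN) y hy.mem_OSub h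

theorem isCoeffLattice_chartAlgMid (hℓN : ¬ ℓ ∣ N) : IsCoeffLattice ℓ N (chartAlgMid N ℓ) where
  int := isZlIntegral_of_mem_chartAlg ℓ N _ (by
    rintro s (rfl | rfl)
    · exact isZlIntegral_jq ℓ
    · exact isZlIntegral_jq_inv ℓ)
  sat := fun y hy h => mid_kernel ℓ N (coreInput ℓ N hℓN) y hy.mem_OSub h

/-! ### The coefficient map of a coefficient lattice -/

section Lattice

variable {ℓ N}
variable {S : Subalgebra (Zl ℓ) ↥(modularFunctionFieldFull N)}

theorem coeff_coe_smul (r : Zl ℓ) (x : ↥(modularFunctionFieldFull N)) (k : ℤ) :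
    ((r • x : ↥(modularFunctionFieldFull N)) : LaurentSeries ℚ).coeff k =
      (r : ℚ) * (x : LaurentSeries ℚ).coeff k := by
  rw [Algebra.smul_def]
  show (((algebraMap (Zl ℓ) ↥(modularFunctionFieldFull N) r : ↥(modularFunctionFieldFull N)) :
    LaurentSeries ℚ) * (x : LaurentSeries ℚ)).coeff k = _
  rw [coe_algebraMap_Zl]
  exact Fermat.Agent.S28.helper3292.coeff_algebraMap_mul ℚ (r : ℚ) _ k

/-- The `q`-expansion coefficients of a coefficient lattice, as a `ℤ_(ℓ)`-linear map. -/
def IsCoeffLattice.coeffLin (hS : IsCoeffLattice ℓ N S) : ↥S →ₗ[Zl ℓ] (ℤ → Zl ℓ) where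
  toFun s k := ⟨((s : ↥(modularFunctionFieldFull N)) : LaurentSeries ℚ).coeff k, hS.int s s.2 k⟩
  map_add' s s' := by
    funext k
    apply Subtype.ext
    rfl
  map_smul' r s := by
    funext k
    apply Subtype.ext
    exact coeff_coe_smul r (s : ↥(modularFunctionFieldFull N)) k

theorem IsCoeffLattice.coe_coeffLin (hS : IsCoeffLattice ℓ N S) (s : ↥S) (k : ℤ) :
    ((hS.coeffLin s k : Zl ℓ) : ℚ) =
      ((s : ↥(modularFunctionFieldFull N)) : LaurentSeries ℚ).coeff k := rfl

theorem IsCoeffLattice.coeffLin_injective (hS : IsCoeffLattice ℓ N S) :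
    Function.Injective hS.coeffLin := by
  intro s s' h
  apply Subtype.ext
  apply Subtype.ext
  ext k
  exact congrArg Subtype.val (congrFun h k)

theorem IsCoeffLattice.coeffLin_sat (hS : IsCoeffLattice ℓ N S) (t : ↥S)
    (h : ∀ k, ((ℓ : ℕ) : Zl ℓ) ∣ hS.coeffLin t k) : ∃ t' : ↥S, t = ((ℓ : ℕ) : Zl ℓ) • t' := by
  have hℓ0 : (ℓ : ℚ) ≠ 0 := by exact_mod_cast (Fact.out : ℓ.Prime).ne_zero
  have hl0 : (ℓ : ↥(modularFunctionFieldFull N)) ≠ 0 :=
    Nat.cast_ne_zero.mpr (Fact.out : ℓ.Prime).ne_zero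
  obtain ⟨y, hy⟩ : ∃ y : ↥(modularFunctionFieldFull N),
      y = (ℓ : ↥(modularFunctionFieldFull N))⁻¹ * (t : ↥(modularFunctionFieldFull N)) := ⟨_, rfl⟩
  have h1 : (ℓ : ↥(modularFunctionFieldFull N)) * y = t := by
    rw [hy, mul_inv_cancel_left₀ hl0]
  have h2 : ∀ k, (ℓ : ℚ) * (y : LaurentSeries ℚ).coeff k =
      ((t : ↥(modularFunctionFieldFull N)) : LaurentSeries ℚ).coeff k := by
    intro k
    rw [← h1, coe_natCast_mul]
    have h3 : ((ℓ : ℕ) : LaurentSeries ℚ) = algebraMap ℚ (LaurentSeries ℚ) (ℓ : ℚ) := by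
      rw [map_natCast]
    rw [h3, Fermat.Agent.S28.helper3292.coeff_algebraMap_mul]
  have hyint : IsZlIntegral ℓ (y : LaurentSeries ℚ) := by
    intro k
    obtain ⟨d, hd⟩ := h k
    have h4 : (y : LaurentSeries ℚ).coeff k = (d : ℚ) := by
      have h5 := h2 k
      rw [← hS.coe_coeffLin, hd] at h5
      have h6 : ((((ℓ : ℕ) : Zl ℓ) * d : Zl ℓ) : ℚ) = (ℓ : ℚ) * (d : ℚ) := by
        push_cast
        rfl
      rw [h6] at h5
      exact mul_left_cancel₀ hℓ0 h5
    rw [h4]
    exact d.2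
  have hyS : y ∈ S := hS.sat y hyint (by rw [h1]; exact t.2)
  refine ⟨⟨y, hyS⟩, ?_⟩
  apply Subtype.ext
  show (t : ↥(modularFunctionFieldFull N)) = ((ℓ : ℕ) : Zl ℓ) • y
  rw [Algebra.smul_def, map_natCast, h1]

end Lattice

/-! ### Finite combinations of chart functions with constant coefficients -/

section Comb

variable {N}
variable (L : Type*) [Field L] [Algebra ℚ L]

/-- The finite combination `∑ C (a p) * ι (s p)` in `L((q))`, where `ι` is the coefficient
embedding of `ℚ((q))`. -/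
def comb {n : ℕ} (a : Fin n → L) (s : Fin n → ↥(modularFunctionFieldFull N)) : LaurentSeries L :=
  ∑ p, HahnSeries.C (a p) * coeffEmb L ((s p : ↥(modularFunctionFieldFull N)) : LaurentSeries ℚ)

omit [NeZero N] in
theorem comb_coeff {n : ℕ} (a : Fin n → L) (s : Fin n → ↥(modularFunctionFieldFull N)) (k : ℤ) :
    (comb L a s).coeff k =
      ∑ p, a p * algebraMap ℚ L ((s p : LaurentSeries ℚ).coeff k) := by
  rw [comb, HahnSeries.coeff_sum]
  refine Finset.sum_congr rfl fun p _ => ?_
  rw [Fermat.Agent.S18.helper8991.coeff_C_mul, coeffEmb_coeff]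

end Comb

section Main

variable {ℓ N}
variable {S : Subalgebra (Zl ℓ) ↥(modularFunctionFieldFull N)}
variable {L : Type*} [Field L] [Algebra ℚ L]

omit [Fact ℓ.Prime] in
theorem zl_smul_eq (r : Zl ℓ) (x : L) : r • x = algebraMap ℚ L (r : ℚ) * x := by
  rw [← Algebra.smul_def]
  rfl

theorem IsCoeffLattice.coeffPairing_sum (hS : IsCoeffLattice ℓ N S) {n : ℕ} (a : Fin n → L)
    (s : Fin n → ↥S) (k : ℤ) :
    coeffPairing hS.coeffLin (∑ p, a p ⊗ₜ[Zl ℓ] s p) k =
      (comb L a (fun p => (s p : ↥(modularFunctionFieldFull N)))).coeff k := by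
  rw [map_sum, Finset.sum_apply, comb_coeff]
  refine Finset.sum_congr rfl fun p _ => ?_
  rw [coeffPairing_tmul, zl_smul_eq, hS.coe_coeffLin, mul_comm]

/-- **Main theorem (purity of the chart lattice).**  Let `S` be a coefficient lattice (e.g. one
of the three Igusa charts, `ℓ ∤ N`), `L` a field of characteristic zero and `I ⊆ L` an additive
subgroup stable under `ℤ_(ℓ)`.  If all `q`-expansion coefficients of a finite combination
`f = ∑ a_p ι(s_p)` (`a_p ∈ L`, `s_p ∈ S`) lie in `I`, then `f = ∑ a'_p ι(s'_p)` with `a'_p ∈ I`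
and `s'_p ∈ S`. -/
theorem IsCoeffLattice.exists_comb_of_coeff_mem (hS : IsCoeffLattice ℓ N S) (I : AddSubgroup L)
    (hI : ∀ r ∈ GaloisRep.ratLocalizedAt ℓ, ∀ x ∈ I, algebraMap ℚ L r * x ∈ I)
    {n : ℕ} (a : Fin n → L) (s : Fin n → ↥(modularFunctionFieldFull N)) (hs : ∀ p, s p ∈ S)
    (hcoef : ∀ k : ℤ, (comb L a s).coeff k ∈ I) :
    ∃ (m : ℕ) (a' : Fin m → L) (s' : Fin m → ↥(modularFunctionFieldFull N)),
      (∀ p, a' p ∈ I) ∧ (∀ p, s' p ∈ S) ∧ comb L a s = comb L a' s' := by
  classical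
  let I' : Submodule (Zl ℓ) L :=
    { carrier := I
      add_mem' := I.add_mem
      zero_mem' := I.zero_mem
      smul_mem' := fun r x hx => by
        show r • x ∈ I
        rw [zl_smul_eq]
        exact hI _ r.2 x hx }
  have hsat := saturated_of_irreducible (Fermat.Agent.S28.helper508.irreducible_ell ℓ)
    hS.coeffLin hS.coeffLin_sat
  let z : L ⊗[Zl ℓ] ↥S := ∑ p, a p ⊗ₜ[Zl ℓ] (⟨s p, hs p⟩ : ↥S)
  have hzc : ∀ k, coeffPairing hS.coeffLin z k = (comb L a s).coeff k := fun k =>
    hS.coeffPairing_sum a (fun p => (⟨s p, hs p⟩ : ↥S)) k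
  have hz : ∀ k, coeffPairing hS.coeffLin z k ∈ I' := fun k => by
    rw [hzc k]
    exact hcoef k
  obtain ⟨z', hz'⟩ := mem_range_rTensor_of_coeffPairing_mem hS.coeffLin hS.coeffLin_injective
    hsat I' z hz
  obtain ⟨S', rfl⟩ := TensorProduct.exists_finset z'
  have hz2 : z = ∑ i : Fin S'.card, (((S'.equivFin.symm i : ↥S') : ↥I' × ↥S).1 : L) ⊗ₜ[Zl ℓ]
      ((S'.equivFin.symm i : ↥S') : ↥I' × ↥S).2 := by
    rw [← hz', map_sum]
    simp only [LinearMap.rTensor_tmul, Submodule.subtype_apply]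
    rw [← Finset.sum_coe_sort S' (fun q => ((q.1 : ↥I') : L) ⊗ₜ[Zl ℓ] q.2)]
    exact (Equiv.sum_comp S'.equivFin.symm _).symm
  refine ⟨S'.card, fun i => (((S'.equivFin.symm i : ↥S') : ↥I' × ↥S).1 : L),
    fun i => (((S'.equivFin.symm i : ↥S') : ↥I' × ↥S).2 : ↥(modularFunctionFieldFull N)),
    fun i => ((S'.equivFin.symm i : ↥S') : ↥I' × ↥S).1.2,
    fun i => ((S'.equivFin.symm i : ↥S') : ↥I' × ↥S).2.2, ?_⟩
  ext k
  rw [← hzc k, hz2]
  exact hS.coeffPairing_sum _ _ k

end Main

/-! ### Valuation subrings: balls, the unit ball, saturation -/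

section Valuation

variable {ℓ N}
variable {S : Subalgebra (Zl ℓ) ↥(modularFunctionFieldFull N)}
variable {L : Type*} [Field L] [Algebra ℚ L]

omit [Fact ℓ.Prime] in
/-- `ℤ_(ℓ) ⊆ A` for a valuation subring `A` lying over `ℓ`. -/
theorem algebraMap_mem_of_liesOverPrime (A : ValuationSubring L) (hA : A.LiesOverPrime ℓ) {r : ℚ}
    (hr : r ∈ GaloisRep.ratLocalizedAt ℓ) : algebraMap ℚ L r ∈ A := by
  have hcop : r.den.Coprime ℓ := hr
  have hv : A.valuation ((ℓ : ℕ) : L) < 1 := A.mem_nonunits_iff.mp hA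
  have hden : A.valuation ((r.den : ℕ) : L) = 1 := by
    have h1 : A.valuation ((r.den : ℕ) : L) ≤ 1 :=
      (A.valuation_le_one_iff _).mpr (natCast_mem A _)
    refine le_antisymm h1 ?_
    by_contra hlt
    push Not at hlt
    obtain ⟨u, w, huw⟩ : ∃ u w : ℤ, (u : L) * ((r.den : ℕ) : L) + (w : L) * ((ℓ : ℕ) : L) = 1 := by
      obtain ⟨u, w, h⟩ := Nat.Coprime.isCoprime hcop
      exact ⟨u, w, by exact_mod_cast congrArg (Int.cast : ℤ → L) h⟩
    have hint : ∀ z : ℤ, A.valuation (z : L) ≤ 1 := fun z =>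
      (A.valuation_le_one_iff _).mpr (intCast_mem A z)
    have h2 : A.valuation (1 : L) < 1 := by
      rw [← huw]
      refine Valuation.map_add_lt _ ?_ ?_
      · rw [map_mul]
        calc A.valuation (u : L) * A.valuation ((r.den : ℕ) : L)
            ≤ 1 * A.valuation ((r.den : ℕ) : L) := mul_le_mul' (hint u) le_rfl
          _ = A.valuation ((r.den : ℕ) : L) := one_mul _
          _ < 1 := hlt
      · rw [map_mul]
        calc A.valuation (w : L) * A.valuation ((ℓ : ℕ) : L)
            ≤ 1 * A.valuation ((ℓ : ℕ) : L) := mul_le_mul' (hint w) le_rfl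
          _ = A.valuation ((ℓ : ℕ) : L) := one_mul _
          _ < 1 := hv
    rw [map_one] at h2
    exact lt_irrefl _ h2
  rw [← A.valuation_le_one_iff, eq_ratCast, Rat.cast_def, map_div₀, hden, div_one]
  exact (A.valuation_le_one_iff _).mpr (intCast_mem A _)

/-- The closed ball of radius `γ`. -/
def ballLE (A : ValuationSubring L) (γ : A.ValueGroup) : AddSubgroup L where
  carrier := {x | A.valuation x ≤ γ}
  zero_mem' := by simp
  add_mem' := fun {x y} hx hy => (A.valuation.map_add x y).trans (max_le hx hy)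
  neg_mem' := fun {x} hx => by
    show A.valuation (-x) ≤ γ
    rw [Valuation.map_neg]
    exact hx

/-- The open ball of radius `γ ≠ 0`. -/
def ballLT (A : ValuationSubring L) (γ : A.ValueGroup) (hγ : γ ≠ 0) : AddSubgroup L where
  carrier := {x | A.valuation x < γ}
  zero_mem' := by
    show A.valuation (0 : L) < γ
    rw [map_zero]
    exact zero_lt_iff.mpr hγ
  add_mem' := fun {x y} hx hy => by
    show A.valuation (x + y) < γ
    exact Valuation.map_add_lt _ hx hy
  neg_mem' := fun {x} hx => by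
    show A.valuation (-x) < γ
    rw [Valuation.map_neg]
    exact hx

theorem mem_ballLE (A : ValuationSubring L) (γ : A.ValueGroup) {x : L} :
    x ∈ ballLE A γ ↔ A.valuation x ≤ γ := Iff.rfl

theorem mem_ballLT (A : ValuationSubring L) (γ : A.ValueGroup) (hγ : γ ≠ 0) {x : L} :
    x ∈ ballLT A γ hγ ↔ A.valuation x < γ := Iff.rfl

omit [Fact ℓ.Prime] in
theorem valuation_algebraMap_mul_le (A : ValuationSubring L) (hA : A.LiesOverPrime ℓ) {r : ℚ}
    (hr : r ∈ GaloisRep.ratLocalizedAt ℓ) (x : L) :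
    A.valuation (algebraMap ℚ L r * x) ≤ A.valuation x := by
  rw [map_mul]
  calc A.valuation (algebraMap ℚ L r) * A.valuation x ≤ 1 * A.valuation x :=
        mul_le_mul' ((A.valuation_le_one_iff _).mpr (algebraMap_mem_of_liesOverPrime A hA hr)) le_rfl
    _ = A.valuation x := one_mul _

/-- **Closed balls.**  If all `q`-expansion coefficients of `f = ∑ a_p ι(s_p)` have valuation
`≤ γ`, then `f = ∑ a'_p ι(s'_p)` with `v(a'_p) ≤ γ`. -/
theorem IsCoeffLattice.exists_comb_valuation_le (hS : IsCoeffLattice ℓ N S)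
    (A : ValuationSubring L) (hA : A.LiesOverPrime ℓ) (γ : A.ValueGroup)
    {n : ℕ} (a : Fin n → L) (s : Fin n → ↥(modularFunctionFieldFull N)) (hs : ∀ p, s p ∈ S)
    (hcoef : ∀ k : ℤ, A.valuation ((comb L a s).coeff k) ≤ γ) :
    ∃ (m : ℕ) (a' : Fin m → L) (s' : Fin m → ↥(modularFunctionFieldFull N)),
      (∀ p, A.valuation (a' p) ≤ γ) ∧ (∀ p, s' p ∈ S) ∧ comb L a s = comb L a' s' :=
  hS.exists_comb_of_coeff_mem (ballLE A γ)
    (fun _ hr x hx => (valuation_algebraMap_mul_le A hA hr x).trans hx) a s hs hcoef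

/-- **Open balls.**  If all `q`-expansion coefficients of `f = ∑ a_p ι(s_p)` have valuation
`< γ`, then `f = ∑ a'_p ι(s'_p)` with `v(a'_p) < γ`. -/
theorem IsCoeffLattice.exists_comb_valuation_lt (hS : IsCoeffLattice ℓ N S)
    (A : ValuationSubring L) (hA : A.LiesOverPrime ℓ) (γ : A.ValueGroup)
    {n : ℕ} (a : Fin n → L) (s : Fin n → ↥(modularFunctionFieldFull N)) (hs : ∀ p, s p ∈ S)
    (hcoef : ∀ k : ℤ, A.valuation ((comb L a s).coeff k) < γ) :
    ∃ (m : ℕ) (a' : Fin m → L) (s' : Fin m → ↥(modularFunctionFieldFull N)),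
      (∀ p, A.valuation (a' p) < γ) ∧ (∀ p, s' p ∈ S) ∧ comb L a s = comb L a' s' := by
  have hγ : γ ≠ 0 := fun h0 => not_lt_zero (h0 ▸ hcoef 0)
  exact hS.exists_comb_of_coeff_mem (ballLT A γ hγ)
    (fun _ hr x hx => (mem_ballLT A γ hγ).mpr
      (lt_of_le_of_lt (valuation_algebraMap_mul_le A hA hr x) ((mem_ballLT A γ hγ).mp hx)))
    a s hs (fun k => (mem_ballLT A γ hγ).mpr (hcoef k))

/-- **(UB2), coefficient form: the unit ball.**  A finite `L`-combination of chart functions all
of whose `q`-expansion coefficients lie in `A` is an `A`-combination of chart functions. -/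
theorem IsCoeffLattice.exists_comb_mem (hS : IsCoeffLattice ℓ N S)
    (A : ValuationSubring L) (hA : A.LiesOverPrime ℓ)
    {n : ℕ} (a : Fin n → L) (s : Fin n → ↥(modularFunctionFieldFull N)) (hs : ∀ p, s p ∈ S)
    (hcoef : ∀ k : ℤ, (comb L a s).coeff k ∈ A) :
    ∃ (m : ℕ) (a' : Fin m → L) (s' : Fin m → ↥(modularFunctionFieldFull N)),
      (∀ p, a' p ∈ A) ∧ (∀ p, s' p ∈ S) ∧ comb L a s = comb L a' s' := by
  obtain ⟨m, a', s', ha', hs', h⟩ := hS.exists_comb_valuation_le A hA 1 a s hs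
    (fun k => (A.valuation_le_one_iff _).mpr (hcoef k))
  exact ⟨m, a', s', fun p => (A.valuation_le_one_iff _).mp (ha' p), hs', h⟩

/-- **Injectivity of the reduction.**  A finite combination of chart functions all of whose
`q`-expansion coefficients lie in the maximal ideal of `A` is a combination of chart functions
with coefficients in the maximal ideal. -/
theorem IsCoeffLattice.exists_comb_mem_nonunits (hS : IsCoeffLattice ℓ N S)
    (A : ValuationSubring L) (hA : A.LiesOverPrime ℓ)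
    {n : ℕ} (a : Fin n → L) (s : Fin n → ↥(modularFunctionFieldFull N)) (hs : ∀ p, s p ∈ S)
    (hcoef : ∀ k : ℤ, (comb L a s).coeff k ∈ A.nonunits) :
    ∃ (m : ℕ) (a' : Fin m → L) (s' : Fin m → ↥(modularFunctionFieldFull N)),
      (∀ p, a' p ∈ A.nonunits) ∧ (∀ p, s' p ∈ S) ∧ comb L a s = comb L a' s' := by
  obtain ⟨m, a', s', ha', hs', h⟩ := hS.exists_comb_valuation_lt A hA 1 a s hs
    (fun k => A.mem_nonunits_iff.mp (hcoef k))
  exact ⟨m, a', s', fun p => A.mem_nonunits_iff.mpr (ha' p), hs', h⟩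

omit [NeZero N] in
theorem comb_C_mul (c : L) {n : ℕ} (a : Fin n → L) (s : Fin n → ↥(modularFunctionFieldFull N)) :
    comb L (fun p => c * a p) s = HahnSeries.C c * comb L a s := by
  rw [comb, comb, Finset.mul_sum]
  refine Finset.sum_congr rfl fun p _ => ?_
  rw [map_mul, mul_assoc]

/-- **(UB3) Saturation.**  If all `q`-expansion coefficients of `f = ∑ a_p ι(s_p)` are divisible
by `c` in `A`, then `f = c · ∑ a'_p ι(s'_p)` with `a'_p ∈ A`. -/
theorem IsCoeffLattice.exists_comb_of_dvd (hS : IsCoeffLattice ℓ N S)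
    (A : ValuationSubring L) (hA : A.LiesOverPrime ℓ) (c : L)
    {n : ℕ} (a : Fin n → L) (s : Fin n → ↥(modularFunctionFieldFull N)) (hs : ∀ p, s p ∈ S)
    (hcoef : ∀ k : ℤ, ∃ b ∈ A, (comb L a s).coeff k = c * b) :
    ∃ (m : ℕ) (a' : Fin m → L) (s' : Fin m → ↥(modularFunctionFieldFull N)),
      (∀ p, a' p ∈ A) ∧ (∀ p, s' p ∈ S) ∧ comb L a s = HahnSeries.C c * comb L a' s' := by
  obtain ⟨m, a', s', ha', hs', h⟩ := hS.exists_comb_valuation_le A hA (A.valuation c) a s hs
    (fun k => by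
      obtain ⟨b, hb, hk⟩ := hcoef k
      rw [hk, map_mul]
      calc A.valuation c * A.valuation b ≤ A.valuation c * 1 :=
            mul_le_mul' le_rfl ((A.valuation_le_one_iff _).mpr hb)
        _ = A.valuation c := mul_one _)
  rcases eq_or_ne c 0 with rfl | hc
  · refine ⟨m, fun _ => 0, s', fun _ => A.zero_mem, hs', ?_⟩
    rw [map_zero, zero_mul]
    ext k
    obtain ⟨b, -, hk⟩ := hcoef k
    rw [hk, zero_mul, HahnSeries.coeff_zero]
  · refine ⟨m, fun p => a' p / c, s', fun p => ?_, hs', ?_⟩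
    · rw [← A.valuation_le_one_iff, map_div₀]
      exact div_le_one_of_le₀ (ha' p) zero_le
    · rw [← comb_C_mul, h]
      congr 1
      funext p
      field_simp

end Valuation

/-! ### The Gauss ring: Gauss-integral combinations of chart functions are integral
combinations -/

section Gauss

variable {ℓ N}
variable {S : Subalgebra (Zl ℓ) ↥(modularFunctionFieldFull N)}
variable {L : Type*} [Field L] [Algebra ℚ L]

omit [NeZero N] in
/-- A nonzero finite combination of series with `ℓ`-integral coefficients has a coefficient of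
maximal valuation (no discreteness needed). -/
theorem exists_max_coeff_comb (A : ValuationSubring L) (hA : A.LiesOverPrime ℓ)
    {n : ℕ} (a : Fin n → L) (s : Fin n → ↥(modularFunctionFieldFull N))
    (hs : ∀ p, IsZlIntegral ℓ ((s p : ↥(modularFunctionFieldFull N)) : LaurentSeries ℚ))
    (h0 : comb L a s ≠ 0) :
    ∃ n₀ : ℤ, (comb L a s).coeff n₀ ≠ 0 ∧
      ∀ k, (comb L a s).coeff k / (comb L a s).coeff n₀ ∈ A := by
  classical
  set f := comb L a s with hf
  have hWN : IsNoetherian (Zl ℓ) ↥(Submodule.span (Zl ℓ) (Set.range a)) :=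
    isNoetherian_of_fg_of_noetherian _ (Submodule.fg_span (Set.finite_range a))
  have hcoefW : ∀ k, f.coeff k ∈ Submodule.span (Zl ℓ) (Set.range a) := by
    intro k
    rw [hf, comb_coeff]
    refine Submodule.sum_mem _ fun p _ => ?_
    have h1 : a p * algebraMap ℚ L ((s p : LaurentSeries ℚ).coeff k) =
        (⟨_, hs p k⟩ : Zl ℓ) • a p := by rw [zl_smul_eq, mul_comm]
    rw [h1]
    exact Submodule.smul_mem _ _ (Submodule.subset_span ⟨p, rfl⟩)
  have hC : (Submodule.span (Zl ℓ) (Set.range f.coeff)).FG :=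
    isNoetherian_submodule.mp hWN _
      (Submodule.span_le.mpr (by rintro _ ⟨k, rfl⟩; exact hcoefW k))
  obtain ⟨t, ht, hspan⟩ := (Submodule.fg_span_iff_fg_span_finset_subset _).mp hC
  obtain ⟨m, hm⟩ : ∃ m, f.coeff m ≠ 0 := by
    by_contra hall
    push Not at hall
    exact h0 (HahnSeries.ext (funext hall))
  have htne : t.Nonempty := by
    by_contra hemp
    rw [Finset.not_nonempty_iff_eq_empty] at hemp
    have h1 : f.coeff m ∈ Submodule.span (Zl ℓ) (Set.range f.coeff) :=
      Submodule.subset_span ⟨m, rfl⟩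
    rw [hspan, hemp] at h1
    simp at h1
    exact hm h1
  obtain ⟨x₀, hx₀, hmax⟩ := Finset.exists_max_image t (fun x => A.valuation x) htne
  obtain ⟨n₀, rfl⟩ := ht hx₀
  have key : ∀ x ∈ Submodule.span (Zl ℓ) (t : Set L),
      A.valuation x ≤ A.valuation (f.coeff n₀) := by
    intro x hx
    induction hx using Submodule.span_induction with
    | mem x hx => exact hmax x hx
    | zero => simp
    | add x y _ _ hx hy => exact (A.valuation.map_add x y).trans (max_le hx hy)
    | smul r x _ hx =>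
      rw [zl_smul_eq]
      exact (valuation_algebraMap_mul_le A hA r.2 x).trans hx
  have hne : f.coeff n₀ ≠ 0 := by
    intro h0'
    have h1 : A.valuation (f.coeff m) ≤ A.valuation (f.coeff n₀) :=
      key _ (hspan ▸ Submodule.subset_span ⟨m, rfl⟩)
    rw [h0', map_zero] at h1
    exact hm ((map_eq_zero _).mp (le_antisymm h1 zero_le))
  refine ⟨n₀, hne, fun k => ?_⟩
  rw [← A.valuation_le_one_iff, map_div₀]
  have h1 : A.valuation (f.coeff k) ≤ A.valuation (f.coeff n₀) :=
    key _ (hspan ▸ Submodule.subset_span ⟨k, rfl⟩)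
  exact div_le_one_of_le₀ h1 zero_le

/-- A Gauss-integral series with a coefficient of maximal valuation has all its coefficients
in `A`. -/
theorem coeff_mem_of_mem_gaussRing (A : ValuationSubring L) {κ : Type*} [Field κ] (π : A →+* κ)
    (hπ0 : ∀ a : A, a ∈ IsLocalRing.maximalIdeal A → π a = 0) {f : LaurentSeries L}
    (hmax : ∃ n₀ : ℤ, f.coeff n₀ ≠ 0 ∧ ∀ k, f.coeff k / f.coeff n₀ ∈ A)
    (hf : f ∈ Fermat.Agent.S18.helper8991.gaussRing A π) : ∀ k, f.coeff k ∈ A := by
  obtain ⟨n₀, hne, hall⟩ := hmax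
  suffices hcA : f.coeff n₀ ∈ A by
    intro k
    have h1 : f.coeff k = f.coeff n₀ * (f.coeff k / f.coeff n₀) := by field_simp
    rw [h1]
    exact A.mul_mem _ _ hcA (hall k)
  by_contra hcA
  have hcinv : (f.coeff n₀)⁻¹ ∈ A := (A.mem_or_inv_mem (f.coeff n₀)).resolve_left hcA
  have hmem : (⟨(f.coeff n₀)⁻¹, hcinv⟩ : A) ∈ IsLocalRing.maximalIdeal A := by
    rw [A.valuation_lt_one_iff]
    show A.valuation (f.coeff n₀)⁻¹ < 1
    rw [map_inv₀]
    have h1 : 1 < A.valuation (f.coeff n₀) := by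
      by_contra h
      push Not at h
      exact hcA ((A.valuation_le_one_iff _).mp h)
    exact inv_lt_one_of_one_lt₀ h1
  have hfX : HahnSeries.C (f.coeff n₀) * Fermat.Agent.S18.helper8991.inc A
      (Fermat.Agent.S18.helper8991.liftDiv A f (f.coeff n₀) hall) = f :=
    Fermat.Agent.S18.helper8991.C_mul_inc_liftDiv A f (f.coeff n₀) hne hall
  have hredX : Fermat.Agent.S18.helper8991.red A π
      (Fermat.Agent.S18.helper8991.liftDiv A f (f.coeff n₀) hall) ≠ 0 := by
    intro h0
    have h1 := congrArg (fun Z : LaurentSeries κ => Z.coeff n₀) h0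
    simp only [Fermat.Agent.S18.helper8991.red_coeff, HahnSeries.coeff_zero] at h1
    have h2 : (Fermat.Agent.S18.helper8991.liftDiv A f (f.coeff n₀) hall).coeff n₀ = 1 := by
      apply Subtype.ext
      rw [Fermat.Agent.S18.helper8991.liftDiv_coeff, div_self hne]
      rfl
    rw [h2, map_one] at h1
    exact one_ne_zero h1
  obtain ⟨X', Y, hY, h⟩ := hf
  have hC0 : (HahnSeries.C (f.coeff n₀) : LaurentSeries L) ≠ 0 :=
    (map_ne_zero (HahnSeries.C : L →+* LaurentSeries L)).mpr hne
  have h3 : Fermat.Agent.S18.helper8991.inc A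
      (Fermat.Agent.S18.helper8991.liftDiv A f (f.coeff n₀) hall * Y) =
      Fermat.Agent.S18.helper8991.inc A (HahnSeries.C ⟨(f.coeff n₀)⁻¹, hcinv⟩ * X') := by
    rw [map_mul, map_mul, Fermat.Agent.S18.helper8991.inc_C]
    apply mul_left_cancel₀ hC0
    rw [← mul_assoc, hfX, h, Fermat.Agent.S18.helper8991.C_mul_C_inv_mul hne]
  have h4 := Fermat.Agent.S18.helper8991.inc_injective A h3
  have h5 := congrArg (Fermat.Agent.S18.helper8991.red A π) h4
  rw [map_mul, map_mul, Fermat.Agent.S18.helper8991.red_C, hπ0 _ hmem, map_zero, zero_mul] at h5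
  exact (mul_ne_zero hredX hY) h5

/-- For a combination of chart functions, Gauss-integrality implies that all `q`-expansion
coefficients are in `A`. -/
theorem IsCoeffLattice.coeff_mem_of_mem_gaussRing (hS : IsCoeffLattice ℓ N S)
    (A : ValuationSubring L) (hA : A.LiesOverPrime ℓ) {κ : Type*} [Field κ] (π : A →+* κ)
    (hπ0 : ∀ a : A, a ∈ IsLocalRing.maximalIdeal A → π a = 0)
    {n : ℕ} (a : Fin n → L) (s : Fin n → ↥(modularFunctionFieldFull N)) (hs : ∀ p, s p ∈ S)
    (hg : comb L a s ∈ Fermat.Agent.S18.helper8991.gaussRing A π) :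
    ∀ k : ℤ, (comb L a s).coeff k ∈ A := by
  by_cases h0 : comb L a s = 0
  · intro k
    rw [h0, HahnSeries.coeff_zero]
    exact A.zero_mem
  · exact Fermat.Agent.S19.helper7154.coeff_mem_of_mem_gaussRing A π hπ0
      (exists_max_coeff_comb A hA a s (fun p => hS.int _ (hs p)) h0) hg

/-- **(UB2) The unit ball of a chart.**  A finite `L`-combination of chart functions which is
Gauss-integral (with respect to a valuation subring `A` of `L` over `ℓ`) is an `A`-combination
of chart functions. -/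
theorem IsCoeffLattice.exists_comb_of_mem_gaussRing (hS : IsCoeffLattice ℓ N S)
    (A : ValuationSubring L) (hA : A.LiesOverPrime ℓ) {κ : Type*} [Field κ] (π : A →+* κ)
    (hπ0 : ∀ a : A, a ∈ IsLocalRing.maximalIdeal A → π a = 0)
    {n : ℕ} (a : Fin n → L) (s : Fin n → ↥(modularFunctionFieldFull N)) (hs : ∀ p, s p ∈ S)
    (hg : comb L a s ∈ Fermat.Agent.S18.helper8991.gaussRing A π) :
    ∃ (m : ℕ) (a' : Fin m → L) (s' : Fin m → ↥(modularFunctionFieldFull N)),
      (∀ p, a' p ∈ A) ∧ (∀ p, s' p ∈ S) ∧ comb L a s = comb L a' s' :=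
  hS.exists_comb_mem A hA a s hs (hS.coeff_mem_of_mem_gaussRing A hA π hπ0 a s hs hg)

omit [Fact ℓ.Prime] [NeZero N] in
/-- Conversely, an `A`-combination of series with `ℓ`-integral coefficients has coefficients in
`A`. -/
theorem comb_coeff_mem (A : ValuationSubring L) (hA : A.LiesOverPrime ℓ)
    {n : ℕ} (a : Fin n → L) (s : Fin n → ↥(modularFunctionFieldFull N)) (ha : ∀ p, a p ∈ A)
    (hs : ∀ p, IsZlIntegral ℓ ((s p : ↥(modularFunctionFieldFull N)) : LaurentSeries ℚ)) (k : ℤ) :
    (comb L a s).coeff k ∈ A := by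
  rw [comb_coeff]
  exact A.toSubring.sum_mem fun p _ =>
    A.mul_mem _ _ (ha p) (algebraMap_mem_of_liesOverPrime A hA (hs p k))

omit [Fact ℓ.Prime] [NeZero N] in
/-- A series with coefficients in `A` is Gauss-integral. -/
theorem mem_gaussRing_of_coeff_mem (A : ValuationSubring L) {κ : Type*} [Field κ] (π : A →+* κ)
    {f : LaurentSeries L} (hf : ∀ k, f.coeff k ∈ A) :
    f ∈ Fermat.Agent.S18.helper8991.gaussRing A π := by
  have h1 : ∀ k, f.coeff k / 1 ∈ A := fun k => by rw [div_one]; exact hf k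
  have h2 := Fermat.Agent.S18.helper8991.C_mul_inc_liftDiv A f 1 one_ne_zero h1
  rw [map_one, one_mul] at h2
  rw [← h2]
  exact Fermat.Agent.S18.helper8991.inc_mem_gaussRing A π _

end Gauss

/-! ### Span forms -/

section Span

variable {ℓ N}
variable {S : Subalgebra (Zl ℓ) ↥(modularFunctionFieldFull N)}
variable (L : Type*) [Field L] [Algebra ℚ L]

/-- The image of a set of modular functions in `L((q))`. -/
def chartImg (T : Set ↥(modularFunctionFieldFull N)) : Set (LaurentSeries L) :=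
  (fun x : ↥(modularFunctionFieldFull N) => coeffEmb L (x : LaurentSeries ℚ)) '' T

variable {L}

omit [NeZero N] in
theorem mem_span_chartImg_iff {T : Set ↥(modularFunctionFieldFull N)} {f : LaurentSeries L} :
    f ∈ Submodule.span L (chartImg L T) ↔
      ∃ (n : ℕ) (a : Fin n → L) (s : Fin n → ↥(modularFunctionFieldFull N)),
        (∀ p, s p ∈ T) ∧ f = comb L a s := by
  rw [Submodule.mem_span_set']
  constructor
  · rintro ⟨n, c, g, rfl⟩
    choose s hs hgs using fun i => (g i).2
    refine ⟨n, c, s, hs, ?_⟩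
    rw [comb]
    refine Finset.sum_congr rfl fun i _ => ?_
    rw [HahnSeries.C_mul_eq_smul, ← hgs i]
  · rintro ⟨n, a, s, hs, rfl⟩
    refine ⟨n, a, fun i => ⟨coeffEmb L (s i : LaurentSeries ℚ), ⟨s i, hs i, rfl⟩⟩, ?_⟩
    rw [comb]
    refine Finset.sum_congr rfl fun i _ => ?_
    rw [HahnSeries.C_mul_eq_smul]

omit [NeZero N] in
theorem valuationSubring_smul_eq (A : ValuationSubring L) (a : A) (y : LaurentSeries L) :
    a • y = HahnSeries.C (a : L) * y := by
  ext k
  rw [Fermat.Agent.S18.helper8991.coeff_C_mul]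
  rfl

omit [NeZero N] in
theorem mem_span_valuationSubring_chartImg_iff (A : ValuationSubring L)
    {T : Set ↥(modularFunctionFieldFull N)} {f : LaurentSeries L} :
    f ∈ Submodule.span A (chartImg L T) ↔
      ∃ (n : ℕ) (a : Fin n → L) (s : Fin n → ↥(modularFunctionFieldFull N)),
        (∀ p, a p ∈ A) ∧ (∀ p, s p ∈ T) ∧ f = comb L a s := by
  rw [Submodule.mem_span_set']
  constructor
  · rintro ⟨n, c, g, rfl⟩
    choose s hs hgs using fun i => (g i).2
    refine ⟨n, fun i => (c i : L), s, fun i => (c i).2, hs, ?_⟩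
    rw [comb]
    refine Finset.sum_congr rfl fun i _ => ?_
    rw [valuationSubring_smul_eq, ← hgs i]
  · rintro ⟨n, a, s, ha, hs, rfl⟩
    refine ⟨n, fun i => ⟨a i, ha i⟩,
      fun i => ⟨coeffEmb L (s i : LaurentSeries ℚ), ⟨s i, hs i, rfl⟩⟩, ?_⟩
    rw [comb]
    refine Finset.sum_congr rfl fun i _ => ?_
    rw [valuationSubring_smul_eq]

/-- **(UB2), span form.**  Inside the `L`-span of a chart, the Gauss-integral functions are
exactly the `A`-span of the chart. -/
theorem IsCoeffLattice.mem_span_iff (hS : IsCoeffLattice ℓ N S)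
    (A : ValuationSubring L) (hA : A.LiesOverPrime ℓ) {κ : Type*} [Field κ] (π : A →+* κ)
    (hπ0 : ∀ a : A, a ∈ IsLocalRing.maximalIdeal A → π a = 0) {f : LaurentSeries L} :
    f ∈ Submodule.span A (chartImg L (S : Set ↥(modularFunctionFieldFull N))) ↔
      f ∈ Submodule.span L (chartImg L (S : Set ↥(modularFunctionFieldFull N))) ∧
        f ∈ Fermat.Agent.S18.helper8991.gaussRing A π := by
  constructor
  · intro hf
    obtain ⟨n, a, s, ha, hs, rfl⟩ := (mem_span_valuationSubring_chartImg_iff A).mp hf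
    exact ⟨mem_span_chartImg_iff.mpr ⟨n, a, s, hs, rfl⟩,
      mem_gaussRing_of_coeff_mem A π
        (comb_coeff_mem A hA a s ha (fun p => hS.int _ (hs p)))⟩
  · rintro ⟨hf, hg⟩
    obtain ⟨n, a, s, hs, rfl⟩ := mem_span_chartImg_iff.mp hf
    obtain ⟨m, a', s', ha', hs', h⟩ := hS.exists_comb_of_mem_gaussRing A hA π hπ0 a s hs hg
    exact (mem_span_valuationSubring_chartImg_iff A).mpr ⟨m, a', s', ha', hs', h⟩

/-- **(UB2), span form with coefficients.**  Inside the `L`-span of a chart, the functions with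
all `q`-expansion coefficients in `A` are exactly the `A`-span of the chart. -/
theorem IsCoeffLattice.mem_span_iff_coeff (hS : IsCoeffLattice ℓ N S)
    (A : ValuationSubring L) (hA : A.LiesOverPrime ℓ) {f : LaurentSeries L} :
    f ∈ Submodule.span A (chartImg L (S : Set ↥(modularFunctionFieldFull N))) ↔
      f ∈ Submodule.span L (chartImg L (S : Set ↥(modularFunctionFieldFull N))) ∧
        ∀ k : ℤ, f.coeff k ∈ A := by
  constructor
  · intro hf
    obtain ⟨n, a, s, ha, hs, rfl⟩ := (mem_span_valuationSubring_chartImg_iff A).mp hf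
    exact ⟨mem_span_chartImg_iff.mpr ⟨n, a, s, hs, rfl⟩,
      comb_coeff_mem A hA a s ha (fun p => hS.int _ (hs p))⟩
  · rintro ⟨hf, hc⟩
    obtain ⟨n, a, s, hs, rfl⟩ := mem_span_chartImg_iff.mp hf
    obtain ⟨m, a', s', ha', hs', h⟩ := hS.exists_comb_mem A hA a s hs hc
    exact (mem_span_valuationSubring_chartImg_iff A).mpr ⟨m, a', s', ha', hs', h⟩

end Span

end Charts

end Fermat.Agent.S19.helper7154

end
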