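import Mathlib
import Fermat.Agent.S19.helper3573_SpecGate
import Fermat.Agent.S18.helper2030_SpecA
import Fermat.Agent.S19.helper2007_Centres

set_option autoImplicit false
set_option synthInstance.maxHeartbeats 400000

/-!
# S19, FALLBACK CORE A' (architect helper8646): "KM transport"

A second, independent producer of the geometric core of S19 (`helper2111.IsCoordSystem`), with an
EXACT addition law.  It shares with the main line (C-alg) the place layer (`helper5413.LatHyp`,
`H.placeRed`), the adapted system of points (without the functions `e_i`), the canonical point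
systems, the centres and one rationality statement; it replaces the adapted cover, the Cech-unit
factorisation and the key lemma by Khuri-Makdisi addition carried out in families over a finite
local `A`-algebra of functions, with the pointwise constant-rank principle
(`helper8064_ConstRank`).  Extra input: `S18.helper2030.Stmt_Cart` (orthonormal bases of
Riemann-Roch spaces), which S18 track A supplies together with the gate.

## The vocabulary

* `IsLagrange a β Q lam` : `lam` are the Lagrange coordinates of the functions `a ν` on the point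
  system `Q` with respect to `β`: `a ν - ∑ j, lam ν j • β j` vanishes at every `Q i`.
* `IsSumSystem R Q Q' Q''` : `∑ Q'' + ∑ R ~ ∑ Q + ∑ Q'`, i.e. `[Q'' - R] = [Q - R] + [Q' - R]`.
* `IsTransport O sp R a β` : existence, integrality, uniqueness of Lagrange coordinates on every
  point system over `R`, separation, and the EXACT polynomial law with integral coefficients on
  every finite family of sums.
* `IsKMSystem H G R Pinf` : the hypotheses on the adapted system.
* `IsExactCoords O G J1 b` : the abstract form of `helper2111.IsCoordSystem` (exact law).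

## The chain (each arrow is a leaf)

* `Stmt_KMAdd`   (leaf KM-ADD, with internal leaves KM-LAT, KM-FIB, KM-LOCAL) :
  a KM system has a transport datum with `G`-fixed functions;
* `Stmt_KMCoord` (leaf KM-COORD) : a transport datum gives exact coordinates on the
  specialisation kernel;
* `Stmt_KMInst M ℓ hℓM` (leaf KM-INST, adapter on the C-alg instance bundle) : at the modular
  Gauss pair, the gate and `Stmt_Cart` give a KM system for the inertia group;
* `stmt_KMCoreAt` : these three give `Stmt_KMCoreAt M ℓ hℓM` (PROVED here);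
* `result_of_gateCartAt` : the frozen statement S19 from the gate and `Stmt_Cart` at one place,
  the core and the spine (PROVED here).
-/

noncomputable section

namespace Fermat.Agent.S19.helper8646

open ModularCurve AlgebraicCurve
open Fermat.Agent.S19.helper2111
open Fermat.Agent.S37.helper126 Fermat.Agent.S37.helper5413
open Fermat.Agent.S19.helper2007

section Abstract

variable {L F k Fk : Type*} [Field L] [Field F] [Algebra L F] [Field k] [Field Fk] [Algebra k Fk]

/-- `lam` are the Lagrange coordinates of the functions `a ν` on the point system `Q` with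
respect to the functions `β j`: `a ν - ∑ j, lam ν j • β j` is regular and vanishes at every
point `Q i`. -/
def IsLagrange {n g : ℕ} (a : Fin n → F) (β : Fin g → F) (Q : Fin g → Place L F)
    (lam : Fin n → Fin g → L) : Prop :=
  ∀ ν i, IsValue (Q i) (a ν - ∑ j, algebraMap L F (lam ν j) * β j) 0

/-- `∑ Q'' + ∑ R` is linearly equivalent to `∑ Q + ∑ Q'`: the class of `∑ Q'' - ∑ R` is the sum
of the classes of `∑ Q - ∑ R` and `∑ Q' - ∑ R`. -/
def IsSumSystem {g : ℕ} (R Q Q' Q'' : Fin g → Place L F) : Prop :=
  ∃ h : F, h ≠ 0 ∧ ∀ P : Place L F,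
    P.ord h + (∑ i, Finsupp.single (Q i) (1 : ℤ)) P + (∑ i, Finsupp.single (Q' i) (1 : ℤ)) P =
      (∑ i, Finsupp.single (Q'' i) (1 : ℤ)) P + (∑ i, Finsupp.single (R i) (1 : ℤ)) P

/-- **Transport datum** over the base system `R` (output of KM-ADD).  The functions `a ν`, `β j`
have Lagrange coordinates on every point system over `R` (one point in the residue disc of each
`R i`); these are integral, unique, determine the point system, and satisfy an exact polynomial
addition law with integral coefficients on every finite family of sums. -/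
structure IsTransport (O : ValuationSubring F) (sp : Place L F → Place k Fk) {g n : ℕ}
    (R : Fin g → Place L F) (a : Fin n → F) (β : Fin g → F) : Prop where
  /-- Lagrange coordinates exist and are integral. -/
  ex : ∀ Q : Fin g → Place L F, (∀ i, sp (Q i) = sp (R i)) →
    ∃ lam : Fin n → Fin g → L, IsLagrange a β Q lam ∧ ∀ ν j, algebraMap L F (lam ν j) ∈ O
  /-- Lagrange coordinates are unique. -/
  uniq : ∀ Q : Fin g → Place L F, (∀ i, sp (Q i) = sp (R i)) →
    ∀ lam lam' : Fin n → Fin g → L, IsLagrange a β Q lam → IsLagrange a β Q lam' → lam = lam'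
  /-- Lagrange coordinates determine the point system. -/
  sep : ∀ Q Q' : Fin g → Place L F, (∀ i, sp (Q i) = sp (R i)) → (∀ i, sp (Q' i) = sp (R i)) →
    ∀ lam : Fin n → Fin g → L, IsLagrange a β Q lam → IsLagrange a β Q' lam → Q = Q'
  /-- The exact addition law on every finite family of sums. -/
  law : ∀ (ι : Type) [Finite ι] (Q Q' Q'' : ι → Fin g → Place L F),
    (∀ s i, sp (Q s i) = sp (R i)) → (∀ s i, sp (Q' s i) = sp (R i)) →
    (∀ s i, sp (Q'' s i) = sp (R i)) → (∀ s, IsSumSystem R (Q s) (Q' s) (Q'' s)) →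
    ∃ P : Fin n → Fin g → MvPolynomial ((Fin n × Fin g) ⊕ (Fin n × Fin g)) L,
      (∀ ν j d, algebraMap L F ((P ν j).coeff d) ∈ O) ∧
      ∀ (s : ι) (lam lam' lam'' : Fin n → Fin g → L), IsLagrange a β (Q s) lam →
        IsLagrange a β (Q' s) lam' → IsLagrange a β (Q'' s) lam'' →
        ∀ ν j, lam'' ν j = MvPolynomial.eval
          (Sum.elim (fun p : Fin n × Fin g => lam p.1 p.2) (fun p => lam' p.1 p.2)) (P ν j)

/-- **Exact coordinates** on a subgroup `J1` of `Pic0` (abstract form of
`helper2111.IsCoordSystem`; `stable` and `cen` come from the landed `helper2007` lemmas). -/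
structure IsExactCoords (O : ValuationSubring F) (G : Set (SemilinearAut L F))
    (J1 : AddSubgroup (Pic0 L F)) {m : ℕ} (b : Pic0 L F → Fin m → L) : Prop where
  /-- The coordinates are integral on `J1`. -/
  val : ∀ x ∈ J1, ∀ i, algebraMap L F (b x i) ∈ O
  /-- The coordinates are `G`-equivariant on `J1`. -/
  eqv : ∀ γ ∈ G, ∀ x ∈ J1, ∀ i, b (γ • x) i = SemilinearAut.baseAut γ (b x i)
  /-- The coordinates are injective on `J1`. -/
  inj : ∀ x ∈ J1, ∀ y ∈ J1, b x = b y → x = y
  /-- The exact addition law, on every finite subset of `J1`, polynomial with integral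
  coefficients. -/
  law : ∀ T : Finset (Pic0 L F), (∀ x ∈ T, x ∈ J1) →
    ∃ P : Fin m → MvPolynomial (Fin m ⊕ Fin m) L,
      (∀ i d, algebraMap L F ((P i).coeff d) ∈ O) ∧
      ∀ x ∈ T, ∀ y ∈ T, ∀ i, b (x + y) i = MvPolynomial.eval (Sum.elim (b x) (b y)) (P i)

variable {O : ValuationSubring F} {red : O →+* Fk} {γ c : ℤ}
  {E₀ : Divisor L F} {E₀k : Divisor k Fk}

/-- **KM system**: the hypotheses on the adapted system of points `R` (non-special, one point in
`g` distinct residue discs), the auxiliary place `Pinf` and the group `G`, on the lattice layer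
`H`.  Compared with the adapted system of the main line there are no functions `e_i`, and the
orthonormal bases (`cart`) are an input. -/
structure IsKMSystem (H : LatHyp O red γ c E₀ E₀k) (G : Set (SemilinearAut L F)) {g : ℕ}
    (R : Fin g → Place L F) (Pinf : Place L F) : Prop where
  /-- The number of points is the genus of the lattice layer. -/
  genus : γ = (g : ℤ)
  /-- The residue field of the Gauss ring is the function field of the special fibre. -/
  surj : Function.Surjective red
  /-- The Gauss valuation has the value group of the constants. -/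
  vg : ValueGroupConst L O
  /-- (CART) every Riemann-Roch space has an orthonormal basis. -/
  cart : ∀ E : Divisor L F, ∃ (r : ℕ) (e : Fin r → F), LinearIndependent L e ∧
    Submodule.span L (Set.range e) = riemannRochSpace E ∧
    ∀ c : Fin r → L, (∑ i, c i • e i ∈ O ↔ ∀ i, algebraMap L F (c i) ∈ O)
  /-- The points lie in distinct residue discs. -/
  inj : Function.Injective fun i => H.placeRed (R i)
  /-- `Pinf` lies in none of these discs. -/
  inf : ∀ i, H.placeRed Pinf ≠ H.placeRed (R i)
  /-- The reduced system is non-special (the shape of `helper126.exists_canonical`). -/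
  ns : ∀ w : Fk, w ≠ 0 → (∀ s, (∀ i, s ≠ H.placeRed (R i)) → 0 ≤ s.ord w) →
    (∀ i, -1 ≤ (H.placeRed (R i)).ord w) → w ∈ Set.range (algebraMap k Fk)
  /-- `G` acts trivially on the special fibre. -/
  galSp : ∀ σ ∈ G, ∀ P, H.placeRed (σ • P) = H.placeRed P
  /-- `G` preserves the Gauss ring. -/
  galO : ∀ σ ∈ G, ∀ x : F, x ∈ O → σ • x ∈ O
  /-- The points of the system are `G`-fixed. -/
  galR : ∀ σ ∈ G, ∀ i, σ • R i = R i
  /-- The auxiliary place is `G`-fixed. -/
  galInf : ∀ σ ∈ G, σ • Pinf = Pinf
  /-- (CALG-RAT, consumer form of `helper2007_Centres`) in large degree every element of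
  `L_k(n · sp Pinf)` is the reduction of a `G`-fixed Gauss-integral element of `L(n · Pinf)`. -/
  rat : ∀ n : ℤ, max c (LatHyp.thr γ c) + 2 ≤ n → FixedLiftRR H G Pinf n

end Abstract

/-! ### The three leaf Props -/

/-- **KM-ADD** (abstract core; internal leaves KM-LAT, KM-FIB, KM-LOCAL): a KM system has a
transport datum made of `G`-fixed functions. -/
def Stmt_KMAdd : Prop :=
  ∀ (L F k Fk : Type) [Field L] [Field F] [Algebra L F] [Field k] [Field Fk] [Algebra k Fk]
    [HasPrincipalDivisors L F] [HasPrincipalDivisors k Fk]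
    (O : ValuationSubring F) (red : O →+* Fk) (γ c : ℤ) (E₀ : Divisor L F) (E₀k : Divisor k Fk)
    (H : LatHyp O red γ c E₀ E₀k) (G : Set (SemilinearAut L F)) (g : ℕ)
    (R : Fin g → Place L F) (Pinf : Place L F), IsKMSystem H G R Pinf →
    ∃ (n : ℕ) (a : Fin n → F) (β : Fin g → F),
      (∀ σ ∈ G, ∀ ν, σ • a ν = a ν) ∧ (∀ σ ∈ G, ∀ j, σ • β j = β j) ∧
      IsTransport O H.placeRed R a β

/-- **KM-COORD**: a transport datum made of `G`-fixed functions gives exact `G`-equivariant
coordinates on the specialisation kernel. -/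
def Stmt_KMCoord : Prop :=
  ∀ (L F k Fk : Type) [Field L] [Field F] [Algebra L F] [Field k] [Field Fk] [Algebra k Fk]
    [HasPrincipalDivisors L F] [HasPrincipalDivisors k Fk]
    (O : ValuationSubring F) (red : O →+* Fk) (γ c : ℤ) (E₀ : Divisor L F) (E₀k : Divisor k Fk)
    (H : LatHyp O red γ c E₀ E₀k) (G : Set (SemilinearAut L F)) (g : ℕ)
    (R : Fin g → Place L F) (Pinf : Place L F), IsKMSystem H G R Pinf →
    ∀ (n : ℕ) (a : Fin n → F) (β : Fin g → F),
      (∀ σ ∈ G, ∀ ν, σ • a ν = a ν) → (∀ σ ∈ G, ∀ j, σ • β j = β j) →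
      IsTransport O H.placeRed R a β →
      ∃ (m : ℕ) (b : Pic0 L F → Fin m → L), IsExactCoords O G (specKernel H.placeRed) b

/-- The inertia group of `A`, acting on `F̄_M` through the arithmetic (coefficientwise) action. -/
def inertiaSet (M : ℕ) (A : ValuationSubring Qb) :
    Set (SemilinearAut Qb (modularFunctionFieldBar M)) :=
  (fun σ : GQ => arithmeticGalois (modularFunctionFieldFull M) σ) ''
    {σ | σ ∈ A.inertiaSubgroupIn ℚ}

section Modular

variable (M : ℕ) [NeZero M] (ℓ : ℕ) [Fact ℓ.Prime] (hℓM : ¬ ℓ ∣ M)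

/-- **KM-INST** (adapter on the instance bundle of the main line + CALG-RAT + SYS): at the
modular Gauss pair, the gate and `Stmt_Cart` give a KM system for the inertia group. -/
def Stmt_KMInst : Prop :=
  ∀ (A : ValuationSubring Qb) (hA : A.LiesOverPrime ℓ),
    Fermat.Agent.S19.helper3573.GateAt M ℓ hℓM A hA →
    Fermat.Agent.S18.helper2030.Stmt_Cart M ℓ hℓM A hA →
    ∃ (_ : HasPrincipalDivisors Qb (modularFunctionFieldBar M))
      (_ : HasPrincipalDivisors (IsLocalRing.ResidueField A)
        (modularFunctionFieldFullC (IsLocalRing.ResidueField A) M))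
      (γ c : ℤ) (E₀ : Divisor Qb (modularFunctionFieldBar M))
      (E₀k : Divisor (IsLocalRing.ResidueField A)
        (modularFunctionFieldFullC (IsLocalRing.ResidueField A) M))
      (H : LatHyp (Fermat.Agent.S18.helper508.gaussValuationSubring M ℓ hℓM A hA)
        (Fermat.Agent.S18.helper508.gaussResidue M ℓ hℓM A hA) γ c E₀ E₀k)
      (g : ℕ) (R : Fin g → Place Qb (modularFunctionFieldBar M))
      (Pinf : Place Qb (modularFunctionFieldBar M)),
      IsKMSystem H (inertiaSet M A) R Pinf

/-- **The fallback core**: at every place of `ℚ̄` over `ℓ` where the gate and `Stmt_Cart` hold,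
level `M` carries a coordinate system (with an exact law). -/
def Stmt_KMCoreAt : Prop :=
  ∀ (A : ValuationSubring Qb) (hA : A.LiesOverPrime ℓ),
    Fermat.Agent.S19.helper3573.GateAt M ℓ hℓM A hA →
    Fermat.Agent.S18.helper2030.Stmt_Cart M ℓ hℓM A hA →
    ∃ (g : ℕ) (J1 : AddSubgroup (JZero M)) (b : JZero M → Fin g → Qb),
      IsCoordSystem ℓ M A g J1 b

/-- **Assembly of the fallback core** from its three leaves. -/
theorem stmt_KMCoreAt (hadd : Stmt_KMAdd) (hcoord : Stmt_KMCoord)
    (hinst : Stmt_KMInst M ℓ hℓM) : Stmt_KMCoreAt M ℓ hℓM := by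
  intro A hA hgate hcart
  obtain ⟨hpd, hpdk, γ, c, E₀, E₀k, H, g, R, Pinf, hsys⟩ := hinst A hA hgate hcart
  obtain ⟨n, a, β, ha, hβ, htr⟩ := hadd _ _ _ _ _ _ γ c E₀ E₀k H (inertiaSet M A) g R Pinf hsys
  obtain ⟨m, b, hb⟩ :=
    hcoord _ _ _ _ _ _ γ c E₀ E₀k H (inertiaSet M A) g R Pinf hsys n a β ha hβ htr
  have hmemG : ∀ σ : GQ, σ ∈ A.inertiaSubgroupIn ℚ →
      arithmeticGalois (modularFunctionFieldFull M) σ ∈ inertiaSet M A :=
    fun σ hσ => ⟨σ, hσ, rfl⟩
  refine ⟨m, specKernel H.placeRed, b, ?_⟩
  refine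
    { stable := ?_
      val := ?_
      eqv := ?_
      inj := hb.inj
      cen := ?_
      law := ?_ }
  · intro σ hσ x hx
    exact smul_mem_specKernel (arithmeticGalois (modularFunctionFieldFull M) σ) id
      (fun P => hsys.galSp _ (hmemG σ hσ) P) hx
  · intro x hx i
    exact (Fermat.Agent.S18.helper2030.gaussO_algebraMap_mem_iff M ℓ hℓM A hA _).mp
      (hb.val x hx i)
  · intro σ hσ x hx i
    exact hb.eqv _ (hmemG σ hσ) x hx i
  · intro x
    obtain ⟨y, hy, hxy⟩ := exists_fixed_centre_of_latHyp H hsys.surj (inertiaSet M A)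
      hsys.galSp Pinf hsys.galInf (max c (LatHyp.thr γ c) + 2) le_rfl
      (hsys.rat _ le_rfl) x
    exact ⟨y, fun σ hσ => hy _ (hmemG σ hσ), hxy⟩
  · intro j T hT
    obtain ⟨P, hP, hlaw⟩ := hb.law T hT
    refine ⟨P, fun i d =>
      (Fermat.Agent.S18.helper2030.gaussO_algebraMap_mem_iff M ℓ hℓM A hA _).mp (hP i d), ?_⟩
    intro x hx y hy i
    refine ⟨0, zero_mem A, ?_⟩
    rw [hlaw x hx y hy i, sub_self, mul_zero]

/-- The gate and `Stmt_Cart` at one place and the fallback core give the captain's
`Stmt_Coords`. -/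
theorem stmt_Coords_of_gateCartAt (A : ValuationSubring Qb) (hA : A.LiesOverPrime ℓ)
    (hgate : Fermat.Agent.S19.helper3573.GateAt M ℓ hℓM A hA)
    (hcart : Fermat.Agent.S18.helper2030.Stmt_Cart M ℓ hℓM A hA)
    (hcore : Stmt_KMCoreAt M ℓ hℓM) : Stmt_Coords ℓ M :=
  ⟨A, hA, hcore A hA hgate hcart⟩

end Modular

/-- **The root of S19 through the fallback core.**  The frozen statement S19 at level `p` from
the gate and `Stmt_Cart` at ONE place of `ℚ̄` over `ℓ` at the auxiliary level, the fallback core
and the spine.  FUNCMODEL, FIN and the level change are landed theorems. -/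
theorem result_of_gateCartAt (p : ℕ) [NeZero p] (ℓ : ℕ) [Fact ℓ.Prime] (hℓp : ¬ ℓ ∣ p) (k : ℕ)
    (A : ValuationSubring Qb) (hA : A.LiesOverPrime ℓ)
    (hgate : Fermat.Agent.S19.helper3573.GateAt (Fermat.Agent.S19.helper2289.auxLevel p ℓ) ℓ
      (Fermat.Agent.S19.helper2289.not_dvd_auxLevel (Fact.out : ℓ.Prime) hℓp) A hA)
    (hcart : Fermat.Agent.S18.helper2030.Stmt_Cart (Fermat.Agent.S19.helper2289.auxLevel p ℓ) ℓ
      (Fermat.Agent.S19.helper2289.not_dvd_auxLevel (Fact.out : ℓ.Prime) hℓp) A hA)
    (hcore : Stmt_KMCoreAt (Fermat.Agent.S19.helper2289.auxLevel p ℓ) ℓ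
      (Fermat.Agent.S19.helper2289.not_dvd_auxLevel (Fact.out : ℓ.Prime) hℓp))
    (hspine : Stmt_Spine ℓ (Fermat.Agent.S19.helper2289.auxLevel p ℓ)) :
    ∃ (H : Type) (_ : CommRing H) (_ : HopfAlgebra (GaloisRep.ratLocalizedAt ℓ) H),
      Module.Finite (GaloisRep.ratLocalizedAt ℓ) H ∧ Module.Flat (GaloisRep.ratLocalizedAt ℓ) H ∧
      Coalgebra.IsCocomm (GaloisRep.ratLocalizedAt ℓ) H ∧
      ∃ e : WithConv (H →ₐ[GaloisRep.ratLocalizedAt ℓ] AlgebraicClosure ℚ) ≃
          ↥(Submodule.torsionBy ℤ (JZero p) ((ℓ : ℤ) ^ k)),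
        (∀ f g, e (f * g) = e f + e g) ∧
        ∀ (σ : AlgebraicClosure ℚ ≃ₐ[ℚ] AlgebraicClosure ℚ)
          (f g : WithConv (H →ₐ[GaloisRep.ratLocalizedAt ℓ] AlgebraicClosure ℚ)),
          (∀ h : H, g h = σ (f h)) → ((e g : JZero p)) = σ • (e f : JZero p) := by
  have hcoords : Stmt_Coords ℓ (Fermat.Agent.S19.helper2289.auxLevel p ℓ) :=
    stmt_Coords_of_gateCartAt _ ℓ _ A hA hgate hcart hcore
  have hmodel : Stmt_Model p ℓ k :=
    Fermat.Agent.S19.helper2289.stmt_Model_of_aux p ℓ k (hspine hcoords k)
  exact result_of p ℓ k (Fermat.Agent.S19.helper1852.stmt_FuncModel ℓ)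
    (Fermat.Agent.S19.helper4778.stmt_Fin_prime p ℓ k) hmodel

end Fermat.Agent.S19.helper8646

end
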