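import Fermat.Agent.S18.helper2030_SpecA
import Fermat.Agent.S18.helper4307_PlacesFullC
import Fermat.Agent.S18.helper981_FundEq
import Fermat.Agent.S18.helper8566_GenusBridge
import Fermat.Agent.S37.helper3441_LatticeSupply
import Fermat.Agent.S37.helper126_TorsionGlue
import Fermat.Agent.S37.helper2648_ReductionInputsBar

/-!
# S19-CALG-INST (helper9075): the place layer of the C-alg line at a level `N` with `ℓ ∤ N`

The C-alg realisation of the geometric core of S19 (findings #2887, captain update #78 R3) works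
in place language on a valued function field `(F / L, O, red : O →+* Fk)` with the lattice
hypotheses `Fermat.Agent.S37.helper5413.LatHyp`.  This file instantiates that bundle on the
modular function field `F̄_N = modularFunctionFieldBar N` with its Gauss valuation ring at a
place `A` of `ℚ̄` over `ℓ ∤ N` (landed `helper508` / `helper2030.gaussO`, `gaussRed`), from EXACTLY
the two Props S18 track A closes (`helper2030.Stmt_Cart`, `helper2030.LineData`).

* `latHyp_of_chart_supply` : abstract form.  Generic fibre: characteristic zero, cartesian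
  Riemann–Roch spaces, Riemann's inequality with constant `γ`, a unit `x` of `O` with integrality
  transfer on both charts.  Special fibre: ANY function field over an algebraically closed field
  with the chart-space bound `dim (chartSpace k x̄ a b) ≤ (a + b) d + 1 - γ`.  Conclusion: the pole
  divisor of `x̄` has degree `d` and `LatHyp O red γ c Xinf Yinf` holds.
* `latHyp_of_lineData` : the modular instance.
-/

set_option autoImplicit false
set_option synthInstance.maxHeartbeats 400000

noncomputable section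

namespace Fermat.Agent.S19.helper9075

open ModularCurve AlgebraicCurve HahnSeries IntermediateField Module
open Fermat.Agent.S18 Fermat.Agent.S37

section Abstract

variable {L F k Fk : Type*} [Field L] [Field F] [Algebra L F] [Field k] [Field Fk] [Algebra k Fk]

open Fermat.Agent.S18.helper6292 Fermat.Agent.S18.helper8566 Fermat.Agent.S18.helper981

/-- **The lattice bundle from a chart-only special fibre.**  See the file header. -/
theorem latHyp_of_chart_supply [CharZero L] [IsAlgClosed k]
    [HasPrincipalDivisors L F] [HasPrincipalDivisors k Fk]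
    (degL : ∀ P : Place L F, P.deg = 1) (degk : ∀ Q : Place k Fk, Q.deg = 1)
    (jb : Fk) (hjb : Transcendental k jb) [FiniteDimensional k⟮jb⟯ Fk]
    (O : ValuationSubring F)
    (hVG : ∀ f : F, f ≠ 0 → ∃ c : L, O.valuation (algebraMap L F c) = O.valuation f)
    (red : O →+* Fk)
    (hred : ∀ f : O, red f = 0 ↔ O.valuation (f : F) < 1)
    (hredk_surj : ∀ c' : k, ∃ (c : L) (hc : algebraMap L F c ∈ O),
      red ⟨algebraMap L F c, hc⟩ = algebraMap k Fk c')
    (x : F) (hx0 : x ≠ 0) [FiniteDimensional L⟮x⟯ F] (hx : x ∈ O) (hxi : x⁻¹ ∈ O)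
    (hIT : IntegralityTransfer L k O red x (red ⟨x, hx⟩))
    (hIT' : IntegralityTransfer L k O red x⁻¹ (red ⟨x, hx⟩)⁻¹)
    (Xinf : Divisor L F) (hXinf : IsPoleDivisor x Xinf)
    (d : ℕ) (hdpos : 0 < d) (hdX : Divisor.degree Xinf = d)
    (hcart : ∀ E : Divisor L F, ∃ (r : ℕ) (e : Fin r → F), LinearIndependent L e ∧
      Submodule.span L (Set.range e) = riemannRochSpace E ∧
      ∀ c : Fin r → L, (∑ i, c i • e i ∈ O ↔ ∀ i, algebraMap L F (c i) ∈ O))
    (γ : ℤ)
    (hRiemF : ∀ D : Divisor L F,
      Divisor.degree D + 1 - γ ≤ (Module.finrank L (riemannRochSpace D) : ℤ))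
    (cK : ℤ)
    (hGapk : ∀ a b : ℕ, cK ≤ ((a : ℤ) + b) * d →
      (Module.finrank k (chartSpace k (red ⟨x, hx⟩) a b) : ℤ) ≤ ((a : ℤ) + b) * d + 1 - γ) :
    ∃ (cK' : ℤ) (Yinf : Divisor k Fk), IsPoleDivisor (red ⟨x, hx⟩) Yinf ∧
      Divisor.degree Yinf = d ∧
      Fermat.Agent.S37.helper5413.LatHyp O red γ cK' Xinf Yinf := by
  classical
  obtain ⟨Q₀, -⟩ := Fermat.Agent.S18.helper7885.exists_place_adicValuation_lt_one jb hjb
  have hxb0 : red ⟨x, hx⟩ ≠ 0 := red_ne_zero_of_unit O red hx0 hx hxi
  obtain ⟨Yinf, Y0, hYinf, hY0⟩ :=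
    Fermat.Agent.S18.helper2030.exists_pole_zero_divisor (K := k) hxb0
  have hRC : ∀ (n : ℕ) (f : F) (hf : f ∈ O), f ∈ riemannRochSpace (n • Xinf) →
      red ⟨f, hf⟩ ∈ riemannRochSpace (n • Yinf) := fun n f hf hfL =>
    red_mem_riemannRochSpace_of_charZero O red hx0 hx hxi hXinf hYinf hIT hIT' n hf hfL
  have hYnn : 0 ≤ Yinf := Finsupp.le_def.mpr fun v => by simpa using hYinf.nonneg v
  have hd1 : (1 : ℤ) ≤ d := by exact_mod_cast hdpos
  -- the degree of the pole divisor of the reduction is at least `d`
  have hdle : (d : ℤ) ≤ Divisor.degree Yinf := by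
    by_contra hlt
    push Not at hlt
    set n : ℕ := γ.toNat + 1 with hn
    obtain ⟨r, e, he_li, he_span, he_orth⟩ := hcart (n • Xinf)
    have hr : Module.finrank L (riemannRochSpace (n • Xinf)) = r := by
      rw [← he_span, finrank_span_eq_card he_li, Fintype.card_fin]
    have h1 := hRiemF (n • Xinf)
    rw [hr, map_nsmul, hdX, nsmul_eq_mul] at h1
    have hli := Fermat.Agent.S37.helper3441.red_linearIndependent hVG red hred hredk_surj
      he_li he_orth
    have hmem : ∀ i, red ⟨e i, Fermat.Agent.S37.helper3441.orth_mem O he_orth i⟩ ∈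
        riemannRochSpace (n • Yinf) := fun i =>
      hRC n (e i) _ (by rw [← he_span]; exact Submodule.subset_span (Set.mem_range_self i))
    have hfin := finite_riemannRochSpace degk Q₀ (n • Yinf)
    have hcard : r ≤ Module.finrank k (riemannRochSpace (n • Yinf)) := by
      have hv' : LinearIndependent k
          (fun i => (⟨_, hmem i⟩ : riemannRochSpace (n • Yinf))) := by
        apply LinearIndependent.of_comp (riemannRochSpace (n • Yinf)).subtype
        exact hli
      have := hv'.fintype_card_le_finrank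
      rwa [Fintype.card_fin] at this
    have hdeg0 : 0 ≤ Divisor.degree (n • Yinf) := degree_nonneg degk (nsmul_nonneg hYnn n)
    have h2 := finrank_le_degree_add_one degk Q₀ hdeg0
    rw [map_nsmul, nsmul_eq_mul] at h2
    have h3 : (r : ℤ) ≤ (n : ℤ) * Divisor.degree Yinf + 1 :=
      le_trans (by exact_mod_cast hcard) h2
    have hγ : γ ≤ (γ.toNat : ℤ) := Int.self_le_toNat γ
    have hn' : (n : ℤ) = (γ.toNat : ℤ) + 1 := by rw [hn]; push_cast; ring
    nlinarith [mul_nonneg (Int.natCast_nonneg n)
      (by linarith : (0 : ℤ) ≤ (d : ℤ) - 1 - Divisor.degree Yinf)]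
  have hdkpos : 0 < Divisor.degree Yinf := lt_of_lt_of_le (by exact_mod_cast hdpos) hdle
  -- hence the reduction of `x` is transcendental
  have hxbt : Transcendental k (red ⟨x, hx⟩) := by
    apply Fermat.Agent.S18.helper7885.transcendental_of_not_mem_range
    rintro ⟨c, hc⟩
    have hY0' : Yinf = 0 := by
      ext v
      rw [hYinf v, ← hc, Fermat.Agent.S37.helper126.ord_algebraMap]
      simp
    rw [hY0', map_zero] at hdkpos
    exact lt_irrefl _ hdkpos
  have : FiniteDimensional k⟮red ⟨x, hx⟩⟯ Fk :=
    Fermat.Agent.S18.helper7885.finiteDimensional_adjoin_of_transcendental jb hxbt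
  have hdY0 : Divisor.degree Y0 = Divisor.degree Yinf :=
    degree_zero_eq_degree_pole hxb0 hYinf hY0
  have hRBk : HasRiemannBound k Fk := hasRiemannBound_of_transcendental' jb hjb Q₀ degk
  obtain ⟨c, hc⟩ := exists_forall_finrank_eq degk Q₀ hRBk
  -- comparison of the two counts on `n (X∞ + X₀)`
  have key : ∀ n : ℕ, c ≤ (n : ℤ) → cK ≤ (n : ℤ) →
      2 * (n : ℤ) * Divisor.degree Yinf - (riemannGenus k Fk : ℤ) ≤ 2 * (n : ℤ) * d - γ := by
    intro n hnc hncK
    have hn0 : (0 : ℤ) ≤ n := Int.natCast_nonneg n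
    have hdegD : Divisor.degree (n • Yinf + n • Y0) = 2 * (n : ℤ) * Divisor.degree Yinf := by
      rw [map_add, map_nsmul, map_nsmul, hdY0]
      simp only [nsmul_eq_mul]
      ring
    have h1 := hc (n • Yinf + n • Y0) (by rw [hdegD]; nlinarith)
    rw [riemannRochSpace_eq_chartSpace_of_perfect hxb0 hYinf hY0 n n, hdegD] at h1
    have h2 := hGapk n n (by nlinarith)
    rw [h1] at h2
    nlinarith
  have hdY : Divisor.degree Yinf = d := by
    refine le_antisymm ?_ hdle
    by_contra hlt
    push Not at hlt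
    set T : ℕ := ((riemannGenus k Fk : ℤ) - γ).toNat with hT
    set n : ℕ := max c.toNat cK.toNat + T + 1 with hn
    have hnc : c ≤ (n : ℤ) := by
      have h1 : c ≤ (c.toNat : ℤ) := Int.self_le_toNat c
      have h2 : c.toNat ≤ n := by rw [hn]; have := le_max_left c.toNat cK.toNat; omega
      exact h1.trans (by exact_mod_cast h2)
    have hncK : cK ≤ (n : ℤ) := by
      have h1 : cK ≤ (cK.toNat : ℤ) := Int.self_le_toNat cK
      have h2 : cK.toNat ≤ n := by rw [hn]; have := le_max_right c.toNat cK.toNat; omega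
      exact h1.trans (by exact_mod_cast h2)
    have h := key n hnc hncK
    have h3 : (riemannGenus k Fk : ℤ) - γ ≤ (T : ℤ) := Int.self_le_toNat _
    have h4 : (T : ℤ) < n := by
      have : T < n := by rw [hn]; omega
      exact_mod_cast this
    nlinarith [mul_nonneg (Int.natCast_nonneg n)
      (by linarith : (0 : ℤ) ≤ Divisor.degree Yinf - d - 1)]
  have hγle : γ ≤ (riemannGenus k Fk : ℤ) := by
    have hnc : c ≤ ((max c.toNat cK.toNat : ℕ) : ℤ) :=
      (Int.self_le_toNat c).trans (by exact_mod_cast le_max_left c.toNat cK.toNat)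
    have hncK : cK ≤ ((max c.toNat cK.toNat : ℕ) : ℤ) :=
      (Int.self_le_toNat cK).trans (by exact_mod_cast le_max_right c.toNat cK.toNat)
    have h := key _ hnc hncK
    rw [hdY] at h
    linarith
  refine ⟨c, Yinf, hYinf, hdY, ?_⟩
  exact Fermat.Agent.S37.helper3441.latHyp_of_supply O hVG red hred hredk_surj Xinf Yinf d
    (by exact_mod_cast hdpos) hdX hdY hRC hcart γ hRiemF
    (fun E => finite_riemannRochSpace degk Q₀ E) c
    (fun E hE => by rw [hc E hE]; linarith) degL degk

end Abstract

section Modular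

variable (N : ℕ) [NeZero N] (ℓ : ℕ) [Fact ℓ.Prime] (hℓN : ¬ ℓ ∣ N)
  (A : ValuationSubring (AlgebraicClosure ℚ)) (hA : A.LiesOverPrime ℓ)

/-- **(LAT) at the Gauss pair of level `N`** from the two Props of S18 track A
(`helper2030.Stmt_Cart`, `helper2030.LineData`): the lattice bundle `helper5413.LatHyp` for the
landed Gauss valuation ring of `F̄_N` and its residue map, with the genus constant `γ` of the
line datum, `Xinf` the pole divisor of the base function `x` and `Yinf` the pole divisor of its
reduction (both of degree `d`). -/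
theorem latHyp_of_lineData (hcart : helper2030.Stmt_Cart N ℓ hℓN A hA)
    (x : modularFunctionFieldBar N) (hL : helper2030.LineData N ℓ hℓN A hA x) :
    ∃ (γ cK : ℤ) (Xinf : Divisor (AlgebraicClosure ℚ) (modularFunctionFieldBar N))
      (Yinf : Divisor (IsLocalRing.ResidueField A)
        (modularFunctionFieldFullC (IsLocalRing.ResidueField A) N)),
      helper6292.IsPoleDivisor x Xinf ∧
      helper6292.IsPoleDivisor (helper2030.gaussRed N ℓ hℓN A hA ⟨x, hL.hx⟩) Yinf ∧
      Divisor.degree Yinf = Divisor.degree Xinf ∧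
      helper5413.LatHyp (helper2030.gaussO N ℓ hℓN A hA) (helper2030.gaussRed N ℓ hℓN A hA)
        γ cK Xinf Yinf := by
  obtain ⟨d, γ, hdpos, hdeg, hRiemF, -, cK, hGapk⟩ := hL.genus
  have hx0 : x ≠ 0 := fun h => hL.htr (h ▸ isAlgebraic_zero)
  have := helper4226.hasPrincipalDivisors_FN N
  have := helper4226.finiteDimensional_jBar_FN N
  have : FiniteDimensional (AlgebraicClosure ℚ)⟮x⟯ (modularFunctionFieldBar N) :=
    helper7885.finiteDimensional_adjoin_of_transcendental (Fermat.Agent.S24.helper24.jBar N) hL.htr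
  obtain ⟨Xinf, X0, hXinf, -⟩ :=
    helper2030.exists_pole_zero_divisor (K := AlgebraicClosure ℚ) hx0
  have hℓ : ℓ.Prime := Fact.out
  have := Fermat.Agent.Lib.helper6879.isAlgClosed_residueField A
  have := helper4307.hasPrincipalDivisors_residue N hℓ hℓN A hA
  obtain ⟨jb, -, hjb, hjfin, -⟩ := helper4307.exists_transcendental_finite_fullC
    (IsLocalRing.ResidueField A) N (helper4307.natCast_ne_zero_residue N hℓ hℓN A hA)
  obtain ⟨cK', Yinf, hYinf, hdY, H⟩ := latHyp_of_chart_supply
    (helper4226.place_deg_eq_one_FN N) (helper4307.place_deg_eq_one_residue N hℓ hℓN A hA)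
    jb hjb (helper2030.gaussO N ℓ hℓN A hA) (helper2030.gaussO_hVG N ℓ hℓN A hA)
    (helper2030.gaussRed N ℓ hℓN A hA) (helper2030.gaussRed_eq_zero_iff N ℓ hℓN A hA)
    (helper2030.gaussRed_const_surj N ℓ hℓN A hA) x hx0 hL.hx hL.hxi hL.hIT hL.hIT'
    Xinf hXinf d hdpos (hdeg Xinf hXinf) hcart γ hRiemF cK hGapk
  exact ⟨γ, cK', Xinf, Yinf, hXinf, hYinf, by rw [hdY, hdeg Xinf hXinf], H⟩

end Modular

end Fermat.Agent.S19.helper9075
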