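import Fermat.Agent.S19.helper2111_Gate
import Fermat.Agent.S19.helper6256_CoreAt

set_option autoImplicit false

/-!
# S19 core, unconditional consumer forms at every level (helper9075)

The geometric core of S19 (`helper6256.stmt_CoreAt`) produces a coordinate system
`helper2111.IsCoordSystem ℓ M A g J1 b` at every level `M` where the gate holds.  The gate is a
theorem at the auxiliary level `helper2289.auxLevel N ℓ` (`N.lcm 3` for `ℓ = 2`, `N.lcm 2`
otherwise; `helper2111.stmt_GateLat_auxLevel`), NOT at an arbitrary level `N` (for `ℓ ∈ {2, 3}`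
and `N` prime to `6` the `j`-line is wild).  This file packages what a consumer at level `N`
can use without any hypothesis, for EVERY `N ≠ 0`, every prime `ℓ ∤ N` (`ℓ = 2, 3` included) and
every place `A` of `ℚ̄` over `ℓ`:

* `exists_auxMap` : the injective Galois-equivariant level map `J₀(N) → J₀(auxLevel N ℓ)`;
* `exists_coordSystem_aux` : a full coordinate system at the auxiliary level;
* `calgCoverAt_aux` : the adapted cover `helper6256.CAlgCoverAt` at the auxiliary level;
* `IsWeakCoordSystem` : a coordinate system with the centres field `cen` weakened to its only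
  transportable consequence `diff : σ • x - x ∈ J1` (for `σ` in the inertia group);
* `weak_of_coordSystem`, `IsWeakCoordSystem.comap` : pull-back along an injective
  inertia-equivariant homomorphism;
* `exists_weakCoordSystem` : a weak coordinate system at level `N` itself;
* `exists_coordSystem_aux_map` : the level map and the full system at the auxiliary level in one
  statement (for consumers that need the centres: work with the images in `J₀(auxLevel N ℓ)`).
-/

namespace Fermat.Agent.S19.helper9075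

open ModularCurve
open Fermat.Agent.S19.helper2111

/-- The injective Galois-equivariant level map to the auxiliary level of the gate. -/
theorem exists_auxMap (N : ℕ) [NeZero N] (ℓ : ℕ) :
    ∃ φ : JZero N →+ JZero (Fermat.Agent.S19.helper2289.auxLevel N ℓ), Function.Injective φ ∧
      ∀ (σ : GQ) (x : JZero N), φ (σ • x) = σ • φ x := by
  by_cases h : ℓ = 2
  · rw [show Fermat.Agent.S19.helper2289.auxLevel N ℓ = N.lcm 3 from if_pos h]
    exact Fermat.Agent.S19.helper2289.exists_lcm N 3 Nat.prime_three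
  · rw [show Fermat.Agent.S19.helper2289.auxLevel N ℓ = N.lcm 2 from if_neg h]
    exact Fermat.Agent.S19.helper2289.exists_lcm N 2 Nat.prime_two

/-- **The core at the auxiliary level, unconditionally**: a coordinate system on the kernel of
reduction of `J₀(auxLevel N ℓ)` at every place of `ℚ̄` over `ℓ ∤ N`. -/
theorem exists_coordSystem_aux (N : ℕ) [NeZero N] (ℓ : ℕ) [Fact ℓ.Prime] (hℓN : ¬ ℓ ∣ N)
    (A : ValuationSubring Qb) (hA : A.LiesOverPrime ℓ) :
    ∃ (g : ℕ) (J1 : AddSubgroup (JZero (Fermat.Agent.S19.helper2289.auxLevel N ℓ)))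
      (b : JZero (Fermat.Agent.S19.helper2289.auxLevel N ℓ) → Fin g → Qb),
      IsCoordSystem ℓ (Fermat.Agent.S19.helper2289.auxLevel N ℓ) A g J1 b :=
  Fermat.Agent.S19.helper6256.stmt_CoreAt _ ℓ _ A hA
    (Fermat.Agent.S19.helper2111.stmt_GateLat_auxLevel N ℓ hℓN A hA)

/-- **The adapted cover at the auxiliary level, unconditionally** (the Prop consumed by
`helper5161.exists_isCoordSystem_loc_of_cover`, the core export with (Loc), (Zero), (Onto)). -/
theorem calgCoverAt_aux (N : ℕ) [NeZero N] (ℓ : ℕ) [Fact ℓ.Prime] (hℓN : ¬ ℓ ∣ N)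
    (A : ValuationSubring Qb) (hA : A.LiesOverPrime ℓ) :
    Fermat.Agent.S19.helper6256.CAlgCoverAt ℓ (Fermat.Agent.S19.helper2289.auxLevel N ℓ) A :=
  Fermat.Agent.S19.helper6256.calgCoverAt_of_gate _ ℓ _ A hA
    (Fermat.Agent.S19.helper6256.gaussRatAt _ ℓ _ A hA)
    (Fermat.Agent.S19.helper2111.stmt_GateLat_auxLevel N ℓ hℓN A hA)

/-- A coordinate system without centres: the field `cen` of `helper2111.IsCoordSystem` is
replaced by its consequence `diff` (inertia moves every point inside its class modulo `J1`).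
This is the part of a coordinate system that pulls back along injective equivariant maps. -/
structure IsWeakCoordSystem (ℓ N : ℕ) (A : ValuationSubring Qb) (g : ℕ)
    (J1 : AddSubgroup (JZero N)) (b : JZero N → Fin g → Qb) : Prop where
  /-- `J1` is stable under inertia. -/
  stable : ∀ σ ∈ A.inertiaSubgroupIn ℚ, ∀ x ∈ J1, σ • x ∈ J1
  /-- The coordinates are integral on `J1`. -/
  val : ∀ x ∈ J1, ∀ i, b x i ∈ A
  /-- The coordinates are inertia-equivariant on `J1`. -/
  eqv : ∀ σ ∈ A.inertiaSubgroupIn ℚ, ∀ x ∈ J1, ∀ i, b (σ • x) i = σ (b x i)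
  /-- The coordinates are injective on `J1`. -/
  inj : ∀ x ∈ J1, ∀ y ∈ J1, b x = b y → x = y
  /-- Inertia moves every point inside its class modulo `J1`. -/
  diff : ∀ σ ∈ A.inertiaSubgroupIn ℚ, ∀ x : JZero N, σ • x - x ∈ J1
  /-- The addition law: modulo `ℓ^j`, on a finite subset of `J1`, polynomial over `A`. -/
  law : ∀ (j : ℕ) (T : Finset (JZero N)), (∀ x ∈ T, x ∈ J1) →
    ∃ P : Fin g → MvPolynomial (Fin g ⊕ Fin g) Qb, (∀ i d, (P i).coeff d ∈ A) ∧
      ∀ x ∈ T, ∀ y ∈ T, ∀ i, ∃ w ∈ A,
        b (x + y) i - MvPolynomial.eval (Sum.elim (b x) (b y)) (P i) = (ℓ : Qb) ^ j * w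

/-- A coordinate system is a weak coordinate system (`cen` + `stable` give `diff`). -/
theorem weak_of_coordSystem {ℓ N : ℕ} {A : ValuationSubring Qb} {g : ℕ}
    {J1 : AddSubgroup (JZero N)} {b : JZero N → Fin g → Qb}
    (h : IsCoordSystem ℓ N A g J1 b) : IsWeakCoordSystem ℓ N A g J1 b where
  stable := h.stable
  val := h.val
  eqv := h.eqv
  inj := h.inj
  diff := by
    intro σ hσ x
    obtain ⟨y, hy, hxy⟩ := h.cen x
    have h1 : σ • (x - y) ∈ J1 := h.stable σ hσ _ hxy
    have h2 : σ • x - x = σ • (x - y) - (x - y) := by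
      rw [smul_sub, hy σ hσ]
      abel
    rw [h2]
    exact J1.sub_mem h1 hxy
  law := h.law

/-- **Pull-back** of a weak coordinate system along an injective additive map that commutes
with the inertia group. -/
theorem IsWeakCoordSystem.comap {ℓ N N' : ℕ} {A : ValuationSubring Qb} {g : ℕ}
    {J1 : AddSubgroup (JZero N')} {b : JZero N' → Fin g → Qb}
    (h : IsWeakCoordSystem ℓ N' A g J1 b) (φ : JZero N →+ JZero N')
    (hφ : Function.Injective φ)
    (hgal : ∀ σ ∈ A.inertiaSubgroupIn ℚ, ∀ x : JZero N, φ (σ • x) = σ • φ x) :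
    IsWeakCoordSystem ℓ N A g (J1.comap φ) (fun x => b (φ x)) where
  stable := by
    intro σ hσ x hx
    rw [AddSubgroup.mem_comap] at hx ⊢
    rw [hgal σ hσ]
    exact h.stable σ hσ _ hx
  val := fun x hx i => h.val _ (AddSubgroup.mem_comap.1 hx) i
  eqv := by
    intro σ hσ x hx i
    rw [hgal σ hσ]
    exact h.eqv σ hσ _ (AddSubgroup.mem_comap.1 hx) i
  inj := fun x hx y hy hxy =>
    hφ (h.inj _ (AddSubgroup.mem_comap.1 hx) _ (AddSubgroup.mem_comap.1 hy) hxy)
  diff := by
    intro σ hσ x
    rw [AddSubgroup.mem_comap, map_sub, hgal σ hσ]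
    exact h.diff σ hσ (φ x)
  law := by
    classical
    intro j T hT
    obtain ⟨P, hP, hlaw⟩ := h.law j (T.image φ) (by
      intro y hy
      obtain ⟨x, hx, rfl⟩ := Finset.mem_image.1 hy
      exact AddSubgroup.mem_comap.1 (hT x hx))
    refine ⟨P, hP, fun x hx y hy i => ?_⟩
    obtain ⟨w, hw, hE⟩ := hlaw (φ x) (Finset.mem_image_of_mem φ hx) (φ y)
      (Finset.mem_image_of_mem φ hy) i
    exact ⟨w, hw, by rw [map_add]; exact hE⟩

/-- **A weak coordinate system at EVERY level** `N ≠ 0`, for every prime `ℓ ∤ N` (`ℓ = 2, 3`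
included) and every place `A` of `ℚ̄` over `ℓ`; no hypothesis.  (Pull-back of the core at the
auxiliary level along the level map.) -/
theorem exists_weakCoordSystem (N : ℕ) [NeZero N] (ℓ : ℕ) [Fact ℓ.Prime] (hℓN : ¬ ℓ ∣ N)
    (A : ValuationSubring Qb) (hA : A.LiesOverPrime ℓ) :
    ∃ (g : ℕ) (J1 : AddSubgroup (JZero N)) (b : JZero N → Fin g → Qb),
      IsWeakCoordSystem ℓ N A g J1 b := by
  obtain ⟨φ, hφ, hgal⟩ := exists_auxMap N ℓ
  obtain ⟨g, J1, b, h⟩ := exists_coordSystem_aux N ℓ hℓN A hA
  exact ⟨g, J1.comap φ, fun x => b (φ x), (weak_of_coordSystem h).comap φ hφ (fun σ _ x => hgal σ x)⟩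

/-- The level map and the full coordinate system at the auxiliary level, in one statement. -/
theorem exists_coordSystem_aux_map (N : ℕ) [NeZero N] (ℓ : ℕ) [Fact ℓ.Prime] (hℓN : ¬ ℓ ∣ N)
    (A : ValuationSubring Qb) (hA : A.LiesOverPrime ℓ) :
    ∃ (φ : JZero N →+ JZero (Fermat.Agent.S19.helper2289.auxLevel N ℓ)) (g : ℕ)
      (J1 : AddSubgroup (JZero (Fermat.Agent.S19.helper2289.auxLevel N ℓ)))
      (b : JZero (Fermat.Agent.S19.helper2289.auxLevel N ℓ) → Fin g → Qb),
      Function.Injective φ ∧ (∀ (σ : GQ) (x : JZero N), φ (σ • x) = σ • φ x) ∧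
        IsCoordSystem ℓ (Fermat.Agent.S19.helper2289.auxLevel N ℓ) A g J1 b := by
  obtain ⟨φ, hφ, hgal⟩ := exists_auxMap N ℓ
  obtain ⟨g, J1, b, h⟩ := exists_coordSystem_aux N ℓ hℓN A hA
  exact ⟨φ, g, J1, b, hφ, hgal, h⟩

end Fermat.Agent.S19.helper9075
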