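import Fermat.Agent.S19.helper9075_CAlgInst
import Fermat.Agent.S19.helper3573_SpecGate

/-!
# S19 gate adapter (helper9075): S18 track A ⟹ `helper3573.GateAt` / `Stmt_GateLat`

Link (S2) of the gate block of S19 (`helper3573_SpecGate`): the two Props that S18 track A
closes at a level `N` with `ℓ ∤ N` (`helper2030.Stmt_Cart`, `helper2030.LineData`, file
`S18/helper2030_SpecA`) give the gate of record, i.e. the lattice bundle
`S37.helper5413.LatHyp` at the landed Gauss pair.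

* `gateAt_of_lineData`      : one place `A`;
* `stmt_GateLat_of_trackA`  : every place `A` over `ℓ`;
* `stmt_GateLat_of_line`    : from the hypothesis `H` of `helper2030.stmt_KFr_of_lineData`
  (the Hauptmodul line `t_r`), for every level divisible by `r` and every prime `ℓ ≠ r`;
* `stmt_GateLat_aux`        : the gate at the auxiliary level `helper2289.auxLevel p ℓ` of the
  root theorem `helper3573.result_of_gate`, from the two Hauptmodul lines `t_2`, `t_3`.
-/

set_option autoImplicit false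
set_option synthInstance.maxHeartbeats 400000

noncomputable section

namespace Fermat.Agent.S19.helper9075

open ModularCurve AlgebraicCurve
open Fermat.Agent.S18 Fermat.Agent.S37

/-- **(S2)** The gate at one place from the two Props of S18 track A. -/
theorem gateAt_of_lineData (N : ℕ) [NeZero N] (ℓ : ℕ) [Fact ℓ.Prime] (hℓN : ¬ ℓ ∣ N)
    (A : ValuationSubring (AlgebraicClosure ℚ)) (hA : A.LiesOverPrime ℓ)
    (hcart : helper2030.Stmt_Cart N ℓ hℓN A hA)
    (x : modularFunctionFieldBar N) (hL : helper2030.LineData N ℓ hℓN A hA x) :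
    Fermat.Agent.S19.helper3573.GateAt N ℓ hℓN A hA := by
  obtain ⟨γ, cK, Xinf, Yinf, -, -, -, H⟩ := latHyp_of_lineData N ℓ hℓN A hA hcart x hL
  exact ⟨γ, cK, Xinf, Yinf, H⟩

/-- **(S2)** The gate at every place over `ℓ` from the two Props of S18 track A. -/
theorem stmt_GateLat_of_trackA (N : ℕ) [NeZero N] (ℓ : ℕ) [Fact ℓ.Prime] (hℓN : ¬ ℓ ∣ N)
    (h : ∀ (A : ValuationSubring (AlgebraicClosure ℚ)) (hA : A.LiesOverPrime ℓ),
      helper2030.Stmt_Cart N ℓ hℓN A hA ∧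
        ∃ x : modularFunctionFieldBar N, helper2030.LineData N ℓ hℓN A hA x) :
    Fermat.Agent.S19.helper3573.Stmt_GateLat N ℓ hℓN := by
  intro A hA
  obtain ⟨hc, x, hL⟩ := h A hA
  exact gateAt_of_lineData N ℓ hℓN A hA hc x hL

/-- The gate on a Hauptmodul line: the hypothesis `H` is VERBATIM the hypothesis of
`helper2030.stmt_KFr_of_lineData` (the track A supply on the line `t_r`). -/
theorem stmt_GateLat_of_line (r : ℕ)
    (H : ∀ (N' : ℕ) [NeZero N'] (ℓ : ℕ) [Fact ℓ.Prime] (hℓN : ¬ ℓ ∣ N'), r ∣ N' → ℓ ≠ r →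
      ∀ (A : ValuationSubring (AlgebraicClosure ℚ)) (hA : A.LiesOverPrime ℓ),
        helper2030.Stmt_Cart N' ℓ hℓN A hA ∧
          ∃ x : modularFunctionFieldBar N', helper2030.LineData N' ℓ hℓN A hA x)
    (N' : ℕ) [NeZero N'] (ℓ : ℕ) [Fact ℓ.Prime] (hℓN : ¬ ℓ ∣ N') (hr : r ∣ N') (hℓr : ℓ ≠ r) :
    Fermat.Agent.S19.helper3573.Stmt_GateLat N' ℓ hℓN :=
  stmt_GateLat_of_trackA N' ℓ hℓN (H N' ℓ hℓN hr hℓr)

/-- **The gate of `helper3573.result_of_gate`**: at the auxiliary level `auxLevel p ℓ`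
(`p.lcm 3` for `ℓ = 2`, `p.lcm 2` otherwise), from the track A supply on the two Hauptmodul
lines `t_2` (used for `ℓ ≠ 2`) and `t_3` (used for `ℓ = 2`). -/
theorem stmt_GateLat_aux
    (H2 : ∀ (N' : ℕ) [NeZero N'] (ℓ : ℕ) [Fact ℓ.Prime] (hℓN : ¬ ℓ ∣ N'), 2 ∣ N' → ℓ ≠ 2 →
      ∀ (A : ValuationSubring (AlgebraicClosure ℚ)) (hA : A.LiesOverPrime ℓ),
        helper2030.Stmt_Cart N' ℓ hℓN A hA ∧
          ∃ x : modularFunctionFieldBar N', helper2030.LineData N' ℓ hℓN A hA x)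
    (H3 : ∀ (N' : ℕ) [NeZero N'] (ℓ : ℕ) [Fact ℓ.Prime] (hℓN : ¬ ℓ ∣ N'), 3 ∣ N' → ℓ ≠ 3 →
      ∀ (A : ValuationSubring (AlgebraicClosure ℚ)) (hA : A.LiesOverPrime ℓ),
        helper2030.Stmt_Cart N' ℓ hℓN A hA ∧
          ∃ x : modularFunctionFieldBar N', helper2030.LineData N' ℓ hℓN A hA x)
    (p : ℕ) [NeZero p] (ℓ : ℕ) [Fact ℓ.Prime] (hℓp : ¬ ℓ ∣ p) :
    Fermat.Agent.S19.helper3573.Stmt_GateLat (Fermat.Agent.S19.helper2289.auxLevel p ℓ) ℓ
      (Fermat.Agent.S19.helper2289.not_dvd_auxLevel (Fact.out : ℓ.Prime) hℓp) := by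
  by_cases h2 : ℓ = 2
  · refine stmt_GateLat_of_line 3 H3 _ ℓ _ ?_ (by omega)
    unfold Fermat.Agent.S19.helper2289.auxLevel
    rw [if_pos h2]
    exact Nat.dvd_lcm_right p 3
  · refine stmt_GateLat_of_line 2 H2 _ ℓ _ ?_ h2
    unfold Fermat.Agent.S19.helper2289.auxLevel
    rw [if_neg h2]
    exact Nat.dvd_lcm_right p 2

end Fermat.Agent.S19.helper9075
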