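/-
S19 second line (C-ideal), helper9190: basic calculus for the assembly of CORE-C
(`helper9190_CoreAsm.lean`): congruences modulo `ℓ ^ r A`, the chart rings `chartRing`,
`chartMax`, `chartNil`, the Gauss valuation ring, the modules `Lsec`, `TrivSec`, and the
transport of all of them under the decomposition group.
-/
import Fermat.Agent.S19.helper9190_SpecC
import Fermat.Agent.S18.helper9428_RankOne

set_option autoImplicit false

namespace Fermat.Agent.S19.helper9190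

open ModularCurve ModularCurve.IgusaScheme AlgebraicCurve

noncomputable section

local notation "Qb" => AlgebraicClosure ℚ
local notation "GQ" => (AlgebraicClosure ℚ ≃ₐ[ℚ] AlgebraicClosure ℚ)

/-! ## 1. Congruences modulo `ℓ ^ r A` -/

section CongCalc

variable {A : ValuationSubring Qb} {ℓ r : ℕ}

theorem cong_refl (x : Qb) : Cong A ℓ r x x :=
  ⟨0, A.zero_mem, by simp⟩

theorem Cong.symm {x y : Qb} (h : Cong A ℓ r x y) : Cong A ℓ r y x := by
  obtain ⟨w, hw, e⟩ := h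
  exact ⟨-w, A.neg_mem _ hw, by rw [mul_neg, ← e]; ring⟩

theorem Cong.trans {x y z : Qb} (h : Cong A ℓ r x y) (h' : Cong A ℓ r y z) : Cong A ℓ r x z := by
  obtain ⟨w, hw, e⟩ := h
  obtain ⟨w', hw', e'⟩ := h'
  exact ⟨w + w', A.add_mem _ _ hw hw', by rw [mul_add, ← e, ← e']; ring⟩

theorem Cong.mono {r' : ℕ} (hr : r' ≤ r) {x y : Qb} (h : Cong A ℓ r x y) : Cong A ℓ r' x y := by
  obtain ⟨w, hw, e⟩ := h
  refine ⟨(ℓ : Qb) ^ (r - r') * w, A.mul_mem _ _ (A.pow_mem (natCast_mem A ℓ) _) hw, ?_⟩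
  rw [e, ← mul_assoc, ← pow_add, Nat.add_sub_cancel' hr]

theorem Cong.mul_left {x y : Qb} (h : Cong A ℓ r x y) {c : Qb} (hc : c ∈ A) :
    Cong A ℓ r (c * x) (c * y) := by
  obtain ⟨w, hw, e⟩ := h
  exact ⟨c * w, A.mul_mem _ _ hc hw, by rw [← mul_sub, e]; ring⟩

theorem cong_zero_of_mem {x : Qb} {w : Qb} (hw : w ∈ A) (e : x = (ℓ : Qb) ^ r * w) :
    Cong A ℓ r x 0 :=
  ⟨w, hw, by rw [sub_zero, e]⟩

theorem cong_zero_iff {x : Qb} : Cong A ℓ r x 0 ↔ ∃ w ∈ A, x = (ℓ : Qb) ^ r * w := by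
  unfold Cong
  simp only [sub_zero]

/-- If `x ^ n ≡ 0` and `n ≤ n'`, `x ∈ A`, then `x ^ n' ≡ 0`. -/
theorem cong_pow_zero_mono {x : Qb} (hx : x ∈ A) {n n' : ℕ} (hn : n ≤ n')
    (h : Cong A ℓ r (x ^ n) 0) : Cong A ℓ r (x ^ n') 0 := by
  obtain ⟨w, hw, e⟩ := cong_zero_iff.mp h
  refine cong_zero_iff.mpr ⟨x ^ (n' - n) * w, A.mul_mem _ _ (A.pow_mem hx _) hw, ?_⟩
  calc x ^ n' = x ^ (n' - n) * x ^ n := by rw [← pow_add, Nat.sub_add_cancel hn]
    _ = _ := by rw [e]; ring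

/-- A multiple (in `A`) of an element nilpotent of index `n` is nilpotent of index `n`. -/
theorem cong_pow_zero_mul {x u : Qb} (hu : u ∈ A) {n : ℕ}
    (h : Cong A ℓ r (x ^ n) 0) : Cong A ℓ r ((x * u) ^ n) 0 := by
  obtain ⟨w, hw, e⟩ := cong_zero_iff.mp h
  refine cong_zero_iff.mpr ⟨w * u ^ n, A.mul_mem _ _ hw (A.pow_mem hu _), ?_⟩
  rw [mul_pow, e]; ring

end CongCalc

/-! ## 2. The valuation ring `A` over `ℓ` -/

section ValA

variable {A : ValuationSubring Qb} {ℓ : ℕ} [Fact ℓ.Prime]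

/-- Rank one: a nonunit is nilpotent modulo every power of `ℓ`, with an index `≥ 1`. -/
theorem exists_nilIndex (hA : A.LiesOverPrime ℓ) {c : Qb} (hc : c ∈ A.nonunits) (r : ℕ) :
    ∃ n : ℕ, 1 ≤ n ∧ Cong A ℓ r (c ^ n) 0 := by
  have hℓ0 : ((ℓ : Qb) ^ r) ≠ 0 :=
    pow_ne_zero _ (Nat.cast_ne_zero.mpr (Fact.out : ℓ.Prime).ne_zero)
  obtain ⟨n, b, hb, e⟩ := Fermat.Agent.S18.helper9428.exists_pow_eq_mul_Qbar hA hc hℓ0
  have hcA : c ∈ A := A.nonunits_le hc
  refine ⟨n + 1, Nat.le_add_left 1 n, cong_zero_iff.mpr ⟨b * c, A.mul_mem _ _ hb hcA, ?_⟩⟩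
  rw [pow_succ, e]; ring

/-- For `r ≥ 1`, an element of `A` with a power divisible by `ℓ ^ r` is a nonunit. -/
theorem mem_nonunits_of_cong_pow (hA : A.LiesOverPrime ℓ) {c : Qb} (hc : c ∈ A) {n r : ℕ}
    (hr : 1 ≤ r) (h : Cong A ℓ r (c ^ n) 0) : c ∈ A.nonunits := by
  obtain ⟨w, hw, e⟩ := cong_zero_iff.mp h
  rw [ValuationSubring.mem_nonunits_iff]
  have hℓ : A.valuation (ℓ : Qb) < 1 := (ValuationSubring.mem_nonunits_iff A).1 hA
  have hw1 : A.valuation w ≤ 1 := (A.valuation_le_one_iff _).mpr hw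
  have hc1 : A.valuation c ≤ 1 := (A.valuation_le_one_iff _).mpr hc
  by_contra hcon
  have hceq : A.valuation c = 1 := le_antisymm hc1 (not_lt.mp hcon)
  have h1 : A.valuation (c ^ n) = 1 := by rw [map_pow, hceq, one_pow]
  rw [e, map_mul, map_pow] at h1
  have h2 : A.valuation (ℓ : Qb) ^ r * A.valuation w < 1 := by
    calc A.valuation (ℓ : Qb) ^ r * A.valuation w ≤ A.valuation (ℓ : Qb) ^ r * 1 :=
          mul_le_mul_right hw1 _
      _ = A.valuation (ℓ : Qb) ^ r := mul_one _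
      _ ≤ A.valuation (ℓ : Qb) ^ 1 := pow_le_pow_of_le_one zero_le hℓ.le hr
      _ < 1 := by rw [pow_one]; exact hℓ
  exact absurd h1 (ne_of_lt h2)

/-- A nonzero element is not divisible by all powers of `ℓ`. -/
theorem exists_not_cong_zero (hA : A.LiesOverPrime ℓ) {c : Qb} (hc : c ≠ 0) :
    ∃ r : ℕ, ¬ Cong A ℓ r c 0 := by
  obtain ⟨n, hn⟩ := Fermat.Agent.S18.helper9428.exists_pow_prime_le_Qbar hA hc
  refine ⟨n + 1, fun h => ?_⟩
  obtain ⟨w, hw, e⟩ := cong_zero_iff.mp h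
  have hℓ : A.valuation (ℓ : Qb) < 1 := (ValuationSubring.mem_nonunits_iff A).1 hA
  have hℓ0 : A.valuation (ℓ : Qb) ≠ 0 :=
    (Valuation.ne_zero_iff _).mpr (Nat.cast_ne_zero.mpr (Fact.out : ℓ.Prime).ne_zero)
  have hw1 : A.valuation w ≤ 1 := (A.valuation_le_one_iff _).mpr hw
  have h1 : A.valuation c ≤ A.valuation (ℓ : Qb) ^ (n + 1) := by
    rw [e, map_mul, map_pow]
    calc A.valuation (ℓ : Qb) ^ (n + 1) * A.valuation w
        ≤ A.valuation (ℓ : Qb) ^ (n + 1) * 1 := mul_le_mul_right hw1 _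
      _ = _ := mul_one _
  have h2 : A.valuation (ℓ : Qb) ^ (n + 1) < A.valuation (ℓ : Qb) ^ n := by
    rw [pow_succ]
    calc A.valuation (ℓ : Qb) ^ n * A.valuation (ℓ : Qb)
        < A.valuation (ℓ : Qb) ^ n * 1 :=
          mul_lt_mul_of_pos_left hℓ (pow_pos (zero_lt_iff.mpr hℓ0) n)
      _ = _ := mul_one _
  exact absurd (hn.trans h1) (not_le.mpr h2)

/-- In a valuation ring one of two elements divides the other; level `E` version. -/
theorem exists_div_of_mem (E : IntermediateField ℚ Qb) {c c' : Qb} (hc : c ∈ A) (hcE : c ∈ E)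
    (hc' : c' ∈ A) (hcE' : c' ∈ E) :
    (∃ u : Qb, u ∈ A ∧ u ∈ E ∧ c' = c * u) ∨ (∃ u : Qb, u ∈ A ∧ u ∈ E ∧ c = c' * u) := by
  by_cases h0 : c = 0
  · exact Or.inr ⟨0, A.zero_mem, E.zero_mem, by rw [h0, mul_zero]⟩
  by_cases h0' : c' = 0
  · exact Or.inl ⟨0, A.zero_mem, E.zero_mem, by rw [h0', mul_zero]⟩
  rcases A.mem_or_inv_mem (c' / c) with h | h
  · exact Or.inl ⟨c' / c, h, E.div_mem hcE' hcE, by field_simp⟩
  · refine Or.inr ⟨c / c', ?_, E.div_mem hcE hcE', by field_simp⟩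
    rwa [inv_div] at h

end ValA

/-! ## 3. Chart rings -/

section ChartRings

variable (N : ℕ) [NeZero N] (ℓ : ℕ) [Fact ℓ.Prime] (A : ValuationSubring Qb)

theorem cst_mem_chartRing (E : IntermediateField ℚ Qb) (i : ℕ) {c : Qb} (hc : c ∈ A)
    (hcE : c ∈ E) : cst N c ∈ chartRing N ℓ A E i :=
  Subring.subset_closure (Or.inl ⟨c, ⟨hc, hcE⟩, rfl⟩)

theorem emb_mem_chartRing (E : IntermediateField ℚ Qb) (i : ℕ) {x : FQ N}
    (hx : x ∈ chartSet N ℓ i) : emb N x ∈ chartRing N ℓ A E i :=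
  Subring.subset_closure (Or.inr ⟨x, hx, rfl⟩)

theorem chartRing_mono_level {E E' : IntermediateField ℚ Qb} (h : E ≤ E') (i : ℕ) :
    chartRing N ℓ A E i ≤ chartRing N ℓ A E' i := by
  apply Subring.closure_mono
  rintro f (⟨c, ⟨hc, hcE⟩, rfl⟩ | hf)
  · exact Or.inl ⟨c, ⟨hc, h hcE⟩, rfl⟩
  · exact Or.inr hf

theorem chartSet_subset_mid (i : ℕ) : chartSet N ℓ i ⊆ chartSet N ℓ 2 := by
  intro x hx
  unfold chartSet at hx ⊢
  simp only [show (2 : ℕ) ≠ 0 by norm_num, show (2 : ℕ) ≠ 1 by norm_num, if_false]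
  split_ifs at hx with h0 h1
  · exact chartAlg_mono N ℓ (sFin_subset N) hx
  · exact chartAlg_mono N ℓ (sInf_subset N) hx
  · exact hx

theorem chartRing_le_mid (E : IntermediateField ℚ Qb) (i : ℕ) :
    chartRing N ℓ A E i ≤ chartRing N ℓ A E 2 := by
  apply Subring.closure_mono
  rintro f (hf | ⟨x, hx, rfl⟩)
  · exact Or.inl hf
  · exact Or.inr ⟨x, chartSet_subset_mid N ℓ i hx, rfl⟩

/-- Every element of `S_{i,A}` lives at a finite level. -/
theorem exists_level_of_mem_chartRing (i : ℕ) {f : FK N} (hf : f ∈ chartRing N ℓ A ⊤ i) :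
    ∃ E : IntermediateField ℚ Qb, FiniteDimensional ℚ E ∧ f ∈ chartRing N ℓ A E i := by
  unfold chartRing at hf
  induction hf using Subring.closure_induction with
  | mem f hf =>
    rcases hf with ⟨c, ⟨hc, -⟩, rfl⟩ | ⟨x, hx, rfl⟩
    · refine ⟨IntermediateField.adjoin ℚ {c}, ?_, ?_⟩
      · exact IntermediateField.adjoin.finiteDimensional
          ((AlgebraicClosure.isAlgebraic ℚ).isAlgebraic c).isIntegral
      · exact cst_mem_chartRing N ℓ A _ i hc
          (IntermediateField.subset_adjoin ℚ {c} (Set.mem_singleton c))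
    · exact ⟨⊥, inferInstance, emb_mem_chartRing N ℓ A ⊥ i hx⟩
  | zero => exact ⟨⊥, inferInstance, Subring.zero_mem _⟩
  | one => exact ⟨⊥, inferInstance, Subring.one_mem _⟩
  | add x y _ _ hx hy =>
    obtain ⟨E1, h1, hx⟩ := hx
    obtain ⟨E2, h2, hy⟩ := hy
    exact ⟨E1 ⊔ E2, IntermediateField.finiteDimensional_sup E1 E2,
      Subring.add_mem _ (chartRing_mono_level N ℓ A le_sup_left i hx)
        (chartRing_mono_level N ℓ A le_sup_right i hy)⟩
  | neg x _ hx =>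
    obtain ⟨E1, h1, hx⟩ := hx
    exact ⟨E1, h1, Subring.neg_mem _ hx⟩
  | mul x y _ _ hx hy =>
    obtain ⟨E1, h1, hx⟩ := hx
    obtain ⟨E2, h2, hy⟩ := hy
    exact ⟨E1 ⊔ E2, IntermediateField.finiteDimensional_sup E1 E2,
      Subring.mul_mem _ (chartRing_mono_level N ℓ A le_sup_left i hx)
        (chartRing_mono_level N ℓ A le_sup_right i hy)⟩

/-- Finitely many data live at one finite level (binary form). -/
theorem exists_level_sup {E1 E2 : IntermediateField ℚ Qb} (h1 : FiniteDimensional ℚ E1)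
    (h2 : FiniteDimensional ℚ E2) :
    ∃ E : IntermediateField ℚ Qb, FiniteDimensional ℚ E ∧ E1 ≤ E ∧ E2 ≤ E :=
  ⟨E1 ⊔ E2, IntermediateField.finiteDimensional_sup E1 E2, le_sup_left, le_sup_right⟩

theorem exists_level_of_mem (c : Qb) :
    ∃ E : IntermediateField ℚ Qb, FiniteDimensional ℚ E ∧ c ∈ E :=
  ⟨IntermediateField.adjoin ℚ {c}, IntermediateField.adjoin.finiteDimensional
      ((AlgebraicClosure.isAlgebraic ℚ).isAlgebraic c).isIntegral,
    IntermediateField.subset_adjoin ℚ {c} (Set.mem_singleton c)⟩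

theorem chartRing_le_levelField (E : IntermediateField ℚ Qb) (i : ℕ) {f : FK N}
    (hf : f ∈ chartRing N ℓ A E i) : f ∈ levelField N E := by
  unfold chartRing at hf
  induction hf using Subring.closure_induction with
  | mem f hf =>
    rcases hf with ⟨c, ⟨-, hcE⟩, rfl⟩ | ⟨x, -, rfl⟩
    · exact Subfield.subset_closure (Or.inl ⟨c, hcE, rfl⟩)
    · exact Subfield.subset_closure (Or.inr ⟨x, rfl⟩)
  | zero => exact Subfield.zero_mem _
  | one => exact Subfield.one_mem _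
  | add x y _ _ hx hy => exact Subfield.add_mem _ hx hy
  | neg x _ hx => exact Subfield.neg_mem _ hx
  | mul x y _ _ hx hy => exact Subfield.mul_mem _ hx hy

theorem levelField_mono {E E' : IntermediateField ℚ Qb} (h : E ≤ E') :
    levelField N E ≤ levelField N E' := by
  apply Subfield.closure_mono
  rintro f (⟨c, hcE, rfl⟩ | hf)
  · exact Or.inl ⟨c, h hcE, rfl⟩
  · exact Or.inr hf

end ChartRings

/-! ## 4. Every element of `FK` lives at a finite level -/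

section Levels

variable (N : ℕ) [NeZero N]

theorem mem_levelField_top (f : FK N) : f ∈ levelField N ⊤ := by
  obtain ⟨x, hx⟩ := f
  let φ : FK N →+* LaurentSeries Qb := (modularFunctionFieldBar N).toSubring.subtype
  have hle : Subfield.closure (Set.range (algebraMap Qb (LaurentSeries Qb)) ∪
      (⇑(coeffEmb Qb) '' ((modularFunctionFieldFull N : IntermediateField ℚ (LaurentSeries ℚ)) :
        Set (LaurentSeries ℚ)))) ≤ (levelField N ⊤).map φ := by
    rw [Subfield.closure_le]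
    rintro y (⟨c, rfl⟩ | ⟨z, hz, rfl⟩)
    · exact ⟨cst N c, Subfield.subset_closure (Or.inl ⟨c, trivial, rfl⟩), rfl⟩
    · exact ⟨emb N ⟨z, hz⟩, Subfield.subset_closure (Or.inr ⟨⟨z, hz⟩, rfl⟩), rfl⟩
  obtain ⟨f', hf', hfx⟩ := hle (mem_laurentBaseChange_iff.mp hx)
  have : f' = ⟨x, hx⟩ := Subtype.ext hfx
  rw [← this]
  exact hf'

theorem exists_level_of_FK (f : FK N) :
    ∃ E : IntermediateField ℚ Qb, FiniteDimensional ℚ E ∧ f ∈ levelField N E := by
  have hf := mem_levelField_top N f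
  unfold levelField at hf
  induction hf using Subfield.closure_induction with
  | mem y hy =>
    rcases hy with ⟨c, -, rfl⟩ | ⟨z, rfl⟩
    · obtain ⟨E, hE, hc⟩ := exists_level_of_mem c
      exact ⟨E, hE, Subfield.subset_closure (Or.inl ⟨c, hc, rfl⟩)⟩
    · exact ⟨⊥, inferInstance, Subfield.subset_closure (Or.inr ⟨z, rfl⟩)⟩
  | one => exact ⟨⊥, inferInstance, Subfield.one_mem _⟩
  | add a b _ _ ha hb =>
    obtain ⟨E1, h1, ha⟩ := ha
    obtain ⟨E2, h2, hb⟩ := hb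
    exact ⟨E1 ⊔ E2, IntermediateField.finiteDimensional_sup E1 E2,
      Subfield.add_mem _ (levelField_mono N le_sup_left ha) (levelField_mono N le_sup_right hb)⟩
  | neg a _ ha =>
    obtain ⟨E1, h1, ha⟩ := ha
    exact ⟨E1, h1, Subfield.neg_mem _ ha⟩
  | inv a _ ha =>
    obtain ⟨E1, h1, ha⟩ := ha
    exact ⟨E1, h1, Subfield.inv_mem _ ha⟩
  | mul a b _ _ ha hb =>
    obtain ⟨E1, h1, ha⟩ := ha
    obtain ⟨E2, h2, hb⟩ := hb
    exact ⟨E1 ⊔ E2, IntermediateField.finiteDimensional_sup E1 E2,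
      Subfield.mul_mem _ (levelField_mono N le_sup_left ha) (levelField_mono N le_sup_right hb)⟩

end Levels

/-! ## 5. The ideals `chartNil`, `chartMax` and congruences in the chart rings -/

section Ideals

variable (N : ℕ) [NeZero N] (ℓ : ℕ) [Fact ℓ.Prime] (A : ValuationSubring Qb)

theorem cst_zero : cst N (0 : Qb) = 0 := map_zero _

theorem cst_one : cst N (1 : Qb) = 1 := map_one _

theorem cst_mul (c d : Qb) : cst N (c * d) = cst N c * cst N d := map_mul _ _ _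

theorem cst_pow (c : Qb) (n : ℕ) : cst N (c ^ n) = cst N c ^ n := map_pow _ _ _

theorem cst_add (c d : Qb) : cst N (c + d) = cst N c + cst N d := map_add _ _ _

theorem cst_sub (c d : Qb) : cst N (c - d) = cst N c - cst N d := map_sub _ _ _

theorem cst_neg (c : Qb) : cst N (-c) = -cst N c := map_neg _ _

theorem cst_injective : Function.Injective (fun c : Qb => cst N c) :=
  (algebraMap Qb (FK N)).injective

theorem cst_ne_zero {c : Qb} (hc : c ≠ 0) : cst N c ≠ 0 := by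
  intro h
  exact hc (cst_injective N (h.trans (cst_zero N).symm))

variable {N ℓ A}

theorem chartNil_subset {E : IntermediateField ℚ Qb} {n r i : ℕ} {f : FK N}
    (hf : f ∈ chartNil N ℓ A E n r i) : f ∈ chartRing N ℓ A E i := by
  obtain ⟨c, hc, hcE, -, s, hs, rfl⟩ := hf
  exact Subring.mul_mem _ (cst_mem_chartRing N ℓ A E i hc hcE) hs

theorem chartNil_zero_mem (E : IntermediateField ℚ Qb) {n : ℕ} (hn : 1 ≤ n) (r i : ℕ) :
    (0 : FK N) ∈ chartNil N ℓ A E n r i :=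
  ⟨0, A.zero_mem, E.zero_mem,
    cong_zero_iff.mpr ⟨0, A.zero_mem, by rw [zero_pow (by omega), mul_zero]⟩,
    1, Subring.one_mem _, by rw [cst_zero, zero_mul]⟩

theorem chartNil_mul_mem {E : IntermediateField ℚ Qb} {n r i : ℕ} {f s : FK N}
    (hf : f ∈ chartNil N ℓ A E n r i) (hs : s ∈ chartRing N ℓ A E i) :
    f * s ∈ chartNil N ℓ A E n r i := by
  obtain ⟨c, hc, hcE, hcn, t, ht, rfl⟩ := hf
  exact ⟨c, hc, hcE, hcn, t * s, Subring.mul_mem _ ht hs, by ring⟩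

theorem chartNil_neg_mem {E : IntermediateField ℚ Qb} {n r i : ℕ} {f : FK N}
    (hf : f ∈ chartNil N ℓ A E n r i) : -f ∈ chartNil N ℓ A E n r i := by
  obtain ⟨c, hc, hcE, hcn, t, ht, rfl⟩ := hf
  exact ⟨c, hc, hcE, hcn, -t, Subring.neg_mem _ ht, by ring⟩

theorem chartNil_add_mem {E : IntermediateField ℚ Qb} {n r i : ℕ} {f f' : FK N}
    (hf : f ∈ chartNil N ℓ A E n r i) (hf' : f' ∈ chartNil N ℓ A E n r i) :
    f + f' ∈ chartNil N ℓ A E n r i := by
  obtain ⟨c, hc, hcE, hcn, t, ht, rfl⟩ := hf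
  obtain ⟨c', hc', hcE', hcn', t', ht', rfl⟩ := hf'
  rcases exists_div_of_mem E hc hcE hc' hcE' with ⟨u, hu, huE, rfl⟩ | ⟨u, hu, huE, rfl⟩
  · exact ⟨c, hc, hcE, hcn, t + cst N u * t',
      Subring.add_mem _ ht (Subring.mul_mem _ (cst_mem_chartRing N ℓ A E i hu huE) ht'),
      by rw [cst_mul]; ring⟩
  · exact ⟨c', hc', hcE', hcn', cst N u * t + t',
      Subring.add_mem _ (Subring.mul_mem _ (cst_mem_chartRing N ℓ A E i hu huE) ht) ht',
      by rw [cst_mul]; ring⟩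

theorem chartNil_sub_mem {E : IntermediateField ℚ Qb} {n r i : ℕ} {f f' : FK N}
    (hf : f ∈ chartNil N ℓ A E n r i) (hf' : f' ∈ chartNil N ℓ A E n r i) :
    f - f' ∈ chartNil N ℓ A E n r i := by
  rw [sub_eq_add_neg]
  exact chartNil_add_mem hf (chartNil_neg_mem hf')

theorem chartNil_mono_n {E : IntermediateField ℚ Qb} {n n' r i : ℕ} (h : n ≤ n') {f : FK N}
    (hf : f ∈ chartNil N ℓ A E n r i) : f ∈ chartNil N ℓ A E n' r i := by
  obtain ⟨c, hc, hcE, hcn, t, ht, rfl⟩ := hf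
  exact ⟨c, hc, hcE, cong_pow_zero_mono hc h hcn, t, ht, rfl⟩

theorem chartNil_mono_r {E : IntermediateField ℚ Qb} {n r r' i : ℕ} (h : r' ≤ r) {f : FK N}
    (hf : f ∈ chartNil N ℓ A E n r i) : f ∈ chartNil N ℓ A E n r' i := by
  obtain ⟨c, hc, hcE, hcn, t, ht, rfl⟩ := hf
  exact ⟨c, hc, hcE, hcn.mono h, t, ht, rfl⟩

theorem chartNil_mono_level {E E' : IntermediateField ℚ Qb} (h : E ≤ E') {n r i : ℕ} {f : FK N}
    (hf : f ∈ chartNil N ℓ A E n r i) : f ∈ chartNil N ℓ A E' n r i := by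
  obtain ⟨c, hc, hcE, hcn, t, ht, rfl⟩ := hf
  exact ⟨c, hc, h hcE, hcn, t, chartRing_mono_level N ℓ A h i ht, rfl⟩

theorem chartNil_le_mid {E : IntermediateField ℚ Qb} {n r i : ℕ} {f : FK N}
    (hf : f ∈ chartNil N ℓ A E n r i) : f ∈ chartNil N ℓ A E n r 2 := by
  obtain ⟨c, hc, hcE, hcn, t, ht, rfl⟩ := hf
  exact ⟨c, hc, hcE, hcn, t, chartRing_le_mid N ℓ A E i ht, rfl⟩

/-- `1 + chartNil` is closed under products. -/
theorem chartNil_one_add_mul {E : IntermediateField ℚ Qb} {n r i : ℕ} {a a' : FK N}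
    (ha : a - 1 ∈ chartNil N ℓ A E n r i) (ha' : a' - 1 ∈ chartNil N ℓ A E n r i) :
    a * a' - 1 ∈ chartNil N ℓ A E n r i := by
  have h1 : a' ∈ chartRing N ℓ A E i := by
    have := Subring.add_mem _ (chartNil_subset ha') (Subring.one_mem (chartRing N ℓ A E i))
    simpa using this
  have : a * a' - 1 = (a - 1) * a' + (a' - 1) := by ring
  rw [this]
  exact chartNil_add_mem (chartNil_mul_mem ha h1) ha'

theorem mem_chartRing_of_sub_one {E : IntermediateField ℚ Qb} {n r i : ℕ} {a : FK N}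
    (ha : a - 1 ∈ chartNil N ℓ A E n r i) : a ∈ chartRing N ℓ A E i := by
  have := Subring.add_mem _ (chartNil_subset ha) (Subring.one_mem (chartRing N ℓ A E i))
  simpa using this

/-! ### `chartMax` -/

theorem chartMax_subset {i : ℕ} {f : FK N} (hf : f ∈ chartMax N ℓ A i) :
    f ∈ chartRing N ℓ A ⊤ i := by
  obtain ⟨c, hc, s, hs, rfl⟩ := hf
  exact Subring.mul_mem _ (cst_mem_chartRing N ℓ A ⊤ i (A.nonunits_le hc) trivial) hs

theorem chartMax_zero_mem (i : ℕ) : (0 : FK N) ∈ chartMax N ℓ A i :=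
  ⟨0, by rw [ValuationSubring.mem_nonunits_iff, map_zero]; exact zero_lt_one, 1,
    Subring.one_mem _, by rw [cst_zero, zero_mul]⟩

theorem chartMax_mul_mem {i : ℕ} {f s : FK N} (hf : f ∈ chartMax N ℓ A i)
    (hs : s ∈ chartRing N ℓ A ⊤ i) : f * s ∈ chartMax N ℓ A i := by
  obtain ⟨c, hc, t, ht, rfl⟩ := hf
  exact ⟨c, hc, t * s, Subring.mul_mem _ ht hs, by ring⟩

theorem chartMax_neg_mem {i : ℕ} {f : FK N} (hf : f ∈ chartMax N ℓ A i) :
    -f ∈ chartMax N ℓ A i := by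
  obtain ⟨c, hc, t, ht, rfl⟩ := hf
  exact ⟨c, hc, -t, Subring.neg_mem _ ht, by ring⟩

theorem chartMax_add_mem {i : ℕ} {f f' : FK N} (hf : f ∈ chartMax N ℓ A i)
    (hf' : f' ∈ chartMax N ℓ A i) : f + f' ∈ chartMax N ℓ A i := by
  obtain ⟨c, hc, t, ht, rfl⟩ := hf
  obtain ⟨c', hc', t', ht', rfl⟩ := hf'
  rcases exists_div_of_mem (A := A) ⊤ (A.nonunits_le hc) trivial (A.nonunits_le hc') trivial with
    ⟨u, hu, -, rfl⟩ | ⟨u, hu, -, rfl⟩
  · exact ⟨c, hc, t + cst N u * t',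
      Subring.add_mem _ ht (Subring.mul_mem _ (cst_mem_chartRing N ℓ A ⊤ i hu trivial) ht'),
      by rw [cst_mul]; ring⟩
  · exact ⟨c', hc', cst N u * t + t',
      Subring.add_mem _ (Subring.mul_mem _ (cst_mem_chartRing N ℓ A ⊤ i hu trivial) ht) ht',
      by rw [cst_mul]; ring⟩

theorem chartMax_sub_mem {i : ℕ} {f f' : FK N} (hf : f ∈ chartMax N ℓ A i)
    (hf' : f' ∈ chartMax N ℓ A i) : f - f' ∈ chartMax N ℓ A i := by
  rw [sub_eq_add_neg]
  exact chartMax_add_mem hf (chartMax_neg_mem hf')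

theorem chartMax_le_mid {i : ℕ} {f : FK N} (hf : f ∈ chartMax N ℓ A i) :
    f ∈ chartMax N ℓ A 2 := by
  obtain ⟨c, hc, t, ht, rfl⟩ := hf
  exact ⟨c, hc, t, chartRing_le_mid N ℓ A ⊤ i ht, rfl⟩

theorem chartMax_one_add_mul {i : ℕ} {a a' : FK N}
    (ha : a - 1 ∈ chartMax N ℓ A i) (ha' : a' - 1 ∈ chartMax N ℓ A i) :
    a * a' - 1 ∈ chartMax N ℓ A i := by
  have h1 : a' ∈ chartRing N ℓ A ⊤ i := by
    have := Subring.add_mem _ (chartMax_subset ha') (Subring.one_mem (chartRing N ℓ A ⊤ i))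
    simpa using this
  have : a * a' - 1 = (a - 1) * a' + (a' - 1) := by ring
  rw [this]
  exact chartMax_add_mem (chartMax_mul_mem ha h1) ha'

/-- Rank one: `𝔪_A S_{i,A}` is nil modulo every power of `ℓ`. -/
theorem chartMax_nil (hA : A.LiesOverPrime ℓ) {i : ℕ} {f : FK N} (hf : f ∈ chartMax N ℓ A i)
    (r : ℕ) : ∃ n : ℕ, 1 ≤ n ∧ f ∈ chartNil N ℓ A ⊤ n r i := by
  obtain ⟨c, hc, t, ht, rfl⟩ := hf
  obtain ⟨n, hn, hcn⟩ := exists_nilIndex hA hc r
  exact ⟨n, hn, c, A.nonunits_le hc, trivial, hcn, t, ht, rfl⟩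

theorem chartNil_subset_chartMax (hA : A.LiesOverPrime ℓ) {n r i : ℕ} (hr : 1 ≤ r) {f : FK N}
    (hf : f ∈ chartNil N ℓ A ⊤ n r i) : f ∈ chartMax N ℓ A i := by
  obtain ⟨c, hc, -, hcn, t, ht, rfl⟩ := hf
  exact ⟨c, mem_nonunits_of_cong_pow hA hc hr hcn, t, ht, rfl⟩

/-! ### Congruences modulo `ℓ ^ r` in the chart rings -/

variable (N ℓ A) in
/-- `x ≡ y` modulo `ℓ ^ r · chartRing E i`. -/
def CongS (E : IntermediateField ℚ Qb) (r i : ℕ) (x y : FK N) : Prop :=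
  ∃ z ∈ chartRing N ℓ A E i, x - y = cst N ((ℓ : Qb) ^ r) * z

theorem congS_refl (E : IntermediateField ℚ Qb) (r i : ℕ) (x : FK N) : CongS N ℓ A E r i x x :=
  ⟨0, Subring.zero_mem _, by simp⟩

theorem CongS.symm {E : IntermediateField ℚ Qb} {r i : ℕ} {x y : FK N}
    (h : CongS N ℓ A E r i x y) : CongS N ℓ A E r i y x := by
  obtain ⟨z, hz, e⟩ := h
  exact ⟨-z, Subring.neg_mem _ hz, by rw [mul_neg, ← e]; ring⟩

theorem CongS.trans {E : IntermediateField ℚ Qb} {r i : ℕ} {x y w : FK N}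
    (h : CongS N ℓ A E r i x y) (h' : CongS N ℓ A E r i y w) : CongS N ℓ A E r i x w := by
  obtain ⟨z, hz, e⟩ := h
  obtain ⟨z', hz', e'⟩ := h'
  exact ⟨z + z', Subring.add_mem _ hz hz', by rw [mul_add, ← e, ← e']; ring⟩

theorem CongS.mul_right {E : IntermediateField ℚ Qb} {r i : ℕ} {x y : FK N}
    (h : CongS N ℓ A E r i x y) {s : FK N} (hs : s ∈ chartRing N ℓ A E i) :
    CongS N ℓ A E r i (x * s) (y * s) := by
  obtain ⟨z, hz, e⟩ := h
  exact ⟨z * s, Subring.mul_mem _ hz hs, by rw [← sub_mul, e]; ring⟩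

theorem CongS.mul_left {E : IntermediateField ℚ Qb} {r i : ℕ} {x y : FK N}
    (h : CongS N ℓ A E r i x y) {s : FK N} (hs : s ∈ chartRing N ℓ A E i) :
    CongS N ℓ A E r i (s * x) (s * y) := by
  rw [mul_comm s x, mul_comm s y]
  exact h.mul_right hs

theorem CongS.mono_level {E E' : IntermediateField ℚ Qb} (hE : E ≤ E') {r i : ℕ} {x y : FK N}
    (h : CongS N ℓ A E r i x y) : CongS N ℓ A E' r i x y := by
  obtain ⟨z, hz, e⟩ := h
  exact ⟨z, chartRing_mono_level N ℓ A hE i hz, e⟩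

theorem CongS.le_mid {E : IntermediateField ℚ Qb} {r i : ℕ} {x y : FK N}
    (h : CongS N ℓ A E r i x y) : CongS N ℓ A E r 2 x y := by
  obtain ⟨z, hz, e⟩ := h
  exact ⟨z, chartRing_le_mid N ℓ A E i hz, e⟩

theorem CongS.mono_r {E : IntermediateField ℚ Qb} {r r' i : ℕ} (hr : r' ≤ r) {x y : FK N}
    (h : CongS N ℓ A E r i x y) : CongS N ℓ A E r' i x y := by
  obtain ⟨z, hz, e⟩ := h
  refine ⟨cst N ((ℓ : Qb) ^ (r - r')) * z, Subring.mul_mem _ ?_ hz, ?_⟩
  · exact cst_mem_chartRing N ℓ A E i (pow_mem (natCast_mem A ℓ) _)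
      (pow_mem (natCast_mem E ℓ) _)
  · rw [e, ← mul_assoc, ← cst_mul, ← pow_add, Nat.add_sub_cancel' hr]

theorem congS_of_eq {E : IntermediateField ℚ Qb} {r i : ℕ} {x y : FK N} (h : x = y) :
    CongS N ℓ A E r i x y := h ▸ congS_refl E r i x

/-- Products of congruent elements of the chart ring are congruent. -/
theorem CongS.mul {E : IntermediateField ℚ Qb} {r i : ℕ} {x x' y y' : FK N}
    (h : CongS N ℓ A E r i x x') (h' : CongS N ℓ A E r i y y')
    (hy : y ∈ chartRing N ℓ A E i) (hx' : x' ∈ chartRing N ℓ A E i) :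
    CongS N ℓ A E r i (x * y) (x' * y') :=
  (h.mul_right hy).trans (h'.mul_left hx')

/-- A quasi-inverse modulo `ℓ ^ r` of an element of `1 + chartNil`. -/
theorem exists_quasiInv {E : IntermediateField ℚ Qb} {n : ℕ} (hn : 1 ≤ n) (r i : ℕ)
    {a : FK N} (ha : a - 1 ∈ chartNil N ℓ A E n r i) :
    ∃ a' : FK N, a' - 1 ∈ chartNil N ℓ A E n r i ∧ CongS N ℓ A E r i (a * a') 1 := by
  obtain ⟨m, rfl⟩ : ∃ m, n = m + 1 := ⟨n - 1, by omega⟩
  have hℓ0 : ((ℓ : Qb) ^ r) ≠ 0 :=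
    pow_ne_zero _ (Nat.cast_ne_zero.mpr (Fact.out : ℓ.Prime).ne_zero)
  have hx := ha
  obtain ⟨c, hc, hcE, hcn, s, hs, e⟩ := ha
  obtain ⟨w, hw, ew⟩ := cong_zero_iff.mp hcn
  have hwE : w ∈ E := by
    have : w = c ^ (m + 1) * ((ℓ : Qb) ^ r)⁻¹ := by rw [ew]; field_simp
    rw [this]
    exact E.mul_mem (pow_mem hcE _) (E.inv_mem (pow_mem (natCast_mem E ℓ) _))
  set y : FK N := -(a - 1) with hy
  have hyN : y ∈ chartNil N ℓ A E (m + 1) r i := chartNil_neg_mem hx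
  have hyR : y ∈ chartRing N ℓ A E i := chartNil_subset hyN
  refine ⟨∑ k ∈ Finset.range (m + 1), y ^ k, ?_, ?_⟩
  · rw [geom_sum_succ, add_sub_cancel_right]
    exact chartNil_mul_mem hyN
      (Subring.sum_mem _ fun k _ => Subring.pow_mem _ hyR k) |> fun h => by
        simpa [mul_comm] using h
  · have h1 : a * ∑ k ∈ Finset.range (m + 1), y ^ k = 1 - y ^ (m + 1) := by
      have := mul_neg_geom_sum y (m + 1)
      rw [← this, hy]
      ring
    refine ⟨-((-1) ^ (m + 1) * cst N w * s ^ (m + 1)),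
      Subring.neg_mem _ (Subring.mul_mem _ (Subring.mul_mem _
        (Subring.pow_mem _ (Subring.neg_mem _ (Subring.one_mem _)) _)
        (cst_mem_chartRing N ℓ A E i hw hwE)) (Subring.pow_mem _ hs _)), ?_⟩
    rw [h1, hy, e]
    have hc' : cst N c ^ (m + 1) = cst N ((ℓ : Qb) ^ r) * cst N w := by
      rw [← cst_pow, ew, cst_mul]
    rw [neg_pow, mul_pow, hc']
    ring

end Ideals

/-! ## 6. Normal forms -/

section NormalForm

variable {N : ℕ} [NeZero N] {ℓ : ℕ} [Fact ℓ.Prime] {A : ValuationSubring Qb} {g : ℕ}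
  (η : Fin g → FQ N)

/-- The unit `∏ (1 + b_i η_i)`. -/
def unitPart (b : Fin g → Qb) : FK N := ∏ i, (1 + cst N (b i) * emb N (η i))

theorem normalForm_eq (a0 a1 : FK N) (b : Fin g → Qb) :
    normalForm N η a0 a1 b = a0 * unitPart η b * a1 := rfl

theorem unitPart_sub_one_mem (hη : ∀ i, η i ∈ chartSet N ℓ 2) (E : IntermediateField ℚ Qb)
    {n : ℕ} (hn : 1 ≤ n) (r : ℕ) {b : Fin g → Qb} (hb : NilVec ℓ A n r b) (hbE : ∀ i, b i ∈ E) :
    unitPart η b - 1 ∈ chartNil N ℓ A E n r 2 := by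
  unfold unitPart
  apply Finset.prod_induction _ (fun x => x - 1 ∈ chartNil N ℓ A E n r 2)
  · intro x y hx hy
    exact chartNil_one_add_mul hx hy
  · simpa using chartNil_zero_mem (N := N) (ℓ := ℓ) (A := A) E hn r 2
  · intro i _
    exact ⟨b i, (hb i).1, hbE i, (hb i).2, emb N (η i), emb_mem_chartRing N ℓ A E 2 (hη i),
      by ring⟩

theorem unitPart_mem (hη : ∀ i, η i ∈ chartSet N ℓ 2) (E : IntermediateField ℚ Qb)
    {b : Fin g → Qb} (hb : ∀ i, b i ∈ A) (hbE : ∀ i, b i ∈ E) :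
    unitPart η b ∈ chartRing N ℓ A E 2 := by
  unfold unitPart
  exact Subring.prod_mem _ fun i _ => Subring.add_mem _ (Subring.one_mem _)
    (Subring.mul_mem _ (cst_mem_chartRing N ℓ A E 2 (hb i) (hbE i))
      (emb_mem_chartRing N ℓ A E 2 (hη i)))

theorem unitPart_congS (hη : ∀ i, η i ∈ chartSet N ℓ 2) {r : ℕ} {b b' : Fin g → Qb}
    (hb : ∀ i, b i ∈ A) (hb' : ∀ i, b' i ∈ A) (h : ∀ i, Cong A ℓ r (b i) (b' i)) :
    CongS N ℓ A ⊤ r 2 (unitPart η b) (unitPart η b') := by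
  have key : unitPart η b ∈ chartRing N ℓ A ⊤ 2 ∧ unitPart η b' ∈ chartRing N ℓ A ⊤ 2 ∧
      CongS N ℓ A ⊤ r 2 (unitPart η b) (unitPart η b') := by
    unfold unitPart
    apply Finset.prod_hom_rel (r := fun x y : FK N => x ∈ chartRing N ℓ A ⊤ 2 ∧
      y ∈ chartRing N ℓ A ⊤ 2 ∧ CongS N ℓ A ⊤ r 2 x y)
    · exact ⟨Subring.one_mem _, Subring.one_mem _, congS_refl _ _ _ _⟩
    · rintro i x y ⟨hx, hy, hxy⟩
      have h1 : (1 + cst N (b i) * emb N (η i)) ∈ chartRing N ℓ A ⊤ 2 :=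
        Subring.add_mem _ (Subring.one_mem _)
          (Subring.mul_mem _ (cst_mem_chartRing N ℓ A ⊤ 2 (hb i) trivial)
            (emb_mem_chartRing N ℓ A ⊤ 2 (hη i)))
      have h2 : (1 + cst N (b' i) * emb N (η i)) ∈ chartRing N ℓ A ⊤ 2 :=
        Subring.add_mem _ (Subring.one_mem _)
          (Subring.mul_mem _ (cst_mem_chartRing N ℓ A ⊤ 2 (hb' i) trivial)
            (emb_mem_chartRing N ℓ A ⊤ 2 (hη i)))
      refine ⟨Subring.mul_mem _ h1 hx, Subring.mul_mem _ h2 hy, ?_⟩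
      refine CongS.mul ?_ hxy hx h2
      obtain ⟨w, hw, e⟩ := h i
      refine ⟨cst N w * emb N (η i), Subring.mul_mem _
        (cst_mem_chartRing N ℓ A ⊤ 2 hw trivial) (emb_mem_chartRing N ℓ A ⊤ 2 (hη i)), ?_⟩
      have : cst N (b i) - cst N (b' i) = cst N ((ℓ : Qb) ^ r) * cst N w := by
        rw [← cst_sub, e, cst_mul]
      calc (1 + cst N (b i) * emb N (η i)) - (1 + cst N (b' i) * emb N (η i))
          = (cst N (b i) - cst N (b' i)) * emb N (η i) := by ring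
        _ = _ := by rw [this]; ring
  exact key.2.2

theorem nilVec_mono {n n' r : ℕ} (h : n ≤ n') {b : Fin g → Qb} (hb : NilVec ℓ A n r b) :
    NilVec ℓ A n' r b :=
  fun i => ⟨(hb i).1, cong_pow_zero_mono (hb i).1 h (hb i).2⟩

theorem nilVec_mono_r {n r r' : ℕ} (h : r' ≤ r) {b : Fin g → Qb} (hb : NilVec ℓ A n r b) :
    NilVec ℓ A n r' b :=
  fun i => ⟨(hb i).1, (hb i).2.mono h⟩

end NormalForm

/-! ## 7. The Gauss valuation ring and the modules `L_i(D)` -/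

section Gauss

variable {N : ℕ} [NeZero N] {A : ValuationSubring Qb}

/-- The three clauses of `Stmt_GaussVal` for a given `W`. -/
structure IsGauss (N : ℕ) [NeZero N] (A : ValuationSubring Qb) (W : ValuationSubring (FK N)) :
    Prop where
  mem_iff : ∀ f, f ∈ W ↔ f ∈ gaussRing N A
  cst_mem_iff : ∀ c : Qb, cst N c ∈ W ↔ c ∈ A
  exists_unit : ∀ h : FK N, h ≠ 0 → ∃ c : Qb, c ≠ 0 ∧ cst N c * h ∈ W ∧ (cst N c * h)⁻¹ ∈ W

variable {W : ValuationSubring (FK N)}

theorem IsGauss.cst_mem_nonunits_iff (hW : IsGauss N A W) (c : Qb) :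
    cst N c ∈ W.nonunits ↔ c ∈ A.nonunits := by
  rw [ValuationSubring.mem_nonunits_iff, ValuationSubring.mem_nonunits_iff]
  by_cases hc0 : c = 0
  · subst hc0
    rw [cst_zero, map_zero, map_zero]
    exact ⟨fun _ => zero_lt_one, fun _ => zero_lt_one⟩
  constructor
  · intro h
    have hcA : c ∈ A := (hW.cst_mem_iff c).mp ((W.valuation_le_one_iff _).mp h.le)
    have h1 : A.valuation c ≤ 1 := (A.valuation_le_one_iff _).mpr hcA
    refine lt_of_le_of_ne h1 fun heq => ?_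
    have hinv : c⁻¹ ∈ A := by
      rw [← A.valuation_le_one_iff, map_inv₀, heq, inv_one]
    have h2 : cst N c⁻¹ ∈ W := (hW.cst_mem_iff _).mpr hinv
    have h3 : W.valuation (cst N c⁻¹) ≤ 1 := (W.valuation_le_one_iff _).mpr h2
    have h4 : cst N c * cst N c⁻¹ = 1 := by
      rw [← cst_mul, mul_inv_cancel₀ hc0, cst_one]
    have h5 : W.valuation (cst N c) * W.valuation (cst N c⁻¹) = 1 := by
      rw [← map_mul, h4, map_one]
    have h6 : W.valuation (cst N c) * W.valuation (cst N c⁻¹) < 1 :=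
      calc W.valuation (cst N c) * W.valuation (cst N c⁻¹)
          ≤ W.valuation (cst N c) * 1 := mul_le_mul_right h3 _
        _ = W.valuation (cst N c) := mul_one _
        _ < 1 := h
    exact absurd h5 (ne_of_lt h6)
  · intro h
    have hcA : c ∈ A := (A.valuation_le_one_iff _).mp h.le
    have h1 : W.valuation (cst N c) ≤ 1 :=
      (W.valuation_le_one_iff _).mpr ((hW.cst_mem_iff c).mpr hcA)
    refine lt_of_le_of_ne h1 fun heq => ?_
    have hinv : (cst N c)⁻¹ ∈ W := by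
      rw [← W.valuation_le_one_iff, map_inv₀, heq, inv_one]
    have h2 : cst N c⁻¹ ∈ W := by
      have : cst N c⁻¹ = (cst N c)⁻¹ := map_inv₀ _ _
      rw [this]; exact hinv
    have h3 : A.valuation c⁻¹ ≤ 1 := (A.valuation_le_one_iff _).mpr ((hW.cst_mem_iff _).mp h2)
    have h5 : A.valuation c * A.valuation c⁻¹ = 1 := by
      rw [← map_mul, mul_inv_cancel₀ hc0, map_one]
    have h6 : A.valuation c * A.valuation c⁻¹ < 1 :=
      calc A.valuation c * A.valuation c⁻¹ ≤ A.valuation c * 1 := mul_le_mul_right h3 _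
        _ = A.valuation c := mul_one _
        _ < 1 := h
    exact absurd h5 (ne_of_lt h6)

theorem IsGauss.mem_gaussMax_iff (hW : IsGauss N A W) (f : FK N) :
    f ∈ gaussMax N A ↔ f ∈ W.nonunits := by
  constructor
  · rintro ⟨c, hc, w, hw, rfl⟩
    have h1 := (hW.cst_mem_nonunits_iff c).mpr hc
    have h2 : w ∈ W := (hW.mem_iff w).mpr hw
    rw [ValuationSubring.mem_nonunits_iff] at h1 ⊢
    rw [map_mul]
    calc W.valuation (cst N c) * W.valuation w ≤ W.valuation (cst N c) * 1 :=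
          mul_le_mul_right ((W.valuation_le_one_iff _).mpr h2) _
      _ = W.valuation (cst N c) := mul_one _
      _ < 1 := h1
  · intro hf
    by_cases hf0 : f = 0
    · subst hf0
      refine ⟨0, ?_, 1, (hW.mem_iff 1).mp W.one_mem, by rw [cst_zero, zero_mul]⟩
      rw [ValuationSubring.mem_nonunits_iff, map_zero]; exact zero_lt_one
    obtain ⟨c, hc0, hu, hu'⟩ := hW.exists_unit f hf0
    refine ⟨c⁻¹, ?_, cst N c * f, (hW.mem_iff _).mp hu, ?_⟩
    · rw [← hW.cst_mem_nonunits_iff]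
      have e : cst N c⁻¹ = f * (cst N c * f)⁻¹ := by
        have : cst N c⁻¹ = (cst N c)⁻¹ := map_inv₀ _ _
        rw [this, mul_inv]
        field_simp
      rw [e, ValuationSubring.mem_nonunits_iff, map_mul]
      rw [ValuationSubring.mem_nonunits_iff] at hf
      calc W.valuation f * W.valuation (cst N c * f)⁻¹ ≤ W.valuation f * 1 :=
            mul_le_mul_right ((W.valuation_le_one_iff _).mpr hu') _
        _ = W.valuation f := mul_one _
        _ < 1 := hf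
    · rw [← mul_assoc, ← cst_mul, inv_mul_cancel₀ hc0, cst_one, one_mul]

end Gauss

/-! ## 8. Orders at places and the calculus of `Lsec`, `TrivSec`, `SmallDiv` -/

section OrdLemmas

variable {K F : Type*} [Field K] [Field F] [Algebra K F] (P : Place K F)

theorem ord_nonneg_of_mem {x : F} (hx : x ∈ P.toValuationSubring) : 0 ≤ P.ord x := by
  by_cases h0 : x = 0
  · simp [h0]
  have h1 : P.adicValuation x ≤ 1 := by
    have := P.adicValuation_coe ⟨x, hx⟩
    rw [this]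
    exact P.heightOneSpectrum.intValuation_le_one _
  have h2 : P.adicValuation x ≠ 0 := P.adicValuation_ne_zero h0
  unfold Place.ord
  rw [neg_nonneg]
  have := (WithZero.log_le_log h2 one_ne_zero).mpr h1
  simpa using this

theorem ord_algebraMap_eq_zero (c : K) : P.ord (algebraMap K F c) = 0 := by
  by_cases h0 : c = 0
  · simp [h0]
  have h1 : 0 ≤ P.ord (algebraMap K F c) := ord_nonneg_of_mem P (P.algebraMap_mem' c)
  have h2 : 0 ≤ P.ord (algebraMap K F c)⁻¹ := by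
    have : (algebraMap K F c)⁻¹ = algebraMap K F c⁻¹ := (map_inv₀ _ _).symm
    rw [this]
    exact ord_nonneg_of_mem P (P.algebraMap_mem' c⁻¹)
  rw [P.ord_inv] at h2
  omega

theorem ord_neg' (f : F) : P.ord (-f) = P.ord f := by
  unfold Place.ord
  rw [Valuation.map_neg]

theorem ord_add_ge {f g : F} (hf : f ≠ 0) (hg : g ≠ 0) (hfg : f + g ≠ 0) :
    min (P.ord f) (P.ord g) ≤ P.ord (f + g) := by
  have h := P.adicValuation.map_add f g
  have hf' := P.adicValuation_ne_zero hf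
  have hg' := P.adicValuation_ne_zero hg
  have hfg' := P.adicValuation_ne_zero hfg
  unfold Place.ord
  rcases le_total (P.adicValuation f) (P.adicValuation g) with h1 | h1
  · rw [max_eq_right h1] at h
    have := (WithZero.log_le_log hfg' hg').mpr h
    exact (min_le_right _ _).trans (by omega)
  · rw [max_eq_left h1] at h
    have := (WithZero.log_le_log hfg' hf').mpr h
    exact (min_le_left _ _).trans (by omega)

end OrdLemmas

section VSLemmas

variable {L : Type*} [Field L] (V : ValuationSubring L)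

theorem vs_nonunits_add {x y : L} (hx : x ∈ V.nonunits) (hy : y ∈ V.nonunits) :
    x + y ∈ V.nonunits := by
  rw [ValuationSubring.mem_nonunits_iff] at *
  exact lt_of_le_of_lt (V.valuation.map_add x y) (max_lt hx hy)

theorem vs_nonunits_mul {x y : L} (hx : x ∈ V.nonunits) (hy : y ∈ V) : x * y ∈ V.nonunits := by
  rw [ValuationSubring.mem_nonunits_iff] at *
  rw [map_mul]
  calc V.valuation x * V.valuation y ≤ V.valuation x * 1 :=
        mul_le_mul_right ((V.valuation_le_one_iff _).mpr hy) _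
    _ = V.valuation x := mul_one _
    _ < 1 := hx

theorem vs_nonunits_neg {x : L} (hx : x ∈ V.nonunits) : -x ∈ V.nonunits := by
  rw [ValuationSubring.mem_nonunits_iff] at *
  rwa [Valuation.map_neg]

theorem vs_nonunits_sub {x y : L} (hx : x ∈ V.nonunits) (hy : y ∈ V.nonunits) :
    x - y ∈ V.nonunits := by
  rw [sub_eq_add_neg]
  exact vs_nonunits_add V hx (vs_nonunits_neg V hy)

theorem vs_zero_mem_nonunits : (0 : L) ∈ V.nonunits := by
  rw [ValuationSubring.mem_nonunits_iff, map_zero]; exact zero_lt_one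

/-- An element congruent to `1` modulo the maximal ideal is a unit. -/
theorem vs_unit_of_sub_one {e : L} (h : e - 1 ∈ V.nonunits) :
    e ≠ 0 ∧ e ∈ V ∧ e⁻¹ ∈ V ∧ e ∉ V.nonunits := by
  rw [ValuationSubring.mem_nonunits_iff] at h
  have h1 : V.valuation e = 1 := by
    have := Valuation.map_one_add_of_lt (v := V.valuation) h
    rwa [add_sub_cancel] at this
  have h0 : e ≠ 0 := by
    rintro rfl
    rw [map_zero] at h1
    exact zero_ne_one h1
  refine ⟨h0, (V.valuation_le_one_iff _).mp h1.le, ?_, ?_⟩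
  · rw [← V.valuation_le_one_iff, map_inv₀, h1, inv_one]
  · rw [ValuationSubring.mem_nonunits_iff, h1]
    exact lt_irrefl _

end VSLemmas

section LsecCalc

variable {N : ℕ} [NeZero N] {A : ValuationSubring Qb} {W : ValuationSubring (FK N)}

theorem chartReg_two (P : Place Qb (FK N)) :
    chartReg N 2 P ↔ jK N ∈ P.toValuationSubring ∧ (jK N)⁻¹ ∈ P.toValuationSubring := by
  unfold chartReg
  simp

theorem chartReg_of_two {i : ℕ} {P : Place Qb (FK N)} (h : chartReg N 2 P) : chartReg N i P := by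
  rw [chartReg_two] at h
  unfold chartReg
  split_ifs
  · exact h.1
  · exact h.2
  · exact h

theorem chartReg_zero_or_one (P : Place Qb (FK N)) : chartReg N 0 P ∨ chartReg N 1 P := by
  unfold chartReg
  simpa using P.toValuationSubring.mem_or_inv_mem (jK N)

theorem IsGauss.Lsec_mem_W (hW : IsGauss N A W) {i : ℕ} {D : Divisor Qb (FK N)} {f : FK N}
    (hf : f ∈ Lsec N A i D) : f ∈ W := (hW.mem_iff f).mpr hf.1

theorem IsGauss.zero_mem_Lsec (hW : IsGauss N A W) (i : ℕ) (D : Divisor Qb (FK N)) :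
    (0 : FK N) ∈ Lsec N A i D :=
  ⟨(hW.mem_iff 0).mp W.zero_mem, fun h => absurd rfl h⟩

theorem IsGauss.Lsec_mul (hW : IsGauss N A W) {i : ℕ} {D D' : Divisor Qb (FK N)} {f g : FK N}
    (hf : f ∈ Lsec N A i D) (hg : g ∈ Lsec N A i D') : f * g ∈ Lsec N A i (D + D') := by
  refine ⟨(hW.mem_iff _).mp (W.mul_mem _ _ (hW.Lsec_mem_W hf) (hW.Lsec_mem_W hg)),
    fun hfg P hP => ?_⟩
  have hf0 : f ≠ 0 := left_ne_zero_of_mul hfg
  have hg0 : g ≠ 0 := right_ne_zero_of_mul hfg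
  rw [P.ord_mul hf0 hg0, Finsupp.add_apply]
  have h1 := hf.2 hf0 P hP
  have h2 := hg.2 hg0 P hP
  omega

theorem IsGauss.Lsec_neg (hW : IsGauss N A W) {i : ℕ} {D : Divisor Qb (FK N)} {f : FK N}
    (hf : f ∈ Lsec N A i D) : -f ∈ Lsec N A i D := by
  refine ⟨(hW.mem_iff _).mp (W.neg_mem _ (hW.Lsec_mem_W hf)), fun h0 P hP => ?_⟩
  rw [ord_neg']
  exact hf.2 (neg_ne_zero.mp h0) P hP

theorem IsGauss.Lsec_add (hW : IsGauss N A W) {i : ℕ} {D : Divisor Qb (FK N)} {f g : FK N}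
    (hf : f ∈ Lsec N A i D) (hg : g ∈ Lsec N A i D) : f + g ∈ Lsec N A i D := by
  refine ⟨(hW.mem_iff _).mp (W.add_mem _ _ (hW.Lsec_mem_W hf) (hW.Lsec_mem_W hg)),
    fun hfg P hP => ?_⟩
  by_cases hf0 : f = 0
  · rw [hf0, zero_add] at hfg ⊢
    exact hg.2 hfg P hP
  by_cases hg0 : g = 0
  · rw [hg0, add_zero] at hfg ⊢
    exact hf.2 hfg P hP
  have h1 := hf.2 hf0 P hP
  have h2 := hg.2 hg0 P hP
  have h3 := ord_add_ge P hf0 hg0 hfg
  exact (le_min h1 h2).trans h3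

theorem IsGauss.Lsec_sub (hW : IsGauss N A W) {i : ℕ} {D : Divisor Qb (FK N)} {f g : FK N}
    (hf : f ∈ Lsec N A i D) (hg : g ∈ Lsec N A i D) : f - g ∈ Lsec N A i D := by
  rw [sub_eq_add_neg]
  exact hW.Lsec_add hf (hW.Lsec_neg hg)

theorem Lsec_le_mid {i : ℕ} {D : Divisor Qb (FK N)} {f : FK N} (hf : f ∈ Lsec N A i D) :
    f ∈ Lsec N A 2 D :=
  ⟨hf.1, fun h0 P hP => hf.2 h0 P (chartReg_of_two hP)⟩

/-- Multiplication by a Gauss-integral function with prescribed divisor. -/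
theorem IsGauss.Lsec_mul_of_ord (hW : IsGauss N A W) {i : ℕ} {D Δ : Divisor Qb (FK N)}
    {f h : FK N} (hf : f ∈ Lsec N A i D) (hh : h ∈ W) (hΔ : ∀ P : Place Qb (FK N), Δ P = P.ord h) :
    f * h ∈ Lsec N A i (D - Δ) := by
  refine ⟨(hW.mem_iff _).mp (W.mul_mem _ _ (hW.Lsec_mem_W hf) hh), fun hfh P hP => ?_⟩
  have hf0 : f ≠ 0 := left_ne_zero_of_mul hfh
  have hh0 : h ≠ 0 := right_ne_zero_of_mul hfh
  rw [P.ord_mul hf0 hh0, Finsupp.sub_apply, hΔ P]
  have h1 := hf.2 hf0 P hP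
  omega

/-- A section on both charts satisfies the divisor condition at every place. -/
theorem ord_ge_of_mem_both {D : Divisor Qb (FK N)} {s : FK N} (h0 : s ∈ Lsec N A 0 D)
    (h1 : s ∈ Lsec N A 1 D) (hs : s ≠ 0) (P : Place Qb (FK N)) : -(D P) ≤ P.ord s := by
  rcases chartReg_zero_or_one P with h | h
  · exact h0.2 hs P h
  · exact h1.2 hs P h

theorem IsGauss.one_mem_TrivSec (hW : IsGauss N A W) (i : ℕ) : (1 : FK N) ∈ TrivSec N A i 0 := by
  refine ⟨⟨(hW.mem_iff 1).mp W.one_mem, fun _ P _ => ?_⟩, ?_⟩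
  · simp
  · rw [sub_self, hW.mem_gaussMax_iff]
    exact vs_zero_mem_nonunits W

theorem IsGauss.TrivSec_mul (hW : IsGauss N A W) {i : ℕ} {D D' : Divisor Qb (FK N)}
    {e e' : FK N} (he : e ∈ TrivSec N A i D) (he' : e' ∈ TrivSec N A i D') :
    e * e' ∈ TrivSec N A i (D + D') := by
  refine ⟨hW.Lsec_mul he.1 he'.1, ?_⟩
  rw [hW.mem_gaussMax_iff]
  have h1 := (hW.mem_gaussMax_iff _).mp he.2
  have h2 := (hW.mem_gaussMax_iff _).mp he'.2
  have : e * e' - 1 = (e - 1) * e' + (e' - 1) := by ring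
  rw [this]
  exact vs_nonunits_add W (vs_nonunits_mul W h1 (hW.Lsec_mem_W he'.1)) h2

theorem IsGauss.TrivSec_unit (hW : IsGauss N A W) {i : ℕ} {D : Divisor Qb (FK N)} {e : FK N}
    (he : e ∈ TrivSec N A i D) : e ≠ 0 ∧ e ∈ W ∧ e⁻¹ ∈ W ∧ e ∉ W.nonunits :=
  vs_unit_of_sub_one W ((hW.mem_gaussMax_iff _).mp he.2)

theorem TrivSec_le_mid {i : ℕ} {D : Divisor Qb (FK N)} {e : FK N} (he : e ∈ TrivSec N A i D) :
    e ∈ TrivSec N A 2 D :=
  ⟨Lsec_le_mid he.1, he.2⟩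

theorem IsGauss.smallDiv_zero (hW : IsGauss N A W) : SmallDiv N A (0 : Divisor Qb (FK N)) := by
  refine ⟨⟨1, hW.one_mem_TrivSec 0⟩, ⟨1, ?_⟩, ⟨1, hW.one_mem_TrivSec 1⟩, ⟨1, ?_⟩⟩
  · rw [neg_zero]; exact hW.one_mem_TrivSec 0
  · rw [neg_zero]; exact hW.one_mem_TrivSec 1

theorem smallDiv_neg {D : Divisor Qb (FK N)} (h : SmallDiv N A D) : SmallDiv N A (-D) := by
  obtain ⟨h1, h2, h3, h4⟩ := h
  refine ⟨h2, ?_, h4, ?_⟩
  · rwa [neg_neg]
  · rwa [neg_neg]

theorem IsGauss.smallDiv_add (hW : IsGauss N A W) {D D' : Divisor Qb (FK N)}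
    (h : SmallDiv N A D) (h' : SmallDiv N A D') : SmallDiv N A (D + D') := by
  obtain ⟨⟨e0, he0⟩, ⟨e0', he0'⟩, ⟨e1, he1⟩, ⟨e1', he1'⟩⟩ := h
  obtain ⟨⟨f0, hf0⟩, ⟨f0', hf0'⟩, ⟨f1, hf1⟩, ⟨f1', hf1'⟩⟩ := h'
  refine ⟨⟨e0 * f0, hW.TrivSec_mul he0 hf0⟩, ⟨e0' * f0', ?_⟩,
    ⟨e1 * f1, hW.TrivSec_mul he1 hf1⟩, ⟨e1' * f1', ?_⟩⟩
  · rw [neg_add]; exact hW.TrivSec_mul he0' hf0'
  · rw [neg_add]; exact hW.TrivSec_mul he1' hf1'

theorem IsGauss.smallDiv_sub (hW : IsGauss N A W) {D D' : Divisor Qb (FK N)}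
    (h : SmallDiv N A D) (h' : SmallDiv N A D') : SmallDiv N A (D - D') := by
  rw [sub_eq_add_neg]
  exact hW.smallDiv_add h (smallDiv_neg h')

theorem IsGauss.smallDiv_nsmul (hW : IsGauss N A W) {D : Divisor Qb (FK N)}
    (h : SmallDiv N A D) (n : ℕ) : SmallDiv N A (n • D) := by
  induction n with
  | zero => rw [zero_smul]; exact hW.smallDiv_zero
  | succ n ih => rw [succ_nsmul]; exact hW.smallDiv_add ih h

theorem IsGauss.smallDiv_zsmul (hW : IsGauss N A W) {D : Divisor Qb (FK N)}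
    (h : SmallDiv N A D) (n : ℤ) : SmallDiv N A (n • D) := by
  rcases Int.eq_nat_or_neg n with ⟨m, rfl | rfl⟩
  · rw [natCast_zsmul]; exact hW.smallDiv_nsmul h m
  · rw [neg_smul, natCast_zsmul]; exact smallDiv_neg (hW.smallDiv_nsmul h m)

end LsecCalc

/-! ## 9. Consequences of `Stmt_ChartInt` -/

section ChartIntCalc

variable {N : ℕ} [NeZero N] {ℓ : ℕ} [Fact ℓ.Prime] {A : ValuationSubring Qb}
  {W : ValuationSubring (FK N)}

theorem chartRing_subset_W (hW : IsGauss N A W) (hC : Stmt_ChartInt N ℓ A) {i : ℕ} {f : FK N}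
    (hf : f ∈ chartRing N ℓ A ⊤ i) : f ∈ W :=
  (hW.mem_iff f).mpr ((hC.1 i f).mpr hf).1

theorem chartMax_subset_nonunits (hW : IsGauss N A W) (hC : Stmt_ChartInt N ℓ A) {i : ℕ}
    {f : FK N} (hf : f ∈ chartMax N ℓ A i) : f ∈ W.nonunits := by
  obtain ⟨c, hc, s, hs, rfl⟩ := hf
  exact vs_nonunits_mul W ((hW.cst_mem_nonunits_iff c).mpr hc) (chartRing_subset_W hW hC hs)

theorem ring_mul_Lsec (hW : IsGauss N A W) (hC : Stmt_ChartInt N ℓ A) {i : ℕ}
    {D : Divisor Qb (FK N)} {s f : FK N} (hs : s ∈ chartRing N ℓ A ⊤ i)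
    (hf : f ∈ Lsec N A i D) : s * f ∈ Lsec N A i D := by
  have := hW.Lsec_mul ((hC.1 i s).mpr hs) hf
  rwa [zero_add] at this

theorem TrivSec_pair (hW : IsGauss N A W) (hC : Stmt_ChartInt N ℓ A) {i : ℕ}
    {D : Divisor Qb (FK N)} {e e' : FK N} (he : e ∈ TrivSec N A i D)
    (he' : e' ∈ TrivSec N A i (-D)) : e * e' - 1 ∈ chartMax N ℓ A i := by
  have h := hW.TrivSec_mul he he'
  rw [add_neg_cancel] at h
  have h1 : e * e' ∈ chartRing N ℓ A ⊤ i := (hC.1 i _).mp h.1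
  exact hC.2 i _ (Subring.sub_mem _ h1 (Subring.one_mem _)) h.2

theorem TrivSec_cross (hW : IsGauss N A W) (hC : Stmt_ChartInt N ℓ A)
    {D : Divisor Qb (FK N)} {e1 e0' : FK N} (he1 : e1 ∈ TrivSec N A 1 D)
    (he0' : e0' ∈ TrivSec N A 0 (-D)) : e1 * e0' - 1 ∈ chartMax N ℓ A 2 :=
  TrivSec_pair hW hC (TrivSec_le_mid he1) (TrivSec_le_mid he0')

theorem oneUnit_unit (hW : IsGauss N A W) (hC : Stmt_ChartInt N ℓ A) {i : ℕ} {a : FK N}
    (ha : a - 1 ∈ chartMax N ℓ A i) : a ≠ 0 ∧ a ∈ W ∧ a⁻¹ ∈ W ∧ a ∉ W.nonunits :=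
  vs_unit_of_sub_one W (chartMax_subset_nonunits hW hC ha)

theorem mem_chartRing_of_sub_one_max {i : ℕ} {a : FK N} (ha : a - 1 ∈ chartMax N ℓ A i) :
    a ∈ chartRing N ℓ A ⊤ i := by
  have := Subring.add_mem _ (chartMax_subset ha) (Subring.one_mem (chartRing N ℓ A ⊤ i))
  simpa using this

end ChartIntCalc

/-! ## 10. Transport under the decomposition group -/

section Galois

open scoped Pointwise

variable (N : ℕ) [NeZero N]

/-- The action of `σ ∈ Gal(ℚ̄/ℚ)` on `FK` (coefficientwise on `q`-expansions). -/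
def gal (σ : GQ) : FK N ≃+* FK N := arithmeticRingAut (modularFunctionFieldFull N) σ

/-- The semilinear automorphism of `FK` attached to `σ`. -/
abbrev sgal (σ : GQ) : SemilinearAut Qb (FK N) := arithmeticGalois (modularFunctionFieldFull N) σ

theorem sgal_smul (σ : GQ) (f : FK N) : sgal N σ • f = gal N σ f := rfl

theorem gal_cst (σ : GQ) (c : Qb) : gal N σ (cst N c) = cst N (σ c) :=
  arithmeticRingAut_algebraMap _ σ c

theorem gal_emb (σ : GQ) (x : FQ N) : gal N σ (emb N x) = emb N x :=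
  Subtype.ext (coeffMap_coeffEmb σ (x : LaurentSeries ℚ))

theorem gal_jK (σ : GQ) : gal N σ (jK N) = jK N := gal_emb N σ _

theorem coe_gal_coeff (σ : GQ) (f : FK N) (n : ℤ) :
    ((gal N σ f : FK N) : LaurentSeries Qb).coeff n = σ ((f : LaurentSeries Qb).coeff n) := by
  show (coeffMap (σ : Qb →+* Qb) (f : LaurentSeries Qb)).coeff n = _
  rw [coeffMap_coeff]
  rfl

variable {N}
variable {A : ValuationSubring Qb}

theorem decomp_mem {σ : GQ} (hσ : σ ∈ A.decompositionSubgroup ℚ) {x : Qb} (hx : x ∈ A) :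
    σ x ∈ A := by
  have h := ValuationSubring.smul_mem_pointwise_smul σ x A hx
  rw [MulAction.mem_stabilizer_iff.mp hσ] at h
  exact h

theorem decomp_inv_mem {σ : GQ} (hσ : σ ∈ A.decompositionSubgroup ℚ) :
    σ⁻¹ ∈ A.decompositionSubgroup ℚ := inv_mem hσ

theorem mem_nonunits_iff_inv {x : Qb} : x ∈ A.nonunits ↔ (x = 0 ∨ x⁻¹ ∉ A) := by
  rw [ValuationSubring.mem_nonunits_iff]
  constructor
  · intro h
    by_cases h0 : x = 0
    · exact Or.inl h0
    · refine Or.inr fun hinv => ?_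
      have h1 : A.valuation x⁻¹ ≤ 1 := (A.valuation_le_one_iff _).mpr hinv
      have h5 : A.valuation x * A.valuation x⁻¹ = 1 := by
        rw [← map_mul, mul_inv_cancel₀ h0, map_one]
      have h6 : A.valuation x * A.valuation x⁻¹ < 1 :=
        calc A.valuation x * A.valuation x⁻¹ ≤ A.valuation x * 1 := mul_le_mul_right h1 _
          _ = A.valuation x := mul_one _
          _ < 1 := h
      exact absurd h5 (ne_of_lt h6)
  · rintro (rfl | h)
    · rw [map_zero]; exact zero_lt_one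
    · by_contra hcon
      rw [not_lt] at hcon
      apply h
      rw [← A.valuation_le_one_iff, map_inv₀]
      exact inv_le_one_of_one_le₀ hcon

theorem decomp_nonunits {σ : GQ} (hσ : σ ∈ A.decompositionSubgroup ℚ) {x : Qb}
    (hx : x ∈ A.nonunits) : σ x ∈ A.nonunits := by
  rw [mem_nonunits_iff_inv] at hx ⊢
  rcases hx with rfl | hx
  · exact Or.inl (map_zero σ)
  · refine Or.inr fun h => hx ?_
    have h1 := decomp_mem (decomp_inv_mem hσ) h
    have h2 : σ⁻¹ ((σ x)⁻¹) = x⁻¹ := by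
      rw [map_inv₀]
      congr 1
      exact σ.symm_apply_apply x
    rwa [h2] at h1

theorem decomp_not_nonunits {σ : GQ} (hσ : σ ∈ A.decompositionSubgroup ℚ) {x : Qb}
    (hx : x ∉ A.nonunits) : σ x ∉ A.nonunits := by
  intro h
  apply hx
  have h1 := decomp_nonunits (decomp_inv_mem hσ) h
  have h2 : σ⁻¹ (σ x) = x := σ.symm_apply_apply x
  rwa [h2] at h1

theorem Cong.galois {ℓ r : ℕ} {σ : GQ} (hσ : σ ∈ A.decompositionSubgroup ℚ) {x y : Qb}
    (h : Cong A ℓ r x y) : Cong A ℓ r (σ x) (σ y) := by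
  obtain ⟨w, hw, e⟩ := h
  refine ⟨σ w, decomp_mem hσ hw, ?_⟩
  rw [← map_sub, e, map_mul, map_pow, map_natCast]

theorem NilVec.galois {ℓ n r g : ℕ} {σ : GQ} (hσ : σ ∈ A.decompositionSubgroup ℚ)
    {b : Fin g → Qb} (hb : NilVec ℓ A n r b) : NilVec ℓ A n r (fun i => σ (b i)) := by
  intro i
  refine ⟨decomp_mem hσ (hb i).1, ?_⟩
  have := (hb i).2.galois hσ
  rwa [map_pow, map_zero] at this

variable {ℓ : ℕ} [Fact ℓ.Prime]

theorem gal_mem_chartRing {σ : GQ} (hσ : σ ∈ A.decompositionSubgroup ℚ) {i : ℕ} {f : FK N}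
    (hf : f ∈ chartRing N ℓ A ⊤ i) : gal N σ f ∈ chartRing N ℓ A ⊤ i := by
  unfold chartRing at hf
  induction hf using Subring.closure_induction with
  | mem f hf =>
    rcases hf with ⟨c, ⟨hc, -⟩, rfl⟩ | ⟨x, hx, rfl⟩
    · rw [gal_cst]
      exact cst_mem_chartRing N ℓ A ⊤ i (decomp_mem hσ hc) trivial
    · rw [gal_emb]
      exact emb_mem_chartRing N ℓ A ⊤ i hx
  | zero => rw [map_zero]; exact Subring.zero_mem _
  | one => rw [map_one]; exact Subring.one_mem _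
  | add x y _ _ hx hy => rw [map_add]; exact Subring.add_mem _ hx hy
  | neg x _ hx => rw [map_neg]; exact Subring.neg_mem _ hx
  | mul x y _ _ hx hy => rw [map_mul]; exact Subring.mul_mem _ hx hy

theorem gal_mem_chartMax {σ : GQ} (hσ : σ ∈ A.decompositionSubgroup ℚ) {i : ℕ} {f : FK N}
    (hf : f ∈ chartMax N ℓ A i) : gal N σ f ∈ chartMax N ℓ A i := by
  obtain ⟨c, hc, s, hs, rfl⟩ := hf
  exact ⟨σ c, decomp_nonunits hσ hc, gal N σ s, gal_mem_chartRing hσ hs,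
    by rw [map_mul, gal_cst]⟩

theorem gal_mem_chartNil {σ : GQ} (hσ : σ ∈ A.decompositionSubgroup ℚ) {n r i : ℕ} {f : FK N}
    (hf : f ∈ chartNil N ℓ A ⊤ n r i) : gal N σ f ∈ chartNil N ℓ A ⊤ n r i := by
  obtain ⟨c, hc, -, hcn, s, hs, rfl⟩ := hf
  refine ⟨σ c, decomp_mem hσ hc, trivial, ?_, gal N σ s, gal_mem_chartRing hσ hs,
    by rw [map_mul, gal_cst]⟩
  have := hcn.galois hσ
  rwa [map_pow, map_zero] at this

theorem CongS.galois {σ : GQ} (hσ : σ ∈ A.decompositionSubgroup ℚ) {r i : ℕ} {x y : FK N}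
    (h : CongS N ℓ A ⊤ r i x y) : CongS N ℓ A ⊤ r i (gal N σ x) (gal N σ y) := by
  obtain ⟨z, hz, e⟩ := h
  refine ⟨gal N σ z, gal_mem_chartRing hσ hz, ?_⟩
  rw [← map_sub, e, map_mul, gal_cst, map_pow, map_natCast]

theorem gal_normalForm {g : ℕ} (η : Fin g → FQ N) (σ : GQ) (a0 a1 : FK N) (b : Fin g → Qb) :
    gal N σ (normalForm N η a0 a1 b) = normalForm N η (gal N σ a0) (gal N σ a1)
      (fun i => σ (b i)) := by
  unfold normalForm
  rw [map_mul, map_mul, map_prod]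
  congr 2
  refine Finset.prod_congr rfl fun i _ => ?_
  rw [map_add, map_one, map_mul, gal_cst, gal_emb]

omit [Fact ℓ.Prime] in
theorem gal_aeval_jK (σ : GQ) (Q : Polynomial Qb) :
    gal N σ (Polynomial.aeval (jK N) Q) =
      Polynomial.aeval (jK N) (Q.map (σ : Qb →+* Qb)) := by
  rw [Polynomial.aeval_def, Polynomial.aeval_def, Polynomial.eval₂_map]
  have h := Polynomial.hom_eval₂ Q (algebraMap Qb (FK N)) (gal N σ : FK N →+* FK N) (jK N)
  have h2 : ((gal N σ : FK N →+* FK N)) (jK N) = jK N := gal_jK N σ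
  rw [h2] at h
  have h3 : ((gal N σ : FK N →+* FK N)).comp (algebraMap Qb (FK N)) =
      (algebraMap Qb (FK N)).comp (σ : Qb →+* Qb) :=
    RingHom.ext fun c => gal_cst N σ c
  rw [h3] at h
  exact h

omit [Fact ℓ.Prime] in
theorem gal_mem_gaussRing {σ : GQ} (hσ : σ ∈ A.decompositionSubgroup ℚ) {f : FK N}
    (hf : f ∈ gaussRing N A) : gal N σ f ∈ gaussRing N A := by
  obtain ⟨Q, hQ, ⟨n0, hn0⟩, hcoef⟩ := hf
  refine ⟨Q.map (σ : Qb →+* Qb), fun n => ?_, ⟨n0, ?_⟩, fun n => ?_⟩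
  · rw [Polynomial.coeff_map]
    exact decomp_mem hσ (hQ n)
  · rw [Polynomial.coeff_map]
    exact decomp_not_nonunits hσ hn0
  · rw [← gal_aeval_jK, ← map_mul, coe_gal_coeff]
    exact decomp_mem hσ (hcoef n)

omit [Fact ℓ.Prime] in
theorem gal_mem_gaussMax {σ : GQ} (hσ : σ ∈ A.decompositionSubgroup ℚ) {f : FK N}
    (hf : f ∈ gaussMax N A) : gal N σ f ∈ gaussMax N A := by
  obtain ⟨c, hc, w, hw, rfl⟩ := hf
  exact ⟨σ c, decomp_nonunits hσ hc, gal N σ w, gal_mem_gaussRing hσ hw,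
    by rw [map_mul, gal_cst]⟩

omit [Fact ℓ.Prime] in
theorem chartReg_smul (σ : GQ) {i : ℕ} {P : Place Qb (FK N)} (h : chartReg N i P) :
    chartReg N i (sgal N σ • P) := by
  have hj : ∀ {x : FK N}, gal N σ x = x → x ∈ P.toValuationSubring →
      x ∈ (sgal N σ • P).toValuationSubring := by
    intro x hx hxP
    have := ValuationSubring.smul_mem_pointwise_smul (sgal N σ) x P.toValuationSubring hxP
    rw [sgal_smul, hx] at this
    exact this
  have hjinv : gal N σ (jK N)⁻¹ = (jK N)⁻¹ := by rw [map_inv₀, gal_jK]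
  unfold chartReg at h ⊢
  split_ifs at h ⊢
  · exact hj (gal_jK N σ) h
  · exact hj hjinv h
  · exact ⟨hj (gal_jK N σ) h.1, hj hjinv h.2⟩

omit [Fact ℓ.Prime] in
theorem gal_mem_Lsec {σ : GQ} (hσ : σ ∈ A.decompositionSubgroup ℚ) {i : ℕ}
    {D : Divisor Qb (FK N)} {f : FK N} (hf : f ∈ Lsec N A i D) :
    gal N σ f ∈ Lsec N A i (sgal N σ • D) := by
  refine ⟨gal_mem_gaussRing hσ hf.1, fun h0 Q hQ => ?_⟩
  have hf0 : f ≠ 0 := fun h => h0 (by rw [h, map_zero])
  set P : Place Qb (FK N) := (sgal N σ)⁻¹ • Q with hP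
  have hQP : Q = sgal N σ • P := by rw [hP, smul_inv_smul]
  have hregP : chartReg N i P := by
    have := chartReg_smul (N := N) σ⁻¹ hQ
    have e : sgal N σ⁻¹ = (sgal N σ)⁻¹ := map_inv _ σ
    rwa [e] at this
  have h1 := hf.2 hf0 P hregP
  rw [hQP, SemilinearAut.divisor_smul_apply_smul, ← sgal_smul, SemilinearAut.ord_smul]
  exact h1

omit [Fact ℓ.Prime] in
theorem gal_mem_TrivSec {σ : GQ} (hσ : σ ∈ A.decompositionSubgroup ℚ) {i : ℕ}
    {D : Divisor Qb (FK N)} {e : FK N} (he : e ∈ TrivSec N A i D) :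
    gal N σ e ∈ TrivSec N A i (sgal N σ • D) := by
  refine ⟨gal_mem_Lsec hσ he.1, ?_⟩
  have := gal_mem_gaussMax hσ he.2
  rwa [map_sub, map_one] at this

omit [Fact ℓ.Prime] in
theorem smallDiv_smul {σ : GQ} (hσ : σ ∈ A.decompositionSubgroup ℚ) {D : Divisor Qb (FK N)}
    (h : SmallDiv N A D) : SmallDiv N A (sgal N σ • D) := by
  obtain ⟨⟨e0, he0⟩, ⟨e0', he0'⟩, ⟨e1, he1⟩, ⟨e1', he1'⟩⟩ := h
  refine ⟨⟨_, gal_mem_TrivSec hσ he0⟩, ⟨gal N σ e0', ?_⟩, ⟨_, gal_mem_TrivSec hσ he1⟩,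
    ⟨gal N σ e1', ?_⟩⟩
  · have := gal_mem_TrivSec hσ he0'
    rwa [smul_neg] at this
  · have := gal_mem_TrivSec hσ he1'
    rwa [smul_neg] at this

end Galois

end

end Fermat.Agent.S19.helper9190
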