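/-
S19 second line (C-ideal), helper9190: the ASSEMBLY of CORE-C.

`coreAssembly : Stmt_CoreAssembly N ℓ A`, i.e. the leaves `Stmt_CechElt`, `Stmt_GaussVal`,
`Stmt_ChartInt`, `Stmt_SmallCentres`, `Stmt_BoundedTorsion`, `Stmt_PrincipalOfSection` give the
truncated coordinates `Stmt_TruncCoords` (pure algebra inside `FK = ℚ̄(X₀(N))`).
-/
import Fermat.Agent.S19.helper9190_CoreBasics

set_option autoImplicit false

namespace Fermat.Agent.S19.helper9190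

open ModularCurve ModularCurve.IgusaScheme AlgebraicCurve

noncomputable section

local notation "Qb" => AlgebraicClosure ℚ
local notation "GQ" => (AlgebraicClosure ℚ ≃ₐ[ℚ] AlgebraicClosure ℚ)

/-! ## 1. The Cech datum and `1`-units -/

/-- The five clauses of `Stmt_CechElt` for given `g`, `η`, `F`. -/
structure IsCech (N : ℕ) [NeZero N] (ℓ : ℕ) [Fact ℓ.Prime] (A : ValuationSubring Qb) {g : ℕ}
    (η : Fin g → FQ N)
    (F : ℕ → Fin g → MvPolynomial (Fin g ⊕ Fin g) (GaloisRep.ratLocalizedAt ℓ)) : Prop where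
  mem : ∀ i, η i ∈ chartSet N ℓ 2
  fac : ∀ (E : IntermediateField ℚ Qb) (r n : ℕ) (v : FK N), v ∈ chartRing N ℓ A E 2 →
      v - 1 ∈ chartNil N ℓ A E n r 2 →
      ∃ (a0 a1 : FK N) (b : Fin g → Qb),
        a0 ∈ chartRing N ℓ A E 0 ∧ a0 - 1 ∈ chartNil N ℓ A E n r 0 ∧
        a1 ∈ chartRing N ℓ A E 1 ∧ a1 - 1 ∈ chartNil N ℓ A E n r 1 ∧
        NilVec ℓ A n r b ∧ (∀ i, b i ∈ E) ∧
        ∃ z ∈ chartRing N ℓ A E 2, v - normalForm N η a0 a1 b = cst N ((ℓ : Qb) ^ r) * z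
  uni : ∀ (r n : ℕ) (a0 a1 a0' a1' : FK N) (b b' : Fin g → Qb),
      a0 - 1 ∈ chartNil N ℓ A ⊤ n r 0 → a1 - 1 ∈ chartNil N ℓ A ⊤ n r 1 →
      a0' - 1 ∈ chartNil N ℓ A ⊤ n r 0 → a1' - 1 ∈ chartNil N ℓ A ⊤ n r 1 →
      NilVec ℓ A n r b → NilVec ℓ A n r b' →
      (∃ z ∈ chartRing N ℓ A ⊤ 2,
        normalForm N η a0 a1 b - normalForm N η a0' a1' b' = cst N ((ℓ : Qb) ^ r) * z) →
      ∀ i, Cong A ℓ r (b i) (b' i)
  law : ∀ (r n : ℕ) (a0 a1 : FK N) (b b' b'' : Fin g → Qb),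
      a0 - 1 ∈ chartNil N ℓ A ⊤ n r 0 → a1 - 1 ∈ chartNil N ℓ A ⊤ n r 1 →
      NilVec ℓ A n r b → NilVec ℓ A n r b' → NilVec ℓ A n r b'' →
      (∃ z ∈ chartRing N ℓ A ⊤ 2,
        normalForm N η 1 1 b * normalForm N η 1 1 b' - normalForm N η a0 a1 b''
          = cst N ((ℓ : Qb) ^ r) * z) →
      ∀ i, Cong A ℓ r (b'' i) (MvPolynomial.aeval (Sum.elim b b') (F n i))
  inter : ∀ s0 ∈ chartRing N ℓ A ⊤ 0, ∀ s1 ∈ chartRing N ℓ A ⊤ 1, s0 - s1 ∈ chartMax N ℓ A 2 →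
      ∃ c ∈ A, s0 - cst N c ∈ chartMax N ℓ A 0 ∧ s1 - cst N c ∈ chartMax N ℓ A 1

theorem exists_isCech {N : ℕ} [NeZero N] {ℓ : ℕ} [Fact ℓ.Prime] {A : ValuationSubring Qb}
    (h : Stmt_CechElt N ℓ A) :
    ∃ (g : ℕ) (η : Fin g → FQ N)
      (F : ℕ → Fin g → MvPolynomial (Fin g ⊕ Fin g) (GaloisRep.ratLocalizedAt ℓ)),
      IsCech N ℓ A η F := by
  obtain ⟨g, η, F, h1, h2, h3, h4, h5⟩ := h
  exact ⟨g, η, F, ⟨h1, h2, h3, h4, h5⟩⟩

section Asm

variable {N : ℕ} [NeZero N] {ℓ : ℕ} [Fact ℓ.Prime] {A : ValuationSubring Qb}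
  {W : ValuationSubring (FK N)} {g : ℕ} {η : Fin g → FQ N}
  {F : ℕ → Fin g → MvPolynomial (Fin g ⊕ Fin g) (GaloisRep.ratLocalizedAt ℓ)}

variable (N ℓ A) in
/-- `a` is a `1`-unit of chart `i` whose deviation from `1` is nilpotent modulo `ℓ ^ r`. -/
def NilUnit (r i : ℕ) (a : FK N) : Prop :=
  ∃ n : ℕ, 1 ≤ n ∧ a - 1 ∈ chartNil N ℓ A ⊤ n r i

theorem NilUnit.mul {r i : ℕ} {a a' : FK N} (h : NilUnit N ℓ A r i a)
    (h' : NilUnit N ℓ A r i a') : NilUnit N ℓ A r i (a * a') := by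
  obtain ⟨n, hn, ha⟩ := h
  obtain ⟨n', hn', ha'⟩ := h'
  exact ⟨max n n', le_trans hn (le_max_left _ _),
    chartNil_one_add_mul (chartNil_mono_n (le_max_left _ _) ha)
      (chartNil_mono_n (le_max_right _ _) ha')⟩

theorem nilUnit_of_max (hA : A.LiesOverPrime ℓ) {r i : ℕ} {a : FK N}
    (h : a - 1 ∈ chartMax N ℓ A i) : NilUnit N ℓ A r i a :=
  chartMax_nil hA h r

theorem nilUnit_one (r i : ℕ) : NilUnit N ℓ A r i (1 : FK N) :=
  ⟨1, le_refl _, by rw [sub_self]; exact chartNil_zero_mem ⊤ (le_refl _) r i⟩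

theorem NilUnit.mem {r i : ℕ} {a : FK N} (h : NilUnit N ℓ A r i a) :
    a ∈ chartRing N ℓ A ⊤ i := by
  obtain ⟨n, _, ha⟩ := h
  exact mem_chartRing_of_sub_one ha

theorem NilUnit.mem_mid {r i : ℕ} {a : FK N} (h : NilUnit N ℓ A r i a) :
    a ∈ chartRing N ℓ A ⊤ 2 :=
  chartRing_le_mid N ℓ A ⊤ i h.mem

theorem NilUnit.mono_r {r r' i : ℕ} (hr : r' ≤ r) {a : FK N} (h : NilUnit N ℓ A r i a) :
    NilUnit N ℓ A r' i a := by
  obtain ⟨n, hn, ha⟩ := h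
  exact ⟨n, hn, chartNil_mono_r hr ha⟩

theorem NilUnit.quasiInv {r i : ℕ} {a : FK N} (h : NilUnit N ℓ A r i a) :
    ∃ a' : FK N, NilUnit N ℓ A r i a' ∧ CongS N ℓ A ⊤ r i (a * a') 1 := by
  obtain ⟨n, hn, ha⟩ := h
  obtain ⟨a', ha', hc⟩ := exists_quasiInv hn r i ha
  exact ⟨a', ⟨n, hn, ha'⟩, hc⟩

theorem NilUnit.galois {σ : GQ} (hσ : σ ∈ A.decompositionSubgroup ℚ) {r i : ℕ} {a : FK N}
    (h : NilUnit N ℓ A r i a) : NilUnit N ℓ A r i (gal N σ a) := by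
  obtain ⟨n, hn, ha⟩ := h
  refine ⟨n, hn, ?_⟩
  have := gal_mem_chartNil hσ ha
  rwa [map_sub, map_one] at this

theorem NilUnit.max (hA : A.LiesOverPrime ℓ) {r i : ℕ} (hr : 1 ≤ r) {a : FK N}
    (h : NilUnit N ℓ A r i a) : a - 1 ∈ chartMax N ℓ A i := by
  obtain ⟨n, _, ha⟩ := h
  exact chartNil_subset_chartMax hA hr ha

theorem normalForm_mem {r : ℕ} {a0 a1 : FK N} {b : Fin g → Qb} (hη : ∀ i, η i ∈ chartSet N ℓ 2)
    (h0 : NilUnit N ℓ A r 0 a0) (h1 : NilUnit N ℓ A r 1 a1) (hb : ∀ i, b i ∈ A) :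
    normalForm N η a0 a1 b ∈ chartRing N ℓ A ⊤ 2 := by
  rw [normalForm_eq]
  exact Subring.mul_mem _ (Subring.mul_mem _ h0.mem_mid
    (unitPart_mem η hη ⊤ hb fun _ => trivial)) h1.mem_mid

theorem unitPart_zero : unitPart (N := N) η (0 : Fin g → Qb) = 1 := by
  unfold unitPart
  simp [cst_zero]

theorem normalForm_one_one (b : Fin g → Qb) : normalForm N η 1 1 b = unitPart η b := by
  rw [normalForm_eq, one_mul, mul_one]

/-- (UNI) with independent nilpotency indices. -/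
theorem IsCech.uni' (hCe : IsCech N ℓ A η F) {r : ℕ} {a0 a1 a0' a1' : FK N} {b b' : Fin g → Qb}
    (h0 : NilUnit N ℓ A r 0 a0) (h1 : NilUnit N ℓ A r 1 a1)
    (h0' : NilUnit N ℓ A r 0 a0') (h1' : NilUnit N ℓ A r 1 a1')
    (hb : ∃ n, NilVec ℓ A n r b) (hb' : ∃ n, NilVec ℓ A n r b')
    (h : CongS N ℓ A ⊤ r 2 (normalForm N η a0 a1 b) (normalForm N η a0' a1' b')) :
    ∀ i, Cong A ℓ r (b i) (b' i) := by
  obtain ⟨n0, _, h0⟩ := h0
  obtain ⟨n1, _, h1⟩ := h1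
  obtain ⟨n0', _, h0'⟩ := h0'
  obtain ⟨n1', _, h1'⟩ := h1'
  obtain ⟨nb, hb⟩ := hb
  obtain ⟨nb', hb'⟩ := hb'
  exact hCe.uni r (n0 + n1 + n0' + n1' + nb + nb') a0 a1 a0' a1' b b'
    (chartNil_mono_n (by omega) h0) (chartNil_mono_n (by omega) h1)
    (chartNil_mono_n (by omega) h0') (chartNil_mono_n (by omega) h1')
    (nilVec_mono (by omega) hb) (nilVec_mono (by omega) hb') h

/-! ## 2. Coordinates of a small class -/

variable (N ℓ A) in
/-- `b` is a coordinate vector modulo `ℓ ^ r` of the small divisor `D`. -/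
def IsCoordDiv {g : ℕ} (η : Fin g → FQ N) (r : ℕ) (D : Divisor Qb (FK N)) (b : Fin g → Qb) :
    Prop :=
  ∃ (e1 e0' a0 a1 : FK N), e1 ∈ TrivSec N A 1 D ∧ e0' ∈ TrivSec N A 0 (-D) ∧
    NilUnit N ℓ A r 0 a0 ∧ NilUnit N ℓ A r 1 a1 ∧ (∃ n, NilVec ℓ A n r b) ∧
    CongS N ℓ A ⊤ r 2 (e1 * e0') (normalForm N η a0 a1 b)

variable (N ℓ A) in
/-- `b` is a coordinate vector modulo `ℓ ^ r` of the class `x`. -/
def IsCoord {g : ℕ} (η : Fin g → FQ N) (r : ℕ) (x : JZero N) (b : Fin g → Qb) : Prop :=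
  ∃ D : Divisor.degZero (K := Qb) (F := FK N), Pic0.mk D = x ∧
    SmallDiv N A (D : Divisor Qb (FK N)) ∧ IsCoordDiv N ℓ A η r (D : Divisor Qb (FK N)) b

theorem vs_oneUnit_mul {L : Type*} [Field L] (V : ValuationSubring L) {x y : L}
    (hx : x - 1 ∈ V.nonunits) (hy : y - 1 ∈ V.nonunits) : x * y - 1 ∈ V.nonunits := by
  have hyV : y ∈ V := (vs_unit_of_sub_one V hy).2.1
  have e : x * y - 1 = (x - 1) * y + (y - 1) := by ring
  rw [e]
  exact vs_nonunits_add V (vs_nonunits_mul V hx hyV) hy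

/-- **Comparison of two trivialisations** of linearly equivalent small divisors: the two
transition functions differ by `1`-units of the two charts. -/
theorem compare_sections (hW : IsGauss N A W) (hC : Stmt_ChartInt N ℓ A)
    (hCe : IsCech N ℓ A η F) {D D' : Divisor Qb (FK N)} (hD : SmallDiv N A D)
    (hD' : SmallDiv N A D') {h : FK N} (hh : h ≠ 0)
    (hΔ : ∀ P : Place Qb (FK N), D P - D' P = P.ord h)
    {e1 e0' e1' e0'' : FK N} (he1 : e1 ∈ TrivSec N A 1 D) (he0' : e0' ∈ TrivSec N A 0 (-D))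
    (he1' : e1' ∈ TrivSec N A 1 D') (he0'' : e0'' ∈ TrivSec N A 0 (-D')) :
    ∃ p0 p1 q0 q1 : FK N, p0 - 1 ∈ chartMax N ℓ A 0 ∧ p1 - 1 ∈ chartMax N ℓ A 1 ∧
      q0 - 1 ∈ chartMax N ℓ A 0 ∧ q1 - 1 ∈ chartMax N ℓ A 1 ∧
      (e1 * e0') * (p0 * p1) = (e1' * e0'') * (q0 * q1) := by
  -- normalise `h` to a unit of `W`
  obtain ⟨c, hc0, hcW, hcW'⟩ := hW.exists_unit h hh
  set H : FK N := cst N c * h with hH
  have hH0 : H ≠ 0 := mul_ne_zero (cst_ne_zero N hc0) hh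
  have hord : ∀ P : Place Qb (FK N), P.ord H = D P - D' P := by
    intro P
    rw [hH, P.ord_mul (cst_ne_zero N hc0) hh, ord_algebraMap_eq_zero, zero_add, hΔ]
  have hHH : H * H⁻¹ = 1 := mul_inv_cancel₀ hH0
  obtain ⟨ε1', hε1'⟩ := hD'.2.2.2
  obtain ⟨ε0', hε0'⟩ := hD'.1
  obtain ⟨ε1, hε1⟩ := hD.2.2.2
  -- the transition functions
  have ht1 : e1 * ε1' * H ∈ chartRing N ℓ A ⊤ 1 := by
    rw [← hC.1 1]
    have h1 := hW.Lsec_mul_of_ord (hW.Lsec_mul he1.1 hε1'.1) hcW (Δ := D - D')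
      (fun P => by rw [hord, Finsupp.sub_apply])
    have e : D + -D' - (D - D') = 0 := by abel
    rwa [e] at h1
  have ht0 : e0' * ε0' * H⁻¹ ∈ chartRing N ℓ A ⊤ 0 := by
    rw [← hC.1 0]
    have h1 := hW.Lsec_mul_of_ord (hW.Lsec_mul he0'.1 hε0'.1) hcW' (Δ := D' - D)
      (fun P => by rw [Place.ord_inv, hord, Finsupp.sub_apply]; ring)
    have e : -D + D' - (D' - D) = 0 := by abel
    rwa [e] at h1
  have ht1' : e1' * ε1 * H⁻¹ ∈ chartRing N ℓ A ⊤ 1 := by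
    rw [← hC.1 1]
    have h1 := hW.Lsec_mul_of_ord (hW.Lsec_mul he1'.1 hε1.1) hcW' (Δ := D' - D)
      (fun P => by rw [Place.ord_inv, hord, Finsupp.sub_apply]; ring)
    have e : D' + -D - (D' - D) = 0 := by abel
    rwa [e] at h1
  set t1 : FK N := e1 * ε1' * H with ht1def
  set t0 : FK N := e0' * ε0' * H⁻¹ with ht0def
  set t1' : FK N := e1' * ε1 * H⁻¹ with ht1'def
  have ht1W : t1 ∈ W := chartRing_subset_W hW hC ht1
  have ht0W : t0 ∈ W := chartRing_subset_W hW hC ht0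
  have ht1'W : t1' ∈ W := chartRing_subset_W hW hC ht1'
  -- the `1`-units
  have hv : e1 * e0' - 1 ∈ W.nonunits :=
    chartMax_subset_nonunits hW hC (TrivSec_cross hW hC he1 he0')
  have hv' : e1' * e0'' - 1 ∈ W.nonunits :=
    chartMax_subset_nonunits hW hC (TrivSec_cross hW hC he1' he0'')
  have hP1' : e1' * ε1' - 1 ∈ chartMax N ℓ A 1 := TrivSec_pair hW hC he1' hε1'
  have hP0' : ε0' * e0'' - 1 ∈ chartMax N ℓ A 0 := TrivSec_pair hW hC hε0' he0''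
  have hP1 : e1 * ε1 - 1 ∈ chartMax N ℓ A 1 := TrivSec_pair hW hC he1 hε1
  have e11 : t1 * t1' = (e1 * ε1) * (e1' * ε1') := by
    calc t1 * t1' = (H * H⁻¹) * ((e1 * ε1) * (e1' * ε1')) := by
          rw [ht1def, ht1'def]; ring
      _ = _ := by rw [hHH, one_mul]
  have e10 : t1 * t0 * (e1' * e0'') = (e1 * e0') * (e1' * ε1') * (ε0' * e0'') := by
    calc t1 * t0 * (e1' * e0'') = (H * H⁻¹) * ((e1 * e0') * (e1' * ε1') * (ε0' * e0'')) := by
          rw [ht1def, ht0def]; ring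
      _ = _ := by rw [hHH, one_mul]
  have h11 : t1 * t1' - 1 ∈ chartMax N ℓ A 1 := by
    rw [e11]; exact chartMax_one_add_mul hP1 hP1'
  have h10 : t1 * t0 - 1 ∈ W.nonunits := by
    have e : t1 * t0 - 1 = ((e1 * e0') * (e1' * ε1') * (ε0' * e0'') - 1)
        - (e1' * e0'' - 1) * (t1 * t0) := by
      rw [← e10]; ring
    rw [e]
    exact vs_nonunits_sub W
      (vs_oneUnit_mul W (vs_oneUnit_mul W hv (chartMax_subset_nonunits hW hC hP1'))
        (chartMax_subset_nonunits hW hC hP0'))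
      (vs_nonunits_mul W hv' (W.mul_mem _ _ ht1W ht0W))
  have hdiffW : t0 - t1' ∈ W.nonunits := by
    have e : t0 - t1' = (t1 * t0 - 1) * t1' - (t1 * t1' - 1) * t0 := by ring
    rw [e]
    exact vs_nonunits_sub W (vs_nonunits_mul W h10 ht1'W)
      (vs_nonunits_mul W (chartMax_subset_nonunits hW hC h11) ht0W)
  have hdiff : t0 - t1' ∈ chartMax N ℓ A 2 :=
    hC.2 2 _ (Subring.sub_mem _ (chartRing_le_mid N ℓ A ⊤ 0 ht0) (chartRing_le_mid N ℓ A ⊤ 1 ht1'))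
      ((hW.mem_gaussMax_iff _).mpr hdiffW)
  obtain ⟨c0, hc0A, hc0, hc1⟩ := hCe.inter t0 ht0 t1' ht1' hdiff
  -- `c0` is a unit of `A`
  have ht0n : t0 ∉ W.nonunits := fun hn =>
    (vs_unit_of_sub_one W h10).2.2.2 (by
      rw [mul_comm]; exact vs_nonunits_mul W hn ht1W)
  have hc0n : c0 ∉ A.nonunits := fun hn => ht0n (by
    have e : t0 = (t0 - cst N c0) + cst N c0 := by ring
    rw [e]
    exact vs_nonunits_add W (chartMax_subset_nonunits hW hC hc0)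
      ((hW.cst_mem_nonunits_iff c0).mpr hn))
  have hc0' : c0 ≠ 0 ∧ c0⁻¹ ∈ A := by
    rw [mem_nonunits_iff_inv] at hc0n
    exact ⟨fun h0 => hc0n (Or.inl h0), by_contra fun h1 => hc0n (Or.inr h1)⟩
  have hcc : cst N c0⁻¹ * cst N c0 = 1 := by
    rw [← cst_mul, inv_mul_cancel₀ hc0'.1, cst_one]
  refine ⟨ε0' * e0'', e1' * ε1', cst N c0⁻¹ * t0, cst N c0 * t1, hP0', hP1', ?_, ?_, ?_⟩
  · have e : cst N c0⁻¹ * t0 - 1 = (t0 - cst N c0) * cst N c0⁻¹ := by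
      have : (t0 - cst N c0) * cst N c0⁻¹ = cst N c0⁻¹ * t0 - cst N c0⁻¹ * cst N c0 := by ring
      rw [this, hcc]
    rw [e]
    exact chartMax_mul_mem hc0 (cst_mem_chartRing N ℓ A ⊤ 0 hc0'.2 trivial)
  · have e : cst N c0 * t1 - 1 = (t1 * t1' - 1) - (t1' - cst N c0) * t1 := by ring
    rw [e]
    exact chartMax_sub_mem h11 (chartMax_mul_mem hc1 ht1)
  · calc (e1 * e0') * ((ε0' * e0'') * (e1' * ε1'))
        = (cst N c0⁻¹ * cst N c0) * (H * H⁻¹) * ((e1 * e0') * ((ε0' * e0'') * (e1' * ε1'))) := by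
          rw [hcc, hHH]; ring
      _ = (e1' * e0'') * ((cst N c0⁻¹ * t0) * (cst N c0 * t1)) := by
          rw [ht1def, ht0def]; ring

/-- **Well-definedness** of the coordinates modulo `ℓ ^ r`. -/
theorem IsCoord.unique (hA : A.LiesOverPrime ℓ) (hW : IsGauss N A W) (hC : Stmt_ChartInt N ℓ A)
    (hCe : IsCech N ℓ A η F) {r : ℕ} {x : JZero N} {b b' : Fin g → Qb}
    (h : IsCoord N ℓ A η r x b) (h' : IsCoord N ℓ A η r x b') :
    ∀ i, Cong A ℓ r (b i) (b' i) := by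
  obtain ⟨D, rfl, hD, e1, e0', a0, a1, he1, he0', ha0, ha1, hb, hv⟩ := h
  obtain ⟨D', hDD', hD', e1', e0'', a0', a1', he1', he0'', ha0', ha1', hb', hv'⟩ := h'
  have hprin : ((D : Divisor Qb (FK N)) - (D' : Divisor Qb (FK N)))
      ∈ Divisor.principal (K := Qb) (F := FK N) := by
    have h1 : (QuotientAddGroup.mk D' : Pic0 Qb (FK N)) = QuotientAddGroup.mk D := hDD'
    rw [QuotientAddGroup.eq, AddSubgroup.mem_addSubgroupOf] at h1
    have e : (D : Divisor Qb (FK N)) - (D' : Divisor Qb (FK N))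
        = ((-D' + D : Divisor.degZero (K := Qb) (F := FK N)) : Divisor Qb (FK N)) := by
      push_cast; abel
    rw [e]; exact h1
  obtain ⟨h, hh, hΔ⟩ := hprin
  obtain ⟨p0, p1, q0, q1, hp0, hp1, hq0, hq1, e⟩ := compare_sections hW hC hCe hD hD' hh
    (fun P => by rw [← hΔ P, Finsupp.sub_apply]) he1 he0' he1' he0''
  have hp : p0 * p1 ∈ chartRing N ℓ A ⊤ 2 :=
    Subring.mul_mem _ (chartRing_le_mid N ℓ A ⊤ 0 (mem_chartRing_of_sub_one_max hp0))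
      (chartRing_le_mid N ℓ A ⊤ 1 (mem_chartRing_of_sub_one_max hp1))
  have hq : q0 * q1 ∈ chartRing N ℓ A ⊤ 2 :=
    Subring.mul_mem _ (chartRing_le_mid N ℓ A ⊤ 0 (mem_chartRing_of_sub_one_max hq0))
      (chartRing_le_mid N ℓ A ⊤ 1 (mem_chartRing_of_sub_one_max hq1))
  have s1 := hv.mul_right hp
  have s2 := hv'.mul_right hq
  rw [e] at s1
  refine hCe.uni' (ha0.mul (nilUnit_of_max hA hp0)) (ha1.mul (nilUnit_of_max hA hp1))
    (ha0'.mul (nilUnit_of_max hA hq0)) (ha1'.mul (nilUnit_of_max hA hq1)) hb hb' ?_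
  exact (congS_of_eq (by simp only [normalForm_eq]; ring)).trans
    (s1.symm.trans (s2.trans (congS_of_eq (by simp only [normalForm_eq]; ring))))

theorem IsCoord.mono {r r' : ℕ} (hr : r' ≤ r) {x : JZero N} {b : Fin g → Qb}
    (h : IsCoord N ℓ A η r x b) : IsCoord N ℓ A η r' x b := by
  obtain ⟨D, hx, hD, e1, e0', a0, a1, he1, he0', ha0, ha1, ⟨n, hb⟩, hv⟩ := h
  exact ⟨D, hx, hD, e1, e0', a0, a1, he1, he0', ha0.mono_r hr, ha1.mono_r hr,
    ⟨n, nilVec_mono_r hr hb⟩, hv.mono_r hr⟩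

theorem IsCoord.nilVec {r : ℕ} {x : JZero N} {b : Fin g → Qb}
    (h : IsCoord N ℓ A η r x b) : ∃ n, NilVec ℓ A n r b := by
  obtain ⟨D, hx, hD, e1, e0', a0, a1, he1, he0', ha0, ha1, hb, hv⟩ := h
  exact hb

theorem IsCoord.mem {r : ℕ} {x : JZero N} {b : Fin g → Qb}
    (h : IsCoord N ℓ A η r x b) (i : Fin g) : b i ∈ A := by
  obtain ⟨n, hb⟩ := h.nilVec
  exact (hb i).1

theorem IsCoord.mem_smallClasses {r : ℕ} {x : JZero N} {b : Fin g → Qb}
    (h : IsCoord N ℓ A η r x b) : x ∈ smallClasses N A := by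
  obtain ⟨D, hx, hD, -⟩ := h
  exact ⟨D, hx, hD⟩

/-- **Equivariance** under the decomposition group. -/
theorem IsCoord.galois {σ : GQ} (hσ : σ ∈ A.decompositionSubgroup ℚ) {r : ℕ} {x : JZero N}
    {b : Fin g → Qb} (h : IsCoord N ℓ A η r x b) :
    IsCoord N ℓ A η r (σ • x) (fun i => σ (b i)) := by
  obtain ⟨D, rfl, hD, e1, e0', a0, a1, he1, he0', ha0, ha1, ⟨n, hb⟩, hv⟩ := h
  refine ⟨SemilinearAut.degZeroSMulHom (sgal N σ) D, rfl, smallDiv_smul hσ hD,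
    gal N σ e1, gal N σ e0', gal N σ a0, gal N σ a1, gal_mem_TrivSec hσ he1, ?_,
    ha0.galois hσ, ha1.galois hσ, ⟨n, hb.galois hσ⟩, ?_⟩
  · have h1 := gal_mem_TrivSec hσ he0'
    rw [smul_neg] at h1
    exact h1
  · have h1 := hv.galois hσ
    rw [map_mul, gal_normalForm] at h1
    exact h1

/-- **Existence** of coordinates at one finite level. -/
theorem exists_coord (hA : A.LiesOverPrime ℓ) (hW : IsGauss N A W) (hC : Stmt_ChartInt N ℓ A)
    (hCe : IsCech N ℓ A η F) {x : JZero N} (hx : x ∈ smallClasses N A) :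
    ∃ E : IntermediateField ℚ Qb, FiniteDimensional ℚ E ∧
      ∀ r : ℕ, ∃ b : Fin g → Qb, IsCoord N ℓ A η r x b ∧ ∀ i, b i ∈ E := by
  obtain ⟨D, rfl, hD⟩ := hx
  obtain ⟨e1, he1⟩ := hD.2.2.1
  obtain ⟨e0', he0'⟩ := hD.2.1
  obtain ⟨c, hc, s, hs, hvs⟩ := TrivSec_cross hW hC he1 he0'
  obtain ⟨E1, hE1, hcE1⟩ := exists_level_of_mem c
  obtain ⟨E2, hE2, hsE2⟩ := exists_level_of_mem_chartRing N ℓ A 2 hs
  obtain ⟨E, hE, h1E, h2E⟩ := exists_level_sup hE1 hE2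
  refine ⟨E, hE, fun r => ?_⟩
  obtain ⟨n, hn1, hcn⟩ := exists_nilIndex hA hc r
  have hvN : e1 * e0' - 1 ∈ chartNil N ℓ A E n r 2 :=
    ⟨c, ValuationSubring.nonunits_subset hc, h1E hcE1, hcn, s,
      chartRing_mono_level N ℓ A h2E 2 hsE2, hvs⟩
  obtain ⟨a0, a1, b, -, ha0N, -, ha1N, hb, hbE, z, hz, hfz⟩ :=
    hCe.fac E r n _ (mem_chartRing_of_sub_one hvN) hvN
  exact ⟨b, ⟨D, rfl, hD, e1, e0', a0, a1, he1, he0',
    ⟨n, hn1, chartNil_mono_level le_top ha0N⟩, ⟨n, hn1, chartNil_mono_level le_top ha1N⟩,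
    ⟨n, hb⟩, ⟨z, chartRing_mono_level N ℓ A le_top 2 hz, hfz⟩⟩, hbE⟩

/-- **The law**: coordinates of a sum. -/
theorem IsCoord.add (hA : A.LiesOverPrime ℓ) (hW : IsGauss N A W) (hC : Stmt_ChartInt N ℓ A)
    (hCe : IsCech N ℓ A η F) {r n : ℕ} (hn : 1 ≤ n) {x y : JZero N} {b b' : Fin g → Qb}
    (h : IsCoord N ℓ A η r x b) (h' : IsCoord N ℓ A η r y b')
    (hbn : NilVec ℓ A n r b) (hbn' : NilVec ℓ A n r b') :
    ∃ b'' : Fin g → Qb, IsCoord N ℓ A η r (x + y) b'' ∧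
      ∀ i, Cong A ℓ r (b'' i) (MvPolynomial.aeval (Sum.elim b b') (F n i)) := by
  obtain ⟨D, rfl, hD, e1, e0', a0, a1, he1, he0', ha0, ha1, hb, hv⟩ := h
  obtain ⟨D', rfl, hD', e1', e0'', a0', a1', he1', he0'', ha0', ha1', hb', hv'⟩ := h'
  have hU : unitPart η b * unitPart η b' - 1 ∈ chartNil N ℓ A ⊤ n r 2 :=
    chartNil_one_add_mul (unitPart_sub_one_mem η hCe.mem ⊤ hn r hbn fun _ => trivial)
      (unitPart_sub_one_mem η hCe.mem ⊤ hn r hbn' fun _ => trivial)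
  obtain ⟨α0, α1, b'', -, hα0, -, hα1, hb'', -, z, hz, hfz⟩ :=
    hCe.fac ⊤ r n _ (mem_chartRing_of_sub_one hU) hU
  have hlaw := hCe.law r n α0 α1 b b' b'' hα0 hα1 hbn hbn' hb''
    ⟨z, hz, by rw [normalForm_one_one, normalForm_one_one]; exact hfz⟩
  refine ⟨b'', ⟨D + D', rfl, ?_, e1 * e1', e0' * e0'', a0 * a0' * α0, a1 * a1' * α1,
    hW.TrivSec_mul he1 he1', ?_, (ha0.mul ha0').mul ⟨n, hn, hα0⟩,
    (ha1.mul ha1').mul ⟨n, hn, hα1⟩, ⟨n, hb''⟩, ?_⟩, hlaw⟩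
  · exact hW.smallDiv_add hD hD'
  · have h1 := hW.TrivSec_mul he0' he0''
    rw [← neg_add] at h1
    exact h1
  · have hvy : e1' * e0'' ∈ chartRing N ℓ A ⊤ 2 :=
      mem_chartRing_of_sub_one_max (TrivSec_cross hW hC he1' he0'')
    have hnf : normalForm N η a0 a1 b ∈ chartRing N ℓ A ⊤ 2 :=
      normalForm_mem hCe.mem ha0 ha1 fun i => (hbn i).1
    have s1 := CongS.mul hv hv' hvy hnf
    have s2 : CongS N ℓ A ⊤ r 2 (unitPart η b * unitPart η b') (normalForm N η α0 α1 b'') :=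
      ⟨z, hz, hfz⟩
    have hmul : a0 * a0' * (a1 * a1') ∈ chartRing N ℓ A ⊤ 2 :=
      Subring.mul_mem _ (Subring.mul_mem _ ha0.mem_mid ha0'.mem_mid)
        (Subring.mul_mem _ ha1.mem_mid ha1'.mem_mid)
    have s3 := s2.mul_left hmul
    exact (congS_of_eq (by ring)).trans (s1.trans ((congS_of_eq
      (by simp only [normalForm_eq]; ring)).trans (s3.trans (congS_of_eq
      (by simp only [normalForm_eq]; ring)))))

/-- Congruent coordinates: the difference has coordinates `0`. -/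
theorem IsCoord.sub (hA : A.LiesOverPrime ℓ) (hW : IsGauss N A W) (hC : Stmt_ChartInt N ℓ A)
    (hCe : IsCech N ℓ A η F) {r : ℕ} {x y : JZero N} {b b' : Fin g → Qb}
    (h : IsCoord N ℓ A η r x b) (h' : IsCoord N ℓ A η r y b')
    (hbb : ∀ i, Cong A ℓ r (b i) (b' i)) : IsCoord N ℓ A η r (x - y) (0 : Fin g → Qb) := by
  have hbA := h.mem
  have hbA' := h'.mem
  obtain ⟨D, rfl, hD, e1, e0', a0, a1, he1, he0', ha0, ha1, ⟨n, hb⟩, hv⟩ := h
  obtain ⟨D', rfl, hD', e1', e0'', a0', a1', he1', he0'', ha0', ha1', ⟨n', hb'⟩, hv'⟩ := h'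
  obtain ⟨ε1, hε1⟩ := hD'.2.2.2
  obtain ⟨ε0, hε0⟩ := hD'.1
  have hq1 : e1' * ε1 - 1 ∈ chartMax N ℓ A 1 := TrivSec_pair hW hC he1' hε1
  have hq0 : ε0 * e0'' - 1 ∈ chartMax N ℓ A 0 := TrivSec_pair hW hC hε0 he0''
  -- quasi-inverses
  obtain ⟨i0, hi0, hc0⟩ := ha0'.quasiInv
  obtain ⟨i1, hi1, hc1⟩ := ha1'.quasiInv
  have hun : NilUnit N ℓ A r 2 (unitPart η b) :=
    ⟨n + 1, by omega, unitPart_sub_one_mem η hCe.mem ⊤ (by omega) r
      (nilVec_mono (by omega) hb) fun _ => trivial⟩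
  obtain ⟨u', hu', hcu⟩ := hun.quasiInv
  set U := unitPart η b with hUdef
  have hUmem : U ∈ chartRing N ℓ A ⊤ 2 := hun.mem
  -- the sections of `D - D'`
  have hz1 : e1 * ε1 ∈ TrivSec N A 1 (D + -D') := hW.TrivSec_mul he1 hε1
  have hz0 : e0' * ε0 ∈ TrivSec N A 0 (-D + D') := hW.TrivSec_mul he0' hε0
  have hvz : e1 * ε1 * (e0' * ε0) ∈ chartRing N ℓ A ⊤ 2 := by
    have h1 : e0' * ε0 ∈ TrivSec N A 0 (-(D + -D')) := by
      have e : -((D : Divisor Qb (FK N)) + -D') = -D + D' := by abel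
      rw [e]; exact hz0
    exact mem_chartRing_of_sub_one_max (TrivSec_cross hW hC hz1 h1)
  have hvy : e1' * e0'' ∈ chartRing N ℓ A ⊤ 2 :=
    mem_chartRing_of_sub_one_max (TrivSec_cross hW hC he1' he0'')
  have hq : (e1' * ε1) * (ε0 * e0'') ∈ chartRing N ℓ A ⊤ 2 :=
    Subring.mul_mem _ (chartRing_le_mid N ℓ A ⊤ 1 (mem_chartRing_of_sub_one_max hq1))
      (chartRing_le_mid N ℓ A ⊤ 0 (mem_chartRing_of_sub_one_max hq0))
  have hinv : i0 * u' * i1 ∈ chartRing N ℓ A ⊤ 2 :=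
    Subring.mul_mem _ (Subring.mul_mem _ hi0.mem_mid hu'.mem) hi1.mem_mid
  -- `B ≡ 1`
  have hB : CongS N ℓ A ⊤ r 2 ((a0' * i0) * (U * u') * (a1' * i1)) 1 := by
    have h1 : CongS N ℓ A ⊤ r 2 ((a0' * i0) * (U * u')) (1 * 1) :=
      CongS.mul hc0.le_mid hcu (Subring.mul_mem _ hUmem hu'.mem) (Subring.one_mem _)
    have h2 : CongS N ℓ A ⊤ r 2 ((a0' * i0) * (U * u') * (a1' * i1)) (1 * 1 * 1) :=
      CongS.mul h1 hc1.le_mid (Subring.mul_mem _ ha1'.mem_mid hi1.mem_mid)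
        (Subring.mul_mem _ (Subring.one_mem _) (Subring.one_mem _))
    simpa using h2
  -- `v_y ≡ a0' U a1'`
  have hvy' : CongS N ℓ A ⊤ r 2 (e1' * e0'') (normalForm N η a0' a1' b) := by
    refine hv'.trans ?_
    have h1 := (unitPart_congS η hCe.mem hbA' hbA fun i => (hbb i).symm)
    have h2 := (h1.mul_left ha0'.mem_mid).mul_right ha1'.mem_mid
    simpa only [normalForm_eq] using h2
  refine ⟨D - D', rfl, ?_, e1 * ε1, e0' * ε0, a0 * (ε0 * e0'') * i0, a1 * (e1' * ε1) * i1, ?_, ?_,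
    (ha0.mul (nilUnit_of_max hA hq0)).mul hi0, (ha1.mul (nilUnit_of_max hA hq1)).mul hi1,
    ⟨1, fun i => ⟨A.zero_mem, by simpa using cong_refl (A := A) (ℓ := ℓ) (r := r) 0⟩⟩, ?_⟩
  · exact hW.smallDiv_sub hD hD'
  · have e : ((D - D' : Divisor.degZero (K := Qb) (F := FK N)) : Divisor Qb (FK N))
        = D + -D' := by push_cast; abel
    rw [e]; exact hz1
  · have e : -((D - D' : Divisor.degZero (K := Qb) (F := FK N)) : Divisor Qb (FK N))
        = -D + D' := by push_cast; abel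
    rw [e]; exact hz0
  · -- the chain of congruences
    set vz := e1 * ε1 * (e0' * ε0) with hvzdef
    have s1 : CongS N ℓ A ⊤ r 2 vz (vz * ((a0' * i0) * (U * u') * (a1' * i1))) := by
      have := (hB.mul_left hvz).symm
      simpa using this
    have s2 : CongS N ℓ A ⊤ r 2 (vz * ((a0' * i0) * (U * u') * (a1' * i1)))
        (vz * (e1' * e0'') * (i0 * u' * i1)) := by
      have h1 := (hvy'.symm.mul_left hvz).mul_right hinv
      refine (congS_of_eq ?_).trans h1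
      rw [normalForm_eq]; ring
    have s3 : CongS N ℓ A ⊤ r 2 (vz * (e1' * e0'') * (i0 * u' * i1))
        (normalForm N η a0 a1 b * ((e1' * ε1) * (ε0 * e0'')) * (i0 * u' * i1)) := by
      have h1 := (hv.mul_right hq).mul_right hinv
      refine (congS_of_eq ?_).trans h1
      rw [hvzdef]; ring
    have s4 : CongS N ℓ A ⊤ r 2
        (normalForm N η a0 a1 b * ((e1' * ε1) * (ε0 * e0'')) * (i0 * u' * i1))
        (normalForm N η (a0 * (ε0 * e0'') * i0) (a1 * (e1' * ε1) * i1) 0) := by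
      have hm : a0 * (ε0 * e0'') * i0 * (a1 * (e1' * ε1) * i1) ∈ chartRing N ℓ A ⊤ 2 :=
        Subring.mul_mem _
          (Subring.mul_mem _ (Subring.mul_mem _ ha0.mem_mid
            (chartRing_le_mid N ℓ A ⊤ 0 (mem_chartRing_of_sub_one_max hq0))) hi0.mem_mid)
          (Subring.mul_mem _ (Subring.mul_mem _ ha1.mem_mid
            (chartRing_le_mid N ℓ A ⊤ 1 (mem_chartRing_of_sub_one_max hq1))) hi1.mem_mid)
      have h1 := hcu.mul_left hm
      refine (congS_of_eq ?_).trans (h1.trans (congS_of_eq ?_))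
      · rw [normalForm_eq]; ring
      · rw [normalForm_eq, unitPart_zero]; ring
    exact s1.trans (s2.trans (s3.trans s4))

theorem unitPart_congS_one (hη : ∀ i, η i ∈ chartSet N ℓ 2) (E : IntermediateField ℚ Qb) {r : ℕ}
    {b : Fin g → Qb} (hb : ∀ i, b i ∈ A) (hbE : ∀ i, b i ∈ E) (h : ∀ i, Cong A ℓ r (b i) 0) :
    CongS N ℓ A E r 2 (unitPart η b) 1 := by
  have hℓ0 : ((ℓ : Qb) ^ r) ≠ 0 :=
    pow_ne_zero _ (Nat.cast_ne_zero.mpr (Fact.out : ℓ.Prime).ne_zero)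
  have key : unitPart η b ∈ chartRing N ℓ A E 2 ∧ CongS N ℓ A E r 2 (unitPart η b) 1 := by
    unfold unitPart
    apply Finset.prod_induction _
      (fun x : FK N => x ∈ chartRing N ℓ A E 2 ∧ CongS N ℓ A E r 2 x 1)
    · rintro x y ⟨hx, hx1⟩ ⟨hy, hy1⟩
      refine ⟨Subring.mul_mem _ hx hy, ?_⟩
      have := CongS.mul hx1 hy1 hy (Subring.one_mem _)
      simpa using this
    · exact ⟨Subring.one_mem _, congS_refl _ _ _ _⟩
    · intro i _
      have hmem : cst N (b i) * emb N (η i) ∈ chartRing N ℓ A E 2 :=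
        Subring.mul_mem _ (cst_mem_chartRing N ℓ A E 2 (hb i) (hbE i))
          (emb_mem_chartRing N ℓ A E 2 (hη i))
      refine ⟨Subring.add_mem _ (Subring.one_mem _) hmem, ?_⟩
      obtain ⟨w, hw, ew⟩ := cong_zero_iff.mp (h i)
      have hwE : w ∈ E := by
        have : w = b i * ((ℓ : Qb) ^ r)⁻¹ := by rw [ew]; field_simp
        rw [this]
        exact E.mul_mem (hbE i) (E.inv_mem (pow_mem (natCast_mem E ℓ) _))
      refine ⟨cst N w * emb N (η i), Subring.mul_mem _ (cst_mem_chartRing N ℓ A E 2 hw hwE)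
        (emb_mem_chartRing N ℓ A E 2 (hη i)), ?_⟩
      rw [ew, cst_mul]; ring
  exact key.2

/-- **Injectivity**: a small class all of whose coordinates vanish is `0`. -/
theorem eq_zero_of_coord_zero (hA : A.LiesOverPrime ℓ) (hW : IsGauss N A W)
    (hC : Stmt_ChartInt N ℓ A) (hCe : IsCech N ℓ A η F) (hBT : Stmt_BoundedTorsion N ℓ A)
    (hPS : Stmt_PrincipalOfSection N) {z : JZero N} (hz : z ∈ smallClasses N A)
    (h : ∀ r, 1 ≤ r → IsCoord N ℓ A η r z (0 : Fin g → Qb)) : z = 0 := by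
  obtain ⟨D, rfl, hD⟩ := hz
  obtain ⟨e0, he0⟩ := hD.1
  obtain ⟨e0', he0'⟩ := hD.2.1
  obtain ⟨e1, he1⟩ := hD.2.2.1
  -- the two deviations
  obtain ⟨c, hc, s, hs, hvs⟩ := TrivSec_cross hW hC he1 he0'
  obtain ⟨c0, hc0, s0, hs0, hms⟩ := TrivSec_pair hW hC he0 he0'
  -- one finite level for everything
  obtain ⟨E1, hE1, hcE1⟩ := exists_level_of_mem c
  obtain ⟨E2, hE2, hsE2⟩ := exists_level_of_mem_chartRing N ℓ A 2 hs
  obtain ⟨E3, hE3, hc0E3⟩ := exists_level_of_mem c0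
  obtain ⟨E4, hE4, hs0E4⟩ := exists_level_of_mem_chartRing N ℓ A 0 hs0
  obtain ⟨E5, hE5, he0E5⟩ := exists_level_of_FK N e0
  obtain ⟨E6, hE6, he1E6⟩ := exists_level_of_FK N e1
  obtain ⟨E12, hE12, h1, h2⟩ := exists_level_sup hE1 hE2
  obtain ⟨E34, hE34, h3, h4⟩ := exists_level_sup hE3 hE4
  obtain ⟨E56, hE56, h5, h6⟩ := exists_level_sup hE5 hE6
  obtain ⟨E1234, hE1234, h12, h34⟩ := exists_level_sup hE12 hE34
  obtain ⟨E, hE, h1234, h56⟩ := exists_level_sup hE1234 hE56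
  have hcE : c ∈ E := h1234 (h12 (h1 hcE1))
  have hsE : s ∈ chartRing N ℓ A E 2 :=
    chartRing_mono_level N ℓ A (le_trans h2 (le_trans h12 h1234)) 2 hsE2
  have hc0E : c0 ∈ E := h1234 (h34 (h3 hc0E3))
  have hs0E : s0 ∈ chartRing N ℓ A E 0 :=
    chartRing_mono_level N ℓ A (le_trans h4 (le_trans h34 h1234)) 0 hs0E4
  have he0E : e0 ∈ levelField N E := levelField_mono N (le_trans h5 h56) he0E5
  have he1E : e1 ∈ levelField N E := levelField_mono N (le_trans h6 h56) he1E6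
  -- bounded torsion at this level
  obtain ⟨cB, hcB0, hcBA, hB⟩ := hBT D hD E hE
  obtain ⟨r, hr⟩ := exists_not_cong_zero hA hcB0
  have hr1 : 1 ≤ r := by
    by_contra h0
    have h00 : r = 0 := by omega
    subst h00
    exact hr ⟨cB, hcBA, by simp⟩
  have hℓ0 : ((ℓ : Qb) ^ r) ≠ 0 :=
    pow_ne_zero _ (Nat.cast_ne_zero.mpr (Fact.out : ℓ.Prime).ne_zero)
  have hℓA : ((ℓ : Qb) ^ r) ∈ A := pow_mem (natCast_mem A ℓ) _
  -- a common nilpotency index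
  obtain ⟨n1, hn1, hcn1⟩ := exists_nilIndex hA hc r
  obtain ⟨n2, hn2, hcn2⟩ := exists_nilIndex hA hc0 r
  obtain ⟨n, hn, hnn1, hnn2⟩ : ∃ n, 1 ≤ n ∧ n1 ≤ n ∧ n2 ≤ n := ⟨n1 + n2, by omega, by omega, by omega⟩
  have hcA : c ∈ A := ValuationSubring.nonunits_subset hc
  have hc0A : c0 ∈ A := ValuationSubring.nonunits_subset hc0
  have hvN : e1 * e0' - 1 ∈ chartNil N ℓ A E n r 2 :=
    ⟨c, hcA, hcE, cong_pow_zero_mono hcA hnn1 hcn1, s, hsE, hvs⟩
  have hmN : e0 * e0' - 1 ∈ chartNil N ℓ A E n r 0 :=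
    ⟨c0, hc0A, hc0E, cong_pow_zero_mono hc0A hnn2 hcn2, s0, hs0E, hms⟩
  obtain ⟨a0, a1, b, ha0, ha0N, ha1, ha1N, hb, hbE, z, hz, hfz⟩ :=
    hCe.fac E r n _ (mem_chartRing_of_sub_one hvN) hvN
  -- the coordinates at level `E` vanish modulo `ℓ ^ r`
  have hcoord : IsCoord N ℓ A η r (Pic0.mk D) b :=
    ⟨D, rfl, hD, e1, e0', a0, a1, he1, he0', ⟨n, hn, chartNil_mono_level le_top ha0N⟩,
      ⟨n, hn, chartNil_mono_level le_top ha1N⟩, ⟨n, hb⟩,
      ⟨z, chartRing_mono_level N ℓ A le_top 2 hz, hfz⟩⟩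
  have hb0 : ∀ i, Cong A ℓ r (b i) 0 := fun i => by
    simpa using IsCoord.unique hA hW hC hCe hcoord (h r hr1) i
  have hU : CongS N ℓ A E r 2 (unitPart η b) 1 :=
    unitPart_congS_one hCe.mem E (fun i => (hb i).1) hbE hb0
  have hv : CongS N ℓ A E r 2 (e1 * e0') (a0 * a1) := by
    have h1 : CongS N ℓ A E r 2 (e1 * e0') (normalForm N η a0 a1 b) := ⟨z, hz, hfz⟩
    have h2 := (hU.mul_left (chartRing_le_mid N ℓ A E 0 ha0)).mul_right
      (chartRing_le_mid N ℓ A E 1 ha1)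
    exact h1.trans ((congS_of_eq (normalForm_eq η a0 a1 b)).trans
      (h2.trans (congS_of_eq (by ring))))
  -- quasi-inverses at level `E`
  obtain ⟨a1', ha1'N, hc1⟩ := exists_quasiInv hn r 1 ha1N
  obtain ⟨w0, hw0N, hcw⟩ := exists_quasiInv hn r 0 hmN
  have ha1'E : a1' ∈ chartRing N ℓ A E 1 := mem_chartRing_of_sub_one ha1'N
  have hw0E : w0 ∈ chartRing N ℓ A E 0 := mem_chartRing_of_sub_one hw0N
  obtain ⟨zv, hzv, ev⟩ := hv
  obtain ⟨z1, hz1, ez1⟩ := hc1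
  obtain ⟨z0, hz0, ez0⟩ := hcw
  -- memberships at level `⊤`
  have ha0T : a0 ∈ chartRing N ℓ A ⊤ 0 := chartRing_mono_level N ℓ A le_top 0 ha0
  have hw0T : w0 ∈ chartRing N ℓ A ⊤ 0 := chartRing_mono_level N ℓ A le_top 0 hw0E
  have ha1'T : a1' ∈ chartRing N ℓ A ⊤ 1 := chartRing_mono_level N ℓ A le_top 1 ha1'E
  have hzvT : zv ∈ chartRing N ℓ A ⊤ 2 := chartRing_mono_level N ℓ A le_top 2 hzv
  have hz1T : z1 ∈ chartRing N ℓ A ⊤ 2 :=
    chartRing_le_mid N ℓ A ⊤ 1 (chartRing_mono_level N ℓ A le_top 1 hz1)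
  have hz0T : z0 ∈ chartRing N ℓ A ⊤ 2 :=
    chartRing_le_mid N ℓ A ⊤ 0 (chartRing_mono_level N ℓ A le_top 0 hz0)
  have ha0M : a0 ∈ chartRing N ℓ A ⊤ 2 := chartRing_le_mid N ℓ A ⊤ 0 ha0T
  have hw0M : w0 ∈ chartRing N ℓ A ⊤ 2 := chartRing_le_mid N ℓ A ⊤ 0 hw0T
  have ha1'M : a1' ∈ chartRing N ℓ A ⊤ 2 := chartRing_le_mid N ℓ A ⊤ 1 ha1'T
  -- the two sections
  have hs1 : a1' * e1 ∈ Lsec N A 1 D := ring_mul_Lsec hW hC ha1'T he1.1
  have hs0 : a0 * w0 * e0 ∈ Lsec N A 0 D :=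
    ring_mul_Lsec hW hC (Subring.mul_mem _ ha0T hw0T) he0.1
  have hs1E : a1' * e1 ∈ levelField N E :=
    mul_mem (chartRing_le_levelField N ℓ A E 1 ha1'E) he1E
  have hs0E' : a0 * w0 * e0 ∈ levelField N E :=
    mul_mem (mul_mem (chartRing_le_levelField N ℓ A E 0 ha0)
      (chartRing_le_levelField N ℓ A E 0 hw0E)) he0E
  set f : FK N := (z1 * a0 * w0 + zv * a1' * w0) * e0 - (z0 * a1') * e1 with hfdef
  have hf : f ∈ Lsec N A 2 D :=
    hW.Lsec_sub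
      (ring_mul_Lsec hW hC (Subring.add_mem _ (Subring.mul_mem _ (Subring.mul_mem _ hz1T ha0M) hw0M)
        (Subring.mul_mem _ (Subring.mul_mem _ hzvT ha1'M) hw0M)) (Lsec_le_mid he0.1))
      (ring_mul_Lsec hW hC (Subring.mul_mem _ hz0T ha1'M) (Lsec_le_mid he1.1))
  have ef : a1' * e1 - a0 * w0 * e0 = cst N ((ℓ : Qb) ^ r) * f := by
    rw [hfdef]
    linear_combination (a0 * w0 * e0) * ez1 + (a1' * w0 * e0) * ev - (a1' * e1) * ez0
  obtain ⟨g0, hg0, g1, hg1, eg⟩ := hB r f (-(a0 * w0 * e0)) (a1' * e1) hf (hW.Lsec_neg hs0) hs1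
    (neg_mem hs0E') hs1E (by rw [← ef]; ring)
  -- the global section
  set S : FK N := cst N cB * (a1' * e1) - cst N ((ℓ : Qb) ^ r) * g1 with hSdef
  have hcB1 : cst N cB ∈ chartRing N ℓ A ⊤ 1 := cst_mem_chartRing N ℓ A ⊤ 1 hcBA trivial
  have hcB0' : cst N cB ∈ chartRing N ℓ A ⊤ 0 := cst_mem_chartRing N ℓ A ⊤ 0 hcBA trivial
  have hL1 : cst N ((ℓ : Qb) ^ r) ∈ chartRing N ℓ A ⊤ 1 := cst_mem_chartRing N ℓ A ⊤ 1 hℓA trivial
  have hL0 : cst N ((ℓ : Qb) ^ r) ∈ chartRing N ℓ A ⊤ 0 := cst_mem_chartRing N ℓ A ⊤ 0 hℓA trivial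
  have hS1 : S ∈ Lsec N A 1 D :=
    hW.Lsec_sub (ring_mul_Lsec hW hC hcB1 hs1) (ring_mul_Lsec hW hC hL1 hg1)
  have eS : S = cst N cB * (a0 * w0 * e0) + cst N ((ℓ : Qb) ^ r) * g0 := by
    rw [hSdef]
    linear_combination (cst N cB) * ef + (cst N ((ℓ : Qb) ^ r)) * eg
  have hS0 : S ∈ Lsec N A 0 D := by
    rw [eS]
    exact hW.Lsec_add (ring_mul_Lsec hW hC hcB0' hs0) (ring_mul_Lsec hW hC hL0 hg0)
  have hSne : S ≠ 0 := by
    intro hS
    apply hr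
    -- `a0 w0 e0` is a unit of `W`
    have ua0 := oneUnit_unit hW hC (chartNil_subset_chartMax hA hr1 (chartNil_mono_level le_top ha0N))
    have uw0 := oneUnit_unit hW hC (chartNil_subset_chartMax hA hr1 (chartNil_mono_level le_top hw0N))
    have ue0 := hW.TrivSec_unit he0
    have hs0ne : a0 * w0 * e0 ≠ 0 := mul_ne_zero (mul_ne_zero ua0.1 uw0.1) ue0.1
    have hs0inv : (a0 * w0 * e0)⁻¹ ∈ W := by
      rw [mul_inv, mul_inv]
      exact W.mul_mem _ _ (W.mul_mem _ _ ua0.2.2.1 uw0.2.2.1) ue0.2.2.1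
    have hLne : cst N ((ℓ : Qb) ^ r) ≠ 0 := cst_ne_zero N hℓ0
    have e1' : cst N cB * (a0 * w0 * e0) = -(cst N ((ℓ : Qb) ^ r) * g0) := by
      linear_combination hS - eS
    have key : cst N (cB * ((ℓ : Qb) ^ r)⁻¹) = -(g0 * (a0 * w0 * e0)⁻¹) := by
      have hinv' : cst N (((ℓ : Qb) ^ r)⁻¹) = (cst N ((ℓ : Qb) ^ r))⁻¹ := map_inv₀ _ _
      rw [cst_mul, hinv']
      calc cst N cB * (cst N ((ℓ : Qb) ^ r))⁻¹
          = (cst N cB * (a0 * w0 * e0)) * (a0 * w0 * e0)⁻¹ * (cst N ((ℓ : Qb) ^ r))⁻¹ := by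
            rw [mul_assoc (cst N cB), mul_inv_cancel₀ hs0ne, mul_one]
        _ = -(g0 * (a0 * w0 * e0)⁻¹) * (cst N ((ℓ : Qb) ^ r) * (cst N ((ℓ : Qb) ^ r))⁻¹) := by
            rw [e1']; ring
        _ = -(g0 * (a0 * w0 * e0)⁻¹) := by rw [mul_inv_cancel₀ hLne, mul_one]
    have hmemW : cst N (cB * ((ℓ : Qb) ^ r)⁻¹) ∈ W := by
      rw [key]
      exact W.neg_mem _ (W.mul_mem _ _ (hW.Lsec_mem_W hg0) hs0inv)
    exact ⟨cB * ((ℓ : Qb) ^ r)⁻¹, (hW.cst_mem_iff _).mp hmemW, by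
      rw [sub_zero]; field_simp⟩
  have hprin := hPS D (Divisor.mem_degZero.mp D.2) S hSne (ord_ge_of_mem_both hS0 hS1 hSne)
  exact (QuotientAddGroup.eq_zero_iff D).mpr (AddSubgroup.mem_addSubgroupOf.mpr hprin)

/-! ## 3. The assembly -/

/-- Inertia-fixed centres, divisor form. -/
theorem exists_fixed_divisor (hW : IsGauss N A W) (hSC : Stmt_SmallCentres N A)
    (D : Divisor Qb (FK N)) :
    ∃ D' : Divisor Qb (FK N), Divisor.degree D' = Divisor.degree D ∧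
      (∀ s ∈ A.inertiaSubgroupIn ℚ, sgal N s • D' = D') ∧ SmallDiv N A (D - D') := by
  induction D using Finsupp.induction with
  | zero => exact ⟨0, rfl, fun s _ => smul_zero _, by simpa using hW.smallDiv_zero⟩
  | single_add P n D _ _ ih =>
    obtain ⟨D', hdeg, hfix, hsmall⟩ := ih
    obtain ⟨Q, hQdeg, hQfix, hQsmall⟩ := hSC P
    refine ⟨Finsupp.single Q n + D', ?_, ?_, ?_⟩
    · rw [map_add, map_add, hdeg, Divisor.degree_single, Divisor.degree_single, hQdeg]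
    · intro s hs
      rw [smul_add, SemilinearAut.smul_single, hQfix s hs, hfix s hs]
    · have e : Finsupp.single P n + D - (Finsupp.single Q n + D')
          = n • (Finsupp.single P 1 - Finsupp.single Q 1) + (D - D') := by
        rw [smul_sub, Finsupp.smul_single_one, Finsupp.smul_single_one]; abel
      rw [e]
      exact hW.smallDiv_add (hW.smallDiv_zsmul hQsmall n) hsmall

/-- The subgroup of small classes. -/
def smallSubgroup (hW : IsGauss N A W) : AddSubgroup (JZero N) where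
  carrier := smallClasses N A
  zero_mem' := ⟨0, rfl, hW.smallDiv_zero⟩
  add_mem' := by
    rintro x y ⟨D, rfl, hD⟩ ⟨D', rfl, hD'⟩
    exact ⟨D + D', rfl, hW.smallDiv_add hD hD'⟩
  neg_mem' := by
    rintro x ⟨D, rfl, hD⟩
    exact ⟨-D, rfl, smallDiv_neg hD⟩

theorem mem_smallSubgroup (hW : IsGauss N A W) (x : JZero N) :
    x ∈ smallSubgroup hW ↔ x ∈ smallClasses N A := Iff.rfl

end Asm

/-- **ASSEMBLY of CORE-C**: the leaves give the truncated coordinates. -/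
theorem coreAssembly (N : ℕ) [NeZero N] (ℓ : ℕ) [Fact ℓ.Prime] (A : ValuationSubring Qb) :
    Stmt_CoreAssembly N ℓ A := by
  intro hA hCech hGauss hC hSC hBT hPS
  obtain ⟨g, η, F, hCe⟩ := exists_isCech hCech
  obtain ⟨W, hW1, hW2, hW3⟩ := hGauss
  have hW : IsGauss N A W := ⟨hW1, hW2, hW3⟩
  have key : ∀ x : JZero N, x ∈ smallClasses N A → ∃ E : IntermediateField ℚ Qb,
      FiniteDimensional ℚ E ∧ ∀ r : ℕ, ∃ b : Fin g → Qb, IsCoord N ℓ A η r x b ∧ ∀ i, b i ∈ E :=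
    fun x hx => exists_coord hA hW hC hCe hx
  choose! E hE bb hbb using key
  obtain ⟨β, hβ0, hβ1⟩ : ∃ β : ℕ → JZero N → Fin g → Qb, (∀ x, β 0 x = 0) ∧
      (∀ r, 1 ≤ r → ∀ x, β r x = bb x r) :=
    ⟨fun r x => if r = 0 then 0 else bb x r, fun x => if_pos rfl,
      fun r hr x => if_neg (by omega)⟩
  have hstab : ∀ s ∈ A.decompositionSubgroup ℚ, ∀ x ∈ smallClasses N A,
      s • x ∈ smallClasses N A := by
    rintro s hs x ⟨D, rfl, hD⟩
    exact ⟨SemilinearAut.degZeroSMulHom (sgal N s) D, rfl, smallDiv_smul hs hD⟩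
  refine ⟨g, smallSubgroup hW, F, β, hstab, ?_, ?_, ?_, ?_, ?_, ?_, ?_⟩
  · -- (nil)
    intro r x hx i
    rcases Nat.eq_zero_or_pos r with rfl | hr
    · rw [hβ0 x]; exact vs_zero_mem_nonunits A
    · rw [hβ1 r hr x]
      obtain ⟨n, hb⟩ := (hbb x hx r).1.nilVec
      exact mem_nonunits_of_cong_pow hA (hb i).1 hr (hb i).2
  · -- (compat)
    intro r x hx i
    rw [hβ1 (r + 1) (by omega) x]
    rcases Nat.eq_zero_or_pos r with rfl | hr
    · rw [hβ0 x]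
      exact ⟨bb x (0 + 1) i, (hbb x hx (0 + 1)).1.mem i, by simp⟩
    · rw [hβ1 r hr x]
      exact IsCoord.unique hA hW hC hCe ((hbb x hx (r + 1)).1.mono (Nat.le_succ r))
        (hbb x hx r).1 i
  · -- (eqv)
    intro r s hs x hx i
    have hsx : s • x ∈ smallClasses N A := hstab s hs x hx
    rcases Nat.eq_zero_or_pos r with rfl | hr
    · rw [hβ0, hβ0]
      simpa using cong_refl (A := A) (ℓ := ℓ) (r := 0) (0 : Qb)
    · rw [hβ1 r hr, hβ1 r hr]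
      exact IsCoord.unique hA hW hC hCe (hbb (s • x) hsx r).1 ((hbb x hx r).1.galois hs) i
  · -- (law)
    intro r n x hx y hy hxn hyn i
    have hxy : x + y ∈ smallClasses N A := (smallSubgroup hW).add_mem hx hy
    rcases Nat.eq_zero_or_pos r with rfl | hr
    · rw [hβ0, hβ0, hβ0]
      have h1 : (1 : FK N) - 1 ∈ chartNil N ℓ A ⊤ n 0 0 :=
        ⟨0, A.zero_mem, trivial, ⟨(0 : Qb) ^ n, pow_mem A.zero_mem n, by simp⟩, 0,
          Subring.zero_mem _, by simp⟩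
      have h1' : (1 : FK N) - 1 ∈ chartNil N ℓ A ⊤ n 0 1 :=
        ⟨0, A.zero_mem, trivial, ⟨(0 : Qb) ^ n, pow_mem A.zero_mem n, by simp⟩, 0,
          Subring.zero_mem _, by simp⟩
      have hnil : NilVec ℓ A n 0 (0 : Fin g → Qb) := fun i =>
        ⟨A.zero_mem, (0 : Qb) ^ n, pow_mem A.zero_mem n, by simp⟩
      exact hCe.law 0 n 1 1 0 0 0 h1 h1' hnil hnil hnil
        ⟨0, Subring.zero_mem _, by rw [normalForm_one_one, unitPart_zero]; simp⟩ i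
    · simp only [hβ1 r hr] at hxn hyn ⊢
      rcases Nat.eq_zero_or_pos n with rfl | hn
      · exfalso
        have h1 : (1 : Qb) ∈ A.nonunits :=
          mem_nonunits_of_cong_pow hA A.one_mem hr (n := 1) (by simpa using hxn i)
        rw [ValuationSubring.mem_nonunits_iff, map_one] at h1
        exact lt_irrefl _ h1
      · obtain ⟨b'', hb'', hlaw⟩ := IsCoord.add hA hW hC hCe hn (hbb x hx r).1 (hbb y hy r).1
          (fun i => ⟨(hbb x hx r).1.mem i, hxn i⟩) (fun i => ⟨(hbb y hy r).1.mem i, hyn i⟩)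
        exact (IsCoord.unique hA hW hC hCe (hbb (x + y) hxy r).1 hb'' i).trans (hlaw i)
  · -- (inj)
    intro x hx y hy h
    have hz : x - y ∈ smallClasses N A := (smallSubgroup hW).sub_mem hx hy
    have h0 := eq_zero_of_coord_zero hA hW hC hCe hBT hPS hz (fun r hr =>
      IsCoord.sub hA hW hC hCe (hbb x hx r).1 (hbb y hy r).1 (fun i => by
        have h1 := h r i
        rwa [hβ1 r hr, hβ1 r hr] at h1))
    exact sub_eq_zero.mp h0
  · -- (rat)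
    intro x hx
    refine ⟨E x, hE x hx, fun r i => ?_⟩
    rcases Nat.eq_zero_or_pos r with rfl | hr
    · rw [hβ0]; exact (E x).zero_mem
    · rw [hβ1 r hr]; exact (hbb x hx r).2 i
  · -- (cen)
    intro x
    obtain ⟨D, rfl⟩ := Pic0.mk_surjective x
    obtain ⟨D', hdeg, hfix, hsmall⟩ := exists_fixed_divisor hW hSC (D : Divisor Qb (FK N))
    have hD' : D' ∈ Divisor.degZero (K := Qb) (F := FK N) := by
      rw [Divisor.mem_degZero, hdeg]; exact Divisor.mem_degZero.mp D.2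
    obtain ⟨D'', rfl⟩ : ∃ D'' : Divisor.degZero (K := Qb) (F := FK N),
        (D'' : Divisor Qb (FK N)) = D' := ⟨⟨D', hD'⟩, rfl⟩
    have hmem : Pic0.mk D - Pic0.mk D'' ∈ smallClasses N A :=
      ⟨D - D'', QuotientAddGroup.mk_sub _ D D'', by
        rw [AddSubgroup.coe_sub]; exact hsmall⟩
    refine ⟨Pic0.mk D'', fun s hs => ?_, hmem⟩
    show sgal N s • Pic0.mk D'' = _
    rw [SemilinearAut.pic0_smul_mk]
    exact congrArg Pic0.mk (Subtype.ext (hfix s hs))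

end

end Fermat.Agent.S19.helper9190
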