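import Fermat.Agent.S18.helper981_Riemann
import Fermat.Agent.S37.helper126_TorsionCore
import Fermat.Agent.S37.helper6835_NSData

/-!
# S19-CALG-COVER (backup copy, helper9726): the adapted cover by POLE LOWERING

Setting (S37 place vocabulary): `K ⊆ F` generic fibre, `k ⊆ Fk` special fibre,
`O : ValuationSubring F` the Gauss ring, `red : O →+* Fk`, `sp : Place K F → Place k Fk` with the
conservation law `helper6835.Cons O red sp`.

Data: places `P i` (`i : Fin g`) and `Pinf` with pairwise distinct specialisations; functions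
`e i ∈ O` with (at most) a simple pole at `P i`, regular away from `Pinf, P i`, whose reduction has
a pole at `sp (P i)`; and "pole lowering" functions `h i J ∈ O` (`J ≥ 2`), regular away from the
`P i'`, with at most simple poles at the `P i'`, `i' ≠ i`, a pole of order `≤ J` at `P i` and
reduction of pole order `≥ J` at `sp (P i)`.

Main result `cover_E`: every Gauss-integral function `f` with poles only at `Pinf` and the `P i`
is `b₁ + b₂ + ∑ a i • e i` with `b₁` Gauss-integral with poles only at `Pinf`, `b₂` Gauss-integral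
with poles only at the `P i`, and `a i` constants in `O`.

The proof is constructive ("pole lowering"): no Nakayama, no freeness or finite generation of the
lattices `L(D) ∩ O`, no value-group hypothesis; the only tool is the conservation law, which makes
the value at `P i` of a Gauss-integral function regular on the tube of `sp (P i)` Gauss-integral.
-/

set_option autoImplicit false

noncomputable section

open AlgebraicCurve WithZero Module

namespace Fermat.Agent.S19.helper9726

open Fermat.Agent.S37.helper6835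

section Local

variable {K F : Type*} [Field K] [Field F] [Algebra K F]

theorem val_le_one_iff_mem (v : Place K F) {f : F} :
    v.adicValuation f ≤ 1 ↔ f ∈ v.toValuationSubring := by
  constructor
  · intro h
    rcases (v.adicValuation_le_one_iff).mp h with h0 | h0
    · rw [h0]; exact zero_mem _
    · exact mem_of_ord_nonneg v h0
  · exact v.adicValuation_le_one_of_mem

theorem ord_nonneg_of_val_le_one (v : Place K F) {f : F} (h : v.adicValuation f ≤ 1) :
    0 ≤ v.ord f :=
  ord_nonneg_of_mem v ((val_le_one_iff_mem v).mp h)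

theorem val_eq_exp_of_ord_eq (v : Place K F) {f : F} (hf : f ≠ 0) {n : ℤ} (h : v.ord f = n) :
    v.adicValuation f = exp (-n) := by
  rw [v.adicValuation_eq_exp_neg_ord hf, h]

theorem val_const_mul_le (v : Place K F) (a : K) (f : F) :
    v.adicValuation (algebraMap K F a * f) ≤ v.adicValuation f := by
  rw [map_mul]
  exact mul_le_of_le_one_left' (v.adicValuation_algebraMap_le_one a)

theorem val_sub_le_max (v : Place K F) (f g : F) :
    v.adicValuation (f - g) ≤ max (v.adicValuation f) (v.adicValuation g) :=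
  Valuation.map_sub _ _ _

theorem val_add_le_max (v : Place K F) (f g : F) :
    v.adicValuation (f + g) ≤ max (v.adicValuation f) (v.adicValuation g) :=
  Valuation.map_add _ _ _

theorem val_sum_le {ι : Type*} (v : Place K F) (s : Finset ι) (f : ι → F) {c : ℤᵐ⁰}
    (h : ∀ i ∈ s, v.adicValuation (f i) ≤ c) : v.adicValuation (∑ i ∈ s, f i) ≤ c := by
  classical
  induction s using Finset.induction_on with
  | empty => simp
  | insert a s ha ih =>
    rw [Finset.sum_insert ha]
    exact (val_add_le_max v _ _).trans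
      (max_le (h a (Finset.mem_insert_self a s))
        (ih fun i hi => h i (Finset.mem_insert_of_mem hi)))

end Local

section Tube

variable {K F k Fk : Type*} [Field K] [Field F] [Algebra K F] [Field k] [Field Fk] [Algebra k Fk]
variable {O : ValuationSubring F} {red : O →+* Fk} {sp : Place K F → Place k Fk}
variable [HasPrincipalDivisors K F]

/-- **Tube analysis.**  If `y ∈ O` is regular on the tube of `s = sp P0` except possibly at `P0`,
has a pole of order at most `J` at `P0` and its reduction has a pole of order at least `J` at `s`,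
then `y` has a pole of exact order `J` at `P0` and is a unit at the other places of the tube. -/
theorem tube_exact (hC : Cons O red sp) (y : O) (P0 : Place K F) (J : ℤ)
    (hreg : ∀ Q, sp Q = sp P0 → Q ≠ P0 → Q.adicValuation (y : F) ≤ 1)
    (hpole : P0.adicValuation (y : F) ≤ exp J)
    (hred0 : red y ≠ 0) (hred : (sp P0).ord (red y) ≤ -J) :
    P0.ord (y : F) = -J ∧ ∀ Q, sp Q = sp P0 → Q ≠ P0 → Q.ord (y : F) = 0 := by
  classical
  have hy0 : (y : F) ≠ 0 := coe_ne_zero_of_red_ne_zero hred0
  obtain ⟨D, hD, -⟩ := HasPrincipalDivisors.exists_divisor (K := K) (y : F) hy0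
  have hcons := hC y hred0 D hD (sp P0)
  set D' : Divisor K F := D - Finsupp.single P0 (D P0) with hD'
  have hD'P0 : D' P0 = 0 := by
    rw [hD', Finsupp.sub_apply, Finsupp.single_eq_same, sub_self]
  have hD'Q : ∀ Q, Q ≠ P0 → D' Q = D Q := by
    intro Q hQ
    rw [hD', Finsupp.sub_apply, Finsupp.single_apply, if_neg (Ne.symm hQ), sub_zero]
  have hnn : ∀ Q, sp Q = sp P0 → 0 ≤ D' Q := by
    intro Q hQ
    by_cases hQP : Q = P0
    · rw [hQP, hD'P0]
    · rw [hD'Q Q hQP, hD Q]
      exact ord_nonneg_of_val_le_one Q (hreg Q hQ hQP)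
  have hsplit : Finsupp.mapDomain sp D (sp P0) = Finsupp.mapDomain sp D' (sp P0) + D P0 := by
    have h1 : D = D' + Finsupp.single P0 (D P0) := by rw [hD']; abel
    conv_lhs => rw [h1]
    rw [Finsupp.mapDomain_add, Finsupp.mapDomain_single, Finsupp.add_apply,
      Finsupp.single_eq_same]
  have h0 : 0 ≤ Finsupp.mapDomain sp D' (sp P0) :=
    Fermat.Agent.S37.helper126.mapDomain_apply_nonneg sp D' (sp P0) hnn
  have hlow : -J ≤ D P0 := by
    rw [hD P0]
    have := (P0.adicValuation_le_exp_iff).mp hpole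
    rcases this with h | h
    · exact absurd h hy0
    · exact h
  have hP0 : D P0 = -J := by
    have : Finsupp.mapDomain sp D (sp P0) ≤ -J := hcons ▸ hred
    omega
  have hzero : Finsupp.mapDomain sp D' (sp P0) = 0 := by
    have : Finsupp.mapDomain sp D (sp P0) ≤ -J := hcons ▸ hred
    omega
  refine ⟨by rw [← hD P0, hP0], fun Q hQ hQP => ?_⟩
  have h1 := Fermat.Agent.S37.helper126.le_mapDomain_apply sp D' (sp P0) hnn Q hQ
  have h2 := hnn Q hQ
  rw [hD'Q Q hQP, hD Q] at h1 h2
  omega

/-- **Value lemma.**  A Gauss-integral function regular on the tube of `sp P0` has a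
Gauss-integral value at `P0`. -/
theorem exists_value (hC : Cons O red sp) (hker : ∀ y : O, ¬ IsUnit y → red y = 0)
    (q : O) (P0 : Place K F) (hP0 : P0.deg = 1)
    (hreg : ∀ Q, sp Q = sp P0 → Q.adicValuation (q : F) ≤ 1) :
    ∃ a : K, algebraMap K F a ∈ O ∧ P0.adicValuation ((q : F) - algebraMap K F a) < 1 := by
  have hmem : (q : F) ∈ P0.toValuationSubring := (val_le_one_iff_mem P0).mp (hreg P0 rfl)
  obtain ⟨a, ha⟩ := exists_sub_algebraMap_ord_pos P0 hP0 hmem
  have haO : algebraMap K F a ∈ O :=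
    hC.algebraMap_mem_of_ord_pos hker q (sp P0)
      (fun P hP => ord_nonneg_of_val_le_one P (hreg P hP)) P0 rfl a ha
  refine ⟨a, haO, ?_⟩
  rcases ha with ha | ha
  · rw [ha, map_zero]; exact zero_lt_one
  · exact adicValuation_lt_one_of_ord_pos P0 ha

/-- **One lowering step.**  If `f ∈ O` and `h ∈ O` are regular on the tube of `sp P0` except at
`P0`, both have a pole of order at most `J` at `P0`, and the reduction of `h` has a pole of order
at least `J` at `sp P0`, then for a Gauss-integral constant `a` the function `f - a h` has a pole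
of order at most `J - 1` at `P0`. -/
theorem lower_step (hC : Cons O red sp) (hker : ∀ y : O, ¬ IsUnit y → red y = 0)
    (P0 : Place K F) (hP0 : P0.deg = 1) (J : ℤ) (f : F) (hfO : f ∈ O) (h : O)
    (hfreg : ∀ Q, sp Q = sp P0 → Q ≠ P0 → Q.adicValuation f ≤ 1)
    (hfpole : P0.adicValuation f ≤ exp J)
    (hhreg : ∀ Q, sp Q = sp P0 → Q ≠ P0 → Q.adicValuation (h : F) ≤ 1)
    (hhpole : P0.adicValuation (h : F) ≤ exp J)
    (hred0 : red h ≠ 0) (hred : (sp P0).ord (red h) ≤ -J) :
    ∃ a : K, algebraMap K F a ∈ O ∧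
      P0.adicValuation (f - algebraMap K F a * (h : F)) ≤ exp (J - 1) := by
  have hh0 : (h : F) ≠ 0 := coe_ne_zero_of_red_ne_zero hred0
  obtain ⟨hexact, hunit⟩ := tube_exact hC h P0 J hhreg hhpole hred0 hred
  have hhU : IsUnit h := by
    by_contra hnu
    exact hred0 (hker h hnu)
  obtain ⟨u, hu⟩ := hhU
  have hinvO : (h : F)⁻¹ ∈ O := by
    have h1 : (h : F) * (((u⁻¹ : Oˣ) : O) : F) = 1 := by
      have := congrArg (Subtype.val) (show h * ((u⁻¹ : Oˣ) : O) = 1 by rw [← hu]; simp)
      simpa using this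
    have h2 : (h : F)⁻¹ = (((u⁻¹ : Oˣ) : O) : F) := (eq_inv_of_mul_eq_one_right h1).symm
    rw [h2]
    exact ((u⁻¹ : Oˣ) : O).2
  set q : O := ⟨f * (h : F)⁻¹, O.mul_mem _ _ hfO hinvO⟩ with hq
  have hqcoe : (q : F) = f * (h : F)⁻¹ := rfl
  have hvalP0 : P0.adicValuation (h : F) = exp J := by
    have := val_eq_exp_of_ord_eq P0 hh0 hexact
    rwa [neg_neg] at this
  have hqreg : ∀ Q, sp Q = sp P0 → Q.adicValuation (q : F) ≤ 1 := by
    intro Q hQ
    rw [hqcoe, map_mul, map_inv₀]
    by_cases hQP : Q = P0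
    · rw [hQP, hvalP0]
      have hne : (exp J : ℤᵐ⁰) ≠ 0 := exp_ne_zero
      rw [← div_eq_mul_inv, div_le_one₀ (zero_lt_iff.mpr hne)]
      exact hfpole
    · have h1 : Q.adicValuation (h : F) = 1 := by
        have := val_eq_exp_of_ord_eq Q hh0 (hunit Q hQ hQP)
        simpa using this
      rw [h1, inv_one, mul_one]
      exact hfreg Q hQ hQP
  obtain ⟨a, haO, hlt⟩ := exists_value hC hker q P0 hP0 hqreg
  refine ⟨a, haO, ?_⟩
  have hfac : f - algebraMap K F a * (h : F) = (h : F) * ((q : F) - algebraMap K F a) := by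
    rw [hqcoe]
    field_simp
  rw [hfac, map_mul, hvalP0]
  by_cases hz : (q : F) - algebraMap K F a = 0
  · rw [hz, map_zero, mul_zero]; exact zero_le
  · have hle : P0.adicValuation ((q : F) - algebraMap K F a) ≤ exp (-1 : ℤ) := by
      rw [P0.adicValuation_eq_exp_neg_ord hz] at hlt ⊢
      rw [← exp_zero, exp_lt_exp] at hlt
      rw [exp_le_exp]
      omega
    calc exp J * P0.adicValuation ((q : F) - algebraMap K F a)
        ≤ exp J * exp (-1 : ℤ) := by gcongr
      _ = exp (J - 1) := by rw [← exp_add]; rfl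

end Tube

section Cover

variable {K F k Fk : Type*} [Field K] [Field F] [Algebra K F] [Field k] [Field Fk] [Algebra k Fk]
variable {O : ValuationSubring F} {red : O →+* Fk} {sp : Place K F → Place k Fk}
variable {g : ℕ}

/-- `e` is a cover function at `P i`: Gauss-integral, regular away from `Pinf` and `P i`, with at
most a simple pole at `P i`, whose reduction has a pole at `sp (P i)`. -/
structure IsCoverFn (red : O →+* Fk) (sp : Place K F → Place k Fk) (P : Fin g → Place K F)
    (Pinf : Place K F) (i : Fin g) (e : O) : Prop where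
  reg : ∀ Q, Q ≠ Pinf → Q ≠ P i → Q.adicValuation (e : F) ≤ 1
  pole : (P i).adicValuation (e : F) ≤ exp 1
  red_ne : red e ≠ 0
  red_pole : (sp (P i)).ord (red e) ≤ -1

/-- `h` lowers poles of order `J` at `P i`: Gauss-integral, regular away from the `P i'`, with at
most simple poles at the `P i'`, `i' ≠ i`, a pole of order at most `J` at `P i`, and reduction of
pole order at least `J` at `sp (P i)`. -/
structure IsLowering (red : O →+* Fk) (sp : Place K F → Place k Fk) (P : Fin g → Place K F)
    (i : Fin g) (J : ℤ) (h : O) : Prop where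
  reg : ∀ Q, (∀ i', Q ≠ P i') → Q.adicValuation (h : F) ≤ 1
  simple : ∀ i', i' ≠ i → (P i').adicValuation (h : F) ≤ exp 1
  pole : (P i).adicValuation (h : F) ≤ exp J
  red_ne : red h ≠ 0
  red_pole : (sp (P i)).ord (red h) ≤ -J

/-- Pole bound: pole order at most `m i + 1` at `P i`, regular away from `Pinf` and the `P i`. -/
def PoleBd (P : Fin g → Place K F) (Pinf : Place K F) (m : Fin g → ℕ) (f : F) : Prop :=
  (∀ i, (P i).adicValuation f ≤ exp ((m i : ℤ) + 1)) ∧
    ∀ Q, Q ≠ Pinf → (∀ i, Q ≠ P i) → Q.adicValuation f ≤ 1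

theorem sum_update_pred (m : Fin g → ℕ) (i : Fin g) (hi : 1 ≤ m i) :
    ∑ j, Function.update m i (m i - 1) j + 1 = ∑ j, m j := by
  classical
  rw [← Finset.add_sum_erase Finset.univ _ (Finset.mem_univ i),
    ← Finset.add_sum_erase Finset.univ m (Finset.mem_univ i), Function.update_self]
  have : ∑ j ∈ Finset.univ.erase i, Function.update m i (m i - 1) j
      = ∑ j ∈ Finset.univ.erase i, m j := by
    refine Finset.sum_congr rfl fun j hj => ?_
    rw [Function.update_of_ne (Finset.ne_of_mem_erase hj)]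
  rw [this]
  omega

variable [HasPrincipalDivisors K F]

/-- The conclusion of the cover theorem for `f`. -/
def CoverDecomp (O : ValuationSubring F) (P : Fin g → Place K F) (Pinf : Place K F)
    (e : Fin g → O) (f : F) : Prop :=
  ∃ (b1 b2 : F) (a : Fin g → K), b1 ∈ O ∧ (∀ Q, Q ≠ Pinf → Q.adicValuation b1 ≤ 1) ∧
    b2 ∈ O ∧ (∀ Q, (∀ i, Q ≠ P i) → Q.adicValuation b2 ≤ 1) ∧
    (∀ i, algebraMap K F (a i) ∈ O) ∧
    f = b1 + b2 + ∑ i, algebraMap K F (a i) * (e i : F)

/-- Base case: at most simple poles at the `P i`. -/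
theorem cover_base (hC : Cons O red sp) (hker : ∀ y : O, ¬ IsUnit y → red y = 0)
    (P : Fin g → Place K F) (Pinf : Place K F) (hdeg : ∀ i, (P i).deg = 1)
    (hinj : Function.Injective fun i => sp (P i)) (hinf : ∀ i, sp Pinf ≠ sp (P i))
    (e : Fin g → O) (he : ∀ i, IsCoverFn red sp P Pinf i (e i))
    (f : F) (hfO : f ∈ O) (hf : PoleBd P Pinf (fun _ => 0) f) :
    CoverDecomp O P Pinf e f := by
  classical
  have hPne : ∀ i j, i ≠ j → P i ≠ P j := fun i j hij h =>
    hij (hinj (by simp only [h]))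
  have hPinf : ∀ i, P i ≠ Pinf := fun i h => hinf i (by rw [h])
  have hstep : ∀ i, ∃ a : K, algebraMap K F a ∈ O ∧
      (P i).adicValuation (f - algebraMap K F a * (e i : F)) ≤ 1 := by
    intro i
    have hfreg : ∀ Q, sp Q = sp (P i) → Q ≠ P i → Q.adicValuation f ≤ 1 := by
      intro Q hQ hQP
      refine hf.2 Q (fun h => hinf i (by rw [← h, hQ])) fun j h => ?_
      have : j = i := hinj (by simp only [← h, hQ])
      exact hQP (by rw [h, this])
    have hfpole : (P i).adicValuation f ≤ exp (1 : ℤ) := by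
      have := hf.1 i
      simpa using this
    have hereg : ∀ Q, sp Q = sp (P i) → Q ≠ P i → Q.adicValuation ((e i : O) : F) ≤ 1 :=
      fun Q hQ hQP => (he i).reg Q (fun h => hinf i (by rw [← h, hQ])) hQP
    obtain ⟨a, haO, ha⟩ := lower_step hC hker (P i) (hdeg i) 1 f hfO (e i) hfreg hfpole hereg
      (he i).pole (he i).red_ne (he i).red_pole
    refine ⟨a, haO, ?_⟩
    simpa using ha
  choose a haO ha using hstep
  have hb1 : f - ∑ i, algebraMap K F (a i) * (e i : F) ∈ O :=
    sub_mem hfO (sum_mem fun i _ => O.mul_mem _ _ (haO i) (e i).2)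
  refine ⟨f - ∑ i, algebraMap K F (a i) * (e i : F), 0, a, hb1, ?_, O.zero_mem,
    fun Q _ => by simp, haO, by ring⟩
  intro Q hQinf
  by_cases hQ : ∃ i, Q = P i
  · obtain ⟨i, rfl⟩ := hQ
    have hsplit : f - ∑ j, algebraMap K F (a j) * (e j : F)
        = (f - algebraMap K F (a i) * (e i : F))
          - ∑ j ∈ Finset.univ.erase i, algebraMap K F (a j) * (e j : F) := by
      rw [← Finset.add_sum_erase Finset.univ _ (Finset.mem_univ i)]
      ring
    rw [hsplit]
    refine (val_sub_le_max _ _ _).trans (max_le (ha i) (val_sum_le _ _ _ fun j hj => ?_))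
    exact (val_const_mul_le _ _ _).trans
      ((he j).reg (P i) hQinf (hPne i j (Finset.ne_of_mem_erase hj).symm))
  · push Not at hQ
    refine (val_sub_le_max _ _ _).trans (max_le (hf.2 Q hQinf hQ) (val_sum_le _ _ _ fun j _ => ?_))
    exact (val_const_mul_le _ _ _).trans ((he j).reg Q hQinf (hQ j))

/-- **The cover theorem, graded form.**  Induction on the total excess pole order. -/
theorem cover_aux (hC : Cons O red sp) (hker : ∀ y : O, ¬ IsUnit y → red y = 0)
    (P : Fin g → Place K F) (Pinf : Place K F) (hdeg : ∀ i, (P i).deg = 1)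
    (hinj : Function.Injective fun i => sp (P i)) (hinf : ∀ i, sp Pinf ≠ sp (P i))
    (e : Fin g → O) (he : ∀ i, IsCoverFn red sp P Pinf i (e i))
    (hlow : ∀ (i : Fin g) (J : ℕ), 2 ≤ J → ∃ h : O, IsLowering red sp P i (J : ℤ) h) :
    ∀ (N : ℕ) (m : Fin g → ℕ), ∑ i, m i = N → ∀ f : F, f ∈ O → PoleBd P Pinf m f →
      CoverDecomp O P Pinf e f := by
  classical
  have hPne : ∀ i j, i ≠ j → P i ≠ P j := fun i j hij h =>
    hij (hinj (by simp only [h]))
  intro N
  induction N with
  | zero =>
    intro m hm f hfO hf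
    have hm0 : m = fun _ => 0 := by
      funext i
      exact (Finset.sum_eq_zero_iff.mp hm) i (Finset.mem_univ i)
    subst hm0
    exact cover_base hC hker P Pinf hdeg hinj hinf e he f hfO hf
  | succ N ih =>
    intro m hm f hfO hf
    obtain ⟨i, hi⟩ : ∃ i, 1 ≤ m i := by
      by_contra hcon
      push Not at hcon
      have : ∑ i, m i = 0 := Finset.sum_eq_zero fun i _ => by have := hcon i; omega
      omega
    obtain ⟨h, hh⟩ := hlow i (m i + 1) (by omega)
    have hfreg : ∀ Q, sp Q = sp (P i) → Q ≠ P i → Q.adicValuation f ≤ 1 := by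
      intro Q hQ hQP
      refine hf.2 Q (fun h => hinf i (by rw [← h, hQ])) fun j h => ?_
      have : j = i := hinj (by simp only [← h, hQ])
      exact hQP (by rw [h, this])
    have hhreg : ∀ Q, sp Q = sp (P i) → Q ≠ P i → Q.adicValuation (h : F) ≤ 1 := by
      intro Q hQ hQP
      refine hh.reg Q fun j h => ?_
      have : j = i := hinj (by simp only [← h, hQ])
      exact hQP (by rw [h, this])
    have hfpole : (P i).adicValuation f ≤ exp (((m i + 1 : ℕ) : ℤ)) := by
      have := hf.1 i
      simpa using this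
    obtain ⟨a, haO, ha⟩ := lower_step hC hker (P i) (hdeg i) ((m i + 1 : ℕ) : ℤ) f hfO h hfreg
      hfpole hhreg hh.pole hh.red_ne hh.red_pole
    have hahO : algebraMap K F a * (h : F) ∈ O := O.mul_mem _ _ haO h.2
    have hf'O : f - algebraMap K F a * (h : F) ∈ O := sub_mem hfO hahO
    have hsum : ∑ j, Function.update m i (m i - 1) j = N := by
      have := sum_update_pred m i hi
      omega
    have hbd : PoleBd P Pinf (Function.update m i (m i - 1)) (f - algebraMap K F a * (h : F)) := by
      refine ⟨fun j => ?_, fun Q hQinf hQ => ?_⟩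
      · by_cases hj : j = i
        · subst hj
          rw [Function.update_self]
          have h1 : (((m j + 1 : ℕ) : ℤ)) - 1 = ((m j - 1 : ℕ) : ℤ) + 1 := by
            push_cast [Nat.cast_sub hi]
            ring
          rw [← h1]
          exact ha
        · rw [Function.update_of_ne hj]
          refine (val_sub_le_max _ _ _).trans (max_le (hf.1 j) ?_)
          refine (val_const_mul_le _ _ _).trans ((hh.simple j hj).trans ?_)
          rw [exp_le_exp]
          omega
      · exact (val_sub_le_max _ _ _).trans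
          (max_le (hf.2 Q hQinf hQ) ((val_const_mul_le _ _ _).trans (hh.reg Q hQ)))
    obtain ⟨b1, b2, c, hb1O, hb1, hb2O, hb2, hc, hdecomp⟩ :=
      ih (Function.update m i (m i - 1)) hsum _ hf'O hbd
    refine ⟨b1, b2 + algebraMap K F a * (h : F), c, hb1O, hb1, O.add_mem _ _ hb2O hahO, ?_, hc, ?_⟩
    · intro Q hQ
      exact (val_add_le_max _ _ _).trans
        (max_le (hb2 Q hQ) ((val_const_mul_le _ _ _).trans (hh.reg Q hQ)))
    · rw [add_assoc b1, add_right_comm b2, ← add_assoc b1, ← add_assoc b1, ← hdecomp]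
      ring

/-- **The cover theorem (E), pole-lowering form.**  Every Gauss-integral function regular away
from `Pinf` and the `P i` is `b₁ + b₂ + ∑ aᵢ eᵢ` with `b₁ ∈ O` regular away from `Pinf`,
`b₂ ∈ O` regular away from the `P i`, and Gauss-integral constants `aᵢ`. -/
theorem cover_E (hC : Cons O red sp) (hker : ∀ y : O, ¬ IsUnit y → red y = 0)
    (P : Fin g → Place K F) (Pinf : Place K F) (hdeg : ∀ i, (P i).deg = 1)
    (hinj : Function.Injective fun i => sp (P i)) (hinf : ∀ i, sp Pinf ≠ sp (P i))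
    (e : Fin g → O) (he : ∀ i, IsCoverFn red sp P Pinf i (e i))
    (hlow : ∀ (i : Fin g) (J : ℕ), 2 ≤ J → ∃ h : O, IsLowering red sp P i (J : ℤ) h)
    (f : F) (hfO : f ∈ O)
    (hf : ∀ Q, Q ≠ Pinf → (∀ i, Q ≠ P i) → Q.adicValuation f ≤ 1) :
    CoverDecomp O P Pinf e f := by
  classical
  have hm : ∀ i, ∃ n : ℕ, (P i).adicValuation f ≤ exp ((n : ℤ) + 1) := by
    intro i
    refine ⟨(-(P i).ord f).toNat, ?_⟩
    rw [(P i).adicValuation_le_exp_iff]
    by_cases hf0 : f = 0
    · exact Or.inl hf0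
    · right
      have := Int.self_le_toNat (-(P i).ord f)
      omega
  choose m hm using hm
  exact cover_aux hC hker P Pinf hdeg hinj hinf e he hlow _ m rfl f hfO ⟨hm, hf⟩

end Cover

section Special

variable {K F k Fk : Type*} [Field K] [Field F] [Algebra K F] [Field k] [Field Fk] [Algebra k Fk]
variable {O : ValuationSubring F} {red : O →+* Fk} {sp : Place K F → Place k Fk}
variable {g : ℕ}
variable [HasPrincipalDivisors K F]

/-- Lower bound for the order of the reduction at `sp P0` of a function regular on the tube of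
`sp P0` except for a pole of order at most `J` at `P0`. -/
theorem tube_ord_red_ge (hC : Cons O red sp) (y : O) (P0 : Place K F) (J : ℤ)
    (hreg : ∀ Q, sp Q = sp P0 → Q ≠ P0 → Q.adicValuation (y : F) ≤ 1)
    (hpole : P0.adicValuation (y : F) ≤ exp J) (hred0 : red y ≠ 0) :
    -J ≤ (sp P0).ord (red y) := by
  classical
  have hy0 : (y : F) ≠ 0 := coe_ne_zero_of_red_ne_zero hred0
  obtain ⟨D, hD, -⟩ := HasPrincipalDivisors.exists_divisor (K := K) (y : F) hy0
  have hcons := hC y hred0 D hD (sp P0)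
  set D' : Divisor K F := D - Finsupp.single P0 (D P0) with hD'
  have hD'P0 : D' P0 = 0 := by
    rw [hD', Finsupp.sub_apply, Finsupp.single_eq_same, sub_self]
  have hD'Q : ∀ Q, Q ≠ P0 → D' Q = D Q := by
    intro Q hQ
    rw [hD', Finsupp.sub_apply, Finsupp.single_apply, if_neg (Ne.symm hQ), sub_zero]
  have hnn : ∀ Q, sp Q = sp P0 → 0 ≤ D' Q := by
    intro Q hQ
    by_cases hQP : Q = P0
    · rw [hQP, hD'P0]
    · rw [hD'Q Q hQP, hD Q]
      exact ord_nonneg_of_val_le_one Q (hreg Q hQ hQP)
  have hsplit : Finsupp.mapDomain sp D (sp P0) = Finsupp.mapDomain sp D' (sp P0) + D P0 := by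
    have h1 : D = D' + Finsupp.single P0 (D P0) := by rw [hD']; abel
    conv_lhs => rw [h1]
    rw [Finsupp.mapDomain_add, Finsupp.mapDomain_single, Finsupp.add_apply,
      Finsupp.single_eq_same]
  have h0 : 0 ≤ Finsupp.mapDomain sp D' (sp P0) :=
    Fermat.Agent.S37.helper126.mapDomain_apply_nonneg sp D' (sp P0) hnn
  have hlow : -J ≤ D P0 := by
    rw [hD P0]
    rcases (P0.adicValuation_le_exp_iff).mp hpole with h | h
    · exact absurd h hy0
    · exact h
  rw [← hcons]
  omega

/-- Reductions of Gauss-integral elements of `L(E)` lie in `L_k(sp_* E)` (conservation law; no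
degree hypothesis). -/
theorem red_mem_rr (hC : Cons O red sp) {y : O} (hy : red y ≠ 0) (E : Divisor K F)
    (hE : (y : F) ∈ riemannRochSpace E) :
    red y ∈ riemannRochSpace (Finsupp.mapDomain sp E) := by
  classical
  have hy0 : (y : F) ≠ 0 := coe_ne_zero_of_red_ne_zero hy
  obtain ⟨D, hD, -⟩ := HasPrincipalDivisors.exists_divisor (K := K) (y : F) hy0
  rw [mem_riemannRochSpace_iff]
  intro s
  right
  have hnn : ∀ P, sp P = s → 0 ≤ (D + E) P := by
    intro P _
    rw [Finsupp.add_apply, hD P]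
    rcases (mem_riemannRochSpace_iff.mp hE) P with h | h
    · exact absurd h hy0
    · omega
  have h0 := Fermat.Agent.S37.helper126.mapDomain_apply_nonneg sp (D + E) s hnn
  rw [Finsupp.mapDomain_add, Finsupp.add_apply, hC y hy D hD s] at h0
  omega

/-- **Existence of the pole-lowering functions** from the lattice hypothesis (`LatHyp.lat`
shape) and a non-special reduced divisor `∑ sp (R i)` on the special fibre. -/
theorem exists_lowering (hC : Cons O red sp)
    (hdegK : ∀ P : Place K F, P.deg = 1) (hdegk : ∀ s : Place k Fk, s.deg = 1)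
    (γ : ℤ) (hγ : γ ≤ (g : ℤ))
    (lat : ∀ (E : Divisor K F) (n : ℕ), (n : ℤ) ≤ Divisor.degree E + 1 - γ →
      ∃ u : Fin n → O, (∀ i, (u i : F) ∈ riemannRochSpace E) ∧
        LinearIndependent k (fun i => red (u i)))
    (R : Fin g → Place K F) (hinj : Function.Injective fun i => sp (R i))
    (hNS : ∀ w : Fk, w ≠ 0 → (∀ s, (∀ i, s ≠ sp (R i)) → 0 ≤ s.ord w) →
      (∀ i, -1 ≤ (sp (R i)).ord w) → w ∈ Set.range (algebraMap k Fk))
    (i : Fin g) (J : ℕ) (hJ : 2 ≤ J) : ∃ h : O, IsLowering red sp R i (J : ℤ) h := by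
  classical
  have hRinj : Function.Injective R := fun a b hab => hinj (by simp only [hab])
  set D0 : Divisor K F := ∑ j, Finsupp.single (R j) (1 : ℤ) with hD0
  set D0k : Divisor k Fk := ∑ j, Finsupp.single (sp (R j)) (1 : ℤ) with hD0k
  set E : Divisor K F := D0 + Finsupp.single (R i) ((J : ℤ) - 1) with hE
  set Ek : Divisor k Fk := D0k + Finsupp.single (sp (R i)) ((J : ℤ) - 2) with hEk
  have hdegE : Divisor.degree E = (g : ℤ) + ((J : ℤ) - 1) := by
    rw [hE, map_add, hD0, map_sum, Divisor.degree_single, hdegK]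
    simp [Divisor.degree_single, hdegK]
  obtain ⟨u, hu, hli⟩ := lat E J (by rw [hdegE]; omega)
  have hspE : Finsupp.mapDomain sp E = Ek + Finsupp.single (sp (R i)) 1 := by
    rw [hE, hEk, Finsupp.mapDomain_add, Finsupp.mapDomain_single, hD0,
      Finsupp.mapDomain_finsetSum, add_assoc, ← Finsupp.single_add]
    simp only [Finsupp.mapDomain_single]
    rw [hD0k]
    congr 2
    ring
  have hmem : ∀ j, red (u j) ∈ riemannRochSpace (Ek + Finsupp.single (sp (R i)) 1) := by
    intro j
    rw [← hspE]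
    exact red_mem_rr hC (hli.ne_zero j) E (hu j)
  -- `L_k(D0k)` is at most one-dimensional
  have hsub : riemannRochSpace D0k ≤ Submodule.span k {(1 : Fk)} := by
    intro w hw
    by_cases hw0 : w = 0
    · rw [hw0]; exact zero_mem _
    have hw1 : ∀ s, (∀ i, s ≠ sp (R i)) → 0 ≤ s.ord w := by
      intro s hs
      have := hw s
      rw [hD0k, Fermat.Agent.S37.helper126.sum_single_apply_of_ne (fun j => sp (R j)) s
        (fun j => (hs j).symm), exp_zero] at this
      exact ord_nonneg_of_val_le_one s this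
    have hw2 : ∀ j, -1 ≤ (sp (R j)).ord w := by
      intro j
      have := hw (sp (R j))
      rw [hD0k, Fermat.Agent.S37.helper126.sum_single_apply_self (fun j => sp (R j)) hinj j]
        at this
      rcases (Place.adicValuation_le_exp_iff _).mp this with h | h
      · exact absurd h hw0
      · exact h
    obtain ⟨a, ha⟩ := hNS w hw0 hw1 hw2
    rw [← ha, Algebra.algebraMap_eq_smul_one]
    exact Submodule.smul_mem _ _ (Submodule.mem_span_singleton_self 1)
  have hfin0 : Module.Finite k (riemannRochSpace D0k) := Submodule.finiteDimensional_of_le hsub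
  have hrk0 : finrank k (riemannRochSpace D0k) ≤ 1 := by
    have h1 := Submodule.finrank_mono hsub
    rwa [finrank_span_singleton (one_ne_zero)] at h1
  have hle : D0k ≤ Ek := by
    rw [hEk]
    exact le_add_of_nonneg_right (Finsupp.single_nonneg.mpr (by omega))
  obtain ⟨hfinE, hrkE⟩ := Fermat.Agent.S18.helper981.finite_and_le_of_le hdegk hle hfin0
  have hdegEk : Divisor.degree Ek - Divisor.degree D0k = (J : ℤ) - 2 := by
    rw [hEk, map_add, Divisor.degree_single, hdegk]
    simp
  by_contra hcon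
  push Not at hcon
  have hall : ∀ j, red (u j) ∈ riemannRochSpace Ek := by
    intro j
    by_contra hnot
    have hval := Fermat.Agent.S18.helper981.val_eq_of_mem_succ_of_not_mem Ek (sp (R i))
      (hmem j) hnot
    have hEki : Ek (sp (R i)) = (J : ℤ) - 1 := by
      rw [hEk, Finsupp.add_apply, hD0k,
        Fermat.Agent.S37.helper126.sum_single_apply_self (fun j => sp (R j)) hinj i,
        Finsupp.single_eq_same]
      ring
    refine hcon (u j) ⟨fun Q hQ => ?_, fun i' hi' => ?_, ?_, hli.ne_zero j, ?_⟩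
    · have := hu j Q
      rwa [hE, Finsupp.add_apply, hD0,
        Fermat.Agent.S37.helper126.sum_single_apply_of_ne R Q (fun j => (hQ j).symm),
        Finsupp.single_apply, if_neg (fun h => hQ i h.symm), add_zero, exp_zero] at this
    · have := hu j (R i')
      rwa [hE, Finsupp.add_apply, hD0,
        Fermat.Agent.S37.helper126.sum_single_apply_self R hRinj i',
        Finsupp.single_apply, if_neg (fun h => hi' (hRinj h).symm), add_zero] at this
    · have := hu j (R i)
      rw [hE, Finsupp.add_apply, hD0,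
        Fermat.Agent.S37.helper126.sum_single_apply_self R hRinj i,
        Finsupp.single_eq_same] at this
      have h1 : (1 : ℤ) + ((J : ℤ) - 1) = (J : ℤ) := by ring
      rwa [h1] at this
    · rw [hEki, Place.adicValuation_eq_exp_neg_ord _ (hli.ne_zero j), exp_inj] at hval
      omega
  have := hfinE
  have hli' : LinearIndependent k
      (fun j : Fin J => (⟨red (u j), hall j⟩ : riemannRochSpace Ek)) := by
    apply LinearIndependent.of_comp (riemannRochSpace Ek).subtype
    exact hli
  have hcard := hli'.fintype_card_le_finrank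
  rw [Fintype.card_fin] at hcard
  have h2 : (finrank k (riemannRochSpace Ek) : ℤ) ≤ 1 + ((J : ℤ) - 2) := by
    have h3 : (finrank k (riemannRochSpace D0k) : ℤ) ≤ 1 := by exact_mod_cast hrk0
    omega
  have h4 : (J : ℤ) ≤ finrank k (riemannRochSpace Ek) := by exact_mod_cast hcard
  omega

/-- **Property (U) of the adapted cover** on the special fibre: the reductions of the cover
functions are linearly independent modulo (functions regular off `sp Pinf`) + (functions
regular off the `sp (R i)`). -/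
theorem cover_U (hC : Cons O red sp)
    (R : Fin g → Place K F) (Pinf : Place K F)
    (hinj : Function.Injective fun i => sp (R i)) (hinf : ∀ i, sp Pinf ≠ sp (R i))
    (hNS : ∀ w : Fk, w ≠ 0 → (∀ s, (∀ i, s ≠ sp (R i)) → 0 ≤ s.ord w) →
      (∀ i, -1 ≤ (sp (R i)).ord w) → w ∈ Set.range (algebraMap k Fk))
    (e : Fin g → O) (he : ∀ i, IsCoverFn red sp R Pinf i (e i))
    (c : Fin g → k) (g1 g2 : Fk)
    (hg1 : ∀ s, s ≠ sp Pinf → 0 ≤ s.ord g1)
    (hg2 : ∀ s, (∀ i, s ≠ sp (R i)) → 0 ≤ s.ord g2)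
    (h : ∑ i, c i • red (e i) = g1 + g2) : ∀ i, c i = 0 := by
  classical
  have hval1 : ∀ (s : Place k Fk) (w : Fk), 0 ≤ s.ord w → s.adicValuation w ≤ 1 :=
    fun s w hw => (Place.adicValuation_le_one_iff s).mpr (Or.inr hw)
  -- regularity of the reductions at the other points
  have hF1 : ∀ i j, j ≠ i → (sp (R i)).adicValuation (red (e j)) ≤ 1 := by
    intro i j hji
    refine hval1 _ _ (hC.ord_red_nonneg (he j).red_ne (sp (R i)) fun P hP => ?_)
    refine ord_nonneg_of_val_le_one P ((he j).reg P (fun h => hinf i (by rw [← h, hP])) fun h => ?_)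
    exact hji (hinj (by simp only [← h, hP]))
  have hF2 : ∀ i, (sp (R i)).adicValuation (red (e i)) ≤ exp (1 : ℤ) := by
    intro i
    rw [Place.adicValuation_le_exp_iff]
    right
    exact tube_ord_red_ge hC (e i) (R i) 1
      (fun Q hQ hQR => (he i).reg Q (fun h => hinf i (by rw [← h, hQ])) hQR) (he i).pole
      (he i).red_ne
  have hone : (1 : ℤᵐ⁰) ≤ exp (1 : ℤ) := by
    rw [← exp_zero, exp_le_exp]; exact zero_le_one
  have hg2eq : g2 = ∑ i, c i • red (e i) - g1 := by rw [h]; ring
  -- `g2` is regular everywhere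
  have hg2reg : ∀ s : Place k Fk, s.adicValuation g2 ≤ 1 := by
    by_cases hg20 : g2 = 0
    · intro s; rw [hg20, map_zero]; exact zero_le_one
    have hg2' : ∀ i, -1 ≤ (sp (R i)).ord g2 := by
      intro i
      have hle : (sp (R i)).adicValuation g2 ≤ exp (1 : ℤ) := by
        rw [hg2eq]
        refine (Valuation.map_sub _ _ _).trans (max_le (val_sum_le _ _ _ fun j _ => ?_)
          ((hval1 _ _ (hg1 _ (fun h => hinf i h.symm))).trans hone))
        refine (adicValuation_smul_le _ _ _).trans ?_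
        by_cases hji : j = i
        · subst hji; exact hF2 j
        · exact (hF1 i j hji).trans hone
      rcases (Place.adicValuation_le_exp_iff _).mp hle with h0 | h0
      · exact absurd h0 hg20
      · exact h0
    obtain ⟨a, ha⟩ := hNS g2 hg20 hg2 hg2'
    intro s
    rw [← ha]
    exact s.adicValuation_algebraMap_le_one a
  intro i
  by_contra hci
  have hsplit : c i • red (e i) = g1 + g2 - ∑ j ∈ Finset.univ.erase i, c j • red (e j) := by
    rw [← h, ← Finset.add_sum_erase Finset.univ _ (Finset.mem_univ i)]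
    ring
  have hle : (sp (R i)).adicValuation (c i • red (e i)) ≤ 1 := by
    rw [hsplit]
    refine (Valuation.map_sub _ _ _).trans (max_le ((Valuation.map_add _ _ _).trans
      (max_le (hval1 _ _ (hg1 _ (fun h => hinf i h.symm))) (hg2reg _)))
      (val_sum_le _ _ _ fun j hj => ?_))
    exact (adicValuation_smul_le _ _ _).trans (hF1 i j (Finset.ne_of_mem_erase hj))
  rw [adicValuation_smul _ hci] at hle
  have := (Place.not_adicValuation_le_one_iff (sp (R i))).mpr
    (show (sp (R i)).ord (red (e i)) < 0 by have := (he i).red_pole; omega)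
  exact this hle

/-- **Existence of the cover functions** (not yet inertia-fixed): for `n` large there is a
Gauss-integral element of `L(n Poo + R₀)` whose reduction has a simple pole at `sp R₀`.  Inputs:
the lattice hypothesis `lat` and the upper Riemann bound `rk` on the special fibre in degree
`≥ c` (both fields of `LatHyp`, same `γ`). -/
theorem exists_cover_lift (hC : Cons O red sp)
    (hdegK : ∀ P : Place K F, P.deg = 1) (hdegk : ∀ s : Place k Fk, s.deg = 1)
    (γ c : ℤ)
    (lat : ∀ (E : Divisor K F) (n : ℕ), (n : ℤ) ≤ Divisor.degree E + 1 - γ →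
      ∃ u : Fin n → O, (∀ i, (u i : F) ∈ riemannRochSpace E) ∧
        LinearIndependent k (fun i => red (u i)))
    (rk : ∀ (D : Divisor k Fk) (n : ℕ) (v : Fin n → Fk), LinearIndependent k v →
      (∀ i, v i ∈ riemannRochSpace D) → c ≤ Divisor.degree D →
        (n : ℤ) ≤ Divisor.degree D + 1 - γ)
    (Poo R₀ : Place K F) (hne : sp Poo ≠ sp R₀) (n : ℤ) (hn : c ≤ n) (hn' : γ ≤ n + 1) :
    ∃ u : O, (u : F) ∈ riemannRochSpace (Finsupp.single Poo n + Finsupp.single R₀ 1) ∧
      red u ≠ 0 ∧ (sp R₀).ord (red u) = -1 := by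
  classical
  set E : Divisor K F := Finsupp.single Poo n + Finsupp.single R₀ 1 with hE
  set Dk : Divisor k Fk := Finsupp.single (sp Poo) n with hDk
  have hdegE : Divisor.degree E = n + 1 := by
    rw [hE, map_add, Divisor.degree_single, Divisor.degree_single, hdegK, hdegK]
    simp
  have hdegDk : Divisor.degree Dk = n := by
    rw [hDk, Divisor.degree_single, hdegk]
    simp
  set N : ℕ := (n + 2 - γ).toNat with hN
  have hNz : (N : ℤ) = n + 2 - γ := by rw [hN]; omega
  obtain ⟨u, hu, hli⟩ := lat E N (by rw [hdegE]; omega)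
  have hspE : Finsupp.mapDomain sp E = Dk + Finsupp.single (sp R₀) 1 := by
    rw [hE, hDk, Finsupp.mapDomain_add, Finsupp.mapDomain_single, Finsupp.mapDomain_single]
  have hmem : ∀ j, red (u j) ∈ riemannRochSpace (Dk + Finsupp.single (sp R₀) 1) := by
    intro j
    rw [← hspE]
    exact red_mem_rr hC (hli.ne_zero j) E (hu j)
  by_contra hcon
  push Not at hcon
  have hall : ∀ j, red (u j) ∈ riemannRochSpace Dk := by
    intro j
    by_contra hnot
    have hval := Fermat.Agent.S18.helper981.val_eq_of_mem_succ_of_not_mem Dk (sp R₀)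
      (hmem j) hnot
    have hDk0 : Dk (sp R₀) = 0 := by
      rw [hDk, Finsupp.single_apply, if_neg hne]
    rw [hDk0, Place.adicValuation_eq_exp_neg_ord _ (hli.ne_zero j), exp_inj] at hval
    exact hcon (u j) (hu j) (hli.ne_zero j) (by omega)
  have := rk Dk N (fun j => red (u j)) hli hall (by rw [hdegDk]; exact hn)
  rw [hdegDk] at this
  omega

end Special

section Sys

open Fermat.Agent.S37.helper126

variable {K F k Fk : Type*} [Field K] [Field F] [Algebra K F] [Field k] [Field Fk] [Algebra k Fk]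
variable {O : ValuationSubring F} {red : O →+* Fk} {sp : Place K F → Place k Fk}
variable {g : ℕ}
variable [HasPrincipalDivisors K F]

omit [HasPrincipalDivisors K F] in
/-- The hypotheses on `e i` of the adapted system (SYS) give a cover function. -/
theorem isCoverFn_of_sys (R : Fin g → Place K F) (Pinf : Place K F) (i : Fin g) (e : F)
    (heO : e ∈ O) (he_ord : (R i).ord e = -1)
    (he_reg : ∀ Q, Q ≠ Pinf → Q ≠ R i → 0 ≤ Q.ord e)
    (he_red : (sp (R i)).ord (rd O red e) = -1) :
    IsCoverFn red sp R Pinf i ⟨e, heO⟩ := by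
  have hne : red ⟨e, heO⟩ ≠ 0 := by
    intro h
    rw [rd_of_mem O red heO, h, Place.ord_zero] at he_red
    omega
  refine ⟨fun Q hQ hQR => (Place.adicValuation_le_one_iff Q).mpr (Or.inr (he_reg Q hQ hQR)),
    (Place.adicValuation_le_exp_iff _).mpr (Or.inr (by rw [he_ord])), hne, ?_⟩
  rw [← rd_of_mem O red heO, he_red]

omit [HasPrincipalDivisors K F] in
/-- Variant of `isCoverFn_of_sys` with the weak pole hypothesis `-1 ≤ ord` and regularity in
valuation form. -/
theorem isCoverFn_of_sys' (R : Fin g → Place K F) (Pinf : Place K F) (i : Fin g) (e : F)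
    (heO : e ∈ O) (he_pole : -1 ≤ (R i).ord e)
    (he_reg : ∀ Q, Q ≠ Pinf → Q ≠ R i → Q.adicValuation e ≤ 1)
    (he_red : (sp (R i)).ord (rd O red e) = -1) :
    IsCoverFn red sp R Pinf i ⟨e, heO⟩ := by
  have hne : red ⟨e, heO⟩ ≠ 0 := by
    intro h
    rw [rd_of_mem O red heO, h, Place.ord_zero] at he_red
    omega
  refine ⟨he_reg, (Place.adicValuation_le_exp_iff _).mpr (Or.inr (by omega)), hne, ?_⟩
  rw [← rd_of_mem O red heO, he_red]

/-- **S19-CALG-COVER, (E) and (U), pole-lowering proof** in the Core vocabulary and the (SYS)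
shape of the adapted system.

Inputs: the conservation law, `red` kills the non-units of `O`, degree-one places on both
fibres, the lattice hypothesis (`LatHyp.lat` shape, any `γ ≤ g`), a non-special system
`R : Fin g → Place K F` (`hNS` in the `helper126.exists_canonical` shape), a place `Pinf` outside
the tubes of the `sp (R i)`, and functions `e i ∈ O` regular away from `Pinf, R i` with a simple
pole at `R i` whose reductions have a simple pole at `sp (R i)`.

Outputs: (E) every `f ∈ O` regular away from `Pinf` and the `R i` is `b₁ + b₂ + ∑ aᵢ eᵢ` with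
`b₁ ∈ O` regular away from `Pinf`, `b₂ ∈ O` regular away from the `R i`, and Gauss-integral
constants `aᵢ`; (U) the reductions of the `e i` are linearly independent modulo (regular off
`sp Pinf`) + (regular off the `sp (R i)`). -/
theorem cover_sys (hker : ∀ y : O, ¬ IsUnit y → red y = 0) (hcons : Conservation O red sp)
    (hdegK : ∀ P : Place K F, P.deg = 1) (hdegk : ∀ s : Place k Fk, s.deg = 1)
    (γ : ℤ) (hγ : γ ≤ (g : ℤ))
    (lat : ∀ (E : Divisor K F) (n : ℕ), (n : ℤ) ≤ Divisor.degree E + 1 - γ →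
      ∃ u : Fin n → O, (∀ i, (u i : F) ∈ riemannRochSpace E) ∧
        LinearIndependent k (fun i => red (u i)))
    (R : Fin g → Place K F) (Pinf : Place K F)
    (hinj : Function.Injective fun i => sp (R i)) (hinf : ∀ i, sp Pinf ≠ sp (R i))
    (hNS : ∀ w : Fk, w ≠ 0 → (∀ s, (∀ i, s ≠ sp (R i)) → 0 ≤ s.ord w) →
      (∀ i, -1 ≤ (sp (R i)).ord w) → w ∈ Set.range (algebraMap k Fk))
    (e : Fin g → F) (heO : ∀ i, e i ∈ O) (he_ord : ∀ i, (R i).ord (e i) = -1)
    (he_reg : ∀ i Q, Q ≠ Pinf → Q ≠ R i → 0 ≤ Q.ord (e i))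
    (he_red : ∀ i, (sp (R i)).ord (rd O red (e i)) = -1) :
    (∀ f : F, f ∈ O → (∀ Q, Q ≠ Pinf → (∀ i, Q ≠ R i) → 0 ≤ Q.ord f) →
      ∃ (b1 b2 : F) (a : Fin g → K), b1 ∈ O ∧ (∀ Q, Q ≠ Pinf → 0 ≤ Q.ord b1) ∧
        b2 ∈ O ∧ (∀ Q, (∀ i, Q ≠ R i) → 0 ≤ Q.ord b2) ∧
        (∀ i, algebraMap K F (a i) ∈ O) ∧
        f = b1 + b2 + ∑ i, algebraMap K F (a i) * e i) ∧
    (∀ (c : Fin g → k) (g1 g2 : Fk), (∀ s, s ≠ sp Pinf → 0 ≤ s.ord g1) →
      (∀ s, (∀ i, s ≠ sp (R i)) → 0 ≤ s.ord g2) →
      ∑ i, c i • rd O red (e i) = g1 + g2 → ∀ i, c i = 0) := by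
  have hC : Cons O red sp := hcons
  have he : ∀ i, IsCoverFn red sp R Pinf i ⟨e i, heO i⟩ := fun i =>
    isCoverFn_of_sys R Pinf i (e i) (heO i) (he_ord i) (he_reg i) (he_red i)
  refine ⟨fun f hfO hf => ?_, fun c g1 g2 hg1 hg2 h => ?_⟩
  · obtain ⟨b1, b2, a, hb1O, hb1, hb2O, hb2, ha, hdec⟩ :=
      cover_E hC hker R Pinf (fun i => hdegK (R i)) hinj hinf (fun i => ⟨e i, heO i⟩) he
        (fun i J hJ => exists_lowering hC hdegK hdegk γ hγ lat R hinj hNS i J hJ) f hfO
        (fun Q hQ hQR => (Place.adicValuation_le_one_iff Q).mpr (Or.inr (hf Q hQ hQR)))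
    exact ⟨b1, b2, a, hb1O, fun Q hQ => ord_nonneg_of_val_le_one Q (hb1 Q hQ), hb2O,
      fun Q hQ => ord_nonneg_of_val_le_one Q (hb2 Q hQ), ha, hdec⟩
  · refine cover_U hC R Pinf hinj hinf hNS (fun i => ⟨e i, heO i⟩) he c g1 g2 hg1 hg2 ?_
    rw [← h]
    exact Finset.sum_congr rfl fun i _ => by rw [rd_of_mem O red (heO i)]

/-- `red` kills the non-units of `O` (weak form of `RedKer`). -/
theorem red_nonunit_of_redKer (hker : RedKer O red) : ∀ y : O, ¬ IsUnit y → red y = 0 := by
  intro y hy
  rw [hker y, ValuationSubring.coe_mem_nonunits_iff, IsLocalRing.mem_maximalIdeal,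
    mem_nonunits_iff]
  exact hy

/-- **(E), VERBATIM the field `hE` of `helper6256.IsAdaptedCover`**, from the other fields of
the structure (`hA`, `hker`, `hcons`, `hdeg`, `hinj`, `hoo`, `hNS`, `he_mem`, `he_reg`,
`he_pole`, `he_red`) and two facts of the lattice layer: degree-one places on the special fibre
and the lattice hypothesis `lat` (`LatHyp.lat` shape with any `γ ≤ g`). -/
theorem hE_of_lat {A : ValuationSubring K} (hA : ∀ a : K, algebraMap K F a ∈ O ↔ a ∈ A)
    (hker : RedKer O red) (hcons : Conservation O red sp)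
    (hdeg : ∀ P : Place K F, P.deg = 1) (hdegk : ∀ s : Place k Fk, s.deg = 1)
    (γ : ℤ) (hγ : γ ≤ (g : ℤ))
    (lat : ∀ (E : Divisor K F) (n : ℕ), (n : ℤ) ≤ Divisor.degree E + 1 - γ →
      ∃ u : Fin n → O, (∀ i, (u i : F) ∈ riemannRochSpace E) ∧
        LinearIndependent k (fun i => red (u i)))
    (R : Fin g → Place K F) (Poo : Place K F)
    (hinj : Function.Injective fun i => sp (R i)) (hoo : ∀ i, sp Poo ≠ sp (R i))
    (hNS : ∀ w : Fk, w ≠ 0 → (∀ s, (∀ i, s ≠ sp (R i)) → 0 ≤ s.ord w) →
      (∀ i, -1 ≤ (sp (R i)).ord w) → w ∈ Set.range (algebraMap k Fk))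
    (e : Fin g → F) (he_mem : ∀ i, e i ∈ O)
    (he_reg : ∀ i P, P ≠ Poo → P ≠ R i → e i ∈ P.toValuationSubring)
    (he_pole : ∀ i, -1 ≤ (R i).ord (e i))
    (he_red : ∀ i, (sp (R i)).ord (rd O red (e i)) = -1) :
    ∀ f ∈ O, (∀ P, P ≠ Poo → (∀ i, P ≠ R i) → f ∈ P.toValuationSubring) →
      ∃ (f₁ f₂ : F) (a : Fin g → K), f₁ ∈ O ∧ f₂ ∈ O ∧ (∀ i, a i ∈ A) ∧
        (∀ P, P ≠ Poo → f₁ ∈ P.toValuationSubring) ∧
        (∀ P, (∀ i, P ≠ R i) → f₂ ∈ P.toValuationSubring) ∧
        f = f₁ + f₂ + ∑ i, algebraMap K F (a i) * e i := by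
  intro f hfO hf
  have hC : Cons O red sp := hcons
  have hker' := red_nonunit_of_redKer hker
  have he : ∀ i, IsCoverFn red sp R Poo i ⟨e i, he_mem i⟩ := fun i =>
    isCoverFn_of_sys' R Poo i (e i) (he_mem i) (he_pole i)
      (fun Q hQ hQR => Q.adicValuation_le_one_of_mem (he_reg i Q hQ hQR)) (he_red i)
  obtain ⟨b1, b2, a, hb1O, hb1, hb2O, hb2, ha, hdec⟩ :=
    cover_E hC hker' R Poo (fun i => hdeg (R i)) hinj hoo (fun i => ⟨e i, he_mem i⟩) he
      (fun i J hJ => exists_lowering hC hdeg hdegk γ hγ lat R hinj hNS i J hJ) f hfO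
      (fun Q hQ hQR => Q.adicValuation_le_one_of_mem (hf Q hQ hQR))
  exact ⟨b1, b2, a, hb1O, hb2O, fun i => (hA (a i)).mp (ha i),
    fun P hP => (val_le_one_iff_mem P).mp (hb1 P hP),
    fun P hP => (val_le_one_iff_mem P).mp (hb2 P hP), hdec⟩

/-- **(U), VERBATIM the hypothesis `hU` of `helper2570.key_of_factor`** (index type `Fin g`),
from fields of `helper6256.IsAdaptedCover` only (`hcons`, `hinj`, `hoo`, `hNS`, `he_mem`,
`he_reg`, `he_pole`, `he_red`). -/
theorem hU_of_sys (hcons : Conservation O red sp)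
    (R : Fin g → Place K F) (Pinf : Place K F)
    (hinj : Function.Injective fun i => sp (R i)) (hPinf : ∀ i, sp Pinf ≠ sp (R i))
    (hNS : ∀ w : Fk, w ≠ 0 → (∀ s, (∀ i, s ≠ sp (R i)) → 0 ≤ s.ord w) →
      (∀ i, -1 ≤ (sp (R i)).ord w) → w ∈ Set.range (algebraMap k Fk))
    (e : Fin g → F) (heO : ∀ i, e i ∈ O)
    (he_reg : ∀ i P, P ≠ Pinf → P ≠ R i → e i ∈ P.toValuationSubring)
    (he_pole : ∀ i, -1 ≤ (R i).ord (e i))
    (he_red : ∀ i, (sp (R i)).ord (rd O red (e i)) = -1) :
    ∀ (c : Fin g → k) (g₁ g₂ : Fk),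
      (∀ s : Place k Fk, s ≠ sp Pinf → g₁ ∈ s.toValuationSubring) →
      (∀ s : Place k Fk, (∀ i, s ≠ sp (R i)) → g₂ ∈ s.toValuationSubring) →
      ∑ i, algebraMap k Fk (c i) * rd O red (e i) = g₁ + g₂ → ∀ i, c i = 0 := by
  intro c g1 g2 hg1 hg2 h
  have hC : Cons O red sp := hcons
  have he : ∀ i, IsCoverFn red sp R Pinf i ⟨e i, heO i⟩ := fun i =>
    isCoverFn_of_sys' R Pinf i (e i) (heO i) (he_pole i)
      (fun Q hQ hQR => Q.adicValuation_le_one_of_mem (he_reg i Q hQ hQR)) (he_red i)
  refine cover_U hC R Pinf hinj hPinf hNS (fun i => ⟨e i, heO i⟩) he c g1 g2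
    (fun s hs => Fermat.Agent.S37.helper126.ord_nonneg_of_mem s (hg1 s hs))
    (fun s hs => Fermat.Agent.S37.helper126.ord_nonneg_of_mem s (hg2 s hs)) ?_
  rw [← h]
  exact Finset.sum_congr rfl fun i _ => by rw [rd_of_mem O red (heO i), Algebra.smul_def]

end Sys

section Packaging

variable {K F : Type*} [Field K] [Field F] [Algebra K F]

/-- Gauss-integral functions regular away from a set `S` of places, as a subalgebra over the
valuation ring `A` of the constants. -/
def regAlg (A : ValuationSubring K) (O : ValuationSubring F)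
    (hA : ∀ a : K, a ∈ A → algebraMap K F a ∈ O) (S : Set (Place K F)) : Subalgebra A F where
  carrier := {f | f ∈ O ∧ ∀ P : Place K F, P ∉ S → f ∈ P.toValuationSubring}
  mul_mem' := fun hf hg => ⟨O.mul_mem _ _ hf.1 hg.1, fun P hP =>
    P.toValuationSubring.mul_mem _ _ (hf.2 P hP) (hg.2 P hP)⟩
  add_mem' := fun hf hg => ⟨O.add_mem _ _ hf.1 hg.1, fun P hP =>
    P.toValuationSubring.add_mem _ _ (hf.2 P hP) (hg.2 P hP)⟩
  algebraMap_mem' := fun a => ⟨hA a a.2, fun P _ => P.algebraMap_mem' (a : K)⟩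

theorem mem_regAlg {A : ValuationSubring K} {O : ValuationSubring F}
    {hA : ∀ a : K, a ∈ A → algebraMap K F a ∈ O} {S : Set (Place K F)} {f : F} :
    f ∈ regAlg A O hA S ↔ f ∈ O ∧ ∀ P : Place K F, P ∉ S → f ∈ P.toValuationSubring :=
  Iff.rfl

theorem regAlg_mono {A : ValuationSubring K} {O : ValuationSubring F}
    (hA : ∀ a : K, a ∈ A → algebraMap K F a ∈ O) {S T : Set (Place K F)} (h : S ⊆ T) :
    regAlg A O hA S ≤ regAlg A O hA T :=
  fun _ hf => ⟨hf.1, fun P hP => hf.2 P fun hPS => hP (h hPS)⟩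

variable {g : ℕ}

/-- **(E) in the shape `helper8101.exists_law_valued` consumes** (`R₀ := ↥A`): with
`B₁ = regAlg {Poo}`, `B₂ = regAlg (range R)`, `B₁₂ = regAlg ({Poo} ∪ range R)`,
`B₁, B₂ ≤ B₁₂`, `e i ∈ B₁₂`, `B₁₂ ⊆ O`, and `B₁₂ ≤ B₁ + B₂ + ∑ A e i` as `A`-submodules.  Input:
the field `hE` of `helper6256.IsAdaptedCover` verbatim, `he_mem`, `he_reg`. -/
theorem cech_span_of_hE {A : ValuationSubring K} {O : ValuationSubring F}
    (hA : ∀ a : K, algebraMap K F a ∈ O ↔ a ∈ A)
    (R : Fin g → Place K F) (Poo : Place K F) (e : Fin g → F) (he_mem : ∀ i, e i ∈ O)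
    (he_reg : ∀ i P, P ≠ Poo → P ≠ R i → e i ∈ P.toValuationSubring)
    (hE : ∀ f ∈ O, (∀ P, P ≠ Poo → (∀ i, P ≠ R i) → f ∈ P.toValuationSubring) →
      ∃ (f₁ f₂ : F) (a : Fin g → K), f₁ ∈ O ∧ f₂ ∈ O ∧ (∀ i, a i ∈ A) ∧
        (∀ P, P ≠ Poo → f₁ ∈ P.toValuationSubring) ∧
        (∀ P, (∀ i, P ≠ R i) → f₂ ∈ P.toValuationSubring) ∧
        f = f₁ + f₂ + ∑ i, algebraMap K F (a i) * e i) :
    regAlg A O (fun a ha => (hA a).mpr ha) {Poo}
        ≤ regAlg A O (fun a ha => (hA a).mpr ha) ({Poo} ∪ Set.range R) ∧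
      regAlg A O (fun a ha => (hA a).mpr ha) (Set.range R)
        ≤ regAlg A O (fun a ha => (hA a).mpr ha) ({Poo} ∪ Set.range R) ∧
      (∀ i, e i ∈ regAlg A O (fun a ha => (hA a).mpr ha) ({Poo} ∪ Set.range R)) ∧
      (∀ b ∈ regAlg A O (fun a ha => (hA a).mpr ha) ({Poo} ∪ Set.range R), b ∈ O) ∧
      Subalgebra.toSubmodule (regAlg A O (fun a ha => (hA a).mpr ha) ({Poo} ∪ Set.range R))
        ≤ Subalgebra.toSubmodule (regAlg A O (fun a ha => (hA a).mpr ha) {Poo})
          ⊔ Subalgebra.toSubmodule (regAlg A O (fun a ha => (hA a).mpr ha) (Set.range R))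
          ⊔ Submodule.span A (Set.range e) := by
  refine ⟨regAlg_mono _ Set.subset_union_left, regAlg_mono _ Set.subset_union_right,
    fun i => ⟨he_mem i, fun P hP => ?_⟩, fun b hb => hb.1, ?_⟩
  · refine he_reg i P (fun h => hP (Or.inl h)) fun h => hP (Or.inr ⟨i, h.symm⟩)
  · intro f hf
    obtain ⟨f₁, f₂, a, hf₁, hf₂, ha, hf₁reg, hf₂reg, hdec⟩ := hE f hf.1 fun P hP hPR =>
      hf.2 P (by
        rintro (h | ⟨i, h⟩)
        · exact hP h
        · exact hPR i h.symm)
    rw [hdec]
    refine Submodule.add_mem _ (Submodule.add_mem _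
      (Submodule.mem_sup_left (Submodule.mem_sup_left ?_))
      (Submodule.mem_sup_left (Submodule.mem_sup_right ?_)))
      (Submodule.mem_sup_right (Submodule.sum_mem _ fun i _ => ?_))
    · exact ⟨hf₁, fun P hP => hf₁reg P hP⟩
    · exact ⟨hf₂, fun P hP => hf₂reg P fun i h => hP ⟨i, h.symm⟩⟩
    · have : algebraMap K F (a i) * e i = (⟨a i, ha i⟩ : A) • e i := by
        rw [Algebra.smul_def]; rfl
      rw [this]
      exact Submodule.smul_mem _ _ (Submodule.subset_span ⟨i, rfl⟩)

end Packaging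

end Fermat.Agent.S19.helper9726

end
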