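import Fermat.Agent.S19.helper9726_Cover
import Fermat.Agent.S37.helper126_TorsionGlue

/-!
# S19-CALG-COVER (backup copy, helper9726): the cover facts from the lattice bundle `LatHyp`

Corollaries of `helper9726_Cover` for `H : S37.helper5413.LatHyp O red g c E₀ E₀k` and
`sp := H.placeRed`, in the shapes the C-alg cover wire consumes:

* `hE_of_latHyp`: the field `hE` of `helper6256.IsAdaptedCover`, verbatim, from the other fields;
* `exists_cover_lift_of_latHyp`: for `n ≥ c`, `n + 1 ≥ g` and `sp Poo ≠ sp R₀` there is a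
  Gauss-integral element of `L(n Poo + R₀)` whose reduction has a simple pole at `sp R₀`.
-/

set_option autoImplicit false

noncomputable section

open AlgebraicCurve

namespace Fermat.Agent.S19.helper9726

open Fermat.Agent.S37.helper5413 Fermat.Agent.S37.helper126

variable {L F k Fk : Type*} [Field L] [Field F] [Algebra L F] [Field k] [Field Fk] [Algebra k Fk]
variable {O : ValuationSubring F} {red : O →+* Fk} {g c : ℤ}
  {E₀ : Divisor L F} {E₀k : Divisor k Fk}

/-- **(E) from the lattice bundle**: VERBATIM the field `hE` of `helper6256.IsAdaptedCover` for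
`sp := H.placeRed`, from `hA`, `hinj`, `hoo`, `hNS`, `he_mem`, `he_reg`, `he_pole`, `he_red`
and `g ≤ n` (`n` = number of points of the non-special system). -/
theorem hE_of_latHyp [HasPrincipalDivisors L F] (H : LatHyp O red g c E₀ E₀k)
    {A : ValuationSubring L} (hA : ∀ a : L, algebraMap L F a ∈ O ↔ a ∈ A)
    {n : ℕ} (hg : g ≤ (n : ℤ)) (R : Fin n → Place L F) (Poo : Place L F)
    (hinj : Function.Injective fun i => H.placeRed (R i))
    (hoo : ∀ i, H.placeRed Poo ≠ H.placeRed (R i))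
    (hNS : ∀ w : Fk, w ≠ 0 → (∀ s, (∀ i, s ≠ H.placeRed (R i)) → 0 ≤ s.ord w) →
      (∀ i, -1 ≤ (H.placeRed (R i)).ord w) → w ∈ Set.range (algebraMap k Fk))
    (e : Fin n → F) (he_mem : ∀ i, e i ∈ O)
    (he_reg : ∀ i P, P ≠ Poo → P ≠ R i → e i ∈ P.toValuationSubring)
    (he_pole : ∀ i, -1 ≤ (R i).ord (e i))
    (he_red : ∀ i, (H.placeRed (R i)).ord (rd O red (e i)) = -1) :
    ∀ f ∈ O, (∀ P, P ≠ Poo → (∀ i, P ≠ R i) → f ∈ P.toValuationSubring) →
      ∃ (f₁ f₂ : F) (a : Fin n → L), f₁ ∈ O ∧ f₂ ∈ O ∧ (∀ i, a i ∈ A) ∧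
        (∀ P, P ≠ Poo → f₁ ∈ P.toValuationSubring) ∧
        (∀ P, (∀ i, P ≠ R i) → f₂ ∈ P.toValuationSubring) ∧
        f = f₁ + f₂ + ∑ i, algebraMap L F (a i) * e i :=
  hE_of_lat hA (redKer_of_nonunit H.red_nonunit) (LatHypGlue.cons H) H.degL H.degk g hg H.lat
    R Poo hinj hoo hNS e he_mem he_reg he_pole he_red

/-- **Cover functions from the lattice bundle** (before making them inertia-fixed): a
Gauss-integral element of `L(n Poo + R₀)` whose reduction has a simple pole at `sp R₀`. -/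
theorem exists_cover_lift_of_latHyp [HasPrincipalDivisors L F] (H : LatHyp O red g c E₀ E₀k)
    (Poo R₀ : Place L F) (hne : H.placeRed Poo ≠ H.placeRed R₀) (n : ℤ) (hn : c ≤ n)
    (hn' : g ≤ n + 1) :
    ∃ u : O, (u : F) ∈ riemannRochSpace (Finsupp.single Poo n + Finsupp.single R₀ 1) ∧
      red u ≠ 0 ∧ (H.placeRed R₀).ord (red u) = -1 :=
  exists_cover_lift (LatHypGlue.cons H) H.degL H.degk g c H.lat
    (fun D m v hv hmem hc => (H.rk D m v hv hmem).2 hc) Poo R₀ hne n hn hn'

end Fermat.Agent.S19.helper9726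

end
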